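/-
S18 (reduction of prime-to-`ℓ` torsion of `J₀(N)` is injective), TOP INTERFACE.
Architect: helper13.  Prefix `s18_`.  Definitions and `Prop`s only (plus the final composition).

ROUTE (lead #880, reviews #907/#922).  `A` a valuation ring of `Q̄` over `ℓ`, `ℓ ∤ N`, `ℓ ∤ m`.

  (STAR) at level `N`:  if `a, b ∈ A((q))` lie in the function field `F̄_N = Q̄(j(q^d) : d ∣ N)`,
         have the SAME non-zero reduction in `k((q))`, and `m ∣ ord_P(a/b)` at EVERY place `P` of
         `F̄_N / Q̄`, then `a / b` is an `m`-th power in `F̄_N`.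

  [WIRE]    (STAR) at level `N`  ⟹  the statement S18 at level `N`          (formal, uses `h`)
  [DOWN]    (STAR) at level `M = lcm(N, 4)` (`ℓ ≠ 2`) resp. `lcm(N, 9)` (`ℓ = 2`)
                                 ⟹  (STAR) at level `N`     (no unramified subextension)
  [STAR-M]  (STAR) at every level `M` prime to `ℓ` with `4 ∣ M` or `9 ∣ M`
                                 (the smooth model: files `ModelDefs.lean`, `LiftDefs.lean`)
-/
import Mathlib
import Fermat.Prelude.Def_ModularCurve_ReductionModL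
import Fermat.Prelude.Def_EllipticCurve_FrobeniusTrace

set_option autoImplicit false

open AlgebraicCurve ModularCurve

noncomputable section

namespace Fermat.Agent.S18

/-- **(STAR)** at level `N` for the exponent `m` and the valuation ring `A` of `Q̄`:
a quotient `a / b` of two elements of `A((q)) ∩ F̄_N` with the same non-zero reduction, all of
whose orders are divisible by `m`, is an `m`-th power in `F̄_N`. -/
def s18_Star (A : ValuationSubring (AlgebraicClosure ℚ)) (N m : ℕ) : Prop :=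
  ∀ (a b : LaurentSeries A)
    (ha : coeffMap A.subtype a ∈ modularFunctionFieldBar N)
    (hb : coeffMap A.subtype b ∈ modularFunctionFieldBar N),
    coeffMap (IsLocalRing.residue A) a = coeffMap (IsLocalRing.residue A) b →
    coeffMap (IsLocalRing.residue A) b ≠ 0 →
    (∀ P : Place (AlgebraicClosure ℚ) (modularFunctionFieldBar N),
      (m : ℤ) ∣ P.ord ((⟨coeffMap A.subtype a, ha⟩ : modularFunctionFieldBar N) /
        (⟨coeffMap A.subtype b, hb⟩ : modularFunctionFieldBar N))) →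
    ∃ v : modularFunctionFieldBar N,
      v ^ m * (⟨coeffMap A.subtype b, hb⟩ : modularFunctionFieldBar N) =
        (⟨coeffMap A.subtype a, ha⟩ : modularFunctionFieldBar N)

/-- The auxiliary level: `lcm(N, 4)` for `ℓ ≠ 2`, `lcm(N, 9)` for `ℓ = 2`.  It is prime to `ℓ`
when `N` is, and `Γ₀` of it has no elliptic points. -/
def s18_level (N ℓ : ℕ) : ℕ := if ℓ = 2 then Nat.lcm N 9 else Nat.lcm N 4

/-- **[WIRE]** (STAR) at level `N` implies S18 at level `N`. -/
def s18_WireStatement : Prop :=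
  ∀ (N : ℕ) [NeZero N] {ℓ : ℕ} [Fact ℓ.Prime], ¬ ℓ ∣ N →
    ∀ A : ValuationSubring (AlgebraicClosure ℚ), A.LiesOverPrime ℓ →
    ModularCurve.ReductionInputsModL A N → ∀ m : ℕ, ¬ ℓ ∣ m → s18_Star A N m →
    ∀ z : ModularCurve.JZero N, m • z = 0 → ModularCurve.reductionModL A N z = 0 → z = 0

/-- **[CONST]** (function field basics in characteristic `ℓ`): an element of
`F_k(N) = k(j̄(q^d) : d ∣ N)` without zeros and poles is constant.  (`k` algebraically closed of
characteristic `ℓ ∤ N`; equivalently: every `f ∈ F_k(N)` transcendental over `k` has a place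
`Q` with `ord_Q f ≠ 0` - the valuation ring of `F_k(N)` dominating `k[f]_(f)` is discrete because
`F_k(N)` is finite over `k(f)`.) -/
def s18_ConstStatement : Prop :=
  ∀ (N : ℕ) [NeZero N] {ℓ : ℕ} [Fact ℓ.Prime], ¬ ℓ ∣ N →
    ∀ (k : Type) [Field k] [CharP k ℓ] [IsAlgClosed k]
      (f : modularFunctionFieldFullC k N), f ≠ 0 →
      (∀ Q : Place k (modularFunctionFieldFullC k N), Q.ord f = 0) →
      ∃ c : k, f = algebraMap k (modularFunctionFieldFullC k N) c

/-- **[WIRE-OF]** the formal part of [WIRE], with [CONST] as a hypothesis. -/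
def s18_WireOfStatement : Prop := s18_ConstStatement → s18_WireStatement

/-- **[DOWN]** (STAR) descends from the auxiliary level to level `N`. -/
def s18_DownStatement : Prop :=
  ∀ (N : ℕ) [NeZero N] {ℓ : ℕ} [Fact ℓ.Prime], ¬ ℓ ∣ N →
    ∀ A : ValuationSubring (AlgebraicClosure ℚ), A.LiesOverPrime ℓ →
    ∀ m : ℕ, ¬ ℓ ∣ m → s18_Star A (s18_level N ℓ) m → s18_Star A N m

/-- **[STAR-M]** (STAR) at every level prime to `ℓ` which is divisible by `4` or by `9`. -/
def s18_StarMStatement : Prop :=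
  ∀ (M : ℕ) [NeZero M] {ℓ : ℕ} [Fact ℓ.Prime], ¬ ℓ ∣ M → (4 ∣ M ∨ 9 ∣ M) →
    ∀ A : ValuationSubring (AlgebraicClosure ℚ), A.LiesOverPrime ℓ →
    ∀ m : ℕ, ¬ ℓ ∣ m → s18_Star A M m

theorem s18_level_ne_zero (N ℓ : ℕ) [NeZero N] : s18_level N ℓ ≠ 0 := by
  unfold s18_level
  split_ifs
  · exact Nat.lcm_ne_zero (NeZero.ne N) (by norm_num)
  · exact Nat.lcm_ne_zero (NeZero.ne N) (by norm_num)

theorem s18_level_dvd (N ℓ : ℕ) : 4 ∣ s18_level N ℓ ∨ 9 ∣ s18_level N ℓ := by
  unfold s18_level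
  split_ifs
  · exact Or.inr (Nat.dvd_lcm_right N 9)
  · exact Or.inl (Nat.dvd_lcm_right N 4)

theorem s18_level_not_dvd (N ℓ : ℕ) [hℓ : Fact ℓ.Prime] (hℓN : ¬ ℓ ∣ N) :
    ¬ ℓ ∣ s18_level N ℓ := by
  have hp := hℓ.out
  unfold s18_level
  split_ifs with h2
  · subst h2
    intro h
    have h1 : (2 : ℕ) ∣ N * 9 := h.trans (Nat.lcm_dvd_mul N 9)
    rcases (Nat.Prime.dvd_mul hp).1 h1 with h3 | h3
    · exact hℓN h3
    · omega
  · intro h
    have h1 : ℓ ∣ N * 4 := h.trans (Nat.lcm_dvd_mul N 4)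
    rcases (Nat.Prime.dvd_mul hp).1 h1 with h3 | h3
    · exact hℓN h3
    · have h4 : ℓ ∣ 2 ^ 2 := by simpa using h3
      have h5 := (Nat.prime_dvd_prime_iff_eq hp Nat.prime_two).1 (hp.dvd_of_dvd_pow h4)
      exact h2 h5

/-- **The composition**: S18 from [WIRE], [DOWN], [STAR-M]. -/
theorem s18_result_of (hW : s18_WireStatement) (hD : s18_DownStatement)
    (hS : s18_StarMStatement)
    (N : ℕ) [NeZero N] {ℓ : ℕ} [Fact ℓ.Prime] (hℓN : ¬ ℓ ∣ N)
    (A : ValuationSubring (AlgebraicClosure ℚ)) (hA : A.LiesOverPrime ℓ)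
    (h : ModularCurve.ReductionInputsModL A N) (m : ℕ) (hm : ¬ ℓ ∣ m)
    (z : ModularCurve.JZero N) (hmz : m • z = 0)
    (hz : ModularCurve.reductionModL A N z = 0) : z = 0 := by
  haveI : NeZero (s18_level N ℓ) := ⟨s18_level_ne_zero N ℓ⟩
  exact hW N hℓN A hA h m hm
    (hD N hℓN A hA m hm
      (hS (s18_level N ℓ) (s18_level_not_dvd N ℓ hℓN) (s18_level_dvd N ℓ) A hA m hm))
    z hmz hz

end Fermat.Agent.S18
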