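/-
S18, THE CUT OF [STAR-M] (architect: helper13).  Prefix `s18_`.  Definitions and `Prop`s only.

  [ASTAR]  ABSTRACT theorem (pure commutative algebra over a discrete valuation ring `O`):
           a function field `F/K`, `K = Frac O` of characteristic 0, with a coordinate `j` such
           that BOTH charts `B = integral closure of O[j]`, `B∞ = integral closure of O[1/j]`
           have an integrally closed DOMAIN as special fibre (`s18_IsGoodModel`), satisfies
           (STAR): `u ≡ 1` modulo the special fibre, `m ∣ ord_P u` at all places, `m ∈ Oˣ`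
           ⟹ `u` is an `m`-th power after extension of constants to an algebraically closed field.
  [MODEL]  for every discrete valuation ring `O` of mixed characteristic `(0, ℓ)`, `K = Frac O`:
           the function field `F_K(M) = K(j(q^d) : d ∣ M) ⊆ K((q))` with `j` is a good model
           (`ℓ ∤ M`, `4 ∣ M` or `9 ∣ M`), and the Gauss reduction is the reduction modulo the
           special fibre (`s18_GaussOK`).
  [CFE]    constant field extensions are unramified: every place of `F_{K0}(M) / K0` extends to
           a place of `F̄_M / Q̄` with the same orders.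
  [RAT]    [MODEL] + [ASTAR] + [CFE] ⟹ [STAR-M]  (descent of `a, b` to a number field `K0`,
           `O = A ∩ K0` is a discrete valuation ring, `Q̄ ⊗_{K0} F_{K0} → F̄_M`).
-/
import Mathlib
import Fermat.Agent.S18.Defs

set_option autoImplicit false

open AlgebraicCurve ModularCurve IntermediateField
open scoped TensorProduct

noncomputable section

namespace Fermat.Agent.S18

/-! ### Charts over a base ring -/

section Chart

variable (O : Type*) [CommRing O] {F : Type*} [Field F] [Algebra O F]

/-- The chart attached to a set `S` of functions: the integral closure of `O[S]` in `F`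
(same shape as the Prelude's `ModularCurve.IgusaScheme.chartAlg`). -/
def s18_chart (S : Set F) : Subalgebra O F where
  carrier := {x | IsIntegral (Algebra.adjoin O S) x}
  mul_mem' ha hb := ha.mul hb
  one_mem' := isIntegral_one
  add_mem' ha hb := ha.add hb
  zero_mem' := isIntegral_zero
  algebraMap_mem' a := by
    have : IsIntegral (Algebra.adjoin O S)
        (algebraMap (Algebra.adjoin O S) F (algebraMap O (Algebra.adjoin O S) a)) :=
      isIntegral_algebraMap
    simpa [← IsScalarTower.algebraMap_apply] using this

theorem s18_mem_chart_iff {S : Set F} {x : F} :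
    x ∈ s18_chart O S ↔ IsIntegral (Algebra.adjoin O S) x := Iff.rfl

/-- The ideal of the special fibre of a chart: generated by the maximal ideal of `O`. -/
def s18_fibreIdeal [IsLocalRing O] (S : Set F) : Ideal ↥(s18_chart O S) :=
  (IsLocalRing.maximalIdeal O).map (algebraMap O ↥(s18_chart O S))

/-- The special fibre of a chart. -/
abbrev s18_fibre [IsLocalRing O] (S : Set F) : Type _ :=
  ↥(s18_chart O S) ⧸ s18_fibreIdeal O S

end Chart

/-! ### Good models -/

/-- `(O, K, F, j)` is a GOOD MODEL: `j` is a coordinate of `F/K` and both charts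
`B = s18_chart O {j}`, `B∞ = s18_chart O {j⁻¹}` have an integrally closed domain as special
fibre (so the special fibre of the normalisation of `P¹_O` in `F` is a smooth projective curve
when the residue field is perfect). -/
structure s18_IsGoodModel (O K F : Type) [CommRing O] [IsDomain O] [IsDiscreteValuationRing O]
    [Field K] [Algebra O K] [IsFractionRing O K] [Field F] [Algebra K F] [Algebra O F]
    [IsScalarTower O K F] (j : F) : Prop where
  transcendental : Transcendental K j
  finite : FiniteDimensional K⟮j⟯ F
  isDomain_fin : IsDomain (s18_fibre O ({j} : Set F))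
  isIntegrallyClosed_fin : IsIntegrallyClosed (s18_fibre O ({j} : Set F))
  isDomain_inf : IsDomain (s18_fibre O ({j⁻¹} : Set F))
  isIntegrallyClosed_inf : IsIntegrallyClosed (s18_fibre O ({j⁻¹} : Set F))

/-- `u ≡ 1` modulo the special fibre: `u = x / y` with `x, y` in the finite chart, `y` not in
the ideal of the special fibre, `x - y` in it. -/
def s18_RedOne (O : Type) [CommRing O] [IsLocalRing O] {F : Type} [Field F] [Algebra O F]
    (j u : F) : Prop :=
  ∃ x y : ↥(s18_chart O ({j} : Set F)), y ∉ s18_fibreIdeal O ({j} : Set F) ∧
    x - y ∈ s18_fibreIdeal O ({j} : Set F) ∧ u * (y : F) = (x : F)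

/-- **[ASTAR]** the abstract theorem. -/
def s18_AStarStatement : Prop :=
  ∀ (O K F : Type) [CommRing O] [IsDomain O] [IsDiscreteValuationRing O]
    [Field K] [CharZero K] [Algebra O K] [IsFractionRing O K] [Field F] [Algebra K F]
    [Algebra O F] [IsScalarTower O K F] (j : F), s18_IsGoodModel O K F j →
    ∀ m : ℕ, IsUnit (m : O) → ∀ u : F, u ≠ 0 → s18_RedOne O j u →
      (∀ P : Place K F, (m : ℤ) ∣ P.ord u) →
      ∀ (C : Type) [Field C] [IsAlgClosed C] [Algebra K C],
        ∃ y : C ⊗[K] F, y ^ m = (1 : C) ⊗ₜ[K] u

/-! ### The modular function fields over a field `K` of characteristic 0 -/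

section Modular

variable (O K : Type) [CommRing O] [Field K] [CharZero K] [Algebra O K] (M : ℕ)

/-- The function field `F_K(M) = K(j(q^d) : d ∣ M) ⊆ K((q))`. -/
abbrev s18_F : IntermediateField K (LaurentSeries K) :=
  laurentBaseChange K (modularFunctionFieldFull M)

/-- `j ∈ F_K(M)`. -/
def s18_j [NeZero M] : ↥(s18_F K M) :=
  ⟨coeffEmb K jq, coeffEmb_mem_laurentBaseChange K
    (modularFunctionField_le_full M (jq_mem M))⟩

/-- The `O`-algebra structure of `F_K(M)` (through `K`).  USE IT WITH `letI`. -/
def s18_algOF : Algebra O ↥(s18_F K M) :=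
  ((algebraMap K ↥(s18_F K M)).comp (algebraMap O K)).toAlgebra

theorem s18_towerOF :
    letI := s18_algOF O K M
    IsScalarTower O K ↥(s18_F K M) :=
  letI := s18_algOF O K M
  IsScalarTower.of_algebraMap_eq' rfl

/-- **The Gauss reduction is the reduction modulo the special fibre**: a quotient `a / b` of two
elements of `O((q)) ∩ F_K(M)` with the same non-zero coefficientwise reduction is `≡ 1` modulo the
special fibre of the finite chart. -/
def s18_GaussOK [IsLocalRing O] [NeZero M] : Prop :=
  letI := s18_algOF O K M
  ∀ (a b : LaurentSeries O)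
    (ha : coeffMap (algebraMap O K) a ∈ s18_F K M)
    (hb : coeffMap (algebraMap O K) b ∈ s18_F K M),
    coeffMap (IsLocalRing.residue O) a = coeffMap (IsLocalRing.residue O) b →
    coeffMap (IsLocalRing.residue O) b ≠ 0 →
    s18_RedOne O (s18_j K M)
      ((⟨coeffMap (algebraMap O K) a, ha⟩ : ↥(s18_F K M)) /
        (⟨coeffMap (algebraMap O K) b, hb⟩ : ↥(s18_F K M)))

end Modular

/-- **[MODEL]** the modular function field of a level `M` prime to `ℓ` without elliptic points
is a good model over every discrete valuation ring of mixed characteristic `(0, ℓ)`. -/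
def s18_ModelStatement : Prop :=
  ∀ (M : ℕ) [NeZero M] {ℓ : ℕ} [Fact ℓ.Prime], ¬ ℓ ∣ M → (4 ∣ M ∨ 9 ∣ M) →
    ∀ (O K : Type) [CommRing O] [IsDomain O] [IsDiscreteValuationRing O] [Field K] [CharZero K]
      [Algebra O K] [IsFractionRing O K], (ℓ : O) ∈ IsLocalRing.maximalIdeal O →
      letI := s18_algOF O K M
      haveI := s18_towerOF O K M
      s18_IsGoodModel O K ↥(s18_F K M) (s18_j K M) ∧ s18_GaussOK O K M

/-- The embedding `F_{K0}(M) → F̄_M` (coefficientwise), as a function. -/
def s18_iota (K0 : IntermediateField ℚ (AlgebraicClosure ℚ))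
    (f : LaurentSeries ↥K0) : LaurentSeries (AlgebraicClosure ℚ) :=
  coeffMap (algebraMap ↥K0 (AlgebraicClosure ℚ)) f

/-- **[CFE]** constant field extensions are unramified: every place `P` of `F_{K0}(M) / K0`
(`K0 ⊆ Q̄` finite over `ℚ`) is the restriction of a place `P'` of `F̄_M / Q̄` with
`ord_{P'} = ord_P` on `F_{K0}(M)`. -/
def s18_CfeStatement : Prop :=
  ∀ (M : ℕ) [NeZero M] (K0 : IntermediateField ℚ (AlgebraicClosure ℚ)),
    FiniteDimensional ℚ ↥K0 →
    ∀ P : Place ↥K0 ↥(s18_F ↥K0 M),
      ∃ P' : Place (AlgebraicClosure ℚ) (modularFunctionFieldBar M),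
        ∀ (f : ↥(s18_F ↥K0 M)) (f' : modularFunctionFieldBar M),
          (f' : LaurentSeries (AlgebraicClosure ℚ)) = s18_iota K0 (f : LaurentSeries ↥K0) →
            P'.ord f' = P.ord f

/-- **[DISCRETE]** a valuation ring of a finite extension lying over a discrete valuation ring is
a discrete valuation ring. -/
def s18_DiscreteStatement : Prop :=
  ∀ (K L : Type) [Field K] [Field L] [Algebra K L] [FiniteDimensional K L]
    (V : ValuationSubring L),
    IsDiscreteValuationRing ↥(V.comap (algebraMap K L)) → IsDiscreteValuationRing ↥V

/-- **[RAT]** the passage from `Q̄`, `A` to number fields. -/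
def s18_RatStatement : Prop :=
  s18_ModelStatement → s18_AStarStatement → s18_CfeStatement → s18_DiscreteStatement →
    s18_StarMStatement

/-- The composition: [STAR-M] from its four inputs. -/
theorem s18_starM_of (hR : s18_RatStatement) (hM : s18_ModelStatement)
    (hA : s18_AStarStatement) (hC : s18_CfeStatement) (hD : s18_DiscreteStatement) :
    s18_StarMStatement := hR hM hA hC hD

end Fermat.Agent.S18
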