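/-
S18, THE CUT OF [MODEL] (architect: helper13).  Prefix `s18_`.  Definitions and `Prop`s only
(plus the compositions).

THE MODEL IS ONLY NEEDED OVER NUMBER FIELDS.  [RAT] applies [ASTAR] to `K0 ⊆ Q̄` finite over `ℚ`
and `O = A ∩ K0`, a discrete valuation ring of `K0` with residue field algebraic over `𝔽_ℓ`
(hence perfect).  So the target is `s18_ModelQStatement` (and `s18_RatQStatement` replaces
`s18_RatStatement`: same proof, apply the model to `O = A.comap`).

  [GAUSS-Q]   the `q`-expansion principle over `O` for both charts: reduction maps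
              `ρ : chart → κ((q))` with kernel `π · chart`, compatible with the coefficientwise
              reduction (generalises S28 `s28_RedAt` from `ℤ_(ℓ)` to `O`; inputs: S28 `chiH_key`,
              DEG-Q).  Gives: `j` transcendental, `F` finite over `K(j)`, both fibres are
              DOMAINS, `s18_GaussOK`.
  [NORM-FIN]  the fibre of the finite chart is integrally closed  (étale over the `t`-line of
              level `4` resp. `9` minus the cusps: [HAUPT] + [RAM-J] + [CFE] + [SEP] +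
              discriminant/purity).
  [NORM-INF]  the fibre of the chart at infinity is integrally closed  (Abhyankar: after
              adjoining `σ = (1/j)^(1/M) ∈ O[[q^(1/M)]]` the model is étale over `O[σ]` near
              `σ = 0`; descend by the projection onto integral exponents).
  [HAUPT]     Hauptmoduln of level `4` and `9` with integral `q`-expansion `q⁻¹ + ...`,
              `j = P(t)/Q(t)`, `P = A³`, `P - 1728 Q = D²`.
  [RAM-J]     characteristic `0`, over `Q̄` (S24): at a place of `F̄_M` (`4 ∣ M` or `9 ∣ M`) with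
              `j = c` finite, `ord(j - c) = 1, 2, 3` for `c ≠ 0, 1728`, `c = 1728`, `c = 0`;
              at a place with `j = ∞`, `- ord j` divides `M`.
  [SEP]       a Laurent series over a perfect field of characteristic `p` which is algebraic
              over `κ(x)`, `p ∤ ord x`, is separable over `κ(x)`.
-/
import Mathlib
import Fermat.Agent.S18.StarDefs

set_option autoImplicit false

open AlgebraicCurve ModularCurve IntermediateField
open scoped TensorProduct MatrixGroups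

noncomputable section

namespace Fermat.Agent.S18

section Red

variable (O K : Type) [CommRing O] [IsLocalRing O] [Field K] [CharZero K] [Algebra O K]
  (M : ℕ) [NeZero M]

/-- **The reduction datum of a chart** `B = s18_chart O S ⊆ F_K(M)`: a ring homomorphism
`ρ : B → κ((q))` with kernel `π B` which is the coefficientwise reduction on quotients of
integral `q`-expansions: `b' = a · b` with `a ∈ O((q))` implies `ρ b' = ā · ρ b`. -/
def s18_HasRed (S : Set ↥(s18_F K M)) : Prop :=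
  letI := s18_algOF O K M
  ∃ ρ : ↥(s18_chart O S) →+* LaurentSeries (IsLocalRing.ResidueField O),
    (∀ b, ρ b = 0 → b ∈ s18_fibreIdeal O S) ∧
    ∀ (b b' : ↥(s18_chart O S)) (a : LaurentSeries O),
      ((b' : ↥(s18_F K M)) : LaurentSeries K) =
          coeffMap (algebraMap O K) a * ((b : ↥(s18_F K M)) : LaurentSeries K) →
        ρ b' = coeffMap (IsLocalRing.residue O) a * ρ b

/-- **The `q`-expansion principle over `O` at level `M`.** -/
def s18_GaussQAt : Prop :=
  letI := s18_algOF O K M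
  Transcendental K (s18_j K M) ∧
  FiniteDimensional K⟮s18_j K M⟯ ↥(s18_F K M) ∧
  IsDomain (s18_fibre O ({s18_j K M} : Set ↥(s18_F K M))) ∧
  IsDomain (s18_fibre O ({(s18_j K M)⁻¹} : Set ↥(s18_F K M))) ∧
  s18_HasRed O K M ({s18_j K M} : Set ↥(s18_F K M)) ∧
  s18_HasRed O K M ({(s18_j K M)⁻¹} : Set ↥(s18_F K M)) ∧
  s18_GaussOK O K M

end Red

/-- **[MODEL-Q]** the good model over the discrete valuation rings of number fields
`K0 ⊆ Q̄` with perfect residue field of characteristic `ℓ ∤ M`, `4 ∣ M` or `9 ∣ M`. -/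
def s18_ModelQStatement : Prop :=
  ∀ (M : ℕ) [NeZero M] {ℓ : ℕ} [Fact ℓ.Prime], ¬ ℓ ∣ M → (4 ∣ M ∨ 9 ∣ M) →
    ∀ (K0 : IntermediateField ℚ (AlgebraicClosure ℚ)), FiniteDimensional ℚ ↥K0 →
    ∀ (O : ValuationSubring ↥K0) [IsDiscreteValuationRing ↥O],
      (ℓ : ↥O) ∈ IsLocalRing.maximalIdeal ↥O →
      PerfectField (IsLocalRing.ResidueField ↥O) →
      letI := s18_algOF ↥O ↥K0 M
      haveI := s18_towerOF ↥O ↥K0 M
      s18_IsGoodModel ↥O ↥K0 ↥(s18_F ↥K0 M) (s18_j ↥K0 M) ∧ s18_GaussOK ↥O ↥K0 M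

/-- **[GAUSS-Q]** -/
def s18_GaussQStatement : Prop :=
  ∀ (M : ℕ) [NeZero M] {ℓ : ℕ} [Fact ℓ.Prime], ¬ ℓ ∣ M →
    ∀ (K0 : IntermediateField ℚ (AlgebraicClosure ℚ)), FiniteDimensional ℚ ↥K0 →
    ∀ (O : ValuationSubring ↥K0) [IsDiscreteValuationRing ↥O],
      (ℓ : ↥O) ∈ IsLocalRing.maximalIdeal ↥O →
      s18_GaussQAt ↥O ↥K0 M

/-- **[NORM-FIN]** the fibre of the finite chart is integrally closed. -/
def s18_NormFinStatement : Prop :=
  ∀ (M : ℕ) [NeZero M] {ℓ : ℕ} [Fact ℓ.Prime], ¬ ℓ ∣ M → (4 ∣ M ∨ 9 ∣ M) →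
    ∀ (K0 : IntermediateField ℚ (AlgebraicClosure ℚ)), FiniteDimensional ℚ ↥K0 →
    ∀ (O : ValuationSubring ↥K0) [IsDiscreteValuationRing ↥O],
      (ℓ : ↥O) ∈ IsLocalRing.maximalIdeal ↥O →
      PerfectField (IsLocalRing.ResidueField ↥O) →
      s18_GaussQAt ↥O ↥K0 M →
      letI := s18_algOF ↥O ↥K0 M
      IsIntegrallyClosed (s18_fibre ↥O ({s18_j ↥K0 M} : Set ↥(s18_F ↥K0 M)))

/-- **[NORM-INF]** the fibre of the chart at infinity is integrally closed (given that the fibre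
of the finite chart is). -/
def s18_NormInfStatement : Prop :=
  ∀ (M : ℕ) [NeZero M] {ℓ : ℕ} [Fact ℓ.Prime], ¬ ℓ ∣ M → (4 ∣ M ∨ 9 ∣ M) →
    ∀ (K0 : IntermediateField ℚ (AlgebraicClosure ℚ)), FiniteDimensional ℚ ↥K0 →
    ∀ (O : ValuationSubring ↥K0) [IsDiscreteValuationRing ↥O],
      (ℓ : ↥O) ∈ IsLocalRing.maximalIdeal ↥O →
      PerfectField (IsLocalRing.ResidueField ↥O) →
      s18_GaussQAt ↥O ↥K0 M →
      letI := s18_algOF ↥O ↥K0 M
      IsIntegrallyClosed (s18_fibre ↥O ({s18_j ↥K0 M} : Set ↥(s18_F ↥K0 M))) →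
      IsIntegrallyClosed (s18_fibre ↥O ({(s18_j ↥K0 M)⁻¹} : Set ↥(s18_F ↥K0 M)))

/-- **The composition**: [MODEL-Q] from [GAUSS-Q], [NORM-FIN], [NORM-INF]. -/
theorem s18_modelQ_of (hG : s18_GaussQStatement) (hF : s18_NormFinStatement)
    (hI : s18_NormInfStatement) : s18_ModelQStatement := by
  intro M _ ℓ _ hℓM h49 K0 hK0 O _ hℓ hperf
  have hg := hG M hℓM K0 hK0 O hℓ
  have hfin := hF M hℓM h49 K0 hK0 O hℓ hperf hg
  have hinf := hI M hℓM h49 K0 hK0 O hℓ hperf hg hfin
  obtain ⟨h1, h2, h3, h4, -, -, h7⟩ := hg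
  letI := s18_algOF ↥O ↥K0 M
  haveI := s18_towerOF ↥O ↥K0 M
  exact ⟨⟨h1, h2, h3, hfin, h4, hinf⟩, h7⟩

/-- **[RAT-Q]** the passage from `Q̄`, `A` to number fields, with [MODEL-Q] as the model. -/
def s18_RatQStatement : Prop :=
  s18_ModelQStatement → s18_AStarStatement → s18_CfeStatement → s18_DiscreteStatement →
    s18_StarMStatement

/-- The composition: [STAR-M] from [RAT-Q], [MODEL-Q], [ASTAR], [CFE], [DISCRETE]. -/
theorem s18_starM_ofQ (hR : s18_RatQStatement) (hM : s18_ModelQStatement)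
    (hA : s18_AStarStatement) (hC : s18_CfeStatement) (hD : s18_DiscreteStatement) :
    s18_StarMStatement := hR hM hA hC hD

/-! ### The inputs of [NORM-FIN] and [NORM-INF] -/

/-- **A Hauptmodul of level `M0`, integral at `ℓ`**: `t = q⁻¹ + ... ∈ ℤ((q))` in the function
field of level `M0`, `j · Q(t) = P(t)` with `P` monic of degree `[SL₂(ℤ) : Γ₀(M0)]`,
`deg Q < deg P`, `P = A³`, `P - 1728 Q = D²` with `A`, `D` squarefree over `ℚ`, and
`a P + b Q = r` with `ℓ ∤ r` (so `O[t, 1/Q(t)]` is the integral closure of `O[j]` in `K(t)` and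
the cusps `Q(t) = 0`, `t = ∞` stay away from the points with `j` finite modulo `ℓ`). -/
def s18_HauptAt (M0 ℓ : ℕ) [NeZero M0] : Prop :=
  ∃ (t : LaurentSeries ℤ) (P Q A D : Polynomial ℤ),
    coeffMap (Int.castRingHom ℚ) t ∈ modularFunctionFieldFull M0 ∧
    t.order = -1 ∧ t.coeff (-1) = 1 ∧
    P.Monic ∧ Q.natDegree < P.natDegree ∧
    P.natDegree = Nat.card (SL(2, ℤ) ⧸ CongruenceSubgroup.Gamma0 M0) ∧
    jqModC ℤ * Polynomial.aeval t Q = Polynomial.aeval t P ∧
    P = A ^ 3 ∧ P - Polynomial.C 1728 * Q = D ^ 2 ∧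
    (A.map (Int.castRingHom ℚ)).Separable ∧ (D.map (Int.castRingHom ℚ)).Separable ∧
    ∃ (a b : Polynomial ℤ) (r : ℤ), ¬ (ℓ : ℤ) ∣ r ∧ a * P + b * Q = Polynomial.C r

/-- **[HAUPT-4]** level `4`, every `ℓ ≠ 2`
(`t = η(z)⁸/η(4z)⁸`, `P = (t² + 256 t + 4096)³`, `Q = t⁴ (t + 16)`). -/
def s18_Haupt4Statement : Prop :=
  ∀ (ℓ : ℕ) [Fact ℓ.Prime], ℓ ≠ 2 → s18_HauptAt 4 ℓ

/-- **[HAUPT-9]** level `9`, every `ℓ ≠ 3` (needed for `ℓ = 2` only)
(`t = η(z)³/η(9z)³`, `P = (t + 9)³ (t³ + 243 t² + 2187 t + 6561)³`, `Q = t⁹ (t² + 9 t + 27)`). -/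
def s18_Haupt9Statement : Prop :=
  ∀ (ℓ : ℕ) [Fact ℓ.Prime], ℓ ≠ 3 → s18_HauptAt 9 ℓ

/-- **[RAM-J]** (characteristic `0`, S24): the ramification of `F̄_M / Q̄(j)` for `4 ∣ M` or
`9 ∣ M`: no elliptic points, and the widths of the cusps divide `M`. -/
def s18_RamJStatement : Prop :=
  ∀ (M : ℕ) [NeZero M], (4 ∣ M ∨ 9 ∣ M) →
    ∀ P : Place (AlgebraicClosure ℚ) ↥(s18_F (AlgebraicClosure ℚ) M),
      (0 ≤ P.ord (s18_j (AlgebraicClosure ℚ) M) →
        ∀ c : AlgebraicClosure ℚ,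
          0 < P.ord (s18_j (AlgebraicClosure ℚ) M -
            algebraMap (AlgebraicClosure ℚ) ↥(s18_F (AlgebraicClosure ℚ) M) c) →
          P.ord (s18_j (AlgebraicClosure ℚ) M -
            algebraMap (AlgebraicClosure ℚ) ↥(s18_F (AlgebraicClosure ℚ) M) c) =
              if c = 0 then 3 else if c = 1728 then 2 else 1) ∧
      (P.ord (s18_j (AlgebraicClosure ℚ) M) < 0 →
        P.ord (s18_j (AlgebraicClosure ℚ) M) ∣ (M : ℤ))

/-- **[SEP]** separability from `q`-expansions: over a perfect field `κ` of characteristic `p`,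
a Laurent series `y` which is algebraic over `κ(x)`, where `p ∤ ord x`, is separable over
`κ(x)`. -/
def s18_SepStatement : Prop :=
  ∀ (κ : Type) [Field κ] [PerfectField κ] (p : ℕ) [Fact p.Prime] [CharP κ p]
    (x y : LaurentSeries κ), ¬ (p : ℤ) ∣ x.order →
    IsAlgebraic ↥(κ⟮x⟯) y → IsSeparable ↥(κ⟮x⟯) y

end Fermat.Agent.S18
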