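/-
S18, THE ABSTRACT PACKAGES OF [MODEL] (architect: helper13).  Prefix `s18_`.  `Prop`s only.
PURE COMMUTATIVE ALGEBRA / LAURENT SERIES - no modular vocabulary.

  [GAUSS-ABS]  the `q`-expansion principle for an arbitrary subfield `F ⊆ K((q))` generated by
               integral series: if `x ∈ F ∩ O((q))` has transcendental reduction, `F` is spanned
               by `n` elements over `K(x)` and there are `n` integral series in `F` whose
               reductions are linearly independent over `κ[x̄]`, then the integral closure `B`
               of `O[x]` in `F` has a reduction map `ρ : B → κ((q))` with kernel `π B`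
               (the Gauss valuation of `K(x)` has a unique extension to `F`).
               Used for `(F_K(M), j)`, `(F_K(M), 1/j)` in [GAUSS-Q] and for
               `(F_K(M)(σ), σ)`, `σ = (1/j)^(1/M)`, in [NORM-INF].
  [PURE]       purity of the branch locus + discriminants: `A` a noetherian normal domain,
               `π` a prime element with `A/π` a principal ideal domain, `B` the integral closure
               of `A` in a finite extension `F` of `Frac A` of characteristic `0`; if `B/πB` is
               a domain, generically separable over `A/π`, and `B[1/π]` is unramified over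
               `A[1/π]`, then `B/πB` is integrally closed (indeed étale over `A/π`).
               Used with `A = O[t, 1/Q(t)]` in [NORM-FIN] and `A = O[σ, 1/(1 - 1728 σ^M)]` in
               [NORM-INF].
-/
import Mathlib
import Fermat.Agent.S18.ModelDefs

set_option autoImplicit false

open AlgebraicCurve ModularCurve IntermediateField

noncomputable section

namespace Fermat.Agent.S18

section RedF

variable (O K : Type) [CommRing O] [Field K] [Algebra O K]
  (F : IntermediateField K (LaurentSeries K))

/-- The `O`-algebra structure of a subfield `F ⊆ K((q))` (through `K`).  USE IT WITH `letI`.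
For `F = s18_F K M` it is `s18_algOF O K M` (by `rfl`). -/
def s18_algOFF : Algebra O ↥F :=
  ((algebraMap K ↥F).comp (algebraMap O K)).toAlgebra

theorem s18_algOF_eq [CharZero K] (M : ℕ) : s18_algOF O K M = s18_algOFF O K (s18_F K M) := rfl

/-- The reduction datum of a chart of an arbitrary subfield `F ⊆ K((q))`
(`s18_HasRed O K M S` is `s18_HasRedF O K (s18_F K M) S`, by `Iff.rfl`). -/
def s18_HasRedF [IsLocalRing O] (S : Set ↥F) : Prop :=
  letI := s18_algOFF O K F
  ∃ ρ : ↥(s18_chart O S) →+* LaurentSeries (IsLocalRing.ResidueField O),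
    (∀ b, ρ b = 0 → b ∈ s18_fibreIdeal O S) ∧
    ∀ (b b' : ↥(s18_chart O S)) (a : LaurentSeries O),
      ((b' : ↥F) : LaurentSeries K) =
          coeffMap (algebraMap O K) a * ((b : ↥F) : LaurentSeries K) →
        ρ b' = coeffMap (IsLocalRing.residue O) a * ρ b

theorem s18_hasRed_iff [IsLocalRing O] [CharZero K] (M : ℕ) [NeZero M]
    (S : Set ↥(s18_F K M)) :
    s18_HasRed O K M S ↔ s18_HasRedF O K (s18_F K M) S := Iff.rfl

end RedF

/-- **[GAUSS-ABS]** the abstract `q`-expansion principle. -/
def s18_GaussAbsStatement : Prop :=
  ∀ (O K : Type) [CommRing O] [IsDomain O] [IsDiscreteValuationRing O] [Field K]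
    [Algebra O K] [IsFractionRing O K]
    (F : IntermediateField K (LaurentSeries K)) (x : ↥F) (ax : LaurentSeries O) (n : ℕ),
    ((x : ↥F) : LaurentSeries K) = coeffMap (algebraMap O K) ax →
    Transcendental (IsLocalRing.ResidueField O) (coeffMap (IsLocalRing.residue O) ax) →
    (∀ y ∈ F, ∃ a b : LaurentSeries O, b ≠ 0 ∧
      y * coeffMap (algebraMap O K) b = coeffMap (algebraMap O K) a) →
    (∃ e : Fin n → ↥F, ∀ y : ↥F, ∃ c : Fin n → ↥(K⟮x⟯), y = ∑ i, c i • e i) →
    (∃ g : Fin n → LaurentSeries O, (∀ i, coeffMap (algebraMap O K) (g i) ∈ F) ∧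
      ∀ c : Fin n → Polynomial (IsLocalRing.ResidueField O),
        (∑ i, Polynomial.aeval (coeffMap (IsLocalRing.residue O) ax) (c i) *
          coeffMap (IsLocalRing.residue O) (g i)) = 0 → ∀ i, c i = 0) →
    s18_HasRedF O K F ({x} : Set ↥F)

/-- **[PURE]** purity and discriminants: the special fibre of the normalisation is integrally
closed. -/
def s18_PureStatement : Prop :=
  ∀ (A F : Type) [CommRing A] [IsDomain A] [IsNoetherianRing A] [IsIntegrallyClosed A]
    [Field F] [CharZero F] [Algebra A F] [FaithfulSMul A F] (π : A),
    Prime π → IsPrincipalIdealRing (A ⧸ Ideal.span ({π} : Set A)) →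
    -- the residue characteristics away from `π` are `0`
    (∀ n : ℕ, 0 < n → ∃ (k : ℕ) (c : A), (n : A) * c = π ^ k) →
    -- `F` is finite over `Frac A`
    (∃ s : Finset F, ∀ y : F, ∃ (d : A) (c : F → A), d ≠ 0 ∧ d • y = ∑ e ∈ s, c e • e) →
    -- the fibre is a domain
    IsDomain (↥(integralClosure A F) ⧸
      Ideal.span ({algebraMap A ↥(integralClosure A F) π} : Set ↥(integralClosure A F))) →
    -- the fibre is generically separable over `A / π`
    (∃ (E : Type) (_ : Field E) (ρ : ↥(integralClosure A F) →+* E),
      ρ (algebraMap A ↥(integralClosure A F) π) = 0 ∧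
      (∀ b, ρ b = 0 → b ∈
        Ideal.span ({algebraMap A ↥(integralClosure A F) π} : Set ↥(integralClosure A F))) ∧
      ∀ b, IsSeparable
        ↥(Subfield.closure (Set.range (ρ.comp (algebraMap A ↥(integralClosure A F))))) (ρ b)) →
    -- the generic fibre is unramified over `A[1/π]`
    (∀ P : Ideal ↥(integralClosure A F), P.IsPrime → P ≠ ⊥ →
      algebraMap A ↥(integralClosure A F) π ∉ P →
      ∃ a : A, algebraMap A ↥(integralClosure A F) a ∈ P ∧
        ∀ x ∈ P, ∃ y z : ↥(integralClosure A F), z ∉ P ∧
          x * z = algebraMap A ↥(integralClosure A F) a * y) →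
    IsIntegrallyClosed (↥(integralClosure A F) ⧸
      Ideal.span ({algebraMap A ↥(integralClosure A F) π} : Set ↥(integralClosure A F)))

/-! ### The three assemblies of [MODEL-Q] -/

/-- **[GAUSS-Q-OF]** [GAUSS-ABS] + S28 (`chiH_key`, DEG-Q) ⟹ [GAUSS-Q]. -/
def s18_GaussQOfStatement : Prop := s18_GaussAbsStatement → s18_GaussQStatement

/-- **[NORM-FIN-OF]** the finite chart: étale over the `t`-line minus the cusps. -/
def s18_NormFinOfStatement : Prop :=
  s18_Haupt4Statement → s18_Haupt9Statement → s18_RamJStatement → s18_CfeStatement →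
    s18_SepStatement → s18_PureStatement → s18_NormFinStatement

/-- **[NORM-INF-OF]** the chart at infinity: Abhyankar's lemma with `q^(1/M)`-expansions. -/
def s18_NormInfOfStatement : Prop :=
  s18_GaussAbsStatement → s18_RamJStatement → s18_CfeStatement → s18_SepStatement →
    s18_PureStatement → s18_NormInfStatement

/-- **The composition**: [MODEL-Q] from its leaves. -/
theorem s18_modelQ_of_leaves (hGA : s18_GaussAbsStatement) (hGQ : s18_GaussQOfStatement)
    (hH4 : s18_Haupt4Statement) (hH9 : s18_Haupt9Statement) (hR : s18_RamJStatement)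
    (hC : s18_CfeStatement) (hS : s18_SepStatement) (hP : s18_PureStatement)
    (hNF : s18_NormFinOfStatement) (hNI : s18_NormInfOfStatement) :
    s18_ModelQStatement :=
  s18_modelQ_of (hGQ hGA) (hNF hH4 hH9 hR hC hS hP) (hNI hGA hR hC hS hP)

end Fermat.Agent.S18
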