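/-
S18, THE CUT OF [NORM-INF-OF] (architect: helper13).  Prefix `s18_`.  Definitions and `Prop`s
only (plus the composition).

ABHYANKAR'S LEMMA WITH `q^(1/M)`-EXPANSIONS.  `θ : K((q)) → K((q₁))`, `q ↦ q₁^M`
(`ModularCurve.qExpand`), `σ ∈ q₁ O[[q₁^M]]` with `σ^M = θ(1/j)` (`s18_IsSigma`; it exists
because `M ∈ Oˣ`), `F'' := θ(F)(σ) = ⊕_{i<M} θ(F) σ^i ⊆ K((q₁))`, `B'' :=` the integral closure
of `O[σ]` in `F''`, `A := O[σ, 1/(1 - 1728 σ^M)]`.

  [ROOT]     `σ` exists over every ring in which `M` is invertible.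
  [GRADE]    [GAUSS-ABS] ⟹ the `q₁`-expansion principle for `(F'', σ)`: a reduction map
             `ρ'' : B'' → κ((q₁))` with kernel `π B''`, compatible with coefficientwise
             reduction, and such that the part of `ρ''(y)` with exponents in `M ℤ` is
             `ρ''(θ(b))` for some `b` in the chart at infinity `B'` of `F` (descent).
  [KUMMER]   [RAM-J] + [CFE] ⟹ the integral closure of `A` in `F''` is unramified over `A` at
             every prime not containing `ℓ` (characteristic `0`).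
  [INF-ASM]  [ROOT] + [GRADE] + [KUMMER] + [SEP] + [PURE] ⟹ [NORM-INF].
-/
import Mathlib
import Fermat.Agent.S18.ModelAbsDefs

set_option autoImplicit false

open AlgebraicCurve ModularCurve IntermediateField

noncomputable section

namespace Fermat.Agent.S18

/-- `σ = q + ... ∈ q R[[q^M]]` with `σ^M · j(q^M) = 1`: the `M`-th root of `1/j(q^M)`. -/
def s18_IsSigma (R : Type) [CommRing R] (M : ℕ) [NeZero M] (σ : LaurentSeries R) : Prop :=
  σ ^ M * qExpand R M (jqModC R) = 1 ∧ σ.coeff 1 = 1 ∧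
    ∀ k : ℤ, (k < 1 ∨ ¬ (M : ℤ) ∣ (k - 1)) → σ.coeff k = 0

/-- **[ROOT]** -/
def s18_SigmaStatement : Prop :=
  ∀ (R : Type) [CommRing R] (M : ℕ) [NeZero M], IsUnit (M : R) →
    ∃ σ : LaurentSeries R, s18_IsSigma R M σ

section Fpp

variable (O K : Type) [CommRing O] [Field K] [CharZero K] [Algebra O K]
  (M : ℕ) [NeZero M] (σ : LaurentSeries O)

/-- `F'' = θ(F_K(M))(σ) ⊆ K((q₁))`. -/
def s18_Fpp : IntermediateField K (LaurentSeries K) :=
  (s18_F K M).map (qExpandAlgHomC K M) ⊔ K⟮coeffMap (algebraMap O K) σ⟯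

/-- `σ ∈ F''`. -/
def s18_sig : ↥(s18_Fpp O K M σ) :=
  ⟨coeffMap (algebraMap O K) σ,
    (le_sup_right : K⟮coeffMap (algebraMap O K) σ⟯ ≤ s18_Fpp O K M σ)
      (IntermediateField.mem_adjoin_simple_self K _)⟩

/-- `θ : F_K(M) → F''`. -/
def s18_theta (f : ↥(s18_F K M)) : ↥(s18_Fpp O K M σ) :=
  ⟨qExpand K M (f : LaurentSeries K),
    (le_sup_left : (s18_F K M).map (qExpandAlgHomC K M) ≤ s18_Fpp O K M σ)
      ⟨(f : LaurentSeries K), f.2, rfl⟩⟩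

/-- `A = O[σ, 1/(1 - 1728 σ^M)] ⊆ F''` (the `σ`-line without the points over `j = 1728`;
the points over `j = 0` are at `σ = ∞`). -/
def s18_Asig : letI := s18_algOFF O K (s18_Fpp O K M σ)
    Subalgebra O ↥(s18_Fpp O K M σ) :=
  letI := s18_algOFF O K (s18_Fpp O K M σ)
  Algebra.adjoin O ({s18_sig O K M σ, (1 - 1728 * s18_sig O K M σ ^ M)⁻¹} :
    Set ↥(s18_Fpp O K M σ))

/-- **(G'')** the `q₁`-expansion principle for `(F'', σ)` with descent. -/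
def s18_GradeAt [IsLocalRing O] : Prop :=
  letI := s18_algOF O K M
  letI := s18_algOFF O K (s18_Fpp O K M σ)
  ∃ ρ : ↥(s18_chart O ({s18_sig O K M σ} : Set ↥(s18_Fpp O K M σ))) →+*
      LaurentSeries (IsLocalRing.ResidueField O),
    (∀ b, ρ b = 0 → b ∈ s18_fibreIdeal O ({s18_sig O K M σ} : Set ↥(s18_Fpp O K M σ))) ∧
    (∀ (b b' : ↥(s18_chart O ({s18_sig O K M σ} : Set ↥(s18_Fpp O K M σ))))
      (a : LaurentSeries O),
      ((b' : ↥(s18_Fpp O K M σ)) : LaurentSeries K) =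
          coeffMap (algebraMap O K) a * ((b : ↥(s18_Fpp O K M σ)) : LaurentSeries K) →
        ρ b' = coeffMap (IsLocalRing.residue O) a * ρ b) ∧
    ∀ y : ↥(s18_chart O ({s18_sig O K M σ} : Set ↥(s18_Fpp O K M σ))),
      ∃ b : ↥(s18_F K M), b ∈ s18_chart O ({(s18_j K M)⁻¹} : Set ↥(s18_F K M)) ∧
        ∃ hb : s18_theta O K M σ b ∈
            s18_chart O ({s18_sig O K M σ} : Set ↥(s18_Fpp O K M σ)),
          ∀ k : ℤ, (ρ ⟨s18_theta O K M σ b, hb⟩).coeff k =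
            if (M : ℤ) ∣ k then (ρ y).coeff k else 0

/-- **(K'')** the integral closure of `A` in `F''` is unramified over `A` away from `ℓ`:
every non-zero prime `P ∌ ℓ` of it is generated, locally at `P`, by an element of `A`. -/
def s18_KummerAt (ℓ : ℕ) : Prop :=
  letI := s18_algOFF O K (s18_Fpp O K M σ)
  ∀ P : Ideal ↥(integralClosure ↥(s18_Asig O K M σ) ↥(s18_Fpp O K M σ)),
    P.IsPrime → P ≠ ⊥ →
    (ℓ : ↥(integralClosure ↥(s18_Asig O K M σ) ↥(s18_Fpp O K M σ))) ∉ P →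
    ∃ a : ↥(s18_Asig O K M σ),
      algebraMap ↥(s18_Asig O K M σ)
        ↥(integralClosure ↥(s18_Asig O K M σ) ↥(s18_Fpp O K M σ)) a ∈ P ∧
      ∀ x ∈ P, ∃ y z : ↥(integralClosure ↥(s18_Asig O K M σ) ↥(s18_Fpp O K M σ)),
        z ∉ P ∧ x * z =
          algebraMap ↥(s18_Asig O K M σ)
            ↥(integralClosure ↥(s18_Asig O K M σ) ↥(s18_Fpp O K M σ)) a * y

end Fpp

/-- **[GRADE]** -/
def s18_GradeStatement : Prop :=
  s18_GaussAbsStatement →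
  ∀ (M : ℕ) [NeZero M] {ℓ : ℕ} [Fact ℓ.Prime], ¬ ℓ ∣ M →
    ∀ (K0 : IntermediateField ℚ (AlgebraicClosure ℚ)), FiniteDimensional ℚ ↥K0 →
    ∀ (O : ValuationSubring ↥K0) [IsDiscreteValuationRing ↥O],
      (ℓ : ↥O) ∈ IsLocalRing.maximalIdeal ↥O →
      s18_GaussQAt ↥O ↥K0 M →
      ∀ σ : LaurentSeries ↥O, s18_IsSigma ↥O M σ → s18_GradeAt ↥O ↥K0 M σ

/-- **[KUMMER]** -/
def s18_KummerStatement : Prop :=
  s18_RamJStatement → s18_CfeStatement →
  ∀ (M : ℕ) [NeZero M] {ℓ : ℕ} [Fact ℓ.Prime], ¬ ℓ ∣ M → (4 ∣ M ∨ 9 ∣ M) →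
    ∀ (K0 : IntermediateField ℚ (AlgebraicClosure ℚ)), FiniteDimensional ℚ ↥K0 →
    ∀ (O : ValuationSubring ↥K0) [IsDiscreteValuationRing ↥O],
      (ℓ : ↥O) ∈ IsLocalRing.maximalIdeal ↥O →
      s18_GaussQAt ↥O ↥K0 M →
      ∀ σ : LaurentSeries ↥O, s18_IsSigma ↥O M σ → s18_KummerAt ↥O ↥K0 M σ ℓ

/-- **[INF-ASM]** the assembly of [NORM-INF]. -/
def s18_InfAsmStatement : Prop :=
  s18_SigmaStatement → s18_SepStatement → s18_PureStatement →
  ∀ (M : ℕ) [NeZero M] {ℓ : ℕ} [Fact ℓ.Prime], ¬ ℓ ∣ M → (4 ∣ M ∨ 9 ∣ M) →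
    ∀ (K0 : IntermediateField ℚ (AlgebraicClosure ℚ)), FiniteDimensional ℚ ↥K0 →
    ∀ (O : ValuationSubring ↥K0) [IsDiscreteValuationRing ↥O],
      (ℓ : ↥O) ∈ IsLocalRing.maximalIdeal ↥O →
      PerfectField (IsLocalRing.ResidueField ↥O) →
      s18_GaussQAt ↥O ↥K0 M →
      (∀ σ : LaurentSeries ↥O, s18_IsSigma ↥O M σ → s18_GradeAt ↥O ↥K0 M σ) →
      (∀ σ : LaurentSeries ↥O, s18_IsSigma ↥O M σ → s18_KummerAt ↥O ↥K0 M σ ℓ) →
      letI := s18_algOF ↥O ↥K0 M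
      IsIntegrallyClosed (s18_fibre ↥O ({s18_j ↥K0 M} : Set ↥(s18_F ↥K0 M))) →
      IsIntegrallyClosed (s18_fibre ↥O ({(s18_j ↥K0 M)⁻¹} : Set ↥(s18_F ↥K0 M)))

/-- **The composition**: [NORM-INF-OF] from [ROOT], [GRADE], [KUMMER], [INF-ASM]. -/
theorem s18_normInfOf_of (hR : s18_SigmaStatement) (hG : s18_GradeStatement)
    (hK : s18_KummerStatement) (hA : s18_InfAsmStatement) : s18_NormInfOfStatement := by
  intro hGA hRJ hC hS hP M _ ℓ _ hℓM h49 K0 hK0 O _ hℓ hperf hg hfin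
  exact hA hR hS hP M hℓM h49 K0 hK0 O hℓ hperf hg
    (fun σ hσ => hG hGA M hℓM K0 hK0 O hℓ hg σ hσ)
    (fun σ hσ => hK hRJ hC M hℓM h49 K0 hK0 O hℓ hg σ hσ) hfin

end Fermat.Agent.S18
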