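/-
S18, THE CUT OF [ASTAR] (architect: helper13).  Prefix `s18_`.  Definitions and `Prop`s only
(plus the composition `s18_astar_of`).  PURE COMMUTATIVE ALGEBRA - no modular vocabulary.

SETTING.  `O` a discrete valuation ring, `K = Frac O` of characteristic `0`, `F / K` a function
field with a coordinate `j`, `B = s18_chart O {j}`, `B' = s18_chart O {j⁻¹}` (the two charts of
the normalisation of `P¹_O` in `F`), both with an integrally closed domain as special fibre
(`s18_IsGoodModel`).  `W = B_(π)` is the local ring of the generic point of the special fibre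
(`s18_gauss O j k = π^k W`).  For `u ∈ Fˣ`, `m ≥ 1`:

    I  = s18_root O j u m   = {f : f^m ∈ u B}        (a `B`-submodule of `F`: `B` is normal)
    I' = s18_root O j⁻¹ u m = {f : f^m ∈ u B'}
    Λ_n = {f : f ∈ I, j⁻ⁿ f ∈ I'}                     (= H⁰(X, O(-D₀ + n·∞)), D₀ = div(u)/m)

  [BASIC]    the standard facts about the two charts (`s18_IsBasic`).
  [LOC]      local generators: at every closed point `𝔫 ∋ π` of a chart there is `g ∈ Fˣ` with
             `g^m = u · (unit of B_𝔫)`  (`B_𝔫` is a 2-dimensional local UFD; uses `m ∣ ord_P u`).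
  [SURJ-OF]  [LOC] ⟹ the reduction `I → B/πB` is onto.
  [POLE-OF]  [LOC] ⟹ the pole lemma (Hensel step does not increase the pole order).
  [FIN]      `H⁰(n) = {f ∈ B : j⁻ⁿ f ∈ B'}` is a finitely generated `O`-module (trace form).
  [CECH]     `I[1/j] = I + jⁿ I'` for `n ≥ n₀`.
  [GLOB-OF]  gluing + iteration: approximate `m`-th roots of `u` modulo `π^k` for all `k` in a
             finitely generated `O`-module.
  [NSATZ]    approximate roots modulo `π^k` for all `k` ⟹ a root over every algebraically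
             closed field `C ⊇ K` (Nullstellensatz).
-/
import Mathlib
import Fermat.Agent.S18.StarDefs

set_option autoImplicit false

open AlgebraicCurve IntermediateField
open scoped TensorProduct

noncomputable section

namespace Fermat.Agent.S18

section Defs

variable (O : Type) [CommRing O] [IsLocalRing O] {F : Type} [Field F] [Algebra O F]

/-- `s18_gauss O j k = π^k W`, where `W = B_(πB)` is the localisation of the chart
`B = s18_chart O {j}` at the ideal of the special fibre: the set of all `f ∈ F` with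
`f · y = x`, `x ∈ (π B)^k`, `y ∈ B \ π B`. -/
def s18_gauss (j : F) (k : ℕ) : Set F :=
  {f | ∃ x y : ↥(s18_chart O ({j} : Set F)), y ∉ s18_fibreIdeal O ({j} : Set F) ∧
    x ∈ s18_fibreIdeal O ({j} : Set F) ^ k ∧ f * (y : F) = (x : F)}

/-- `I = s18_root O j u m = {f ∈ F : f^m ∈ u · B}`, `B = s18_chart O {j}`. -/
def s18_root (j u : F) (m : ℕ) : Set F :=
  {f | ∃ c : ↥(s18_chart O ({j} : Set F)), f ^ m = u * (c : F)}

/-- `H⁰(n) = {f ∈ B : j⁻ⁿ f ∈ B'}` as an `O`-submodule of `F`. -/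
def s18_H0 (j : F) (n : ℕ) : Submodule O F :=
  (Subalgebra.toSubmodule (s18_chart O ({j} : Set F))) ⊓
    (Subalgebra.toSubmodule (s18_chart O ({j⁻¹} : Set F))).comap
      (LinearMap.mulLeft O (j⁻¹ ^ n))

omit [IsLocalRing O] in
theorem s18_mem_H0 {j : F} {n : ℕ} {f : F} :
    f ∈ s18_H0 O j n ↔
      f ∈ s18_chart O ({j} : Set F) ∧ j⁻¹ ^ n * f ∈ s18_chart O ({j⁻¹} : Set F) := Iff.rfl

/-- **Local generators** at the closed points of the special fibre of the chart of `j`:
for every maximal ideal `𝔫 ∋ π` of `B` there is `g ∈ Fˣ` with `g^m = u · d / c`,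
`c, d ∈ B \ 𝔫`. -/
def s18_LocGen (j u : F) (m : ℕ) : Prop :=
  ∀ 𝔫 : Ideal ↥(s18_chart O ({j} : Set F)), 𝔫.IsMaximal →
    s18_fibreIdeal O ({j} : Set F) ≤ 𝔫 →
    ∃ g : F, g ≠ 0 ∧ ∃ c d : ↥(s18_chart O ({j} : Set F)), c ∉ 𝔫 ∧ d ∉ 𝔫 ∧
      g ^ m * (c : F) = u * (d : F)

/-- **(S)** the reduction `I → B / π B` is onto: every `b ∈ B` is `≡ f` modulo `π W` for some
`f ∈ I`. -/
def s18_Surj (j u : F) (m : ℕ) : Prop :=
  ∀ b : ↥(s18_chart O ({j} : Set F)), ∃ f : F, f ∈ s18_root O j u m ∧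
    f - (b : F) ∈ s18_gauss O j 1

/-- **(P)** the pole lemma for the chart of `j`: if `jⁿ s ∈ I` and `s^m ≡ u` modulo `π^(k+1) W`
then `jⁿ · (s^m - u) / (π^(k+1) u)` is `≡` an element of `B` modulo `π W`; in the form without
division: there is `t ∈ (π B)^(k+1)` with `jⁿ (s^m - u) - u t ∈ π^(k+2) W`. -/
def s18_Pole (j u : F) (m : ℕ) : Prop :=
  ∀ (n k : ℕ) (s : F), j ^ n * s ∈ s18_root O j u m → s ^ m - u ∈ s18_gauss O j (k + 1) →
    ∃ t : ↥(s18_chart O ({j} : Set F)), t ∈ s18_fibreIdeal O ({j} : Set F) ^ (k + 1) ∧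
      j ^ n * (s ^ m - u) - u * (t : F) ∈ s18_gauss O j (k + 2)

/-- **(C)** Čech: `I[1/j] = I + jⁿ I'` for all `n ≥ n₀`. -/
def s18_Cech (j u : F) (m : ℕ) : Prop :=
  ∃ n₀ : ℕ, ∀ n : ℕ, n₀ ≤ n → ∀ f : F, (∃ k : ℕ, j ^ k * f ∈ s18_root O j u m) →
    ∃ f₁ f₂ : F, f₁ ∈ s18_root O j u m ∧ j⁻¹ ^ n * f₂ ∈ s18_root O j⁻¹ u m ∧ f = f₁ + f₂

/-- **(A)** approximate `m`-th roots of `u` in a finitely generated `O`-module. -/
def s18_Approx (ϖ : O) (u : F) (m : ℕ) : Prop :=
  ∃ Λ Λ' : Submodule O F, Λ.FG ∧ Λ'.FG ∧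
    ∀ k : ℕ, ∃ s ∈ Λ, ∃ t ∈ Λ', s ^ m - u = (ϖ ^ k) • t

end Defs

/-- The standard facts about the two charts of a good model. -/
structure s18_IsBasic (O K F : Type) [CommRing O] [IsDomain O] [IsDiscreteValuationRing O]
    [Field K] [Algebra O K] [IsFractionRing O K] [Field F] [Algebra K F] [Algebra O F]
    [IsScalarTower O K F] (j : F) : Prop where
  /-- the chart is a noetherian ring (it is a finite module over `O[j]`) -/
  noeth : IsNoetherianRing ↥(s18_chart O ({j} : Set F))
  /-- the chart is a finite module over `O[j]` -/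
  finite : ∃ s : Finset F, (∀ x ∈ s, x ∈ s18_chart O ({j} : Set F)) ∧
    ∀ x ∈ s18_chart O ({j} : Set F), ∃ c : F → ↥(Algebra.adjoin O ({j} : Set F)),
      x = ∑ y ∈ s, (c y : F) * y
  /-- `F` is the field of fractions of the chart -/
  frac : ∀ f : F, ∃ x y : ↥(s18_chart O ({j} : Set F)), y ≠ 0 ∧ f * (y : F) = (x : F)
  /-- `B ∩ K(j) = O[j]` -/
  inter : ∀ x ∈ s18_chart O ({j} : Set F), x ∈ K⟮j⟯ → x ∈ Algebra.adjoin O ({j} : Set F)
  /-- the roles of `j` and `j⁻¹` are symmetric -/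
  symm : s18_IsGoodModel O K F j⁻¹
  /-- `W` is a valuation ring with uniformizer `π`: `w(f) ≥ 0` or `w(f⁻¹) ≥ 1` -/
  val : ∀ f : F, f ∈ s18_gauss O j 0 ∨ f⁻¹ ∈ s18_gauss O j 1
  /-- `W` is discrete: a non-zero `f` is not divisible by all powers of `π` -/
  sep : ∀ f : F, f ≠ 0 → ∃ k : ℕ, f ∉ s18_gauss O j k
  /-- both charts have the same `W` -/
  gauss_eq : ∀ k : ℕ, s18_gauss O j k = s18_gauss O j⁻¹ k
  /-- `u ≡ 1` modulo the special fibre does not depend on the chart -/
  swap : ∀ u : F, s18_RedOne O j u → s18_RedOne O j⁻¹ u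
  /-- `B ⊆ ⋃ jᵏ B'` -/
  cover : ∀ x ∈ s18_chart O ({j} : Set F), ∃ k : ℕ, j⁻¹ ^ k * x ∈ s18_chart O ({j⁻¹} : Set F)

/-- **[BASIC]** -/
def s18_BasicStatement : Prop :=
  ∀ (O K F : Type) [CommRing O] [IsDomain O] [IsDiscreteValuationRing O]
    [Field K] [CharZero K] [Algebra O K] [IsFractionRing O K] [Field F] [Algebra K F]
    [Algebra O F] [IsScalarTower O K F] (j : F), s18_IsGoodModel O K F j →
    s18_IsBasic O K F j

/-- **[LOC]** local generators exist (the local rings of the model at the closed points of the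
special fibre are factorial, and the orders of `u` along all horizontal prime divisors are
divisible by `m`). -/
def s18_LocStatement : Prop :=
  ∀ (O K F : Type) [CommRing O] [IsDomain O] [IsDiscreteValuationRing O]
    [Field K] [CharZero K] [Algebra O K] [IsFractionRing O K] [Field F] [Algebra K F]
    [Algebra O F] [IsScalarTower O K F] (j : F), s18_IsGoodModel O K F j →
    s18_IsBasic O K F j →
    ∀ (m : ℕ) (u : F), u ≠ 0 → s18_RedOne O j u →
      (∀ P : Place K F, (m : ℤ) ∣ P.ord u) → s18_LocGen O j u m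

/-- **[SURJ-OF]** -/
def s18_SurjOfStatement : Prop :=
  ∀ (O K F : Type) [CommRing O] [IsDomain O] [IsDiscreteValuationRing O]
    [Field K] [CharZero K] [Algebra O K] [IsFractionRing O K] [Field F] [Algebra K F]
    [Algebra O F] [IsScalarTower O K F] (j : F), s18_IsGoodModel O K F j →
    s18_IsBasic O K F j →
    ∀ (m : ℕ) (u : F), 0 < m → u ≠ 0 → s18_RedOne O j u →
      s18_LocGen O j u m → s18_Surj O j u m

/-- **[POLE-OF]** -/
def s18_PoleOfStatement : Prop :=
  ∀ (O K F : Type) [CommRing O] [IsDomain O] [IsDiscreteValuationRing O]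
    [Field K] [CharZero K] [Algebra O K] [IsFractionRing O K] [Field F] [Algebra K F]
    [Algebra O F] [IsScalarTower O K F] (j : F), s18_IsGoodModel O K F j →
    s18_IsBasic O K F j →
    ∀ (m : ℕ) (u : F), IsUnit (m : O) → u ≠ 0 → s18_RedOne O j u →
      s18_LocGen O j u m → s18_Pole O j u m

/-- **[FIN]** -/
def s18_FinStatement : Prop :=
  ∀ (O K F : Type) [CommRing O] [IsDomain O] [IsDiscreteValuationRing O]
    [Field K] [CharZero K] [Algebra O K] [IsFractionRing O K] [Field F] [Algebra K F]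
    [Algebra O F] [IsScalarTower O K F] (j : F), s18_IsGoodModel O K F j →
    s18_IsBasic O K F j → ∀ n : ℕ, (s18_H0 O j n).FG

/-- **[CECH]** -/
def s18_CechStatement : Prop :=
  ∀ (O K F : Type) [CommRing O] [IsDomain O] [IsDiscreteValuationRing O]
    [Field K] [CharZero K] [Algebra O K] [IsFractionRing O K] [Field F] [Algebra K F]
    [Algebra O F] [IsScalarTower O K F] (j : F), s18_IsGoodModel O K F j →
    s18_IsBasic O K F j → s18_IsBasic O K F j⁻¹ →
    ∀ (m : ℕ) (u : F), 0 < m → u ≠ 0 → s18_Cech O j u m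

/-- **[GLOB-OF]** gluing and iteration. -/
def s18_GlobOfStatement : Prop :=
  ∀ (O K F : Type) [CommRing O] [IsDomain O] [IsDiscreteValuationRing O]
    [Field K] [CharZero K] [Algebra O K] [IsFractionRing O K] [Field F] [Algebra K F]
    [Algebra O F] [IsScalarTower O K F] (j : F), s18_IsGoodModel O K F j →
    s18_IsBasic O K F j → s18_IsBasic O K F j⁻¹ →
    ∀ (m : ℕ) (u : F), IsUnit (m : O) → u ≠ 0 → s18_RedOne O j u →
      s18_Surj O j u m → s18_Surj O j⁻¹ u m → s18_Pole O j⁻¹ u m →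
      (∀ n : ℕ, (s18_H0 O j n).FG) → s18_Cech O j u m →
      ∀ ϖ : O, Irreducible ϖ → s18_Approx O ϖ u m

/-- **[NSATZ]** -/
def s18_NsatzStatement : Prop :=
  ∀ (O K F : Type) [CommRing O] [IsDomain O] [IsDiscreteValuationRing O]
    [Field K] [Algebra O K] [IsFractionRing O K] [Field F] [Algebra K F]
    [Algebra O F] [IsScalarTower O K F] (ϖ : O), Irreducible ϖ →
    ∀ (m : ℕ) (u : F), s18_Approx O ϖ u m →
      ∀ (C : Type) [Field C] [IsAlgClosed C] [Algebra K C],
        ∃ y : C ⊗[K] F, y ^ m = (1 : C) ⊗ₜ[K] u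

/-- **The composition**: [ASTAR] from its eight packages. -/
theorem s18_astar_of (hB : s18_BasicStatement) (hL : s18_LocStatement)
    (hS : s18_SurjOfStatement) (hP : s18_PoleOfStatement) (hF : s18_FinStatement)
    (hC : s18_CechStatement) (hG : s18_GlobOfStatement) (hN : s18_NsatzStatement) :
    s18_AStarStatement := by
  intro O K F _ _ _ _ _ _ _ _ _ _ _ j hgood m hm u hu hred hord C _ _ _
  have hb := hB O K F j hgood
  have hgood' := hb.symm
  have hb' := hB O K F j⁻¹ hgood'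
  have hred' := hb.swap u hred
  have hm0 : 0 < m := by
    rcases Nat.eq_zero_or_pos m with h | h
    · subst h
      simp at hm
    · exact h
  have hloc := hL O K F j hgood hb m u hu hred hord
  have hloc' := hL O K F j⁻¹ hgood' hb' m u hu hred' hord
  have hs := hS O K F j hgood hb m u hm0 hu hred hloc
  have hs' := hS O K F j⁻¹ hgood' hb' m u hm0 hu hred' hloc'
  have hp' := hP O K F j⁻¹ hgood' hb' m u hm hu hred' hloc'
  have hfin := hF O K F j hgood hb
  have hcech := hC O K F j hgood hb hb' m u hm0 hu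
  obtain ⟨ϖ, hϖ⟩ := IsDiscreteValuationRing.exists_irreducible O
  exact hN O K F ϖ hϖ m u
    (hG O K F j hgood hb hb' m u hm hu hred hs hs' hp' hfin hcech ϖ hϖ) C

end Fermat.Agent.S18
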