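/-
S18, THE GLOBAL ASSEMBLY (architect: helper13).  Every leaf package of the cut is a hypothesis;
`Fermat/Agent/S18.lean` will be `s18_of_leaves` applied to the `…_main` theorems.
-/
import Mathlib
import Fermat.Agent.S18.LiftDefs
import Fermat.Agent.S18.InfDefs

set_option autoImplicit false

open AlgebraicCurve ModularCurve

noncomputable section

namespace Fermat.Agent.S18

/-- [ASTAR] from its eight leaves (= `s18_astar_of`). -/
theorem s18_asm_astar (hB : s18_BasicStatement) (hL : s18_LocStatement)
    (hS : s18_SurjOfStatement) (hP : s18_PoleOfStatement) (hF : s18_FinStatement)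
    (hC : s18_CechStatement) (hG : s18_GlobOfStatement) (hN : s18_NsatzStatement) :
    s18_AStarStatement := s18_astar_of hB hL hS hP hF hC hG hN

/-- [MODEL-Q] from its thirteen leaves. -/
theorem s18_asm_modelQ (hGA : s18_GaussAbsStatement) (hGQ : s18_GaussQOfStatement)
    (hH4 : s18_Haupt4Statement) (hH9 : s18_Haupt9Statement) (hR : s18_RamJStatement)
    (hC : s18_CfeStatement) (hS : s18_SepStatement) (hP : s18_PureStatement)
    (hNF : s18_NormFinOfStatement) (hRt : s18_SigmaStatement) (hGr : s18_GradeStatement)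
    (hK : s18_KummerStatement) (hIA : s18_InfAsmStatement) : s18_ModelQStatement :=
  s18_modelQ_of_leaves hGA hGQ hH4 hH9 hR hC hS hP hNF (s18_normInfOf_of hRt hGr hK hIA)

/-- **S18 from all the leaves of the cut.** -/
theorem s18_of_leaves
    -- top
    (hConst : s18_ConstStatement) (hWire : s18_WireOfStatement) (hDown : s18_DownStatement)
    (hRat : s18_RatQStatement) (hCfe : s18_CfeStatement) (hDisc : s18_DiscreteStatement)
    -- [ASTAR]
    (hB : s18_BasicStatement) (hL : s18_LocStatement)
    (hS : s18_SurjOfStatement) (hP : s18_PoleOfStatement) (hF : s18_FinStatement)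
    (hC : s18_CechStatement) (hG : s18_GlobOfStatement) (hN : s18_NsatzStatement)
    -- [MODEL-Q]
    (hGA : s18_GaussAbsStatement) (hGQ : s18_GaussQOfStatement)
    (hH4 : s18_Haupt4Statement) (hH9 : s18_Haupt9Statement) (hR : s18_RamJStatement)
    (hSep : s18_SepStatement) (hPu : s18_PureStatement)
    (hNF : s18_NormFinOfStatement) (hRt : s18_SigmaStatement) (hGr : s18_GradeStatement)
    (hK : s18_KummerStatement) (hIA : s18_InfAsmStatement)
    (N : ℕ) [NeZero N] {ℓ : ℕ} [Fact ℓ.Prime] (hℓN : ¬ ℓ ∣ N)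
    (A : ValuationSubring (AlgebraicClosure ℚ)) (hA : A.LiesOverPrime ℓ)
    (h : ModularCurve.ReductionInputsModL A N) (m : ℕ) (hm : ¬ ℓ ∣ m)
    (z : ModularCurve.JZero N) (hmz : m • z = 0)
    (hz : ModularCurve.reductionModL A N z = 0) : z = 0 :=
  s18_result_of (hWire hConst) hDown
    (s18_starM_ofQ hRat
      (s18_asm_modelQ hGA hGQ hH4 hH9 hR hCfe hSep hPu hNF hRt hGr hK hIA)
      (s18_asm_astar hB hL hS hP hF hC hG hN) hCfe hDisc)
    N hℓN A hA h m hm z hmz hz

end Fermat.Agent.S18
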