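/-
S18 [CFE], part 2 (helper8).  Prefix `s18cfe_`.

Generation: if `E` is generated as a field by `ι(F)` and `L`, `L/K` algebraic of characteristic 0,
then every element of `E` is a polynomial over `F` in a single element of `L`.
-/
import Mathlib

set_option autoImplicit false
set_option linter.unusedSectionVars false
set_option linter.style.haveILetI false

open Polynomial IntermediateField

namespace Fermat.Agent.S18

section Gen

variable {K F L E : Type*} [Field K] [CharZero K] [Field F] [Field L] [Field E]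
  [Algebra K F] [Algebra K L] [Algebra L E] [Algebra.IsAlgebraic K L]
  (ι : F →+* E) (hι : ∀ c : K, ι (algebraMap K F c) = algebraMap L E (algebraMap K L c))

/-- Two elements of `L` are polynomials in a common primitive element. -/
theorem s18cfe_prim (α β : L) :
    ∃ (γ : L) (u v : K[X]), α = aeval γ u ∧ β = aeval γ v := by
  classical
  let K1 : IntermediateField K L := IntermediateField.adjoin K {α, β}
  haveI : FiniteDimensional K K1 :=
    IntermediateField.finiteDimensional_adjoin
      (fun x _ => (Algebra.IsAlgebraic.isAlgebraic (R := K) x).isIntegral)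
  obtain ⟨γ₀, hγ₀⟩ := Field.exists_primitive_element K K1
  have key : ∀ z : K1, ∃ u : K[X], (z : L) = aeval (γ₀ : L) u := by
    intro z
    have hz : z ∈ K⟮γ₀⟯ := by rw [hγ₀]; trivial
    have h1 : z ∈ (K⟮γ₀⟯).toSubalgebra := hz
    rw [IntermediateField.adjoin_simple_toSubalgebra_of_isAlgebraic
      (Algebra.IsAlgebraic.isAlgebraic γ₀), Algebra.adjoin_singleton_eq_range_aeval] at h1
    obtain ⟨u, hu⟩ := h1
    refine ⟨u, ?_⟩
    rw [← hu]
    exact (Polynomial.aeval_algHom_apply K1.val γ₀ u).symm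
  obtain ⟨u, hu⟩ := key ⟨α, IntermediateField.subset_adjoin K _ (by simp)⟩
  obtain ⟨v, hv⟩ := key ⟨β, IntermediateField.subset_adjoin K _ (by simp)⟩
  exact ⟨γ₀, u, v, hu, hv⟩

include hι in
theorem s18cfe_comp_eq : ι.comp (algebraMap K F) = (algebraMap L E).comp (algebraMap K L) :=
  RingHom.ext hι

include hι in
/-- Evaluation of a polynomial with coefficients in `K`. -/
theorem s18cfe_eval_K (γ : L) (u : K[X]) :
    eval₂ ι (algebraMap L E γ) (u.map (algebraMap K F)) = algebraMap L E (aeval γ u) := by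
  rw [Polynomial.eval₂_map, s18cfe_comp_eq ι hι, Polynomial.aeval_def, Polynomial.hom_eval₂]

include hι in
/-- Change of generator. -/
theorem s18cfe_change (γ : L) (u : K[X]) (a : F[X]) :
    eval₂ ι (algebraMap L E (aeval γ u)) a =
      eval₂ ι (algebraMap L E γ) (a.comp (u.map (algebraMap K F))) := by
  rw [Polynomial.eval₂_comp, s18cfe_eval_K ι hι]

include hι in
/-- `F[γ]` is a field. -/
theorem s18cfe_inv (γ : L) (a : F[X]) :
    ∃ a' : F[X], (eval₂ ι (algebraMap L E γ) a)⁻¹ = eval₂ ι (algebraMap L E γ) a' := by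
  letI : Algebra F E := ι.toAlgebra
  have halg : IsAlgebraic F (algebraMap L E γ) := by
    have hint : IsIntegral K γ := (Algebra.IsAlgebraic.isAlgebraic (R := K) γ).isIntegral
    refine ⟨(minpoly K γ).map (algebraMap K F),
      ((minpoly.monic hint).map _).ne_zero, ?_⟩
    rw [Polynomial.aeval_def]
    show eval₂ ι _ _ = 0
    rw [s18cfe_eval_K ι hι, minpoly.aeval, map_zero]
  have h1 : aeval (algebraMap L E γ) a ∈ F⟮algebraMap L E γ⟯ := by
    show _ ∈ (F⟮algebraMap L E γ⟯).toSubalgebra
    rw [IntermediateField.adjoin_simple_toSubalgebra_of_isAlgebraic halg,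
      Algebra.adjoin_singleton_eq_range_aeval]
    exact ⟨a, rfl⟩
  have h2' : (aeval (algebraMap L E γ) a)⁻¹ ∈ F⟮algebraMap L E γ⟯ := inv_mem h1
  have h2 : (aeval (algebraMap L E γ) a)⁻¹ ∈ (F⟮algebraMap L E γ⟯).toSubalgebra := h2'
  rw [IntermediateField.adjoin_simple_toSubalgebra_of_isAlgebraic halg,
    Algebra.adjoin_singleton_eq_range_aeval] at h2
  obtain ⟨a', ha'⟩ := h2
  exact ⟨a', ha'.symm⟩

include hι in
/-- **Generation.**  Every element of `E` is a polynomial over `F` in one element of `L`. -/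
theorem s18cfe_gen
    (hgen : ∀ S : Subfield E, (∀ f, ι f ∈ S) → (∀ c, algebraMap L E c ∈ S) → ∀ x, x ∈ S)
    (x : E) : ∃ (γ : L) (a : F[X]), x = eval₂ ι (algebraMap L E γ) a := by
  classical
  let S : Subfield E :=
    { carrier := {x | ∃ (γ : L) (a : F[X]), x = eval₂ ι (algebraMap L E γ) a}
      mul_mem' := by
        rintro x y ⟨α, a, rfl⟩ ⟨β, b, rfl⟩
        obtain ⟨γ, u, v, hu, hv⟩ := s18cfe_prim (K := K) α β
        refine ⟨γ, a.comp (u.map (algebraMap K F)) * b.comp (v.map (algebraMap K F)), ?_⟩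
        rw [eval₂_mul, ← s18cfe_change ι hι, ← s18cfe_change ι hι, ← hu, ← hv]
      one_mem' := ⟨0, 1, by simp⟩
      add_mem' := by
        rintro x y ⟨α, a, rfl⟩ ⟨β, b, rfl⟩
        obtain ⟨γ, u, v, hu, hv⟩ := s18cfe_prim (K := K) α β
        refine ⟨γ, a.comp (u.map (algebraMap K F)) + b.comp (v.map (algebraMap K F)), ?_⟩
        rw [eval₂_add, ← s18cfe_change ι hι, ← s18cfe_change ι hι, ← hu, ← hv]
      zero_mem' := ⟨0, 0, by simp⟩
      neg_mem' := by
        rintro x ⟨α, a, rfl⟩
        exact ⟨α, -a, by rw [eval₂_neg]⟩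
      inv_mem' := by
        rintro x ⟨α, a, rfl⟩
        obtain ⟨a', ha'⟩ := s18cfe_inv ι hι α a
        exact ⟨α, a', ha'⟩ }
  exact hgen S (fun f => ⟨0, C f, by simp⟩) (fun c => ⟨c, X, by simp⟩) x

end Gen

end Fermat.Agent.S18
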