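/-
S18 [CFE], part 1 (helper8).  Prefix `s18cfe_`.

The unramified step, in pure commutative algebra: `A` a discrete valuation ring with uniformizer
`π`, `φ : A → B` an injective local homomorphism into a local domain, `γ ∈ B` a root of a monic
`g ∈ A[X]` whose reduction is separable.  Then every non-zero element of `A[γ]` is
`(φ π)^k · unit` in `B`.
-/
import Mathlib

set_option autoImplicit false
set_option linter.unusedSectionVars false

open Polynomial IsLocalRing

namespace Fermat.Agent.S18

section Step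

variable {A B : Type*} [CommRing A] [IsDomain A] [IsDiscreteValuationRing A]
  [CommRing B] [IsDomain B] [IsLocalRing B]
  (φ : A →+* B)

/-- A polynomial over a discrete valuation ring whose reduction vanishes is divisible by the
uniformizer. -/
theorem s18cfe_ker {π : A} (hπ : Irreducible π) (c : A[X]) (hc : c.map (residue A) = 0) :
    ∃ d : A[X], c = C π * d := by
  have h1 : c ∈ RingHom.ker (mapRingHom (residue A)) := by
    rw [RingHom.mem_ker]; exact hc
  rw [Polynomial.ker_mapRingHom, IsLocalRing.ker_residue, hπ.maximalIdeal_eq, Ideal.map_span,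
    Set.image_singleton, Ideal.mem_span_singleton] at h1
  obtain ⟨d, hd⟩ := h1
  exact ⟨d, hd⟩

/-- The unramified step. -/
theorem s18cfe_step [IsLocalHom φ] {π : A} (hπ : Irreducible π) (γ : B) (g : A[X])
    (hg : (g.map (residue A)).Separable) (hgγ : eval₂ φ γ g = 0)
    (a : A[X]) (ha : ¬ IsUnit (eval₂ φ γ a)) :
    ∃ r c : A[X], IsUnit (eval₂ φ γ r) ∧
      eval₂ φ γ r * eval₂ φ γ a = φ π * eval₂ φ γ c := by
  classical
  set φb : ResidueField A →+* ResidueField B := ResidueField.map φ with hφb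
  set γb : ResidueField B := residue B γ with hγb
  have hcomp : (residue B).comp φ = φb.comp (residue A) := by
    ext x
    simp [hφb, ResidueField.map_residue]
  have hev : ∀ a : A[X], residue B (eval₂ φ γ a) = eval₂ φb γb (a.map (residue A)) := by
    intro a
    rw [Polynomial.hom_eval₂, Polynomial.eval₂_map, hcomp]
  let Eb : (ResidueField A)[X] →+* ResidueField B := eval₂RingHom φb γb
  have hEb : ∀ q, Eb q = eval₂ φb γb q := fun q => rfl
  let J : Ideal (ResidueField A)[X] := RingHom.ker Eb
  have hJ : J.IsPrincipal := IsPrincipalIdealRing.principal J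
  set pb := Submodule.IsPrincipal.generator J with hpb
  have hmem : ∀ x, x ∈ J ↔ pb ∣ x := fun x => Submodule.IsPrincipal.mem_iff_generator_dvd J
  have hgJ : g.map (residue A) ∈ J := by
    rw [RingHom.mem_ker, hEb, ← hev, hgγ, map_zero]
  obtain ⟨rb, hrb⟩ := (hmem _).1 hgJ
  have hcop : IsCoprime pb rb := by rw [hrb] at hg; exact hg.isCoprime
  obtain ⟨ub, vb, huv⟩ := hcop
  have hpb0 : Eb pb = 0 := (hmem pb).2 dvd_rfl
  have hrb1 : Eb vb * Eb rb = 1 := by
    have := congrArg Eb huv
    simpa [map_add, map_mul, hpb0] using this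
  have hrb0 : Eb rb ≠ 0 := right_ne_zero_of_mul_eq_one hrb1
  obtain ⟨p, hp⟩ := Polynomial.map_surjective (residue A) residue_surjective pb
  obtain ⟨r, hr⟩ := Polynomial.map_surjective (residue A) residue_surjective rb
  have haJ : a.map (residue A) ∈ J := by
    rw [RingHom.mem_ker, hEb, ← hev, residue_eq_zero_iff]
    exact ha
  obtain ⟨bb, hbb⟩ := (hmem _).1 haJ
  obtain ⟨b, hb⟩ := Polynomial.map_surjective (residue A) residue_surjective bb
  obtain ⟨s, hs⟩ := s18cfe_ker hπ (g - p * r)
    (by rw [Polynomial.map_sub, Polynomial.map_mul, hp, hr, hrb, sub_self])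
  obtain ⟨c, hc⟩ := s18cfe_ker hπ (a - p * b)
    (by rw [Polynomial.map_sub, Polynomial.map_mul, hp, hb, hbb, sub_self])
  refine ⟨r, r * c - s * b, ?_, ?_⟩
  · by_contra hu
    have h0 : residue B (eval₂ φ γ r) = 0 := (residue_eq_zero_iff _).2 hu
    rw [hev, hr] at h0
    exact hrb0 h0
  · have hg' : g = p * r + C π * s := by rw [← hs]; ring
    have ha' : a = p * b + C π * c := by rw [← hc]; ring
    have h1 : eval₂ φ γ p * eval₂ φ γ r + φ π * eval₂ φ γ s = 0 := by
      rw [← hgγ]
      conv_rhs => rw [hg']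
      simp [eval₂_add, eval₂_mul, eval₂_C]
    have h2 : eval₂ φ γ a = eval₂ φ γ p * eval₂ φ γ b + φ π * eval₂ φ γ c := by
      conv_lhs => rw [ha']
      simp [eval₂_add, eval₂_mul, eval₂_C]
    rw [eval₂_sub, eval₂_mul, eval₂_mul]
    linear_combination eval₂ φ γ r * h2 + eval₂ φ γ b * h1

/-- Elements of `A[γ]` are integral over `A`. -/
theorem s18cfe_integral (γ : B) (g : A[X]) (hgm : g.Monic) (hgγ : eval₂ φ γ g = 0) (a : A[X]) :
    φ.IsIntegralElem (eval₂ φ γ a) := by
  have hγ : φ.IsIntegralElem γ := ⟨g, hgm, hgγ⟩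
  have hpow : ∀ n : ℕ, φ.IsIntegralElem (γ ^ n) := by
    intro n
    induction n with
    | zero =>
      rw [pow_zero, ← map_one φ]
      exact φ.isIntegralElem_map
    | succ n ih => rw [pow_succ]; exact RingHom.IsIntegralElem.mul φ ih hγ
  induction a using Polynomial.induction_on' with
  | add p q hp hq => rw [eval₂_add]; exact RingHom.IsIntegralElem.add φ hp hq
  | monomial n c =>
    rw [eval₂_monomial]
    exact RingHom.IsIntegralElem.mul φ φ.isIntegralElem_map (hpow n)

/-- A non-zero element of `B` that is algebraic over `A` divides a non-zero constant. -/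
theorem s18cfe_exists_dvd (x : B) (hx : x ≠ 0) (P : A[X]) (hP0 : P ≠ 0)
    (hP : eval₂ φ x P = 0) : ∃ c : A, c ≠ 0 ∧ x ∣ φ c := by
  induction hn : P.natDegree using Nat.strong_induction_on generalizing P with
  | _ n ih =>
    by_cases h0 : P.coeff 0 = 0
    · have hPX : P = X * P.divX := by
        conv_lhs => rw [← Polynomial.X_mul_divX_add P, h0, map_zero, add_zero]
      have hd0 : P.divX ≠ 0 := by
        intro h
        rw [h, mul_zero] at hPX
        exact hP0 hPX
      have hev : eval₂ φ x P.divX = 0 := by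
        rw [hPX, eval₂_mul, eval₂_X] at hP
        exact (mul_eq_zero.1 hP).resolve_left hx
      have hdeg : P.divX.natDegree < n := by
        rw [Polynomial.natDegree_divX_eq_natDegree_tsub_one, hn]
        have : n ≠ 0 := by
          intro hn0
          rw [hn0] at hn
          have := Polynomial.eq_C_of_natDegree_eq_zero hn
          rw [h0, map_zero] at this
          exact hP0 this
        omega
      exact ih _ hdeg P.divX hd0 hev rfl
    · refine ⟨P.coeff 0, h0, ⟨-eval₂ φ x P.divX, ?_⟩⟩
      have h := hP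
      rw [← Polynomial.X_mul_divX_add P, eval₂_add, eval₂_mul, eval₂_X, eval₂_C] at h
      linear_combination h

/-- Krull: a non-zero integral element is not divisible by all powers of the uniformizer. -/
theorem s18cfe_krull [IsLocalHom φ] {π : A} (hπ : Irreducible π) (hφ : Function.Injective φ)
    (x : B) (hx : x ≠ 0) (hint : φ.IsIntegralElem x) : ∃ n : ℕ, ¬ (φ π) ^ n ∣ x := by
  obtain ⟨P, hPm, hP⟩ := hint
  obtain ⟨c, hc0, hxc⟩ := s18cfe_exists_dvd φ x hx P hPm.ne_zero hP
  obtain ⟨m, u, hcu⟩ := IsDiscreteValuationRing.eq_unit_mul_pow_irreducible hc0 hπ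
  refine ⟨m + 1, fun hdvd => ?_⟩
  have h1 : (φ π) ^ (m + 1) ∣ φ c := hdvd.trans hxc
  rw [hcu, map_mul, map_pow, pow_succ, mul_comm (φ (u : A))] at h1
  have hπ0 : φ π ≠ 0 := by
    rw [Ne, map_eq_zero_iff φ hφ]
    exact hπ.ne_zero
  have h2 : φ π ∣ φ (u : A) := (mul_dvd_mul_iff_left (pow_ne_zero m hπ0)).1 h1
  have h3 : IsUnit (φ π) := isUnit_of_dvd_unit h2 (u.isUnit.map φ)
  exact hπ.not_isUnit (isUnit_of_map_unit φ π h3)

/-- Every non-zero element of `A[γ]` is a power of the uniformizer times a unit of `B`. -/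
theorem s18cfe_factor [IsLocalHom φ] {π : A} (hπ : Irreducible π) (hφ : Function.Injective φ)
    (γ : B) (g : A[X]) (hgm : g.Monic) (hg : (g.map (residue A)).Separable)
    (hgγ : eval₂ φ γ g = 0) (a : A[X]) (ha : eval₂ φ γ a ≠ 0) :
    ∃ (k : ℕ) (u : Bˣ), eval₂ φ γ a = (φ π) ^ k * u := by
  obtain ⟨n, hn⟩ := s18cfe_krull φ hπ hφ _ ha (s18cfe_integral φ γ g hgm hgγ a)
  induction n generalizing a with
  | zero => exact absurd (by rw [pow_zero]; exact one_dvd _) hn
  | succ n ih =>
    by_cases hu : IsUnit (eval₂ φ γ a)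
    · exact ⟨0, hu.unit, by rw [pow_zero, one_mul]; rfl⟩
    · obtain ⟨r, c, hr, hrc⟩ := s18cfe_step φ hπ γ g hg hgγ a hu
      have hc0 : eval₂ φ γ c ≠ 0 := by
        intro h
        rw [h, mul_zero] at hrc
        rcases mul_eq_zero.1 hrc with h' | h'
        · exact hr.ne_zero h'
        · exact ha h'
      have hcn : ¬ (φ π) ^ n ∣ eval₂ φ γ c := by
        intro hd
        apply hn
        have h1 : (φ π) ^ (n + 1) ∣ eval₂ φ γ r * eval₂ φ γ a := by
          rw [hrc, pow_succ, mul_comm ((φ π) ^ n)]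
          exact mul_dvd_mul_left _ hd
        exact (hr.dvd_mul_left).1 h1
      obtain ⟨k, u, hku⟩ := ih c hc0 hcn
      obtain ⟨v, hv⟩ := hr
      refine ⟨k + 1, u * v⁻¹, ?_⟩
      have h2 : eval₂ φ γ a = ((v⁻¹ : Bˣ) : B) * (eval₂ φ γ r * eval₂ φ γ a) := by
        rw [← mul_assoc, ← hv, Units.inv_mul, one_mul]
      rw [h2, hrc, hku, Units.val_mul, pow_succ]
      ring

end Step

end Fermat.Agent.S18
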