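/-
S18 [CFE], part 3 (helper8).  Prefix `s18cfe_`.

The abstract theorem: a place of `F/K` extends to a place of `E/L` with the same orders, when
`L/K` is algebraic of characteristic 0 and `E` is generated by `F` and `L`.
-/
import Mathlib
import Fermat.Prelude.Def_AlgebraicCurve_DivisorClassGroup
import Fermat.Agent.S18.CfeStep
import Fermat.Agent.S18.CfeGen

set_option autoImplicit false
set_option linter.unusedSectionVars false
set_option linter.style.haveILetI false

open Polynomial IsLocalRing AlgebraicCurve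

namespace Fermat.Agent.S18

section Main

variable {K F L E : Type*} [Field K] [CharZero K] [Field F] [Field L] [Field E]
  [Algebra K F] [Algebra K L] [Algebra L E] [Algebra.IsAlgebraic K L]
  (ι : F →+* E) (hι : ∀ c : K, ι (algebraMap K F c) = algebraMap L E (algebraMap K L c))

/-- The constants `L` lie in every valuation ring of `E` containing the image of `K`. -/
theorem s18cfe_const_mem (V' : ValuationSubring E)
    (hK : ∀ c : K, algebraMap L E (algebraMap K L c) ∈ V') (c : L) :
    algebraMap L E c ∈ V' := by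
  have hint : IsIntegral K c := (Algebra.IsAlgebraic.isAlgebraic (R := K) c).isIntegral
  obtain ⟨p, hpm, hp⟩ := hint
  let ψ : K →+* ↥V' := ((algebraMap L E).comp (algebraMap K L)).codRestrict V'.toSubring hK
  have h1 : IsIntegral ↥V' (algebraMap L E c) := by
    refine ⟨p.map ψ, hpm.map _, ?_⟩
    rw [Polynomial.eval₂_map]
    have : (algebraMap ↥V' E).comp ψ = (algebraMap L E).comp (algebraMap K L) := by
      ext x; rfl
    rw [this, ← Polynomial.hom_eval₂, hp, map_zero]
  obtain ⟨y, hy⟩ := IsIntegrallyClosed.isIntegral_iff.1 h1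
  rw [← hy]
  exact y.2

include hι in
/-- **The abstract theorem.** -/
theorem s18cfe_abs
    (hgen : ∀ S : Subfield E, (∀ f, ι f ∈ S) → (∀ c, algebraMap L E c ∈ S) → ∀ x, x ∈ S)
    (P : Place K F) : ∃ P' : Place L E, ∀ f : F, P'.ord (ι f) = P.ord f := by
  classical
  obtain ⟨V', h, hloc⟩ :=
    IsLocalRing.exists_factor_valuationRing (ι.comp P.toValuationSubring.subtype)
  let φ : ↥P.toValuationSubring →+* ↥V' :=
    (ι.comp P.toValuationSubring.subtype).codRestrict V'.toSubring h
  haveI : IsLocalHom φ := hloc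
  have hφE : ∀ x : ↥P.toValuationSubring, ((φ x : ↥V') : E) = ι (x : F) := fun x => rfl
  have hφinj : Function.Injective φ := by
    intro x y hxy
    have := congrArg (fun z : ↥V' => (z : E)) hxy
    simp only [hφE] at this
    exact Subtype.ext (ι.injective this)
  have hK : ∀ c : K, algebraMap L E (algebraMap K L c) ∈ V' := by
    intro c
    rw [← hι]
    exact h ⟨algebraMap K F c, P.algebraMap_mem' c⟩
  have hL := s18cfe_const_mem V' hK
  obtain ⟨π, hπ⟩ := IsDiscreteValuationRing.exists_irreducible ↥P.toValuationSubring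
  have hcomp : V'.subtype.comp φ = ι.comp P.toValuationSubring.subtype := by
    ext x; rfl
  have hg : ∀ γ : L, ∃ g : (↥P.toValuationSubring)[X], g.Monic ∧
      (g.map (residue ↥P.toValuationSubring)).Separable ∧
      eval₂ φ ⟨algebraMap L E γ, hL γ⟩ g = 0 := by
    intro γ
    have hint : IsIntegral K γ := (Algebra.IsAlgebraic.isAlgebraic (R := K) γ).isIntegral
    refine ⟨(minpoly K γ).map (algebraMap K ↥P.toValuationSubring),
      (minpoly.monic hint).map _, ?_, ?_⟩
    · rw [Polynomial.map_map]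
      exact (minpoly.irreducible hint).separable.map
    · apply Subtype.ext
      have h1 := Polynomial.hom_eval₂ ((minpoly K γ).map (algebraMap K ↥P.toValuationSubring))
        φ V'.subtype ⟨algebraMap L E γ, hL γ⟩
      have h2 : (ι.comp P.toValuationSubring.subtype).comp
          (algebraMap K ↥P.toValuationSubring) = (algebraMap L E).comp (algebraMap K L) := by
        ext c
        exact hι c
      change V'.subtype _ = _
      rw [h1, hcomp, Polynomial.eval₂_map, h2]
      change eval₂ _ (algebraMap L E γ) _ = 0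
      rw [← Polynomial.hom_eval₂, ← Polynomial.aeval_def, minpoly.aeval, map_zero]
  have hπE : ι (π : F) ≠ 0 := by
    rw [Ne, map_eq_zero]
    intro h0
    exact hπ.ne_zero (Subtype.ext h0)
  have hfac : ∀ x : E, x ≠ 0 →
      ∃ (k : ℤ) (u : (↥V')ˣ), x = (ι (π : F)) ^ k * ((u : ↥V') : E) := by
    intro x hx
    obtain ⟨γ, aF, hxa⟩ := s18cfe_gen ι hι hgen x
    obtain ⟨b, hb, hab⟩ := IsLocalization.integerNormalization_spec
      (nonZeroDivisors ↥P.toValuationSubring) aF
    obtain ⟨g, hgm, hgs, hgγ⟩ := hg γ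
    have hab' : (IsLocalization.integerNormalization
        (nonZeroDivisors ↥P.toValuationSubring) aF).map P.toValuationSubring.subtype
        = C (b : F) * aF := by
      have h0 : b • aF = C (b : F) * aF := by
        rw [Algebra.smul_def, Polynomial.algebraMap_apply]
        rfl
      exact hab.trans h0
    have h1 : ((eval₂ φ ⟨algebraMap L E γ, hL γ⟩ (IsLocalization.integerNormalization
        (nonZeroDivisors ↥P.toValuationSubring) aF) : ↥V') : E) = ι (b : F) * x := by
      have h2 := Polynomial.hom_eval₂ (IsLocalization.integerNormalization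
        (nonZeroDivisors ↥P.toValuationSubring) aF) φ V'.subtype ⟨algebraMap L E γ, hL γ⟩
      change V'.subtype _ = _
      rw [h2, hcomp, ← Polynomial.eval₂_map, hab', eval₂_mul, eval₂_C, hxa]
      rfl
    have hb0 : b ≠ 0 := nonZeroDivisors.ne_zero hb
    have hbE : ι (b : F) ≠ 0 := by
      rw [Ne, map_eq_zero]
      intro h0
      exact hb0 (Subtype.ext h0)
    have h3 : eval₂ φ ⟨algebraMap L E γ, hL γ⟩ (IsLocalization.integerNormalization
        (nonZeroDivisors ↥P.toValuationSubring) aF) ≠ 0 := by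
      intro h0
      rw [h0] at h1
      exact mul_ne_zero hbE hx h1.symm
    obtain ⟨k, u, hku⟩ := s18cfe_factor φ hπ hφinj _ g hgm hgs hgγ _ h3
    obtain ⟨m, ub, hbu⟩ := IsDiscreteValuationRing.eq_unit_mul_pow_irreducible hb0 hπ
    refine ⟨(k : ℤ) - m, u * (Units.map φ.toMonoidHom ub)⁻¹, ?_⟩
    have h4 : ι (b : F) = ((Units.map φ.toMonoidHom ub : (↥V')ˣ) : ↥V') * ι (π : F) ^ m := by
      conv_lhs => rw [hbu]
      simp [hφE]
    have h5 : ι (b : F) * x = ι (π : F) ^ k * ((u : ↥V') : E) := by
      rw [← h1, hku]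
      simp [hφE]
    have h6 : (((Units.map φ.toMonoidHom ub : (↥V')ˣ) : ↥V') : E) ≠ 0 := by
      intro h0
      exact (Units.map φ.toMonoidHom ub).ne_zero (Subtype.ext h0)
    have h7 : ((((Units.map φ.toMonoidHom ub)⁻¹ : (↥V')ˣ) : ↥V') : E)
        = (((Units.map φ.toMonoidHom ub : (↥V')ˣ) : ↥V') : E)⁻¹ := by
      symm
      apply inv_eq_of_mul_eq_one_right
      rw [← MulMemClass.coe_mul, Units.mul_inv]
      rfl
    rw [Units.val_mul, MulMemClass.coe_mul, h7, zpow_sub₀ hπE, zpow_natCast, zpow_natCast]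
    rw [h4] at h5
    field_simp
    linear_combination h5
  have hπnu : ¬ IsUnit (φ π) := fun hu => hπ.not_isUnit (isUnit_of_map_unit φ π hu)
  have hπV0 : φ π ≠ 0 := by
    intro h0
    apply hπE
    rw [← hφE, h0]
    rfl
  have hfacV : ∀ x : ↥V', x ≠ 0 → ∃ (n : ℕ) (u : (↥V')ˣ), x = (φ π) ^ n * u := by
    intro x hx
    have hxE : (x : E) ≠ 0 := fun h0 => hx (Subtype.ext h0)
    obtain ⟨k, u, hku⟩ := hfac (x : E) hxE
    rcases le_or_gt 0 k with hk | hk
    · obtain ⟨n, rfl⟩ := Int.eq_ofNat_of_zero_le hk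
      refine ⟨n, u, Subtype.ext ?_⟩
      rw [hku, zpow_natCast]
      simp [hφE]
    · exfalso
      obtain ⟨n, hn⟩ := Int.exists_eq_neg_ofNat hk.le
      have hn0 : n ≠ 0 := by
        rintro rfl
        simp at hn
        omega
      have h1 : (φ π) ^ n * x = u := by
        apply Subtype.ext
        rw [MulMemClass.coe_mul, hku, hn, zpow_neg, zpow_natCast]
        simp only [SubmonoidClass.coe_pow, hφE]
        rw [← mul_assoc, mul_inv_cancel₀ (pow_ne_zero n hπE), one_mul]
      have h2 : φ π ∣ (u : ↥V') := by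
        rw [← h1]
        exact Dvd.dvd.mul_right (dvd_pow_self _ hn0) _
      exact hπnu (isUnit_of_dvd_unit h2 u.isUnit)
  have hπirr : Irreducible (φ π) := by
    refine ⟨hπnu, ?_⟩
    intro a b hab
    have ha0 : a ≠ 0 := by
      rintro rfl
      rw [zero_mul] at hab
      exact hπV0 hab
    have hb0 : b ≠ 0 := by
      rintro rfl
      rw [mul_zero] at hab
      exact hπV0 hab
    obtain ⟨i, ua, hua⟩ := hfacV a ha0
    obtain ⟨j, ub, hub⟩ := hfacV b hb0
    rcases Nat.eq_zero_or_pos i with hi | hi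
    · left
      rw [hua, hi, pow_zero, one_mul]
      exact ua.isUnit
    rcases Nat.eq_zero_or_pos j with hj | hj
    · right
      rw [hub, hj, pow_zero, one_mul]
      exact ub.isUnit
    exfalso
    obtain ⟨i', rfl⟩ : ∃ i', i = i' + 1 := ⟨i - 1, by omega⟩
    obtain ⟨j', rfl⟩ : ∃ j', j = j' + 1 := ⟨j - 1, by omega⟩
    have h1 : φ π * 1 = φ π * (φ π * ((φ π) ^ (i' + j') * (ua * ub))) := by
      rw [mul_one]
      conv_lhs => rw [hab, hua, hub]
      rw [pow_succ, pow_succ, pow_add]
      ring
    have h2 := mul_left_cancel₀ hπV0 h1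
    exact hπnu (isUnit_of_dvd_one ⟨_, h2⟩)
  have hfact : IsDiscreteValuationRing.HasUnitMulPowIrreducibleFactorization ↥V' := by
    refine ⟨φ π, hπirr, ?_⟩
    intro x hx
    obtain ⟨n, u, hnu⟩ := hfacV x hx
    exact ⟨n, u, hnu.symm⟩
  have hdvr : IsDiscreteValuationRing ↥V' :=
    IsDiscreteValuationRing.ofHasUnitMulPowIrreducibleFactorization hfact
  have hne : V' ≠ ⊤ := by
    intro htop
    have h1 : (ι (π : F))⁻¹ ∈ V' := by rw [htop]; trivial
    apply hπnu
    refine IsUnit.of_mul_eq_one ⟨(ι (π : F))⁻¹, h1⟩ (Subtype.ext ?_)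
    rw [MulMemClass.coe_mul, hφE]
    exact mul_inv_cancel₀ hπE
  refine ⟨⟨V', hL, hne, hdvr.toIsPrincipalIdealRing⟩, ?_⟩
  intro f
  rcases eq_or_ne f 0 with rfl | hf
  · rw [map_zero, Place.ord_zero, Place.ord_zero]
  · obtain ⟨u, hu⟩ := P.exists_unit_mul_zpow hf hπ
    have h1 : ι f = (((Units.map φ.toMonoidHom u : (↥V')ˣ) : ↥V') : E) *
        ((φ π : ↥V') : E) ^ (P.ord f) := by
      conv_lhs => rw [hu]
      rw [map_mul, map_zpow₀]
      rfl
    rw [h1]
    exact Place.ord_unit_smul_zpow (⟨V', hL, hne, hdvr.toIsPrincipalIdealRing⟩ : Place L E)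
      (Units.map φ.toMonoidHom u) hπirr (P.ord f)

end Main

end Fermat.Agent.S18
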