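/-
S18 [CFE] (helper8).  Prefix `s18cfe_`.

`s18cfe_main : s18_CfeStatement`: constant field extensions are unramified - every place of
`F_{K0}(M) / K0` extends to a place of `F̄_M / Q̄` with the same orders.
-/
import Mathlib
import Fermat.Agent.S18.StarDefs
import Fermat.Agent.S18.CfeAbs

set_option autoImplicit false
set_option linter.unusedSectionVars false
set_option linter.style.haveILetI false

open AlgebraicCurve ModularCurve IntermediateField

namespace Fermat.Agent.S18

section Inst

variable (K L : Type) [Field K] [Algebra ℚ K] [Field L] [Algebra ℚ L] [Algebra K L]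
  (F₀ : IntermediateField ℚ (LaurentSeries ℚ))

theorem s18cfe_coeffMap_coeffEmb (z : LaurentSeries ℚ) :
    coeffMap (algebraMap K L) (coeffEmb K z) = coeffEmb L z := by
  rw [coeffEmb, coeffMap_coeffMap]
  exact coeffMap_congr (RingHom.ext_rat _ _) z

theorem s18cfe_coeffMap_algebraMap (c : K) :
    coeffMap (algebraMap K L) (algebraMap K (LaurentSeries K) c) =
      algebraMap L (LaurentSeries L) (algebraMap K L c) := by
  rw [algebraMap_laurentSeries_eq_single, coeffMap_single, algebraMap_laurentSeries_eq_single]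

/-- The coefficientwise embedding maps `F_K` into `F_L`. -/
theorem s18cfe_iota_mem {f : LaurentSeries K} (hf : f ∈ laurentBaseChange K F₀) :
    coeffMap (algebraMap K L) f ∈ laurentBaseChange L F₀ := by
  rw [mem_laurentBaseChange_iff] at hf
  induction hf using Subfield.closure_induction with
  | mem y hy =>
      rcases hy with ⟨a, rfl⟩ | ⟨z, hz, rfl⟩
      · rw [s18cfe_coeffMap_algebraMap]
        exact (laurentBaseChange L F₀).algebraMap_mem _
      · rw [s18cfe_coeffMap_coeffEmb]
        exact coeffEmb_mem_laurentBaseChange _ hz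
  | one => simp
  | add x y _ _ hx hy => simpa using add_mem hx hy
  | neg x _ hx => simpa using neg_mem hx
  | inv x _ hx => simpa using inv_mem hx
  | mul x y _ _ hx hy => simpa using mul_mem hx hy

/-- The embedding `F_K → F_L` as a ring homomorphism. -/
noncomputable def s18cfe_iota : ↥(laurentBaseChange K F₀) →+* ↥(laurentBaseChange L F₀) where
  toFun f := ⟨coeffMap (algebraMap K L) (f : LaurentSeries K), s18cfe_iota_mem K L F₀ f.2⟩
  map_one' := Subtype.ext (by simp)
  map_mul' x y := Subtype.ext (by simp)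
  map_zero' := Subtype.ext (by simp)
  map_add' x y := Subtype.ext (by simp)

theorem s18cfe_iota_coe (f : ↥(laurentBaseChange K F₀)) :
    ((s18cfe_iota K L F₀ f : ↥(laurentBaseChange L F₀)) : LaurentSeries L) =
      coeffMap (algebraMap K L) (f : LaurentSeries K) := rfl

theorem s18cfe_iota_algebraMap (c : K) :
    s18cfe_iota K L F₀ (algebraMap K ↥(laurentBaseChange K F₀) c) =
      algebraMap L ↥(laurentBaseChange L F₀) (algebraMap K L c) := by
  apply Subtype.ext
  rw [s18cfe_iota_coe]
  exact s18cfe_coeffMap_algebraMap K L c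

theorem s18cfe_iota_gen (S : Subfield ↥(laurentBaseChange L F₀))
    (h1 : ∀ f, s18cfe_iota K L F₀ f ∈ S)
    (h2 : ∀ c, algebraMap L ↥(laurentBaseChange L F₀) c ∈ S)
    (x : ↥(laurentBaseChange L F₀)) : x ∈ S := by
  have hle : Subfield.closure (Set.range (algebraMap L (LaurentSeries L)) ∪
      (⇑(coeffEmb L) '' (F₀ : Set (LaurentSeries ℚ)))) ≤
      S.map (laurentBaseChange L F₀).val.toRingHom := by
    rw [Subfield.closure_le]
    rintro y (⟨a, rfl⟩ | ⟨z, hz, rfl⟩)
    · exact ⟨algebraMap L ↥(laurentBaseChange L F₀) a, h2 a, rfl⟩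
    · refine ⟨s18cfe_iota K L F₀ ⟨coeffEmb K z, coeffEmb_mem_laurentBaseChange _ hz⟩,
        h1 _, ?_⟩
      exact s18cfe_coeffMap_coeffEmb K L z
  obtain ⟨s, hs, hsx⟩ := hle (mem_laurentBaseChange_iff.1 x.2)
  have : s = x := Subtype.ext hsx
  rw [← this]
  exact hs

/-- [CFE] for arbitrary `F₀ ⊆ ℚ((q))` and an algebraic extension `L/K` of fields of
characteristic 0. -/
theorem s18cfe_general [CharZero K] [Algebra.IsAlgebraic K L]
    (P : Place K ↥(laurentBaseChange K F₀)) :
    ∃ P' : Place L ↥(laurentBaseChange L F₀),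
      ∀ (f : ↥(laurentBaseChange K F₀)) (f' : ↥(laurentBaseChange L F₀)),
        (f' : LaurentSeries L) = coeffMap (algebraMap K L) (f : LaurentSeries K) →
        P'.ord f' = P.ord f := by
  obtain ⟨P', hP'⟩ := s18cfe_abs (s18cfe_iota K L F₀) (s18cfe_iota_algebraMap K L F₀)
    (s18cfe_iota_gen K L F₀) P
  refine ⟨P', fun f f' hff' => ?_⟩
  have h1 : f' = s18cfe_iota K L F₀ f := Subtype.ext hff'
  rw [h1]
  exact hP' f

end Inst

/-- **[CFE]** -/
theorem s18cfe_main : s18_CfeStatement := by
  intro M _ K0 _ P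
  have h0 : Algebra.IsAlgebraic ℚ (AlgebraicClosure ℚ) := AlgebraicClosure.isAlgebraic ℚ
  haveI : Algebra.IsAlgebraic ↥K0 (AlgebraicClosure ℚ) :=
    Algebra.IsAlgebraic.tower_top (K := ℚ) ↥K0
  exact s18cfe_general ↥K0 (AlgebraicClosure ℚ) (modularFunctionFieldFull M) P

end Fermat.Agent.S18
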