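/-
S18 (P1) [CONST], part 1: algebraic dependence of two elements in terms of the monomials
`x ^ a * y ^ b` (pure algebra, Mathlib only).  Owner: helper20.  Prefix `s18c_`.
-/
import Mathlib

set_option autoImplicit false

open Polynomial IntermediateField

noncomputable section

namespace Fermat.Agent.S18

section Mon

variable {K E : Type*} [Field K] [Field E] [Algebra K E]

/-- The monomials `x ^ a * y ^ b`. -/
def s18c_mon {E : Type*} [CommRing E] (x y : E) : ℕ × ℕ → E := fun i => x ^ i.1 * y ^ i.2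

theorem s18c_mon_apply {E : Type*} [CommRing E] (x y : E) (i : ℕ × ℕ) :
    s18c_mon x y i = x ^ i.1 * y ^ i.2 := rfl

/-- Linear independence of the monomials is symmetric in the two elements. -/
theorem s18c_li_symm (x y : E) (h : LinearIndependent K (s18c_mon x y)) :
    LinearIndependent K (s18c_mon y x) := by
  have h2 := (linearIndependent_equiv (Equiv.prodComm ℕ ℕ) (f := s18c_mon x y) (R := K)).2 h
  have h3 : s18c_mon y x = s18c_mon x y ∘ (Equiv.prodComm ℕ ℕ) := by
    funext i
    simp [s18c_mon, mul_comm]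
  rw [h3]
  exact h2

/-- Transport along an (injective) algebra homomorphism of fields. -/
theorem s18c_li_map {E' : Type*} [Field E'] [Algebra K E'] (φ : E →ₐ[K] E') (x y : E) :
    LinearIndependent K (s18c_mon (φ x) (φ y)) ↔ LinearIndependent K (s18c_mon x y) := by
  have h1 : s18c_mon (φ x) (φ y) = φ.toLinearMap ∘ s18c_mon x y := by
    funext i
    simp [s18c_mon]
  rw [h1]
  refine LinearMap.linearIndependent_iff _ ?_
  rw [LinearMap.ker_eq_bot]
  exact φ.injective

open scoped IntermediateField.algebraAdjoinAdjoin in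
/-- An element algebraic over `K(x)` is algebraically dependent on `x`. -/
theorem s18c_dep_of_alg (x y : E) (h : IsAlgebraic K⟮x⟯ y) :
    ¬ LinearIndependent K (s18c_mon x y) := by
  classical
  intro hli
  have h1 : IsAlgebraic (Algebra.adjoin K {x}) y :=
    (IsFractionRing.isAlgebraic_iff (Algebra.adjoin K {x}) K⟮x⟯ E).2 h
  obtain ⟨p, hp, hpy⟩ := h1
  have hex : ∀ b : ℕ, ∃ a : K[X], aeval x a = ((p.coeff b : Algebra.adjoin K {x}) : E) := by
    intro b
    have hb : ((p.coeff b : Algebra.adjoin K {x}) : E) ∈ (aeval x : K[X] →ₐ[K] E).range :=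
      (Algebra.adjoin_singleton_eq_range_aeval K x) ▸ (p.coeff b).2
    obtain ⟨a, ha⟩ := hb
    exact ⟨a, ha⟩
  choose a ha using hex
  obtain ⟨N, hN⟩ : ∃ N : ℕ, ∀ b ∈ p.support, (a b).natDegree < N := by
    refine ⟨p.support.sup (fun b => (a b).natDegree) + 1, fun b hb => ?_⟩
    exact Nat.lt_succ_of_le (Finset.le_sup (f := fun b => (a b).natDegree) hb)
  have hsum : ∑ i ∈ Finset.range N ×ˢ p.support, ((a i.2).coeff i.1) • s18c_mon x y i = 0 := by
    rw [Finset.sum_product, Finset.sum_comm]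
    have h2 : aeval y p = ∑ b ∈ p.support, ((p.coeff b : Algebra.adjoin K {x}) : E) * y ^ b := by
      rw [aeval_def, eval₂_eq_sum, Polynomial.sum_def]
      rfl
    rw [← hpy, h2]
    refine Finset.sum_congr rfl fun b hb => ?_
    rw [← ha b, aeval_eq_sum_range' (hN b hb), Finset.sum_mul]
    refine Finset.sum_congr rfl fun u _ => ?_
    rw [s18c_mon_apply, smul_mul_assoc]
  have hzero := (linearIndependent_iff'.mp hli) _ _ hsum
  obtain ⟨b, hb⟩ := Polynomial.nonempty_support_iff.mpr hp
  have hab : a b = 0 := by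
    ext u
    rw [coeff_zero]
    by_cases hu : u < N
    · exact hzero (u, b) (Finset.mem_product.mpr ⟨Finset.mem_range.mpr hu, hb⟩)
    · exact coeff_eq_zero_of_natDegree_lt (lt_of_lt_of_le (hN b hb) (not_lt.mp hu))
  have hcb : p.coeff b = 0 := by
    apply Subtype.ext
    rw [← ha b, hab, map_zero]
    rfl
  exact (Polynomial.mem_support_iff.mp hb) hcb

/-- If `x` is transcendental and the monomials in `x`, `y` are linearly dependent, then `y` is
algebraic over `K(x)`. -/
theorem s18c_alg_of_dep (x y : E) (hx : Transcendental K x)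
    (h : ¬ LinearIndependent K (s18c_mon x y)) : IsAlgebraic K⟮x⟯ y := by
  classical
  rw [not_linearIndependent_iff] at h
  obtain ⟨T, g, hsum, i₀, hi₀, hg₀⟩ := h
  let p : (↥K⟮x⟯)[X] :=
    ∑ i ∈ T, C (algebraMap K ↥K⟮x⟯ (g i) * (AdjoinSimple.gen K x) ^ i.1) * X ^ i.2
  refine ⟨p, ?_, ?_⟩
  · intro hp
    have hc : p.coeff i₀.2 = 0 := by rw [hp, coeff_zero]
    have hc1 : p.coeff i₀.2 =
        ∑ i ∈ T, if i.2 = i₀.2 then
          (algebraMap K ↥K⟮x⟯ (g i) * (AdjoinSimple.gen K x) ^ i.1) else 0 := by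
      simp only [p, finsetSum_coeff, coeff_C_mul, coeff_X_pow]
      refine Finset.sum_congr rfl fun i _ => ?_
      by_cases hi : i.2 = i₀.2
      · rw [if_pos hi, if_pos hi.symm, mul_one]
      · rw [if_neg hi, if_neg (fun h => hi h.symm), mul_zero]
    let q : K[X] := ∑ i ∈ T, if i.2 = i₀.2 then monomial i.1 (g i) else 0
    have hq : aeval x q = 0 := by
      have h2 := congrArg (fun z : ↥K⟮x⟯ => (z : E)) (hc1.symm.trans hc)
      simp only [AddSubmonoidClass.coe_finsetSum, ZeroMemClass.coe_zero] at h2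
      rw [← h2]
      simp only [q, map_sum]
      refine Finset.sum_congr rfl fun i _ => ?_
      by_cases hi : i.2 = i₀.2
      · rw [if_pos hi, if_pos hi, aeval_monomial]
        rfl
      · rw [if_neg hi, if_neg hi, map_zero]
        rfl
    have hq0 : q = 0 := (transcendental_iff.mp hx) q hq
    have hq1 : q.coeff i₀.1 = g i₀ := by
      simp only [q, finsetSum_coeff]
      rw [Finset.sum_eq_single_of_mem i₀ hi₀]
      · rw [if_pos rfl, coeff_monomial, if_pos rfl]
      · intro i _ hi
        by_cases h2 : i.2 = i₀.2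
        · rw [if_pos h2, coeff_monomial, if_neg]
          intro h1
          exact hi (Prod.ext h1 h2)
        · rw [if_neg h2, coeff_zero]
    rw [hq0, coeff_zero] at hq1
    exact hg₀ hq1.symm
  · rw [← hsum]
    simp only [p, map_sum, map_mul, aeval_C, map_pow, aeval_X]
    refine Finset.sum_congr rfl fun i _ => ?_
    rw [s18c_mon_apply, Algebra.smul_def, mul_assoc]
    rfl

end Mon

/-- Algebraic dependence of `x` and `y` over `K`, in elementary (instance-robust) form: a
non-trivial `K`-linear relation between the monomials `x ^ a * y ^ b`. -/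
def s18c_Dep (K : Type*) {E : Type*} [CommRing K] [CommRing E] [Algebra K E] (x y : E) : Prop :=
  ∃ (T : Finset (ℕ × ℕ)) (g : ℕ × ℕ → K), (∃ i ∈ T, g i ≠ 0) ∧
    ∑ i ∈ T, algebraMap K E (g i) * s18c_mon x y i = 0

section DepField

variable {K E : Type*} [Field K] [Field E] [Algebra K E]

theorem s18c_dep_iff (x y : E) : s18c_Dep K x y ↔ ¬ LinearIndependent K (s18c_mon x y) := by
  rw [not_linearIndependent_iff]
  constructor
  · rintro ⟨T, g, hg, hsum⟩
    refine ⟨T, g, ?_, hg⟩
    rw [← hsum]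
    exact Finset.sum_congr rfl fun i _ => Algebra.smul_def _ _
  · rintro ⟨T, g, hsum, hg⟩
    refine ⟨T, g, hg, ?_⟩
    rw [← hsum]
    exact Finset.sum_congr rfl fun i _ => (Algebra.smul_def _ _).symm

theorem s18c_Dep_of_alg (x y : E) (h : IsAlgebraic K⟮x⟯ y) : s18c_Dep K x y :=
  (s18c_dep_iff x y).2 (s18c_dep_of_alg x y h)

theorem s18c_alg_of_Dep (x y : E) (hx : Transcendental K x) (h : s18c_Dep K x y) :
    IsAlgebraic K⟮x⟯ y :=
  s18c_alg_of_dep x y hx ((s18c_dep_iff x y).1 h)

theorem s18c_Dep_map {E' : Type*} [Field E'] [Algebra K E'] (φ : E →ₐ[K] E') (x y : E) :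
    s18c_Dep K (φ x) (φ y) ↔ s18c_Dep K x y := by
  rw [s18c_dep_iff, s18c_dep_iff, s18c_li_map]

end DepField

/-- Division by the highest power of `ℓ`: a non-trivial integral relation in an `ℓ`-torsion-free
ring can be replaced by one which is non-trivial modulo `ℓ`. -/
theorem s18c_prim {R : Type*} [CommRing R] (ℓ : ℕ) (hℓ : 2 ≤ ℓ)
    (htf : ∀ m : R, (ℓ : R) * m = 0 → m = 0) {ι : Type*} (T : Finset ι) (v : ι → R) :
    ∀ (n : ℕ) (g : ι → ℤ), (∃ i ∈ T, g i ≠ 0 ∧ (g i).natAbs ≤ n) →
      ∑ i ∈ T, (g i : R) * v i = 0 →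
      ∃ g' : ι → ℤ, (∃ i ∈ T, ¬ (ℓ : ℤ) ∣ g' i) ∧ ∑ i ∈ T, (g' i : R) * v i = 0 := by
  classical
  intro n
  induction n with
  | zero =>
    rintro g ⟨i, _, hne, hle⟩ _
    exact absurd (Int.natAbs_eq_zero.mp (Nat.le_zero.mp hle)) hne
  | succ n ih =>
    rintro g ⟨i, hi, hne, hle⟩ hsum
    by_cases hall : ∃ j ∈ T, ¬ (ℓ : ℤ) ∣ g j
    · exact ⟨g, hall, hsum⟩
    · simp only [not_exists, not_and, not_not] at hall
      have hdiv : ∀ j ∈ T, g j = (ℓ : ℤ) * (g j / ℓ) := fun j hj =>
        (Int.mul_ediv_cancel' (hall j hj)).symm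
      refine ih (fun j => g j / ℓ) ⟨i, hi, ?_, ?_⟩ ?_
      · intro h0
        apply hne
        rw [hdiv i hi, h0, mul_zero]
      · have h1 : (g i).natAbs = ℓ * (g i / ℓ).natAbs := by
          conv_lhs => rw [hdiv i hi, Int.natAbs_mul, Int.natAbs_natCast]
        have h2 : 0 < (g i / ℓ).natAbs := by
          rw [Int.natAbs_pos]
          intro h0
          apply hne
          rw [hdiv i hi, h0, mul_zero]
        have h3 : 2 * (g i / ℓ).natAbs ≤ ℓ * (g i / ℓ).natAbs := Nat.mul_le_mul_right _ hℓ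
        omega
      · apply htf
        rw [Finset.mul_sum, ← hsum]
        refine Finset.sum_congr rfl fun j hj => ?_
        conv_rhs => rw [hdiv j hj]
        push_cast
        ring

end Fermat.Agent.S18
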