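/-
S18 (P1) [CONST], part 2: in every characteristic `ℓ > 0` the series `j(q^d)` is algebraic over
`k(j)` (transfer of the modular equation from characteristic `0`, `degQ_finite`, through
`ℤ((q))`).  Owner: helper20.  Prefix `s18c_`.
-/
import Mathlib
import Fermat.Prelude.Def_ModularCurve_X0ModL
import Fermat.Prelude.Def_ModularCurve_IgusaScheme
import Fermat.Agent.S28.DegQ
import Fermat.Agent.S28.ChiPoly
import Fermat.Agent.S18.ConstDep

set_option autoImplicit false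

open Polynomial IntermediateField ModularCurve

noncomputable section

namespace Fermat.Agent.S18

theorem s18c_coeffMap_injective {R S : Type*} [CommRing R] [CommRing S] (f : R →+* S)
    (hf : Function.Injective f) : Function.Injective (coeffMap f) := by
  intro x y hxy
  ext n
  apply hf
  rw [← coeffMap_coeff, ← coeffMap_coeff, hxy]

theorem s18c_coeffMap_mon {R S : Type*} [CommRing R] [CommRing S] (f : R →+* S)
    (d : ℕ) [NeZero d] (i : ℕ × ℕ) :
    coeffMap f (s18c_mon (jqModC R) (qExpand R d (jqModC R)) i) =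
      s18c_mon (jqModC S) (qExpand S d (jqModC S)) i := by
  rw [s18c_mon_apply, s18c_mon_apply, map_mul, map_pow, map_pow, coeffMap_jqModC,
    coeffMap_qExpand, coeffMap_jqModC]

/-- Characteristic `0`: `j(q^d)` depends algebraically on `j` (from `degQ_finite`). -/
theorem s18c_dep_rat (d : ℕ) [NeZero d] :
    s18c_Dep ℚ (jqModC ℚ) (qExpand ℚ d (jqModC ℚ)) := by
  have hfin := Fermat.Agent.S28.degQ_finite d
  have h1 : IsAlgebraic ↥ℚ⟮IgusaScheme.jFull d⟯
      (⟨qExpand ℚ d jq, jqd_mem_full d dvd_rfl⟩ : ↥(modularFunctionFieldFull d)) :=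
    Algebra.IsAlgebraic.isAlgebraic _
  have h2 := s18c_Dep_of_alg _ _ h1
  rw [← s18c_Dep_map (Fermat.Agent.S28.degQ_incl d)] at h2
  exact h2

/-- The relation over `ℤ`, non-trivial modulo `ℓ`. -/
theorem s18c_dep_int (ℓ : ℕ) (hℓ : 2 ≤ ℓ) (d : ℕ) [NeZero d] :
    ∃ (T : Finset (ℕ × ℕ)) (g : ℕ × ℕ → ℤ), (∃ i ∈ T, ¬ (ℓ : ℤ) ∣ g i) ∧
      ∑ i ∈ T, (g i : LaurentSeries ℤ) * s18c_mon (jqModC ℤ) (qExpand ℤ d (jqModC ℤ)) i = 0 := by
  classical
  obtain ⟨T, g, ⟨i, hi, hgi⟩, hsum⟩ := s18c_dep_rat d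
  obtain ⟨b, hb⟩ := IsLocalization.exist_integer_multiples_of_finset (nonZeroDivisors ℤ)
    (T.image g)
  have hb0 : (b : ℤ) ≠ 0 := nonZeroDivisors.coe_ne_zero b
  have hex : ∀ j : ℕ × ℕ, ∃ n : ℤ, j ∈ T → (n : ℚ) = (b : ℤ) * g j := by
    intro j
    by_cases hj : j ∈ T
    · obtain ⟨n, hn⟩ := hb (g j) (Finset.mem_image_of_mem g hj)
      refine ⟨n, fun _ => ?_⟩
      rw [← zsmul_eq_mul]
      exact hn
    · exact ⟨0, fun h => absurd h hj⟩
  choose n hn using hex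
  have hni : n i ≠ 0 := by
    intro h0
    have h1 := hn i hi
    rw [h0, Int.cast_zero] at h1
    rcases mul_eq_zero.mp h1.symm with h2 | h2
    · exact hb0 (by exact_mod_cast h2)
    · exact hgi h2
  have hsumZ : ∑ i ∈ T, (n i : LaurentSeries ℤ) *
      s18c_mon (jqModC ℤ) (qExpand ℤ d (jqModC ℤ)) i = 0 := by
    apply s18c_coeffMap_injective (Int.castRingHom ℚ) Int.cast_injective
    rw [map_sum, map_zero]
    have h3 : ((b : ℤ) : LaurentSeries ℚ) *
        ∑ i ∈ T, algebraMap ℚ (LaurentSeries ℚ) (g i) *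
          s18c_mon (jqModC ℚ) (qExpand ℚ d (jqModC ℚ)) i = 0 := by
      rw [hsum, mul_zero]
    rw [← h3, Finset.mul_sum]
    refine Finset.sum_congr rfl fun j hj => ?_
    rw [map_mul, s18c_coeffMap_mon, map_intCast, ← mul_assoc]
    congr 1
    rw [← map_intCast (algebraMap ℚ (LaurentSeries ℚ)) (n j), hn j hj, map_mul, map_intCast]
  have htf : ∀ m : LaurentSeries ℤ, (ℓ : LaurentSeries ℤ) * m = 0 → m = 0 := by
    intro m hm
    have hℓ0 : (ℓ : LaurentSeries ℤ) ≠ 0 := by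
      rw [← map_natCast (HahnSeries.C : ℤ →+* LaurentSeries ℤ) ℓ]
      intro h0
      have h1 := HahnSeries.C_injective (Γ := ℤ) (R := ℤ) (h0.trans (map_zero _).symm)
      have : (0 : ℕ) < ℓ := by omega
      omega
    exact (mul_eq_zero.mp hm).resolve_left hℓ0
  obtain ⟨g', hg', hsum'⟩ := s18c_prim ℓ hℓ htf T _ (n i).natAbs n ⟨i, hi, hni, le_rfl⟩ hsumZ
  exact ⟨T, g', hg', hsum'⟩

/-- Characteristic `ℓ`: `j(q^d)` depends algebraically on `j`. -/
theorem s18c_dep_char (k : Type*) [Field k] (ℓ : ℕ) [Fact ℓ.Prime] [CharP k ℓ]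
    (d : ℕ) [NeZero d] :
    s18c_Dep k (jqModC k) (qExpand k d (jqModC k)) := by
  obtain ⟨T, g, ⟨i, hi, hgi⟩, hsum⟩ := s18c_dep_int ℓ (Fact.out : ℓ.Prime).two_le d
  refine ⟨T, fun i => (g i : k), ⟨i, hi, ?_⟩, ?_⟩
  · intro h3
    exact hgi ((CharP.intCast_eq_zero_iff k ℓ (g i)).mp h3)
  · have h2 := congrArg (coeffMap (Int.castRingHom k)) hsum
    rw [map_sum, map_zero] at h2
    rw [← h2]
    refine Finset.sum_congr rfl fun i _ => ?_
    rw [map_mul, s18c_coeffMap_mon, map_intCast, map_intCast]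

/-- **`j(q^d)` is algebraic over `k(j)`** in characteristic `ℓ`. -/
theorem s18c_alg_gen (k : Type*) [Field k] (ℓ : ℕ) [Fact ℓ.Prime] [CharP k ℓ]
    (d : ℕ) [NeZero d] :
    IsAlgebraic k⟮jqModC k⟯ (qExpand k d (jqModC k)) := by
  refine s18c_alg_of_Dep _ _ ?_ (s18c_dep_char k ℓ d)
  refine Fermat.Agent.S28.locO_transcendental _ ?_
  rw [Fermat.Agent.S28.keyR_order_jqModC]
  norm_num

end Fermat.Agent.S18
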