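/-
S18 (P1) [CONST], part 3: the function field `F_k(N) = k(j(q^d) : d ∣ N)` in characteristic
`ℓ` is finite over `k(f)` for every `f ∈ F_k(N)` transcendental over `k`.
Owner: helper20.  Prefix `s18c_`.
-/
import Mathlib
import Fermat.Prelude.Def_ModularCurve_X0ModL
import Fermat.Agent.S18.ConstAlg

set_option autoImplicit false
set_option linter.unusedSectionVars false

open Polynomial IntermediateField ModularCurve

noncomputable section

namespace Fermat.Agent.S18

section Fin

variable (k : Type) [Field k] (N : ℕ) [NeZero N]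

/-- `j` as an element of `F_k(N)`. -/
def s18c_jF : ↥(modularFunctionFieldFullC k N) := ⟨jqModC k, jqModC_mem_full k N⟩

theorem s18c_jF_transcendental : Transcendental k (s18c_jF k N) := by
  have h1 : Transcendental k (jqModC k) := by
    refine Fermat.Agent.S28.locO_transcendental _ ?_
    rw [Fermat.Agent.S28.keyR_order_jqModC]
    norm_num
  rw [transcendental_iff] at h1 ⊢
  intro p hp
  apply h1 p
  have h2 := congrArg (modularFunctionFieldFullC k N).val hp
  rw [← Polynomial.aeval_algHom_apply, map_zero] at h2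
  exact h2

/-- Every element of `F_k(N)` is algebraic over `k(j)` (inside `k((q))`). -/
theorem s18c_alg_mem (ℓ : ℕ) [Fact ℓ.Prime] [CharP k ℓ] (x : LaurentSeries k) (hx : x ∈ modularFunctionFieldFullC k N) :
    IsAlgebraic ↥k⟮jqModC k⟯ x := by
  have hle : modularFunctionFieldFullC k N ≤
      (algebraicClosure ↥k⟮jqModC k⟯ (LaurentSeries k)).restrictScalars k := by
    rw [modularFunctionFieldFullC, adjoin_le_iff]
    rintro y ⟨d, hd, _, rfl⟩
    have := hd
    show qExpand k d (jqModC k) ∈ algebraicClosure ↥k⟮jqModC k⟯ (LaurentSeries k)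
    rw [mem_algebraicClosure_iff]
    exact s18c_alg_gen k ℓ d
  have h1 := hle hx
  exact mem_algebraicClosure_iff.mp h1

/-- Every element of `F_k(N)` depends algebraically on `j`. -/
theorem s18c_dep_F (ℓ : ℕ) [Fact ℓ.Prime] [CharP k ℓ] (x : ↥(modularFunctionFieldFullC k N)) : s18c_Dep k (s18c_jF k N) x := by
  have h1 := s18c_Dep_of_alg _ _ (s18c_alg_mem k N ℓ (x : LaurentSeries k) x.2)
  exact (s18c_Dep_map (modularFunctionFieldFullC k N).val (s18c_jF k N) x).1 h1

open scoped IntermediateField.algebraAdjoinAdjoin in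
theorem s18c_isAlgebraic_adjoin (ℓ : ℕ) [Fact ℓ.Prime] [CharP k ℓ] :
    Algebra.IsAlgebraic (Algebra.adjoin k {s18c_jF k N}) ↥(modularFunctionFieldFullC k N) := by
  refine ⟨fun x => ?_⟩
  have h1 : IsAlgebraic ↥k⟮s18c_jF k N⟯ x :=
    s18c_alg_of_Dep _ _ (s18c_jF_transcendental k N) (s18c_dep_F k N ℓ x)
  exact (IsFractionRing.isAlgebraic_iff (Algebra.adjoin k {s18c_jF k N}) ↥k⟮s18c_jF k N⟯
    ↥(modularFunctionFieldFullC k N)).2 h1

theorem s18c_trdeg_le (ℓ : ℕ) [Fact ℓ.Prime] [CharP k ℓ] : Algebra.trdeg k ↥(modularFunctionFieldFullC k N) ≤ 1 := by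
  have := s18c_isAlgebraic_adjoin k N ℓ
  have h1 := Algebra.IsAlgebraic.trdeg_le_cardinalMk k
    ({s18c_jF k N} : Set ↥(modularFunctionFieldFullC k N))
  rwa [Cardinal.mk_singleton] at h1

/-- `F_k(N)` is algebraic over `k(f)` for every transcendental `f`. -/
theorem s18c_isAlgebraic_of_transcendental (ℓ : ℕ) [Fact ℓ.Prime] [CharP k ℓ]
    (f : ↥(modularFunctionFieldFullC k N))
    (hf : Transcendental k f) :
    Algebra.IsAlgebraic ↥k⟮f⟯ ↥(modularFunctionFieldFullC k N) := by
  have hx : AlgebraicIndependent k (fun _ : Unit => f) :=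
    algebraicIndependent_unique_type_iff.2 hf
  have hle : Algebra.trdeg k ↥(modularFunctionFieldFullC k N) ≤ Cardinal.mk Unit := by
    rw [Cardinal.mk_unit]
    exact s18c_trdeg_le k N ℓ
  have hb : IsTranscendenceBasis k (fun _ : Unit => f) :=
    hx.isTranscendenceBasis_of_trdeg_le_of_finite hle
  have h1 := hb.isAlgebraic_field
  have hr : Set.range (fun _ : Unit => f) = {f} := Set.range_const
  rw [hr] at h1
  exact h1

/-- `F_k(N)` is finitely generated over `k`. -/
theorem s18c_fg : (modularFunctionFieldFullC k N).FG := by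
  classical
  have hfin : (divisorExpansionsC k N).Finite := by
    refine Set.Finite.subset
      ((Finset.range (N + 1)).image
        (fun d : ℕ => if h : d = 0 then (0 : LaurentSeries k) else
          @qExpand k _ d ⟨h⟩ (jqModC k))).finite_toSet ?_
    rintro y ⟨d, hd, hdN, rfl⟩
    rw [Finset.mem_coe, Finset.mem_image]
    refine ⟨d, Finset.mem_range.mpr ?_, ?_⟩
    · exact Nat.lt_succ_of_le (Nat.le_of_dvd (Nat.pos_of_ne_zero (NeZero.ne N)) hdN)
    · rw [dif_neg (NeZero.ne d)]
  refine ⟨hfin.toFinset, ?_⟩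
  rw [Set.Finite.coe_toFinset]
  rfl

/-- **`F_k(N)` is finite over `k(f)`** for every transcendental `f`. -/
theorem s18c_finite (ℓ : ℕ) [Fact ℓ.Prime] [CharP k ℓ]
    (f : ↥(modularFunctionFieldFullC k N)) (hf : Transcendental k f) :
    FiniteDimensional ↥k⟮f⟯ ↥(modularFunctionFieldFullC k N) := by
  have : Algebra.EssFiniteType k ↥(modularFunctionFieldFullC k N) :=
    IntermediateField.essFiniteType_iff.2 (s18c_fg k N)
  have : Algebra.EssFiniteType ↥k⟮f⟯ ↥(modularFunctionFieldFullC k N) :=
    @Algebra.EssFiniteType.of_comp k ↥k⟮f⟯ ↥(modularFunctionFieldFullC k N) _ _ _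
      (k⟮f⟯).algebra' _ _ inferInstance _
  have := s18c_isAlgebraic_of_transcendental k N ℓ f hf
  exact Algebra.finite_of_essFiniteType_of_isAlgebraic

end Fin

end Fermat.Agent.S18
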