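/-
S18, package (P4) [DISCRETE] of `S18/StarDefs.lean`, VERBATIM and hypothesis-free.
Owner: helper11.  Prefix `s18disc_`.

`s18disc_main : s18_DiscreteStatement`: a valuation ring `V` of a finite extension `L/K` whose
restriction `V ∩ K` is a discrete valuation ring is a discrete valuation ring.

ROUTE.  `γ = v(ϖ)`, `ϖ` a uniformizer of `V ∩ K`, so `v(Kˣ) = γ ^ ℤ`.
* `s18disc_val_pow`: for `x ∈ Lˣ` two terms of the minimal equation of `x` over `K` have the
  same value, so `v(x) ^ e ∈ γ ^ ℤ` for some `1 ≤ e ≤ n = [L : K]`; hence `v(x) ^ n! = γ ^ w(x)`.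
* `s18disc_of_ord`: a valuation subring cut out by a non-trivial additive function
  `w : Lˣ → ℤ` (`x ∈ V ↔ 0 ≤ w x`) is a discrete valuation ring (an element of minimal
  positive order is irreducible and every element is a unit times a power of it).
-/
import Mathlib
import Fermat.Agent.S18.StarDefs

set_option autoImplicit false

noncomputable section

namespace Fermat.Agent.S18

section Ord

variable {L : Type*} [Field L]

/-- A valuation subring which is cut out by a non-trivial integer-valued order function is a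
discrete valuation ring. -/
theorem s18disc_of_ord (V : ValuationSubring L) (w : L → ℤ)
    (hmul : ∀ x y : L, x ≠ 0 → y ≠ 0 → w (x * y) = w x + w y)
    (hV : ∀ x : L, x ≠ 0 → (x ∈ V ↔ 0 ≤ w x))
    (hne : ∃ x : L, x ≠ 0 ∧ w x ≠ 0) : IsDiscreteValuationRing ↥V := by
  classical
  have h1 : w 1 = 0 := by
    have := hmul 1 1 one_ne_zero one_ne_zero
    rw [mul_one] at this
    linarith
  have hinv : ∀ x : L, x ≠ 0 → w x⁻¹ = - w x := by
    intro x hx
    have := hmul x x⁻¹ hx (inv_ne_zero hx)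
    rw [mul_inv_cancel₀ hx, h1] at this
    linarith
  have hpow : ∀ (x : L) (k : ℕ), x ≠ 0 → w (x ^ k) = k * w x := by
    intro x k hx
    induction k with
    | zero => simp [h1]
    | succ k ih =>
      rw [pow_succ, hmul _ _ (pow_ne_zero _ hx) hx, ih]
      push_cast
      ring
  -- units
  have hunit : ∀ x : ↥V, (x : L) ≠ 0 → w (x : L) = 0 → IsUnit x := by
    intro x hx hwx
    have hmem : (x : L)⁻¹ ∈ V := (hV _ (inv_ne_zero hx)).2 (by rw [hinv _ hx, hwx, neg_zero])
    exact isUnit_iff_exists_inv.2 ⟨⟨(x : L)⁻¹, hmem⟩, Subtype.ext (mul_inv_cancel₀ hx)⟩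
  have hunit' : ∀ x : ↥V, IsUnit x → w (x : L) = 0 := by
    intro x hx
    obtain ⟨y, hy⟩ := isUnit_iff_exists_inv.1 hx
    have hxy : (x : L) * (y : L) = 1 := by
      have := congrArg (fun z : ↥V => (z : L)) hy
      simpa using this
    have hx0 : (x : L) ≠ 0 := left_ne_zero_of_mul_eq_one hxy
    have hy0 : (y : L) ≠ 0 := right_ne_zero_of_mul_eq_one hxy
    have h2 := hmul _ _ hx0 hy0
    rw [hxy, h1] at h2
    have h3 := (hV _ hx0).1 x.2
    have h4 := (hV _ hy0).1 y.2
    linarith
  -- a positive element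
  obtain ⟨x₀, hx₀, hw₀⟩ : ∃ x : L, x ≠ 0 ∧ 0 < w x := by
    obtain ⟨x, hx, hwx⟩ := hne
    rcases lt_or_gt_of_ne hwx with h | h
    · exact ⟨x⁻¹, inv_ne_zero hx, by rw [hinv x hx]; linarith⟩
    · exact ⟨x, hx, h⟩
  -- the minimal positive value
  have hex : ∃ d : ℕ, 0 < d ∧ ∃ x : L, x ≠ 0 ∧ w x = d :=
    ⟨(w x₀).toNat, by omega, x₀, hx₀, by omega⟩
  obtain ⟨hd0, t, ht0, htd⟩ := Nat.find_spec hex
  set d := Nat.find hex with hd
  have hmin : ∀ x : L, x ≠ 0 → 0 < w x → (d : ℤ) ≤ w x := by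
    intro x hx hpos
    by_contra hlt
    have hlt' : w x < d := not_le.1 hlt
    have := Nat.find_min hex (m := (w x).toNat) (by omega)
    exact this ⟨by omega, x, hx, by omega⟩
  have htV : t ∈ V := (hV t ht0).2 (by rw [htd]; positivity)
  have hd0' : (0 : ℤ) < d := by exact_mod_cast hd0
  refine IsDiscreteValuationRing.ofHasUnitMulPowIrreducibleFactorization ⟨⟨t, htV⟩, ?_, ?_⟩
  · rw [irreducible_iff]
    constructor
    · intro hu
      have := hunit' _ hu
      simp only at this
      rw [htd] at this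
      omega
    · intro a b hab
      have hab' : t = (a : L) * (b : L) := by
        have := congrArg (fun z : ↥V => (z : L)) hab
        simpa using this
      have ha0 : (a : L) ≠ 0 := by
        intro h
        rw [h, zero_mul] at hab'
        exact ht0 hab'
      have hb0 : (b : L) ≠ 0 := by
        intro h
        rw [h, mul_zero] at hab'
        exact ht0 hab'
      have h2 := hmul _ _ ha0 hb0
      rw [← hab', htd] at h2
      have h3 := (hV _ ha0).1 a.2
      have h4 := (hV _ hb0).1 b.2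
      rcases eq_or_lt_of_le h3 with h5 | h5
      · exact Or.inl (hunit a ha0 h5.symm)
      · have h6 := hmin _ ha0 h5
        exact Or.inr (hunit b hb0 (by omega))
  · intro x hx
    have hx0 : (x : L) ≠ 0 := fun h => hx (Subtype.ext h)
    have hwx := (hV _ hx0).1 x.2
    set k := (w (x : L) / d).toNat with hk
    have hk' : (k : ℤ) = w (x : L) / d := by
      rw [hk, Int.toNat_of_nonneg (Int.ediv_nonneg hwx hd0'.le)]
    have hr0 := Int.emod_nonneg (w (x : L)) hd0'.ne'
    have hr1 := Int.emod_lt_of_pos (w (x : L)) hd0'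
    have hdiv := Int.mul_ediv_add_emod (w (x : L)) d
    set y : L := (x : L) / t ^ k with hy
    have hy0 : y ≠ 0 := div_ne_zero hx0 (pow_ne_zero _ ht0)
    have hwy : w y = w (x : L) % d := by
      rw [hy, div_eq_mul_inv, hmul _ _ hx0 (inv_ne_zero (pow_ne_zero _ ht0)),
        hinv _ (pow_ne_zero _ ht0), hpow _ _ ht0, htd, hk']
      linarith
    have hyV : y ∈ V := (hV _ hy0).2 (by rw [hwy]; exact hr0)
    have hwy0 : w y = 0 := by
      rcases eq_or_lt_of_le hr0 with h | h
      · rw [hwy]; exact h.symm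
      · have := hmin y hy0 (by rw [hwy]; exact h)
        rw [hwy] at this
        omega
    obtain ⟨u, hu⟩ := hunit ⟨y, hyV⟩ hy0 hwy0
    refine ⟨k, u, Subtype.ext ?_⟩
    rw [hu]
    simp only [MulMemClass.coe_mul, SubmonoidClass.coe_pow]
    rw [hy, mul_div_cancel₀ _ (pow_ne_zero _ ht0)]

end Ord


section Main

open Polynomial

variable {K L : Type*} [Field K] [Field L] [Algebra K L]

/-- Cancellation: `γ ^ a g ^ i = γ ^ b g ^ j`, `i < j` ⟹ `g ^ (j - i) = γ ^ (a - b)`. -/
theorem s18disc_cancel {Γ : Type*} [LinearOrderedCommGroupWithZero Γ] {γ g : Γ} (hγ : γ ≠ 0)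
    (hg : g ≠ 0) {a b : ℤ} {i j : ℕ} (hij : i < j) (h : γ ^ a * g ^ i = γ ^ b * g ^ j) :
    g ^ (j - i) = γ ^ (a - b) := by
  have hj : g ^ j = g ^ (j - i) * g ^ i := by
    rw [← pow_add, Nat.sub_add_cancel hij.le]
  rw [hj, ← mul_assoc] at h
  have h2 := mul_right_cancel₀ (pow_ne_zero i hg) h
  rw [zpow_sub₀ hγ, h2, mul_div_cancel_left₀ _ (zpow_ne_zero b hγ)]

/-- The values of `K` under a valuation of `L` whose restriction to `K` is discrete. -/
theorem s18disc_val_base (V : ValuationSubring L)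
    [hA : IsDiscreteValuationRing ↥(V.comap (algebraMap K L))]
    (ϖ : ↥(V.comap (algebraMap K L))) (hϖ : Irreducible ϖ) (a : K) (ha : a ≠ 0) :
    ∃ k : ℤ, V.valuation (algebraMap K L a) =
      V.valuation (algebraMap K L (ϖ : K)) ^ k := by
  have key : ∀ b : K, b ≠ 0 → b ∈ V.comap (algebraMap K L) →
      ∃ k : ℕ, V.valuation (algebraMap K L b) =
        V.valuation (algebraMap K L (ϖ : K)) ^ k := by
    intro b hb hbA
    have hb' : (⟨b, hbA⟩ : ↥(V.comap (algebraMap K L))) ≠ 0 := fun h =>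
      hb (congrArg Subtype.val h)
    obtain ⟨n, u, hu⟩ := IsDiscreteValuationRing.eq_unit_mul_pow_irreducible hb' hϖ
    refine ⟨n, ?_⟩
    have h1 : b = ((u : ↥(V.comap (algebraMap K L))) : K) * (ϖ : K) ^ n := by
      have := congrArg (fun z : ↥(V.comap (algebraMap K L)) => (z : K)) hu
      simpa using this
    have hu1 : V.valuation (algebraMap K L ((u : ↥(V.comap (algebraMap K L))) : K)) = 1 := by
      have h2 : algebraMap K L ((u : ↥(V.comap (algebraMap K L))) : K) ∈ V :=
        ValuationSubring.mem_comap.1 (u : ↥(V.comap (algebraMap K L))).2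
      have h3 : algebraMap K L (((u⁻¹ : (↥(V.comap (algebraMap K L)))ˣ) :
          ↥(V.comap (algebraMap K L))) : K) ∈ V :=
        ValuationSubring.mem_comap.1 ((u⁻¹ : (↥(V.comap (algebraMap K L)))ˣ) :
          ↥(V.comap (algebraMap K L))).2
      have h4 : algebraMap K L ((u : ↥(V.comap (algebraMap K L))) : K) *
          algebraMap K L (((u⁻¹ : (↥(V.comap (algebraMap K L)))ˣ) :
          ↥(V.comap (algebraMap K L))) : K) = 1 := by
        rw [← map_mul]
        have e : (u : ↥(V.comap (algebraMap K L))) *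
            ((u⁻¹ : (↥(V.comap (algebraMap K L)))ˣ) : ↥(V.comap (algebraMap K L))) = 1 :=
          Units.mul_inv u
        have : ((u : ↥(V.comap (algebraMap K L))) : K) *
            (((u⁻¹ : (↥(V.comap (algebraMap K L)))ˣ) : ↥(V.comap (algebraMap K L))) : K) = 1 :=
          congrArg Subtype.val e
        rw [this, map_one]
      have h5 := (V.valuation_le_one_iff _).2 h2
      have h6 := (V.valuation_le_one_iff _).2 h3
      have h7 : V.valuation (algebraMap K L ((u : ↥(V.comap (algebraMap K L))) : K)) *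
          V.valuation (algebraMap K L (((u⁻¹ : (↥(V.comap (algebraMap K L)))ˣ) :
          ↥(V.comap (algebraMap K L))) : K)) = 1 := by
        rw [← map_mul, h4, map_one]
      refine le_antisymm h5 ?_
      calc (1 : V.ValueGroup) = _ := h7.symm
        _ ≤ V.valuation (algebraMap K L ((u : ↥(V.comap (algebraMap K L))) : K)) * 1 :=
            mul_le_mul_right h6 _
        _ = _ := mul_one _
    rw [h1, map_mul, map_mul, hu1, one_mul, map_pow, map_pow]
  rcases (V.comap (algebraMap K L)).mem_or_inv_mem a with h | h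
  · obtain ⟨k, hk⟩ := key a ha h
    exact ⟨k, by rw [hk, zpow_natCast]⟩
  · obtain ⟨k, hk⟩ := key a⁻¹ (inv_ne_zero ha) h
    refine ⟨-k, ?_⟩
    rw [zpow_neg, zpow_natCast, ← hk, map_inv₀, map_inv₀, inv_inv]

end Main


section Fin

open Polynomial

variable {K L : Type*} [Field K] [Field L] [Algebra K L]

/-- **Key step**: a power `v x ^ e`, `1 ≤ e ≤ [L : K]`, of the value of `x ∈ Lˣ` is a value of
`K` (two terms of the minimal equation of `x` have the same value). -/
theorem s18disc_val_pow [FiniteDimensional K L] (V : ValuationSubring L)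
    [hA : IsDiscreteValuationRing ↥(V.comap (algebraMap K L))]
    (ϖ : ↥(V.comap (algebraMap K L))) (hϖ : Irreducible ϖ) (x : L) (hx : x ≠ 0) :
    ∃ e : ℕ, 0 < e ∧ e ≤ Module.finrank K L ∧ ∃ k : ℤ,
      V.valuation x ^ e = V.valuation (algebraMap K L (ϖ : K)) ^ k := by
  classical
  have hϖ0 : (ϖ : K) ≠ 0 := fun h => hϖ.ne_zero (Subtype.ext h)
  have hγ0 : V.valuation (algebraMap K L (ϖ : K)) ≠ 0 :=
    (Valuation.ne_zero_iff _).2 ((_root_.map_ne_zero _).2 hϖ0)
  have hvx : V.valuation x ≠ 0 := (Valuation.ne_zero_iff _).2 hx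
  have hint : IsIntegral K x := IsIntegral.of_finite K x
  have hp0 : minpoly K x ≠ 0 := minpoly.ne_zero hint
  have hdeg : (minpoly K x).natDegree ≤ Module.finrank K L := minpoly.natDegree_le x
  have hc0 : (minpoly K x).coeff 0 ≠ 0 := minpoly.coeff_zero_ne_zero hint hx
  set f : ℕ → L := fun i => algebraMap K L ((minpoly K x).coeff i) * x ^ i with hf
  have hsum : ∑ i ∈ (minpoly K x).support, f i = 0 := by
    have h := minpoly.aeval K x
    rw [Polynomial.aeval_def, Polynomial.eval₂_eq_sum, Polynomial.sum_def] at h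
    exact h
  have hfv : ∀ i ∈ (minpoly K x).support, ∃ k : ℤ,
      V.valuation (f i) = V.valuation (algebraMap K L (ϖ : K)) ^ k * V.valuation x ^ i := by
    intro i hi
    obtain ⟨k, hk⟩ := s18disc_val_base V ϖ hϖ ((minpoly K x).coeff i)
      (Polynomial.mem_support_iff.1 hi)
    exact ⟨k, by simp only [hf]; rw [map_mul, map_pow, hk]⟩
  obtain ⟨j, hj, hjmax⟩ := Finset.exists_max_image (minpoly K x).support
    (fun i => V.valuation (f i)) ⟨0, Polynomial.mem_support_iff.2 hc0⟩
  have hex : ∃ i ∈ (minpoly K x).support, i ≠ j ∧ V.valuation (f i) = V.valuation (f j) := by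
    by_contra hcon
    have hlt : ∀ i ∈ (minpoly K x).support \ {j}, V.valuation (f i) < V.valuation (f j) := by
      intro i hi
      rw [Finset.mem_sdiff, Finset.mem_singleton] at hi
      exact lt_of_le_of_ne (hjmax i hi.1) (fun h => hcon ⟨i, hi.1, hi.2, h⟩)
    have h1 := Valuation.map_sum_eq_of_lt V.valuation hj hlt
    rw [hsum, map_zero] at h1
    obtain ⟨k, hk⟩ := hfv j hj
    rw [hk] at h1
    exact mul_ne_zero (zpow_ne_zero _ hγ0) (pow_ne_zero _ hvx) h1.symm
  obtain ⟨i, hi, hij, hval⟩ := hex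
  obtain ⟨a, ha⟩ := hfv i hi
  obtain ⟨b, hb⟩ := hfv j hj
  rw [ha, hb] at hval
  have hile : i ≤ Module.finrank K L := (Polynomial.le_natDegree_of_mem_supp i hi).trans hdeg
  have hjle : j ≤ Module.finrank K L := (Polynomial.le_natDegree_of_mem_supp j hj).trans hdeg
  rcases lt_or_gt_of_ne hij with h | h
  · exact ⟨j - i, by omega, by omega, a - b, s18disc_cancel hγ0 hvx h hval⟩
  · exact ⟨i - j, by omega, by omega, b - a, s18disc_cancel hγ0 hvx h hval.symm⟩

/-- **[DISCRETE]**, hypothesis-free. -/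
theorem s18disc_main : s18_DiscreteStatement := by
  intro K L _ _ _ _ V hA
  classical
  obtain ⟨ϖ, hϖ⟩ := IsDiscreteValuationRing.exists_irreducible ↥(V.comap (algebraMap K L))
  have hϖ0 : (ϖ : K) ≠ 0 := fun h => hϖ.ne_zero (Subtype.ext h)
  have hϖL : algebraMap K L (ϖ : K) ≠ 0 := (_root_.map_ne_zero _).2 hϖ0
  have hγ0 : V.valuation (algebraMap K L (ϖ : K)) ≠ 0 := (Valuation.ne_zero_iff _).2 hϖL
  have hγle : V.valuation (algebraMap K L (ϖ : K)) ≤ 1 :=
    (V.valuation_le_one_iff _).2 (ValuationSubring.mem_comap.1 ϖ.2)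
  have hγ1 : V.valuation (algebraMap K L (ϖ : K)) < 1 := by
    refine lt_of_le_of_ne hγle (fun h => hϖ.not_isUnit ?_)
    have h1 : V.valuation (algebraMap K L (ϖ : K))⁻¹ ≤ 1 := by
      rw [map_inv₀, h, inv_one]
    have h2 : (ϖ : K)⁻¹ ∈ V.comap (algebraMap K L) := by
      rw [ValuationSubring.mem_comap, map_inv₀]
      exact (V.valuation_le_one_iff _).1 h1
    exact isUnit_iff_exists_inv.2 ⟨⟨(ϖ : K)⁻¹, h2⟩, Subtype.ext (mul_inv_cancel₀ hϖ0)⟩
  have hN0 : (Module.finrank K L).factorial ≠ 0 := Nat.factorial_ne_zero _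
  have hK3 : ∀ x : L, x ≠ 0 → ∃ k : ℤ, V.valuation x ^ (Module.finrank K L).factorial =
      V.valuation (algebraMap K L (ϖ : K)) ^ k := by
    intro x hx
    obtain ⟨e, he0, hen, k, hk⟩ := s18disc_val_pow V ϖ hϖ x hx
    obtain ⟨c, hc⟩ := Nat.dvd_factorial he0 hen
    refine ⟨k * c, ?_⟩
    rw [hc, pow_mul, hk, ← zpow_natCast, ← zpow_mul]
  let w : L → ℤ := fun x => if hx : x = 0 then 0 else Classical.choose (hK3 x hx)
  have hw : ∀ (x : L) (hx : x ≠ 0), V.valuation x ^ (Module.finrank K L).factorial =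
      V.valuation (algebraMap K L (ϖ : K)) ^ w x := by
    intro x hx
    simp only [w, dif_neg hx]
    exact Classical.choose_spec (hK3 x hx)
  have hinj : ∀ k k' : ℤ, V.valuation (algebraMap K L (ϖ : K)) ^ k =
      V.valuation (algebraMap K L (ϖ : K)) ^ k' → k = k' := fun k k' h =>
    zpow_right_injective₀ (zero_lt_iff.2 hγ0) hγ1.ne h
  refine s18disc_of_ord V w ?_ ?_ ?_
  · intro x y hx hy
    apply hinj
    rw [← hw _ (mul_ne_zero hx hy), map_mul, mul_pow, hw x hx, hw y hy, zpow_add₀ hγ0]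
  · intro x hx
    rw [← V.valuation_le_one_iff, ← pow_le_one_iff_of_nonneg zero_le hN0, hw x hx,
      zpow_le_one_iff_right_of_lt_one₀ (zero_lt_iff.2 hγ0) hγ1]
  · refine ⟨algebraMap K L (ϖ : K), hϖL, ?_⟩
    have h1 : w (algebraMap K L (ϖ : K)) = ((Module.finrank K L).factorial : ℤ) :=
      hinj _ _ (by rw [← hw _ hϖL, zpow_natCast])
    rw [h1]
    exact_mod_cast hN0

example : s18_DiscreteStatement := s18disc_main

end Fin

end Fermat.Agent.S18
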