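/-
S18, package (P1) [CONST] of `S18/Defs.lean`, VERBATIM and hypothesis-free.
Owner: helper20.  Prefix `s18c_`.

`s18c_main : s18_ConstStatement`: an element of `F_k(N) = k(j(q^d) : d ∣ N)` (`k` algebraically
closed of characteristic `ℓ`) all of whose orders vanish is constant.

ROUTE.  If `f ∉ k` then `f` is transcendental over `k`; a valuation subring `V` of `F_k(N)`
containing `k[f]` in which `f` is not a unit exists (`Ideal.image_subset_nonunits_valuationSubring`);
`V ∩ k(f)` is discrete (every non-zero element of `k(f)` has value `v(f) ^ n`, `s18disc_of_ord`),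
`F_k(N)` is finite over `k(f)` (`s18c_finite`), so `V` is a discrete valuation ring
(`s18disc_main`), i.e. a place at which `f` has non-zero order.
-/
import Mathlib
import Fermat.Agent.S18.Defs
import Fermat.Agent.S18.Discrete
import Fermat.Agent.S18.ConstFin

set_option autoImplicit false

open Polynomial IntermediateField ModularCurve AlgebraicCurve

noncomputable section

namespace Fermat.Agent.S18

section Val

variable {k : Type*} [Field k] {F : Type*} [Field F] [Algebra k F]

/-- A valuation subring containing `k` in which a given transcendental element is a non-unit. -/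
theorem s18c_exists_val (f : F) (hf : Transcendental k f) :
    ∃ V : ValuationSubring F, (∀ c : k, algebraMap k F c ∈ V) ∧ V.valuation f < 1 := by
  have hfA : f ∈ (Algebra.adjoin k {f}).toSubring := Algebra.self_mem_adjoin_singleton k f
  have hI : Ideal.span {(⟨f, hfA⟩ : ↥(Algebra.adjoin k {f}).toSubring)} ≠ ⊤ := by
    intro htop
    rw [Ideal.eq_top_iff_one, Ideal.mem_span_singleton'] at htop
    obtain ⟨a, ha⟩ := htop
    have ha' : (a : F) * f = 1 := congrArg Subtype.val ha
    have hmem : (a : F) ∈ (aeval f : k[X] →ₐ[k] F).range :=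
      (Algebra.adjoin_singleton_eq_range_aeval k f) ▸ a.2
    obtain ⟨p, hp⟩ := hmem
    have hp' : aeval f p = (a : F) := hp
    have h0 : aeval f (p * X - 1) = 0 := by
      rw [map_sub, map_mul, aeval_X, map_one, hp', ha', sub_self]
    have h1 := (transcendental_iff.mp hf) _ h0
    have h2 := congrArg (fun q : k[X] => q.coeff 0) h1
    simp at h2
  obtain ⟨V, hAV, hIV⟩ := Ideal.image_subset_nonunits_valuationSubring _ hI
  refine ⟨V, fun c => hAV (Subalgebra.algebraMap_mem (Algebra.adjoin k {f}) c), ?_⟩
  exact hIV ⟨⟨f, hfA⟩, Ideal.subset_span rfl, rfl⟩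

variable (V : ValuationSubring F) (hk : ∀ c : k, algebraMap k F c ∈ V)

include hk in
theorem s18c_val_const {c : k} (hc : c ≠ 0) : V.valuation (algebraMap k F c) = 1 := by
  have h1 : V.valuation (algebraMap k F c) ≤ 1 := (V.valuation_le_one_iff _).2 (hk c)
  have h2 : V.valuation (algebraMap k F c⁻¹) ≤ 1 := (V.valuation_le_one_iff _).2 (hk c⁻¹)
  have h3 : V.valuation (algebraMap k F c) * V.valuation (algebraMap k F c⁻¹) = 1 := by
    rw [← map_mul, ← map_mul, mul_inv_cancel₀ hc, map_one, map_one]
  refine le_antisymm h1 ?_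
  calc (1 : V.ValueGroup) = V.valuation (algebraMap k F c) * V.valuation (algebraMap k F c⁻¹) :=
        h3.symm
    _ ≤ V.valuation (algebraMap k F c) * 1 := by gcongr
    _ = V.valuation (algebraMap k F c) := mul_one _

include hk in
theorem s18c_aeval_mem (f : F) (hfV : f ∈ V) (a : k[X]) : aeval f a ∈ V := by
  induction a using Polynomial.induction_on' with
  | add p q hp hq =>
    rw [map_add]
    exact V.add_mem _ _ hp hq
  | monomial n c =>
    rw [aeval_monomial]
    exact V.mul_mem _ _ (hk c) (pow_mem hfV n)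

include hk in
/-- The value of a non-zero polynomial in `f` is a power of the value of `f`. -/
theorem s18c_val_aeval (f : F) (hfV : V.valuation f < 1) :
    ∀ (n : ℕ) (a : k[X]), a ≠ 0 → a.natDegree ≤ n →
      ∃ r : ℕ, V.valuation (aeval f a) = V.valuation f ^ r := by
  have hfmem : f ∈ V := (V.valuation_le_one_iff _).1 hfV.le
  intro n
  induction n with
  | zero =>
    intro a ha hdeg
    have h1 : a = C (a.coeff 0) := eq_C_of_natDegree_le_zero hdeg
    have hc : a.coeff 0 ≠ 0 := fun h => ha (by rw [h1, h, map_zero])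
    refine ⟨0, ?_⟩
    rw [h1, aeval_C, pow_zero]
    exact s18c_val_const V hk hc
  | succ n ih =>
    intro a ha hdeg
    have hsplit : aeval f a = aeval f a.divX * f + algebraMap k F (a.coeff 0) := by
      conv_lhs => rw [← divX_mul_X_add a]
      rw [map_add, map_mul, aeval_X, aeval_C]
    by_cases hc : a.coeff 0 = 0
    · have hdiv : a.divX ≠ 0 := by
        intro h
        apply ha
        rw [← divX_mul_X_add a, h, hc, zero_mul, map_zero, add_zero]
      have hdeg' : a.divX.natDegree ≤ n := by
        rw [natDegree_divX_eq_natDegree_tsub_one]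
        omega
      obtain ⟨r, hr⟩ := ih a.divX hdiv hdeg'
      refine ⟨r + 1, ?_⟩
      rw [hsplit, hc, map_zero, add_zero, map_mul, hr, pow_succ]
    · refine ⟨0, ?_⟩
      rw [hsplit, pow_zero]
      have h1 : V.valuation (algebraMap k F (a.coeff 0)) = 1 := s18c_val_const V hk hc
      have h2 : V.valuation (aeval f a.divX * f) < 1 := by
        rw [map_mul]
        have h3 : V.valuation (aeval f a.divX) ≤ 1 :=
          (V.valuation_le_one_iff _).2 (s18c_aeval_mem V hk f hfmem _)
        calc V.valuation (aeval f a.divX) * V.valuation f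
            ≤ 1 * V.valuation f := by gcongr
          _ = V.valuation f := one_mul _
          _ < 1 := hfV
      rw [Valuation.map_add_eq_of_lt_right _ (by rw [h1]; exact h2), h1]

include hk in
/-- The value of a non-zero element of `k(f)` is an integral power of the value of `f`. -/
theorem s18c_val_adjoin (f : F) (hf0 : f ≠ 0) (hfV : V.valuation f < 1) (x : F)
    (hx : x ∈ k⟮f⟯) (hx0 : x ≠ 0) : ∃ n : ℤ, V.valuation x = V.valuation f ^ n := by
  obtain ⟨a, b, hab⟩ := (IntermediateField.mem_adjoin_simple_iff k x).1 hx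
  have ha0 : aeval f a ≠ 0 := by
    intro h
    apply hx0
    rw [hab, h, zero_div]
  have hb0 : aeval f b ≠ 0 := by
    intro h
    apply hx0
    rw [hab, h, div_zero]
  have ha : a ≠ 0 := fun h => ha0 (by rw [h, map_zero])
  have hb : b ≠ 0 := fun h => hb0 (by rw [h, map_zero])
  obtain ⟨r, hr⟩ := s18c_val_aeval V hk f hfV _ a ha le_rfl
  obtain ⟨s, hs⟩ := s18c_val_aeval V hk f hfV _ b hb le_rfl
  refine ⟨(r : ℤ) - s, ?_⟩
  have hvf0 : V.valuation f ≠ 0 := (Valuation.ne_zero_iff _).2 hf0
  rw [hab, map_div₀, hr, hs, zpow_sub₀ hvf0, zpow_natCast, zpow_natCast]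

include hk in
/-- `V ∩ k(f)` is a discrete valuation ring. -/
theorem s18c_dvr_base (f : F) (hf0 : f ≠ 0) (hfV : V.valuation f < 1) :
    IsDiscreteValuationRing ↥(V.comap (algebraMap ↥k⟮f⟯ F)) := by
  classical
  have hvf0 : V.valuation f ≠ 0 := (Valuation.ne_zero_iff _).2 hf0
  have hpos : 0 < V.valuation f := zero_lt_iff.mpr hvf0
  have hinj := zpow_right_injective₀ hpos hfV.ne
  have hex : ∀ x : ↥k⟮f⟯, ∃ n : ℤ, x ≠ 0 → V.valuation (x : F) = V.valuation f ^ n := by
    intro x
    by_cases hx : x = 0
    · exact ⟨0, fun h => absurd hx h⟩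
    · obtain ⟨n, hn⟩ := s18c_val_adjoin V hk f hf0 hfV (x : F) x.2
        (fun h => hx (Subtype.ext h))
      exact ⟨n, fun _ => hn⟩
  choose w hw using hex
  have hgen0 : AdjoinSimple.gen k f ≠ 0 := fun h => hf0 (congrArg Subtype.val h)
  refine s18disc_of_ord _ w ?_ ?_ ⟨AdjoinSimple.gen k f, hgen0, ?_⟩
  · intro x y hx hy
    apply hinj
    show V.valuation f ^ w (x * y) = V.valuation f ^ (w x + w y)
    rw [zpow_add₀ hvf0, ← hw x hx, ← hw y hy, ← hw (x * y) (mul_ne_zero hx hy)]
    exact map_mul _ _ _
  · intro x hx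
    rw [ValuationSubring.mem_comap, ← V.valuation_le_one_iff]
    show V.valuation (x : F) ≤ 1 ↔ _
    rw [hw x hx, zpow_le_one_iff_right_of_lt_one₀ hpos hfV]
  · intro h0
    have h1 := hw (AdjoinSimple.gen k f) hgen0
    rw [h0, zpow_zero] at h1
    exact hfV.ne h1

end Val

/-- **[CONST]** an element of `F_k(N)` without zeros and poles is constant. -/
theorem s18c_main : s18_ConstStatement := by
  intro N _ ℓ _ hℓN k _ _ _ f hf0 hord
  by_contra hcon
  have hnr : f ∉ (algebraMap k ↥(modularFunctionFieldFullC k N)).range :=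
    fun ⟨c, hc⟩ => hcon ⟨c, hc.symm⟩
  have htr : Transcendental k f := by
    intro halg
    have hint : IsIntegral k f := halg.isIntegral
    have h1 := IsAlgClosed.degree_eq_one_of_irreducible k (minpoly.irreducible hint)
    exact hnr (minpoly.mem_range_of_degree_eq_one k f h1)
  obtain ⟨V, hkV, hfV⟩ := s18c_exists_val f htr
  have := s18c_finite k N ℓ f htr
  have hW : IsDiscreteValuationRing ↥(V.comap (algebraMap ↥k⟮f⟯ ↥(modularFunctionFieldFullC k N))) :=
    s18c_dvr_base V hkV f hf0 hfV
  have hV : IsDiscreteValuationRing ↥V :=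
    s18disc_main ↥k⟮f⟯ ↥(modularFunctionFieldFullC k N) V hW
  have hfi : f⁻¹ ∉ V := by
    intro h
    have h1 : V.valuation f⁻¹ ≤ 1 := (V.valuation_le_one_iff _).2 h
    rw [map_inv₀] at h1
    have h2 : V.valuation f * (V.valuation f)⁻¹ = 1 :=
      mul_inv_cancel₀ ((Valuation.ne_zero_iff _).2 hf0)
    have h3 : V.valuation f * (V.valuation f)⁻¹ < 1 := by
      calc V.valuation f * (V.valuation f)⁻¹ ≤ V.valuation f * 1 := by gcongr
        _ = V.valuation f := mul_one _
        _ < 1 := hfV
    exact h3.ne h2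
  have hne : V ≠ ⊤ := fun h => hfi (h ▸ ValuationSubring.mem_top _)
  let Q : Place k ↥(modularFunctionFieldFullC k N) :=
    { toValuationSubring := V
      algebraMap_mem' := hkV
      ne_top' := hne
      isPrincipalIdealRing' := inferInstance }
  have hQ := hord Q
  obtain ⟨π, hπ⟩ := IsDiscreteValuationRing.exists_irreducible Q.toValuationSubring
  obtain ⟨u, hu⟩ := Q.exists_unit_mul_zpow hf0 hπ
  rw [hQ, zpow_zero, mul_one] at hu
  apply hfi
  have h4 : f⁻¹ = ((u⁻¹ : (Q.toValuationSubring)ˣ) : Q.toValuationSubring) := by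
    rw [hu]
    have h5 : (((u : (Q.toValuationSubring)ˣ) : Q.toValuationSubring) : ↥(modularFunctionFieldFullC k N)) *
        (((u⁻¹ : (Q.toValuationSubring)ˣ) : Q.toValuationSubring) : ↥(modularFunctionFieldFullC k N)) = 1 := by
      rw [← MulMemClass.coe_mul, Units.mul_inv]
      rfl
    exact inv_eq_of_mul_eq_one_right h5
  rw [h4]
  exact ((u⁻¹ : (Q.toValuationSubring)ˣ) : Q.toValuationSubring).2

end Fermat.Agent.S18
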