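/-
S18 package (P3) [DOWN], part 3: degrees.
Owner: helper22.  Prefix `s18d_`.

* `s18d_finrank`   : `[F̄_N : Q̄(j)] = ψ(N)`                      (from the S24 library)
* `s18d_psi_lt`    : `ψ(M) < 2 (M / N) ψ(N)` for `M = lcm(N, p²)`, `M ≠ N`   (numerics)
-/
import Mathlib
import Fermat.Agent.S24

set_option autoImplicit false

noncomputable section

namespace Fermat.Agent.S18

open Fermat.Agent.S24 AlgebraicCurve IntermediateField
open scoped MatrixGroups

/-- `[F̄_N : Q̄(j)] = ψ(N)`. -/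
theorem s18d_finrank (N : ℕ) [NeZero N] :
    Module.finrank QBar⟮jF N⟯ (FunField N) = ModularCurve.dedekindPsi N := by
  have : Finite (XN N) := Comb.comb_cosetFinite N
  have hj : IsCoordinate QBar (jF N) := final_jCoordinate N
  have hdeg := final_degreeLowerBound N
  obtain ⟨P, hP⟩ := glue_uniformizedCusp bridge (anF_cuspFamily anB_growth)
    (symF_cusp symFr_frac s24_cuspDvd) N
  obtain ⟨-, -, -, h4⟩ := count_main ff_fundamentalIdentity (glue_isCoordinate_inv hj) hP
    (by rw [glue_finrank_inv]; exact hdeg)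
  rw [glue_finrank_inv] at h4
  rw [h4, Comb.comb_cosetCard N]

theorem s18d_psi_pos (N : ℕ) [NeZero N] : 0 < ModularCurve.dedekindPsi N := by
  have : Finite (XN N) := Comb.comb_cosetFinite N
  rw [← Comb.comb_cosetCard N]
  exact Nat.card_pos

/-- The numerical inequality behind "no unramified subextension":
`ψ(lcm(N, p²)) < 2 (lcm(N, p²) / N) ψ(N)` unless `p² ∣ N`. -/
theorem s18d_psi_lt (N p : ℕ) [NeZero N] (hp : p.Prime) (hN : ¬ p ^ 2 ∣ N) :
    ModularCurve.dedekindPsi (Nat.lcm N (p ^ 2)) <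
      2 * (Nat.lcm N (p ^ 2) / N) * ModularCurve.dedekindPsi N := by
  obtain ⟨a, N', hN', hNeq⟩ := Nat.exists_eq_pow_mul_and_not_dvd (NeZero.ne N) p hp.ne_one
  have hN'0 : N' ≠ 0 := by
    rintro rfl
    exact hN' (dvd_zero p)
  have : NeZero N' := ⟨hN'0⟩
  have hcop : Nat.Coprime p N' := (Nat.Prime.coprime_iff_not_dvd hp).2 hN'
  have hψ' := s18d_psi_pos N'
  have hp1 : 1 < p := hp.one_lt
  have hpp : p < p * p := by nlinarith
  have ha : a < 2 := by
    by_contra h
    apply hN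
    rw [hNeq]
    exact Dvd.dvd.mul_right (pow_dvd_pow p (by omega)) N'
  have h2 : ModularCurve.dedekindPsi (p ^ 2) = p ^ 2 + p := by
    have := Comb.dedekindPsi_prime_pow hp 1
    simpa using this
  have h1 : ModularCurve.dedekindPsi p = p + 1 := by
    have := Comb.dedekindPsi_prime_pow hp 0
    simpa using this
  interval_cases a
  · -- `p ∤ N`
    rw [pow_zero, one_mul] at hNeq
    subst hNeq
    have hc2 : Nat.Coprime N (p ^ 2) := (Nat.Coprime.pow_left 2 hcop).symm
    rw [Nat.Coprime.lcm_eq_mul hc2, Comb.dedekindPsi_mul hc2, h2,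
      Nat.mul_div_cancel_left _ (Nat.pos_of_ne_zero (NeZero.ne N))]
    nlinarith
  · -- `p ∥ N`
    rw [pow_one] at hNeq
    have hc2 : Nat.Coprime (p ^ 2) N' := Nat.Coprime.pow_left 2 hcop
    have hlcm : Nat.lcm N (p ^ 2) = p ^ 2 * N' := by
      rw [hNeq]
      apply Nat.dvd_antisymm
      · exact Nat.lcm_dvd ⟨p, by ring⟩ (Dvd.intro _ rfl)
      · exact Nat.Coprime.mul_dvd_of_dvd_of_dvd hc2 (Nat.dvd_lcm_right _ _)
          ((Dvd.intro_left p rfl).trans (Nat.dvd_lcm_left _ _))
    have hdiv : p ^ 2 * N' / N = p := by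
      rw [hNeq]
      have : p ^ 2 * N' = p * N' * p := by ring
      rw [this]
      exact Nat.mul_div_cancel_left _ (Nat.mul_pos hp.pos (Nat.pos_of_ne_zero hN'0))
    rw [hlcm, hdiv, Comb.dedekindPsi_mul hc2, h2, hNeq, Comb.dedekindPsi_mul hcop, h1]
    nlinarith

end Fermat.Agent.S18
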