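/-
S18 package (P3) [DOWN], part 2: the expansion at the cusp `0`.
Owner: helper22.  Prefix `s18d_`.

For every level `M` there is a field embedding `φ : F̄_M → Q̄((q))` (over `Q̄`) with
`φ (j (d z)) = j (d' z)` whenever `d * d' = M`: the `q`-expansion of `f (-1 / (M z))`.
It is constructed from the analytic bridge of the S24 library (`anA_HasLaurent`).
-/
import Mathlib
import Fermat.Agent.S24.Bridge
import Fermat.Agent.S24.FracRingA

set_option autoImplicit false

noncomputable section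

namespace Fermat.Agent.S18

open Fermat.Agent.S24 UpperHalfPlane
open scoped MatrixGroups

/-! ### The map `z ↦ -1 / (M z)` of the upper half plane -/

/-- The map `z ↦ -1 / (M z)`. -/
def s18d_w (M : ℕ) (z : ℍ) : ℍ := ModularGroup.S • (ModularForm.heckeDiagMatrix M • z)

theorem s18d_coe_S_smul (z : ℍ) : ((ModularGroup.S • z : ℍ) : ℂ) = (-(z : ℂ))⁻¹ := by
  rw [UpperHalfPlane.modular_S_smul]

theorem s18d_coe_w (M : ℕ) [NeZero M] (z : ℍ) :
    ((s18d_w M z : ℍ) : ℂ) = (-((M : ℂ) * (z : ℂ)))⁻¹ := by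
  rw [s18d_w, s18d_coe_S_smul, ModularForm.coe_heckeDiagMatrix_smul (NeZero.ne M)]

theorem s18d_w_w (M : ℕ) [NeZero M] (z : ℍ) : s18d_w M (s18d_w M z) = z := by
  apply UpperHalfPlane.ext
  rw [s18d_coe_w, s18d_coe_w]
  have hM : (M : ℂ) ≠ 0 := Nat.cast_ne_zero.2 (NeZero.ne M)
  have hz : (z : ℂ) ≠ 0 := UpperHalfPlane.ne_zero z
  field_simp

theorem s18d_diag_w (M d d' : ℕ) [NeZero M] [NeZero d] [NeZero d'] (h : d * d' = M) (z : ℍ) :
    ModularForm.heckeDiagMatrix d • s18d_w M z =
      ModularGroup.S • (ModularForm.heckeDiagMatrix d' • z) := by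
  apply UpperHalfPlane.ext
  rw [ModularForm.coe_heckeDiagMatrix_smul (NeZero.ne d), s18d_coe_w, s18d_coe_S_smul,
    ModularForm.coe_heckeDiagMatrix_smul (NeZero.ne d')]
  have hd : (d : ℂ) ≠ 0 := Nat.cast_ne_zero.2 (NeZero.ne d)
  have hd' : (d' : ℂ) ≠ 0 := Nat.cast_ne_zero.2 (NeZero.ne d')
  have hz : (z : ℂ) ≠ 0 := UpperHalfPlane.ne_zero z
  have hM : (M : ℂ) = (d : ℂ) * (d' : ℂ) := by
    rw [← h]
    push_cast
    ring
  rw [hM]
  field_simp

/-! ### The graph of the expansion at `0` -/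

/-- `y` is the `q`-expansion of `f (-1 / (M z))`, where `f` has the `q`-expansion `x`. -/
def s18d_G (M : ℕ) (x y : LaurentSeries QBar) : Prop :=
  ∃ f : ℍ → ℂ, anA_HasLaurent (ModularCurve.coeffMap iota x) f ∧
    anA_HasLaurent (ModularCurve.coeffMap iota y) (fun z => f (s18d_w M z))

theorem s18d_coeffMap_iota_injective :
    Function.Injective (ModularCurve.coeffMap iota : LaurentSeries QBar →+* LaurentSeries ℂ) :=
  RingHom.injective _

theorem s18d_G_add (M : ℕ) {x y x' y' : LaurentSeries QBar} (h : s18d_G M x y)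
    (h' : s18d_G M x' y') : s18d_G M (x + x') (y + y') := by
  obtain ⟨f, hf1, hf2⟩ := h
  obtain ⟨g, hg1, hg2⟩ := h'
  refine ⟨f + g, ?_, ?_⟩
  · rw [map_add]
    exact hf1.add hg1
  · rw [map_add]
    exact hf2.add hg2

theorem s18d_G_mul (M : ℕ) {x y x' y' : LaurentSeries QBar} (h : s18d_G M x y)
    (h' : s18d_G M x' y') : s18d_G M (x * x') (y * y') := by
  obtain ⟨f, hf1, hf2⟩ := h
  obtain ⟨g, hg1, hg2⟩ := h'
  refine ⟨f * g, ?_, ?_⟩
  · rw [map_mul]
    exact hf1.mul hg1
  · rw [map_mul]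
    exact hf2.mul hg2

theorem s18d_G_const (M : ℕ) (c : QBar) :
    s18d_G M (algebraMap QBar (LaurentSeries QBar) c) (algebraMap QBar (LaurentSeries QBar) c) := by
  refine ⟨fun _ => iota c, ?_, ?_⟩
  · rw [anA_coeffMap_algebraMap]
    exact anA_HasLaurent.const (iota c)
  · rw [anA_coeffMap_algebraMap]
    exact anA_HasLaurent.const (iota c)

theorem s18d_G_j (M d d' : ℕ) [NeZero M] [NeZero d] [NeZero d'] (h : d * d' = M) :
    s18d_G M (jLaurent d) (jLaurent d') := by
  refine ⟨fun z => jfun (ModularForm.heckeDiagMatrix d • z), ?_, ?_⟩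
  · rw [anA_coeffMap_jLaurent]
    exact anA_hasLaurent_jd d
  · rw [anA_coeffMap_jLaurent]
    have e : (fun z => jfun (ModularForm.heckeDiagMatrix d • s18d_w M z)) =
        fun z => jfun (ModularForm.heckeDiagMatrix d' • z) := by
      funext z
      rw [s18d_diag_w M d d' h, jfun_smul]
    rw [e]
    exact anA_hasLaurent_jd d'

theorem s18d_G_unique (M : ℕ) {x y y' : LaurentSeries QBar} (h : s18d_G M x y)
    (h' : s18d_G M x y') : y = y' := by
  obtain ⟨f, hf1, hf2⟩ := h
  obtain ⟨g, hg1, hg2⟩ := h'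
  have hfg : f = g := hf1.unique_fun hg1
  subst hfg
  exact s18d_coeffMap_iota_injective (hf2.unique_series hg2)

theorem s18d_G_symm (M : ℕ) [NeZero M] {x y : LaurentSeries QBar} (h : s18d_G M x y) :
    s18d_G M y x := by
  obtain ⟨f, hf1, hf2⟩ := h
  refine ⟨fun z => f (s18d_w M z), hf2, ?_⟩
  have e : (fun z => f (s18d_w M (s18d_w M z))) = f := by
    funext z
    rw [s18d_w_w]
  rw [e]
  exact hf1

theorem s18d_G_inj (M : ℕ) [NeZero M] {x x' y : LaurentSeries QBar} (h : s18d_G M x y)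
    (h' : s18d_G M x' y) : x = x' :=
  s18d_G_unique M (s18d_G_symm M h) (s18d_G_symm M h')

/-! ### The expansion at `0` on `ringA M` -/

theorem s18d_exists_G (M : ℕ) [NeZero M] (x : FunField M) (hx : x ∈ ringA M) :
    ∃ y : LaurentSeries QBar, s18d_G M (x : LaurentSeries QBar) y := by
  induction hx using Algebra.adjoin_induction with
  | mem x hx =>
    obtain ⟨d, hne, hd, rfl⟩ := hx
    have := hne
    have hd' : M / d ≠ 0 := by
      intro h0
      have h1 := Nat.div_mul_cancel hd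
      rw [h0, zero_mul] at h1
      exact NeZero.ne M h1.symm
    have : NeZero (M / d) := ⟨hd'⟩
    exact ⟨jLaurent (M / d), s18d_G_j M d (M / d) (Nat.mul_div_cancel' hd)⟩
  | algebraMap c => exact ⟨_, s18d_G_const M c⟩
  | add x y _ _ hx hy =>
    obtain ⟨a, ha⟩ := hx
    obtain ⟨b, hb⟩ := hy
    exact ⟨a + b, s18d_G_add M ha hb⟩
  | mul x y _ _ hx hy =>
    obtain ⟨a, ha⟩ := hx
    obtain ⟨b, hb⟩ := hy
    exact ⟨a * b, s18d_G_mul M ha hb⟩

/-- The expansion at `0` of an element of `ringA M`. -/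
def s18d_W0fun (M : ℕ) [NeZero M] (a : ringA M) : LaurentSeries QBar :=
  Classical.choose (s18d_exists_G M a.1 a.2)

theorem s18d_W0fun_spec (M : ℕ) [NeZero M] (a : ringA M) :
    s18d_G M ((a : FunField M) : LaurentSeries QBar) (s18d_W0fun M a) :=
  Classical.choose_spec (s18d_exists_G M a.1 a.2)

theorem s18d_W0fun_eq (M : ℕ) [NeZero M] (a : ringA M) {y : LaurentSeries QBar}
    (h : s18d_G M ((a : FunField M) : LaurentSeries QBar) y) : s18d_W0fun M a = y :=
  s18d_G_unique M (s18d_W0fun_spec M a) h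

/-- The expansion at `0` as a ring homomorphism on `ringA M`. -/
def s18d_W0 (M : ℕ) [NeZero M] : ringA M →+* LaurentSeries QBar where
  toFun := s18d_W0fun M
  map_one' := s18d_W0fun_eq M 1 (by
    have h := s18d_G_const M 1
    rw [map_one] at h
    exact h)
  map_zero' := s18d_W0fun_eq M 0 (by
    have h := s18d_G_const M 0
    rw [map_zero] at h
    exact h)
  map_add' a b := s18d_W0fun_eq M (a + b)
    (s18d_G_add M (s18d_W0fun_spec M a) (s18d_W0fun_spec M b))
  map_mul' a b := s18d_W0fun_eq M (a * b)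
    (s18d_G_mul M (s18d_W0fun_spec M a) (s18d_W0fun_spec M b))

theorem s18d_W0_spec (M : ℕ) [NeZero M] (a : ringA M) :
    s18d_G M ((a : FunField M) : LaurentSeries QBar) (s18d_W0 M a) :=
  s18d_W0fun_spec M a

theorem s18d_W0_eq (M : ℕ) [NeZero M] (a : ringA M) {y : LaurentSeries QBar}
    (h : s18d_G M ((a : FunField M) : LaurentSeries QBar) y) : s18d_W0 M a = y :=
  s18d_W0fun_eq M a h

theorem s18d_W0_injective (M : ℕ) [NeZero M] : Function.Injective (s18d_W0 M) := by
  intro a b hab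
  have h1 := s18d_W0_spec M a
  have h2 := s18d_W0_spec M b
  rw [hab] at h1
  have h3 := s18d_G_inj M h1 h2
  exact Subtype.ext (Subtype.ext h3)

/-! ### Extension to the function field -/

theorem s18d_isFractionRing (M : ℕ) : IsFractionRing (ringA M) (FunField M) := by
  have : FaithfulSMul (ringA M) (FunField M) :=
    (faithfulSMul_iff_algebraMap_injective _ _).2 Subtype.val_injective
  refine IsFractionRing.of_field (ringA M) (FunField M) fun z => ?_
  obtain ⟨a, b, -, h⟩ := fracA_exists_div M z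
  exact ⟨a, b, h⟩

/-- **The expansion at the cusp `0`**: a field embedding `F̄_M → Q̄((q))`. -/
def s18d_phi (M : ℕ) [NeZero M] : FunField M →+* LaurentSeries QBar :=
  haveI := s18d_isFractionRing M
  IsFractionRing.lift (s18d_W0_injective M)

theorem s18d_phi_coe (M : ℕ) [NeZero M] (a : ringA M) :
    s18d_phi M (a : FunField M) = s18d_W0 M a := by
  have := s18d_isFractionRing M
  exact IsFractionRing.lift_algebraMap (s18d_W0_injective M) a

theorem s18d_phi_algebraMap (M : ℕ) [NeZero M] (c : QBar) :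
    s18d_phi M (algebraMap QBar (FunField M) c) = HahnSeries.C c := by
  have h1 := s18d_phi_coe M (algebraMap QBar (ringA M) c)
  have h2 : s18d_W0 M (algebraMap QBar (ringA M) c) = algebraMap QBar (LaurentSeries QBar) c :=
    s18d_W0_eq M _ (s18d_G_const M c)
  rw [h2, ModularCurve.algebraMap_laurentSeries_eq_single] at h1
  exact h1

theorem s18d_phi_jDiv (M d d' : ℕ) [NeZero M] [NeZero d] [NeZero d'] (hd : d ∣ M)
    (h : d * d' = M) : s18d_phi M (jDiv M d hd) = jLaurent d' := by
  have h1 := s18d_phi_coe M (jDivA M d hd)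
  have h2 : s18d_W0 M (jDivA M d hd) = jLaurent d' := s18d_W0_eq M _ (s18d_G_j M d d' h)
  rw [h2] at h1
  exact h1

end Fermat.Agent.S18
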