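/-
S18 package (P3) [DOWN], part 1: formal Laurent series (Mathlib + prelude only).
Owner: helper22.  Prefix `s18d_`.

* `s18d_tau ζ` : the automorphism `q ↦ ζ q` of `K((q))` (`ζ` a unit of `K`).
* elements fixed by `s18d_tau ζ` (`ζ` a primitive `e`-th root of unity) have order in `e ℤ`;
* a series supported on `e ℤ` is fixed;
* **root lemma**: if `x ^ m` is fixed, `m ≠ 0`, `e ∣ ord x`, `K` algebraically closed, then `x`
  is fixed;
* **independence lemma**: a finite sum of nonzero series with pairwise distinct orders is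
  nonzero.
-/
import Mathlib
import Fermat.Prelude.Def_ModularCurve_X0
import Fermat.Prelude.Def_ModularCurve_LaurentCoeff

set_option autoImplicit false

noncomputable section

namespace Fermat.Agent.S18

open HahnSeries

variable {K : Type*} [Field K]

/-- The underlying function of `s18d_tau`. -/
def s18d_tauFun (ζ : Kˣ) (x : LaurentSeries K) : LaurentSeries K where
  coeff n := ((ζ ^ n : Kˣ) : K) * x.coeff n
  isPWO_support' := x.isPWO_support.mono (fun n hn => by
    simp only [Function.mem_support, ne_eq] at hn ⊢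
    intro h
    exact hn (by rw [h, mul_zero]))

theorem s18d_tauFun_coeff (ζ : Kˣ) (x : LaurentSeries K) (n : ℤ) :
    (s18d_tauFun ζ x).coeff n = ((ζ ^ n : Kˣ) : K) * x.coeff n := rfl

theorem s18d_tauFun_coeff_ne_zero_iff (ζ : Kˣ) (x : LaurentSeries K) (n : ℤ) :
    (s18d_tauFun ζ x).coeff n ≠ 0 ↔ x.coeff n ≠ 0 := by
  rw [s18d_tauFun_coeff]
  exact not_congr (Units.mul_right_eq_zero _)

/-- The automorphism `q ↦ ζ q` of `K((q))`. -/
def s18d_tau (ζ : Kˣ) : LaurentSeries K →+* LaurentSeries K where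
  toFun := s18d_tauFun ζ
  map_zero' := by
    ext n
    simp [s18d_tauFun_coeff]
  map_one' := by
    ext n
    rw [s18d_tauFun_coeff, HahnSeries.coeff_one]
    split_ifs with h
    · subst h
      simp
    · simp
  map_add' x y := by
    ext n
    simp [s18d_tauFun_coeff, mul_add]
  map_mul' x y := by
    ext n
    rw [s18d_tauFun_coeff, HahnSeries.coeff_mul, HahnSeries.coeff_mul, Finset.mul_sum]
    refine Finset.sum_congr ?_ ?_
    · ext ij
      simp only [Finset.mem_antidiagonal, HahnSeries.mem_support]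
      rw [s18d_tauFun_coeff_ne_zero_iff, s18d_tauFun_coeff_ne_zero_iff]
    · intro ij hij
      have h3 : ij.1 + ij.2 = n := (Finset.mem_antidiagonal.1 hij).2.2
      rw [s18d_tauFun_coeff, s18d_tauFun_coeff, ← h3, zpow_add, Units.val_mul]
      ring

theorem s18d_tau_coeff (ζ : Kˣ) (x : LaurentSeries K) (n : ℤ) :
    (s18d_tau ζ x).coeff n = ((ζ ^ n : Kˣ) : K) * x.coeff n := rfl

theorem s18d_tau_C (ζ : Kˣ) (c : K) :
    s18d_tau ζ (HahnSeries.C c) = HahnSeries.C c := by
  ext n
  rw [s18d_tau_coeff]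
  by_cases hn : n = 0
  · subst hn
    simp
  · rw [HahnSeries.C_apply, HahnSeries.coeff_single_of_ne hn, mul_zero]

/-- A series supported on `e ℤ` is fixed by `q ↦ ζ q` when `ζ ^ e = 1`. -/
theorem s18d_tau_eq_self_of_support (ζ : Kˣ) (e : ℕ) (hζ : ζ ^ e = 1) (x : LaurentSeries K)
    (hx : ∀ n : ℤ, ¬ (e : ℤ) ∣ n → x.coeff n = 0) : s18d_tau ζ x = x := by
  ext n
  rw [s18d_tau_coeff]
  by_cases hn : (e : ℤ) ∣ n
  · obtain ⟨k, rfl⟩ := hn
    rw [zpow_mul, zpow_natCast, hζ, one_zpow, Units.val_one, one_mul]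
  · rw [hx n hn, mul_zero]

/-- Nonzero fixed elements have order divisible by `e`. -/
theorem s18d_dvd_order_of_fixed (ζ : Kˣ) (e : ℕ) (hζ : IsPrimitiveRoot ζ e)
    (x : LaurentSeries K) (hx0 : x ≠ 0) (hx : s18d_tau ζ x = x) : (e : ℤ) ∣ x.order := by
  have h1 : (s18d_tau ζ x).coeff x.order = x.coeff x.order := by rw [hx]
  rw [s18d_tau_coeff] at h1
  have h2 : x.coeff x.order ≠ 0 := fun h => hx0 (HahnSeries.coeff_order_eq_zero.1 h)
  have h3 : ((ζ ^ x.order : Kˣ) : K) = 1 := by
    have h4 : (((ζ ^ x.order : Kˣ) : K) - 1) * x.coeff x.order = 0 := by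
      rw [sub_mul, h1, one_mul, sub_self]
    rcases mul_eq_zero.1 h4 with h5 | h5
    · exact sub_eq_zero.1 h5
    · exact absurd h5 h2
  have h6 : ζ ^ x.order = 1 := Units.ext (by rw [h3, Units.val_one])
  exact (hζ.zpow_eq_one_iff_dvd _).1 h6

/-- **Root lemma.**  If `x ^ m` is fixed by `q ↦ ζ q`, `m ≠ 0`, and the order of `x` is
divisible by `e` (`ζ ^ e = 1`), then `x` is fixed (`K` algebraically closed). -/
theorem s18d_fixed_of_pow_fixed [IsAlgClosed K] (ζ : Kˣ) (e : ℕ) (hζ : ζ ^ e = 1) (m : ℕ)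
    (hm : m ≠ 0) (x : LaurentSeries K) (he : (e : ℤ) ∣ x.order)
    (hxm : s18d_tau ζ (x ^ m) = x ^ m) : s18d_tau ζ x = x := by
  rcases eq_or_ne x 0 with rfl | hx0
  · exact map_zero _
  set η : LaurentSeries K := s18d_tau ζ x / x with hη
  have hηm : η ^ m = 1 := by
    rw [hη, div_pow, ← map_pow, hxm]
    exact div_self (pow_ne_zero _ hx0)
  have hint : IsIntegral K η := by
    refine ⟨Polynomial.X ^ m - 1, Polynomial.monic_X_pow_sub_C (1 : K) hm, ?_⟩
    simp [hηm]
  have hdeg : (minpoly K η).degree = 1 :=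
    IsAlgClosed.degree_eq_one_of_irreducible K (minpoly.irreducible hint)
  obtain ⟨c, hc⟩ := minpoly.mem_range_of_degree_eq_one K η hdeg
  have hc' : HahnSeries.C c = η := by
    rw [← hc, ModularCurve.algebraMap_laurentSeries_eq_single]
    rfl
  have h1 : s18d_tau ζ x = HahnSeries.C c * x := by
    rw [hc', hη, div_mul_cancel₀ _ hx0]
  have h2 := congrArg (fun y : LaurentSeries K => y.coeff x.order) h1
  simp only [s18d_tau_coeff] at h2
  rw [HahnSeries.C_mul_eq_smul, HahnSeries.coeff_smul, smul_eq_mul] at h2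
  have h3 : x.coeff x.order ≠ 0 := fun h => hx0 (HahnSeries.coeff_order_eq_zero.1 h)
  have h4 : ((ζ ^ x.order : Kˣ) : K) = 1 := by
    obtain ⟨k, hk⟩ := he
    rw [hk, zpow_mul, zpow_natCast, hζ, one_zpow, Units.val_one]
  rw [h4, one_mul] at h2
  have h5 : c = 1 := by
    have h6 : (c - 1) * x.coeff x.order = 0 := by
      rw [sub_mul, ← h2, one_mul, sub_self]
    rcases mul_eq_zero.1 h6 with h7 | h7
    · exact sub_eq_zero.1 h7
    · exact absurd h7 h3
  rw [h1, h5, map_one, one_mul]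

/-- **Independence lemma.**  A finite sum of series whose nonzero terms have pairwise distinct
orders vanishes only if all terms vanish. -/
theorem s18d_sum_eq_zero {ι : Type*} (s : Finset ι) (x : ι → LaurentSeries K)
    (hinj : ∀ i ∈ s, ∀ j ∈ s, x i ≠ 0 → x j ≠ 0 → (x i).order = (x j).order → i = j)
    (h : ∑ i ∈ s, x i = 0) : ∀ i ∈ s, x i = 0 := by
  classical
  by_contra hcon
  obtain ⟨i₁, hcon'⟩ := not_forall.1 hcon
  obtain ⟨hi₁, hx₁⟩ := Classical.not_imp.1 hcon'
  have hne : (s.filter fun i => x i ≠ 0).Nonempty := ⟨i₁, Finset.mem_filter.2 ⟨hi₁, hx₁⟩⟩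
  obtain ⟨i₀, hi₀, hmin⟩ := Finset.exists_min_image _ (fun i => (x i).order) hne
  have hi₀s : i₀ ∈ s := (Finset.mem_filter.1 hi₀).1
  have hx₀ : x i₀ ≠ 0 := (Finset.mem_filter.1 hi₀).2
  have h1 := congrArg (fun y : LaurentSeries K => y.coeff (x i₀).order) h
  simp only [HahnSeries.coeff_sum, HahnSeries.coeff_zero] at h1
  rw [Finset.sum_eq_single_of_mem i₀ hi₀s] at h1
  · exact hx₀ (HahnSeries.coeff_order_eq_zero.1 h1)
  · intro j hj hji
    by_cases hxj : x j = 0
    · rw [hxj, HahnSeries.coeff_zero]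
    · have h2 : (x i₀).order ≤ (x j).order := hmin j (Finset.mem_filter.2 ⟨hj, hxj⟩)
      have h3 : (x i₀).order ≠ (x j).order := fun h3 =>
        hji (hinj j hj i₀ hi₀s hxj hx₀ h3.symm)
      exact HahnSeries.coeff_eq_zero_of_lt_order (lt_of_le_of_ne h2 h3)

/-- **The ramified place gives independence.**  If `φ : E → K((q))` is a field embedding,
`S → E` a subfield whose image is fixed by `q ↦ ζ q` (`ζ` a primitive `e`-th root of unity), and
`t ∈ E` has `ord_q (φ t) = 1`, then `1, t, …, t ^ (e - 1)` are linearly independent over `S`. -/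
theorem s18d_linearIndependent {E S : Type*} [Field E] [Field S] [Algebra S E]
    (φ : E →+* LaurentSeries K) (ζ : Kˣ)
    (e : ℕ) (hζ : IsPrimitiveRoot ζ e)
    (hS : ∀ y : S, s18d_tau ζ (φ (algebraMap S E y)) = φ (algebraMap S E y)) (t : E)
    (ht : (φ t).order = 1) :
    LinearIndependent S (fun k : Fin e => t ^ (k : ℕ)) := by
  classical
  have ht0 : φ t ≠ 0 := by
    intro h
    rw [h, HahnSeries.order_zero] at ht
    exact zero_ne_one ht
  rw [Fintype.linearIndependent_iff]
  intro g hg k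
  have h1 : ∑ i : Fin e, φ (algebraMap S E (g i)) * φ t ^ (i : ℕ) = 0 := by
    have h2 := congrArg φ hg
    rw [map_sum, map_zero] at h2
    rw [← h2]
    refine Finset.sum_congr rfl fun i _ => ?_
    rw [Algebra.smul_def, map_mul, map_pow]
  have hord : ∀ i : Fin e, φ (algebraMap S E (g i)) * φ t ^ (i : ℕ) ≠ 0 →
      (φ (algebraMap S E (g i)) * φ t ^ (i : ℕ)).order =
        (φ (algebraMap S E (g i))).order + (i : ℕ) := by
    intro i hi
    have h3 : φ (algebraMap S E (g i)) ≠ 0 := left_ne_zero_of_mul hi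
    rw [HahnSeries.order_mul h3 (pow_ne_zero _ ht0), HahnSeries.order_pow, ht]
    simp
  have h4 := s18d_sum_eq_zero Finset.univ
    (fun i : Fin e => φ (algebraMap S E (g i)) * φ t ^ (i : ℕ)) (by
    intro i _ j _ hi hj hij
    rw [hord i hi, hord j hj] at hij
    have h5 : (e : ℤ) ∣ (φ (algebraMap S E (g i))).order :=
      s18d_dvd_order_of_fixed ζ e hζ _ (left_ne_zero_of_mul hi) (hS (g i))
    have h6 : (e : ℤ) ∣ (φ (algebraMap S E (g j))).order :=
      s18d_dvd_order_of_fixed ζ e hζ _ (left_ne_zero_of_mul hj) (hS (g j))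
    obtain ⟨a, ha⟩ := h5
    obtain ⟨b, hb⟩ := h6
    rw [ha, hb] at hij
    have hi' : ((i : ℕ) : ℤ) < e := by exact_mod_cast i.2
    have hj' : ((j : ℕ) : ℤ) < e := by exact_mod_cast j.2
    have hi0 : (0 : ℤ) ≤ ((i : ℕ) : ℤ) := Int.natCast_nonneg _
    have hj0 : (0 : ℤ) ≤ ((j : ℕ) : ℤ) := Int.natCast_nonneg _
    have h7 : ((i : ℕ) : ℤ) = ((j : ℕ) : ℤ) := by
      have h8 : (e : ℤ) * (a - b) = ((j : ℕ) : ℤ) - ((i : ℕ) : ℤ) := by linarith
      have h9 : a - b = 0 := by
        by_contra hne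
        have hpos : (0 : ℤ) < e := by linarith
        rcases lt_or_gt_of_ne hne with hlt | hgt
        · have : (e : ℤ) * (a - b) ≤ (e : ℤ) * (-1) :=
            mul_le_mul_of_nonneg_left (by omega) hpos.le
          linarith
        · have : (e : ℤ) * 1 ≤ (e : ℤ) * (a - b) :=
            mul_le_mul_of_nonneg_left (by omega) hpos.le
          linarith
      rw [h9, mul_zero] at h8
      linarith
    exact Fin.ext (by exact_mod_cast h7)) h1 k (Finset.mem_univ k)
  rcases mul_eq_zero.1 h4 with h5 | h5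
  · exact (map_eq_zero (algebraMap S E)).1 ((map_eq_zero φ).1 h5)
  · exact absurd h5 (pow_ne_zero _ ht0)

end Fermat.Agent.S18
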