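/-
S18 package (P3) [DOWN], part 4: the core descent.
Owner: helper22.  Prefix `s18d_`.

`s18d_core` : for `N ∣ M` with `ψ(M) < 2 (M / N) ψ(N)`: if `v ∈ F̄_M`, `v ^ m ∈ F̄_N` (`m ≠ 0`)
and `m ∣ ord_Q (v ^ m)` at every place `Q` of `F̄_N`, then `v ∈ F̄_N`.
-/
import Mathlib
import Fermat.Agent.S18.DownSeries
import Fermat.Agent.S18.DownFricke
import Fermat.Agent.S18.DownDeg

set_option autoImplicit false

noncomputable section

namespace Fermat.Agent.S18

open Fermat.Agent.S24 AlgebraicCurve IntermediateField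
open scoped MatrixGroups

/-! ### The tower `F̄_N ⊆ F̄_M` -/

theorem s18d_le {N M : ℕ} [NeZero N] [NeZero M] (h : N ∣ M) :
    ModularCurve.modularFunctionFieldBar N ≤ ModularCurve.modularFunctionFieldBar M := by
  unfold ModularCurve.modularFunctionFieldBar ModularCurve.laurentBaseChange
  rw [IntermediateField.adjoin_le_iff]
  rintro x ⟨y, hy, rfl⟩
  exact ModularCurve.coeffEmb_mem_laurentBaseChange _ (ModularCurve.full_degeneracy_le h hy)

/-- The inclusion `F̄_N → F̄_M`. -/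
def s18d_incl {N M : ℕ} [NeZero N] [NeZero M] (h : N ∣ M) : FunField N →ₐ[QBar] FunField M :=
  IntermediateField.inclusion (s18d_le h)

theorem s18d_coe_incl {N M : ℕ} [NeZero N] [NeZero M] (h : N ∣ M) (y : FunField N) :
    ((s18d_incl h y : FunField M) : LaurentSeries QBar) = (y : LaurentSeries QBar) :=
  IntermediateField.coe_inclusion (s18d_le h) y

theorem s18d_incl_jDiv {N M : ℕ} [NeZero N] [NeZero M] (h : N ∣ M) (d : ℕ) [NeZero d]
    (hd : d ∣ N) : s18d_incl h (jDiv N d hd) = jDiv M d (hd.trans h) :=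
  Subtype.ext (s18d_coe_incl h _)

/-! ### Coefficients of `j (d z)` -/

theorem s18d_jLaurent_coeff (d : ℕ) [NeZero d] (n : ℤ) (hn : ¬ (d : ℤ) ∣ n) :
    (jLaurent d).coeff n = 0 := by
  rw [jLaurent, ModularCurve.coeffEmb_coeff, ModularCurve.qExpand_coeff_of_not_dvd d _ hn,
    map_zero]

theorem s18d_order_jLaurent_one : (jLaurent 1).order = -1 := by
  have h1 : (jLaurent 1).coeff (-1) = 1 := by
    rw [jLaurent, ModularCurve.coeffEmb_coeff, ModularCurve.qExpand_one_apply,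
      ModularCurve.coeff_jq_neg_one, map_one]
  have h2 : ∀ k : ℤ, k < -1 → (jLaurent 1).coeff k = 0 := by
    intro k hk
    rw [jLaurent, ModularCurve.coeffEmb_coeff, ModularCurve.qExpand_one_apply,
      ModularCurve.coeff_jq_of_lt hk, map_zero]
  have h0 : jLaurent 1 ≠ 0 := by
    intro h
    rw [h, HahnSeries.coeff_zero] at h1
    exact zero_ne_one h1
  apply le_antisymm
  · exact HahnSeries.order_le_of_coeff_ne_zero (by rw [h1]; exact one_ne_zero)
  · by_contra hlt
    exact h0 (HahnSeries.coeff_order_eq_zero.1 (h2 _ (not_le.1 hlt)))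

theorem s18d_order_inv (x : LaurentSeries QBar) (hx : x ≠ 0) : (x⁻¹).order = -x.order := by
  have h := HahnSeries.order_mul hx (inv_ne_zero hx)
  rw [mul_inv_cancel₀ hx, HahnSeries.order_one] at h
  linarith

/-! ### The field fixed by `q ↦ ζ q` under the expansion at `0` -/

/-- The elements of `F̄_M` whose expansion at the cusp `0` is fixed by `q ↦ ζ q`. -/
def s18d_L (M : ℕ) [NeZero M] (ζ : QBarˣ) : IntermediateField QBar (FunField M) :=
  Subfield.toIntermediateField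
    (RingHom.eqLocusField ((s18d_tau ζ).comp (s18d_phi M)) (s18d_phi M)) (fun c => by
      show s18d_tau ζ (s18d_phi M (algebraMap QBar (FunField M) c)) =
        s18d_phi M (algebraMap QBar (FunField M) c)
      rw [s18d_phi_algebraMap, s18d_tau_C])

theorem s18d_mem_L (M : ℕ) [NeZero M] (ζ : QBarˣ) (y : FunField M) :
    y ∈ s18d_L M ζ ↔ s18d_tau ζ (s18d_phi M y) = s18d_phi M y := Iff.rfl

theorem s18d_jDiv_mem_L {N M e : ℕ} [NeZero N] [NeZero M] (hNe : N * e = M) (ζ : QBarˣ)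
    (hζ : ζ ^ e = 1) (d : ℕ) [NeZero d] (hd : d ∣ N) :
    jDiv M d (hd.trans ⟨e, hNe.symm⟩) ∈ s18d_L M ζ := by
  obtain ⟨c, hc⟩ := hd
  have hc0 : c ≠ 0 := by
    rintro rfl
    rw [mul_zero] at hc
    exact NeZero.ne N hc
  have he0 : e ≠ 0 := by
    rintro rfl
    rw [mul_zero] at hNe
    exact NeZero.ne M hNe.symm
  have : NeZero (c * e) := ⟨Nat.mul_ne_zero hc0 he0⟩
  have hM : d * (c * e) = M := by rw [← hNe, hc, mul_assoc]
  rw [s18d_mem_L, s18d_phi_jDiv M d (c * e) _ hM]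
  refine s18d_tau_eq_self_of_support ζ e hζ _ fun n hn => ?_
  refine s18d_jLaurent_coeff (c * e) n fun h => hn ?_
  refine dvd_trans ?_ h
  push_cast
  exact Dvd.intro_left _ rfl

theorem s18d_incl_ringA_mem_L {N M e : ℕ} [NeZero N] [NeZero M] (hNe : N * e = M)
    (ζ : QBarˣ) (hζ : ζ ^ e = 1) (x : FunField N) (hx : x ∈ ringA N) :
    s18d_incl ⟨e, hNe.symm⟩ x ∈ s18d_L M ζ := by
  induction hx using Algebra.adjoin_induction with
  | mem x hx =>
    obtain ⟨d, hne, hd, rfl⟩ := hx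
    have := hne
    rw [s18d_incl_jDiv]
    exact s18d_jDiv_mem_L hNe ζ hζ d hd
  | algebraMap c =>
    rw [AlgHom.commutes]
    exact (s18d_L M ζ).algebraMap_mem c
  | add x y _ _ hx hy =>
    rw [map_add]
    exact add_mem hx hy
  | mul x y _ _ hx hy =>
    rw [map_mul]
    exact mul_mem hx hy

theorem s18d_incl_mem_L {N M e : ℕ} [NeZero N] [NeZero M] (hNe : N * e = M)
    (ζ : QBarˣ) (hζ : ζ ^ e = 1) (y : FunField N) :
    s18d_incl ⟨e, hNe.symm⟩ y ∈ s18d_L M ζ := by
  obtain ⟨a, b, -, h⟩ := fracA_exists_div N y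
  rw [h, map_div₀]
  exact div_mem (s18d_incl_ringA_mem_L hNe ζ hζ a a.2) (s18d_incl_ringA_mem_L hNe ζ hζ b b.2)

theorem s18d_range_le_L {N M e : ℕ} [NeZero N] [NeZero M] (hNe : N * e = M)
    (ζ : QBarˣ) (hζ : ζ ^ e = 1) :
    (s18d_incl (N := N) (M := M) ⟨e, hNe.symm⟩).fieldRange ≤ s18d_L M ζ := by
  rintro x ⟨y, rfl⟩
  exact s18d_incl_mem_L hNe ζ hζ y

/-! ### Degrees -/

theorem s18d_finite_L (M : ℕ) [NeZero M] (ζ : QBarˣ)
    (hJ : QBar⟮jF M⟯ ≤ s18d_L M ζ) : Module.Finite (s18d_L M ζ) (FunField M) := by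
  let _i : SMul QBar⟮jF M⟯ (s18d_L M ζ) := ⟨fun a b => ⟨a.1 * b.1, mul_mem (hJ a.2) b.2⟩⟩
  have hst : IsScalarTower QBar⟮jF M⟯ (s18d_L M ζ) (FunField M) :=
    ⟨fun a b x => mul_assoc a.1 b.1 x⟩
  have hfin : Module.Finite QBar⟮jF M⟯ (FunField M) := (final_jCoordinate M).finite
  exact Module.Finite.of_restrictScalars_finite QBar⟮jF M⟯ (s18d_L M ζ) (FunField M)

theorem s18d_le_finrank_L (M e : ℕ) [NeZero M] (ζ : QBarˣ) (hζ : IsPrimitiveRoot ζ e)
    (hJ : QBar⟮jF M⟯ ≤ s18d_L M ζ) :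
    e ≤ Module.finrank (s18d_L M ζ) (FunField M) := by
  have := s18d_finite_L M ζ hJ
  have ht : (s18d_phi M (jDiv M M dvd_rfl)⁻¹).order = 1 := by
    rw [map_inv₀, s18d_phi_jDiv M M 1 dvd_rfl (mul_one M), s18d_order_inv _ (by
      intro h
      have := s18d_order_jLaurent_one
      rw [h, HahnSeries.order_zero] at this
      omega), s18d_order_jLaurent_one]
    norm_num
  have hli := s18d_linearIndependent (S := s18d_L M ζ) (s18d_phi M) ζ e hζ
    (fun y => y.2) (jDiv M M dvd_rfl)⁻¹ ht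
  have := hli.fintype_card_le_finrank
  simpa using this

theorem s18d_exists_primitiveRoot (e : ℕ) (he : e ≠ 0) :
    ∃ ζ : QBarˣ, IsPrimitiveRoot ζ e := by
  have : NeZero ((e : ℕ) : QBar) := ⟨Nat.cast_ne_zero.2 he⟩
  obtain ⟨z, hz⟩ := IsAlgClosed.exists_root (Polynomial.cyclotomic e QBar)
    (by
      rw [Polynomial.degree_cyclotomic]
      exact_mod_cast (Nat.totient_pos.2 (Nat.pos_of_ne_zero he)).ne')
  have hz' : IsPrimitiveRoot z e := Polynomial.isRoot_cyclotomic_iff.1 hz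
  have hu : IsUnit z := hz'.isUnit he
  obtain ⟨ζ, rfl⟩ := hu
  exact ⟨ζ, IsPrimitiveRoot.coe_units_iff.1 hz'⟩

/-! ### Restriction of places -/

/-- **Restriction of an order function** along a field embedding `ψ : F → E` over `K`: if
`w : E → ℤ` is an order function on `E` trivial on `K`, then for every `u ∈ F` all of whose
orders at the places of `F / K` are divisible by `m`, `m ∣ w (ψ u)`; more precisely
`w ∘ ψ = e' • ord_Q` for a place `Q` of `F` and `e' > 0`, or `w ∘ ψ = 0`. -/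
theorem s18d_restrict {K F E : Type*} [Field K] [Field F] [Field E] [Algebra K F]
    [Algebra K E] (ψ : F →+* E) (hψK : ∀ c : K, ψ (algebraMap K F c) = algebraMap K E c)
    (w : E → ℤ)
    (hmul : ∀ f g : E, f ≠ 0 → g ≠ 0 → w (f * g) = w f + w g)
    (hadd : ∀ f g : E, f ≠ 0 → g ≠ 0 → f + g ≠ 0 → min (w f) (w g) ≤ w (f + g))
    (hK : ∀ c : K, c ≠ 0 → w (algebraMap K E c) = 0) :
    (∀ f : F, f ≠ 0 → w (ψ f) = 0) ∨
      ∃ (Q : Place K F) (e' : ℕ), 0 < e' ∧ (∀ f : F, f ≠ 0 → w (ψ f) = (e' : ℤ) * Q.ord f) ∧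
        ∃ π : F, π ≠ 0 ∧ w (ψ π) = (e' : ℤ) := by
  by_cases htriv : ∀ f : F, f ≠ 0 → w (ψ f) = 0
  · exact Or.inl htriv
  · right
    have hne : ∃ f : F, f ≠ 0 ∧ w (ψ f) ≠ 0 := by
      by_contra hcon
      apply htriv
      intro f hf
      by_contra h
      exact hcon ⟨f, hf, h⟩
    have hinj : ∀ f : F, f ≠ 0 → ψ f ≠ 0 := fun f hf => (map_ne_zero ψ).2 hf
    obtain ⟨Q, e', he', hQ⟩ := val_exists_place (K := K) (fun f : F => w (ψ f))
      (fun f g hf hg => by
        show w (ψ (f * g)) = w (ψ f) + w (ψ g)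
        rw [map_mul]
        exact hmul _ _ (hinj f hf) (hinj g hg))
      (fun f g hf hg hfg => by
        show min (w (ψ f)) (w (ψ g)) ≤ w (ψ (f + g))
        rw [map_add]
        exact hadd _ _ (hinj f hf) (hinj g hg) (by rw [← map_add]; exact hinj _ hfg))
      (fun c hc => by
        show w (ψ (algebraMap K F c)) = 0
        rw [hψK]
        exact hK c hc)
      hne
    refine ⟨Q, e', he', hQ, ?_⟩
    obtain ⟨π, hπ⟩ := place_exists_irreducible Q
    have hπ0 : (π : F) ≠ 0 := by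
      intro h
      exact hπ.ne_zero (Subtype.ext h)
    refine ⟨π, hπ0, ?_⟩
    rw [hQ _ hπ0, Q.ord_coe_irreducible hπ, mul_one]

/-- Restriction of a place of `E` to a subfield `F`, in terms of `Place.ord`. -/
theorem s18d_restrict_place {K F E : Type*} [Field K] [Field F] [Field E] [Algebra K F]
    [Algebra K E] (ψ : F →ₐ[K] E) (P : Place K E) :
    (∀ f : F, P.ord (ψ f) = 0) ∨
      ∃ (Q : Place K F) (e' : ℕ), 0 < e' ∧ ∀ f : F, P.ord (ψ f) = (e' : ℤ) * Q.ord f := by
  rcases s18d_restrict (K := K) (ψ : F →+* E) (fun c => ψ.commutes c) P.ord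
    (fun f g hf hg => P.ord_mul hf hg)
    (fun f g hf hg hfg => place_ord_add_ge P hf hg hfg)
    (fun c _ => place_ord_algebraMap P c) with h | ⟨Q, e', he', hQ, -⟩
  · left
    intro f
    rcases eq_or_ne f 0 with rfl | hf
    · rw [map_zero, Place.ord_zero]
    · exact h f hf
  · right
    refine ⟨Q, e', he', fun f => ?_⟩
    rcases eq_or_ne f 0 with rfl | hf
    · rw [map_zero, Place.ord_zero, Place.ord_zero, mul_zero]
    · exact hQ f hf

/-! ### The core -/

theorem s18d_order_expansion {N M e : ℕ} [NeZero N] [NeZero M] (hNe : N * e = M)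
    (ζ : QBarˣ) (hζ : IsPrimitiveRoot ζ e) (m : ℕ) (u : FunField N) (hu0 : u ≠ 0)
    (hord : ∀ Q : Place QBar (FunField N), (m : ℤ) ∣ Q.ord u) :
    ((e : ℤ) * (m : ℤ)) ∣ (s18d_phi M (s18d_incl ⟨e, hNe.symm⟩ u)).order := by
  have hζe : ζ ^ e = 1 := hζ.pow_eq_one
  have hC : ∀ c : QBar, algebraMap QBar (LaurentSeries QBar) c = HahnSeries.C c := by
    intro c
    rw [ModularCurve.algebraMap_laurentSeries_eq_single]
    rfl
  rcases s18d_restrict (K := QBar)
    ((s18d_phi M).comp ((s18d_incl (N := N) (M := M) ⟨e, hNe.symm⟩ : FunField N →ₐ[QBar]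
      FunField M) : FunField N →+* FunField M))
    (fun c => by
      show s18d_phi M (s18d_incl ⟨e, hNe.symm⟩ (algebraMap QBar (FunField N) c)) = _
      rw [AlgHom.commutes, s18d_phi_algebraMap, hC])
    (fun x : LaurentSeries QBar => x.order)
    (fun f g hf hg => HahnSeries.order_mul hf hg)
    (fun f g _ _ hfg => HahnSeries.min_order_le_order_add hfg)
    (fun c hc => by
      show (algebraMap QBar (LaurentSeries QBar) c).order = 0
      rw [hC, HahnSeries.order_C]) with h | ⟨Q, e', -, hQ, π, hπ0, hπ⟩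
  · have h1 := h u hu0
    have h2 : (s18d_phi M (s18d_incl ⟨e, hNe.symm⟩ u)).order = 0 := h1
    rw [h2]
    exact dvd_zero _
  · have h1 : (s18d_phi M (s18d_incl ⟨e, hNe.symm⟩ u)).order = (e' : ℤ) * Q.ord u := hQ u hu0
    have h2 : (s18d_phi M (s18d_incl ⟨e, hNe.symm⟩ π)).order = (e' : ℤ) := hπ
    have h3 : (e : ℤ) ∣ (e' : ℤ) := by
      rw [← h2]
      refine s18d_dvd_order_of_fixed ζ e hζ _ ?_ ?_
      · exact (map_ne_zero _).2 ((map_ne_zero _).2 hπ0)
      · exact s18d_incl_mem_L hNe ζ hζe π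
    rw [h1]
    exact mul_dvd_mul h3 (hord Q)

/-- **[DOWN], core.**  Let `N e = M` with `ψ(M) < 2 e ψ(N)`.  If `v ∈ F̄_M`, `v ^ m = u ∈ F̄_N`
(`m ≠ 0`) and `m ∣ ord_Q u` at every place `Q` of `F̄_N`, then `v ∈ F̄_N`. -/
theorem s18d_core {N M e : ℕ} [NeZero N] [NeZero M] (hNe : N * e = M)
    (hnum : ModularCurve.dedekindPsi M < 2 * e * ModularCurve.dedekindPsi N)
    (m : ℕ) (hm : m ≠ 0) (v : FunField M) (u : FunField N)
    (huv : v ^ m = s18d_incl ⟨e, hNe.symm⟩ u)
    (hord : ∀ Q : Place QBar (FunField N), (m : ℤ) ∣ Q.ord u) :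
    ∃ y : FunField N, s18d_incl ⟨e, hNe.symm⟩ y = v := by
  have he0 : e ≠ 0 := by
    rintro rfl
    rw [mul_zero] at hNe
    exact NeZero.ne M hNe.symm
  obtain ⟨ζ, hζ⟩ := s18d_exists_primitiveRoot e he0
  have hζe : ζ ^ e = 1 := hζ.pow_eq_one
  rcases eq_or_ne v 0 with rfl | hv0
  · exact ⟨0, map_zero _⟩
  have hu0 : u ≠ 0 := by
    rintro rfl
    rw [map_zero] at huv
    exact hv0 (pow_eq_zero_iff hm |>.1 huv)
  -- the order of the expansion of `v` at `0` is divisible by `e`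
  have hdiv := s18d_order_expansion hNe ζ hζ m u hu0 hord
  rw [← huv, map_pow, HahnSeries.order_pow, nsmul_eq_mul] at hdiv
  have hm0 : (m : ℤ) ≠ 0 := by exact_mod_cast hm
  have hdvd : (e : ℤ) ∣ (s18d_phi M v).order := by
    rw [mul_comm (e : ℤ) (m : ℤ)] at hdiv
    exact (mul_dvd_mul_iff_left hm0).1 hdiv
  -- hence `v` lies in the fixed field
  have hvL : v ∈ s18d_L M ζ := by
    rw [s18d_mem_L]
    refine s18d_fixed_of_pow_fixed ζ e hζe m hm _ hdvd ?_
    rw [← map_pow, huv]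
    exact s18d_incl_mem_L hNe ζ hζe u
  -- degrees
  have hBL := s18d_range_le_L (N := N) hNe ζ hζe
  have hjF : s18d_incl (N := N) (M := M) ⟨e, hNe.symm⟩ (jF N) = jF M :=
    s18d_incl_jDiv _ 1 (one_dvd N)
  have hJB : QBar⟮jF M⟯ ≤ (s18d_incl (N := N) (M := M) ⟨e, hNe.symm⟩).fieldRange := by
    rw [IntermediateField.adjoin_simple_le_iff]
    exact ⟨jF N, hjF⟩
  have h1 : (QBar⟮jF M⟯).relfinrank (⊤ : IntermediateField QBar (FunField M)) =
      ModularCurve.dedekindPsi M := by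
    rw [IntermediateField.relfinrank_top_right, s18d_finrank]
  have h2 : (QBar⟮jF M⟯).relfinrank
      (s18d_incl (N := N) (M := M) ⟨e, hNe.symm⟩).fieldRange = ModularCurve.dedekindPsi N := by
    have hJ' : (QBar⟮jF N⟯).map (s18d_incl (N := N) (M := M) ⟨e, hNe.symm⟩) = QBar⟮jF M⟯ := by
      rw [IntermediateField.adjoin_map, Set.image_singleton, hjF]
    rw [← hJ', AlgHom.fieldRange_eq_map, IntermediateField.relfinrank_map_map,
      IntermediateField.relfinrank_top_right, s18d_finrank]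
  have h3 := IntermediateField.relfinrank_mul_relfinrank hJB le_top
  have h4 := IntermediateField.relfinrank_mul_relfinrank hBL le_top
  have h5 : e ≤ (s18d_L M ζ).relfinrank (⊤ : IntermediateField QBar (FunField M)) := by
    rw [IntermediateField.relfinrank_top_right]
    exact s18d_le_finrank_L M e ζ hζ (hJB.trans hBL)
  rw [h1, h2] at h3
  rw [← h4] at h3
  have hψN := s18d_psi_pos N
  have hψM := s18d_psi_pos M
  set r := (s18d_incl (N := N) (M := M) ⟨e, hNe.symm⟩).fieldRange.relfinrank (s18d_L M ζ)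
    with hr
  set s := (s18d_L M ζ).relfinrank (⊤ : IntermediateField QBar (FunField M)) with hs
  have hr1 : r = 1 := by
    have hr0 : r ≠ 0 := by
      rintro h0
      rw [h0, zero_mul, mul_zero] at h3
      omega
    by_contra hne
    have hr2 : 2 ≤ r := by omega
    have h6 : 2 * e ≤ r * s := Nat.mul_le_mul hr2 h5
    have h7 : 2 * e * ModularCurve.dedekindPsi N ≤
        ModularCurve.dedekindPsi N * (r * s) := by
      rw [mul_comm (ModularCurve.dedekindPsi N)]
      exact Nat.mul_le_mul_right _ h6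
    omega
  have hLB := IntermediateField.relfinrank_eq_one_iff.1 hr1
  obtain ⟨y, hy⟩ := hLB hvL
  exact ⟨y, hy⟩

end Fermat.Agent.S18
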