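/-
S18 package (P3) [DOWN]: `s18d_main : s18_DownStatement`.
Owner: helper22.  Prefix `s18d_`.

(STAR) at the auxiliary level `M = lcm(N, 4)` resp. `lcm(N, 9)` implies (STAR) at level `N`:
the `m`-th root found in `F̄_M` lies in `F̄_N` (`s18d_core`: the expansion at the cusp `0` is
ramified of index `M / N > ψ(M) / (2 ψ(N))` over `F̄_N`).
-/
import Mathlib
import Fermat.Agent.S18.Defs
import Fermat.Agent.S18.DownCore

set_option autoImplicit false

noncomputable section

namespace Fermat.Agent.S18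

open Fermat.Agent.S24 AlgebraicCurve ModularCurve

/-- (STAR) descends along `N ∣ M` whenever `ψ(M) < 2 (M / N) ψ(N)`. -/
theorem s18d_star_of_core {N M e : ℕ} [NeZero N] [NeZero M] (hNe : N * e = M)
    (hnum : ModularCurve.dedekindPsi M < 2 * e * ModularCurve.dedekindPsi N)
    (A : ValuationSubring (AlgebraicClosure ℚ)) (m : ℕ) (hm : m ≠ 0)
    (h : s18_Star A M m) : s18_Star A N m := by
  intro a b ha hb hred hb0 hP
  have hle := s18d_le (N := N) (M := M) ⟨e, hNe.symm⟩
  have hbne : coeffMap A.subtype b ≠ 0 := by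
    intro hb'
    apply hb0
    have hbz : b = 0 := by
      ext k
      have h1 := congrArg (fun x : LaurentSeries (AlgebraicClosure ℚ) => x.coeff k) hb'
      simp only [coeffMap_coeff, HahnSeries.coeff_zero] at h1
      rw [HahnSeries.coeff_zero]
      exact h1
    rw [hbz, map_zero]
  have hbN0 : (⟨coeffMap A.subtype b, hb⟩ : modularFunctionFieldBar N) ≠ 0 := by
    intro h0
    exact hbne (congrArg Subtype.val h0)
  have hbM0 : (⟨coeffMap A.subtype b, hle hb⟩ : modularFunctionFieldBar M) ≠ 0 := by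
    intro h0
    exact hbne (congrArg Subtype.val h0)
  have hia : s18d_incl (N := N) (M := M) ⟨e, hNe.symm⟩ ⟨coeffMap A.subtype a, ha⟩ =
      ⟨coeffMap A.subtype a, hle ha⟩ := Subtype.ext (s18d_coe_incl _ _)
  have hib : s18d_incl (N := N) (M := M) ⟨e, hNe.symm⟩ ⟨coeffMap A.subtype b, hb⟩ =
      ⟨coeffMap A.subtype b, hle hb⟩ := Subtype.ext (s18d_coe_incl _ _)
  have hiu : s18d_incl (N := N) (M := M) ⟨e, hNe.symm⟩
      ((⟨coeffMap A.subtype a, ha⟩ : modularFunctionFieldBar N) /
        (⟨coeffMap A.subtype b, hb⟩ : modularFunctionFieldBar N)) =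
      (⟨coeffMap A.subtype a, hle ha⟩ : modularFunctionFieldBar M) /
        (⟨coeffMap A.subtype b, hle hb⟩ : modularFunctionFieldBar M) := by
    rw [map_div₀, hia, hib]
  obtain ⟨v, hv⟩ := h a b (hle ha) (hle hb) hred hb0 (fun P' => by
    rw [← hiu]
    rcases s18d_restrict_place (s18d_incl (N := N) (M := M) ⟨e, hNe.symm⟩) P' with
      h0 | ⟨Q, e', -, hQ⟩
    · rw [h0]
      exact dvd_zero _
    · rw [hQ]
      exact Dvd.dvd.mul_left (hP Q) _)
  have huv : v ^ m = s18d_incl (N := N) (M := M) ⟨e, hNe.symm⟩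
      ((⟨coeffMap A.subtype a, ha⟩ : modularFunctionFieldBar N) /
        (⟨coeffMap A.subtype b, hb⟩ : modularFunctionFieldBar N)) := by
    rw [hiu, eq_div_iff hbM0]
    exact hv
  obtain ⟨y, hy⟩ := s18d_core hNe hnum m hm v _ huv hP
  refine ⟨y, ?_⟩
  have hinj : Function.Injective
      (s18d_incl (N := N) (M := M) ⟨e, hNe.symm⟩ : FunField N → FunField M) :=
    (s18d_incl (N := N) (M := M) ⟨e, hNe.symm⟩).toRingHom.injective
  apply hinj
  rw [map_mul, map_pow, hy, hia, hib]
  exact hv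

/-- **[DOWN]** (STAR) descends from the auxiliary level to level `N`. -/
theorem s18d_main : s18_DownStatement := by
  intro N _ ℓ _ hℓN A hA m hm hStar
  have hm0 : m ≠ 0 := by
    rintro rfl
    exact hm (dvd_zero ℓ)
  have key : ∀ p : ℕ, p.Prime → s18_Star A (Nat.lcm N (p ^ 2)) m → s18_Star A N m := by
    intro p hp hS
    by_cases hpN : p ^ 2 ∣ N
    · have hl : Nat.lcm N (p ^ 2) = N :=
        Nat.dvd_antisymm (Nat.lcm_dvd dvd_rfl hpN) (Nat.dvd_lcm_left _ _)
      rw [hl] at hS
      exact hS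
    · have hne : NeZero (Nat.lcm N (p ^ 2)) :=
        ⟨Nat.lcm_ne_zero (NeZero.ne N) (pow_ne_zero 2 hp.ne_zero)⟩
      have hNe : N * (Nat.lcm N (p ^ 2) / N) = Nat.lcm N (p ^ 2) :=
        Nat.mul_div_cancel' (Nat.dvd_lcm_left _ _)
      exact s18d_star_of_core hNe (s18d_psi_lt N p hp hpN) A m hm0 hS
  unfold s18_level at hStar
  split_ifs at hStar with h2
  · exact key 3 Nat.prime_three (by
      rw [show (3 : ℕ) ^ 2 = 9 by norm_num]
      exact hStar)
  · exact key 2 Nat.prime_two (by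
      rw [show (2 : ℕ) ^ 2 = 4 by norm_num]
      exact hStar)

end Fermat.Agent.S18
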