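/-
S18 package (A5) [FIN] (helper7).  Prefix `s18fin_`.

`H⁰(n) = {f ∈ B : j⁻ⁿ f ∈ B'}` is a finitely generated `O`-module.

ROUTE (trace form).  `A = O[j]`, `A' = O[1/j]`, `L = K⟮j⟯`, `F / L` finite separable.
* `A ≅ O[X]` is integrally closed with field of fractions `L`; hence the trace of an element of
  `F` integral over `A` lies in `A` (`s18fin_trace_mem`), for both `t = j` and `t = j⁻¹`.
* `O[j] ∩ j^M O[1/j]` consists of the polynomials of degree `≤ M` (`s18fin_deg`).
* `f = ∑ Tr(f bᵢ) bᵢ*` for an integral basis `bᵢ` with dual basis `bᵢ*`.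
-/
import Mathlib
import Fermat.Agent.S18.LiftDefs

set_option autoImplicit false
set_option linter.unusedSectionVars false
set_option linter.style.haveILetI false

open AlgebraicCurve IntermediateField Polynomial
open scoped TensorProduct

noncomputable section

namespace Fermat.Agent.S18

section General

variable {O K F : Type} [CommRing O] [IsDomain O] [Field K] [Algebra O K] [IsFractionRing O K]
  [Field F] [Algebra K F] [Algebra O F] [IsScalarTower O K F]

/-- `t` is transcendental over `O`. -/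
theorem s18fin_transc_O {t : F} (ht : Transcendental K t) : Transcendental O t :=
  ht.restrictScalars (IsFractionRing.injective O K)

/-- The elements of `O[t]` are the values of polynomials. -/
theorem s18fin_mem_adjoin {t x : F} :
    x ∈ Algebra.adjoin O ({t} : Set F) ↔ ∃ p : O[X], aeval t p = x := by
  rw [Algebra.adjoin_singleton_eq_range_aeval]
  exact Iff.rfl

/-- `O[t] ⊆ L` as soon as `t ∈ L`. -/
theorem s18fin_adjoin_le {t : F} (L : IntermediateField K F) (ht : t ∈ L) {x : F}
    (hx : x ∈ Algebra.adjoin O ({t} : Set F)) : x ∈ L := by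
  have h : Algebra.adjoin O ({t} : Set F) ≤ L.toSubalgebra.restrictScalars O :=
    Algebra.adjoin_le (by intro y hy; rw [Set.mem_singleton_iff] at hy; subst hy; exact ht)
  exact h hx

/-- The inclusion `O[t] → L`. -/
def s18fin_incl {t : F} (L : IntermediateField K F) (ht : t ∈ L) :
    ↥(Algebra.adjoin O ({t} : Set F)) →+* ↥L :=
  ((Algebra.adjoin O ({t} : Set F)).val : ↥(Algebra.adjoin O ({t} : Set F)) →+* F).codRestrict L
    (fun x => s18fin_adjoin_le L ht x.2)

theorem s18fin_incl_coe {t : F} (L : IntermediateField K F) (ht : t ∈ L)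
    (x : ↥(Algebra.adjoin O ({t} : Set F))) : ((s18fin_incl L ht x : ↥L) : F) = (x : F) := rfl

theorem s18fin_incl_injective {t : F} (L : IntermediateField K F) (ht : t ∈ L) :
    Function.Injective (s18fin_incl (O := O) L ht) := by
  intro x y h
  apply Subtype.ext
  have := congrArg (fun z : ↥L => (z : F)) h
  simpa [s18fin_incl_coe] using this

/-- `O[t] ≅ O[X]` is integrally closed. -/
theorem s18fin_isIntegrallyClosed [UniqueFactorizationMonoid O] {t : F}
    (ht : Transcendental K t) : IsIntegrallyClosed ↥(Algebra.adjoin O ({t} : Set F)) := by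
  have hinj : Function.Injective (aeval (R := O) t) :=
    transcendental_iff_injective.mp (s18fin_transc_O ht)
  let e₁ : O[X] ≃ₐ[O] ↥(aeval (R := O) t).range := AlgEquiv.ofInjective _ hinj
  let e₂ : ↥(aeval (R := O) t).range ≃ₐ[O] ↥(Algebra.adjoin O ({t} : Set F)) :=
    Subalgebra.equivOfEq _ _ (Algebra.adjoin_singleton_eq_range_aeval O t).symm
  exact IsIntegrallyClosed.of_equiv (e₁.trans e₂).toRingEquiv

/-- every element of `K⟮t⟯` is a quotient of two elements of `O[t]`. -/
theorem s18fin_frac {t : F} {z : F} (hz : z ∈ K⟮t⟯) :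
    ∃ x y : ↥(Algebra.adjoin O ({t} : Set F)), z = (x : F) / (y : F) := by
  obtain ⟨r, s, rfl⟩ := (IntermediateField.mem_adjoin_simple_iff K z).mp hz
  obtain ⟨b, hb, hbr⟩ := IsLocalization.integerNormalization_spec (nonZeroDivisors O) r
  obtain ⟨c, hc, hcs⟩ := IsLocalization.integerNormalization_spec (nonZeroDivisors O) s
  set r' := IsLocalization.integerNormalization (nonZeroDivisors O) r
  set s' := IsLocalization.integerNormalization (nonZeroDivisors O) s
  have hb0 : (algebraMap O F b) ≠ 0 := by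
    rw [IsScalarTower.algebraMap_apply O K F]
    exact (map_ne_zero_iff _ (algebraMap K F).injective).mpr
      ((map_ne_zero_iff _ (IsFractionRing.injective O K)).mpr (nonZeroDivisors.ne_zero hb))
  have hc0 : (algebraMap O F c) ≠ 0 := by
    rw [IsScalarTower.algebraMap_apply O K F]
    exact (map_ne_zero_iff _ (algebraMap K F).injective).mpr
      ((map_ne_zero_iff _ (IsFractionRing.injective O K)).mpr (nonZeroDivisors.ne_zero hc))
  have key : ∀ (a : O) (p : K[X]), aeval t (a • p) = algebraMap O F a * aeval t p := by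
    intro a p
    have : (a • p : K[X]) = Polynomial.C (algebraMap O K a) * p := by
      rw [← Polynomial.smul_eq_C_mul, algebraMap_smul]
    rw [this, map_mul, Polynomial.aeval_C, ← IsScalarTower.algebraMap_apply O K F]
  have hR : aeval t r' = algebraMap O F b * aeval t r := by
    rw [← Polynomial.aeval_map_algebraMap K t r', hbr, key]
  have hS : aeval t s' = algebraMap O F c * aeval t s := by
    rw [← Polynomial.aeval_map_algebraMap K t s', hcs, key]
  refine ⟨⟨algebraMap O F c * aeval t r', ?_⟩, ⟨algebraMap O F b * aeval t s', ?_⟩, ?_⟩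
  · exact Subalgebra.mul_mem _ (Subalgebra.algebraMap_mem _ _)
      (s18fin_mem_adjoin.mpr ⟨r', rfl⟩)
  · exact Subalgebra.mul_mem _ (Subalgebra.algebraMap_mem _ _)
      (s18fin_mem_adjoin.mpr ⟨s', rfl⟩)
  · show _ = (algebraMap O F c * aeval t r') / (algebraMap O F b * aeval t s')
    rw [hR, hS]
    field_simp

/-- **The trace of an element of `F` integral over `O[t]` lies in `O[t]`** (`t` transcendental,
`L = K⟮t⟯`, `F / L` finite). -/
theorem s18fin_trace_mem [UniqueFactorizationMonoid O] {t : F} (ht : Transcendental K t)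
    (L : IntermediateField K F) (hL : L = K⟮t⟯) [FiniteDimensional ↥L F] {y : F}
    (hy : IsIntegral ↥(Algebra.adjoin O ({t} : Set F)) y) :
    ((Algebra.trace ↥L F y : ↥L) : F) ∈ Algebra.adjoin O ({t} : Set F) := by
  have htL : t ∈ L := by rw [hL]; exact mem_adjoin_simple_self K t
  letI : Algebra ↥(Algebra.adjoin O ({t} : Set F)) ↥L := (s18fin_incl L htL).toAlgebra
  haveI : IsScalarTower ↥(Algebra.adjoin O ({t} : Set F)) ↥L F :=
    IsScalarTower.of_algebraMap_eq (fun x => rfl)
  haveI : FaithfulSMul ↥(Algebra.adjoin O ({t} : Set F)) ↥L :=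
    (faithfulSMul_iff_algebraMap_injective _ _).mpr (s18fin_incl_injective L htL)
  haveI : IsFractionRing ↥(Algebra.adjoin O ({t} : Set F)) ↥L := by
    refine IsFractionRing.of_field _ _ (fun z => ?_)
    obtain ⟨x, y, h⟩ := s18fin_frac (O := O) (t := t) (z := (z : F)) (by rw [← hL]; exact z.2)
    refine ⟨x, y, ?_⟩
    apply Subtype.ext
    rw [h]; rfl
  haveI := s18fin_isIntegrallyClosed (O := O) ht
  have h1 : IsIntegral ↥(Algebra.adjoin O ({t} : Set F)) (Algebra.trace ↥L F y) :=
    Algebra.isIntegral_trace hy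
  obtain ⟨a, ha⟩ := IsIntegrallyClosed.isIntegral_iff.mp h1
  rw [← ha]
  exact a.2

/-- `IsBasic.inter` for any transcendental `t`: an element of `K⟮t⟯` integral over `O[t]` lies in
`O[t]`. -/
theorem s18fin_inter' [UniqueFactorizationMonoid O] {t : F} (ht : Transcendental K t) {x : F}
    (hx : IsIntegral ↥(Algebra.adjoin O ({t} : Set F)) x) (hxL : x ∈ K⟮t⟯) :
    x ∈ Algebra.adjoin O ({t} : Set F) := by
  have htL : t ∈ K⟮t⟯ := mem_adjoin_simple_self K t
  letI : Algebra ↥(Algebra.adjoin O ({t} : Set F)) ↥K⟮t⟯ := (s18fin_incl K⟮t⟯ htL).toAlgebra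
  haveI : IsScalarTower ↥(Algebra.adjoin O ({t} : Set F)) ↥K⟮t⟯ F :=
    IsScalarTower.of_algebraMap_eq (fun x => rfl)
  haveI : FaithfulSMul ↥(Algebra.adjoin O ({t} : Set F)) ↥K⟮t⟯ :=
    (faithfulSMul_iff_algebraMap_injective _ _).mpr (s18fin_incl_injective K⟮t⟯ htL)
  haveI : IsFractionRing ↥(Algebra.adjoin O ({t} : Set F)) ↥K⟮t⟯ := by
    refine IsFractionRing.of_field _ _ (fun z => ?_)
    obtain ⟨x, y, h⟩ := s18fin_frac (O := O) (t := t) (z := (z : F)) z.2
    refine ⟨x, y, ?_⟩
    apply Subtype.ext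
    rw [h]; rfl
  haveI := s18fin_isIntegrallyClosed (O := O) ht
  have h1 : IsIntegral ↥(Algebra.adjoin O ({t} : Set F)) (⟨x, hxL⟩ : ↥K⟮t⟯) :=
    (isIntegral_algebraMap_iff (B := F) (algebraMap ↥K⟮t⟯ F).injective).mp hx
  obtain ⟨a, ha⟩ := IsIntegrallyClosed.isIntegral_iff.mp h1
  have : (a : F) = x := congrArg (fun z : ↥K⟮t⟯ => (z : F)) ha
  rw [← this]
  exact a.2

/-- reversal of a polynomial -/
theorem s18fin_rev {j : F} (hj : j ≠ 0) (q : O[X]) :
    ∃ f : O[X], f.natDegree ≤ q.natDegree ∧ aeval j f = j ^ q.natDegree * aeval j⁻¹ q := by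
  refine ⟨∑ k ∈ Finset.range (q.natDegree + 1), C (q.coeff k) * X ^ (q.natDegree - k), ?_, ?_⟩
  · refine Polynomial.natDegree_sum_le_of_forall_le _ _ (fun k _ => ?_)
    exact (Polynomial.natDegree_C_mul_X_pow_le _ _).trans (Nat.sub_le _ _)
  · rw [map_sum, Polynomial.aeval_eq_sum_range, Finset.mul_sum]
    refine Finset.sum_congr rfl (fun k hk => ?_)
    have hk' : k ≤ q.natDegree := Nat.lt_succ_iff.mp (Finset.mem_range.mp hk)
    rw [map_mul, Polynomial.aeval_C, map_pow, Polynomial.aeval_X, Algebra.smul_def]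
    have : j ^ q.natDegree = j ^ (q.natDegree - k) * j ^ k := by
      rw [← pow_add, Nat.sub_add_cancel hk']
    rw [this, inv_pow]
    field_simp

/-- `O[j] ∩ j^M O[1/j]` consists of the polynomials in `j` of degree `≤ M`. -/
theorem s18fin_deg {j : F} (hj : Transcendental K j) {M : ℕ} {c : F}
    (hc : c ∈ Algebra.adjoin O ({j} : Set F))
    (hc' : j⁻¹ ^ M * c ∈ Algebra.adjoin O ({j⁻¹} : Set F)) :
    ∃ p : O[X], p.natDegree ≤ M ∧ aeval j p = c := by
  obtain ⟨p, rfl⟩ := s18fin_mem_adjoin.mp hc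
  obtain ⟨q, hq⟩ := s18fin_mem_adjoin.mp hc'
  have hj0 : j ≠ 0 := by
    rintro rfl
    exact hj ⟨X, X_ne_zero, by simp⟩
  refine ⟨p, ?_, rfl⟩
  obtain ⟨f, hf, hfq⟩ := s18fin_rev (O := O) hj0 q
  have hinj : Function.Injective (aeval (R := O) j) :=
    transcendental_iff_injective.mp (s18fin_transc_O hj)
  have h1 : aeval j (X ^ q.natDegree * p) = aeval j (X ^ M * f) := by
    rw [map_mul, map_mul, map_pow, map_pow, Polynomial.aeval_X, hfq, hq, inv_pow]
    field_simp
  have h2 := hinj h1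
  by_cases hp : p = 0
  · rw [hp]; simp
  · have h3 : (X ^ q.natDegree * p).natDegree = p.natDegree + q.natDegree :=
      Polynomial.natDegree_X_pow_mul _ hp
    have h4 : (X ^ M * f).natDegree ≤ M + f.natDegree := by
      refine Polynomial.natDegree_mul_le.trans ?_
      rw [Polynomial.natDegree_X_pow]
    rw [h2] at h3
    omega

/-- `j⁻¹` is transcendental. -/
theorem s18fin_transc_inv {j : F} (hj : Transcendental K j) : Transcendental K j⁻¹ := by
  intro h
  exact hj (by simpa using h.inv)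

/-- `K⟮j⟯ = K⟮j⁻¹⟯`. -/
theorem s18fin_adjoin_inv (j : F) : K⟮j⟯ = K⟮j⁻¹⟯ := by
  apply le_antisymm
  · rw [adjoin_simple_le_iff]
    have h : j⁻¹ ∈ K⟮j⁻¹⟯ := mem_adjoin_simple_self K j⁻¹
    simpa using inv_mem h
  · rw [adjoin_simple_le_iff]
    exact inv_mem (mem_adjoin_simple_self K j)

/-- A basis of `F / L` consisting of elements integral over `O[t]`. -/
theorem s18fin_basis {t : F} (L : IntermediateField K F) (hL : L = K⟮t⟯)
    [FiniteDimensional ↥L F] :
    ∃ (s : Finset F) (b : Module.Basis ↥s ↥L F),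
      ∀ x, IsIntegral ↥(Algebra.adjoin O ({t} : Set F)) (b x) := by
  have htL : t ∈ L := by rw [hL]; exact mem_adjoin_simple_self K t
  letI : Algebra ↥(Algebra.adjoin O ({t} : Set F)) ↥L := (s18fin_incl L htL).toAlgebra
  haveI : IsScalarTower ↥(Algebra.adjoin O ({t} : Set F)) ↥L F :=
    IsScalarTower.of_algebraMap_eq (fun x => rfl)
  haveI : FaithfulSMul ↥(Algebra.adjoin O ({t} : Set F)) ↥L :=
    (faithfulSMul_iff_algebraMap_injective _ _).mpr (s18fin_incl_injective L htL)
  haveI : IsFractionRing ↥(Algebra.adjoin O ({t} : Set F)) ↥L := by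
    refine IsFractionRing.of_field _ _ (fun z => ?_)
    obtain ⟨x, y, h⟩ := s18fin_frac (O := O) (t := t) (z := (z : F)) (by rw [← hL]; exact z.2)
    refine ⟨x, y, ?_⟩
    apply Subtype.ext
    rw [h]; rfl
  exact FiniteDimensional.exists_is_basis_integral ↥(Algebra.adjoin O ({t} : Set F)) ↥L F

end General

/-- **[FIN]** `H⁰(n)` is a finitely generated `O`-module. -/
theorem s18fin_main : s18_FinStatement := by
  intro O K F _ _ _ _ _ _ _ _ _ _ _ j hgood hb n
  classical
  have hj : Transcendental K j := hgood.transcendental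
  have hj' : Transcendental K j⁻¹ := s18fin_transc_inv hj
  haveI : FiniteDimensional ↥K⟮j⟯ F := hgood.finite
  obtain ⟨s, b, hbint⟩ := s18fin_basis (O := O) (t := j) K⟮j⟯ rfl
  -- the dual basis
  set b' := (Algebra.traceForm ↥K⟮j⟯ F).dualBasis (traceForm_nondegenerate ↥K⟮j⟯ F) b
    with hb'
  -- pole orders of the basis
  have hcov : ∀ i : ↥s, ∃ k : ℕ, j⁻¹ ^ k * b i ∈ s18_chart O ({j⁻¹} : Set F) :=
    fun i => hb.cover (b i) (hbint i)
  choose N hN using hcov
  -- the finite set of generators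
  let S : Finset F := (Finset.univ : Finset ↥s).biUnion
    (fun i => (Finset.range (n + N i + 1)).image (fun k => j ^ k * b' i))
  refine Submodule.FG.of_le (Submodule.fg_span (Finset.finite_toSet S)) ?_
  intro f hf
  obtain ⟨hf1, hf2⟩ := s18_mem_H0 (O := O).mp hf
  -- the traces
  have hT : ∀ i : ↥s, ∃ p : O[X], p.natDegree ≤ n + N i ∧
      aeval j p = ((Algebra.trace ↥K⟮j⟯ F (f * b i) : ↥K⟮j⟯) : F) := by
    intro i
    apply s18fin_deg hj
    · exact s18fin_trace_mem hj K⟮j⟯ rfl (IsIntegral.mul hf1 (hbint i))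
    · have hc : j⁻¹ ^ (n + N i) ∈ K⟮j⟯ :=
        pow_mem (inv_mem (mem_adjoin_simple_self K j)) _
      have h1 : (j⁻¹ ^ n * f) * (j⁻¹ ^ N i * b i) =
          (⟨j⁻¹ ^ (n + N i), hc⟩ : ↥K⟮j⟯) • (f * b i) := by
        rw [Algebra.smul_def]
        show _ = j⁻¹ ^ (n + N i) * (f * b i)
        rw [pow_add]; ring
      have h2 := s18fin_trace_mem (O := O) hj' K⟮j⟯ (s18fin_adjoin_inv j)
        (IsIntegral.mul hf2 (hN i))
      rw [h1, map_smul] at h2
      exact h2
  choose p hpdeg hp using hT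
  have hsum : f = ∑ i, (Algebra.trace ↥K⟮j⟯ F (f * b i)) • b' i := by
    conv_lhs => rw [← b'.sum_repr f]
    refine Finset.sum_congr rfl (fun i _ => ?_)
    rw [hb', LinearMap.BilinForm.dualBasis_repr_apply, Algebra.traceForm_apply]
  rw [hsum]
  refine Submodule.sum_mem _ (fun i _ => ?_)
  rw [Algebra.smul_def]
  show ((Algebra.trace ↥K⟮j⟯ F (f * b i) : ↥K⟮j⟯) : F) * b' i ∈ _
  rw [← hp i, Polynomial.aeval_eq_sum_range' (Nat.lt_succ_of_le (hpdeg i)), Finset.sum_mul]
  refine Submodule.sum_mem _ (fun k hk => ?_)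
  rw [smul_mul_assoc]
  refine Submodule.smul_mem _ _ (Submodule.subset_span ?_)
  rw [Finset.mem_coe, Finset.mem_biUnion]
  exact ⟨i, Finset.mem_univ _, Finset.mem_image.mpr ⟨k, hk, rfl⟩⟩

end Fermat.Agent.S18
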