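/-
S18, package (A1) [BASIC] of helper13's cut of [ASTAR] (helper28), part A.  Prefix `s18b_`.

The chart `B = s18_chart O {t}` is the integral closure of `O[t] ≅ O[X]` (noetherian, normal) in
the finite separable extension `F / K(t)`: it is a finite `O[t]`-module (`s18b_finite`), a
noetherian ring (`s18b_noeth`), and `F` is its field of fractions (`s18b_frac`).
-/
import Mathlib
import Fermat.Agent.S18.LiftDefs
import Fermat.Agent.S18.Fin

set_option autoImplicit false
set_option linter.style.haveILetI false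

open AlgebraicCurve IntermediateField Polynomial

noncomputable section

namespace Fermat.Agent.S18

section s18b_A

variable {O K F : Type} [CommRing O] [IsDomain O] [Field K] [Algebra O K] [IsFractionRing O K]
  [Field F] [Algebra K F] [Algebra O F] [IsScalarTower O K F]

/-- The chart and the integral closure of `O[t]` have the same elements. -/
def s18b_equiv (t : F) :
    ↥(integralClosure ↥(Algebra.adjoin O ({t} : Set F)) F) ≃+* ↥(s18_chart O ({t} : Set F)) where
  toFun x := ⟨x.1, x.2⟩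
  invFun x := ⟨x.1, x.2⟩
  left_inv _ := rfl
  right_inv _ := rfl
  map_mul' _ _ := rfl
  map_add' _ _ := rfl

/-- The plumbing: `O[t]`-finiteness of the integral closure, noetherianity, algebraicity. -/
theorem s18b_core [CharZero K] [IsNoetherianRing O] [UniqueFactorizationMonoid O] {t : F}
    (ht : Transcendental K t) (hfin : FiniteDimensional ↥K⟮t⟯ F) :
    Module.Finite ↥(Algebra.adjoin O ({t} : Set F))
        ↥(integralClosure ↥(Algebra.adjoin O ({t} : Set F)) F) ∧
      IsNoetherianRing ↥(integralClosure ↥(Algebra.adjoin O ({t} : Set F)) F) ∧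
      ∀ f : F, IsAlgebraic ↥(Algebra.adjoin O ({t} : Set F)) f := by
  have htL : t ∈ K⟮t⟯ := mem_adjoin_simple_self K t
  letI : Algebra ↥(Algebra.adjoin O ({t} : Set F)) ↥K⟮t⟯ := (s18fin_incl K⟮t⟯ htL).toAlgebra
  haveI : IsScalarTower ↥(Algebra.adjoin O ({t} : Set F)) ↥K⟮t⟯ F :=
    IsScalarTower.of_algebraMap_eq (fun x => rfl)
  haveI : FaithfulSMul ↥(Algebra.adjoin O ({t} : Set F)) ↥K⟮t⟯ :=
    (faithfulSMul_iff_algebraMap_injective _ _).mpr (s18fin_incl_injective K⟮t⟯ htL)
  haveI : IsFractionRing ↥(Algebra.adjoin O ({t} : Set F)) ↥K⟮t⟯ := by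
    refine IsFractionRing.of_field _ _ (fun z => ?_)
    obtain ⟨x, y, h⟩ := s18fin_frac (O := O) (t := t) (z := (z : F)) z.2
    refine ⟨x, y, ?_⟩
    apply Subtype.ext
    rw [h]; rfl
  haveI := s18fin_isIntegrallyClosed (O := O) ht
  haveI : IsNoetherianRing ↥(Algebra.adjoin O ({t} : Set F)) :=
    isNoetherianRing_of_fg ⟨{t}, by rw [Finset.coe_singleton]⟩
  haveI : CharZero ↥K⟮t⟯ := charZero_of_injective_algebraMap (algebraMap K ↥K⟮t⟯).injective
  haveI : Algebra.IsSeparable ↥K⟮t⟯ F := inferInstance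
  refine ⟨IsIntegralClosure.finite ↥(Algebra.adjoin O ({t} : Set F)) ↥K⟮t⟯ F _,
    IsIntegralClosure.isNoetherianRing ↥(Algebra.adjoin O ({t} : Set F)) ↥K⟮t⟯ F _, fun f => ?_⟩
  rw [IsFractionRing.isAlgebraic_iff ↥(Algebra.adjoin O ({t} : Set F)) ↥K⟮t⟯ F]
  exact Algebra.IsAlgebraic.isAlgebraic f

/-- **`noeth`** -/
theorem s18b_noeth [CharZero K] [IsNoetherianRing O] [UniqueFactorizationMonoid O] {t : F}
    (ht : Transcendental K t) (hfin : FiniteDimensional ↥K⟮t⟯ F) :
    IsNoetherianRing ↥(s18_chart O ({t} : Set F)) := by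
  haveI := (s18b_core (O := O) ht hfin).2.1
  exact isNoetherianRing_of_ringEquiv _ (s18b_equiv (O := O) t)

/-- **`frac`** -/
theorem s18b_frac [CharZero K] [IsNoetherianRing O] [UniqueFactorizationMonoid O] {t : F}
    (ht : Transcendental K t) (hfin : FiniteDimensional ↥K⟮t⟯ F) (f : F) :
    ∃ x y : ↥(s18_chart O ({t} : Set F)), y ≠ 0 ∧ f * (y : F) = (x : F) := by
  obtain ⟨y, hy0, hy⟩ := ((s18b_core (O := O) ht hfin).2.2 f).exists_integral_multiple
  refine ⟨⟨y • f, hy⟩, ⟨(y : F), ?_⟩, ?_, ?_⟩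
  · exact (s18_mem_chart_iff O).mpr isIntegral_algebraMap
  · intro h
    apply hy0
    apply Subtype.ext
    have h' := congrArg (fun z : ↥(s18_chart O ({t} : Set F)) => (z : F)) h
    exact h'
  · show f * (y : F) = y • f
    rw [Algebra.smul_def, mul_comm]
    rfl

/-- **`finite`** -/
theorem s18b_finite [CharZero K] [IsNoetherianRing O] [UniqueFactorizationMonoid O] {t : F}
    (ht : Transcendental K t) (hfin : FiniteDimensional ↥K⟮t⟯ F) :
    ∃ s : Finset F, (∀ x ∈ s, x ∈ s18_chart O ({t} : Set F)) ∧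
      ∀ x ∈ s18_chart O ({t} : Set F), ∃ c : F → ↥(Algebra.adjoin O ({t} : Set F)),
        x = ∑ y ∈ s, (c y : F) * y := by
  classical
  haveI := (s18b_core (O := O) ht hfin).1
  obtain ⟨s, hs⟩ := (Module.Finite.fg_top :
    (⊤ : Submodule ↥(Algebra.adjoin O ({t} : Set F))
      ↥(integralClosure ↥(Algebra.adjoin O ({t} : Set F)) F)).FG)
  refine ⟨s.image Subtype.val, ?_, ?_⟩
  · intro x hx
    obtain ⟨y, -, rfl⟩ := Finset.mem_image.mp hx
    exact y.2
  · intro x hx
    have hmem : (⟨x, hx⟩ : ↥(integralClosure ↥(Algebra.adjoin O ({t} : Set F)) F)) ∈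
        Submodule.span ↥(Algebra.adjoin O ({t} : Set F))
          (s : Set ↥(integralClosure ↥(Algebra.adjoin O ({t} : Set F)) F)) := by
      rw [hs]
      exact Submodule.mem_top
    obtain ⟨f, hf⟩ := (Submodule.mem_span_finset'.mp hmem)
    have h1 : x = ∑ a : ↥s, ((f a : ↥(Algebra.adjoin O ({t} : Set F))) : F) *
        (((a : ↥(integralClosure ↥(Algebra.adjoin O ({t} : Set F)) F)) : F)) := by
      have h2 := congrArg (fun z : ↥(integralClosure ↥(Algebra.adjoin O ({t} : Set F)) F) =>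
        (z : F)) hf
      simp only [AddSubmonoidClass.coe_finsetSum] at h2
      rw [← h2]
      rfl
    refine ⟨fun y => if h : IsIntegral ↥(Algebra.adjoin O ({t} : Set F)) y then
      (if hy : (⟨y, h⟩ : ↥(integralClosure ↥(Algebra.adjoin O ({t} : Set F)) F)) ∈ s
        then f ⟨⟨y, h⟩, hy⟩ else 0) else 0, ?_⟩
    rw [Finset.sum_image (fun a _ b _ h => Subtype.ext h), h1, ← Finset.sum_attach s,
      Finset.univ_eq_attach]
    refine Finset.sum_congr rfl (fun a _ => ?_)
    have ha : IsIntegral ↥(Algebra.adjoin O ({t} : Set F))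
        (((a : ↥(integralClosure ↥(Algebra.adjoin O ({t} : Set F)) F)) : F)) := a.1.2
    have ha2 : (⟨((a : ↥(integralClosure ↥(Algebra.adjoin O ({t} : Set F)) F)) : F), ha⟩ :
        ↥(integralClosure ↥(Algebra.adjoin O ({t} : Set F)) F)) ∈ s := a.2
    simp only [dif_pos ha, dif_pos ha2]

end s18b_A

end Fermat.Agent.S18
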