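/-
S18, package (A1) [BASIC] (helper28), part B.  Prefix `s18b_`.

`cover`: `B ⊆ ⋃ jᵏ B'` - an element integral over `O[j]` becomes integral over `O[1/j]` after
multiplication by a power of `1/j` (scale the roots of the integral equation).
-/
import Mathlib
import Fermat.Agent.S18.LiftDefs
import Fermat.Agent.S18.Fin

set_option autoImplicit false
set_option linter.style.haveILetI false

open AlgebraicCurve IntermediateField Polynomial

noncomputable section

namespace Fermat.Agent.S18

section s18b_B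

variable {O F : Type} [CommRing O] [Field F] [Algebra O F]

theorem s18b_mem_adjoin {t x : F} (hx : x ∈ Algebra.adjoin O ({t} : Set F)) :
    ∃ p : O[X], aeval t p = x := by
  rw [Algebra.adjoin_singleton_eq_range_aeval] at hx
  exact hx

/-- `j⁻ⁿ c ∈ O[1/j]` for `c ∈ O[j]` and `n` large. -/
theorem s18b_shift {j : F} (hj : j ≠ 0) {c : F} (hc : c ∈ Algebra.adjoin O ({j} : Set F)) :
    ∃ N : ℕ, ∀ n : ℕ, N ≤ n → j⁻¹ ^ n * c ∈ Algebra.adjoin O ({j⁻¹} : Set F) := by
  obtain ⟨q, rfl⟩ := s18b_mem_adjoin hc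
  refine ⟨q.natDegree, fun n hn => ?_⟩
  have h1 : j⁻¹ ^ q.natDegree * aeval j q ∈ Algebra.adjoin O ({j⁻¹} : Set F) := by
    rw [Polynomial.aeval_eq_sum_range, Finset.mul_sum]
    refine Subalgebra.sum_mem _ (fun k hk => ?_)
    have hk' : k ≤ q.natDegree := Nat.lt_succ_iff.mp (Finset.mem_range.mp hk)
    have e : j⁻¹ ^ q.natDegree * (q.coeff k • j ^ k) =
        q.coeff k • j⁻¹ ^ (q.natDegree - k) := by
      have e1 : j⁻¹ ^ q.natDegree = j⁻¹ ^ (q.natDegree - k) * j⁻¹ ^ k := by
        rw [← pow_add, Nat.sub_add_cancel hk']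
      rw [e1, Algebra.smul_def, Algebra.smul_def, inv_pow, inv_pow]
      field_simp
    rw [e]
    exact Subalgebra.smul_mem _
      (Subalgebra.pow_mem _ (Algebra.self_mem_adjoin_singleton O j⁻¹) _) _
  have e2 : j⁻¹ ^ n * aeval j q = j⁻¹ ^ (n - q.natDegree) * (j⁻¹ ^ q.natDegree * aeval j q) := by
    rw [← mul_assoc, ← pow_add, Nat.sub_add_cancel hn]
  rw [e2]
  exact Subalgebra.mul_mem _
    (Subalgebra.pow_mem _ (Algebra.self_mem_adjoin_singleton O j⁻¹) _) h1

/-- **`cover`** -/
theorem s18b_cover {j : F} (hj : j ≠ 0) {x : F} (hx : x ∈ s18_chart O ({j} : Set F)) :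
    ∃ k : ℕ, j⁻¹ ^ k * x ∈ s18_chart O ({j⁻¹} : Set F) := by
  classical
  rw [s18_mem_chart_iff] at hx
  obtain ⟨p, hp, hpx⟩ := hx
  -- a common shift for all coefficients
  have hN : ∀ i : ℕ, ∃ N : ℕ, ∀ n : ℕ, N ≤ n →
      j⁻¹ ^ n * ((p.coeff i : ↥(Algebra.adjoin O ({j} : Set F))) : F) ∈
        Algebra.adjoin O ({j⁻¹} : Set F) := fun i => s18b_shift hj (p.coeff i).2
  choose N hN using hN
  set k : ℕ := (Finset.range p.natDegree).sup N with hk
  have hkN : ∀ i, i < p.natDegree → N i ≤ k := fun i hi =>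
    Finset.le_sup (f := N) (Finset.mem_range.mpr hi)
  refine ⟨k, ?_⟩
  rw [s18_mem_chart_iff]
  -- the coefficients of the scaled polynomial
  have hb : ∀ i, i < p.natDegree →
      j⁻¹ ^ (k * (p.natDegree - i)) * ((p.coeff i : ↥(Algebra.adjoin O ({j} : Set F))) : F) ∈
        Algebra.adjoin O ({j⁻¹} : Set F) := by
    intro i hi
    apply hN i
    calc N i ≤ k := hkN i hi
      _ = k * 1 := (mul_one k).symm
      _ ≤ k * (p.natDegree - i) := Nat.mul_le_mul_left k (by omega)
  let b : ℕ → ↥(Algebra.adjoin O ({j⁻¹} : Set F)) := fun i =>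
    if hi : i < p.natDegree then ⟨_, hb i hi⟩ else 0
  refine ⟨X ^ p.natDegree + ∑ i ∈ Finset.range p.natDegree, C (b i) * X ^ i, ?_, ?_⟩
  · apply Polynomial.monic_X_pow_add
    rw [Polynomial.degree_lt_iff_coeff_zero]
    intro m hm
    rw [Polynomial.finsetSum_coeff]
    refine Finset.sum_eq_zero (fun i hi => ?_)
    rw [Polynomial.coeff_C_mul_X_pow, if_neg]
    have := Finset.mem_range.mp hi
    omega
  · rw [Polynomial.eval₂_add, Polynomial.eval₂_pow, Polynomial.eval₂_X,
      Polynomial.eval₂_finsetSum]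
    have h0 : Polynomial.eval₂ (algebraMap ↥(Algebra.adjoin O ({j} : Set F)) F) x p = 0 := hpx
    rw [Polynomial.eval₂_eq_sum_range, Finset.sum_range_succ, hp.coeff_natDegree, map_one,
      one_mul] at h0
    have h1 : (j⁻¹ ^ k * x) ^ p.natDegree +
        ∑ i ∈ Finset.range p.natDegree,
          Polynomial.eval₂ (algebraMap ↥(Algebra.adjoin O ({j⁻¹} : Set F)) F) (j⁻¹ ^ k * x)
            (C (b i) * X ^ i) =
        j⁻¹ ^ (k * p.natDegree) *
          (∑ i ∈ Finset.range p.natDegree,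
            algebraMap ↥(Algebra.adjoin O ({j} : Set F)) F (p.coeff i) * x ^ i +
              x ^ p.natDegree) := by
      rw [mul_add, Finset.mul_sum, add_comm]
      congr 1
      · refine Finset.sum_congr rfl (fun i hi => ?_)
        have hi' : i < p.natDegree := Finset.mem_range.mp hi
        rw [Polynomial.eval₂_mul, Polynomial.eval₂_C, Polynomial.eval₂_pow, Polynomial.eval₂_X]
        simp only [b, dif_pos hi']
        show j⁻¹ ^ (k * (p.natDegree - i)) * ((p.coeff i : ↥(Algebra.adjoin O ({j} : Set F))) : F)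
          * (j⁻¹ ^ k * x) ^ i = j⁻¹ ^ (k * p.natDegree) *
            (((p.coeff i : ↥(Algebra.adjoin O ({j} : Set F))) : F) * x ^ i)
        have e : k * p.natDegree = k * (p.natDegree - i) + k * i := by
          rw [← Nat.mul_add, Nat.sub_add_cancel hi'.le]
        rw [e, pow_add, mul_pow, ← pow_mul]
        ring
      · rw [mul_pow, ← pow_mul]
    rw [h1, h0, mul_zero]

end s18b_B

end Fermat.Agent.S18
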