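/-
S18, package (A1) [BASIC] (helper28), part C.  Prefix `s18b_`.

The calculus of `W = B_(π)` (`π^k W = s18_gauss O t k`) for a chart `B = s18_chart O {t}` which
is a noetherian domain with fraction field `F` and whose fibre ideal is generated by a prime
element `π`: `val` (`W` is a valuation ring with uniformizer `π`), `sep` (`⋂ π^k W = 0`),
products, units.
-/
import Mathlib
import Fermat.Agent.S18.LiftDefs

set_option autoImplicit false
set_option linter.style.haveILetI false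

open AlgebraicCurve IntermediateField Polynomial

noncomputable section

namespace Fermat.Agent.S18

section s18b_C

variable {O : Type} [CommRing O] [IsLocalRing O] {F : Type} [Field F] [Algebra O F] {t : F}
  {π : ↥(s18_chart O ({t} : Set F))}

theorem s18b_mem_P_iff (hP : s18_fibreIdeal O ({t} : Set F) = Ideal.span {π})
    (x : ↥(s18_chart O ({t} : Set F))) : x ∈ s18_fibreIdeal O ({t} : Set F) ↔ π ∣ x := by
  rw [hP, Ideal.mem_span_singleton]

theorem s18b_mem_Ppow_iff (hP : s18_fibreIdeal O ({t} : Set F) = Ideal.span {π}) (k : ℕ)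
    (x : ↥(s18_chart O ({t} : Set F))) :
    x ∈ s18_fibreIdeal O ({t} : Set F) ^ k ↔ π ^ k ∣ x := by
  rw [hP, Ideal.span_singleton_pow, Ideal.mem_span_singleton]

theorem s18b_mem_gauss_iff (hP : s18_fibreIdeal O ({t} : Set F) = Ideal.span {π}) (k : ℕ)
    (f : F) : f ∈ s18_gauss O t k ↔
      ∃ x y : ↥(s18_chart O ({t} : Set F)), ¬ π ∣ y ∧ π ^ k ∣ x ∧ f * (y : F) = (x : F) := by
  constructor
  · rintro ⟨x, y, hy, hx, e⟩
    exact ⟨x, y, fun h => hy ((s18b_mem_P_iff hP y).mpr h), (s18b_mem_Ppow_iff hP k x).mp hx, e⟩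
  · rintro ⟨x, y, hy, hx, e⟩
    exact ⟨x, y, fun h => hy ((s18b_mem_P_iff hP y).mp h), (s18b_mem_Ppow_iff hP k x).mpr hx, e⟩

omit [IsLocalRing O] in
theorem s18b_coe_ne_zero {x : ↥(s18_chart O ({t} : Set F))} (hx : x ≠ 0) : (x : F) ≠ 0 := by
  intro h
  exact hx (Subtype.ext h)

/-- Elements of the chart lie in `W`. -/
theorem s18b_chart_gauss (hP : s18_fibreIdeal O ({t} : Set F) = Ideal.span {π}) (hπ : Prime π)
    (b : ↥(s18_chart O ({t} : Set F))) : (b : F) ∈ s18_gauss O t 0 := by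
  rw [s18b_mem_gauss_iff hP]
  refine ⟨b, 1, fun h => hπ.not_isUnit (isUnit_of_dvd_one h), by simp, by simp⟩

/-- `π^k W · π^l W ⊆ π^(k+l) W`. -/
theorem s18b_gauss_mul (hP : s18_fibreIdeal O ({t} : Set F) = Ideal.span {π}) (hπ : Prime π)
    {k l : ℕ} {f g : F} (hf : f ∈ s18_gauss O t k) (hg : g ∈ s18_gauss O t l) :
    f * g ∈ s18_gauss O t (k + l) := by
  rw [s18b_mem_gauss_iff hP] at hf hg ⊢
  obtain ⟨x₁, y₁, hy₁, hx₁, e₁⟩ := hf
  obtain ⟨x₂, y₂, hy₂, hx₂, e₂⟩ := hg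
  refine ⟨x₁ * x₂, y₁ * y₂, ?_, ?_, ?_⟩
  · intro h
    rcases hπ.dvd_or_dvd h with h | h
    · exact hy₁ h
    · exact hy₂ h
  · rw [pow_add]
    exact mul_dvd_mul hx₁ hx₂
  · push_cast
    rw [← e₁, ← e₂]
    ring

/-- `π^k W` is decreasing in `k`. -/
theorem s18b_gauss_anti (hP : s18_fibreIdeal O ({t} : Set F) = Ideal.span {π})
    {k l : ℕ} (hkl : k ≤ l) {f : F} (hf : f ∈ s18_gauss O t l) : f ∈ s18_gauss O t k := by
  rw [s18b_mem_gauss_iff hP] at hf ⊢
  obtain ⟨x, y, hy, hx, e⟩ := hf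
  exact ⟨x, y, hy, (pow_dvd_pow π hkl).trans hx, e⟩

/-- `π^k ∈ π^k W`. -/
theorem s18b_pi_pow_gauss (hP : s18_fibreIdeal O ({t} : Set F) = Ideal.span {π}) (hπ : Prime π)
    (k : ℕ) : ((π ^ k : ↥(s18_chart O ({t} : Set F))) : F) ∈ s18_gauss O t k := by
  rw [s18b_mem_gauss_iff hP]
  exact ⟨π ^ k, 1, fun h => hπ.not_isUnit (isUnit_of_dvd_one h), dvd_rfl, by simp⟩

/-- For `b ∈ B`: `b ∈ π^k W ↔ π^k ∣ b` (saturation). -/
theorem s18b_chart_mem_gauss_iff (hP : s18_fibreIdeal O ({t} : Set F) = Ideal.span {π})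
    (hπ : Prime π) (k : ℕ) (b : ↥(s18_chart O ({t} : Set F))) :
    (b : F) ∈ s18_gauss O t k ↔ π ^ k ∣ b := by
  constructor
  · intro h
    rw [s18b_mem_gauss_iff hP] at h
    obtain ⟨x, y, hy, hx, e⟩ := h
    have e' : b * y = x := Subtype.ext (by push_cast; exact e)
    rw [← e'] at hx
    exact hπ.pow_dvd_of_dvd_mul_right k hy hx
  · rintro ⟨c, rfl⟩
    have := s18b_gauss_mul hP hπ (s18b_pi_pow_gauss hP hπ k) (s18b_chart_gauss hP hπ c)
    rw [add_zero] at this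
    push_cast
    push_cast at this
    exact this

/-- `1 ∉ π W`. -/
theorem s18b_one_notMem (hP : s18_fibreIdeal O ({t} : Set F) = Ideal.span {π}) (hπ : Prime π) :
    (1 : F) ∉ s18_gauss O t 1 := by
  intro h
  have h1 := (s18b_chart_mem_gauss_iff hP hπ 1 1).mp (by push_cast; exact h)
  rw [pow_one] at h1
  exact hπ.not_isUnit (isUnit_of_dvd_one h1)

/-- The elements of `B` outside `P` are units of `W`. -/
theorem s18b_inv_gauss (hP : s18_fibreIdeal O ({t} : Set F) = Ideal.span {π})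
    {y : ↥(s18_chart O ({t} : Set F))} (hy : ¬ π ∣ y) : (y : F)⁻¹ ∈ s18_gauss O t 0 := by
  rw [s18b_mem_gauss_iff hP]
  refine ⟨1, y, hy, by simp, ?_⟩
  have hy0 : (y : F) ≠ 0 := by
    intro h
    apply hy
    have : y = 0 := Subtype.ext h
    rw [this]
    exact dvd_zero _
  push_cast
  exact inv_mul_cancel₀ hy0

omit [IsLocalRing O] in
/-- The decomposition `x = π^n x'`, `π ∤ x'`. -/
theorem s18b_factor [IsNoetherianRing ↥(s18_chart O ({t} : Set F))] (hπ : Prime π)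
    {x : ↥(s18_chart O ({t} : Set F))} (hx : x ≠ 0) :
    ∃ (n : ℕ) (x' : ↥(s18_chart O ({t} : Set F))), ¬ π ∣ x' ∧ x = π ^ n * x' :=
  WfDvdMonoid.max_power_factor hx hπ.irreducible

omit [IsLocalRing O] in
/-- Every non-zero `f ∈ F` is `π^a x' / (π^b y')` with `π ∤ x'`, `π ∤ y'`. -/
theorem s18b_shape [IsNoetherianRing ↥(s18_chart O ({t} : Set F))] (hπ : Prime π)
    (hfrac : ∀ f : F, ∃ x y : ↥(s18_chart O ({t} : Set F)), y ≠ 0 ∧ f * (y : F) = (x : F))
    {f : F} (hf : f ≠ 0) :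
    ∃ (a b : ℕ) (x' y' : ↥(s18_chart O ({t} : Set F))), ¬ π ∣ x' ∧ ¬ π ∣ y' ∧
      f * ((π : F) ^ b * (y' : F)) = (π : F) ^ a * (x' : F) := by
  obtain ⟨x, y, hy, e⟩ := hfrac f
  have hx : x ≠ 0 := by
    intro h
    rw [h] at e
    have : f * (y : F) = 0 := by rw [e]; rfl
    rcases mul_eq_zero.mp this with h1 | h1
    · exact hf h1
    · exact s18b_coe_ne_zero hy h1
  obtain ⟨a, x', hx', rfl⟩ := s18b_factor hπ hx
  obtain ⟨b, y', hy', rfl⟩ := s18b_factor hπ hy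
  refine ⟨a, b, x', y', hx', hy', ?_⟩
  push_cast at e
  exact e

/-- **`val`** -/
theorem s18b_val [IsNoetherianRing ↥(s18_chart O ({t} : Set F))]
    (hP : s18_fibreIdeal O ({t} : Set F) = Ideal.span {π}) (hπ : Prime π)
    (hfrac : ∀ f : F, ∃ x y : ↥(s18_chart O ({t} : Set F)), y ≠ 0 ∧ f * (y : F) = (x : F))
    (f : F) : f ∈ s18_gauss O t 0 ∨ f⁻¹ ∈ s18_gauss O t 1 := by
  by_cases hf : f = 0
  · left
    rw [hf]
    have := s18b_chart_gauss hP hπ 0
    simpa using this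
  obtain ⟨a, b, x', y', hx', hy', e⟩ := s18b_shape hπ hfrac hf
  have hπ0 : (π : F) ≠ 0 := s18b_coe_ne_zero hπ.ne_zero
  rcases le_or_gt b a with hab | hab
  · left
    rw [s18b_mem_gauss_iff hP]
    refine ⟨π ^ (a - b) * x', y', hy', by simp, ?_⟩
    push_cast
    have e1 : (π : F) ^ a = (π : F) ^ (a - b) * (π : F) ^ b := by
      rw [← pow_add, Nat.sub_add_cancel hab]
    rw [e1] at e
    have hb0 : (π : F) ^ b ≠ 0 := pow_ne_zero _ hπ0
    apply mul_left_cancel₀ hb0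
    linear_combination e
  · right
    rw [s18b_mem_gauss_iff hP]
    refine ⟨π ^ (b - a) * y', x', hx', ?_, ?_⟩
    · rw [pow_one]
      exact Dvd.dvd.mul_right (dvd_pow_self π (by omega)) _
    · push_cast
      have e1 : (π : F) ^ b = (π : F) ^ (b - a) * (π : F) ^ a := by
        rw [← pow_add, Nat.sub_add_cancel hab.le]
      rw [e1] at e
      have ha0 : (π : F) ^ a ≠ 0 := pow_ne_zero _ hπ0
      have e2 : (x' : F) = f * ((π : F) ^ (b - a) * (y' : F)) := by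
        apply mul_left_cancel₀ ha0
        rw [← e]
        ring
      rw [e2, ← mul_assoc, inv_mul_cancel₀ hf, one_mul]

/-- **`sep`** -/
theorem s18b_sep [IsNoetherianRing ↥(s18_chart O ({t} : Set F))]
    (hP : s18_fibreIdeal O ({t} : Set F) = Ideal.span {π}) (hπ : Prime π)
    (hfrac : ∀ f : F, ∃ x y : ↥(s18_chart O ({t} : Set F)), y ≠ 0 ∧ f * (y : F) = (x : F))
    (f : F) (hf : f ≠ 0) : ∃ k : ℕ, f ∉ s18_gauss O t k := by
  obtain ⟨a, b, x', y', hx', hy', e⟩ := s18b_shape hπ hfrac hf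
  refine ⟨a + 1, fun h => ?_⟩
  rw [s18b_mem_gauss_iff hP] at h
  obtain ⟨x₂, y₂, hy₂, ⟨z, rfl⟩, e₂⟩ := h
  have hπ0 : π ≠ 0 := hπ.ne_zero
  have e3 : π ^ a * (π ^ (b + 1) * (z * y')) = π ^ a * (x' * y₂) := by
    apply Subtype.ext
    push_cast
    push_cast at e₂
    have : (π : F) ^ (a + 1) * (z : F) * ((π : F) ^ b * (y' : F)) =
        (π : F) ^ a * (x' : F) * (y₂ : F) := by
      rw [← e₂, ← e]
      ring
    linear_combination this
  have e4 := mul_left_cancel₀ (pow_ne_zero a hπ0) e3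
  have h5 : π ∣ x' * y₂ := by
    rw [← e4, pow_succ]
    exact ⟨π ^ b * (z * y'), by ring⟩
  rcases hπ.dvd_or_dvd h5 with h | h
  · exact hx' h
  · exact hy₂ h

end s18b_C

end Fermat.Agent.S18
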