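/-
S18, package (A4) [POLE-OF] of [ASTAR] (helper2), ABSTRACT PART.  Prefix `s18p_`.

`R` a domain, `P = (ϖ)` a prime ideal with `R ⧸ P` integrally closed, `𝔫 ⊇ P` a prime ideal,
`m` a positive integer which is not in `𝔫`, `θ ∉ P`.  If `A ^ m = G (θ^(nm) + ϖ^(k+1) X')` with
`G ∉ 𝔫`, then `E X' ≡ θ^(n(m-1)) t₀` modulo `P` for some `E ∉ 𝔫` (`s18p_local`): the pole order
of the first-order term of an approximate `m`-th root is at most `n`.

The globalisation `s18p_glob`: an element `X'` with `E X' ∈ T R + P` for some `E` outside every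
maximal ideal `𝔫 ⊇ P` lies in `T R + P`.
-/
import Mathlib

set_option autoImplicit false
set_option linter.style.haveILetI false

noncomputable section

namespace Fermat.Agent.S18

/-- In an integrally closed domain, `x ^ m = c * y ^ m` with `y ≠ 0`, `0 < m` implies
`y ∣ x`. -/
theorem s18p_dvd_of_pow {R : Type*} [CommRing R] [IsDomain R] [IsIntegrallyClosed R]
    {x y c : R} {m : ℕ} (hm : 0 < m) (hy : y ≠ 0) (h : x ^ m = c * y ^ m) :
    ∃ b : R, x = b * y := by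
  set Kf := FractionRing R
  have hinj : Function.Injective (algebraMap R Kf) := IsFractionRing.injective R Kf
  have hy' : algebraMap R Kf y ≠ 0 := fun h0 => hy (hinj (by rw [h0, map_zero]))
  set z : Kf := algebraMap R Kf x / algebraMap R Kf y with hz
  have hzm : z ^ m = algebraMap R Kf c := by
    rw [hz, div_pow, ← map_pow, ← map_pow, h, map_mul, mul_div_assoc, div_self, mul_one]
    rw [map_pow]
    exact pow_ne_zero _ hy'
  have hint : IsIntegral R z := by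
    refine ⟨Polynomial.X ^ m - Polynomial.C c, Polynomial.monic_X_pow_sub_C c hm.ne', ?_⟩
    rw [Polynomial.eval₂_sub, Polynomial.eval₂_pow, Polynomial.eval₂_X, Polynomial.eval₂_C, hzm,
      sub_self]
  obtain ⟨b, hb⟩ := IsIntegrallyClosed.isIntegral_iff.1 hint
  refine ⟨b, hinj ?_⟩
  rw [map_mul, hb, hz, div_mul_cancel₀ _ hy']

section Abstract

variable {R : Type*} [CommRing R] [IsDomain R]

omit [IsDomain R] in
/-- The base step: `A ≡ θⁿ a` modulo `ϖ`. -/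
theorem s18p_base (P : Ideal R) [P.IsPrime] [IsIntegrallyClosed (R ⧸ P)] {ϖ : R}
    (hP : P = Ideal.span {ϖ}) {m : ℕ} (hm : 0 < m) {θ : R} (hθ : θ ∉ P) (n k : ℕ)
    {A G X' : R} (hA : A ^ m = G * (θ ^ (n * m) + ϖ ^ (k + 1) * X')) :
    ∃ a b : R, A = θ ^ n * a + ϖ * b := by
  haveI : IsDomain (R ⧸ P) := Ideal.Quotient.isDomain P
  have hϖ0 : Ideal.Quotient.mk P ϖ = 0 := by
    rw [Ideal.Quotient.eq_zero_iff_mem, hP]
    exact Ideal.mem_span_singleton_self ϖ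
  have hθ0 : Ideal.Quotient.mk P θ ≠ 0 := by
    rw [Ne, Ideal.Quotient.eq_zero_iff_mem]
    exact hθ
  have h1 : (Ideal.Quotient.mk P A) ^ m =
      Ideal.Quotient.mk P G * (Ideal.Quotient.mk P θ ^ n) ^ m := by
    rw [← map_pow, hA, map_mul, map_add, map_mul, map_pow, map_pow, hϖ0,
      zero_pow (Nat.succ_ne_zero k), zero_mul, add_zero, pow_mul]
  obtain ⟨b, hb⟩ := s18p_dvd_of_pow hm (pow_ne_zero n hθ0) h1
  obtain ⟨a, rfl⟩ := Ideal.Quotient.mk_surjective b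
  have h2 : A - a * θ ^ n ∈ P := by
    rw [← Ideal.Quotient.eq, hb, map_mul, map_pow]
  rw [hP, Ideal.mem_span_singleton] at h2
  obtain ⟨z, hz⟩ := h2
  exact ⟨a, z, by linear_combination hz⟩

/-- The binomial expansion of `(e A) ^ m` for `e A = θⁿ a + ϖⁱ b`. -/
theorem s18p_expand {ϖ : R} (hϖ : Prime ϖ) {m : ℕ} {θ : R} (hθ : ¬ ϖ ∣ θ)
    (n k i : ℕ) (hik : i ≤ k + 1) {A G X' e a b : R}
    (hA : A ^ m = G * (θ ^ (n * m) + ϖ ^ (k + 1) * X'))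
    (he : e * A = θ ^ n * a + ϖ ^ i * b) :
    ∃ η r : R, a ^ m = e ^ m * G + ϖ ^ i * η ∧
      θ ^ (n * m) * η + (m : R) * θ ^ (n * (m - 1)) * a ^ (m - 1) * b + ϖ ^ i * r
        = ϖ ^ (k + 1 - i) * (e ^ m * G * X') := by
  obtain ⟨r₀, hr₀⟩ := Polynomial.powAddExpansion (θ ^ n * a) (ϖ ^ i * b) m
  have hk : ϖ ^ (k + 1) = ϖ ^ i * ϖ ^ (k + 1 - i) := by
    rw [← pow_add, Nat.add_sub_cancel' hik]
  have h1 : (e * A) ^ m =
      e ^ m * G * θ ^ (n * m) + ϖ ^ i * (ϖ ^ (k + 1 - i) * (e ^ m * G * X')) := by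
    rw [mul_pow, hA, hk]
    ring
  rw [he, hr₀] at h1
  have h3 : (θ ^ n * a) ^ m = θ ^ (n * m) * a ^ m := by rw [mul_pow, pow_mul]
  have h4 : (θ ^ n * a) ^ (m - 1) = θ ^ (n * (m - 1)) * a ^ (m - 1) := by rw [mul_pow, pow_mul]
  rw [h3, h4] at h1
  have h2 : θ ^ (n * m) * (a ^ m - e ^ m * G) =
      ϖ ^ i * (ϖ ^ (k + 1 - i) * (e ^ m * G * X')
        - m * (θ ^ (n * (m - 1)) * a ^ (m - 1)) * b - r₀ * ϖ ^ i * b ^ 2) := by
    linear_combination h1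
  have h5 : ϖ ^ i ∣ a ^ m - e ^ m * G := by
    refine hϖ.pow_dvd_of_dvd_mul_left i ?_ ⟨_, h2⟩
    exact fun h => hθ (hϖ.dvd_of_dvd_pow h)
  obtain ⟨η, hη⟩ := h5
  refine ⟨η, r₀ * b ^ 2, by linear_combination hη, ?_⟩
  have hϖi : ϖ ^ i ≠ 0 := pow_ne_zero i hϖ.ne_zero
  apply mul_left_cancel₀ hϖi
  rw [hη] at h2
  linear_combination h2

/-- The induction: `e A ∈ θⁿ R + ϖⁱ R` for some `e ∉ 𝔫`, `1 ≤ i ≤ k + 1`. -/
theorem s18p_induct (P : Ideal R) [P.IsPrime] [IsIntegrallyClosed (R ⧸ P)] {ϖ : R}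
    (hP : P = Ideal.span {ϖ}) (hϖ0 : ϖ ≠ 0) (𝔫 : Ideal R) [h𝔫 : 𝔫.IsPrime] (hPn : P ≤ 𝔫)
    {m : ℕ} (hm : 0 < m) (hmn : (m : R) ∉ 𝔫) {θ : R} (hθ : θ ∉ P) (n k : ℕ)
    {A G X' : R} (hG : G ∉ 𝔫) (hA : A ^ m = G * (θ ^ (n * m) + ϖ ^ (k + 1) * X')) :
    ∀ i : ℕ, 1 ≤ i → i ≤ k + 1 →
      ∃ e a b : R, e ∉ 𝔫 ∧ e * A = θ ^ n * a + ϖ ^ i * b := by
  have hϖ : Prime ϖ := (Ideal.span_singleton_prime hϖ0).1 (hP ▸ inferInstance)
  have hθ' : ¬ ϖ ∣ θ := by rwa [hP, Ideal.mem_span_singleton] at hθ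
  have hϖn : ϖ ∈ 𝔫 := hPn (hP ▸ Ideal.mem_span_singleton_self ϖ)
  intro i hi
  induction i, hi using Nat.le_induction with
  | base =>
    intro _
    obtain ⟨a, b, hab⟩ := s18p_base P hP hm hθ n k hA
    refine ⟨1, a, b, ?_, by rw [one_mul, pow_one]; exact hab⟩
    exact (Ideal.ne_top_iff_one 𝔫).1 h𝔫.ne_top
  | succ i hi ih =>
    intro hik
    obtain ⟨e, a, b, he, heA⟩ := ih (by omega)
    obtain ⟨η, r, hη, hr⟩ := s18p_expand hϖ hθ' n k i (by omega) hA heA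
    have h1 : ϖ ∣ θ ^ (n * (m - 1)) * (θ ^ n * η + m * a ^ (m - 1) * b) := by
      have hk : ϖ ^ (k + 1 - i) = ϖ * ϖ ^ (k - i) := by
        rw [← pow_succ']
        congr 1
        omega
      have hi' : ϖ ^ i = ϖ * ϖ ^ (i - 1) := by
        rw [← pow_succ']
        congr 1
        omega
      have hnm : θ ^ (n * m) = θ ^ (n * (m - 1)) * θ ^ n := by
        rw [← pow_add]
        congr 1
        obtain ⟨m', rfl⟩ : ∃ m', m = m' + 1 := ⟨m - 1, by omega⟩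
        simp only [Nat.add_sub_cancel]
        ring
      refine ⟨ϖ ^ (k - i) * (e ^ m * G * X') - ϖ ^ (i - 1) * r, ?_⟩
      rw [hk, hnm] at hr
      have hr' : θ ^ (n * (m - 1)) * θ ^ n * η + (m : R) * θ ^ (n * (m - 1)) * a ^ (m - 1) * b
          + ϖ * ϖ ^ (i - 1) * r = ϖ * ϖ ^ (k - i) * (e ^ m * G * X') := by
        rw [← hi']
        exact hr
      linear_combination hr'
    have h2 : ϖ ∣ θ ^ n * η + m * a ^ (m - 1) * b :=
      (hϖ.dvd_or_dvd h1).resolve_left (fun h => hθ' (hϖ.dvd_of_dvd_pow h))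
    obtain ⟨z, hz⟩ := h2
    have ha : a ∉ 𝔫 := by
      intro ha
      have h3 : e ^ m * G ∈ 𝔫 := by
        have h4 : a ^ m ∈ 𝔫 := Ideal.pow_mem_of_mem 𝔫 ha m hm
        have h5 : ϖ ^ i * η ∈ 𝔫 := 𝔫.mul_mem_right _ (Ideal.pow_mem_of_mem 𝔫 hϖn i (by omega))
        have h6 : e ^ m * G = a ^ m - ϖ ^ i * η := by rw [hη]; ring
        rw [h6]
        exact 𝔫.sub_mem h4 h5
      rcases h𝔫.mem_or_mem h3 with h | h
      · exact he (h𝔫.mem_of_pow_mem m h)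
      · exact hG h
    refine ⟨m * a ^ (m - 1) * e, m * a ^ (m - 1) * a - ϖ ^ i * η, z, ?_, ?_⟩
    · intro h
      rcases h𝔫.mem_or_mem h with h | h
      · rcases h𝔫.mem_or_mem h with h | h
        · exact hmn h
        · exact ha (h𝔫.mem_of_pow_mem _ h)
      · exact he h
    · linear_combination (m * a ^ (m - 1)) * heA + ϖ ^ i * hz

/-- **The local pole lemma.** -/
theorem s18p_local (P : Ideal R) [P.IsPrime] [IsIntegrallyClosed (R ⧸ P)] {ϖ : R}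
    (hP : P = Ideal.span {ϖ}) (hϖ0 : ϖ ≠ 0) (𝔫 : Ideal R) [h𝔫 : 𝔫.IsPrime] (hPn : P ≤ 𝔫)
    {m : ℕ} (hm : 0 < m) (hmn : (m : R) ∉ 𝔫) {θ : R} (hθ : θ ∉ P) (n k : ℕ)
    {A G X' : R} (hG : G ∉ 𝔫) (hA : A ^ m = G * (θ ^ (n * m) + ϖ ^ (k + 1) * X')) :
    ∃ E t₀ : R, E ∉ 𝔫 ∧ E * X' - θ ^ (n * (m - 1)) * t₀ ∈ P := by
  have hϖ : Prime ϖ := (Ideal.span_singleton_prime hϖ0).1 (hP ▸ inferInstance)
  have hθ' : ¬ ϖ ∣ θ := by rwa [hP, Ideal.mem_span_singleton] at hθ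
  obtain ⟨e, a, b, he, heA⟩ :=
    s18p_induct P hP hϖ0 𝔫 hPn hm hmn hθ n k hG hA (k + 1) (by omega) le_rfl
  obtain ⟨η, r, -, hr⟩ := s18p_expand hϖ hθ' n k (k + 1) le_rfl hA heA
  refine ⟨e ^ m * G, θ ^ n * η + m * a ^ (m - 1) * b, ?_, ?_⟩
  · intro h
    rcases h𝔫.mem_or_mem h with h | h
    · exact he (h𝔫.mem_of_pow_mem m h)
    · exact hG h
  · rw [hP, Ideal.mem_span_singleton]
    refine ⟨ϖ ^ k * r, ?_⟩
    have hnm : θ ^ (n * m) = θ ^ (n * (m - 1)) * θ ^ n := by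
      rw [← pow_add]
      congr 1
      obtain ⟨m', rfl⟩ : ∃ m', m = m' + 1 := ⟨m - 1, by omega⟩
      simp only [Nat.add_sub_cancel]
      ring
    rw [Nat.sub_self, pow_zero, one_mul, hnm] at hr
    linear_combination -hr

omit [IsDomain R] in
/-- **Globalisation**: the denominators `E` of `X'` modulo `T R + P` form an ideal containing
`P`, which is contained in no maximal ideal. -/
theorem s18p_glob (P : Ideal R) (T X' : R)
    (h : ∀ 𝔫 : Ideal R, 𝔫.IsMaximal → P ≤ 𝔫 → ∃ E t₀ : R, E ∉ 𝔫 ∧ E * X' - T * t₀ ∈ P) :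
    ∃ t₀ : R, X' - T * t₀ ∈ P := by
  let D : Ideal R :=
    { carrier := {b | ∃ t₀ : R, b * X' - T * t₀ ∈ P}
      add_mem' := by
        rintro a b ⟨t, ht⟩ ⟨t', ht'⟩
        refine ⟨t + t', ?_⟩
        have := P.add_mem ht ht'
        convert this using 1
        ring
      zero_mem' := ⟨0, by simp⟩
      smul_mem' := by
        rintro c b ⟨t, ht⟩
        refine ⟨c * t, ?_⟩
        have := P.mul_mem_left c ht
        convert this using 1
        simp only [smul_eq_mul]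
        ring }
  have hPD : P ≤ D := fun b hb => ⟨0, by simpa using P.mul_mem_right X' hb⟩
  by_cases hD : D = ⊤
  · have h1 : (1 : R) ∈ D := hD ▸ Submodule.mem_top
    obtain ⟨t₀, ht₀⟩ := h1
    exact ⟨t₀, by simpa using ht₀⟩
  · obtain ⟨𝔫, h𝔫, hD𝔫⟩ := Ideal.exists_le_maximal D hD
    obtain ⟨E, t₀, hE, hEt⟩ := h 𝔫 h𝔫 (hPD.trans hD𝔫)
    exact absurd (hD𝔫 ⟨t₀, hEt⟩) hE

end Abstract

end Fermat.Agent.S18
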