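/-
S18, package (A4) [POLE-OF] of [ASTAR] (helper2).  Prefix `s18p_`.

    theorem s18p_main : s18_PoleOfStatement

PROOF (elementwise in `B = s18_chart O {j}`, `P = ϖ B`, `θ = j`; no localisation).
`(jⁿ s)^m = u c₀`, `c₀ ∈ B`.  From `s^m - u ∈ ϖ^(k+1) W` and `u ≡ 1`: `c₀ - θ^(nm) ∈ P^(k+1)`
(saturation), `c₀ = θ^(nm) + ϖ^(k+1) X'`.  At a maximal ideal `𝔫 ⊇ P` with local generator
`g^m c = u d`: `A := d jⁿ s / g ∈ B` (normality) and `A^m = d^(m-1) c c₀`; the abstract local
lemma `s18p_local` gives `E X' ≡ θ^(n(m-1)) t₀` modulo `P` with `E ∉ 𝔫`; by `s18p_glob`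
`X' = θ^(n(m-1)) t₀ + ϖ z`, and `t := ϖ^(k+1) t₀` works.
-/
import Mathlib
import Fermat.Agent.S18.LiftDefs
import Fermat.Agent.S18.PoleOfAbs

set_option autoImplicit false
set_option linter.style.haveILetI false

open AlgebraicCurve IntermediateField

noncomputable section

namespace Fermat.Agent.S18

section Chart

variable (O : Type) [CommRing O] {F : Type} [Field F] [Algebra O F] (j : F)

/-- `j` lies in its chart. -/
theorem s18p_j_mem : j ∈ s18_chart O ({j} : Set F) := by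
  rw [s18_mem_chart_iff]
  exact isIntegral_algebraMap (R := ↥(Algebra.adjoin O ({j} : Set F)))
    (x := ⟨j, Algebra.subset_adjoin rfl⟩)

/-- `B` is integrally closed in `F`. -/
theorem s18p_intClosed (x : F) (hx : IsIntegral ↥(s18_chart O ({j} : Set F)) x) :
    x ∈ s18_chart O ({j} : Set F) := by
  have hAB : Algebra.adjoin O ({j} : Set F) ≤ s18_chart O ({j} : Set F) := by
    intro a ha
    rw [s18_mem_chart_iff]
    exact isIntegral_algebraMap (R := ↥(Algebra.adjoin O ({j} : Set F))) (x := ⟨a, ha⟩)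
  letI : Algebra ↥(Algebra.adjoin O ({j} : Set F)) ↥(s18_chart O ({j} : Set F)) :=
    (Subalgebra.inclusion hAB).toRingHom.toAlgebra
  haveI : IsScalarTower ↥(Algebra.adjoin O ({j} : Set F)) ↥(s18_chart O ({j} : Set F)) F :=
    IsScalarTower.of_algebraMap_eq (fun _ => rfl)
  haveI : Algebra.IsIntegral ↥(Algebra.adjoin O ({j} : Set F))
      ↥(s18_chart O ({j} : Set F)) := by
    refine ⟨fun b => ?_⟩
    have hb : IsIntegral ↥(Algebra.adjoin O ({j} : Set F)) (b : F) := b.2
    exact (isIntegral_algebraMap_iff (A := ↥(s18_chart O ({j} : Set F))) (B := F)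
      Subtype.val_injective).1 hb
  rw [s18_mem_chart_iff]
  exact isIntegral_trans x hx

/-- An `m`-th root in `F` of an element of `B` lies in `B`. -/
theorem s18p_mem_of_pow {x : F} {m : ℕ} (hm : 0 < m)
    (c : ↥(s18_chart O ({j} : Set F))) (h : x ^ m = (c : F)) :
    x ∈ s18_chart O ({j} : Set F) := by
  apply s18p_intClosed
  refine ⟨Polynomial.X ^ m - Polynomial.C c, Polynomial.monic_X_pow_sub_C c hm.ne', ?_⟩
  rw [Polynomial.eval₂_sub, Polynomial.eval₂_pow, Polynomial.eval₂_X, Polynomial.eval₂_C, h]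
  exact sub_self _

end Chart

section Model

variable {O K F : Type} [CommRing O] [IsDomain O] [IsDiscreteValuationRing O]
  [Field K] [Algebra O K] [IsFractionRing O K] [Field F] [Algebra K F] [Algebra O F]
  [IsScalarTower O K F]

variable (O K F) in
include K in
omit [IsDomain O] [IsDiscreteValuationRing O] in
/-- `O → F` is injective. -/
theorem s18p_inj : Function.Injective (algebraMap O F) := by
  rw [IsScalarTower.algebraMap_eq O K F]
  exact (algebraMap K F).injective.comp (IsFractionRing.injective O K)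

omit [IsDomain O] [IsDiscreteValuationRing O] in
/-- `j` is not divisible by a uniformizer in its chart. -/
theorem s18p_j_notDvd (j : F) (htr : Transcendental K j)
    (hinter : ∀ x ∈ s18_chart O ({j} : Set F), x ∈ K⟮j⟯ → x ∈ Algebra.adjoin O ({j} : Set F))
    {ϖ : O} (hϖ : Irreducible ϖ) (b : F) (hb : b ∈ s18_chart O ({j} : Set F))
    (h : j = algebraMap O F ϖ * b) : False := by
  have hϖF : algebraMap O F ϖ ≠ 0 := by
    intro h0
    exact hϖ.ne_zero (s18p_inj O K F (by rw [h0, map_zero]))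
  have hbK : b ∈ K⟮j⟯ := by
    have h1 : b = (algebraMap O F ϖ)⁻¹ * j := by
      rw [h, ← mul_assoc, inv_mul_cancel₀ hϖF, one_mul]
    rw [h1]
    refine mul_mem (inv_mem ?_) (IntermediateField.mem_adjoin_simple_self K j)
    rw [IsScalarTower.algebraMap_apply O K F]
    exact IntermediateField.algebraMap_mem _ _
  have hbA := hinter b hb hbK
  rw [Algebra.adjoin_singleton_eq_range_aeval] at hbA
  obtain ⟨p, hp⟩ := hbA
  have hp' : Polynomial.aeval j p = b := hp
  set q : Polynomial O := Polynomial.X - Polynomial.C ϖ * p with hq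
  have hq0 : q ≠ 0 := by
    intro h0
    have h1 : q.coeff 1 = 0 := by rw [h0, Polynomial.coeff_zero]
    rw [hq, Polynomial.coeff_sub, Polynomial.coeff_X_one, Polynomial.coeff_C_mul] at h1
    exact hϖ.not_isUnit (IsUnit.of_mul_eq_one (p.coeff 1) (by linear_combination -h1))
  have hqj : Polynomial.aeval j q = 0 := by
    rw [hq, map_sub, Polynomial.aeval_X, map_mul, Polynomial.aeval_C, hp', ← h, sub_self]
  have halg : IsAlgebraic O j := ⟨q, hq0, hqj⟩
  exact htr (halg.extendScalars (IsFractionRing.injective O K))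

end Model

/-- **[POLE-OF]** -/
theorem s18p_main : s18_PoleOfStatement := by
  intro O K F _ _ _ _ _ _ _ _ _ _ _ j hgood hbasic m u hm hu hred hloc n k s hs hsm
  obtain ⟨ϖ, hϖ⟩ := IsDiscreteValuationRing.exists_irreducible O
  have hP : s18_fibreIdeal O ({j} : Set F) =
      Ideal.span {algebraMap O ↥(s18_chart O ({j} : Set F)) ϖ} := by
    rw [s18_fibreIdeal, hϖ.maximalIdeal_eq, Ideal.map_span, Set.image_singleton]
  haveI hPprime : (s18_fibreIdeal O ({j} : Set F)).IsPrime :=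
    (Ideal.Quotient.isDomain_iff_prime _).1 hgood.isDomain_fin
  haveI : IsIntegrallyClosed
      (↥(s18_chart O ({j} : Set F)) ⧸ s18_fibreIdeal O ({j} : Set F)) :=
    hgood.isIntegrallyClosed_fin
  set P := s18_fibreIdeal O ({j} : Set F) with hPdef
  set ϖB : ↥(s18_chart O ({j} : Set F)) := algebraMap O ↥(s18_chart O ({j} : Set F)) ϖ
    with hϖB
  have hϖF : ((ϖB : ↥(s18_chart O ({j} : Set F))) : F) = algebraMap O F ϖ := rfl
  have hϖB0 : ϖB ≠ 0 := by
    intro h0
    have h1 : algebraMap O F ϖ = 0 := by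
      rw [← hϖF, h0]
      rfl
    exact hϖ.ne_zero (s18p_inj O K F (by rw [h1, map_zero]))
  have hϖprime : Prime ϖB := (Ideal.span_singleton_prime hϖB0).1 (hP ▸ hPprime)
  have hPk : ∀ i : ℕ, P ^ i = Ideal.span {ϖB ^ i} := fun i => by
    rw [hP, Ideal.span_singleton_pow]
  have hPdvd : ∀ z : ↥(s18_chart O ({j} : Set F)), z ∈ P ↔ ϖB ∣ z := fun z => by
    rw [hP, Ideal.mem_span_singleton]
  have hm0 : 0 < m := by
    rcases Nat.eq_zero_or_pos m with h | h
    · subst h
      simp at hm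
    · exact h
  -- the coordinate
  set θ : ↥(s18_chart O ({j} : Set F)) := ⟨j, s18p_j_mem O j⟩ with hθdef
  have hθ : θ ∉ P := by
    intro h
    rw [hPdvd] at h
    obtain ⟨b, hb⟩ := h
    refine s18p_j_notDvd j hgood.transcendental hbasic.inter hϖ (b : F) b.2 ?_
    have h1 := congrArg Subtype.val hb
    rw [← hϖF]
    exact h1
  have hnm : n * m = n * (m - 1) + n := by
    obtain ⟨m', rfl⟩ : ∃ m', m = m' + 1 := ⟨m - 1, by omega⟩
    simp only [Nat.add_sub_cancel]
    ring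
  -- the data
  obtain ⟨c₀, hc₀⟩ := hs
  obtain ⟨x, y, hy, hxy, hu_xy⟩ := hred
  obtain ⟨x₁, y₁, hy₁, hx₁, hxy₁⟩ := hsm
  have hx : x ∉ P := fun h => hy (by
    have := P.sub_mem h hxy
    simpa using this)
  -- saturation
  have key : (c₀ - θ ^ (n * m)) * (x * y₁) = θ ^ (n * m) * x₁ * y := by
    apply Subtype.ext
    push_cast
    rw [← hu_xy, ← hxy₁]
    have : ((θ : ↥(s18_chart O ({j} : Set F))) : F) = j := rfl
    rw [this]
    rw [mul_pow, ← pow_mul] at hc₀
    linear_combination (-(y : F) * y₁) * hc₀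
  have h1 : ϖB ^ (k + 1) ∣ (c₀ - θ ^ (n * m)) * (x * y₁) := by
    rw [key]
    rw [hPk, Ideal.mem_span_singleton] at hx₁
    exact Dvd.dvd.mul_right (Dvd.dvd.mul_left hx₁ _) _
  have h2 : ¬ ϖB ∣ x * y₁ := by
    intro h
    rcases hϖprime.dvd_or_dvd h with h | h
    · exact hx ((hPdvd _).2 h)
    · exact hy₁ ((hPdvd _).2 h)
  obtain ⟨X', hX'⟩ := hϖprime.pow_dvd_of_dvd_mul_right (k + 1) h2 h1
  -- the local lemma at the closed points
  have hlocal : ∀ 𝔫 : Ideal ↥(s18_chart O ({j} : Set F)), 𝔫.IsMaximal → P ≤ 𝔫 →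
      ∃ E t₀ : ↥(s18_chart O ({j} : Set F)),
        E ∉ 𝔫 ∧ E * X' - θ ^ (n * (m - 1)) * t₀ ∈ P := by
    intro 𝔫 h𝔫 hP𝔫
    obtain ⟨g, hg, c, d, hc, hd, hgcd⟩ := hloc 𝔫 h𝔫 hP𝔫
    haveI h𝔫p : 𝔫.IsPrime := h𝔫.isPrime
    have hA : ∃ A : ↥(s18_chart O ({j} : Set F)), A ^ m = d ^ (m - 1) * c * c₀ := by
      have hAF : ((d : F) * (j ^ n * s) / g) ^ m =
          ((d ^ (m - 1) * c * c₀ : ↥(s18_chart O ({j} : Set F))) : F) := by
        push_cast
        have hgm : g ^ m ≠ 0 := pow_ne_zero m hg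
        have hdm : (d : F) ^ m = (d : F) ^ (m - 1) * d := by
          rw [← pow_succ]
          congr 1
          omega
        rw [div_pow, div_eq_iff hgm, mul_pow, hc₀, hdm]
        linear_combination (-(d : F) ^ (m - 1) * c₀) * hgcd
      exact ⟨⟨_, s18p_mem_of_pow O j hm0 _ hAF⟩, Subtype.ext hAF⟩
    obtain ⟨A, hA⟩ := hA
    have hA' : A ^ m = (d ^ (m - 1) * c) * (θ ^ (n * m) + ϖB ^ (k + 1) * X') := by
      rw [hA, ← hX']
      ring
    have hG : d ^ (m - 1) * c ∉ 𝔫 := by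
      intro h
      rcases h𝔫p.mem_or_mem h with h | h
      · exact hd (h𝔫p.mem_of_pow_mem _ h)
      · exact hc h
    have hmn : ((m : ℕ) : ↥(s18_chart O ({j} : Set F))) ∉ 𝔫 := by
      intro h
      have hu : IsUnit ((m : ℕ) : ↥(s18_chart O ({j} : Set F))) := by
        have := hm.map (algebraMap O ↥(s18_chart O ({j} : Set F)))
        simpa using this
      exact h𝔫.ne_top (Ideal.eq_top_of_isUnit_mem _ h hu)
    exact s18p_local P hP hϖB0 𝔫 hP𝔫 hm0 hmn hθ n k hG hA'
  -- globalisation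
  obtain ⟨t₀, ht₀⟩ := s18p_glob P (θ ^ (n * (m - 1))) X' hlocal
  rw [hPdvd] at ht₀
  obtain ⟨z, hz⟩ := ht₀
  refine ⟨ϖB ^ (k + 1) * t₀, ?_, ?_⟩
  · rw [hPk]
    exact Ideal.mem_span_singleton.2 (Dvd.intro _ rfl)
  · refine ⟨x * ϖB ^ (k + 2) * z, θ ^ (n * (m - 1)) * y, ?_, ?_, ?_⟩
    · intro h
      rcases hPprime.mem_or_mem h with h | h
      · exact hθ (hPprime.mem_of_pow_mem _ h)
      · exact hy h
    · rw [hPk]
      exact Ideal.mem_span_singleton.2 ⟨x * z, by ring⟩
    · have hX'F := congrArg Subtype.val hX'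
      have hzF := congrArg Subtype.val hz
      have hθj : ((θ : ↥(s18_chart O ({j} : Set F))) : F) = j := rfl
      push_cast at hX'F hzF ⊢
      rw [hθj] at hX'F hzF ⊢
      rw [mul_pow, ← pow_mul] at hc₀
      rw [hnm, pow_add] at hc₀ hX'F
      rw [← hu_xy]
      linear_combination (y : F) * hc₀ + (u * y : F) * hX'F
        + (u * y * (ϖB : F) ^ (k + 1)) * hzF

end Fermat.Agent.S18
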