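/-
S18, package (A3) [SURJ-OF] of helper13's cut of [ASTAR] (helper28).  Prefix `s18s_`.

    theorem s18s_main : s18_SurjOfStatement

`B = s18_chart O {j}`, `P = s18_fibreIdeal O {j} = π B` (a prime ideal: the special fibre is a
domain), `W = B_P`, `π^k W = s18_gauss O j k`, `I = s18_root O j u m = {f : f^m ∈ u B}`.

PROOF.  `I` is closed under `+` and under multiplication by `B` (`B` is integrally closed in
`F`: `s18s_chart_closed`, `s18s_root_add`, `s18s_root_smul`), and so is `π W`.  Hence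
`J = {b ∈ B : ∃ f ∈ I, f - b ∈ π W}` is an ideal of `B` containing `P` (`s18s_J`).  If `J ≠ B`
there is a maximal ideal `𝔫 ⊇ J`; the local generator `g` at `𝔫` (`g^m c = u d`, `c, d ∉ 𝔫`)
gives `f = c g ∈ I` with `f^m = u c'`, `c' = c^(m-1) d ∉ 𝔫`; `f ∈ W` (by `val`: otherwise
`1/f ∈ π W` and `f^m ∈ W` contradict each other), `f = x₀ / y₀`, and `x₀^m ≡ c' y₀^m` modulo
`P` because `u ≡ 1`; so `x̄₀ / ȳ₀ ∈ Frac (B / P)` is integral over `B / P`, hence `= b̄`
(the special fibre is integrally closed), `f - b ∈ π W`, `b ∈ J`, and `b̄^m = c̄'` shows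
`b ∉ 𝔫`: contradiction (`s18s_key`).
-/
import Mathlib
import Fermat.Agent.S18.LiftDefs

set_option autoImplicit false

open AlgebraicCurve IntermediateField
open scoped TensorProduct

noncomputable section

namespace Fermat.Agent.S18

section s18s_tools

variable {O : Type} [CommRing O] {F : Type} [Field F] [Algebra O F]

/-- The chart is integrally closed in `F`: a root of an element of the chart lies in the
chart. -/
theorem s18s_chart_closed {j : F} {n : ℕ} (hn : 0 < n) {t : F}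
    (h : t ^ n ∈ s18_chart O ({j} : Set F)) : t ∈ s18_chart O ({j} : Set F) := by
  rw [s18_mem_chart_iff] at h ⊢
  exact IsIntegral.of_pow hn h

theorem s18s_root_zero {j u : F} {m : ℕ} (hm : 0 < m) : (0 : F) ∈ s18_root O j u m :=
  ⟨0, by simp [hm.ne']⟩

theorem s18s_root_smul {j u : F} {m : ℕ} (b : ↥(s18_chart O ({j} : Set F))) {f : F}
    (hf : f ∈ s18_root O j u m) : (b : F) * f ∈ s18_root O j u m := by
  obtain ⟨c, hc⟩ := hf
  refine ⟨b ^ m * c, ?_⟩
  rw [mul_pow, hc]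
  push_cast
  ring

theorem s18s_root_add {j u : F} {m : ℕ} (hm : 0 < m) (hu : u ≠ 0) {f g : F}
    (hf : f ∈ s18_root O j u m) (hg : g ∈ s18_root O j u m) :
    f + g ∈ s18_root O j u m := by
  obtain ⟨cf, hcf⟩ := hf
  obtain ⟨cg, hcg⟩ := hg
  have ht : ∀ k ∈ Finset.range (m + 1),
      f ^ k * g ^ (m - k) / u ∈ s18_chart O ({j} : Set F) := by
    intro k hk
    have hk' : k ≤ m := Nat.lt_succ_iff.mp (Finset.mem_range.mp hk)
    apply s18s_chart_closed hm
    have e1 : (f ^ k * g ^ (m - k) / u) ^ m =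
        ((cf ^ k * cg ^ (m - k) : ↥(s18_chart O ({j} : Set F))) : F) := by
      have e2 : u ^ k * u ^ (m - k) = u ^ m := by rw [← pow_add, Nat.add_sub_cancel' hk']
      have e3 : (f ^ k * g ^ (m - k)) ^ m = (f ^ m) ^ k * (g ^ m) ^ (m - k) := by
        rw [mul_pow, ← pow_mul, ← pow_mul, ← pow_mul, ← pow_mul, mul_comm k m,
          mul_comm (m - k) m]
      rw [div_pow, e3, hcf, hcg, mul_pow, mul_pow, div_eq_iff (pow_ne_zero _ hu)]
      push_cast
      rw [← e2]
      ring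
    rw [e1]
    exact SetLike.coe_mem _
  have hmem : (∑ k ∈ Finset.range (m + 1), f ^ k * g ^ (m - k) / u * (m.choose k : F)) ∈
      s18_chart O ({j} : Set F) :=
    Subalgebra.sum_mem _ (fun k hk => Subalgebra.mul_mem _ (ht k hk) (natCast_mem _ _))
  refine ⟨⟨_, hmem⟩, ?_⟩
  rw [add_pow, Finset.mul_sum]
  refine Finset.sum_congr rfl (fun k _ => ?_)
  field_simp

variable [IsLocalRing O]

theorem s18s_gauss_add {j : F} (hP : (s18_fibreIdeal O ({j} : Set F)).IsPrime) {k : ℕ}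
    {f g : F} (hf : f ∈ s18_gauss O j k) (hg : g ∈ s18_gauss O j k) :
    f + g ∈ s18_gauss O j k := by
  obtain ⟨x₁, y₁, hy₁, hx₁, e₁⟩ := hf
  obtain ⟨x₂, y₂, hy₂, hx₂, e₂⟩ := hg
  refine ⟨x₁ * y₂ + x₂ * y₁, y₁ * y₂, ?_, ?_, ?_⟩
  · intro h
    rcases hP.mem_or_mem h with h | h
    · exact hy₁ h
    · exact hy₂ h
  · exact Ideal.add_mem _ (Ideal.mul_mem_right _ _ hx₁) (Ideal.mul_mem_right _ _ hx₂)
  · push_cast
    rw [← e₁, ← e₂]
    ring

theorem s18s_gauss_smul {j : F} {k : ℕ} (b : ↥(s18_chart O ({j} : Set F))) {f : F}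
    (hf : f ∈ s18_gauss O j k) : (b : F) * f ∈ s18_gauss O j k := by
  obtain ⟨x, y, hy, hx, e⟩ := hf
  refine ⟨b * x, y, hy, Ideal.mul_mem_left _ _ hx, ?_⟩
  push_cast
  rw [← e]
  ring

theorem s18s_gauss_of_mem {j : F} (hP : (s18_fibreIdeal O ({j} : Set F)).IsPrime)
    {b : ↥(s18_chart O ({j} : Set F))} (hb : b ∈ s18_fibreIdeal O ({j} : Set F)) :
    (0 : F) - (b : F) ∈ s18_gauss O j 1 := by
  refine ⟨-b, 1, ?_, ?_, ?_⟩
  · intro h
    exact hP.ne_top ((Ideal.eq_top_iff_one _).mpr h)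
  · rw [pow_one]
    exact (Ideal.neg_mem_iff _).mpr hb
  · push_cast
    ring

/-- The ideal `J` of all `b ∈ B` which are `≡ f` modulo `π W` for some `f ∈ I`. -/
def s18s_J (j u : F) (m : ℕ) (hm : 0 < m) (hu : u ≠ 0)
    (hP : (s18_fibreIdeal O ({j} : Set F)).IsPrime) : Ideal ↥(s18_chart O ({j} : Set F)) where
  carrier := {b | ∃ f : F, f ∈ s18_root O j u m ∧ f - (b : F) ∈ s18_gauss O j 1}
  zero_mem' := ⟨0, s18s_root_zero hm, by
    have := s18s_gauss_of_mem hP (Ideal.zero_mem (s18_fibreIdeal O ({j} : Set F)))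
    simpa using this⟩
  add_mem' := by
    rintro a b ⟨f, hf, hfa⟩ ⟨g, hg, hgb⟩
    refine ⟨f + g, s18s_root_add hm hu hf hg, ?_⟩
    have := s18s_gauss_add hP hfa hgb
    have e : f + g - ((a + b : ↥(s18_chart O ({j} : Set F))) : F) =
        f - (a : F) + (g - (b : F)) := by
      push_cast
      ring
    rw [e]
    exact this
  smul_mem' := by
    rintro c b ⟨f, hf, hfb⟩
    refine ⟨(c : F) * f, s18s_root_smul c hf, ?_⟩
    have := s18s_gauss_smul c hfb
    have e : (c : F) * f - ((c • b : ↥(s18_chart O ({j} : Set F))) : F) =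
        (c : F) * (f - (b : F)) := by
      rw [smul_eq_mul]
      push_cast
      ring
    rw [e]
    exact this

theorem s18s_mem_J {j u : F} {m : ℕ} (hm : 0 < m) (hu : u ≠ 0)
    (hP : (s18_fibreIdeal O ({j} : Set F)).IsPrime) (b : ↥(s18_chart O ({j} : Set F))) :
    b ∈ s18s_J j u m hm hu hP ↔
      ∃ f : F, f ∈ s18_root O j u m ∧ f - (b : F) ∈ s18_gauss O j 1 := Iff.rfl

theorem s18s_le_J {j u : F} {m : ℕ} (hm : 0 < m) (hu : u ≠ 0)
    (hP : (s18_fibreIdeal O ({j} : Set F)).IsPrime) :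
    s18_fibreIdeal O ({j} : Set F) ≤ s18s_J j u m hm hu hP :=
  fun _ hb => ⟨0, s18s_root_zero hm, s18s_gauss_of_mem hP hb⟩

end s18s_tools

section s18s_key

variable {O : Type} [CommRing O] [IsLocalRing O] {F : Type} [Field F] [Algebra O F]

/-- The key step: the local generator at `𝔫` gives an element of `J` outside `𝔫`. -/
theorem s18s_key {j : F} (hdom : IsDomain (s18_fibre O ({j} : Set F)))
    (hic : IsIntegrallyClosed (s18_fibre O ({j} : Set F)))
    (hval : ∀ f : F, f ∈ s18_gauss O j 0 ∨ f⁻¹ ∈ s18_gauss O j 1)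
    {m : ℕ} (hm : 0 < m) {u : F} (hred : s18_RedOne O j u)
    (𝔫 : Ideal ↥(s18_chart O ({j} : Set F))) (h𝔫 : 𝔫.IsPrime)
    (hP𝔫 : s18_fibreIdeal O ({j} : Set F) ≤ 𝔫)
    (g : F) (hg : g ≠ 0) (c d : ↥(s18_chart O ({j} : Set F))) (hc : c ∉ 𝔫) (hd : d ∉ 𝔫)
    (hgcd : g ^ m * (c : F) = u * (d : F)) :
    ∃ b : ↥(s18_chart O ({j} : Set F)), b ∉ 𝔫 ∧
      ∃ f : F, f ∈ s18_root O j u m ∧ f - (b : F) ∈ s18_gauss O j 1 := by
  have hP : (s18_fibreIdeal O ({j} : Set F)).IsPrime :=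
    (Ideal.Quotient.isDomain_iff_prime _).mp hdom
  obtain ⟨x, y, hy, hxy, hu⟩ := hred
  have hfm : ((c : F) * g) ^ m = u * ((c ^ (m - 1) * d : ↥(s18_chart O ({j} : Set F))) : F) := by
    have e : (c : F) ^ m = (c : F) ^ (m - 1) * c := by
      rw [← pow_succ, Nat.sub_add_cancel hm]
    rw [mul_pow, e]
    push_cast
    linear_combination (c : F) ^ (m - 1) * hgcd
  have hc'n : c ^ (m - 1) * d ∉ 𝔫 := by
    intro h
    rcases h𝔫.mem_or_mem h with h | h
    · exact hc (h𝔫.mem_of_pow_mem _ h)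
    · exact hd h
  have hfI : (c : F) * g ∈ s18_root O j u m := ⟨c ^ (m - 1) * d, hfm⟩
  have hc0 : (c : F) ≠ 0 := by
    intro h
    apply hc
    have e : c = 0 := Subtype.ext h
    rw [e]
    exact 𝔫.zero_mem
  have hf0 : (c : F) * g ≠ 0 := mul_ne_zero hc0 hg
  -- `f ∈ W`
  have hfW : (c : F) * g ∈ s18_gauss O j 0 := by
    rcases hval ((c : F) * g) with h | h
    · exact h
    · exfalso
      obtain ⟨x₁, y₁, hy₁, hx₁, e₁⟩ := h
      rw [pow_one] at hx₁
      have e2 : (y₁ : F) = (c : F) * g * x₁ := by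
        rw [← e₁]
        field_simp
      have e4 : y * y₁ ^ m = x * (c ^ (m - 1) * d) * x₁ ^ m := by
        apply Subtype.ext
        push_cast
        push_cast at hfm
        rw [e2, mul_pow, hfm, ← hu]
        ring
      have h5 : y * y₁ ^ m ∈ s18_fibreIdeal O ({j} : Set F) := by
        rw [e4]
        exact Ideal.mul_mem_left _ _ (Ideal.pow_mem_of_mem _ hx₁ m hm)
      rcases hP.mem_or_mem h5 with h | h
      · exact hy h
      · exact hy₁ (hP.mem_of_pow_mem _ h)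
  obtain ⟨x₀, y₀, hy₀, -, e₀⟩ := hfW
  have e5 : y * x₀ ^ m = x * (c ^ (m - 1) * d) * y₀ ^ m := by
    apply Subtype.ext
    push_cast
    push_cast at hfm
    rw [← e₀, mul_pow, hfm, ← hu]
    ring
  have h6 : x₀ ^ m - c ^ (m - 1) * d * y₀ ^ m ∈ s18_fibreIdeal O ({j} : Set F) := by
    have h7 : y * (x₀ ^ m - c ^ (m - 1) * d * y₀ ^ m) ∈ s18_fibreIdeal O ({j} : Set F) := by
      have e : y * (x₀ ^ m - c ^ (m - 1) * d * y₀ ^ m) =
          (x - y) * (c ^ (m - 1) * d * y₀ ^ m) := by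
        rw [mul_sub, e5]
        ring
      rw [e]
      exact Ideal.mul_mem_right _ _ hxy
    rcases hP.mem_or_mem h7 with h | h
    · exact absurd h hy
    · exact h
  -- in the special fibre
  have q1 : (Ideal.Quotient.mk (s18_fibreIdeal O ({j} : Set F)) x₀) ^ m =
      Ideal.Quotient.mk (s18_fibreIdeal O ({j} : Set F)) (c ^ (m - 1) * d) *
        (Ideal.Quotient.mk (s18_fibreIdeal O ({j} : Set F)) y₀) ^ m := by
    rw [← map_pow, ← map_pow, ← map_mul]
    exact (Ideal.Quotient.eq).mpr h6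
  have q2 : Ideal.Quotient.mk (s18_fibreIdeal O ({j} : Set F)) y₀ ≠ 0 := by
    intro h
    exact hy₀ (Ideal.Quotient.eq_zero_iff_mem.mp h)
  have q3 : algebraMap (s18_fibre O ({j} : Set F)) (FractionRing (s18_fibre O ({j} : Set F)))
      (Ideal.Quotient.mk (s18_fibreIdeal O ({j} : Set F)) y₀) ≠ 0 := by
    intro h
    apply q2
    exact (IsFractionRing.injective (s18_fibre O ({j} : Set F))
      (FractionRing (s18_fibre O ({j} : Set F)))) (by rw [h, map_zero])
  have q4 : IsIntegral (s18_fibre O ({j} : Set F))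
      (algebraMap (s18_fibre O ({j} : Set F)) (FractionRing (s18_fibre O ({j} : Set F)))
        (Ideal.Quotient.mk (s18_fibreIdeal O ({j} : Set F)) x₀) /
      algebraMap (s18_fibre O ({j} : Set F)) (FractionRing (s18_fibre O ({j} : Set F)))
        (Ideal.Quotient.mk (s18_fibreIdeal O ({j} : Set F)) y₀)) := by
    apply IsIntegral.of_pow hm
    have e : (algebraMap (s18_fibre O ({j} : Set F))
          (FractionRing (s18_fibre O ({j} : Set F)))
          (Ideal.Quotient.mk (s18_fibreIdeal O ({j} : Set F)) x₀) /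
        algebraMap (s18_fibre O ({j} : Set F)) (FractionRing (s18_fibre O ({j} : Set F)))
          (Ideal.Quotient.mk (s18_fibreIdeal O ({j} : Set F)) y₀)) ^ m =
        algebraMap (s18_fibre O ({j} : Set F)) (FractionRing (s18_fibre O ({j} : Set F)))
          (Ideal.Quotient.mk (s18_fibreIdeal O ({j} : Set F)) (c ^ (m - 1) * d)) := by
      have e' := congrArg (algebraMap (s18_fibre O ({j} : Set F))
        (FractionRing (s18_fibre O ({j} : Set F)))) q1
      rw [map_pow, map_mul, map_pow] at e'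
      rw [div_pow, div_eq_iff (pow_ne_zero _ q3)]
      exact e'
    rw [e]
    exact isIntegral_algebraMap
  obtain ⟨β, hβ⟩ := IsIntegrallyClosed.algebraMap_eq_of_integral q4
  obtain ⟨b, rfl⟩ := Ideal.Quotient.mk_surjective β
  have q5 : Ideal.Quotient.mk (s18_fibreIdeal O ({j} : Set F)) b *
      Ideal.Quotient.mk (s18_fibreIdeal O ({j} : Set F)) y₀ =
      Ideal.Quotient.mk (s18_fibreIdeal O ({j} : Set F)) x₀ := by
    apply IsFractionRing.injective (s18_fibre O ({j} : Set F))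
      (FractionRing (s18_fibre O ({j} : Set F)))
    rw [map_mul, hβ, div_mul_cancel₀ _ q3]
  have h8 : x₀ - b * y₀ ∈ s18_fibreIdeal O ({j} : Set F) := by
    rw [← map_mul] at q5
    exact (Ideal.Quotient.eq).mp q5.symm
  refine ⟨b, ?_, (c : F) * g, hfI, ⟨x₀ - b * y₀, y₀, hy₀, by rw [pow_one]; exact h8, ?_⟩⟩
  · intro hb
    apply hc'n
    have q6 : (Ideal.Quotient.mk (s18_fibreIdeal O ({j} : Set F)) b) ^ m =
        Ideal.Quotient.mk (s18_fibreIdeal O ({j} : Set F)) (c ^ (m - 1) * d) := by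
      have e : (Ideal.Quotient.mk (s18_fibreIdeal O ({j} : Set F)) b) ^ m *
          (Ideal.Quotient.mk (s18_fibreIdeal O ({j} : Set F)) y₀) ^ m =
          Ideal.Quotient.mk (s18_fibreIdeal O ({j} : Set F)) (c ^ (m - 1) * d) *
            (Ideal.Quotient.mk (s18_fibreIdeal O ({j} : Set F)) y₀) ^ m := by
        rw [← mul_pow, q5, q1]
      exact mul_right_cancel₀ (pow_ne_zero _ q2) e
    rw [← map_pow] at q6
    have h9 : b ^ m - c ^ (m - 1) * d ∈ 𝔫 := hP𝔫 ((Ideal.Quotient.eq).mp q6)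
    have h10 : b ^ m ∈ 𝔫 := Ideal.pow_mem_of_mem _ hb m hm
    have e : c ^ (m - 1) * d = b ^ m - (b ^ m - c ^ (m - 1) * d) := by ring
    rw [e]
    exact Ideal.sub_mem _ h10 h9
  · push_cast
    rw [sub_mul, e₀]

end s18s_key

/-- **[SURJ-OF]** -/
theorem s18s_main : s18_SurjOfStatement := by
  intro O K F _ _ _ _ _ _ _ _ _ _ _ j hgood hb m u hm hu hred hloc
  have hP : (s18_fibreIdeal O ({j} : Set F)).IsPrime :=
    (Ideal.Quotient.isDomain_iff_prime _).mp hgood.isDomain_fin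
  have htop : s18s_J j u m hm hu hP = ⊤ := by
    by_contra hne
    obtain ⟨𝔫, h𝔫, hJ𝔫⟩ := Ideal.exists_le_maximal _ hne
    have hP𝔫 : s18_fibreIdeal O ({j} : Set F) ≤ 𝔫 := le_trans (s18s_le_J hm hu hP) hJ𝔫
    obtain ⟨g, hg, c, d, hc, hd, hgcd⟩ := hloc 𝔫 h𝔫 hP𝔫
    obtain ⟨b, hb𝔫, f, hf, hfb⟩ := s18s_key hgood.isDomain_fin hgood.isIntegrallyClosed_fin
      hb.val hm hred 𝔫 h𝔫.isPrime hP𝔫 g hg c d hc hd hgcd
    exact hb𝔫 (hJ𝔫 ⟨f, hf, hfb⟩)
  intro b
  have hbJ : b ∈ s18s_J j u m hm hu hP := by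
    rw [htop]
    exact Submodule.mem_top
  exact hbJ

end Fermat.Agent.S18
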