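/-
S18, package (A1) [BASIC] (helper28), part D.  Prefix `s18b_`.

`gauss_eq`: both charts `B = s18_chart O {t}`, `B' = s18_chart O {t⁻¹}` have the same
`W` (`s18_gauss O t k = s18_gauss O t⁻¹ k`), and `swap`.

PROOF of `s18_gauss O t⁻¹ k ⊆ s18_gauss O t k`.  (D1) `t⁻¹ ∈ W_t` (`t ∉ π B` by `inter` and
transcendence).  (D2) `B' ⊆ W_t`: `O[t⁻¹] ⊆ W_t` and `W_t` is integrally closed (if `f ∉ W_t`
then `g = 1/f ∈ π W_t`, and the integral equation of `f` multiplied by `g^d` gives `1 ∈ π W_t`).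
(D3) `π W_t ∩ B' = π B'`: `Q = π W_t ∩ B'` is an ideal containing the prime `π B'`; if it were
bigger, incomparability (`Ideal.comap_lt_comap_of_integral_mem_sdiff`) gives `a = q(t⁻¹) ∈ Q`,
`a ∉ π B'`, `q ∈ O[X]`; then `t^n a = (reverse q)(t) ∈ π W_t ∩ B = π B`, so by `inter` and
transcendence `ϖ` divides `reverse q`, hence `q`: contradiction.  (D4) `f = x' / y'` with
`x' ∈ π^k B' ⊆ π^k W_t` and `y' ∈ B' \ π B'` a unit of `W_t`.
-/
import Mathlib
import Fermat.Agent.S18.LiftDefs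
import Fermat.Agent.S18.Fin
import Fermat.Agent.S18.PoleOf
import Fermat.Agent.S18.SurjOf
import Fermat.Agent.S18.BasicC

set_option autoImplicit false
set_option linter.style.haveILetI false
set_option linter.unusedSectionVars false

open AlgebraicCurve IntermediateField Polynomial

noncomputable section

namespace Fermat.Agent.S18

section s18b_D

variable {O K F : Type} [CommRing O] [IsDomain O] [IsDiscreteValuationRing O]
  [Field K] [Algebra O K] [IsFractionRing O K] [Field F] [Algebra K F] [Algebra O F]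
  [IsScalarTower O K F]

/-- The facts about one chart which are used in the comparison of the two charts. -/
structure s18b_Chart (O K F : Type) [CommRing O] [IsDomain O] [IsDiscreteValuationRing O]
    [Field K] [Algebra O K] [IsFractionRing O K] [Field F] [Algebra K F] [Algebra O F]
    [IsScalarTower O K F] (t : F) : Prop where
  tr : Transcendental K t
  noeth : IsNoetherianRing ↥(s18_chart O ({t} : Set F))
  frac : ∀ f : F, ∃ x y : ↥(s18_chart O ({t} : Set F)), y ≠ 0 ∧ f * (y : F) = (x : F)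
  inter : ∀ x ∈ s18_chart O ({t} : Set F), x ∈ K⟮t⟯ → x ∈ Algebra.adjoin O ({t} : Set F)
  prime : (s18_fibreIdeal O ({t} : Set F)).IsPrime

/-- The uniformizer in the chart. -/
theorem s18b_pi_coe (t : F) (ϖ : O) :
    ((algebraMap O ↥(s18_chart O ({t} : Set F)) ϖ : ↥(s18_chart O ({t} : Set F))) : F) =
      algebraMap O F ϖ := rfl

theorem s18b_hP (t : F) {ϖ : O} (hϖ : Irreducible ϖ) :
    s18_fibreIdeal O ({t} : Set F) =
      Ideal.span {algebraMap O ↥(s18_chart O ({t} : Set F)) ϖ} := by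
  rw [s18_fibreIdeal, hϖ.maximalIdeal_eq, Ideal.map_span, Set.image_singleton]

include K in
theorem s18b_pi_ne_zero (t : F) {ϖ : O} (hϖ : Irreducible ϖ) :
    algebraMap O ↥(s18_chart O ({t} : Set F)) ϖ ≠ 0 := by
  intro h
  have h1 := congrArg (fun z : ↥(s18_chart O ({t} : Set F)) => (z : F)) h
  simp only [s18b_pi_coe] at h1
  exact hϖ.ne_zero (s18p_inj O K F (by rw [h1, map_zero]; rfl))

theorem s18b_pi_prime {t : F} (h : s18b_Chart O K F t) {ϖ : O} (hϖ : Irreducible ϖ) :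
    Prime (algebraMap O ↥(s18_chart O ({t} : Set F)) ϖ) := by
  have := h.prime
  rw [s18b_hP t hϖ] at this
  exact (Ideal.span_singleton_prime (s18b_pi_ne_zero (K := K) t hϖ)).mp this

/-- Finite sums in `π^k W`. -/
theorem s18b_gauss_sum {t : F} (h : s18b_Chart O K F t) {ϖ : O} (hϖ : Irreducible ϖ) {k : ℕ}
    {ι : Type*} (s : Finset ι) (f : ι → F) (hf : ∀ i ∈ s, f i ∈ s18_gauss O t k) :
    ∑ i ∈ s, f i ∈ s18_gauss O t k := by
  classical
  induction s using Finset.induction_on with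
  | empty =>
    rw [Finset.sum_empty]
    have := (s18b_chart_mem_gauss_iff (s18b_hP t hϖ) (s18b_pi_prime h hϖ) k 0).mpr (dvd_zero _)
    simpa using this
  | insert a s ha ih =>
    rw [Finset.sum_insert ha]
    exact s18s_gauss_add h.prime (hf a (Finset.mem_insert_self a s))
      (ih (fun i hi => hf i (Finset.mem_insert_of_mem hi)))

/-- (D1) `t⁻¹ ∈ W_t`. -/
theorem s18b_inv_mem {t : F} (h : s18b_Chart O K F t) {ϖ : O} (hϖ : Irreducible ϖ) :
    t⁻¹ ∈ s18_gauss O t 0 := by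
  haveI := h.noeth
  rcases s18b_val (s18b_hP t hϖ) (s18b_pi_prime h hϖ) h.frac t⁻¹ with h1 | h1
  · exact h1
  · exfalso
    rw [inv_inv] at h1
    have h2 := (s18b_chart_mem_gauss_iff (s18b_hP t hϖ) (s18b_pi_prime h hϖ) 1
      ⟨t, s18p_j_mem O t⟩).mp h1
    rw [pow_one] at h2
    obtain ⟨b, hb⟩ := h2
    have h3 := congrArg (fun z : ↥(s18_chart O ({t} : Set F)) => (z : F)) hb
    simp only [MulMemClass.coe_mul, s18b_pi_coe] at h3
    exact s18p_j_notDvd t h.tr h.inter hϖ (b : F) b.2 h3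

/-- `O[t⁻¹] ⊆ W_t`. -/
theorem s18b_adjoin_inv_gauss {t : F} (h : s18b_Chart O K F t) {ϖ : O} (hϖ : Irreducible ϖ)
    {x : F} (hx : x ∈ Algebra.adjoin O ({t⁻¹} : Set F)) : x ∈ s18_gauss O t 0 := by
  rw [Algebra.adjoin_singleton_eq_range_aeval] at hx
  obtain ⟨q, rfl⟩ := hx
  show aeval t⁻¹ q ∈ s18_gauss O t 0
  rw [Polynomial.aeval_eq_sum_range]
  refine s18b_gauss_sum h hϖ _ _ (fun i _ => ?_)
  rw [Algebra.smul_def]
  have h1 : algebraMap O F (q.coeff i) ∈ s18_gauss O t 0 :=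
    s18b_chart_gauss (s18b_hP t hϖ) (s18b_pi_prime h hϖ)
      (algebraMap O ↥(s18_chart O ({t} : Set F)) (q.coeff i))
  have h2 : ∀ n : ℕ, t⁻¹ ^ n ∈ s18_gauss O t 0 := by
    intro n
    induction n with
    | zero =>
      rw [pow_zero]
      have := s18b_chart_gauss (s18b_hP t hϖ) (s18b_pi_prime h hϖ) 1
      simpa using this
    | succ n ih =>
      rw [pow_succ]
      exact s18b_gauss_mul (s18b_hP t hϖ) (s18b_pi_prime h hϖ) ih (s18b_inv_mem h hϖ)
  exact s18b_gauss_mul (s18b_hP t hϖ) (s18b_pi_prime h hϖ) h1 (h2 i)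

/-- Powers in `W`. -/
theorem s18b_gauss_pow {t : F} (h : s18b_Chart O K F t) {ϖ : O} (hϖ : Irreducible ϖ) {f : F}
    (hf : f ∈ s18_gauss O t 0) (n : ℕ) : f ^ n ∈ s18_gauss O t 0 := by
  induction n with
  | zero =>
    rw [pow_zero]
    have := s18b_chart_gauss (s18b_hP t hϖ) (s18b_pi_prime h hϖ) 1
    simpa using this
  | succ n ih =>
    rw [pow_succ]
    exact s18b_gauss_mul (s18b_hP t hϖ) (s18b_pi_prime h hϖ) ih hf

/-- (D2) `W_t` is integrally closed over `O[t⁻¹]`: `B' ⊆ W_t`. -/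
theorem s18b_chart_inv_gauss {t : F} (h : s18b_Chart O K F t) {ϖ : O} (hϖ : Irreducible ϖ)
    {f : F} (hf : f ∈ s18_chart O ({t⁻¹} : Set F)) : f ∈ s18_gauss O t 0 := by
  haveI := h.noeth
  have hP := s18b_hP t hϖ
  have hπ := s18b_pi_prime h hϖ
  by_cases hf0 : f = 0
  · rw [hf0]
    have := s18b_chart_gauss hP hπ 0
    simpa using this
  rcases s18b_val hP hπ h.frac f with h1 | h1
  · exact h1
  · exfalso
    rw [s18_mem_chart_iff] at hf
    obtain ⟨p, hp, hpf⟩ := hf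
    have h0 : Polynomial.eval₂ (algebraMap ↥(Algebra.adjoin O ({t⁻¹} : Set F)) F) f p = 0 := hpf
    rw [Polynomial.eval₂_eq_sum_range, Finset.sum_range_succ, hp.coeff_natDegree, map_one,
      one_mul] at h0
    -- multiply by `g^d`, `g = f⁻¹`
    have h2 : (1 : F) = ∑ i ∈ Finset.range p.natDegree,
        ((-1 : ↥(s18_chart O ({t} : Set F))) : F) *
          ((algebraMap ↥(Algebra.adjoin O ({t⁻¹} : Set F)) F (p.coeff i)) *
            (f⁻¹ ^ (p.natDegree - i - 1) * f⁻¹)) := by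
      have e1 : ∀ i ∈ Finset.range p.natDegree,
          ((-1 : ↥(s18_chart O ({t} : Set F))) : F) *
          ((algebraMap ↥(Algebra.adjoin O ({t⁻¹} : Set F)) F (p.coeff i)) *
            (f⁻¹ ^ (p.natDegree - i - 1) * f⁻¹)) =
          - (f⁻¹ ^ p.natDegree *
            ((algebraMap ↥(Algebra.adjoin O ({t⁻¹} : Set F)) F (p.coeff i)) * f ^ i)) := by
        intro i hi
        have hi' : i < p.natDegree := Finset.mem_range.mp hi
        have e2 : f⁻¹ ^ p.natDegree = f⁻¹ ^ (p.natDegree - i - 1) * f⁻¹ * f⁻¹ ^ i := by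
          rw [← pow_succ, ← pow_add]
          congr 1
          omega
        have e3 : f⁻¹ ^ i * f ^ i = 1 := by
          rw [← mul_pow, inv_mul_cancel₀ hf0, one_pow]
        rw [e2]
        push_cast
        linear_combination (f⁻¹ ^ (p.natDegree - i - 1) * f⁻¹ *
          (algebraMap ↥(Algebra.adjoin O ({t⁻¹} : Set F)) F (p.coeff i))) * e3
      rw [Finset.sum_congr rfl e1, Finset.sum_neg_distrib, ← Finset.mul_sum]
      have e4 : f⁻¹ ^ p.natDegree * f ^ p.natDegree = 1 := by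
        rw [← mul_pow, inv_mul_cancel₀ hf0, one_pow]
      linear_combination (f⁻¹ ^ p.natDegree) * h0 - e4
    apply s18b_one_notMem hP hπ
    rw [h2]
    refine s18b_gauss_sum h hϖ _ _ (fun i _ => ?_)
    have k1 := s18b_chart_gauss hP hπ (-1 : ↥(s18_chart O ({t} : Set F)))
    have k2 := s18b_adjoin_inv_gauss h hϖ (p.coeff i).2
    have k3 := s18b_gauss_pow h hϖ (s18b_gauss_anti hP (Nat.zero_le 1) h1)
      (p.natDegree - i - 1)
    have k4 := s18b_gauss_mul hP hπ k3 h1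
    have k5 := s18b_gauss_mul hP hπ k2 k4
    have k6 := s18b_gauss_mul hP hπ k1 k5
    simpa using k6

omit [IsDomain O] [IsDiscreteValuationRing O] in
theorem s18b_adjoin_le_chart (t : F) :
    Algebra.adjoin O ({t} : Set F) ≤ s18_chart O ({t} : Set F) := by
  intro x hx
  rw [s18_mem_chart_iff]
  exact isIntegral_algebraMap (R := ↥(Algebra.adjoin O ({t} : Set F))) (x := ⟨x, hx⟩)

/-- The ideal `π W_t ∩ B'` of the other chart. -/
def s18b_Q {t : F} (h : s18b_Chart O K F t) {ϖ : O} (hϖ : Irreducible ϖ) :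
    Ideal ↥(s18_chart O ({t⁻¹} : Set F)) where
  carrier := {b | (b : F) ∈ s18_gauss O t 1}
  zero_mem' := by
    have := (s18b_chart_mem_gauss_iff (s18b_hP t hϖ) (s18b_pi_prime h hϖ) 1 0).mpr (dvd_zero _)
    simpa using this
  add_mem' := by
    intro a b ha hb
    have := s18s_gauss_add h.prime ha hb
    simpa using this
  smul_mem' := by
    intro c b hb
    have h1 := s18b_chart_inv_gauss h hϖ c.2
    have h2 := s18b_gauss_mul (s18b_hP t hϖ) (s18b_pi_prime h hϖ) h1 hb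
    rw [zero_add] at h2
    simpa using h2

theorem s18b_mem_Q {t : F} (h : s18b_Chart O K F t) {ϖ : O} (hϖ : Irreducible ϖ)
    (b : ↥(s18_chart O ({t⁻¹} : Set F))) :
    b ∈ s18b_Q h hϖ ↔ (b : F) ∈ s18_gauss O t 1 := Iff.rfl

theorem s18b_le_Q {t : F} (h : s18b_Chart O K F t) {ϖ : O} (hϖ : Irreducible ϖ) :
    s18_fibreIdeal O ({t⁻¹} : Set F) ≤ s18b_Q h hϖ := by
  intro b hb
  rw [s18b_hP t⁻¹ hϖ, Ideal.mem_span_singleton] at hb
  obtain ⟨c, rfl⟩ := hb
  rw [s18b_mem_Q]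
  have h1 := s18b_pi_pow_gauss (s18b_hP t hϖ) (s18b_pi_prime h hϖ) 1
  have h2 := s18b_chart_inv_gauss h hϖ c.2
  have h3 := s18b_gauss_mul (s18b_hP t hϖ) (s18b_pi_prime h hϖ) h1 h2
  rw [pow_one, add_zero] at h3
  have e : ((algebraMap O ↥(s18_chart O ({t⁻¹} : Set F)) ϖ * c :
      ↥(s18_chart O ({t⁻¹} : Set F))) : F) =
      ((algebraMap O ↥(s18_chart O ({t} : Set F)) ϖ : ↥(s18_chart O ({t} : Set F))) : F) *
        (c : F) := by
    rw [MulMemClass.coe_mul, s18b_pi_coe, s18b_pi_coe]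
  rw [e]
  exact h3

/-- The elements of `O[t⁻¹]` in `π W_t` are divisible by `ϖ`. -/
theorem s18b_D3_adjoin {t : F} (h : s18b_Chart O K F t) {ϖ : O} (hϖ : Irreducible ϖ)
    (q : O[X]) (hq : aeval t⁻¹ q ∈ s18_gauss O t 1) : C ϖ ∣ q := by
  have hP := s18b_hP t hϖ
  have hπ := s18b_pi_prime h hϖ
  have ht0 : t ≠ 0 := by
    rintro rfl
    exact h.tr ⟨X, X_ne_zero, by simp⟩
  -- reversal
  have hrev : aeval t q.reverse = t ^ q.natDegree * aeval t⁻¹ q := by
    letI : Invertible t⁻¹ := invertibleOfNonzero (inv_ne_zero ht0)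
    have e := Polynomial.eval₂_reverse_mul_pow (algebraMap O F) t⁻¹ q
    have e' : (⅟(t⁻¹) : F) = t := by
      rw [invOf_eq_inv, inv_inv]
    rw [e'] at e
    rw [Polynomial.aeval_def, Polynomial.aeval_def, ← e, inv_pow]
    field_simp
  have hmem : aeval t q.reverse ∈ s18_chart O ({t} : Set F) :=
    s18b_adjoin_le_chart t (s18fin_mem_adjoin.mpr ⟨q.reverse, rfl⟩)
  have hg : ((⟨aeval t q.reverse, hmem⟩ : ↥(s18_chart O ({t} : Set F))) : F) ∈
      s18_gauss O t 1 := by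
    show aeval t q.reverse ∈ s18_gauss O t 1
    rw [hrev]
    have h1 := s18b_chart_gauss hP hπ (⟨t, s18p_j_mem O t⟩ ^ q.natDegree)
    have h2 := s18b_gauss_mul hP hπ h1 hq
    rw [zero_add] at h2
    simpa using h2
  have hdvd := (s18b_chart_mem_gauss_iff hP hπ 1 _).mp hg
  rw [pow_one] at hdvd
  obtain ⟨c, hc⟩ := hdvd
  have hcF : aeval t q.reverse = algebraMap O F ϖ * (c : F) := by
    have := congrArg (fun z : ↥(s18_chart O ({t} : Set F)) => (z : F)) hc
    simpa [s18b_pi_coe] using this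
  have hϖF : algebraMap O F ϖ ≠ 0 := by
    intro h0
    exact hϖ.ne_zero (s18p_inj O K F (by rw [h0, map_zero]))
  have hcK : (c : F) ∈ K⟮t⟯ := by
    have e : (c : F) = (algebraMap O F ϖ)⁻¹ * aeval t q.reverse := by
      rw [hcF, ← mul_assoc, inv_mul_cancel₀ hϖF, one_mul]
    rw [e]
    refine mul_mem (inv_mem ?_) ?_
    · rw [IsScalarTower.algebraMap_apply O K F]
      exact IntermediateField.algebraMap_mem _ _
    · exact s18fin_adjoin_le K⟮t⟯ (mem_adjoin_simple_self K t)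
        (s18fin_mem_adjoin.mpr ⟨q.reverse, rfl⟩)
  obtain ⟨r, hr⟩ := s18fin_mem_adjoin.mp (h.inter (c : F) c.2 hcK)
  have hinj : Function.Injective (aeval (R := O) t) :=
    transcendental_iff_injective.mp (s18fin_transc_O h.tr)
  have hqr : q.reverse = C ϖ * r := by
    apply hinj
    rw [map_mul, Polynomial.aeval_C, hr, hcF]
  rw [Polynomial.C_dvd_iff_dvd_coeff]
  intro i
  have h1 : q.coeff i = q.reverse.coeff (Polynomial.revAt q.natDegree i) := by
    rw [Polynomial.coeff_reverse, Polynomial.revAt_invol]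
  rw [h1, hqr, Polynomial.coeff_C_mul]
  exact dvd_mul_right _ _

/-- (D3) `π W_t ∩ B' = π B'`. -/
theorem s18b_D3 {t : F} (h : s18b_Chart O K F t)
    (hP' : (s18_fibreIdeal O ({t⁻¹} : Set F)).IsPrime) {ϖ : O} (hϖ : Irreducible ϖ)
    (b : ↥(s18_chart O ({t⁻¹} : Set F))) (hb : (b : F) ∈ s18_gauss O t 1) :
    b ∈ s18_fibreIdeal O ({t⁻¹} : Set F) := by
  by_contra hbP
  letI : Algebra ↥(Algebra.adjoin O ({t⁻¹} : Set F)) ↥(s18_chart O ({t⁻¹} : Set F)) :=
    (Subalgebra.inclusion (s18b_adjoin_le_chart (O := O) t⁻¹)).toRingHom.toAlgebra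
  haveI : IsScalarTower ↥(Algebra.adjoin O ({t⁻¹} : Set F)) ↥(s18_chart O ({t⁻¹} : Set F)) F :=
    IsScalarTower.of_algebraMap_eq (fun a => rfl)
  have hint : IsIntegral ↥(Algebra.adjoin O ({t⁻¹} : Set F)) b := by
    have hinj : Function.Injective (algebraMap ↥(s18_chart O ({t⁻¹} : Set F)) F) :=
      Subtype.val_injective
    exact (isIntegral_algebraMap_iff hinj).mp b.2
  have hlt := Ideal.comap_lt_comap_of_integral_mem_sdiff (s18b_le_Q h hϖ)
    (x := b) ⟨(s18b_mem_Q h hϖ b).mpr hb, hbP⟩ hint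
  obtain ⟨a, haQ, haP⟩ := SetLike.exists_of_lt hlt
  rw [Ideal.mem_comap] at haQ haP
  obtain ⟨q, hq⟩ := s18fin_mem_adjoin.mp a.2
  have hqg : aeval t⁻¹ q ∈ s18_gauss O t 1 := by
    rw [hq]
    exact haQ
  obtain ⟨r, rfl⟩ := s18b_D3_adjoin h hϖ q hqg
  apply haP
  rw [s18b_hP t⁻¹ hϖ, Ideal.mem_span_singleton]
  refine ⟨⟨aeval t⁻¹ r, s18b_adjoin_le_chart t⁻¹ (s18fin_mem_adjoin.mpr ⟨r, rfl⟩)⟩, ?_⟩
  apply Subtype.ext
  show (a : F) = algebraMap O F ϖ * aeval t⁻¹ r
  rw [← hq, map_mul, Polynomial.aeval_C]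

/-- (D4) `π^k W_(1/t) ⊆ π^k W_t`. -/
theorem s18b_D4 {t : F} (h : s18b_Chart O K F t)
    (hP' : (s18_fibreIdeal O ({t⁻¹} : Set F)).IsPrime) {ϖ : O} (hϖ : Irreducible ϖ) (k : ℕ)
    {f : F} (hf : f ∈ s18_gauss O t⁻¹ k) : f ∈ s18_gauss O t k := by
  haveI := h.noeth
  have hP := s18b_hP t hϖ
  have hπ := s18b_pi_prime h hϖ
  obtain ⟨x', y', hy', hx', e⟩ := hf
  rw [s18b_hP t⁻¹ hϖ, Ideal.span_singleton_pow, Ideal.mem_span_singleton] at hx'
  obtain ⟨x'', rfl⟩ := hx'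
  rw [MulMemClass.coe_mul, SubmonoidClass.coe_pow, s18b_pi_coe] at e
  have h1 : algebraMap O F ϖ ^ k * (x'' : F) ∈ s18_gauss O t k := by
    have k1 := s18b_pi_pow_gauss hP hπ k
    have k2 := s18b_chart_inv_gauss h hϖ x''.2
    have k3 := s18b_gauss_mul hP hπ k1 k2
    rw [add_zero, SubmonoidClass.coe_pow, s18b_pi_coe] at k3
    exact k3
  have hy0 : (y' : F) ≠ 0 := by
    intro h0
    apply hy'
    have : y' = 0 := Subtype.ext h0
    rw [this]
    exact Ideal.zero_mem _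
  have h2 : (y' : F)⁻¹ ∈ s18_gauss O t 0 := by
    rcases s18b_val hP hπ h.frac (y' : F)⁻¹ with h3 | h3
    · exact h3
    · exfalso
      rw [inv_inv] at h3
      exact hy' (s18b_D3 h hP' hϖ y' h3)
  have h4 := s18b_gauss_mul hP hπ h1 h2
  rw [add_zero] at h4
  have e2 : f = algebraMap O F ϖ ^ k * (x'' : F) * (y' : F)⁻¹ := by
    rw [← e, mul_assoc, mul_inv_cancel₀ hy0, mul_one]
  rw [e2]
  exact h4

/-- **`gauss_eq`** -/
theorem s18b_gauss_eq {t : F} (h : s18b_Chart O K F t) (h' : s18b_Chart O K F t⁻¹) {ϖ : O}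
    (hϖ : Irreducible ϖ) (k : ℕ) : s18_gauss O t k = s18_gauss O t⁻¹ k := by
  apply Set.Subset.antisymm
  · intro f hf
    have hP : (s18_fibreIdeal O ({t⁻¹⁻¹} : Set F)).IsPrime := by
      rw [inv_inv]
      exact h.prime
    have hf' : f ∈ s18_gauss O t⁻¹⁻¹ k := by
      rw [inv_inv]
      exact hf
    exact s18b_D4 h' hP hϖ k hf'
  · intro f hf
    exact s18b_D4 h h'.prime hϖ k hf

omit [IsDomain O] [IsDiscreteValuationRing O] in
/-- `u ≡ 1` modulo the special fibre means `u - 1 ∈ π W`. -/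
theorem s18b_redOne_iff [IsLocalRing O] (t u : F) :
    s18_RedOne O t u ↔ u - 1 ∈ s18_gauss O t 1 := by
  constructor
  · rintro ⟨x, y, hy, hxy, e⟩
    refine ⟨x - y, y, hy, by rw [pow_one]; exact hxy, ?_⟩
    push_cast
    rw [← e]
    ring
  · rintro ⟨x, y, hy, hx, e⟩
    rw [pow_one] at hx
    refine ⟨x + y, y, hy, by simpa using hx, ?_⟩
    push_cast
    rw [← e]
    ring

/-- **`swap`** -/
theorem s18b_swap {t : F} (h : s18b_Chart O K F t) (h' : s18b_Chart O K F t⁻¹) {ϖ : O}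
    (hϖ : Irreducible ϖ) (u : F) (hu : s18_RedOne O t u) : s18_RedOne O t⁻¹ u := by
  rw [s18b_redOne_iff] at hu ⊢
  rw [← s18b_gauss_eq h h' hϖ 1]
  exact hu

end s18b_D

end Fermat.Agent.S18
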