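/-
S18, package (A1) [BASIC] of helper13's cut of [ASTAR] (helper28).  Prefix `s18b_`.

    theorem s18b_main : s18_BasicStatement

The ten standard facts about the two charts of a good model:
  `noeth`, `finite`, `frac`   Basic A  (`IsIntegralClosure.finite` over the normal noetherian
                              `O[j] ≅ O[X]`, `F / K(j)` finite separable)
  `inter`                     helper7's `s18fin_inter'`
  `cover`                     Basic B  (scaling the roots of the integral equation)
  `val`, `sep`                Basic C  (`x = π^n x'`, `π ∤ x'` in the noetherian domain `B`)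
  `gauss_eq`, `swap`          Basic D  (`B' ⊆ W`, `π W ∩ B' = π B'` by incomparability)
  `symm`                      here
-/
import Mathlib
import Fermat.Agent.S18.LiftDefs
import Fermat.Agent.S18.Fin
import Fermat.Agent.S18.BasicA
import Fermat.Agent.S18.BasicB
import Fermat.Agent.S18.BasicC
import Fermat.Agent.S18.BasicD

set_option autoImplicit false
set_option linter.style.haveILetI false
set_option linter.unusedSectionVars false

open AlgebraicCurve IntermediateField Polynomial

noncomputable section

namespace Fermat.Agent.S18

section s18b_main

variable {O K F : Type} [CommRing O] [IsDomain O] [IsDiscreteValuationRing O]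
  [Field K] [CharZero K] [Algebra O K] [IsFractionRing O K] [Field F] [Algebra K F]
  [Algebra O F] [IsScalarTower O K F]

/-- **`symm`** -/
theorem s18b_symm {j : F} (hgood : s18_IsGoodModel O K F j) : s18_IsGoodModel O K F j⁻¹ where
  transcendental := s18fin_transc_inv hgood.transcendental
  finite := (s18fin_adjoin_inv (K := K) j) ▸ hgood.finite
  isDomain_fin := hgood.isDomain_inf
  isIntegrallyClosed_fin := hgood.isIntegrallyClosed_inf
  isDomain_inf := by
    rw [inv_inv]
    exact hgood.isDomain_fin
  isIntegrallyClosed_inf := by
    rw [inv_inv]
    exact hgood.isIntegrallyClosed_fin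

/-- The chart facts of a good model. -/
theorem s18b_chart_of_good {j : F} (hgood : s18_IsGoodModel O K F j) : s18b_Chart O K F j where
  tr := hgood.transcendental
  noeth := s18b_noeth hgood.transcendental hgood.finite
  frac := s18b_frac hgood.transcendental hgood.finite
  inter := fun _ hx hxK => s18fin_inter' hgood.transcendental hx hxK
  prime := (Ideal.Quotient.isDomain_iff_prime _).mp hgood.isDomain_fin

end s18b_main

/-- **[BASIC]** -/
theorem s18b_main : s18_BasicStatement := by
  intro O K F _ _ _ _ _ _ _ _ _ _ _ j hgood
  obtain ⟨ϖ, hϖ⟩ := IsDiscreteValuationRing.exists_irreducible O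
  have hsymm := s18b_symm hgood
  have hch := s18b_chart_of_good hgood
  have hch' := s18b_chart_of_good hsymm
  have hj0 : j ≠ 0 := by
    rintro rfl
    exact hgood.transcendental ⟨X, X_ne_zero, by simp⟩
  haveI := hch.noeth
  exact
    { noeth := hch.noeth
      finite := s18b_finite hgood.transcendental hgood.finite
      frac := hch.frac
      inter := hch.inter
      symm := hsymm
      val := s18b_val (s18b_hP j hϖ) (s18b_pi_prime hch hϖ) hch.frac
      sep := s18b_sep (s18b_hP j hϖ) (s18b_pi_prime hch hϖ) hch.frac
      gauss_eq := s18b_gauss_eq hch hch' hϖ
      swap := s18b_swap hch hch' hϖ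
      cover := fun _ hx => s18b_cover hj0 hx }

end Fermat.Agent.S18
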