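/-
S18, package (A6) [CECH] (helper18).  Prefix `s18ce_`.

`s18ce_main : s18_CechStatement` (`S18/LiftDefs.lean`, verbatim), hypothesis-free:
`I[1/j] = I + jⁿ I'` for `n ≥ n₀`, where `I = s18_root O j u m = {f : f ^ m ∈ u B}`,
`I' = s18_root O j⁻¹ u m`.

PROOF.  `I` is a `B`-submodule of `F` (`B` is integrally closed in `F`: `s18ce_root_add`);
`u = x / y` gives `y I ⊆ B`, so `I` is a finitely generated `B`-module (`B` noetherian) and a
finitely generated `O[j]`-module (`B` is finite over `O[j]`): generators `G`.  Every `g ∈ I` has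
`j⁻ⁿ g ∈ I'` for `n ≥ k_g` (`s18ce_cover`); `n₀ := max k_g`.  For `c ∈ O[j]`:
`j⁻ᵏ c = c⁺ + c⁻`, `c⁺ ∈ O[j]`, `c⁻ ∈ O[j⁻¹]` (`s18ce_split`).  Span induction over `G`.
-/
import Mathlib
import Fermat.Agent.S18.LiftDefs

set_option autoImplicit false
set_option linter.style.haveILetI false
set_option linter.unusedSectionVars false

open Polynomial

noncomputable section

namespace Fermat.Agent.S18

/-! ### Charts -/

section chart

variable (O : Type) [CommRing O] {F : Type} [Field F] [Algebra O F]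

/-- A chart contains the `m`-th roots of its elements. -/
theorem s18ce_chart_closed (S : Set F) {x : F} {m : ℕ} (hm : 0 < m)
    (h : x ^ m ∈ s18_chart O S) : x ∈ s18_chart O S :=
  IsIntegral.of_pow hm h

/-- `O[S]` is contained in the chart of `S`. -/
theorem s18ce_adjoin_le (S : Set F) : Algebra.adjoin O S ≤ s18_chart O S := by
  intro x hx
  exact isIntegral_algebraMap (R := ↥(Algebra.adjoin O S)) (A := F) (x := ⟨x, hx⟩)

theorem s18ce_self_mem (j : F) : j ∈ s18_chart O ({j} : Set F) :=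
  s18ce_adjoin_le O _ (Algebra.subset_adjoin rfl)

/-- The Laurent splitting: `j⁻ᵏ c = c⁺ + c⁻` with `c⁺ ∈ O[j]`, `c⁻ ∈ O[j⁻¹]`. -/
theorem s18ce_split {j : F} (hj : j ≠ 0) {c : F} (hc : c ∈ Algebra.adjoin O ({j} : Set F))
    (k : ℕ) :
    ∃ c₁ ∈ Algebra.adjoin O ({j} : Set F), ∃ c₂ ∈ Algebra.adjoin O ({j⁻¹} : Set F),
      j⁻¹ ^ k * c = c₁ + c₂ := by
  rw [Algebra.adjoin_singleton_eq_range_aeval] at hc
  obtain ⟨p, rfl⟩ := hc
  have hjm : j ∈ Algebra.adjoin O ({j} : Set F) := Algebra.subset_adjoin rfl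
  have hjm' : j⁻¹ ∈ Algebra.adjoin O ({j⁻¹} : Set F) := Algebra.subset_adjoin rfl
  induction p using Polynomial.induction_on' with
  | add p q hp hq =>
    obtain ⟨a₁, ha₁, a₂, ha₂, ha⟩ := hp
    obtain ⟨b₁, hb₁, b₂, hb₂, hb⟩ := hq
    refine ⟨a₁ + b₁, add_mem ha₁ hb₁, a₂ + b₂, add_mem ha₂ hb₂, ?_⟩
    have e : (aeval j : O[X] →ₐ[O] F).toRingHom (p + q) =
        (aeval j : O[X] →ₐ[O] F).toRingHom p + (aeval j : O[X] →ₐ[O] F).toRingHom q :=
      map_add _ p q
    rw [e, mul_add, ha, hb]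
    ring
  | monomial n a =>
    have e : (aeval j : O[X] →ₐ[O] F).toRingHom (monomial n a) = algebraMap O F a * j ^ n := by
      show aeval j (monomial n a) = _
      rw [Polynomial.aeval_monomial]
    rw [e]
    rcases le_or_gt k n with h | h
    · refine ⟨algebraMap O F a * j ^ (n - k), mul_mem (Subalgebra.algebraMap_mem _ a)
        (pow_mem hjm _), 0, zero_mem _, ?_⟩
      rw [add_zero, ← pow_sub_mul_pow j h, inv_pow]
      field_simp
    · refine ⟨0, zero_mem _, algebraMap O F a * j⁻¹ ^ (k - n), mul_mem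
        (Subalgebra.algebraMap_mem _ a) (pow_mem hjm' _), ?_⟩
      rw [zero_add, ← pow_sub_mul_pow j⁻¹ h.le, inv_pow, inv_pow]
      field_simp

end chart

/-! ### The module `I` -/

section root

variable (O : Type) [CommRing O] [IsLocalRing O] {F : Type} [Field F] [Algebra O F]

theorem s18ce_root_zero (j u : F) {m : ℕ} (hm : 0 < m) : (0 : F) ∈ s18_root O j u m :=
  ⟨0, by rw [zero_pow hm.ne', ZeroMemClass.coe_zero, mul_zero]⟩

/-- `I` is stable under multiplication by the chart. -/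
theorem s18ce_root_mul (j u : F) (m : ℕ) {b f : F} (hb : b ∈ s18_chart O ({j} : Set F))
    (hf : f ∈ s18_root O j u m) : b * f ∈ s18_root O j u m := by
  obtain ⟨c, hc⟩ := hf
  refine ⟨⟨b, hb⟩ ^ m * c, ?_⟩
  rw [mul_pow, hc]
  push_cast
  ring

/-- `I` is stable under addition (the chart is integrally closed in `F`). -/
theorem s18ce_root_add (j u : F) {m : ℕ} (hm : 0 < m) (hu : u ≠ 0) {f g : F}
    (hf : f ∈ s18_root O j u m) (hg : g ∈ s18_root O j u m) : f + g ∈ s18_root O j u m := by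
  obtain ⟨c, hc⟩ := hf
  obtain ⟨d, hd⟩ := hg
  have ht : ∀ i ∈ Finset.range (m + 1),
      f ^ i * g ^ (m - i) / u ∈ s18_chart O ({j} : Set F) := by
    intro i hi
    have hi' : i ≤ m := Nat.lt_succ_iff.1 (Finset.mem_range.1 hi)
    apply s18ce_chart_closed O _ hm
    have e : (f ^ i * g ^ (m - i) / u) ^ m = (c : F) ^ i * (d : F) ^ (m - i) := by
      have e1 : (f ^ i) ^ m = (u * (c : F)) ^ i := by
        rw [← pow_mul, mul_comm, pow_mul, hc]
      have e2 : (g ^ (m - i)) ^ m = (u * (d : F)) ^ (m - i) := by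
        rw [← pow_mul, mul_comm, pow_mul, hd]
      have e3 : u ^ m = u ^ i * u ^ (m - i) := by
        rw [← pow_add, Nat.add_sub_cancel' hi']
      rw [div_pow, mul_pow, e1, e2, mul_pow, mul_pow, e3]
      field_simp
    rw [e]
    exact mul_mem (pow_mem c.2 _) (pow_mem d.2 _)
  refine ⟨⟨∑ i ∈ Finset.range (m + 1), f ^ i * g ^ (m - i) / u * (m.choose i : F),
    sum_mem (fun i hi => mul_mem (ht i hi) (natCast_mem _ _))⟩, ?_⟩
  rw [add_pow]
  show _ = u * ∑ i ∈ Finset.range (m + 1), f ^ i * g ^ (m - i) / u * (m.choose i : F)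
  rw [Finset.mul_sum]
  refine Finset.sum_congr rfl (fun i _ => ?_)
  field_simp

/-- Sums of elements of `I` are in `I`. -/
theorem s18ce_root_sum (j u : F) {m : ℕ} (hm : 0 < m) (hu : u ≠ 0) {ι : Type*}
    (s : Finset ι) (f : ι → F) (hf : ∀ i ∈ s, f i ∈ s18_root O j u m) :
    ∑ i ∈ s, f i ∈ s18_root O j u m := by
  classical
  induction s using Finset.induction_on with
  | empty => rw [Finset.sum_empty]; exact s18ce_root_zero O j u hm
  | insert a s ha ih =>
    rw [Finset.sum_insert ha]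
    exact s18ce_root_add O j u hm hu (hf a (Finset.mem_insert_self a s))
      (ih (fun i hi => hf i (Finset.mem_insert_of_mem hi)))

/-- `I` as a submodule of `F` over the chart. -/
def s18ce_I (j u : F) (m : ℕ) (hm : 0 < m) (hu : u ≠ 0) :
    Submodule ↥(s18_chart O ({j} : Set F)) F where
  carrier := s18_root O j u m
  add_mem' := s18ce_root_add O j u hm hu
  zero_mem' := s18ce_root_zero O j u hm
  smul_mem' b f hf := by
    show (b : F) * f ∈ s18_root O j u m
    exact s18ce_root_mul O j u m b.2 hf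

theorem s18ce_mem_I {j u : F} {m : ℕ} (hm : 0 < m) (hu : u ≠ 0) {f : F} :
    f ∈ s18ce_I O j u m hm hu ↔ f ∈ s18_root O j u m := Iff.rfl

/-- `I` is a finitely generated module over a noetherian chart in which `u` is a fraction. -/
theorem s18ce_I_fg (j u : F) (m : ℕ) (hm : 0 < m) (hu : u ≠ 0)
    (hnoeth : IsNoetherianRing ↥(s18_chart O ({j} : Set F)))
    (hfrac : ∃ x y : ↥(s18_chart O ({j} : Set F)), y ≠ 0 ∧ u * (y : F) = (x : F)) :
    (s18ce_I O j u m hm hu).FG := by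
  obtain ⟨x, y, hy, hxy⟩ := hfrac
  have hy0 : (y : F) ≠ 0 := fun h => hy (Subtype.ext h)
  refine Submodule.FG.of_le (Submodule.fg_span_singleton ((y : F)⁻¹)) ?_
  intro f hf
  obtain ⟨c, hc⟩ := hf
  have hyf : (y : F) * f ∈ s18_chart O ({j} : Set F) := by
    apply s18ce_chart_closed O _ hm
    have e : ((y : F) * f) ^ m = (y : F) ^ (m - 1) * (x : F) * (c : F) := by
      obtain ⟨m', rfl⟩ : ∃ m', m = m' + 1 := ⟨m - 1, by omega⟩
      rw [mul_pow, hc, ← hxy, Nat.add_sub_cancel, pow_succ]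
      ring
    rw [e]
    exact mul_mem (mul_mem (pow_mem y.2 _) x.2) c.2
  rw [Submodule.mem_span_singleton]
  refine ⟨⟨(y : F) * f, hyf⟩, ?_⟩
  show (y : F) * f * (y : F)⁻¹ = f
  field_simp

/-- Elements of `I` lie in `jⁿ I'` for all large `n`. -/
theorem s18ce_cover (j u : F) {m : ℕ} (hm : 0 < m)
    (hcover : ∀ x ∈ s18_chart O ({j} : Set F), ∃ k : ℕ,
      j⁻¹ ^ k * x ∈ s18_chart O ({j⁻¹} : Set F)) {g : F} (hg : g ∈ s18_root O j u m) :
    ∃ k : ℕ, ∀ n : ℕ, k ≤ n → j⁻¹ ^ n * g ∈ s18_root O j⁻¹ u m := by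
  obtain ⟨c, hc⟩ := hg
  obtain ⟨k, hk⟩ := hcover c c.2
  refine ⟨k, fun n hn => ?_⟩
  have hle : k ≤ n * m := hn.trans (Nat.le_mul_of_pos_right n hm)
  refine ⟨⟨j⁻¹ ^ (n * m - k) * (j⁻¹ ^ k * (c : F)),
    mul_mem (pow_mem (s18ce_self_mem O j⁻¹) _) hk⟩, ?_⟩
  show (j⁻¹ ^ n * g) ^ m = u * (j⁻¹ ^ (n * m - k) * (j⁻¹ ^ k * (c : F)))
  rw [mul_pow, hc, ← pow_mul, ← mul_assoc (j⁻¹ ^ (n * m - k)), pow_sub_mul_pow j⁻¹ hle]
  ring

end root

/-! ### The main theorem -/

/-- **[CECH]** -/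
theorem s18ce_main : s18_CechStatement := by
  classical
  intro O K F _ _ _ _ _ _ _ _ _ _ _ j hgood hb _ m u hm hu
  have hj : j ≠ 0 := by
    intro h0
    apply hgood.transcendental
    rw [h0]
    exact isAlgebraic_zero
  -- `I` is finitely generated over `O[j]`
  have hle : Algebra.adjoin O ({j} : Set F) ≤ s18_chart O ({j} : Set F) := s18ce_adjoin_le O _
  letI alg : Algebra ↥(Algebra.adjoin O ({j} : Set F)) ↥(s18_chart O ({j} : Set F)) :=
    (Subalgebra.inclusion hle).toRingHom.toAlgebra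
  haveI tower : IsScalarTower ↥(Algebra.adjoin O ({j} : Set F)) ↥(s18_chart O ({j} : Set F)) F :=
    IsScalarTower.of_algebraMap_eq (fun a => rfl)
  haveI fin : Module.Finite ↥(Algebra.adjoin O ({j} : Set F)) ↥(s18_chart O ({j} : Set F)) := by
    obtain ⟨s, hs, hspan⟩ := hb.finite
    refine ⟨⟨s.attach.image (fun e => (⟨e.1, hs e.1 e.2⟩ : ↥(s18_chart O ({j} : Set F)))), ?_⟩⟩
    rw [eq_top_iff]
    intro x _
    obtain ⟨c, hc⟩ := hspan x x.2
    have e : x = ∑ e ∈ s.attach,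
        c e.1 • (⟨e.1, hs e.1 e.2⟩ : ↥(s18_chart O ({j} : Set F))) := by
      apply Subtype.ext
      rw [hc, ← Finset.sum_attach]
      rw [AddSubmonoidClass.coe_finsetSum]
      rfl
    rw [e]
    refine sum_mem (fun e he => Submodule.smul_mem _ _ (Submodule.subset_span ?_))
    exact Finset.mem_coe.2 (Finset.mem_image_of_mem _ he)
  have hfg := Submodule.FG.restrictScalars (R := ↥(Algebra.adjoin O ({j} : Set F)))
    (s18ce_I_fg O j u m hm hu hb.noeth (hb.frac u))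
  obtain ⟨G, hG⟩ := hfg
  have hGI : ∀ g ∈ G, g ∈ s18_root O j u m := by
    intro g hg
    have h1 : g ∈ Submodule.span ↥(Algebra.adjoin O ({j} : Set F)) (G : Set F) :=
      Submodule.subset_span (Finset.mem_coe.2 hg)
    rw [hG] at h1
    exact h1
  have hIG : ∀ f ∈ s18_root O j u m,
      f ∈ Submodule.span ↥(Algebra.adjoin O ({j} : Set F)) (G : Set F) := by
    intro f hf
    rw [hG]
    exact hf
  -- the bound
  have hk : ∀ g : F, ∃ k : ℕ, g ∈ s18_root O j u m →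
      ∀ n : ℕ, k ≤ n → j⁻¹ ^ n * g ∈ s18_root O j⁻¹ u m := by
    intro g
    by_cases hg : g ∈ s18_root O j u m
    · obtain ⟨k, hk⟩ := s18ce_cover O j u hm hb.cover hg
      exact ⟨k, fun _ => hk⟩
    · exact ⟨0, fun h => absurd h hg⟩
  choose kk hkk using hk
  refine ⟨G.sup kk, fun n hn f hf => ?_⟩
  obtain ⟨k, hkf⟩ := hf
  -- span induction
  have key : ∀ f' ∈ Submodule.span ↥(Algebra.adjoin O ({j} : Set F)) (G : Set F),
      ∀ c ∈ Algebra.adjoin O ({j} : Set F), ∃ f₁ f₂ : F, f₁ ∈ s18_root O j u m ∧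
        j⁻¹ ^ n * f₂ ∈ s18_root O j⁻¹ u m ∧ j⁻¹ ^ k * (c * f') = f₁ + f₂ := by
    intro f' hf'
    induction hf' using Submodule.span_induction with
    | mem g hg =>
      intro c hc
      have hgG : g ∈ G := Finset.mem_coe.1 hg
      obtain ⟨c₁, hc₁, c₂, hc₂, hc12⟩ := s18ce_split O hj hc k
      refine ⟨c₁ * g, c₂ * g, s18ce_root_mul O j u m (hle hc₁) (hGI g hgG), ?_, ?_⟩
      · have h1 : j⁻¹ ^ n * g ∈ s18_root O j⁻¹ u m :=
          hkk g (hGI g hgG) n ((Finset.le_sup hgG).trans hn)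
        have h2 := s18ce_root_mul O j⁻¹ u m (s18ce_adjoin_le O _ hc₂) h1
        have e : j⁻¹ ^ n * (c₂ * g) = c₂ * (j⁻¹ ^ n * g) := by ring
        rw [e]
        exact h2
      · rw [← mul_assoc, hc12]
        ring
    | zero =>
      intro c _
      refine ⟨0, 0, s18ce_root_zero O j u hm, ?_, ?_⟩
      · rw [mul_zero]
        exact s18ce_root_zero O j⁻¹ u hm
      · rw [mul_zero, mul_zero, add_zero]
    | add x y _ _ hx hy =>
      intro c hc
      obtain ⟨a₁, a₂, ha₁, ha₂, ha⟩ := hx c hc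
      obtain ⟨b₁, b₂, hb₁, hb₂, hb'⟩ := hy c hc
      refine ⟨a₁ + b₁, a₂ + b₂, s18ce_root_add O j u hm hu ha₁ hb₁, ?_, ?_⟩
      · rw [mul_add]
        exact s18ce_root_add O j⁻¹ u hm hu ha₂ hb₂
      · rw [mul_add, mul_add, ha, hb']
        ring
    | smul a x _ hx =>
      intro c hc
      obtain ⟨a₁, a₂, ha₁, ha₂, ha⟩ := hx (c * (a : F)) (mul_mem hc a.2)
      refine ⟨a₁, a₂, ha₁, ha₂, ?_⟩
      rw [← ha]
      show j⁻¹ ^ k * (c * ((a : F) * x)) = j⁻¹ ^ k * (c * (a : F) * x)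
      ring
  obtain ⟨f₁, f₂, h1, h2, h3⟩ := key (j ^ k * f) (hIG _ hkf) 1 (one_mem _)
  refine ⟨f₁, f₂, h1, h2, ?_⟩
  rw [← h3, one_mul, ← mul_assoc, inv_pow, inv_mul_cancel₀ (pow_ne_zero _ hj), one_mul]

end Fermat.Agent.S18
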