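/-
S18, package (M1) [GAUSS-ABS], STEP 2 (helper11): the abstract core.

Setting: `O` a discrete valuation ring with fraction field `K`, residue field `κ`, uniformizer
`π`; `F ⊇ K` a field with a valuation subring `V` and a ring homomorphism `ρ : V → κ'` into a
field over `κ`, which extends the residue map of `O`, detects units, and has kernel `π V`;
`t ∈ V` with `ρ t` transcendental over `κ`; `n ≥ [F : K(t)]` elements of `V` whose reductions
are linearly independent over `κ[ρ t]`.  Then every element of `V` which is integral over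
`O[t]` and reduces to `0` is `π` times an element integral over `O[t]`.
(The pattern of S28 `RedKerAbs / RedKerGauss / RedKerCore`, over an arbitrary `O`.)  Mathlib only.
-/
import Mathlib

set_option autoImplicit false
set_option linter.unusedSectionVars false

open Polynomial IntermediateField

noncomputable section

namespace Fermat.Agent.S18

/-- Coefficients of the minimal polynomial over the fraction field of an integrally closed
domain of an integral element lie in the domain. -/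
theorem s18ga_minpoly_coeff_mem {R K S : Type*} [CommRing R] [IsDomain R] [IsIntegrallyClosed R]
    [Field K] [Algebra R K] [IsFractionRing R K] [Field S] [Algebra R S] [Algebra K S]
    [IsScalarTower R K S] {s : S} (hs : IsIntegral R s) (i : ℕ) :
    (minpoly K s).coeff i ∈ Set.range (algebraMap R K) := by
  rw [minpoly.isIntegrallyClosed_eq_field_fractions' K hs, coeff_map]
  exact ⟨_, rfl⟩

/-- Integrality only depends on the image of the base ring. -/
theorem s18ga_isIntegral_of_range_le {R₁ R₂ S : Type*} [CommRing R₁] [CommRing R₂] [CommRing S]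
    [Algebra R₁ S] [Algebra R₂ S]
    (h : ∀ a : R₁, algebraMap R₁ S a ∈ Set.range (algebraMap R₂ S)) {x : S}
    (hx : IsIntegral R₁ x) : IsIntegral R₂ x := by
  obtain ⟨p, hp, hpx⟩ := hx
  have hl : p.map (algebraMap R₁ S) ∈ Polynomial.lifts (algebraMap R₂ S) := by
    rw [Polynomial.lifts_iff_coeff_lifts]
    intro i
    rw [coeff_map]
    exact h _
  obtain ⟨q, hq, -, hqm⟩ := Polynomial.lifts_and_natDegree_eq_and_monic hl (hp.map _)
  refine ⟨q, hqm, ?_⟩
  rw [← Polynomial.eval_map, hq, Polynomial.eval_map]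
  exact hpx

section content

variable {O K : Type*} [CommRing O] [IsDomain O] [IsDiscreteValuationRing O] [Field K]
  [Algebra O K] [IsFractionRing O K]

/-- **Content lemma.** A nonzero polynomial over `K` is a nonzero constant times a polynomial
over `O` with nonzero reduction. -/
theorem s18ga_content (P : K[X]) (hP : P ≠ 0) :
    ∃ (a : K) (P₁ : O[X]), a ≠ 0 ∧ P₁.map (IsLocalRing.residue O) ≠ 0 ∧
      P = C a * P₁.map (algebraMap O K) := by
  classical
  obtain ⟨i₀, hi₀, hmax⟩ := Finset.exists_max_image P.support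
    (fun i => ValuationRing.valuation O K (P.coeff i)) (Polynomial.support_nonempty.mpr hP)
  have ha : P.coeff i₀ ≠ 0 := Polynomial.mem_support_iff.mp hi₀
  have hv0 : ValuationRing.valuation O K (P.coeff i₀) ≠ 0 := (Valuation.ne_zero_iff _).mpr ha
  have hc : ∀ i, ∃ a : O, algebraMap O K a = P.coeff i / P.coeff i₀ := fun i => by
    rw [← ValuationRing.mem_integer_iff, Valuation.mem_integer_iff, map_div₀]
    refine (div_le_one₀ (zero_lt_iff.mpr hv0)).mpr ?_
    by_cases hi : i ∈ P.support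
    · exact hmax i hi
    · rw [Polynomial.notMem_support_iff.mp hi, map_zero]
      exact zero_le
  have hl : C (P.coeff i₀)⁻¹ * P ∈ Polynomial.lifts (algebraMap O K) := by
    rw [Polynomial.lifts_iff_coeff_lifts]
    intro i
    rw [coeff_C_mul]
    obtain ⟨a, ha'⟩ := hc i
    refine ⟨a, ?_⟩
    rw [ha', div_eq_inv_mul]
  obtain ⟨P₁, hP₁⟩ := (Polynomial.mem_lifts _).mp hl
  refine ⟨P.coeff i₀, P₁, ha, ?_, ?_⟩
  · intro h0
    have h1 : algebraMap O K (P₁.coeff i₀) = 1 := by
      have := congrArg (fun q => q.coeff i₀) hP₁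
      simp only [coeff_map, coeff_C_mul] at this
      rw [inv_mul_cancel₀ ha] at this
      exact this
    have h2 : P₁.coeff i₀ = 1 := IsFractionRing.injective O K (by rw [h1, map_one])
    have h3 := congrArg (fun q => q.coeff i₀) h0
    simp only [coeff_map, coeff_zero, h2, map_one] at h3
    exact one_ne_zero h3
  · rw [hP₁, ← mul_assoc, ← C_mul, mul_inv_cancel₀ ha, C_1, one_mul]

end content

section core

variable {O K F κ' : Type*} [CommRing O] [IsDomain O] [IsDiscreteValuationRing O] [Field K]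
  [Algebra O K] [IsFractionRing O K] [Field F] [Algebra K F] [Algebra O F]
  [IsScalarTower O K F] [Field κ'] [Algebra (IsLocalRing.ResidueField O) κ']
  {V : ValuationSubring F} {ρ : V →+* κ'}

/-- The inclusion `O → V`. -/
def s18ga_iotaV (hO : ∀ a : O, algebraMap O F a ∈ V) : O →+* V where
  toFun a := ⟨algebraMap O F a, hO a⟩
  map_one' := Subtype.ext (map_one _)
  map_zero' := Subtype.ext (map_zero _)
  map_mul' a b := Subtype.ext (map_mul (algebraMap O F) a b)
  map_add' a b := Subtype.ext (map_add (algebraMap O F) a b)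

theorem s18ga_iotaV_coe (hO : ∀ a : O, algebraMap O F a ∈ V) (a : O) :
    ((s18ga_iotaV hO a : V) : F) = algebraMap O F a := rfl

/-- `V ∩ K = O`. -/
theorem s18ga_K_of_mem (hO : ∀ a : O, algebraMap O F a ∈ V)
    (hρ : ∀ a : O, ρ (s18ga_iotaV hO a) =
      algebraMap (IsLocalRing.ResidueField O) κ' (IsLocalRing.residue O a))
    (c : K) (hc : algebraMap K F c ∈ V) : ∃ a : O, algebraMap O K a = c := by
  rcases ValuationRing.isInteger_or_isInteger O c with ⟨a, ha⟩ | ⟨a, ha⟩
  · exact ⟨a, ha⟩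
  by_cases hc0 : c = 0
  · exact ⟨0, by rw [hc0, map_zero]⟩
  by_cases hu : IsUnit a
  · obtain ⟨u, rfl⟩ := hu
    refine ⟨((u⁻¹ : Oˣ) : O), ?_⟩
    have h1 : algebraMap O K ((u⁻¹ : Oˣ) : O) * algebraMap O K (u : O) = 1 := by
      rw [← map_mul, Units.inv_mul, map_one]
    rw [ha] at h1
    field_simp at h1
    exact h1
  · exfalso
    have h0 : IsLocalRing.residue O a = 0 := by
      rw [IsLocalRing.residue_eq_zero_iff]
      exact hu
    have h1 := hρ a
    rw [h0, map_zero] at h1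
    have h2 : (⟨algebraMap K F c, hc⟩ : V) * s18ga_iotaV hO a = 1 := by
      apply Subtype.ext
      show algebraMap K F c * algebraMap O F a = 1
      rw [IsScalarTower.algebraMap_apply O K F, ha, ← map_mul, mul_inv_cancel₀ hc0, map_one]
    have h3 := congrArg ρ h2
    rw [map_mul, h1, mul_zero, map_one] at h3
    exact zero_ne_one h3

/-- Evaluation of polynomials over `O` at an element of `V`. -/
def s18ga_evalV (hO : ∀ a : O, algebraMap O F a ∈ V) (t : V) : O[X] →+* V :=
  Polynomial.eval₂RingHom (s18ga_iotaV hO) t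

theorem s18ga_evalV_coe (hO : ∀ a : O, algebraMap O F a ∈ V) (t : V) (P : O[X]) :
    ((s18ga_evalV hO t P : V) : F) = aeval (t : F) (P.map (algebraMap O K)) := by
  have h : (V.subtype : V →+* F).comp (s18ga_evalV hO t) =
      ((aeval (t : F) : K[X] →ₐ[K] F) : K[X] →+* F).comp
        (Polynomial.mapRingHom (algebraMap O K)) := by
    apply Polynomial.ringHom_ext
    · intro a
      show ((Polynomial.eval₂ (s18ga_iotaV hO) t (C a) : V) : F) =
        aeval (t : F) ((C a).map (algebraMap O K))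
      rw [Polynomial.eval₂_C, Polynomial.map_C, aeval_C, s18ga_iotaV_coe,
        IsScalarTower.algebraMap_apply O K F]
    · show ((Polynomial.eval₂ (s18ga_iotaV hO) t X : V) : F) =
        aeval (t : F) ((X : O[X]).map (algebraMap O K))
      rw [Polynomial.eval₂_X, Polynomial.map_X, aeval_X]
  exact congrArg (fun f => f P) h

theorem s18ga_rho_evalV (hO : ∀ a : O, algebraMap O F a ∈ V)
    (hρ : ∀ a : O, ρ (s18ga_iotaV hO a) =
      algebraMap (IsLocalRing.ResidueField O) κ' (IsLocalRing.residue O a))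
    (t : V) (P : O[X]) :
    ρ (s18ga_evalV hO t P) = aeval (ρ t) (P.map (IsLocalRing.residue O)) := by
  have h : ρ.comp (s18ga_evalV hO t) =
      ((aeval (ρ t) : (IsLocalRing.ResidueField O)[X] →ₐ[IsLocalRing.ResidueField O] κ') :
        (IsLocalRing.ResidueField O)[X] →+* κ').comp
        (Polynomial.mapRingHom (IsLocalRing.residue O)) := by
    apply Polynomial.ringHom_ext
    · intro a
      show ρ (Polynomial.eval₂ (s18ga_iotaV hO) t (C a)) =
        aeval (ρ t) ((C a).map (IsLocalRing.residue O))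
      rw [Polynomial.eval₂_C, Polynomial.map_C, aeval_C, hρ]
    · show ρ (Polynomial.eval₂ (s18ga_iotaV hO) t X) =
        aeval (ρ t) ((X : O[X]).map (IsLocalRing.residue O))
      rw [Polynomial.eval₂_X, Polynomial.map_X, aeval_X]
  exact congrArg (fun f => f P) h

/-- A polynomial over `O` with nonzero reduction takes a value with nonzero reduction. -/
theorem s18ga_rho_evalV_ne_zero (hO : ∀ a : O, algebraMap O F a ∈ V)
    (hρ : ∀ a : O, ρ (s18ga_iotaV hO a) =
      algebraMap (IsLocalRing.ResidueField O) κ' (IsLocalRing.residue O a))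
    (t : V) (htr : Transcendental (IsLocalRing.ResidueField O) (ρ t)) (P : O[X])
    (hP : P.map (IsLocalRing.residue O) ≠ 0) :
    ρ (s18ga_evalV hO t P) ≠ 0 := by
  rw [s18ga_rho_evalV hO hρ]
  intro h
  exact hP ((transcendental_iff.mp htr) _ h)

/-- A polynomial over `O` with nonzero reduction takes a unit value at `t`. -/
theorem s18ga_evalV_unit (hunit : ∀ x : V, ρ x ≠ 0 → (x : F)⁻¹ ∈ V)
    (hO : ∀ a : O, algebraMap O F a ∈ V)
    (hρ : ∀ a : O, ρ (s18ga_iotaV hO a) =
      algebraMap (IsLocalRing.ResidueField O) κ' (IsLocalRing.residue O a))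
    (t : V) (htr : Transcendental (IsLocalRing.ResidueField O) (ρ t)) (P : O[X])
    (hP : P.map (IsLocalRing.residue O) ≠ 0) :
    ((s18ga_evalV hO t P : V) : F) ≠ 0 ∧ ((s18ga_evalV hO t P : V) : F)⁻¹ ∈ V := by
  have hne := s18ga_rho_evalV_ne_zero hO hρ t htr P hP
  refine ⟨?_, hunit _ hne⟩
  intro h
  apply hne
  have : s18ga_evalV hO t P = 0 := Subtype.ext h
  rw [this, map_zero]

/-- `t` is transcendental over `K`. -/
theorem s18ga_transcendental (hO : ∀ a : O, algebraMap O F a ∈ V)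
    (hρ : ∀ a : O, ρ (s18ga_iotaV hO a) =
      algebraMap (IsLocalRing.ResidueField O) κ' (IsLocalRing.residue O a))
    (t : V) (htr : Transcendental (IsLocalRing.ResidueField O) (ρ t)) :
    Transcendental K (t : F) := by
  rw [transcendental_iff]
  intro P hP
  by_contra hP0
  obtain ⟨a, P₁, ha, hP₁, rfl⟩ := s18ga_content (O := O) P hP0
  rw [map_mul, aeval_C, ← s18ga_evalV_coe hO] at hP
  have ha' : algebraMap K F a ≠ 0 := by
    rw [Ne, map_eq_zero]; exact ha
  have h0 : s18ga_evalV hO t P₁ = 0 :=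
    Subtype.ext ((mul_eq_zero.mp hP).resolve_left ha')
  exact s18ga_rho_evalV_ne_zero hO hρ t htr P₁ hP₁ (by rw [h0, map_zero])

/-- **Gauss lemma**: `V ∩ K[t] = O[t]`. -/
theorem s18ga_gauss (hunit : ∀ x : V, ρ x ≠ 0 → (x : F)⁻¹ ∈ V)
    (hO : ∀ a : O, algebraMap O F a ∈ V)
    (hρ : ∀ a : O, ρ (s18ga_iotaV hO a) =
      algebraMap (IsLocalRing.ResidueField O) κ' (IsLocalRing.residue O a))
    (t : V) (htr : Transcendental (IsLocalRing.ResidueField O) (ρ t)) (P : K[X])
    (hP : aeval (t : F) P ∈ V) :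
    ∃ P' : O[X], P'.map (algebraMap O K) = P := by
  by_cases hP0 : P = 0
  · exact ⟨0, by rw [hP0, Polynomial.map_zero]⟩
  obtain ⟨a, P₁, ha, hP₁, rfl⟩ := s18ga_content (O := O) P hP0
  rw [map_mul, aeval_C, ← s18ga_evalV_coe hO] at hP
  obtain ⟨h0, hinv⟩ := s18ga_evalV_unit hunit hO hρ t htr P₁ hP₁
  have haV : algebraMap K F a ∈ V := by
    have := V.mul_mem _ _ hP hinv
    rwa [mul_assoc, mul_inv_cancel₀ h0, mul_one] at this
  obtain ⟨a', ha'⟩ := s18ga_K_of_mem hO hρ a haV
  refine ⟨C a' * P₁, ?_⟩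
  rw [Polynomial.map_mul, Polynomial.map_C, ha']

/-- **Bridging lemma**: the reduction of an element of `V ∩ K(t)` lies in `κ(ρ t)`. -/
theorem s18ga_bridge (hunit : ∀ x : V, ρ x ≠ 0 → (x : F)⁻¹ ∈ V)
    (hO : ∀ a : O, algebraMap O F a ∈ V)
    (hρ : ∀ a : O, ρ (s18ga_iotaV hO a) =
      algebraMap (IsLocalRing.ResidueField O) κ' (IsLocalRing.residue O a))
    (t : V) (htr : Transcendental (IsLocalRing.ResidueField O) (ρ t)) (c : V)
    (hc : (c : F) ∈ K⟮(t : F)⟯) :
    ∃ P S : (IsLocalRing.ResidueField O)[X], S ≠ 0 ∧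
      ρ c * aeval (ρ t) S = aeval (ρ t) P := by
  obtain ⟨r, s, hrs⟩ := (IntermediateField.mem_adjoin_simple_iff K (c : F)).mp hc
  by_cases hc0 : c = 0
  · exact ⟨0, 1, one_ne_zero, by rw [hc0, map_zero, zero_mul, map_zero]⟩
  have hcF : (c : F) ≠ 0 := fun h => hc0 (Subtype.ext h)
  have hs0 : aeval (t : F) s ≠ 0 := by
    intro h
    rw [h, div_zero] at hrs
    exact hcF hrs
  have hr0 : aeval (t : F) r ≠ 0 := by
    intro h
    rw [h, zero_div] at hrs
    exact hcF hrs
  have hr : r ≠ 0 := by rintro rfl; exact hr0 (map_zero _)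
  have hs : s ≠ 0 := by rintro rfl; exact hs0 (map_zero _)
  obtain ⟨a, r₁, ha, hr₁, rfl⟩ := s18ga_content (O := O) r hr
  obtain ⟨b, s₁, hb, hs₁, rfl⟩ := s18ga_content (O := O) s hs
  rw [map_mul, aeval_C, ← s18ga_evalV_coe hO, map_mul, aeval_C,
    ← s18ga_evalV_coe hO] at hrs
  obtain ⟨hR0, hRinv⟩ := s18ga_evalV_unit hunit hO hρ t htr r₁ hr₁
  obtain ⟨hS0, -⟩ := s18ga_evalV_unit hunit hO hρ t htr s₁ hs₁
  have hρR := s18ga_rho_evalV hO hρ t r₁
  have hρS := s18ga_rho_evalV hO hρ t s₁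
  generalize s18ga_evalV hO t r₁ = R at hrs hR0 hRinv hρR
  generalize s18ga_evalV hO t s₁ = S at hrs hS0 hρS
  have haF : algebraMap K F a ≠ 0 := by rw [Ne, map_eq_zero]; exact ha
  have hbF : algebraMap K F b ≠ 0 := by rw [Ne, map_eq_zero]; exact hb
  -- `a / b = c * S / R ∈ V`
  have hab : algebraMap K F (a / b) = (c : F) * (S : F) * (R : F)⁻¹ := by
    rw [hrs, map_div₀]
    field_simp
  have habV : algebraMap K F (a / b) ∈ V := by
    rw [hab]
    exact V.mul_mem _ _ (V.mul_mem _ _ c.2 S.2) hRinv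
  obtain ⟨e, he⟩ := s18ga_K_of_mem hO hρ (a / b) habV
  have hcS : c * S = s18ga_iotaV hO e * R := by
    apply Subtype.ext
    show (c : F) * (S : F) = algebraMap O F e * (R : F)
    rw [IsScalarTower.algebraMap_apply O K F, he, hab]
    field_simp
  have h1 := congrArg ρ hcS
  rw [map_mul, map_mul, hρ, hρR, hρS] at h1
  refine ⟨C (IsLocalRing.residue O e) * r₁.map (IsLocalRing.residue O),
    s₁.map (IsLocalRing.residue O), hs₁, ?_⟩
  rw [h1, map_mul, aeval_C]

/-- From polynomial independence to independence over `V ∩ K(t)`. -/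
theorem s18ga_hu_of_poly (hunit : ∀ x : V, ρ x ≠ 0 → (x : F)⁻¹ ∈ V)
    (hO : ∀ a : O, algebraMap O F a ∈ V)
    (hρ : ∀ a : O, ρ (s18ga_iotaV hO a) =
      algebraMap (IsLocalRing.ResidueField O) κ' (IsLocalRing.residue O a))
    (t : V) (htr : Transcendental (IsLocalRing.ResidueField O) (ρ t)) (n : ℕ) (u : Fin n → V)
    (hpoly : ∀ c : Fin n → (IsLocalRing.ResidueField O)[X],
      ∑ i, aeval (ρ t) (c i) * ρ (u i) = 0 → ∀ i, c i = 0)
    (c : Fin n → V) (hc : ∀ i, (c i : F) ∈ K⟮(t : F)⟯)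
    (h0 : ∑ i, ρ (c i) * ρ (u i) = 0) : ∀ i, ρ (c i) = 0 := by
  classical
  choose P S hS hPS using fun i => s18ga_bridge hunit hO hρ t htr (c i) (hc i)
  intro j
  set a : Fin n → (IsLocalRing.ResidueField O)[X] :=
    fun i => P i * ∏ k ∈ Finset.univ.erase i, S k with ha
  have hev : ∑ i, aeval (ρ t) (a i) * ρ (u i) = 0 := by
    have hterm : ∀ i : Fin n, aeval (ρ t) (a i) * ρ (u i) =
        aeval (ρ t) (∏ k, S k) * (ρ (c i) * ρ (u i)) := by
      intro i
      rw [← Finset.mul_prod_erase Finset.univ S (Finset.mem_univ i)]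
      show aeval (ρ t) (P i * ∏ k ∈ Finset.univ.erase i, S k) * ρ (u i) = _
      rw [map_mul, map_mul, ← hPS i]
      ring
    rw [Finset.sum_congr rfl fun i _ => hterm i, ← Finset.mul_sum, h0, mul_zero]
  have haj := hpoly a hev j
  have hprod : ∏ k ∈ Finset.univ.erase j, S k ≠ 0 :=
    Finset.prod_ne_zero_iff.mpr fun k _ => hS k
  have hPj : P j = 0 := by
    rw [ha] at haj
    exact (mul_eq_zero.mp haj).resolve_right hprod
  have h1 := hPS j
  rw [hPj, map_zero] at h1
  have hSj : aeval (ρ t) (S j) ≠ 0 := fun h => hS j ((transcendental_iff.mp htr) _ h)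
  exact (mul_eq_zero.mp h1).resolve_right hSj

/-- Key step of the basis argument: a combination `∑ gᵢ uᵢ` divided by its coefficient of
maximal valuation lies in `V` and has nonzero reduction. -/
theorem s18ga_key_aux (K₀ : IntermediateField K F) {n : ℕ} (u : Fin n → V)
    (hu : ∀ c : Fin n → V, (∀ i, (c i : F) ∈ K₀) → ∑ i, ρ (c i) * ρ (u i) = 0 →
      ∀ i, ρ (c i) = 0)
    (g : Fin n → F) (hg : ∀ i, g i ∈ K₀) (i₀ : Fin n) (hi₀ : g i₀ ≠ 0)
    (hmax : ∀ i, V.valuation (g i) ≤ V.valuation (g i₀)) :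
    (∑ i, g i * (u i : F)) / g i₀ ∈ V ∧
      ∀ z : V, (z : F) = (∑ i, g i * (u i : F)) / g i₀ → ρ z ≠ 0 := by
  have hv0 : V.valuation (g i₀) ≠ 0 := (Valuation.ne_zero_iff _).mpr hi₀
  have hc : ∀ i, g i / g i₀ ∈ V := fun i => by
    rw [← V.valuation_le_one_iff, map_div₀]
    exact (div_le_one₀ (zero_lt_iff.mpr hv0)).mpr (hmax i)
  have hcK : ∀ i, g i / g i₀ ∈ K₀ := fun i => K₀.div_mem (hg i) (hg i₀)
  have hsum : (∑ i, g i * (u i : F)) / g i₀ = ∑ i, (g i / g i₀) * (u i : F) := by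
    rw [Finset.sum_div]
    refine Finset.sum_congr rfl fun i _ => by ring
  have hmem : (∑ i, g i * (u i : F)) / g i₀ ∈ V := by
    rw [hsum]
    exact V.toSubring.sum_mem fun i _ => V.mul_mem _ _ (hc i) (u i).2
  refine ⟨hmem, ?_⟩
  intro z hz h0
  have h1 : z = ∑ i, (⟨g i / g i₀, hc i⟩ : V) * u i := by
    apply Subtype.ext
    rw [hz, hsum, AddSubmonoidClass.coe_finsetSum]
    rfl
  rw [h1, map_sum] at h0
  simp only [map_mul] at h0
  have h2 := hu (fun i => ⟨g i / g i₀, hc i⟩) hcK h0 i₀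
  have h3 : (⟨g i₀ / g i₀, hc i₀⟩ : V) = 1 := Subtype.ext (div_self hi₀)
  rw [h3, map_one] at h2
  exact one_ne_zero h2

/-- **Basis argument.** If `n ≥ [F : K₀]` elements of `V` have reductions which are linearly
independent over the reduction of `V ∩ K₀`, then `V` is spanned by them over `V ∩ K₀`. -/
theorem s18ga_span (hunit : ∀ x : V, ρ x ≠ 0 → (x : F)⁻¹ ∈ V)
    (K₀ : IntermediateField K F) [FiniteDimensional K₀ F] (n : ℕ)
    (hn : Module.finrank K₀ F ≤ n) (u : Fin n → V)
    (hu : ∀ c : Fin n → V, (∀ i, (c i : F) ∈ K₀) → ∑ i, ρ (c i) * ρ (u i) = 0 →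
      ∀ i, ρ (c i) = 0)
    (y : F) (hy : y ∈ V) :
    ∃ c : Fin n → F, (∀ i, c i ∈ K₀) ∧ (∀ i, c i ∈ V) ∧ y = ∑ i, c i * (u i : F) := by
  classical
  have hn0 : 0 < n := lt_of_lt_of_le Module.finrank_pos hn
  have : Nonempty (Fin n) := ⟨⟨0, hn0⟩⟩
  have hmaxex : ∀ g : Fin n → F, ∃ i₀, ∀ i, V.valuation (g i) ≤ V.valuation (g i₀) := by
    intro g
    obtain ⟨i₀, -, h⟩ := Finset.exists_max_image Finset.univ (fun i => V.valuation (g i))
      Finset.univ_nonempty
    exact ⟨i₀, fun i => h i (Finset.mem_univ i)⟩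
  -- linear independence over `K₀`
  have hli : LinearIndependent K₀ (fun i => (u i : F)) := by
    rw [Fintype.linearIndependent_iff]
    intro g hg
    by_contra hcon
    obtain ⟨i₁, hi₁⟩ := not_forall.mp hcon
    obtain ⟨i₀, hmax⟩ := hmaxex (fun i => ((g i : K₀) : F))
    have hi₀ : ((g i₀ : K₀) : F) ≠ 0 := by
      intro h0
      have := hmax i₁
      rw [h0, map_zero, le_zero_iff, map_eq_zero] at this
      exact hi₁ (Subtype.ext this)
    obtain ⟨-, hne⟩ := s18ga_key_aux K₀ u hu (fun i => ((g i : K₀) : F)) (fun i => (g i).2)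
      i₀ hi₀ hmax
    refine hne 0 ?_ (map_zero ρ)
    have : ∑ i, ((g i : K₀) : F) * (u i : F) = ∑ i, g i • (u i : F) :=
      Finset.sum_congr rfl fun i _ => by rw [Algebra.smul_def]; rfl
    rw [this, hg, zero_div]
    rfl
  have hcard : Fintype.card (Fin n) = Module.finrank K₀ F := by
    have := hli.fintype_card_le_finrank
    rw [Fintype.card_fin] at this ⊢
    omega
  let b := basisOfLinearIndependentOfCardEqFinrank hli hcard
  have hb : ∀ i, b i = (u i : F) := fun i => by
    rw [coe_basisOfLinearIndependentOfCardEqFinrank]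
  have hrepr : y = ∑ i, ((b.repr y i : K₀) : F) * (u i : F) := by
    conv_lhs => rw [← b.sum_repr y]
    refine Finset.sum_congr rfl fun i _ => ?_
    rw [hb, Algebra.smul_def]
    rfl
  refine ⟨fun i => ((b.repr y i : K₀) : F), fun i => (b.repr y i).2, ?_, hrepr⟩
  by_contra hcon
  obtain ⟨i₁, hi₁⟩ := not_forall.mp hcon
  obtain ⟨i₀, hmax⟩ := hmaxex (fun i => ((b.repr y i : K₀) : F))
  have hi₀V : ((b.repr y i₀ : K₀) : F) ∉ V := by
    intro h
    apply hi₁
    rw [← V.valuation_le_one_iff] at h ⊢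
    exact (hmax i₁).trans h
  have hi₀ : ((b.repr y i₀ : K₀) : F) ≠ 0 := fun h0 => hi₀V (h0 ▸ V.zero_mem)
  obtain ⟨h, hne⟩ := s18ga_key_aux K₀ u hu (fun i => ((b.repr y i : K₀) : F))
    (fun i => (b.repr y i).2) i₀ hi₀ hmax
  have hne' := hne ⟨_, h⟩ rfl
  have hinv : ((∑ i, ((b.repr y i : K₀) : F) * (u i : F)) / ((b.repr y i₀ : K₀) : F))⁻¹ ∈ V :=
    hunit _ hne'
  rw [← hrepr] at hinv
  have hy0 : y ≠ 0 := by
    intro hy0
    refine hne 0 ?_ (map_zero ρ)
    rw [← hrepr, hy0, zero_div]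
    rfl
  apply hi₀V
  have : ((b.repr y i₀ : K₀) : F) = y * (y / ((b.repr y i₀ : K₀) : F))⁻¹ := by
    field_simp
  rw [this]
  exact V.mul_mem _ _ hy hinv

/-- `V` is integral over `V ∩ K₀`. -/
theorem s18ga_isIntegral_comap (hunit : ∀ x : V, ρ x ≠ 0 → (x : F)⁻¹ ∈ V)
    (K₀ : IntermediateField K F) [FiniteDimensional K₀ F] (n : ℕ)
    (hn : Module.finrank K₀ F ≤ n) (u : Fin n → V)
    (hu : ∀ c : Fin n → V, (∀ i, (c i : F) ∈ K₀) → ∑ i, ρ (c i) * ρ (u i) = 0 →
      ∀ i, ρ (c i) = 0)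
    (y : F) (hy : y ∈ V) :
    IsIntegral ↥(V.comap (algebraMap ↥K₀ F)) y := by
  let S : Subalgebra ↥(V.comap (algebraMap ↥K₀ F)) F :=
    { V.toSubring with algebraMap_mem' := fun a => a.2 }
  refine IsIntegral.of_mem_of_fg S ?_ y hy
  have heq : Subalgebra.toSubmodule S =
      Submodule.span ↥(V.comap (algebraMap ↥K₀ F)) (Set.range fun i => (u i : F)) := by
    apply le_antisymm
    · intro z hz
      obtain ⟨c, hcK, hcV, hz'⟩ := s18ga_span hunit K₀ n hn u hu z hz
      rw [hz']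
      refine Submodule.sum_mem _ fun i _ => ?_
      have : c i * (u i : F) =
          (⟨⟨c i, hcK i⟩, hcV i⟩ : ↥(V.comap (algebraMap ↥K₀ F))) • (u i : F) := rfl
      rw [this]
      exact Submodule.smul_mem _ _ (Submodule.subset_span ⟨i, rfl⟩)
    · rw [Submodule.span_le]
      rintro _ ⟨i, rfl⟩
      exact (u i).2
  rw [heq]
  exact Submodule.fg_span (Set.finite_range _)

theorem s18ga_adjoin_le (t : F) (z : F) (hz : z ∈ Algebra.adjoin O {t}) :
    z ∈ Algebra.adjoin K {t} := by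
  induction hz using Algebra.adjoin_induction with
  | mem x hx => exact Algebra.subset_adjoin hx
  | algebraMap r =>
    rw [IsScalarTower.algebraMap_apply O K F]
    exact Subalgebra.algebraMap_mem _ _
  | add x y _ _ hx hy => exact Subalgebra.add_mem _ hx hy
  | mul x y _ _ hx hy => exact Subalgebra.mul_mem _ hx hy

/-- An element integral over `O[t]`, multiplied by a constant of `K`, is integral over
`K[t]`. -/
theorem s18ga_isIntegral_adjoin_K (t x : F) (hx : IsIntegral (Algebra.adjoin O {t}) x)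
    (q : K) : IsIntegral (Algebra.adjoin K {t}) (x * algebraMap K F q) := by
  have h1 : IsIntegral (Algebra.adjoin K {t}) x := by
    refine s18ga_isIntegral_of_range_le ?_ hx
    intro a
    exact ⟨⟨(a : F), s18ga_adjoin_le t _ a.2⟩, rfl⟩
  have h2 : IsIntegral (Algebra.adjoin K {t}) (algebraMap K F q) := by
    have hm : algebraMap K F q ∈ Algebra.adjoin K {t} := Subalgebra.algebraMap_mem _ _
    have : algebraMap K F q = algebraMap (Algebra.adjoin K {t}) F ⟨_, hm⟩ := rfl
    rw [this]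
    exact isIntegral_algebraMap
  exact h1.mul h2

/-- `O[t] ⊆ V`. -/
theorem s18ga_adjoin_le_V (hO : ∀ a : O, algebraMap O F a ∈ V) (t : V) (z : F)
    (hz : z ∈ Algebra.adjoin O {(t : F)}) : z ∈ V := by
  induction hz using Algebra.adjoin_induction with
  | mem x hx =>
    rw [Set.mem_singleton_iff.mp hx]
    exact t.2
  | algebraMap r => exact hO r
  | add x y _ _ hx hy => exact V.add_mem _ _ hx hy
  | mul x y _ _ hx hy => exact V.mul_mem _ _ hx hy

/-- Elements integral over `O[t]` lie in `V` (a valuation ring is integrally closed). -/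
theorem s18ga_mem_of_isIntegral (hO : ∀ a : O, algebraMap O F a ∈ V) (t : V) (x : F)
    (hx : IsIntegral (Algebra.adjoin O {(t : F)}) x) : x ∈ V := by
  have h1 : IsIntegral ↥V x := by
    refine s18ga_isIntegral_of_range_le ?_ hx
    intro a
    exact ⟨⟨(a : F), s18ga_adjoin_le_V hO t _ a.2⟩, rfl⟩
  obtain ⟨y, hy⟩ := (IsIntegrallyClosed.isIntegral_iff (R := ↥V) (K := F)).mp h1
  rw [← hy]
  exact y.2

open scoped IntermediateField.algebraAdjoinAdjoin in
/-- **Core theorem.** -/
theorem s18ga_core (hunit : ∀ x : V, ρ x ≠ 0 → (x : F)⁻¹ ∈ V)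
    (hO : ∀ a : O, algebraMap O F a ∈ V)
    (hρ : ∀ a : O, ρ (s18ga_iotaV hO a) =
      algebraMap (IsLocalRing.ResidueField O) κ' (IsLocalRing.residue O a))
    (ϖ : O)
    (hker : ∀ x : V, ρ x = 0 → (x : F) / algebraMap O F ϖ ∈ V)
    (t : V) (htr : Transcendental (IsLocalRing.ResidueField O) (ρ t))
    (K₀ : IntermediateField K F) (hK₀ : K₀ = K⟮(t : F)⟯) [FiniteDimensional K₀ F]
    (n : ℕ) (hn : Module.finrank K₀ F ≤ n) (u : Fin n → V)
    (hpoly : ∀ c : Fin n → (IsLocalRing.ResidueField O)[X],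
      ∑ i, aeval (ρ t) (c i) * ρ (u i) = 0 → ∀ i, c i = 0)
    (x : V) (hx : IsIntegral (Algebra.adjoin O {(t : F)}) (x : F)) (hρx : ρ x = 0) :
    IsIntegral (Algebra.adjoin O {(t : F)}) ((x : F) / algebraMap O F ϖ) := by
  subst hK₀
  have hu : ∀ c : Fin n → V, (∀ i, (c i : F) ∈ K⟮(t : F)⟯) → ∑ i, ρ (c i) * ρ (u i) = 0 →
      ∀ i, ρ (c i) = 0 := s18ga_hu_of_poly hunit hO hρ t htr n u hpoly
  have hyV : (x : F) / algebraMap O F ϖ ∈ V := hker x hρx
  have hyA := s18ga_isIntegral_comap hunit K⟮(t : F)⟯ n hn u hu _ hyV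
  have hyB : IsIntegral (Algebra.adjoin K {(t : F)}) ((x : F) / algebraMap O F ϖ) := by
    have := s18ga_isIntegral_adjoin_K (O := O) (K := K) (t : F) (x : F) hx
      ((algebraMap O K ϖ)⁻¹)
    rwa [map_inv₀, ← IsScalarTower.algebraMap_apply O K F, ← div_eq_mul_inv] at this
  have htrK : Transcendental K (t : F) := s18ga_transcendental hO hρ t htr
  have : IsIntegrallyClosed ↥(Algebra.adjoin K {(t : F)}) :=
    IsIntegrallyClosed.of_equiv (Polynomial.algEquivOfTranscendental K (t : F) htrK).toRingEquiv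
  set y : F := (x : F) / algebraMap O F ϖ with hy
  -- the coefficients of the minimal polynomial lie in `O[t]`
  have hcoeff : ∀ i, algebraMap ↥K⟮(t : F)⟯ F ((minpoly ↥K⟮(t : F)⟯ y).coeff i) ∈
      Set.range (algebraMap ↥(Algebra.adjoin O {(t : F)}) F) := by
    intro i
    obtain ⟨a, ha⟩ := s18ga_minpoly_coeff_mem (K := ↥K⟮(t : F)⟯) hyA i
    obtain ⟨b, hb⟩ := s18ga_minpoly_coeff_mem (K := ↥K⟮(t : F)⟯) hyB i
    have haV : algebraMap ↥K⟮(t : F)⟯ F ((minpoly ↥K⟮(t : F)⟯ y).coeff i) ∈ V := by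
      rw [← ha]
      exact a.2
    have hbB : algebraMap ↥K⟮(t : F)⟯ F ((minpoly ↥K⟮(t : F)⟯ y).coeff i) ∈
        Algebra.adjoin K {(t : F)} := by
      rw [← hb]
      exact b.2
    rw [Algebra.adjoin_singleton_eq_range_aeval] at hbB
    obtain ⟨P, hP⟩ := hbB
    have hP' : aeval (t : F) P ∈ V := by
      have : aeval (t : F) P = algebraMap ↥K⟮(t : F)⟯ F ((minpoly ↥K⟮(t : F)⟯ y).coeff i) := hP
      rw [this]
      exact haV
    obtain ⟨P', rfl⟩ := s18ga_gauss hunit hO hρ t htr P hP'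
    have h1 : aeval (t : F) P' ∈ Algebra.adjoin O {(t : F)} := by
      rw [Algebra.adjoin_singleton_eq_range_aeval]
      exact ⟨P', rfl⟩
    refine ⟨⟨_, h1⟩, ?_⟩
    show aeval (t : F) P' = _
    rw [← aeval_map_algebraMap K (t : F) P']
    exact hP
  have hl : (minpoly ↥K⟮(t : F)⟯ y).map (algebraMap ↥K⟮(t : F)⟯ F) ∈
      Polynomial.lifts (algebraMap ↥(Algebra.adjoin O {(t : F)}) F) := by
    rw [Polynomial.lifts_iff_coeff_lifts]
    intro i
    rw [coeff_map]
    exact hcoeff i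
  have hyK : IsIntegral ↥K⟮(t : F)⟯ y := IsIntegral.of_finite _ _
  have hmonic : ((minpoly ↥K⟮(t : F)⟯ y).map (algebraMap ↥K⟮(t : F)⟯ F)).Monic :=
    (minpoly.monic hyK).map _
  obtain ⟨q, hq, -, hqm⟩ := Polynomial.lifts_and_natDegree_eq_and_monic hl hmonic
  refine ⟨q, hqm, ?_⟩
  rw [← Polynomial.eval_map, hq, Polynomial.eval_map, ← Polynomial.aeval_def, minpoly.aeval]

end core

end Fermat.Agent.S18
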