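/-
S18, package (M1) [GAUSS-ABS], STEP 1 (helper11): over a discrete valuation ring `O` with
fraction field `K` and residue field `κ`, the local ring `R ⊆ K((q))` of quotients `a / s` of
Laurent series with coefficients in `O`, `s ≢ 0` modulo the maximal ideal, its reduction map
`ρ₀ : R → κ((q))` with kernel `π R`, and the normal form `y = π^e · u` of a nonzero quotient
of integral series.  Mathlib + the Prelude's `coeffMap` only.
-/
import Mathlib
import Fermat.Agent.S18.ModelAbsDefs

set_option autoImplicit false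
set_option linter.unusedSectionVars false

noncomputable section

namespace Fermat.Agent.S18

open ModularCurve HahnSeries

section Iota

variable (O K : Type*) [CommRing O] [IsDomain O] [Field K] [Algebra O K] [IsFractionRing O K]

theorem s18ga_iota_injective : Function.Injective (coeffMap (algebraMap O K)) := by
  intro a b h
  ext n
  have := congrArg (fun x : LaurentSeries K => x.coeff n) h
  simp only [coeffMap_coeff] at this
  exact IsFractionRing.injective O K this

variable {O K}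

theorem s18ga_iota_eq_zero {a : LaurentSeries O} :
    coeffMap (algebraMap O K) a = 0 ↔ a = 0 :=
  map_eq_zero_iff _ (s18ga_iota_injective O K)

theorem s18ga_C_mul_coeff {A : Type*} [CommRing A] (c : A) (a : LaurentSeries A) (n : ℤ) :
    ((HahnSeries.C c : LaurentSeries A) * a).coeff n = c * a.coeff n := by
  rw [HahnSeries.C_mul_eq_smul, HahnSeries.coeff_smul, smul_eq_mul]

theorem s18ga_coeffMap_C {A B : Type*} [CommRing A] [CommRing B] (f : A →+* B) (c : A) :
    coeffMap f (HahnSeries.C c : LaurentSeries A) = HahnSeries.C (f c) := by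
  rw [HahnSeries.C_apply, coeffMap_single, HahnSeries.C_apply]

end Iota

section Lam

variable {O : Type*} [CommRing O] [IsDomain O] [IsDiscreteValuationRing O]

theorem s18ga_red_C_irreducible {ϖ : O} (hϖ : Irreducible ϖ) :
    coeffMap (IsLocalRing.residue O) (HahnSeries.C ϖ : LaurentSeries O) = 0 := by
  rw [s18ga_coeffMap_C]
  have : IsLocalRing.residue O ϖ = 0 := by
    rw [IsLocalRing.residue_eq_zero_iff, hϖ.maximalIdeal_eq]
    exact Ideal.mem_span_singleton_self ϖ
  rw [this, map_zero]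

/-- The kernel of the coefficientwise reduction is `π · O((q))`. -/
theorem s18ga_red_eq_zero {ϖ : O} (hϖ : Irreducible ϖ) (a : LaurentSeries O)
    (h : coeffMap (IsLocalRing.residue O) a = 0) :
    ∃ a₁ : LaurentSeries O, a = (HahnSeries.C ϖ : LaurentSeries O) * a₁ := by
  classical
  have hc : ∀ n : ℤ, ∃ r' : O, a.coeff n = ϖ * r' := fun n => by
    have h1 : IsLocalRing.residue O (a.coeff n) = 0 := by
      have := congrArg (fun x : LaurentSeries (IsLocalRing.ResidueField O) => x.coeff n) h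
      simpa using this
    rw [IsLocalRing.residue_eq_zero_iff, hϖ.maximalIdeal_eq, Ideal.mem_span_singleton] at h1
    exact h1
  choose b hb using hc
  have hsupp : Function.support b ⊆ a.support := by
    intro n hn
    simp only [Function.mem_support, HahnSeries.mem_support] at hn ⊢
    rw [hb n]
    exact mul_ne_zero hϖ.ne_zero hn
  refine ⟨⟨b, a.isPWO_support.mono hsupp⟩, ?_⟩
  ext n
  rw [s18ga_C_mul_coeff, hb n]

theorem s18ga_exists_factor_aux {ϖ : O} (hϖ : Irreducible ϖ) (n₀ : ℤ) : ∀ (k : ℕ)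
    (a : LaurentSeries O), ¬ ϖ ^ (k + 1) ∣ a.coeff n₀ →
    ∃ (m : ℕ) (a' : LaurentSeries O),
      coeffMap (IsLocalRing.residue O) a' ≠ 0 ∧
        a = (HahnSeries.C ϖ : LaurentSeries O) ^ m * a' := by
  intro k
  induction k with
  | zero =>
    intro a hk
    by_cases hred : coeffMap (IsLocalRing.residue O) a = 0
    · exfalso
      obtain ⟨a₁, ha₁⟩ := s18ga_red_eq_zero hϖ a hred
      apply hk
      rw [zero_add, pow_one]
      refine ⟨a₁.coeff n₀, ?_⟩
      conv_lhs => rw [ha₁]
      rw [s18ga_C_mul_coeff]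
    · exact ⟨0, a, hred, by simp⟩
  | succ k ih =>
    intro a hk
    by_cases hred : coeffMap (IsLocalRing.residue O) a = 0
    · obtain ⟨a₁, ha₁⟩ := s18ga_red_eq_zero hϖ a hred
      have hc : a.coeff n₀ = ϖ * a₁.coeff n₀ := by
        conv_lhs => rw [ha₁]
        rw [s18ga_C_mul_coeff]
      have h1 : ¬ ϖ ^ (k + 1) ∣ a₁.coeff n₀ := by
        rintro ⟨c, hc'⟩
        apply hk
        refine ⟨c, ?_⟩
        rw [hc, hc']
        ring
      obtain ⟨m, a', h', e⟩ := ih a₁ h1
      exact ⟨m + 1, a', h', by rw [ha₁, e, pow_succ]; ring⟩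
    · exact ⟨0, a, hred, by simp⟩

/-- Every nonzero integral Laurent series is `π^m` times one with nonzero reduction. -/
theorem s18ga_exists_factor {ϖ : O} (hϖ : Irreducible ϖ) (a : LaurentSeries O) (ha : a ≠ 0) :
    ∃ (m : ℕ) (a' : LaurentSeries O),
      coeffMap (IsLocalRing.residue O) a' ≠ 0 ∧
        a = (HahnSeries.C ϖ : LaurentSeries O) ^ m * a' := by
  obtain ⟨n₀, hn₀⟩ : ∃ n₀, a.coeff n₀ ≠ 0 := by
    by_contra h
    apply ha
    ext n
    by_contra hn
    exact h ⟨n, hn⟩
  obtain ⟨k, u, hk⟩ := IsDiscreteValuationRing.eq_unit_mul_pow_irreducible hn₀ hϖ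
  refine s18ga_exists_factor_aux hϖ n₀ k a ?_
  rintro ⟨c, hc⟩
  rw [hk, pow_succ] at hc
  have h1 : ϖ ^ k * ((u : O) - ϖ * c) = 0 := by
    linear_combination hc
  rcases mul_eq_zero.mp h1 with h2 | h2
  · exact pow_ne_zero _ hϖ.ne_zero h2
  · have h3 : (u : O) = ϖ * c := sub_eq_zero.mp h2
    have h4 : IsUnit (ϖ * c) := h3 ▸ u.isUnit
    exact hϖ.not_isUnit (isUnit_of_mul_isUnit_left h4)

end Lam

section RingR

variable (O K : Type*) [CommRing O] [IsDomain O] [IsDiscreteValuationRing O] [Field K]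
  [Algebra O K] [IsFractionRing O K]

/-- The ring `R` of quotients `a / s`, `a, s ∈ O((q))`, `s ≢ 0` modulo the maximal ideal. -/
def s18ga_R : Subring (LaurentSeries K) where
  carrier := {x | ∃ a s : LaurentSeries O,
    coeffMap (IsLocalRing.residue O) s ≠ 0 ∧
      x * coeffMap (algebraMap O K) s = coeffMap (algebraMap O K) a}
  mul_mem' := by
    rintro x y ⟨a, s, hs, h⟩ ⟨a', s', hs', h'⟩
    refine ⟨a * a', s * s', ?_, ?_⟩
    · rw [map_mul]; exact mul_ne_zero hs hs'
    · rw [map_mul, map_mul, ← h, ← h']; ring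
  one_mem' := ⟨1, 1, by rw [map_one]; exact one_ne_zero, by simp⟩
  add_mem' := by
    rintro x y ⟨a, s, hs, h⟩ ⟨a', s', hs', h'⟩
    refine ⟨a * s' + a' * s, s * s', ?_, ?_⟩
    · rw [map_mul]; exact mul_ne_zero hs hs'
    · rw [map_mul, map_add, map_mul, map_mul, ← h, ← h']; ring
  zero_mem' := ⟨0, 1, by rw [map_one]; exact one_ne_zero, by simp⟩
  neg_mem' := by
    rintro x ⟨a, s, hs, h⟩
    exact ⟨-a, s, hs, by rw [map_neg, ← h]; ring⟩

variable {O K}

theorem s18ga_mem_R_iff {x : LaurentSeries K} : x ∈ s18ga_R O K ↔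
    ∃ a s : LaurentSeries O, coeffMap (IsLocalRing.residue O) s ≠ 0 ∧
      x * coeffMap (algebraMap O K) s = coeffMap (algebraMap O K) a := Iff.rfl

theorem s18ga_iota_ne_zero_of_red {s : LaurentSeries O}
    (hs : coeffMap (IsLocalRing.residue O) s ≠ 0) : coeffMap (algebraMap O K) s ≠ 0 := by
  intro h
  rw [s18ga_iota_eq_zero] at h
  rw [h, map_zero] at hs
  exact hs rfl

theorem s18ga_rho_aux (x : ↥(s18ga_R O K)) :
    ∃ v : LaurentSeries (IsLocalRing.ResidueField O),
      ∀ a s : LaurentSeries O, coeffMap (IsLocalRing.residue O) s ≠ 0 →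
        (x : LaurentSeries K) * coeffMap (algebraMap O K) s = coeffMap (algebraMap O K) a →
        v = coeffMap (IsLocalRing.residue O) a / coeffMap (IsLocalRing.residue O) s := by
  obtain ⟨a₀, s₀, hs₀, h₀⟩ := x.2
  refine ⟨coeffMap (IsLocalRing.residue O) a₀ / coeffMap (IsLocalRing.residue O) s₀,
    fun a s hs h => ?_⟩
  have hcross : a₀ * s = a * s₀ := by
    apply s18ga_iota_injective O K
    rw [map_mul, map_mul, ← h₀, ← h]
    ring
  rw [div_eq_div_iff hs₀ hs, ← map_mul, ← map_mul, hcross]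

/-- The underlying function of the reduction map. -/
def s18ga_rhoFun (x : ↥(s18ga_R O K)) : LaurentSeries (IsLocalRing.ResidueField O) :=
  Classical.choose (s18ga_rho_aux x)

theorem s18ga_rhoFun_eq (x : ↥(s18ga_R O K)) (a s : LaurentSeries O)
    (hs : coeffMap (IsLocalRing.residue O) s ≠ 0)
    (h : (x : LaurentSeries K) * coeffMap (algebraMap O K) s = coeffMap (algebraMap O K) a) :
    s18ga_rhoFun x =
      coeffMap (IsLocalRing.residue O) a / coeffMap (IsLocalRing.residue O) s :=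
  Classical.choose_spec (s18ga_rho_aux x) a s hs h

variable (O K)

/-- The reduction map `ρ₀ : R → κ((q))`. -/
def s18ga_rho : ↥(s18ga_R O K) →+* LaurentSeries (IsLocalRing.ResidueField O) where
  toFun := s18ga_rhoFun
  map_one' := by
    rw [s18ga_rhoFun_eq 1 1 1 (by rw [map_one]; exact one_ne_zero) (by simp), map_one,
      div_one]
  map_mul' := by
    intro x y
    obtain ⟨a, s, hs, h⟩ := s18ga_mem_R_iff.mp x.2
    obtain ⟨a', s', hs', h'⟩ := s18ga_mem_R_iff.mp y.2
    rw [s18ga_rhoFun_eq x a s hs h, s18ga_rhoFun_eq y a' s' hs' h',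
      s18ga_rhoFun_eq (x * y) (a * a') (s * s')
        (by rw [map_mul]; exact mul_ne_zero hs hs')
        (by
          show (x : LaurentSeries K) * y * coeffMap (algebraMap O K) (s * s') =
            coeffMap (algebraMap O K) (a * a')
          rw [map_mul, map_mul, ← h, ← h']; ring),
      map_mul, map_mul, mul_div_mul_comm]
  map_zero' := by
    rw [s18ga_rhoFun_eq 0 0 1 (by rw [map_one]; exact one_ne_zero) (by simp), map_zero,
      zero_div]
  map_add' := by
    intro x y
    obtain ⟨a, s, hs, h⟩ := s18ga_mem_R_iff.mp x.2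
    obtain ⟨a', s', hs', h'⟩ := s18ga_mem_R_iff.mp y.2
    rw [s18ga_rhoFun_eq x a s hs h, s18ga_rhoFun_eq y a' s' hs' h',
      s18ga_rhoFun_eq (x + y) (a * s' + a' * s) (s * s')
        (by rw [map_mul]; exact mul_ne_zero hs hs')
        (by
          show ((x : LaurentSeries K) + y) * coeffMap (algebraMap O K) (s * s') =
            coeffMap (algebraMap O K) (a * s' + a' * s)
          rw [map_mul, map_add, map_mul, map_mul, ← h, ← h']; ring),
      map_mul, map_add, map_mul, map_mul, div_add_div _ _ hs hs',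
      mul_comm (coeffMap (IsLocalRing.residue O) a') (coeffMap (IsLocalRing.residue O) s)]

variable {O K}

theorem s18ga_rho_eq (x : ↥(s18ga_R O K)) (a s : LaurentSeries O)
    (hs : coeffMap (IsLocalRing.residue O) s ≠ 0)
    (h : (x : LaurentSeries K) * coeffMap (algebraMap O K) s = coeffMap (algebraMap O K) a) :
    s18ga_rho O K x =
      coeffMap (IsLocalRing.residue O) a / coeffMap (IsLocalRing.residue O) s :=
  s18ga_rhoFun_eq x a s hs h

/-- Integral Laurent series lie in `R`. -/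
theorem s18ga_int_mem (G : LaurentSeries O) : coeffMap (algebraMap O K) G ∈ s18ga_R O K :=
  ⟨G, 1, by rw [map_one]; exact one_ne_zero, by simp⟩

theorem s18ga_rho_int (G : LaurentSeries O) :
    s18ga_rho O K ⟨coeffMap (algebraMap O K) G, s18ga_int_mem G⟩ =
      coeffMap (IsLocalRing.residue O) G := by
  rw [s18ga_rho_eq _ G 1 (by rw [map_one]; exact one_ne_zero) (by simp), map_one, div_one]

theorem s18ga_rho_int' (G : LaurentSeries O) (x : ↥(s18ga_R O K))
    (hx : (x : LaurentSeries K) = coeffMap (algebraMap O K) G) :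
    s18ga_rho O K x = coeffMap (IsLocalRing.residue O) G := by
  rw [← s18ga_rho_int (K := K) G]
  congr 1
  exact Subtype.ext hx

/-- The constant `π` of `K((q))`. -/
theorem s18ga_pi_ne_zero {ϖ : O} (hϖ : Irreducible ϖ) :
    (HahnSeries.C (algebraMap O K ϖ) : LaurentSeries K) ≠ 0 := by
  intro h
  have h1 : algebraMap O K ϖ = 0 := HahnSeries.C_injective (by rw [h, map_zero])
  exact hϖ.ne_zero ((map_eq_zero_iff _ (IsFractionRing.injective O K)).mp h1)

theorem s18ga_pi_mem (ϖ : O) :
    (HahnSeries.C (algebraMap O K ϖ) : LaurentSeries K) ∈ s18ga_R O K := by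
  rw [← s18ga_coeffMap_C]
  exact s18ga_int_mem _

theorem s18ga_rho_pi {ϖ : O} (hϖ : Irreducible ϖ) :
    s18ga_rho O K ⟨(HahnSeries.C (algebraMap O K ϖ) : LaurentSeries K), s18ga_pi_mem ϖ⟩ = 0 := by
  rw [s18ga_rho_int' (HahnSeries.C ϖ) _ (s18ga_coeffMap_C _ _).symm,
    s18ga_red_C_irreducible hϖ]

/-- The kernel of `ρ₀` is `π R`. -/
theorem s18ga_rho_eq_zero {ϖ : O} (hϖ : Irreducible ϖ) (x : ↥(s18ga_R O K))
    (h : s18ga_rho O K x = 0) :
    (x : LaurentSeries K) / (HahnSeries.C (algebraMap O K ϖ) : LaurentSeries K) ∈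
      s18ga_R O K := by
  obtain ⟨a, s, hs, hx⟩ := s18ga_mem_R_iff.mp x.2
  rw [s18ga_rho_eq x a s hs hx, div_eq_zero_iff] at h
  have ha : coeffMap (IsLocalRing.residue O) a = 0 := h.resolve_right hs
  obtain ⟨a₁, ha₁⟩ := s18ga_red_eq_zero hϖ a ha
  refine ⟨a₁, s, hs, ?_⟩
  have hπ := s18ga_pi_ne_zero (K := K) hϖ
  rw [div_mul_eq_mul_div, hx, ha₁, map_mul, s18ga_coeffMap_C]
  field_simp

/-- Elements of `R` with nonzero reduction are units of `R`. -/
theorem s18ga_inv_mem (x : ↥(s18ga_R O K)) (h : s18ga_rho O K x ≠ 0) :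
    (x : LaurentSeries K)⁻¹ ∈ s18ga_R O K := by
  obtain ⟨a, s, hs, hx⟩ := s18ga_mem_R_iff.mp x.2
  rw [s18ga_rho_eq x a s hs hx] at h
  have ha : coeffMap (IsLocalRing.residue O) a ≠ 0 := fun h0 => h (by rw [h0, zero_div])
  have hιs := s18ga_iota_ne_zero_of_red (K := K) hs
  have hιa := s18ga_iota_ne_zero_of_red (K := K) ha
  refine ⟨s, a, ha, ?_⟩
  have hx0 : (x : LaurentSeries K) ≠ 0 := by
    intro h0; rw [h0, zero_mul] at hx; exact hιa hx.symm
  rw [← hx]
  field_simp

end RingR

section Val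

variable {O K : Type*} [CommRing O] [IsDomain O] [IsDiscreteValuationRing O] [Field K]
  [Algebra O K] [IsFractionRing O K]

/-- A nonzero quotient of integral Laurent series is `π^e` times a unit of `R`. -/
theorem s18ga_exists_pow {ϖ : O} (hϖ : Irreducible ϖ) (x : LaurentSeries K)
    (hx : ∃ a s : LaurentSeries O, s ≠ 0 ∧
      x * coeffMap (algebraMap O K) s = coeffMap (algebraMap O K) a) (hx0 : x ≠ 0) :
    ∃ (e : ℤ) (u : ↥(s18ga_R O K)), s18ga_rho O K u ≠ 0 ∧
      x = (HahnSeries.C (algebraMap O K ϖ) : LaurentSeries K) ^ e * (u : LaurentSeries K) := by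
  obtain ⟨a, s, hs, h⟩ := hx
  have ha : a ≠ 0 := by
    intro h0
    rw [h0, map_zero] at h
    rcases mul_eq_zero.mp h with h1 | h1
    · exact hx0 h1
    · exact hs (s18ga_iota_eq_zero.mp h1)
  obtain ⟨m, a', ha', rfl⟩ := s18ga_exists_factor hϖ a ha
  obtain ⟨k, s', hs', rfl⟩ := s18ga_exists_factor hϖ s hs
  have hπ := s18ga_pi_ne_zero (K := K) hϖ
  have hιs' := s18ga_iota_ne_zero_of_red (K := K) hs'
  rw [map_mul, map_mul, map_pow, map_pow, s18ga_coeffMap_C] at h
  have hu : coeffMap (algebraMap O K) a' / coeffMap (algebraMap O K) s' ∈ s18ga_R O K :=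
    ⟨a', s', hs', by field_simp⟩
  refine ⟨(m : ℤ) - k, ⟨_, hu⟩, ?_, ?_⟩
  · rw [s18ga_rho_eq ⟨_, hu⟩ a' s' hs'
      (by show coeffMap (algebraMap O K) a' / coeffMap (algebraMap O K) s' * _ = _; field_simp)]
    exact div_ne_zero ha' hs'
  · show x = (HahnSeries.C (algebraMap O K ϖ) : LaurentSeries K) ^ ((m : ℤ) - k) *
      (coeffMap (algebraMap O K) a' / coeffMap (algebraMap O K) s')
    rw [zpow_sub₀ hπ, zpow_natCast, zpow_natCast]
    have hk : (HahnSeries.C (algebraMap O K ϖ) : LaurentSeries K) ^ k ≠ 0 := pow_ne_zero _ hπ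
    field_simp
    linear_combination h

/-- The valuation-ring dichotomy for quotients of integral Laurent series. -/
theorem s18ga_mem_or {ϖ : O} (hϖ : Irreducible ϖ) (x : LaurentSeries K)
    (hx : ∃ a s : LaurentSeries O, s ≠ 0 ∧
      x * coeffMap (algebraMap O K) s = coeffMap (algebraMap O K) a) :
    x ∈ s18ga_R O K ∨ x⁻¹ ∈ s18ga_R O K := by
  by_cases hx0 : x = 0
  · left; rw [hx0]; exact zero_mem _
  obtain ⟨e, u, hu, rfl⟩ := s18ga_exists_pow hϖ x hx hx0
  rcases le_or_gt 0 e with he | he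
  · left
    obtain ⟨n, rfl⟩ := Int.eq_ofNat_of_zero_le he
    rw [zpow_natCast]
    exact mul_mem (pow_mem (s18ga_pi_mem ϖ) n) u.2
  · right
    obtain ⟨n, hn⟩ : ∃ n : ℕ, e = -((n : ℤ) + 1) := ⟨(-e - 1).toNat, by omega⟩
    have hinv : ((HahnSeries.C (algebraMap O K ϖ) : LaurentSeries K) ^ e *
        (u : LaurentSeries K))⁻¹ =
        (HahnSeries.C (algebraMap O K ϖ) : LaurentSeries K) ^ (n + 1) *
          (u : LaurentSeries K)⁻¹ := by
      rw [mul_inv, ← zpow_neg, hn, neg_neg]
      norm_cast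
    rw [hinv]
    exact mul_mem (pow_mem (s18ga_pi_mem ϖ) _) (s18ga_inv_mem u hu)

end Val

end Fermat.Agent.S18
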