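/-
S18, package (M1) [GAUSS-ABS] (helper11): the abstract `q`-expansion principle.
`theorem s18ga_main : s18_GaussAbsStatement`.

Assembly of STEP 1 (`GaussAbsRed.lean`: the local ring `R ⊆ K((q))` and its reduction `ρ₀`)
and STEP 2 (`GaussAbsCore.lean`: the abstract core): `V = F ∩ R` is a valuation subring of `F`
containing the chart `B` (the integral closure of `O[x]` in `F`), `ρ = ρ₀|B`, and the kernel of
`ρ` is `π B` by the basis argument + the Gauss lemma.
-/
import Mathlib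
import Fermat.Agent.S18.ModelAbsDefs
import Fermat.Agent.S18.GaussAbsRed
import Fermat.Agent.S18.GaussAbsCore

set_option autoImplicit false
set_option linter.unusedSectionVars false
set_option linter.style.haveILetI false

open AlgebraicCurve ModularCurve IntermediateField Polynomial

noncomputable section

namespace Fermat.Agent.S18

section assembly

variable {O K : Type} [CommRing O] [IsDomain O] [IsDiscreteValuationRing O] [Field K]
  [Algebra O K] [IsFractionRing O K] (F : IntermediateField K (LaurentSeries K))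

/-- The valuation ring `V = F ∩ R` of `F`. -/
def s18ga_V (hfrac : ∀ y ∈ F, ∃ a b : LaurentSeries O, b ≠ 0 ∧
    y * coeffMap (algebraMap O K) b = coeffMap (algebraMap O K) a) : ValuationSubring ↥F :=
  { (s18ga_R O K).comap (F.val : ↥F →+* LaurentSeries K) with
    mem_or_inv_mem' := fun y => by
      obtain ⟨ϖ, hϖ⟩ := IsDiscreteValuationRing.exists_irreducible O
      rcases s18ga_mem_or hϖ (y : LaurentSeries K) (hfrac y y.2) with h | h
      · exact Or.inl h
      · exact Or.inr h }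

variable {F}
variable (hfrac : ∀ y ∈ F, ∃ a b : LaurentSeries O, b ≠ 0 ∧
    y * coeffMap (algebraMap O K) b = coeffMap (algebraMap O K) a)

theorem s18ga_mem_V_iff (y : ↥F) :
    y ∈ s18ga_V F hfrac ↔ (y : LaurentSeries K) ∈ s18ga_R O K := Iff.rfl

/-- The inclusion `V → R`. -/
def s18ga_inclV : ↥(s18ga_V F hfrac) →+* ↥(s18ga_R O K) where
  toFun y := ⟨((y : ↥F) : LaurentSeries K), y.2⟩
  map_one' := rfl
  map_mul' _ _ := rfl
  map_zero' := rfl
  map_add' _ _ := rfl

/-- The reduction `ρ_V : V → κ((q))`. -/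
def s18ga_rhoV : ↥(s18ga_V F hfrac) →+* LaurentSeries (IsLocalRing.ResidueField O) :=
  (s18ga_rho O K).comp (s18ga_inclV hfrac)

theorem s18ga_rhoV_apply (y : ↥(s18ga_V F hfrac)) :
    s18ga_rhoV hfrac y = s18ga_rho O K ⟨((y : ↥F) : LaurentSeries K), y.2⟩ := rfl

theorem s18ga_hunitV (y : ↥(s18ga_V F hfrac)) (h : s18ga_rhoV hfrac y ≠ 0) :
    (y : ↥F)⁻¹ ∈ s18ga_V F hfrac :=
  s18ga_inv_mem ⟨_, y.2⟩ h

/-- The reduction of the image of an integral Laurent series. -/
theorem s18ga_rhoV_int (G : LaurentSeries O) (y : ↥(s18ga_V F hfrac))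
    (hy : ((y : ↥F) : LaurentSeries K) = coeffMap (algebraMap O K) G) :
    s18ga_rhoV hfrac y = coeffMap (IsLocalRing.residue O) G := by
  rw [s18ga_rhoV_apply]
  exact s18ga_rho_int' G _ hy

theorem s18ga_coe_algebraMap (a : O) :
    letI := s18_algOFF O K F
    ((algebraMap O ↥F a : ↥F) : LaurentSeries K) =
      coeffMap (algebraMap O K) (HahnSeries.C a) := by
  letI := s18_algOFF O K F
  rw [s18ga_coeffMap_C, HahnSeries.C_apply, ← algebraMap_laurentSeries_eq_single]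
  rfl

theorem s18ga_hOV (a : O) :
    letI := s18_algOFF O K F
    algebraMap O ↥F a ∈ s18ga_V F hfrac := by
  letI := s18_algOFF O K F
  rw [s18ga_mem_V_iff, s18ga_coe_algebraMap]
  exact s18ga_int_mem _

theorem s18ga_finrank_le (x : ↥F) (n : ℕ)
    (hspan : ∃ e : Fin n → ↥F, ∀ y : ↥F, ∃ c : Fin n → ↥(K⟮x⟯), y = ∑ i, c i • e i) :
    FiniteDimensional ↥(K⟮x⟯) ↥F ∧ Module.finrank ↥(K⟮x⟯) ↥F ≤ n := by
  obtain ⟨e, he⟩ := hspan
  have htop : Submodule.span ↥(K⟮x⟯) (Set.range e) = ⊤ := by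
    rw [eq_top_iff]
    intro y _
    rw [Submodule.mem_span_range_iff_exists_fun]
    obtain ⟨c, hc⟩ := he y
    exact ⟨c, hc.symm⟩
  have hfin : FiniteDimensional ↥(K⟮x⟯) ↥F := by
    rw [FiniteDimensional, Module.finite_def, ← htop]
    exact Submodule.fg_span (Set.finite_range e)
  refine ⟨hfin, ?_⟩
  have h1 := finrank_range_le_card (R := ↥(K⟮x⟯)) e
  rw [Set.finrank, htop, finrank_top, Fintype.card_fin] at h1
  exact h1

end assembly

/-- **[GAUSS-ABS]** the abstract `q`-expansion principle. -/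
theorem s18ga_main : s18_GaussAbsStatement := by
  intro O K _ _ _ _ _ _ F x ax n hx htr hfrac hspan hind
  obtain ⟨ϖ, hϖ⟩ := IsDiscreteValuationRing.exists_irreducible O
  obtain ⟨g, hgF, hgind⟩ := hind
  obtain ⟨hfin, hrank⟩ := s18ga_finrank_le x n hspan
  unfold s18_HasRedF
  letI : Algebra O ↥F := s18_algOFF O K F
  haveI : IsScalarTower O K ↥F := IsScalarTower.of_algebraMap_eq (fun _ => rfl)
  -- the data of the abstract core
  have hO : ∀ a : O, algebraMap O ↥F a ∈ s18ga_V F hfrac := fun a => s18ga_hOV hfrac a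
  have hρ : ∀ a : O, s18ga_rhoV hfrac (s18ga_iotaV hO a) =
      algebraMap (IsLocalRing.ResidueField O) (LaurentSeries (IsLocalRing.ResidueField O))
        (IsLocalRing.residue O a) := by
    intro a
    rw [s18ga_rhoV_int hfrac (HahnSeries.C a) _ (s18ga_coe_algebraMap a), s18ga_coeffMap_C,
      HahnSeries.C_apply, ← algebraMap_laurentSeries_eq_single]
  have hunit : ∀ y : ↥(s18ga_V F hfrac), s18ga_rhoV hfrac y ≠ 0 →
      ((y : ↥F))⁻¹ ∈ s18ga_V F hfrac := s18ga_hunitV hfrac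
  have hker : ∀ y : ↥(s18ga_V F hfrac), s18ga_rhoV hfrac y = 0 →
      (y : ↥F) / algebraMap O ↥F ϖ ∈ s18ga_V F hfrac := by
    intro y hy
    have h1 := s18ga_rho_eq_zero hϖ ⟨_, y.2⟩ hy
    rw [s18ga_mem_V_iff, IntermediateField.coe_div, s18ga_coe_algebraMap, s18ga_coeffMap_C]
    exact h1
  have hxV : x ∈ s18ga_V F hfrac := by
    rw [s18ga_mem_V_iff, hx]
    exact s18ga_int_mem _
  have hρt : s18ga_rhoV hfrac ⟨x, hxV⟩ = coeffMap (IsLocalRing.residue O) ax :=
    s18ga_rhoV_int hfrac ax _ hx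
  have hguV : ∀ i, (⟨_, hgF i⟩ : ↥F) ∈ s18ga_V F hfrac := fun i => by
    rw [s18ga_mem_V_iff]
    exact s18ga_int_mem _
  have hρu : ∀ i, s18ga_rhoV hfrac ⟨⟨_, hgF i⟩, hguV i⟩ =
      coeffMap (IsLocalRing.residue O) (g i) := fun i =>
    s18ga_rhoV_int hfrac (g i) _ rfl
  have htr' : Transcendental (IsLocalRing.ResidueField O) (s18ga_rhoV hfrac ⟨x, hxV⟩) := by
    rw [hρt]; exact htr
  have hpoly : ∀ c : Fin n → (IsLocalRing.ResidueField O)[X],
      ∑ i, aeval (s18ga_rhoV hfrac ⟨x, hxV⟩) (c i) *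
        s18ga_rhoV hfrac ⟨⟨_, hgF i⟩, hguV i⟩ = 0 → ∀ i, c i = 0 := by
    intro c hc
    apply hgind c
    rw [← hc]
    refine Finset.sum_congr rfl fun i _ => ?_
    rw [hρt, hρu]
  -- the chart lies in `V`
  have hchart : ∀ b : ↥(s18_chart O ({x} : Set ↥F)), (b : ↥F) ∈ s18ga_V F hfrac := fun b =>
    s18ga_mem_of_isIntegral hO ⟨x, hxV⟩ (b : ↥F) b.2
  let incl : ↥(s18_chart O ({x} : Set ↥F)) →+* ↥(s18ga_V F hfrac) :=
    { toFun := fun b => ⟨(b : ↥F), hchart b⟩
      map_one' := rfl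
      map_mul' := fun _ _ => rfl
      map_zero' := rfl
      map_add' := fun _ _ => rfl }
  refine ⟨(s18ga_rhoV hfrac).comp incl, ?_, ?_⟩
  · intro b hb
    have hb' : s18ga_rhoV hfrac ⟨(b : ↥F), hchart b⟩ = 0 := hb
    have hint := s18ga_core (K := K) hunit hO hρ ϖ hker ⟨x, hxV⟩ htr' K⟮x⟯ rfl n hrank
      (fun i => ⟨⟨_, hgF i⟩, hguV i⟩) hpoly ⟨(b : ↥F), hchart b⟩ b.2 hb'
    have hϖF : algebraMap O ↥F ϖ ≠ 0 := by
      intro h0
      have h1 : algebraMap K ↥F (algebraMap O K ϖ) = 0 := h0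
      rw [map_eq_zero, map_eq_zero_iff _ (IsFractionRing.injective O K)] at h1
      exact hϖ.ne_zero h1
    have heq : b = algebraMap O ↥(s18_chart O ({x} : Set ↥F)) ϖ *
        ⟨(b : ↥F) / algebraMap O ↥F ϖ, hint⟩ := by
      apply Subtype.ext
      show (b : ↥F) = algebraMap O ↥F ϖ * ((b : ↥F) / algebraMap O ↥F ϖ)
      field_simp
    rw [heq]
    refine Ideal.mul_mem_right _ _ (Ideal.mem_map_of_mem _ ?_)
    rw [hϖ.maximalIdeal_eq]
    exact Ideal.mem_span_singleton_self ϖ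
  · intro b b' a hbb'
    show s18ga_rhoV hfrac ⟨(b' : ↥F), hchart b'⟩ =
      coeffMap (IsLocalRing.residue O) a * s18ga_rhoV hfrac ⟨(b : ↥F), hchart b⟩
    rw [s18ga_rhoV_apply, s18ga_rhoV_apply, ← s18ga_rho_int (K := K) a, ← map_mul]
    congr 1
    exact Subtype.ext hbb'

end Fermat.Agent.S18
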