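/-
S18, package (M2) [GAUSS-Q-OF], part 1: Laurent series tools.  Owner: helper27.  Prefix `s18gq_`.

* `s18gq_coeffMap_injective`: `coeffMap f` is injective for injective `f`;
* `s18gq_order_jq`, `s18gq_transc_jq`, `s18gq_transc_jq_inv`: `j = q⁻¹ + …` and `1/j` are
  transcendental over every field of constants;
* `s18gq_jinv R`: the integral `q`-expansion of `1/j` over any commutative ring,
  `s18gq_jq_mul_jinv`, `s18gq_coeffMap_jinv`, `s18gq_jinv_eq_inv`.
-/
import Mathlib
import Fermat.Agent.S18.ModelAbsDefs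
import Fermat.Agent.S28.LocalOrder
import Fermat.Prelude.Def_ModularCurve_X0ModL

set_option autoImplicit false
set_option linter.unusedSectionVars false
set_option linter.unusedVariables false

open AlgebraicCurve ModularCurve IntermediateField

noncomputable section

namespace Fermat.Agent.S18

/-! ### `coeffMap` -/

theorem s18gq_coeffMap_injective {R S : Type*} [CommRing R] [CommRing S] (f : R →+* S)
    (hf : Function.Injective f) : Function.Injective (coeffMap f) := by
  intro x y h
  ext k
  have := congrArg (fun z : LaurentSeries S => z.coeff k) h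
  exact hf this

theorem s18gq_coeffMap_eq_zero {R S : Type*} [CommRing R] [CommRing S] (f : R →+* S)
    (hf : Function.Injective f) {x : LaurentSeries R} : coeffMap f x = 0 ↔ x = 0 := by
  constructor
  · intro h
    apply s18gq_coeffMap_injective f hf
    rw [h, map_zero]
  · rintro rfl
    exact map_zero _

theorem s18gq_coeffMap_C {R S : Type*} [CommRing R] [CommRing S] (f : R →+* S) (r : R) :
    coeffMap f (HahnSeries.C r) = HahnSeries.C (f r) := by
  show coeffMap f (HahnSeries.single 0 r) = HahnSeries.single 0 (f r)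
  exact coeffMap_single f 0 r

/-! ### `j` and `1/j` -/

section field

variable (k : Type*) [Field k]

theorem s18gq_order_jq : (jqModC k).order = -1 := by
  have hne : jqModC k ≠ 0 := jqModC_ne_zero_of_nontrivial k
  refine le_antisymm (HahnSeries.order_le_of_coeff_ne_zero ?_) ?_
  · rw [coeff_jqModC_neg_one]
    exact one_ne_zero
  · by_contra hlt
    rw [not_le] at hlt
    exact HahnSeries.coeff_order_eq_zero.not.mpr hne (coeff_jqModC_of_lt k hlt)

theorem s18gq_transc_jq : Transcendental k (jqModC k) := by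
  refine Fermat.Agent.S28.locO_transcendental _ ?_
  rw [s18gq_order_jq]
  norm_num

theorem s18gq_transc_jq_inv : Transcendental k (jqModC k)⁻¹ := by
  intro h
  exact s18gq_transc_jq k (by simpa using h.inv)

end field

/-- The integral `q`-expansion of `1/j`, over `ℤ`. -/
def s18gq_jinvZ : LaurentSeries ℤ :=
  HahnSeries.single (1 : ℤ) 1 * HahnSeries.ofPowerSeries ℤ ℤ (PowerSeries.invOfUnit jNum 1)

theorem s18gq_jq_mul_jinvZ : jqModC ℤ * s18gq_jinvZ = 1 := by
  have h1 : jNum.map (Int.castRingHom ℤ) = jNum := by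
    ext n
    simp
  have h2 : jNum * PowerSeries.invOfUnit jNum 1 = 1 :=
    PowerSeries.mul_invOfUnit jNum 1 (by rw [constantCoeff_jNum]; rfl)
  unfold jqModC s18gq_jinvZ
  rw [h1]
  have h3 : HahnSeries.single (-1 : ℤ) (1 : ℤ) * HahnSeries.ofPowerSeries ℤ ℤ jNum *
      (HahnSeries.single (1 : ℤ) 1 * HahnSeries.ofPowerSeries ℤ ℤ (PowerSeries.invOfUnit jNum 1))
      = (HahnSeries.single (-1 : ℤ) (1 : ℤ) * HahnSeries.single (1 : ℤ) 1) *
        (HahnSeries.ofPowerSeries ℤ ℤ jNum *
          HahnSeries.ofPowerSeries ℤ ℤ (PowerSeries.invOfUnit jNum 1)) := by ring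
  have e1 : HahnSeries.ofPowerSeries ℤ ℤ jNum *
      HahnSeries.ofPowerSeries ℤ ℤ (PowerSeries.invOfUnit jNum 1) = 1 := by
    rw [← map_mul, h2, map_one]
  have e2 : HahnSeries.single (-1 : ℤ) (1 : ℤ) * HahnSeries.single (1 : ℤ) 1 = 1 := by
    rw [HahnSeries.single_mul_single]
    norm_num
  rw [h3, e1, e2, mul_one]

/-- The integral `q`-expansion of `1/j` over a commutative ring. -/
def s18gq_jinv (R : Type*) [CommRing R] : LaurentSeries R :=
  coeffMap (Int.castRingHom R) s18gq_jinvZ

theorem s18gq_jq_mul_jinv (R : Type*) [CommRing R] : jqModC R * s18gq_jinv R = 1 := by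
  have h := congrArg (coeffMap (Int.castRingHom R)) s18gq_jq_mul_jinvZ
  rw [map_mul, map_one, coeffMap_jqModC] at h
  exact h

theorem s18gq_coeffMap_jinv {R S : Type*} [CommRing R] [CommRing S] (f : R →+* S) :
    coeffMap f (s18gq_jinv R) = s18gq_jinv S := by
  unfold s18gq_jinv
  rw [coeffMap_coeffMap]
  exact coeffMap_congr (RingHom.ext_int _ _) _

theorem s18gq_jinv_eq_inv (k : Type*) [Field k] : s18gq_jinv k = (jqModC k)⁻¹ :=
  eq_inv_of_mul_eq_one_right (s18gq_jq_mul_jinv k)

/-! ### The function `j ∈ F_K(M)` -/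

section J

variable (O K : Type) [CommRing O] [Field K] [CharZero K] [Algebra O K] (M : ℕ) [NeZero M]

theorem s18gq_j_coe : ((s18_j K M : ↥(s18_F K M)) : LaurentSeries K) = jqModC K := by
  show coeffEmb K jq = jqModC K
  rw [← jqModC_rat]
  exact coeffMap_jqModC (algebraMap ℚ K)

theorem s18gq_j_coe' :
    ((s18_j K M : ↥(s18_F K M)) : LaurentSeries K) = coeffMap (algebraMap O K) (jqModC O) := by
  rw [s18gq_j_coe, coeffMap_jqModC]

theorem s18gq_jinv_coe :
    (((s18_j K M)⁻¹ : ↥(s18_F K M)) : LaurentSeries K) =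
      coeffMap (algebraMap O K) (s18gq_jinv O) := by
  rw [s18gq_coeffMap_jinv, s18gq_jinv_eq_inv, ← s18gq_j_coe K M]
  rfl

theorem s18gq_j_ne_zero : s18_j K M ≠ 0 := by
  intro h
  have := congrArg (fun z : ↥(s18_F K M) => (z : LaurentSeries K)) h
  simp only [s18gq_j_coe] at this
  exact jqModC_ne_zero_of_nontrivial K this

/-- `j` is transcendental over `K`. -/
theorem s18gq_transc_j : Transcendental K (s18_j K M) := by
  intro h
  have h2 : IsAlgebraic K ((s18_j K M : ↥(s18_F K M)) : LaurentSeries K) :=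
    (isAlgebraic_algebraMap_iff (A := LaurentSeries K)
      (algebraMap ↥(s18_F K M) (LaurentSeries K)).injective).2 h
  rw [s18gq_j_coe] at h2
  exact s18gq_transc_jq K h2

end J

end Fermat.Agent.S18
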