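/-
S18, package (M2) [GAUSS-Q-OF], part 2: every element of `F_K(M)` is a quotient of two integral
`q`-expansions (hypothesis 3 of [GAUSS-ABS]).  Owner: helper27.  Prefix `s18gq_`.
-/
import Mathlib
import Fermat.Agent.S18.GaussQOfBasic

set_option autoImplicit false
set_option linter.unusedSectionVars false
set_option linter.unusedVariables false

open AlgebraicCurve ModularCurve IntermediateField

noncomputable section

namespace Fermat.Agent.S18

section Frac

variable (O K : Type) [CommRing O] [IsDomain O] [Field K] [Algebra O K] [IsFractionRing O K]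

/-- `y ∈ K((q))` is a quotient of two series with coefficients in `O`. -/
def s18gq_IsFrac (y : LaurentSeries K) : Prop :=
  ∃ a b : LaurentSeries O, b ≠ 0 ∧
    y * coeffMap (algebraMap O K) b = coeffMap (algebraMap O K) a

variable {O K}

theorem s18gq_iota_ne_zero {b : LaurentSeries O} (hb : b ≠ 0) :
    coeffMap (algebraMap O K) b ≠ 0 := fun h =>
  hb ((s18gq_coeffMap_eq_zero _ (IsFractionRing.injective O K)).1 h)

theorem s18gq_isFrac_int (a : LaurentSeries O) :
    s18gq_IsFrac O K (coeffMap (algebraMap O K) a) :=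
  ⟨a, 1, one_ne_zero, by rw [map_one, mul_one]⟩

theorem s18gq_isFrac_zero : s18gq_IsFrac O K 0 :=
  ⟨0, 1, one_ne_zero, by rw [map_one, mul_one, map_zero]⟩

theorem s18gq_isFrac_one : s18gq_IsFrac O K 1 :=
  ⟨1, 1, one_ne_zero, by rw [map_one, mul_one]⟩

theorem s18gq_IsFrac.add {x y : LaurentSeries K} (hx : s18gq_IsFrac O K x)
    (hy : s18gq_IsFrac O K y) : s18gq_IsFrac O K (x + y) := by
  obtain ⟨a, b, hb, h⟩ := hx
  obtain ⟨a', b', hb', h'⟩ := hy
  refine ⟨a * b' + a' * b, b * b', mul_ne_zero hb hb', ?_⟩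
  rw [map_add, map_mul, map_mul, map_mul, ← h, ← h']
  ring

theorem s18gq_IsFrac.mul {x y : LaurentSeries K} (hx : s18gq_IsFrac O K x)
    (hy : s18gq_IsFrac O K y) : s18gq_IsFrac O K (x * y) := by
  obtain ⟨a, b, hb, h⟩ := hx
  obtain ⟨a', b', hb', h'⟩ := hy
  refine ⟨a * a', b * b', mul_ne_zero hb hb', ?_⟩
  rw [map_mul, map_mul, ← h, ← h']
  ring

theorem s18gq_IsFrac.neg {x : LaurentSeries K} (hx : s18gq_IsFrac O K x) :
    s18gq_IsFrac O K (-x) := by
  obtain ⟨a, b, hb, h⟩ := hx
  refine ⟨-a, b, hb, ?_⟩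
  rw [map_neg, ← h]
  ring

theorem s18gq_IsFrac.inv {x : LaurentSeries K} (hx : s18gq_IsFrac O K x) :
    s18gq_IsFrac O K x⁻¹ := by
  obtain ⟨a, b, hb, h⟩ := hx
  by_cases ha : a = 0
  · have hx0 : x = 0 := by
      rw [ha, map_zero] at h
      exact (mul_eq_zero.1 h).resolve_right (s18gq_iota_ne_zero hb)
    rw [hx0, inv_zero]
    exact s18gq_isFrac_zero
  · have hx0 : x ≠ 0 := by
      intro h0
      rw [h0, zero_mul] at h
      exact s18gq_iota_ne_zero (K := K) ha h.symm
    refine ⟨b, a, ha, ?_⟩
    rw [← h, ← mul_assoc, inv_mul_cancel₀ hx0, one_mul]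

theorem s18gq_isFrac_algebraMap (c : K) :
    s18gq_IsFrac O K (algebraMap K (LaurentSeries K) c) := by
  obtain ⟨a, b, hb, rfl⟩ := IsFractionRing.div_surjective (A := O) c
  have hb0 : b ≠ 0 := nonZeroDivisors.ne_zero hb
  have hbK : algebraMap O K b ≠ 0 := fun h =>
    hb0 ((IsFractionRing.injective O K) (by rw [h, map_zero]))
  refine ⟨HahnSeries.C a, HahnSeries.C b, ?_, ?_⟩
  · intro h
    apply hb0
    have := congrArg (fun z : LaurentSeries O => z.coeff 0) h
    simpa using this
  · rw [s18gq_coeffMap_C, s18gq_coeffMap_C, algebraMap_laurentSeries_eq_single]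
    show HahnSeries.C _ * HahnSeries.C _ = HahnSeries.C _
    rw [← map_mul, div_mul_cancel₀ _ hbK]

end Frac

section Mem

variable (O K : Type) [CommRing O] [IsDomain O] [Field K] [CharZero K] [Algebra O K]
  [IsFractionRing O K] (M : ℕ) [NeZero M]

theorem s18gq_coeffEmb_algebraMap (r : ℚ) :
    coeffEmb K (algebraMap ℚ (LaurentSeries ℚ) r) =
      algebraMap K (LaurentSeries K) (algebraMap ℚ K r) := by
  rw [algebraMap_laurentSeries_eq_single, algebraMap_laurentSeries_eq_single]
  exact coeffMap_single _ _ _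

/-- The images of the elements of `F_ℚ(M)` are quotients of integral series. -/
theorem s18gq_isFrac_coeffEmb (z : LaurentSeries ℚ) (hz : z ∈ modularFunctionFieldFull M) :
    s18gq_IsFrac O K (coeffEmb K z) := by
  have key : ∀ w ∈ Subfield.closure
      (Set.range (algebraMap ℚ (LaurentSeries ℚ)) ∪ divisorExpansions M),
      s18gq_IsFrac O K (coeffEmb K w) := by
    intro w hw
    induction hw using Subfield.closure_induction with
    | mem y hy =>
        rcases hy with ⟨r, rfl⟩ | ⟨d, hd, hdM, rfl⟩
        · rw [s18gq_coeffEmb_algebraMap]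
          exact s18gq_isFrac_algebraMap _
        · have e : coeffEmb K (qExpand ℚ d jq) =
              coeffMap (algebraMap O K) (qExpand O d (jqModC O)) := by
            rw [coeffMap_qExpand, coeffMap_jqModC]
            show coeffMap (algebraMap ℚ K) (qExpand ℚ d (jqModC ℚ)) = _
            rw [coeffMap_qExpand, coeffMap_jqModC]
          rw [e]
          exact s18gq_isFrac_int _
    | one => rw [map_one]; exact s18gq_isFrac_one
    | add x y _ _ hx hy => rw [map_add]; exact hx.add hy
    | neg x _ hx => rw [map_neg]; exact hx.neg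
    | inv x _ hx => rw [map_inv₀]; exact hx.inv
    | mul x y _ _ hx hy => rw [map_mul]; exact hx.mul hy
  exact key z hz

/-- **Hypothesis 3 of [GAUSS-ABS]**: every element of `F_K(M)` is a quotient of two integral
`q`-expansions. -/
theorem s18gq_isFrac_of_mem (y : LaurentSeries K) (hy : y ∈ s18_F K M) : s18gq_IsFrac O K y := by
  have key : ∀ w ∈ Subfield.closure
      (Set.range (algebraMap K (LaurentSeries K)) ∪
        (⇑(coeffEmb K) '' (modularFunctionFieldFull M : Set (LaurentSeries ℚ)))),
      s18gq_IsFrac O K w := by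
    intro w hw
    induction hw using Subfield.closure_induction with
    | mem v hv =>
        rcases hv with ⟨c, rfl⟩ | ⟨z, hz, rfl⟩
        · exact s18gq_isFrac_algebraMap c
        · exact s18gq_isFrac_coeffEmb O K M z hz
    | one => exact s18gq_isFrac_one
    | add x y _ _ hx hy => exact hx.add hy
    | neg x _ hx => exact hx.neg
    | inv x _ hx => exact hx.inv
    | mul x y _ _ hx hy => exact hx.mul hy
  exact key y hy

end Mem

end Fermat.Agent.S18
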