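/-
S18, package (M2) [GAUSS-Q-OF], part 4: the independence hypothesis (hypothesis 5) of [GAUSS-ABS]
for `(F_K(M), j)` and `(F_K(M), 1/j)`, from S28's KEY (`chiH_key`).
Owner: helper27.  Prefix `s18gq_`.

KEY gives `g ∈ ℤ((q))` with `1, ḡ, …, ḡ^(n-1)` independent over `𝔽_ℓ[j̄]`.  Independence over
`κ[j̄]` for an arbitrary field `κ ⊇ 𝔽_ℓ` follows by applying `𝔽_ℓ`-linear functionals of `κ`
coefficientwise; independence over `κ[1/j̄]` by reflecting the polynomials.
-/
import Mathlib
import Fermat.Agent.S18.GaussQOfBasic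
import Fermat.Agent.S28.ChiH

set_option autoImplicit false
set_option linter.unusedSectionVars false
set_option linter.unusedVariables false
set_option linter.style.haveILetI false

open AlgebraicCurve ModularCurve IntermediateField
open scoped MatrixGroups

noncomputable section

namespace Fermat.Agent.S18

open Polynomial

/-! ### Coefficients of `aeval y c * z` -/

theorem s18gq_algebraMap_eq_C {R : Type*} [CommRing R] (c : R) :
    algebraMap R (LaurentSeries R) c = HahnSeries.C c := by
  have h1 : algebraMap R (PowerSeries R) c = PowerSeries.C c := by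
    simp
  rw [HahnSeries.algebraMap_apply', h1, HahnSeries.ofPowerSeries_C]

theorem s18gq_coeff_aeval_mul {R : Type*} [CommRing R] (y z : LaurentSeries R) (c : R[X])
    (N : ℕ) (hN : c.natDegree < N) (t : ℤ) :
    (aeval y c * z).coeff t = ∑ m ∈ Finset.range N, c.coeff m * (y ^ m * z).coeff t := by
  rw [Polynomial.aeval_eq_sum_range' hN, Finset.sum_mul, HahnSeries.coeff_sum]
  refine Finset.sum_congr rfl fun m _ => ?_
  rw [Algebra.smul_def, s18gq_algebraMap_eq_C, mul_assoc, HahnSeries.C_mul_eq_smul,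
    HahnSeries.coeff_smul, smul_eq_mul]

/-! ### Functionals applied coefficientwise -/

section Dual

variable {k κ : Type*} [Field k] [Field κ] [Algebra k κ]

/-- A `k`-linear functional of `κ`, applied to the coefficients of a polynomial. -/
def s18gq_polyDual (lam : κ →ₗ[k] k) (c : κ[X]) : k[X] :=
  ∑ m ∈ Finset.range (c.natDegree + 1), Polynomial.monomial m (lam (c.coeff m))

theorem s18gq_polyDual_coeff (lam : κ →ₗ[k] k) (c : κ[X]) (m : ℕ) :
    (s18gq_polyDual lam c).coeff m = lam (c.coeff m) := by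
  unfold s18gq_polyDual
  rw [Polynomial.finsetSum_coeff]
  simp only [Polynomial.coeff_monomial]
  rw [Finset.sum_ite_eq' (Finset.range (c.natDegree + 1)) m]
  split_ifs with h
  · rfl
  · have h' : c.natDegree < m := by
      rw [Finset.mem_range] at h
      omega
    rw [Polynomial.coeff_eq_zero_of_natDegree_lt h', map_zero]

theorem s18gq_polyDual_natDegree_le (lam : κ →ₗ[k] k) (c : κ[X]) :
    (s18gq_polyDual lam c).natDegree ≤ c.natDegree := by
  rw [Polynomial.natDegree_le_iff_coeff_eq_zero]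
  intro N hN
  rw [s18gq_polyDual_coeff, Polynomial.coeff_eq_zero_of_natDegree_lt hN, map_zero]

theorem s18gq_dual_coeff (lam : κ →ₗ[k] k) (J Z : LaurentSeries k) (c : κ[X]) (t : ℤ) :
    lam ((aeval (coeffMap (algebraMap k κ) J) c * coeffMap (algebraMap k κ) Z).coeff t) =
      (aeval J (s18gq_polyDual lam c) * Z).coeff t := by
  rw [s18gq_coeff_aeval_mul _ _ c (c.natDegree + 1) (Nat.lt_succ_self _),
    s18gq_coeff_aeval_mul _ _ (s18gq_polyDual lam c) (c.natDegree + 1)
      (Nat.lt_succ_of_le (s18gq_polyDual_natDegree_le lam c)), map_sum]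
  refine Finset.sum_congr rfl fun m _ => ?_
  rw [s18gq_polyDual_coeff, ← map_pow, ← map_mul, coeffMap_coeff]
  have e : c.coeff m * algebraMap k κ ((J ^ m * Z).coeff t) =
      ((J ^ m * Z).coeff t) • c.coeff m := by
    rw [Algebra.smul_def, mul_comm]
  rw [e, map_smul, smul_eq_mul, mul_comm]

/-- **Independence over an extension of the field of constants.** -/
theorem s18gq_indep_ext (J G : LaurentSeries k) (n : ℕ)
    (hkey : ∀ Q : k[X][X], Q ≠ 0 → Q.natDegree < n →
      (Q.map (aeval J : k[X] →ₐ[k] LaurentSeries k).toRingHom).eval G ≠ 0)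
    (c : Fin n → κ[X])
    (h0 : ∑ i, aeval (coeffMap (algebraMap k κ) J) (c i) *
      coeffMap (algebraMap k κ) (G ^ (i : ℕ)) = 0) : ∀ i, c i = 0 := by
  classical
  have step : ∀ lam : κ →ₗ[k] k, ∀ i, s18gq_polyDual lam (c i) = 0 := by
    intro lam j
    have hn : 0 < n := lt_of_le_of_lt (Nat.zero_le _) j.2
    set d : Fin n → k[X] := fun i => s18gq_polyDual lam (c i) with hd
    have hsum : ∑ i, aeval J (d i) * G ^ (i : ℕ) = 0 := by
      ext t
      rw [HahnSeries.coeff_sum, HahnSeries.coeff_zero]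
      have h1 := congrArg (fun z : LaurentSeries κ => lam (z.coeff t)) h0
      simp only [HahnSeries.coeff_sum, HahnSeries.coeff_zero, map_sum, map_zero] at h1
      rw [← h1]
      exact Finset.sum_congr rfl fun i _ => (s18gq_dual_coeff lam J _ (c i) t).symm
    set Q : k[X][X] := ∑ i : Fin n, C (d i) * X ^ (i : ℕ) with hQ
    have hdeg : Q.natDegree < n := by
      have : Q.natDegree ≤ n - 1 := by
        refine Polynomial.natDegree_sum_le_of_forall_le _ _ fun i _ => ?_
        refine (natDegree_C_mul_X_pow_le _ _).trans ?_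
        have := i.2
        omega
      omega
    have hev : (Q.map (aeval J : k[X] →ₐ[k] LaurentSeries k).toRingHom).eval G = 0 := by
      rw [hQ, Polynomial.map_sum, Polynomial.eval_finsetSum]
      rw [← hsum]
      refine Finset.sum_congr rfl fun i _ => ?_
      rw [Polynomial.map_mul, Polynomial.map_C, Polynomial.map_pow, Polynomial.map_X,
        Polynomial.eval_mul, Polynomial.eval_C, Polynomial.eval_pow, Polynomial.eval_X]
      rfl
    have hQ0 : Q = 0 := by
      by_contra hne
      exact hkey Q hne hdeg hev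
    have hcoeff : Q.coeff (j : ℕ) = d j := by
      rw [hQ, Polynomial.finsetSum_coeff]
      rw [Finset.sum_eq_single j]
      · rw [coeff_C_mul_X_pow, if_pos rfl]
      · intro i _ hij
        rw [coeff_C_mul_X_pow, if_neg]
        intro h
        exact hij (Fin.ext h.symm)
      · intro h
        exact absurd (Finset.mem_univ j) h
    rw [hQ0, coeff_zero] at hcoeff
    exact hcoeff.symm
  intro i
  ext m
  rw [Polynomial.coeff_zero]
  refine (Module.forall_dual_apply_eq_zero_iff k (c i |>.coeff m)).1 fun lam => ?_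
  have := congrArg (fun p : k[X] => p.coeff m) (step lam i)
  simpa [s18gq_polyDual_coeff] using this

end Dual

/-! ### Reflection: from `y` to `1/y` -/

section Reflect

variable {κ L : Type*} [Field κ] [Field L] [Algebra κ L]

theorem s18gq_aeval_inv_mul_pow (y : L) (hy : y ≠ 0) (N : ℕ) (f : κ[X])
    (hf : f.natDegree ≤ N) : aeval y⁻¹ f * y ^ N = aeval y (reflect N f) := by
  letI : Invertible y := invertibleOfNonzero hy
  have h1 := Polynomial.eval₂_reflect_mul_pow (algebraMap κ L) y N (reflect N f)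
    (natDegree_reflect_le.trans (by rw [max_eq_left hf]))
  rw [Polynomial.reflect_reflect] at h1
  rw [Polynomial.aeval_def, Polynomial.aeval_def, ← h1, invOf_eq_inv]

/-- Independence over `κ[y]` implies independence over `κ[1/y]`. -/
theorem s18gq_indep_inv {n : ℕ} (y : L) (hy : y ≠ 0) (z : Fin n → L)
    (h : ∀ c : Fin n → κ[X], ∑ i, aeval y (c i) * z i = 0 → ∀ i, c i = 0)
    (c : Fin n → κ[X]) (h0 : ∑ i, aeval y⁻¹ (c i) * z i = 0) : ∀ i, c i = 0 := by
  classical
  set N : ℕ := Finset.univ.sup fun i => (c i).natDegree with hN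
  have hle : ∀ i, (c i).natDegree ≤ N := fun i =>
    Finset.le_sup (f := fun i => (c i).natDegree) (Finset.mem_univ i)
  have h1 : ∑ i, aeval y (reflect N (c i)) * z i = 0 := by
    have : ∑ i, aeval y (reflect N (c i)) * z i = y ^ N * ∑ i, aeval y⁻¹ (c i) * z i := by
      rw [Finset.mul_sum]
      refine Finset.sum_congr rfl fun i _ => ?_
      rw [← s18gq_aeval_inv_mul_pow y hy N (c i) (hle i)]
      ring
    rw [this, h0, mul_zero]
  intro i
  have := h _ h1 i
  exact (Polynomial.reflect_eq_zero_iff).1 this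

end Reflect

/-! ### The application to `F_K(M)` -/

section Apply

variable (O K : Type) [CommRing O] [IsLocalRing O] [Field K] [CharZero K] [Algebra O K]
  (M : ℕ) [NeZero M] (ℓ : ℕ) [Fact ℓ.Prime]

theorem s18gq_charP (hℓ : (ℓ : O) ∈ IsLocalRing.maximalIdeal O) :
    CharP (IsLocalRing.ResidueField O) ℓ := by
  refine (CharP.charP_iff_prime_eq_zero (Fact.out : ℓ.Prime)).2 ?_
  have h := (IsLocalRing.residue_eq_zero_iff (ℓ : O)).2 hℓ
  rwa [map_natCast] at h

theorem s18gq_g_mem (g : LaurentSeries ℤ)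
    (hg : coeffMap (Int.castRingHom ℚ) g ∈ modularFunctionFieldFull M) (i : ℕ) :
    coeffMap (algebraMap O K) (coeffMap (Int.castRingHom O) (g ^ i)) ∈ s18_F K M := by
  have e : coeffMap (algebraMap O K) (coeffMap (Int.castRingHom O) (g ^ i)) =
      coeffEmb K (coeffMap (Int.castRingHom ℚ) g ^ i) := by
    rw [coeffMap_coeffMap, ← map_pow, coeffEmb, coeffMap_coeffMap]
    exact coeffMap_congr (RingHom.ext_int _ _) _
  rw [e]
  exact coeffEmb_mem_laurentBaseChange K (pow_mem hg i)

/-- **Hypothesis 5 of [GAUSS-ABS]** for `x = j`. -/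
theorem s18gq_indep_j (hℓM : ¬ ℓ ∣ M) (hℓ : (ℓ : O) ∈ IsLocalRing.maximalIdeal O) :
    ∃ g : Fin (Nat.card (SL(2, ℤ) ⧸ CongruenceSubgroup.Gamma0 M)) → LaurentSeries O,
      (∀ i, coeffMap (algebraMap O K) (g i) ∈ s18_F K M) ∧
      ∀ c : Fin (Nat.card (SL(2, ℤ) ⧸ CongruenceSubgroup.Gamma0 M)) →
          Polynomial (IsLocalRing.ResidueField O),
        (∑ i, Polynomial.aeval (coeffMap (IsLocalRing.residue O) (jqModC O)) (c i) *
          coeffMap (IsLocalRing.residue O) (g i)) = 0 → ∀ i, c i = 0 := by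
  obtain ⟨g, hg, hkey⟩ := Fermat.Agent.S28.chiH_key M ℓ hℓM
  haveI := s18gq_charP O ℓ hℓ
  letI : Algebra (ZMod ℓ) (IsLocalRing.ResidueField O) := ZMod.algebra _ ℓ
  refine ⟨fun i => coeffMap (Int.castRingHom O) (g ^ (i : ℕ)),
    fun i => s18gq_g_mem O K M g hg i, ?_⟩
  intro c h0
  refine s18gq_indep_ext (jqModC (ZMod ℓ)) (coeffMap (Int.castRingHom (ZMod ℓ)) g) _ hkey c ?_
  rw [← h0]
  refine Finset.sum_congr rfl fun i _ => ?_
  rw [coeffMap_jqModC, coeffMap_jqModC, ← map_pow, coeffMap_coeffMap, coeffMap_coeffMap]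
  congr 1
  exact coeffMap_congr (RingHom.ext_int _ _) _

/-- **Hypothesis 5 of [GAUSS-ABS]** for `x = 1/j`. -/
theorem s18gq_indep_jinv (hℓM : ¬ ℓ ∣ M) (hℓ : (ℓ : O) ∈ IsLocalRing.maximalIdeal O) :
    ∃ g : Fin (Nat.card (SL(2, ℤ) ⧸ CongruenceSubgroup.Gamma0 M)) → LaurentSeries O,
      (∀ i, coeffMap (algebraMap O K) (g i) ∈ s18_F K M) ∧
      ∀ c : Fin (Nat.card (SL(2, ℤ) ⧸ CongruenceSubgroup.Gamma0 M)) →
          Polynomial (IsLocalRing.ResidueField O),
        (∑ i, Polynomial.aeval (coeffMap (IsLocalRing.residue O) (s18gq_jinv O)) (c i) *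
          coeffMap (IsLocalRing.residue O) (g i)) = 0 → ∀ i, c i = 0 := by
  obtain ⟨g, hg, hind⟩ := s18gq_indep_j O K M ℓ hℓM hℓ
  refine ⟨g, hg, fun c h0 => ?_⟩
  rw [s18gq_coeffMap_jinv, s18gq_jinv_eq_inv] at h0
  refine s18gq_indep_inv (jqModC (IsLocalRing.ResidueField O))
    (jqModC_ne_zero_of_nontrivial _) _ (fun c' h' => hind c' ?_) c h0
  rw [coeffMap_jqModC]
  exact h'

end Apply

end Fermat.Agent.S18
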