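/-
S18, package (M2) [GAUSS-Q-OF], part 5: consequences of a reduction datum `s18_HasRedF`.
Owner: helper27.  Prefix `s18gq_`.

For `F ⊆ K((q))`, a chart `B = s18_chart O S` and `ρ : B → κ((q))` as in `s18_HasRedF`:
* `ρ b = ā` for every `b ∈ B` which is an integral series `ι a`;
* `ker ρ` is the ideal of the special fibre, so the special fibre is a domain;
* (for `S = {x}`, `x̄` transcendental, `F / K(x)` finite) the Gauss reduction is the reduction
  modulo the special fibre (`s18_RedOne`).
-/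
import Mathlib
import Fermat.Agent.S18.GaussQOfIndep
import Fermat.Agent.S18.Fin

set_option autoImplicit false
set_option linter.unusedSectionVars false
set_option linter.unusedVariables false
set_option linter.style.haveILetI false
set_option warn.classDefReducibility false
set_option maxHeartbeats 1000000
set_option synthInstance.maxHeartbeats 400000

open AlgebraicCurve ModularCurve IntermediateField

noncomputable section

namespace Fermat.Agent.S18

open Polynomial

/-! ### Evaluation of polynomials and `coeffMap` -/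

theorem s18gq_coeffMap_aeval {R S : Type*} [CommRing R] [CommRing S] (f : R →+* S)
    (z : LaurentSeries R) (P : R[X]) :
    coeffMap f (aeval z P) = aeval (coeffMap f z) (P.map f) := by
  rw [Polynomial.aeval_def, Polynomial.hom_eval₂, Polynomial.aeval_def, Polynomial.eval₂_map]
  congr 1
  ext c
  simp only [RingHom.comp_apply, s18gq_algebraMap_eq_C, s18gq_coeffMap_C]

section Red

variable (O K : Type) [CommRing O] [IsDomain O] [IsDiscreteValuationRing O] [Field K]
  [Algebra O K] [IsFractionRing O K] (F : IntermediateField K (LaurentSeries K))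

attribute [local instance 10] s18_algOFF

theorem s18gq_towerOFF : IsScalarTower O K ↥F :=
  IsScalarTower.of_algebraMap_eq' rfl

/-- The coercion of a constant. -/
theorem s18gq_coe_algebraMap (c : O) :
    ((algebraMap O ↥F c : ↥F) : LaurentSeries K) =
      coeffMap (algebraMap O K) (HahnSeries.C c) := by
  rw [s18gq_coeffMap_C]
  show algebraMap K (LaurentSeries K) (algebraMap O K c) = _
  rw [s18gq_algebraMap_eq_C]

/-- The coercion of a polynomial in an integral series. -/
theorem s18gq_coe_aeval (x : ↥F) (ax : LaurentSeries O)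
    (hx : ((x : ↥F) : LaurentSeries K) = coeffMap (algebraMap O K) ax) (P : O[X]) :
    ((aeval x P : ↥F) : LaurentSeries K) = coeffMap (algebraMap O K) (aeval ax P) := by
  induction P using Polynomial.induction_on with
  | C c =>
      rw [Polynomial.aeval_C, Polynomial.aeval_C, s18gq_coe_algebraMap, s18gq_algebraMap_eq_C]
  | add p q hp hq =>
      rw [map_add, map_add, map_add, ← hp, ← hq]
      rfl
  | monomial n c h =>
      have e1 : aeval x (C c * X ^ (n + 1)) = aeval x (C c * X ^ n) * x := by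
        rw [pow_succ, ← mul_assoc, map_mul, Polynomial.aeval_X]
      have e2 : aeval ax (C c * X ^ (n + 1)) = aeval ax (C c * X ^ n) * ax := by
        rw [pow_succ, ← mul_assoc, map_mul, Polynomial.aeval_X]
      rw [e1, e2, map_mul (coeffMap (algebraMap O K)), ← h, ← hx]
      rfl

variable {O K F}

section Rho

variable {S : Set ↥F} (ρ : ↥(s18_chart O S) →+* LaurentSeries (IsLocalRing.ResidueField O))
  (hker : ∀ b, ρ b = 0 → b ∈ s18_fibreIdeal O S)
  (hmul : ∀ (b b' : ↥(s18_chart O S)) (a : LaurentSeries O),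
      ((b' : ↥F) : LaurentSeries K) =
          coeffMap (algebraMap O K) a * ((b : ↥F) : LaurentSeries K) →
        ρ b' = coeffMap (IsLocalRing.residue O) a * ρ b)

include hmul in
/-- `ρ` is the coefficientwise reduction on the integral series of the chart. -/
theorem s18gq_rho_eq (b : ↥(s18_chart O S)) (a : LaurentSeries O)
    (h : ((b : ↥F) : LaurentSeries K) = coeffMap (algebraMap O K) a) :
    ρ b = coeffMap (IsLocalRing.residue O) a := by
  have h1 := hmul 1 b a (by
    rw [h]
    show _ = _ * ((1 : ↥F) : LaurentSeries K)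
    rw [show ((1 : ↥F) : LaurentSeries K) = 1 from rfl, mul_one])
  rw [h1, map_one, mul_one]

include hmul in
theorem s18gq_rho_algebraMap (c : O) :
    ρ (algebraMap O ↥(s18_chart O S) c) = HahnSeries.C (IsLocalRing.residue O c) := by
  rw [s18gq_rho_eq ρ hmul _ (HahnSeries.C c) (s18gq_coe_algebraMap O K F c), s18gq_coeffMap_C]

include hmul in
theorem s18gq_fibreIdeal_le_ker : s18_fibreIdeal O S ≤ RingHom.ker ρ := by
  unfold s18_fibreIdeal
  rw [Ideal.map_le_iff_le_comap]
  intro m hm
  rw [Ideal.mem_comap, RingHom.mem_ker, s18gq_rho_algebraMap ρ hmul,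
    (IsLocalRing.residue_eq_zero_iff m).2 hm, map_zero]

include hker hmul in
theorem s18gq_ker_eq : RingHom.ker ρ = s18_fibreIdeal O S :=
  le_antisymm (fun b hb => hker b ((RingHom.mem_ker).1 hb)) (s18gq_fibreIdeal_le_ker ρ hmul)

include hker hmul in
/-- The special fibre is a domain. -/
theorem s18gq_fibre_isDomain : IsDomain (s18_fibre O S) := by
  haveI : (s18_fibreIdeal O S).IsPrime := by
    rw [← s18gq_ker_eq ρ hker hmul]
    exact RingHom.ker_isPrime ρ
  exact Ideal.Quotient.isDomain _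

include hker in
/-- Division by a uniformizer in the chart. -/
theorem s18gq_div_unif {ϖ : O} (hϖ : Irreducible ϖ) (b : ↥(s18_chart O S)) (hb : ρ b = 0) :
    ∃ b₁ : ↥(s18_chart O S), b = algebraMap O ↥(s18_chart O S) ϖ * b₁ := by
  have h1 := hker b hb
  unfold s18_fibreIdeal at h1
  rw [hϖ.maximalIdeal_eq, Ideal.map_span, Set.image_singleton,
    Ideal.mem_span_singleton'] at h1
  obtain ⟨b₁, hb₁⟩ := h1
  exact ⟨b₁, by rw [← hb₁, mul_comm]⟩

include hker hmul in
/-- **The descent**: an integral series `z ∈ F` with `ϖ ^ k * z` in the chart lies in the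
chart. -/
theorem s18gq_descent {ϖ : O} (hϖ : Irreducible ϖ) (k : ℕ) (z : ↥F) (c : LaurentSeries O)
    (hz : ((z : ↥F) : LaurentSeries K) = coeffMap (algebraMap O K) c)
    (h : algebraMap O ↥F ϖ ^ k * z ∈ s18_chart O S) : z ∈ s18_chart O S := by
  induction k with
  | zero => simpa using h
  | succ k ih =>
      apply ih
      have hϖm : ϖ ∈ IsLocalRing.maximalIdeal O := by
        rw [hϖ.maximalIdeal_eq]
        exact Ideal.mem_span_singleton_self ϖ
      have hne : algebraMap O ↥F ϖ ≠ 0 := by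
        have hinj : Function.Injective (algebraMap O ↥F) :=
          (algebraMap K ↥F).injective.comp (IsFractionRing.injective O K)
        exact (map_ne_zero_iff _ hinj).2 hϖ.ne_zero
      have hw : ρ ⟨_, h⟩ = 0 := by
        rw [s18gq_rho_eq ρ hmul ⟨_, h⟩ (HahnSeries.C (ϖ ^ (k + 1)) * c) (by
          show ((algebraMap O ↥F ϖ ^ (k + 1) * z : ↥F) : LaurentSeries K) = _
          rw [map_mul (coeffMap (algebraMap O K)), ← hz, ← s18gq_coe_algebraMap O K F,
            map_pow]
          rfl)]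
        rw [map_mul, s18gq_coeffMap_C, map_pow, (IsLocalRing.residue_eq_zero_iff ϖ).2 hϖm,
          zero_pow (Nat.succ_ne_zero k), map_zero, zero_mul]
      obtain ⟨b₁, hb₁⟩ := s18gq_div_unif ρ hker hϖ _ hw
      have h3 : algebraMap O ↥F ϖ ^ (k + 1) * z = algebraMap O ↥F ϖ * (b₁ : ↥F) :=
        congrArg (fun b : ↥(s18_chart O S) => (b : ↥F)) hb₁
      have h2 : algebraMap O ↥F ϖ ^ k * z = (b₁ : ↥F) := by
        apply mul_left_cancel₀ hne
        rw [← h3, pow_succ']
        ring
      rw [h2]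
      exact b₁.2

end Rho

/-- Factorisation of a non-zero polynomial over a discrete valuation ring. -/
theorem s18gq_poly_factor {ϖ : O} (hϖ : Irreducible ϖ) (P : O[X]) (hP : P ≠ 0) :
    ∃ (k : ℕ) (P₀ : O[X]), P = C ϖ ^ k * P₀ ∧ P₀.map (IsLocalRing.residue O) ≠ 0 := by
  have hirr : Irreducible (C ϖ : O[X]) := (Polynomial.prime_C_iff.2 hϖ.prime).irreducible
  obtain ⟨k, P₀, hnd, hP₀⟩ := WfDvdMonoid.max_power_factor hP hirr
  refine ⟨k, P₀, hP₀, fun h0 => hnd ?_⟩
  rw [Polynomial.C_dvd_iff_dvd_coeff]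
  intro i
  have hi : IsLocalRing.residue O (P₀.coeff i) = 0 := by
    have := congrArg (fun p => p.coeff i) h0
    simpa [Polynomial.coeff_map] using this
  rw [IsLocalRing.residue_eq_zero_iff, hϖ.maximalIdeal_eq, Ideal.mem_span_singleton] at hi
  exact hi

/-- **The Gauss reduction is the reduction modulo the special fibre.** -/
theorem s18gq_redOne (x : ↥F) (ax : LaurentSeries O)
    (hx : ((x : ↥F) : LaurentSeries K) = coeffMap (algebraMap O K) ax)
    (htr : Transcendental (IsLocalRing.ResidueField O) (coeffMap (IsLocalRing.residue O) ax))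
    (hfin : FiniteDimensional ↥K⟮x⟯ ↥F)
    (ρ : ↥(s18_chart O ({x} : Set ↥F)) →+* LaurentSeries (IsLocalRing.ResidueField O))
    (hker : ∀ b, ρ b = 0 → b ∈ s18_fibreIdeal O ({x} : Set ↥F))
    (hmul : ∀ (b b' : ↥(s18_chart O ({x} : Set ↥F))) (a : LaurentSeries O),
      ((b' : ↥F) : LaurentSeries K) =
          coeffMap (algebraMap O K) a * ((b : ↥F) : LaurentSeries K) →
        ρ b' = coeffMap (IsLocalRing.residue O) a * ρ b)
    (a b : LaurentSeries O) (ha : coeffMap (algebraMap O K) a ∈ F)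
    (hb : coeffMap (algebraMap O K) b ∈ F)
    (hab : coeffMap (IsLocalRing.residue O) a = coeffMap (IsLocalRing.residue O) b)
    (hb0 : coeffMap (IsLocalRing.residue O) b ≠ 0) :
    s18_RedOne O x
      ((⟨coeffMap (algebraMap O K) a, ha⟩ : ↥F) / (⟨coeffMap (algebraMap O K) b, hb⟩ : ↥F)) := by
  classical
  haveI := s18gq_towerOFF O K F
  obtain ⟨ϖ, hϖ⟩ := IsDiscreteValuationRing.exists_irreducible O
  set fa : ↥F := ⟨coeffMap (algebraMap O K) a, ha⟩ with hfa
  set fb : ↥F := ⟨coeffMap (algebraMap O K) b, hb⟩ with hfb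
  -- a common denominator in `O[x]`
  have hden : ∃ y : ↥(Algebra.adjoin O ({x} : Set ↥F)), y ≠ 0 ∧
      IsIntegral ↥(Algebra.adjoin O ({x} : Set ↥F)) ((y : ↥F) * fa) ∧
      IsIntegral ↥(Algebra.adjoin O ({x} : Set ↥F)) ((y : ↥F) * fb) := by
    have htL : x ∈ K⟮x⟯ := mem_adjoin_simple_self K x
    letI : Algebra ↥(Algebra.adjoin O ({x} : Set ↥F)) ↥K⟮x⟯ :=
      (s18fin_incl K⟮x⟯ htL).toAlgebra
    haveI : IsScalarTower ↥(Algebra.adjoin O ({x} : Set ↥F)) ↥K⟮x⟯ ↥F :=
      IsScalarTower.of_algebraMap_eq (fun x => rfl)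
    haveI : FaithfulSMul ↥(Algebra.adjoin O ({x} : Set ↥F)) ↥K⟮x⟯ :=
      (faithfulSMul_iff_algebraMap_injective _ _).mpr (s18fin_incl_injective K⟮x⟯ htL)
    haveI : IsFractionRing ↥(Algebra.adjoin O ({x} : Set ↥F)) ↥K⟮x⟯ := by
      refine IsFractionRing.of_field _ _ (fun z => ?_)
      obtain ⟨u, v, h⟩ := s18fin_frac (O := O) (t := x) (z := (z : ↥F)) z.2
      refine ⟨u, v, ?_⟩
      apply Subtype.ext
      rw [h]; rfl
    obtain ⟨y, hy0, hy⟩ := exists_integral_multiples ↥(Algebra.adjoin O ({x} : Set ↥F))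
      ↥K⟮x⟯ ({fa, fb} : Finset ↥F)
    refine ⟨y, hy0, ?_, ?_⟩
    · have := hy fa (by simp)
      rwa [Subalgebra.smul_def, smul_eq_mul] at this
    · have := hy fb (by simp)
      rwa [Subalgebra.smul_def, smul_eq_mul] at this
  obtain ⟨y, hy0, hya, hyb⟩ := hden
  obtain ⟨P, hP⟩ := s18fin_mem_adjoin.1 y.2
  have hP0 : P ≠ 0 := by
    rintro rfl
    rw [map_zero] at hP
    exact hy0 (Subtype.ext hP.symm)
  obtain ⟨k, P₀, hPk, hP₀⟩ := s18gq_poly_factor hϖ P hP0
  have hyk : (y : ↥F) = algebraMap O ↥F ϖ ^ k * aeval x P₀ := by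
    rw [← hP, hPk, map_mul, map_pow, Polynomial.aeval_C]
  -- the two numerators
  have hza : ((aeval x P₀ * fa : ↥F) : LaurentSeries K) =
      coeffMap (algebraMap O K) (aeval ax P₀ * a) := by
    rw [map_mul (coeffMap (algebraMap O K)), ← s18gq_coe_aeval O K F x ax hx]
    rfl
  have hzb : ((aeval x P₀ * fb : ↥F) : LaurentSeries K) =
      coeffMap (algebraMap O K) (aeval ax P₀ * b) := by
    rw [map_mul (coeffMap (algebraMap O K)), ← s18gq_coe_aeval O K F x ax hx]
    rfl
  have hma : aeval x P₀ * fa ∈ s18_chart O ({x} : Set ↥F) := by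
    refine s18gq_descent ρ hker hmul hϖ k _ _ hza ?_
    rw [← mul_assoc, ← hyk]
    exact hya
  have hmb : aeval x P₀ * fb ∈ s18_chart O ({x} : Set ↥F) := by
    refine s18gq_descent ρ hker hmul hϖ k _ _ hzb ?_
    rw [← mul_assoc, ← hyk]
    exact hyb
  have hρa : ρ ⟨_, hma⟩ = aeval (coeffMap (IsLocalRing.residue O) ax)
      (P₀.map (IsLocalRing.residue O)) * coeffMap (IsLocalRing.residue O) a := by
    rw [s18gq_rho_eq ρ hmul ⟨_, hma⟩ _ hza, map_mul, s18gq_coeffMap_aeval]
  have hρb : ρ ⟨_, hmb⟩ = aeval (coeffMap (IsLocalRing.residue O) ax)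
      (P₀.map (IsLocalRing.residue O)) * coeffMap (IsLocalRing.residue O) b := by
    rw [s18gq_rho_eq ρ hmul ⟨_, hmb⟩ _ hzb, map_mul, s18gq_coeffMap_aeval]
  have hd0 : aeval (coeffMap (IsLocalRing.residue O) ax) (P₀.map (IsLocalRing.residue O)) ≠ 0 :=
    fun h => hP₀ ((transcendental_iff.1 htr) _ h)
  have hfb0 : fb ≠ 0 := by
    intro h
    have h1 : coeffMap (algebraMap O K) b = 0 := congrArg (fun z : ↥F => (z : LaurentSeries K)) h
    rw [s18gq_coeffMap_eq_zero _ (IsFractionRing.injective O K)] at h1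
    rw [h1, map_zero] at hb0
    exact hb0 rfl
  refine ⟨⟨_, hma⟩, ⟨_, hmb⟩, ?_, ?_, ?_⟩
  · intro hmem
    have := s18gq_fibreIdeal_le_ker ρ hmul hmem
    rw [RingHom.mem_ker, hρb] at this
    exact (mul_ne_zero hd0 hb0) this
  · apply hker
    rw [map_sub, hρa, hρb, hab, sub_self]
  · show fa / fb * (aeval x P₀ * fb) = aeval x P₀ * fa
    field_simp

end Red

end Fermat.Agent.S18
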