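/-
S18, package (M2) [GAUSS-Q-OF], part 3: `F_K(M)` is spanned over `K(j)` by
`n = [SL₂(ℤ) : Γ₀(M)]` elements (hypothesis 4 of [GAUSS-ABS]), from S28's DEG-Q over `ℚ`.
Owner: helper27.  Prefix `s18gq_`.

`Ψ : F_ℚ(M) → F_K(M)` (coefficientwise); a `ℚ(j)`-basis `b` of `F_ℚ(M)`; the `K(j)`-span of the
`Ψ (b i)` contains `Ψ (F_ℚ(M))`, is a subalgebra of finite dimension over `K(j)`, hence a field,
and contains `K`: it is `F_K(M)`.
-/
import Mathlib
import Fermat.Agent.S18.GaussQOfBasic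
import Fermat.Agent.S18.Fin
import Fermat.Agent.S28.KeyOne

set_option autoImplicit false
set_option linter.unusedSectionVars false
set_option linter.unusedVariables false
set_option linter.style.haveILetI false
set_option maxHeartbeats 1000000
set_option synthInstance.maxHeartbeats 400000

open AlgebraicCurve ModularCurve IntermediateField
open scoped MatrixGroups

noncomputable section

namespace Fermat.Agent.S18

section Span

variable (K : Type) [Field K] [CharZero K] (M : ℕ) [NeZero M]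

/-- The coefficientwise base change `F_ℚ(M) → F_K(M)`. -/
def s18gq_Psi : ↥(modularFunctionFieldFull M) →+* ↥(s18_F K M) where
  toFun z := ⟨coeffEmb K (z : LaurentSeries ℚ), coeffEmb_mem_laurentBaseChange K z.2⟩
  map_one' := Subtype.ext (map_one (coeffEmb K))
  map_mul' x y := Subtype.ext (map_mul (coeffEmb K) _ _)
  map_zero' := Subtype.ext (map_zero (coeffEmb K))
  map_add' x y := Subtype.ext (map_add (coeffEmb K) _ _)

theorem s18gq_Psi_coe (z : ↥(modularFunctionFieldFull M)) :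
    ((s18gq_Psi K M z : ↥(s18_F K M)) : LaurentSeries K) = coeffEmb K (z : LaurentSeries ℚ) := rfl

theorem s18gq_Psi_jFull : s18gq_Psi K M (IgusaScheme.jFull M) = s18_j K M := rfl

theorem s18gq_Psi_algebraMap (r : ℚ) :
    s18gq_Psi K M (algebraMap ℚ ↥(modularFunctionFieldFull M) r) =
      algebraMap K ↥(s18_F K M) (algebraMap ℚ K r) := by
  have h : (s18gq_Psi K M).comp (algebraMap ℚ ↥(modularFunctionFieldFull M)) =
      (algebraMap K ↥(s18_F K M)).comp (algebraMap ℚ K) := Subsingleton.elim _ _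
  exact congrArg (fun f : ℚ →+* ↥(s18_F K M) => f r) h

theorem s18gq_Psi_aeval (α : ↥(modularFunctionFieldFull M)) (r : Polynomial ℚ) :
    s18gq_Psi K M (Polynomial.aeval α r) =
      Polynomial.aeval (s18gq_Psi K M α) (r.map (algebraMap ℚ K)) := by
  rw [Polynomial.aeval_def, Polynomial.hom_eval₂, Polynomial.aeval_def, Polynomial.eval₂_map]
  congr 1
  exact Subsingleton.elim _ _

/-- `Ψ` maps `ℚ(j)` into `K(j)`. -/
theorem s18gq_Psi_mem (c : ↥(modularFunctionFieldFull M))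
    (hc : c ∈ ℚ⟮IgusaScheme.jFull M⟯) : s18gq_Psi K M c ∈ K⟮s18_j K M⟯ := by
  obtain ⟨r, s, rfl⟩ := (IntermediateField.mem_adjoin_simple_iff ℚ c).1 hc
  rw [map_div₀, s18gq_Psi_aeval, s18gq_Psi_aeval, s18gq_Psi_jFull]
  exact (IntermediateField.mem_adjoin_simple_iff K _).2 ⟨_, _, rfl⟩

/-- The subalgebra `K(j) · Ψ (F_ℚ(M))`. -/
def s18gq_A : Subalgebra ↥(K⟮s18_j K M⟯) ↥(s18_F K M) :=
  Algebra.adjoin ↥(K⟮s18_j K M⟯) (Set.range (s18gq_Psi K M))

theorem s18gq_A_toSubmodule :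
    Subalgebra.toSubmodule (s18gq_A K M) =
      Submodule.span ↥(K⟮s18_j K M⟯) (Set.range (s18gq_Psi K M)) := by
  unfold s18gq_A
  rw [Algebra.adjoin_eq_span]
  congr 1
  have h : (Submonoid.closure (Set.range (s18gq_Psi K M)) : Set ↥(s18_F K M)) =
      ((MonoidHom.mrange ((s18gq_Psi K M : ↥(modularFunctionFieldFull M) →+* ↥(s18_F K M)) :
        ↥(modularFunctionFieldFull M) →* ↥(s18_F K M)) : Submonoid ↥(s18_F K M)) :
          Set ↥(s18_F K M)) := by
    rw [← MonoidHom.coe_mrange, Submonoid.closure_eq]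
    rfl
  rw [h]
  rfl

variable {K M}

/-- The image of a `ℚ(j)`-spanning family spans `K(j) · Ψ (F_ℚ(M))`. -/
theorem s18gq_A_le_span {ι : Type*} [Fintype ι]
    (b : Module.Basis ι ↥(ℚ⟮IgusaScheme.jFull M⟯) ↥(modularFunctionFieldFull M)) :
    Subalgebra.toSubmodule (s18gq_A K M) ≤
      Submodule.span ↥(K⟮s18_j K M⟯) (Set.range fun i => s18gq_Psi K M (b i)) := by
  rw [s18gq_A_toSubmodule, Submodule.span_le]
  rintro _ ⟨z, rfl⟩
  have hz : z = ∑ i, ((b.repr z i : ↥(ℚ⟮IgusaScheme.jFull M⟯)) :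
      ↥(modularFunctionFieldFull M)) * b i := by
    conv_lhs => rw [← b.sum_repr z]
    exact Finset.sum_congr rfl (fun i _ => by rw [IntermediateField.smul_def]; rfl)
  rw [hz, map_sum]
  refine Submodule.sum_mem _ (fun i _ => ?_)
  rw [map_mul]
  have hmem := s18gq_Psi_mem K M _ (b.repr z i).2
  have e : s18gq_Psi K M ((b.repr z i : ↥(ℚ⟮IgusaScheme.jFull M⟯)) :
      ↥(modularFunctionFieldFull M)) * s18gq_Psi K M (b i) =
      (⟨_, hmem⟩ : ↥(K⟮s18_j K M⟯)) • s18gq_Psi K M (b i) := by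
    rw [IntermediateField.smul_def]
    rfl
  rw [e]
  exact Submodule.smul_mem _ _ (Submodule.subset_span ⟨i, rfl⟩)

variable (K M)

/-- `K(j) · Ψ (F_ℚ(M))` is finitely generated as a `K(j)`-module. -/
theorem s18gq_A_fg : (Subalgebra.toSubmodule (s18gq_A K M)).FG := by
  haveI := (Fermat.Agent.S28.keyOne_degQ M).1
  let b := Module.finBasis ↥(ℚ⟮IgusaScheme.jFull M⟯) ↥(modularFunctionFieldFull M)
  have h := s18gq_A_le_span (K := K) b
  have h' : Submodule.span ↥(K⟮s18_j K M⟯) (Set.range fun i => s18gq_Psi K M (b i)) ≤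
      Subalgebra.toSubmodule (s18gq_A K M) := by
    rw [s18gq_A_toSubmodule]
    apply Submodule.span_mono
    rintro _ ⟨i, rfl⟩
    exact ⟨b i, rfl⟩
  rw [le_antisymm h h']
  exact Submodule.fg_span (Set.finite_range _)

/-- `K(j) · Ψ (F_ℚ(M))` is closed under inverses. -/
theorem s18gq_A_inv_mem (x : ↥(s18_F K M)) (hx : x ∈ s18gq_A K M) : x⁻¹ ∈ s18gq_A K M := by
  have h2 : IsIntegral ↥(K⟮s18_j K M⟯) x :=
    IsIntegral.of_mem_of_fg (s18gq_A K M) (s18gq_A_fg K M) x hx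
  exact Subalgebra.inv_mem_of_algebraic (s18gq_A K M) (x := ⟨x, hx⟩) h2.isAlgebraic

/-- `K(j) · Ψ (F_ℚ(M)) = F_K(M)`. -/
theorem s18gq_A_eq_top (y : ↥(s18_F K M)) : y ∈ s18gq_A K M := by
  have key : ∀ w ∈ Subfield.closure
      (Set.range (algebraMap K (LaurentSeries K)) ∪
        (⇑(coeffEmb K) '' (modularFunctionFieldFull M : Set (LaurentSeries ℚ)))),
      ∃ h : w ∈ s18_F K M, (⟨w, h⟩ : ↥(s18_F K M)) ∈ s18gq_A K M := by
    intro w hw
    induction hw using Subfield.closure_induction with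
    | mem v hv =>
        rcases hv with ⟨c, rfl⟩ | ⟨z, hz, rfl⟩
        · refine ⟨(s18_F K M).algebraMap_mem c, ?_⟩
          have e : (⟨algebraMap K (LaurentSeries K) c, (s18_F K M).algebraMap_mem c⟩ :
              ↥(s18_F K M)) = algebraMap ↥(K⟮s18_j K M⟯) ↥(s18_F K M)
                (algebraMap K ↥(K⟮s18_j K M⟯) c) := rfl
          rw [e]
          exact Subalgebra.algebraMap_mem _ _
        · refine ⟨coeffEmb_mem_laurentBaseChange K hz, ?_⟩
          exact Algebra.subset_adjoin ⟨⟨z, hz⟩, rfl⟩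
    | one =>
        refine ⟨one_mem _, ?_⟩
        have e : (⟨1, one_mem _⟩ : ↥(s18_F K M)) = 1 := Subtype.ext rfl
        rw [e]
        exact one_mem _
    | add x y _ _ hx hy =>
        obtain ⟨h1, h2⟩ := hx
        obtain ⟨h3, h4⟩ := hy
        refine ⟨add_mem h1 h3, ?_⟩
        have e : (⟨x + y, add_mem h1 h3⟩ : ↥(s18_F K M)) = ⟨x, h1⟩ + ⟨y, h3⟩ := Subtype.ext rfl
        rw [e]
        exact add_mem h2 h4
    | neg x _ hx =>
        obtain ⟨h1, h2⟩ := hx
        refine ⟨neg_mem h1, ?_⟩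
        have e : (⟨-x, neg_mem h1⟩ : ↥(s18_F K M)) = -⟨x, h1⟩ := Subtype.ext rfl
        rw [e]
        exact neg_mem h2
    | inv x _ hx =>
        obtain ⟨h1, h2⟩ := hx
        refine ⟨inv_mem h1, ?_⟩
        have e : (⟨x⁻¹, inv_mem h1⟩ : ↥(s18_F K M)) = (⟨x, h1⟩ : ↥(s18_F K M))⁻¹ :=
          Subtype.ext rfl
        rw [e]
        exact s18gq_A_inv_mem K M _ h2
    | mul x y _ _ hx hy =>
        obtain ⟨h1, h2⟩ := hx
        obtain ⟨h3, h4⟩ := hy
        refine ⟨mul_mem h1 h3, ?_⟩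
        have e : (⟨x * y, mul_mem h1 h3⟩ : ↥(s18_F K M)) = ⟨x, h1⟩ * ⟨y, h3⟩ := Subtype.ext rfl
        rw [e]
        exact mul_mem h2 h4
  obtain ⟨h, h'⟩ := key (y : LaurentSeries K) y.2
  exact h'

/-- **Hypothesis 4 of [GAUSS-ABS]** for `x = j`. -/
theorem s18gq_span :
    ∃ e : Fin (Nat.card (SL(2, ℤ) ⧸ CongruenceSubgroup.Gamma0 M)) → ↥(s18_F K M),
      ∀ y : ↥(s18_F K M), ∃ c : Fin (Nat.card (SL(2, ℤ) ⧸ CongruenceSubgroup.Gamma0 M)) →
        ↥(K⟮s18_j K M⟯), y = ∑ i, c i • e i := by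
  classical
  haveI := (Fermat.Agent.S28.keyOne_degQ M).1
  have hle := (Fermat.Agent.S28.keyOne_degQ M).2
  set n := Nat.card (SL(2, ℤ) ⧸ CongruenceSubgroup.Gamma0 M) with hn
  set m := Module.finrank ↥(ℚ⟮IgusaScheme.jFull M⟯) ↥(modularFunctionFieldFull M) with hm
  let b := Module.finBasis ↥(ℚ⟮IgusaScheme.jFull M⟯) ↥(modularFunctionFieldFull M)
  let e : Fin n → ↥(s18_F K M) := fun i =>
    if h : (i : ℕ) < m then s18gq_Psi K M (b ⟨i, h⟩) else 0
  refine ⟨e, fun y => ?_⟩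
  have h1 : y ∈ Subalgebra.toSubmodule (s18gq_A K M) := s18gq_A_eq_top K M y
  have h2 := s18gq_A_le_span (K := K) b h1
  have h3 : Submodule.span ↥(K⟮s18_j K M⟯) (Set.range fun i => s18gq_Psi K M (b i)) ≤
      Submodule.span ↥(K⟮s18_j K M⟯) (Set.range e) := by
    apply Submodule.span_mono
    rintro _ ⟨i, rfl⟩
    refine ⟨⟨(i : ℕ), lt_of_lt_of_le i.2 hle⟩, ?_⟩
    show (if h : (i : ℕ) < m then s18gq_Psi K M (b ⟨i, h⟩) else 0) = _
    rw [dif_pos i.2]
  obtain ⟨c, hc⟩ := (Submodule.mem_span_range_iff_exists_fun _).1 (h3 h2)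
  exact ⟨c, hc.symm⟩

/-- transport of the spanning statement along an equality of subfields. -/
theorem s18gq_span_congr {F : Type*} [Field F] [Algebra K F] (n : ℕ)
    (L L' : IntermediateField K F) (h : L = L')
    (hL : ∃ e : Fin n → F, ∀ y : F, ∃ c : Fin n → ↥L, y = ∑ i, c i • e i) :
    ∃ e : Fin n → F, ∀ y : F, ∃ c : Fin n → ↥L', y = ∑ i, c i • e i := by
  subst h
  exact hL

/-- **Hypothesis 4 of [GAUSS-ABS]** for `x = 1/j`. -/
theorem s18gq_span_inv :
    ∃ e : Fin (Nat.card (SL(2, ℤ) ⧸ CongruenceSubgroup.Gamma0 M)) → ↥(s18_F K M),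
      ∀ y : ↥(s18_F K M), ∃ c : Fin (Nat.card (SL(2, ℤ) ⧸ CongruenceSubgroup.Gamma0 M)) →
        ↥(K⟮(s18_j K M)⁻¹⟯), y = ∑ i, c i • e i :=
  s18gq_span_congr K _ _ _ (s18fin_adjoin_inv (K := K) (s18_j K M)) (s18gq_span K M)

/-- `F_K(M)` is finite over `K(j)`. -/
theorem s18gq_finite : FiniteDimensional ↥(K⟮s18_j K M⟯) ↥(s18_F K M) := by
  obtain ⟨e, he⟩ := s18gq_span K M
  classical
  refine Module.finite_def.2 ⟨Finset.univ.image e, ?_⟩
  rw [eq_top_iff]
  intro y _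
  obtain ⟨c, hc⟩ := he y
  rw [hc]
  refine Submodule.sum_mem _ (fun i _ => Submodule.smul_mem _ _ (Submodule.subset_span ?_))
  exact Finset.mem_coe.2 (Finset.mem_image_of_mem e (Finset.mem_univ i))

end Span

end Fermat.Agent.S18
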