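/-
S18, package (M2) [GAUSS-Q-OF]: [GAUSS-ABS] + S28 (`chiH_key`, DEG-Q) ⟹ [GAUSS-Q].
Owner: helper27.  Prefix `s18gq_`.

EXPORT:  theorem s18gq_main : s18_GaussQOfStatement
-/
import Mathlib
import Fermat.Agent.S18.GaussQOfBasic
import Fermat.Agent.S18.GaussQOfFrac
import Fermat.Agent.S18.GaussQOfSpan
import Fermat.Agent.S18.GaussQOfIndep
import Fermat.Agent.S18.GaussQOfRed

set_option autoImplicit false
set_option linter.unusedSectionVars false
set_option linter.unusedVariables false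
set_option linter.style.haveILetI false
set_option warn.classDefReducibility false
set_option maxHeartbeats 1000000
set_option synthInstance.maxHeartbeats 400000

open AlgebraicCurve ModularCurve IntermediateField
open scoped MatrixGroups

noncomputable section

namespace Fermat.Agent.S18

/-- The `q`-expansion principle at level `M` over an arbitrary discrete valuation ring `O` of
residue characteristic `ℓ ∤ M` with fraction field `K` of characteristic `0`, from
[GAUSS-ABS]. -/
theorem s18gq_at (hGA : s18_GaussAbsStatement) (O K : Type) [CommRing O] [IsDomain O]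
    [IsDiscreteValuationRing O] [Field K] [CharZero K] [Algebra O K] [IsFractionRing O K]
    (M : ℕ) [NeZero M] (ℓ : ℕ) [Fact ℓ.Prime] (hℓM : ¬ ℓ ∣ M)
    (hℓ : (ℓ : O) ∈ IsLocalRing.maximalIdeal O) : s18_GaussQAt O K M := by
  have htr : Transcendental (IsLocalRing.ResidueField O)
      (coeffMap (IsLocalRing.residue O) (jqModC O)) := by
    rw [coeffMap_jqModC]
    exact s18gq_transc_jq _
  have htr' : Transcendental (IsLocalRing.ResidueField O)
      (coeffMap (IsLocalRing.residue O) (s18gq_jinv O)) := by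
    rw [s18gq_coeffMap_jinv, s18gq_jinv_eq_inv]
    exact s18gq_transc_jq_inv _
  have hj := hGA O K (s18_F K M) (s18_j K M) (jqModC O)
    (Nat.card (SL(2, ℤ) ⧸ CongruenceSubgroup.Gamma0 M)) (s18gq_j_coe' O K M) htr
    (fun y hy => s18gq_isFrac_of_mem O K M y hy) (s18gq_span K M)
    (s18gq_indep_j O K M ℓ hℓM hℓ)
  have hjinv := hGA O K (s18_F K M) (s18_j K M)⁻¹ (s18gq_jinv O)
    (Nat.card (SL(2, ℤ) ⧸ CongruenceSubgroup.Gamma0 M)) (s18gq_jinv_coe O K M) htr'
    (fun y hy => s18gq_isFrac_of_mem O K M y hy) (s18gq_span_inv K M)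
    (s18gq_indep_jinv O K M ℓ hℓM hℓ)
  obtain ⟨ρ, hker, hmul⟩ := hj
  obtain ⟨ρ', hker', hmul'⟩ := hjinv
  refine ⟨s18gq_transc_j K M, s18gq_finite K M, s18gq_fibre_isDomain ρ hker hmul,
    s18gq_fibre_isDomain ρ' hker' hmul', ⟨ρ, hker, hmul⟩, ⟨ρ', hker', hmul'⟩, ?_⟩
  intro a b ha hb hab hb0
  exact s18gq_redOne (s18_j K M) (jqModC O) (s18gq_j_coe' O K M) htr (s18gq_finite K M)
    ρ hker hmul a b ha hb hab hb0

/-- **[GAUSS-Q-OF]** -/
theorem s18gq_main : s18_GaussQOfStatement :=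
  fun hGA M _ ℓ _ hℓM K0 hK0 O _ hℓ => s18gq_at hGA ↥O ↥K0 M ℓ hℓM hℓ

end Fermat.Agent.S18
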