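/-
S18, package (M2) [GAUSS-Q-OF]: standalone export of hypotheses 4 and 5 of [GAUSS-ABS] for
`(F_K(M), j)` (requested by the [GRADE] owner).  Owner: helper27.  Prefix `s18gq_`.
-/
import Mathlib
import Fermat.Agent.S18.GaussQOfSpan
import Fermat.Agent.S18.GaussQOfIndep

set_option autoImplicit false
set_option linter.unusedSectionVars false
set_option linter.unusedVariables false
set_option maxHeartbeats 1000000
set_option synthInstance.maxHeartbeats 400000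

open AlgebraicCurve ModularCurve IntermediateField
open scoped MatrixGroups

noncomputable section

namespace Fermat.Agent.S18

/-- Hypotheses 4 and 5 of [GAUSS-ABS] for `(F_K(M), j)`, over an arbitrary local ring `O` of
residue characteristic `ℓ ∤ M` and a field `K` of characteristic `0`,
with `n = [SL₂(ℤ) : Γ₀(M)]`. -/
theorem s18gq_hyp45_at (O K : Type) [CommRing O] [IsLocalRing O] [Field K] [CharZero K]
    [Algebra O K] (M : ℕ) [NeZero M] (ℓ : ℕ) [Fact ℓ.Prime] (hℓM : ¬ ℓ ∣ M)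
    (hℓ : (ℓ : O) ∈ IsLocalRing.maximalIdeal O) :
    (∃ e : Fin (Nat.card (SL(2, ℤ) ⧸ CongruenceSubgroup.Gamma0 M)) → ↥(s18_F K M),
      ∀ y : ↥(s18_F K M), ∃ c : Fin (Nat.card (SL(2, ℤ) ⧸ CongruenceSubgroup.Gamma0 M)) →
        ↥(K⟮s18_j K M⟯), y = ∑ i, c i • e i) ∧
    ∃ g : Fin (Nat.card (SL(2, ℤ) ⧸ CongruenceSubgroup.Gamma0 M)) → LaurentSeries O,
      (∀ i, coeffMap (algebraMap O K) (g i) ∈ s18_F K M) ∧
      ∀ c : Fin (Nat.card (SL(2, ℤ) ⧸ CongruenceSubgroup.Gamma0 M)) →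
          Polynomial (IsLocalRing.ResidueField O),
        (∑ i, Polynomial.aeval (coeffMap (IsLocalRing.residue O) (jqModC O)) (c i) *
          coeffMap (IsLocalRing.residue O) (g i)) = 0 → ∀ i, c i = 0 :=
  ⟨s18gq_span K M, s18gq_indep_j O K M ℓ hℓM hℓ⟩

/-- The same in the shape of the cut (number fields `K0 ⊆ Q̄`). -/
theorem s18gq_hyp45 (M : ℕ) [NeZero M] {ℓ : ℕ} [Fact ℓ.Prime] (hℓM : ¬ ℓ ∣ M)
    (K0 : IntermediateField ℚ (AlgebraicClosure ℚ)) (hK0 : FiniteDimensional ℚ ↥K0)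
    (O : ValuationSubring ↥K0) [IsDiscreteValuationRing ↥O]
    (hℓ : (ℓ : ↥O) ∈ IsLocalRing.maximalIdeal ↥O) :
    ∃ n : ℕ, (∃ e : Fin n → ↥(s18_F ↥K0 M), ∀ y : ↥(s18_F ↥K0 M),
        ∃ c : Fin n → ↥(IntermediateField.adjoin ↥K0 ({s18_j ↥K0 M} : Set ↥(s18_F ↥K0 M))),
          y = ∑ i, c i • e i) ∧
      ∃ g : Fin n → LaurentSeries ↥O,
        (∀ i, coeffMap (algebraMap ↥O ↥K0) (g i) ∈ s18_F ↥K0 M) ∧
        ∀ c : Fin n → Polynomial (IsLocalRing.ResidueField ↥O),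
          (∑ i, Polynomial.aeval (coeffMap (IsLocalRing.residue ↥O) (jqModC ↥O)) (c i) *
            coeffMap (IsLocalRing.residue ↥O) (g i)) = 0 → ∀ i, c i = 0 :=
  ⟨_, s18gq_hyp45_at ↥O ↥K0 M ℓ hℓM hℓ⟩

end Fermat.Agent.S18
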