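/-
S18, package (I2) [GRADE] (helper16), part 7: the hypotheses of [GAUSS-ABS] for `(F'', σ)`.
Prefix `s18gr_`.

* `s18gr_IndepAt`  : hypotheses 4 and 5 of [GAUSS-ABS] for `(F_K(M), j)`;
* `s18gr_hyp2`     : `σ̄` is transcendental;
* `s18gr_hyp3`     : every element of `F''` is a quotient of integral series;
* `s18gr_hyp4`     : `F''` is spanned over `K(σ)` by `n` elements;
* `s18gr_hyp5`     : `n` integral series in `F''` with reductions independent over `κ[σ̄]`.
-/
import Mathlib
import Fermat.Agent.S18.GradeCore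
import Fermat.Agent.S28.LocalOrder

set_option autoImplicit false
set_option maxHeartbeats 1000000
set_option linter.unusedSectionVars false
set_option linter.style.haveILetI false

open AlgebraicCurve ModularCurve IntermediateField

noncomputable section

namespace Fermat.Agent.S18

/-- Hypotheses 4 and 5 of [GAUSS-ABS] for `(F_K(M), j)`, `ax = jqModC O`. -/
def s18gr_IndepAt (O K : Type) [CommRing O] [IsLocalRing O] [Field K] [CharZero K]
    [Algebra O K] (M : ℕ) [NeZero M] : Prop :=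
  ∃ n : ℕ,
    (∃ e : Fin n → ↥(s18_F K M), ∀ y : ↥(s18_F K M),
      ∃ c : Fin n → ↥(K⟮s18_j K M⟯), y = ∑ i, c i • e i) ∧
    ∃ g : Fin n → LaurentSeries O, (∀ i, coeffMap (algebraMap O K) (g i) ∈ s18_F K M) ∧
      ∀ c : Fin n → Polynomial (IsLocalRing.ResidueField O),
        (∑ i, Polynomial.aeval (coeffMap (IsLocalRing.residue O) (jqModC O)) (c i) *
          coeffMap (IsLocalRing.residue O) (g i)) = 0 → ∀ i, c i = 0

section Hyp2

variable {O : Type} [CommRing O] [IsLocalRing O] {M : ℕ} [NeZero M] {σ : LaurentSeries O}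

theorem s18gr_hyp2 (hσ : s18_IsSigma O M σ) :
    Transcendental (IsLocalRing.ResidueField O) (coeffMap (IsLocalRing.residue O) σ) := by
  refine Fermat.Agent.S28.locO_transcendental _ ?_
  rw [s18gr_sig_order _ hσ]
  exact one_ne_zero

end Hyp2

section Hyp3

variable {O K : Type} [CommRing O] [IsDomain O] [IsDiscreteValuationRing O] [Field K]
  [CharZero K] [Algebra O K] [IsFractionRing O K] {M : ℕ} [NeZero M] {σ : LaurentSeries O}

theorem s18gr_range_const (c : K) :
    ∃ a ∈ (coeffMap (algebraMap O K)).range, ∃ b ∈ (coeffMap (algebraMap O K)).range, b ≠ 0 ∧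
      algebraMap K (LaurentSeries K) c * b = a := by
  obtain ⟨a, ha, b, hb, hb0, h⟩ := s18gr_J_const (O := O) (K := K) (F := (⊤ : IntermediateField K
    (LaurentSeries K))) (∅ : Set ↥(⊤ : IntermediateField K (LaurentSeries K))) c
  exact ⟨a, ha.1, b, hb.1, hb0, h⟩

theorem s18gr_F_le_range :
    s18_F K M ≤ s18gr_fracField (coeffMap (algebraMap O K)).range (s18gr_range_const) := by
  refine s18gr_F_le K M _ ?_
  intro d _ _
  refine s18gr_le_fracField ⟨qExpand O d (jqModC O), ?_⟩
  rw [coeffMap_qExpand, coeffMap_jqModC]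

theorem s18gr_Fpp_le_range :
    s18_Fpp O K M σ ≤
      s18gr_fracField (coeffMap (algebraMap O K)).range (s18gr_range_const) := by
  rw [s18gr_Fpp_eq]
  refine sup_le ?_ ?_
  · rintro w ⟨f, hf, rfl⟩
    obtain ⟨a, ⟨aO, rfl⟩, b, ⟨bO, rfl⟩, hb0, h⟩ :=
      s18gr_mem_fracField.mp (s18gr_F_le_range (O := O) hf)
    rw [s18gr_mem_fracField]
    refine ⟨_, ⟨qExpand O M aO, rfl⟩, _, ⟨qExpand O M bO, rfl⟩, ?_, ?_⟩
    · rw [coeffMap_qExpand]
      exact (map_ne_zero_iff _ (qExpand_injective M)).mpr hb0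
    · show qExpand K M f * _ = _
      rw [coeffMap_qExpand, coeffMap_qExpand, ← map_mul, h]
  · rw [IntermediateField.adjoin_simple_le_iff]
    exact s18gr_le_fracField ⟨σ, rfl⟩

theorem s18gr_hyp3 :
    ∀ y ∈ s18_Fpp O K M σ, ∃ a b : LaurentSeries O, b ≠ 0 ∧
      y * coeffMap (algebraMap O K) b = coeffMap (algebraMap O K) a := by
  intro y hy
  obtain ⟨a, ⟨aO, rfl⟩, b, ⟨bO, rfl⟩, hb0, h⟩ :=
    s18gr_mem_fracField.mp (s18gr_Fpp_le_range (O := O) hy)
  refine ⟨aO, bO, ?_, h⟩
  rintro rfl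
  exact hb0 (map_zero _)

end Hyp3

section Hyp4

variable {O K : Type} [CommRing O] [Field K] [CharZero K] [Algebra O K] {M : ℕ} [NeZero M]
  {σ : LaurentSeries O}

/-- `θ` maps `K(j)` into `K(σ)`. -/
theorem s18gr_theta_adjoin_field (hσ : s18_IsSigma O M σ) :
    ∀ c : ↥(s18_F K M), c ∈ K⟮s18_j K M⟯ →
      qExpand K M (c : LaurentSeries K) ∈ K⟮coeffMap (algebraMap O K) σ⟯ := by
  intro c hc
  induction hc using IntermediateField.adjoin_induction with
  | mem x hx =>
    rw [Set.mem_singleton_iff] at hx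
    subst hx
    rw [s18gr_j_coe]
    have h1 : qExpand K M (jqModC K) = (coeffMap (algebraMap O K) σ ^ M)⁻¹ := by
      rw [s18gr_sig_pow _ hσ, map_inv₀, inv_inv]
    rw [h1]
    exact inv_mem (pow_mem (IntermediateField.mem_adjoin_simple_self K _) M)
  | algebraMap k =>
    show qExpand K M (algebraMap K (LaurentSeries K) k) ∈ _
    rw [algebraMap_laurentSeries_eq_single, qExpand_single, mul_zero,
      ← algebraMap_laurentSeries_eq_single]
    exact IntermediateField.algebraMap_mem _ k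
  | add x y _ _ hx hy =>
    show qExpand K M ((x : LaurentSeries K) + (y : LaurentSeries K)) ∈ _
    rw [map_add]
    exact add_mem hx hy
  | inv x _ hx =>
    show qExpand K M ((x : LaurentSeries K)⁻¹) ∈ _
    rw [map_inv₀]
    exact inv_mem hx
  | mul x y _ _ hx hy =>
    show qExpand K M ((x : LaurentSeries K) * (y : LaurentSeries K)) ∈ _
    rw [map_mul]
    exact mul_mem hx hy

/-- the elements of `K(σ) ⊆ K((q))` come from `K⟮sig⟯ ⊆ F''`. -/
theorem s18gr_lift_adjoin :
    ∀ w : LaurentSeries K, w ∈ K⟮coeffMap (algebraMap O K) σ⟯ →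
      ∃ c : ↥(s18_Fpp O K M σ), c ∈ K⟮s18_sig O K M σ⟯ ∧ (c : LaurentSeries K) = w := by
  intro w hw
  induction hw using IntermediateField.adjoin_induction with
  | mem x hx =>
    rw [Set.mem_singleton_iff] at hx
    subst hx
    exact ⟨s18_sig O K M σ, IntermediateField.mem_adjoin_simple_self K _, rfl⟩
  | algebraMap k =>
    exact ⟨algebraMap K ↥(s18_Fpp O K M σ) k, IntermediateField.algebraMap_mem _ k, rfl⟩
  | add x y _ _ hx hy =>
    obtain ⟨a, ha, rfl⟩ := hx
    obtain ⟨b, hb, rfl⟩ := hy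
    exact ⟨a + b, add_mem ha hb, rfl⟩
  | inv x _ hx =>
    obtain ⟨a, ha, rfl⟩ := hx
    exact ⟨a⁻¹, inv_mem ha, rfl⟩
  | mul x y _ _ hx hy =>
    obtain ⟨a, ha, rfl⟩ := hx
    obtain ⟨b, hb, rfl⟩ := hy
    exact ⟨a * b, mul_mem ha hb, rfl⟩

theorem s18gr_coe_sum {ι : Type*} (F : IntermediateField K (LaurentSeries K)) (s : Finset ι)
    (z : ι → ↥F) : ((∑ i ∈ s, z i : ↥F) : LaurentSeries K) = ∑ i ∈ s, (z i : LaurentSeries K) :=
  map_sum (algebraMap ↥F (LaurentSeries K)) z s

theorem s18gr_hyp4 (hσ : s18_IsSigma O M σ) {n : ℕ}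
    (h : ∃ e : Fin n → ↥(s18_F K M), ∀ y : ↥(s18_F K M),
      ∃ c : Fin n → ↥(K⟮s18_j K M⟯), y = ∑ i, c i • e i) :
    ∃ e : Fin n → ↥(s18_Fpp O K M σ), ∀ y : ↥(s18_Fpp O K M σ),
      ∃ c : Fin n → ↥(K⟮s18_sig O K M σ⟯), y = ∑ i, c i • e i := by
  obtain ⟨e, he⟩ := h
  refine ⟨fun i => s18_theta O K M σ (e i), ?_⟩
  intro y
  obtain ⟨N, a, ha, hy⟩ := s18gr_exists_poly hσ y.2
  -- the coefficients
  have h1 : ∀ k : ℕ, ∃ c : Fin n → ↥(K⟮s18_j K M⟯),
      a k = ∑ i, qExpand K M (((c i : ↥(s18_F K M)) : LaurentSeries K)) *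
        qExpand K M ((e i : LaurentSeries K)) := by
    intro k
    obtain ⟨f, hf, hfa⟩ := (s18gr_mem_L K M).mp (ha k)
    obtain ⟨c, hc⟩ := he ⟨f, hf⟩
    refine ⟨c, ?_⟩
    rw [← hfa]
    have h2 : f = ∑ i, (((c i : ↥(s18_F K M)) : LaurentSeries K)) * (e i : LaurentSeries K) := by
      have := congrArg (fun z : ↥(s18_F K M) => (z : LaurentSeries K)) hc
      simp only [s18gr_coe_sum] at this
      rw [this]
      rfl
    rw [h2, map_sum]
    simp only [map_mul]
  choose c hc using h1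
  set s := coeffMap (algebraMap O K) σ with hs
  have h3 : ∀ i : Fin n, ∃ C : ↥(s18_Fpp O K M σ), C ∈ K⟮s18_sig O K M σ⟯ ∧
      (C : LaurentSeries K) =
        ∑ k ∈ Finset.range N, qExpand K M (((c k i : ↥(s18_F K M)) : LaurentSeries K)) * s ^ k := by
    intro i
    refine s18gr_lift_adjoin _ (sum_mem (fun k _ => mul_mem ?_ ?_))
    · exact s18gr_theta_adjoin_field hσ _ (c k i).2
    · exact pow_mem (IntermediateField.mem_adjoin_simple_self K _) k
  choose C hC hCcoe using h3
  refine ⟨fun i => ⟨C i, hC i⟩, ?_⟩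
  apply Subtype.ext
  rw [s18gr_coe_sum, hy]
  have h4 : ∀ i : Fin n, (((⟨C i, hC i⟩ : ↥(K⟮s18_sig O K M σ⟯)) • s18_theta O K M σ (e i) :
      ↥(s18_Fpp O K M σ)) : LaurentSeries K) =
      (C i : LaurentSeries K) * qExpand K M ((e i : LaurentSeries K)) := fun i => rfl
  simp only [h4, hCcoe, Finset.sum_mul]
  rw [Finset.sum_comm]
  refine Finset.sum_congr rfl (fun k _ => ?_)
  rw [hc k, Finset.sum_mul]
  refine Finset.sum_congr rfl (fun i _ => ?_)
  ring

end Hyp4

section Hyp5

variable {κ : Type*} [Field κ] {M : ℕ} [NeZero M]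

theorem s18gr_contract_monomial (n : ℕ) (a : κ) :
    Polynomial.contract M (Polynomial.monomial n a) =
      if M ∣ n then Polynomial.monomial (n / M) a else 0 := by
  ext m
  rw [Polynomial.coeff_contract (NeZero.ne M), Polynomial.coeff_monomial]
  split_ifs with h1 h2 h2
  · rw [Polynomial.coeff_monomial, if_pos]
    rw [h1, Nat.mul_div_cancel _ (Nat.pos_of_ne_zero (NeZero.ne M))]
  · exact absurd ⟨m, by rw [h1, mul_comm]⟩ h2
  · rw [Polynomial.coeff_monomial, if_neg]
    intro h3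
    apply h1
    rw [← h3, Nat.div_mul_cancel h2]
  · rw [Polynomial.coeff_zero]

/-- `pr (P(s)) = θ((contract M P)(t))` for `s` of class `1` with `s^M = θ(t)`. -/
theorem s18gr_pr_aeval {s t : LaurentSeries κ} (hs : s18gr_IsCl M 1 s)
    (hst : s ^ M = qExpand κ M t) (p : Polynomial κ) :
    s18gr_pr M (Polynomial.aeval s p) =
      qExpand κ M (Polynomial.aeval t (Polynomial.contract M p)) := by
  induction p using Polynomial.induction_on' with
  | add p q hp hq =>
    rw [map_add, s18gr_pr_add, hp, hq, Polynomial.contract_add (NeZero.ne M), map_add, map_add]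
  | monomial n a =>
    rw [Polynomial.aeval_monomial, s18gr_contract_monomial]
    have hcl := s18gr_isCl_pow hs n
    rw [mul_one] at hcl
    have hC : s18gr_IsCl M 0 (algebraMap κ (LaurentSeries κ) a) := by
      rw [algebraMap_laurentSeries_eq_single]
      exact s18gr_isCl_single 0 a
    have hθC : qExpand κ M (algebraMap κ (LaurentSeries κ) a) =
        algebraMap κ (LaurentSeries κ) a := by
      rw [algebraMap_laurentSeries_eq_single, qExpand_single, mul_zero]
    rw [s18gr_pr_mul hC]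
    by_cases h : M ∣ n
    · rw [if_pos h, Polynomial.aeval_monomial, map_mul, map_pow, hθC, ← hst, ← pow_mul,
        Nat.mul_div_cancel' h]
      rw [s18gr_pr_of_isCl (s18gr_isCl_congr (by simpa using Int.natCast_dvd_natCast.mpr h) hcl)]
    · rw [if_neg h, map_zero, map_zero]
      rw [s18gr_pr_eq_zero hcl (fun h' => h (Int.natCast_dvd_natCast.mp h')), mul_zero]

/-- from independence over `κ[j̄]` to independence over `κ[1/j̄]` -/
theorem s18gr_indep_inv {n : ℕ} {x : LaurentSeries κ} (hx : x ≠ 0)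
    (g : Fin n → LaurentSeries κ)
    (h : ∀ c : Fin n → Polynomial κ, (∑ i, Polynomial.aeval x (c i) * g i) = 0 → ∀ i, c i = 0) :
    ∀ c : Fin n → Polynomial κ, (∑ i, Polynomial.aeval x⁻¹ (c i) * g i) = 0 → ∀ i, c i = 0 := by
  intro c hc
  set N := Finset.univ.sup (fun i => (c i).natDegree) with hN
  have hle : ∀ i, (c i).natDegree ≤ N := fun i =>
    Finset.le_sup (f := fun i => (c i).natDegree) (Finset.mem_univ i)
  letI : Invertible x⁻¹ := invertibleOfNonzero (inv_ne_zero hx)
  have hinv : ⅟(x⁻¹) = x := by rw [invOf_eq_inv, inv_inv]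
  have h1 : ∀ i, Polynomial.aeval x⁻¹ (c i) =
      Polynomial.aeval x (Polynomial.reflect N (c i)) * x⁻¹ ^ N := by
    intro i
    have := Polynomial.eval₂_reflect_mul_pow (algebraMap κ (LaurentSeries κ)) x⁻¹ N (c i) (hle i)
    rw [hinv] at this
    exact this.symm
  have h2 : (∑ i, Polynomial.aeval x (Polynomial.reflect N (c i)) * g i) * x⁻¹ ^ N = 0 := by
    rw [Finset.sum_mul, ← hc]
    refine Finset.sum_congr rfl (fun i _ => ?_)
    rw [h1 i]
    ring
  have h3 : (∑ i, Polynomial.aeval x (Polynomial.reflect N (c i)) * g i) = 0 := by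
    rcases mul_eq_zero.mp h2 with h3 | h3
    · exact h3
    · exact absurd h3 (pow_ne_zero N (inv_ne_zero hx))
  intro i
  exact Polynomial.reflect_eq_zero_iff.mp (h (fun i => Polynomial.reflect N (c i)) h3 i)

/-- from independence over `κ[t]` to independence of the `θ(g_i)` over `κ[s]`. -/
theorem s18gr_indep_sig {n : ℕ} {s t : LaurentSeries κ} (hs : s18gr_IsCl M 1 s)
    (hst : s ^ M = qExpand κ M t) (g : Fin n → LaurentSeries κ)
    (h : ∀ c : Fin n → Polynomial κ, (∑ i, Polynomial.aeval t (c i) * g i) = 0 → ∀ i, c i = 0) :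
    ∀ c : Fin n → Polynomial κ,
      (∑ i, Polynomial.aeval s (c i) * qExpand κ M (g i)) = 0 → ∀ i, c i = 0 := by
  intro c hc
  have h1 : ∀ u : ℕ, ∀ i, Polynomial.contract M (c i * Polynomial.X ^ u) = 0 := by
    intro u
    refine h (fun i => Polynomial.contract M (c i * Polynomial.X ^ u)) ?_
    apply qExpand_injective (R := κ) M
    rw [map_zero, map_sum]
    have h2 : s18gr_pr M ((∑ i, Polynomial.aeval s (c i) * qExpand κ M (g i)) * s ^ u) = 0 := by
      rw [hc, zero_mul, s18gr_pr_zero]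
    rw [← h2, Finset.sum_mul, s18gr_pr_sum]
    refine Finset.sum_congr rfl (fun i _ => ?_)
    rw [map_mul, ← s18gr_pr_aeval hs hst, map_mul, map_pow, Polynomial.aeval_X,
      mul_comm (s18gr_pr M _) (qExpand κ M (g i)),
      ← s18gr_pr_mul (s18gr_isCl_qExpand (g i))]
    congr 1
    ring
  intro i
  ext m
  rw [Polynomial.coeff_zero]
  have h2 := congrArg (fun p => Polynomial.coeff p m) (h1 ((M - 1) * m) i)
  simp only [Polynomial.coeff_zero] at h2
  rw [Polynomial.coeff_contract (NeZero.ne M)] at h2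
  have hM : 1 ≤ M := Nat.pos_of_ne_zero (NeZero.ne M)
  have e : m * M = m + (M - 1) * m := by
    obtain ⟨M', rfl⟩ : ∃ M', M = M' + 1 := ⟨M - 1, by omega⟩
    simp only [Nat.add_sub_cancel]
    ring
  rw [e, Polynomial.coeff_mul_X_pow] at h2
  exact h2

end Hyp5

section Hyp5'

variable {O K : Type} [CommRing O] [IsLocalRing O] [Field K] [CharZero K] [Algebra O K]
  {M : ℕ} [NeZero M] {σ : LaurentSeries O}

theorem s18gr_hyp5 (hσ : s18_IsSigma O M σ) {n : ℕ}
    (h : ∃ g : Fin n → LaurentSeries O, (∀ i, coeffMap (algebraMap O K) (g i) ∈ s18_F K M) ∧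
      ∀ c : Fin n → Polynomial (IsLocalRing.ResidueField O),
        (∑ i, Polynomial.aeval (coeffMap (IsLocalRing.residue O) (jqModC O)) (c i) *
          coeffMap (IsLocalRing.residue O) (g i)) = 0 → ∀ i, c i = 0) :
    ∃ g : Fin n → LaurentSeries O,
      (∀ i, coeffMap (algebraMap O K) (g i) ∈ s18_Fpp O K M σ) ∧
      ∀ c : Fin n → Polynomial (IsLocalRing.ResidueField O),
        (∑ i, Polynomial.aeval (coeffMap (IsLocalRing.residue O) σ) (c i) *
          coeffMap (IsLocalRing.residue O) (g i)) = 0 → ∀ i, c i = 0 := by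
  obtain ⟨g, hg, hind⟩ := h
  refine ⟨fun i => qExpand O M (g i), ?_, ?_⟩
  · intro i
    rw [coeffMap_qExpand]
    exact (le_sup_left : s18gr_L K M ≤ s18_Fpp O K M σ) ⟨_, hg i, rfl⟩
  · have hj0 : jqModC (IsLocalRing.ResidueField O) ≠ 0 := jqModC_ne_zero_of_nontrivial _
    rw [coeffMap_jqModC] at hind
    have h1 := s18gr_indep_inv hj0 (fun i => coeffMap (IsLocalRing.residue O) (g i)) hind
    have h2 := s18gr_indep_sig (M := M) (s18gr_isCl_sig (IsLocalRing.residue O) hσ)
      (s18gr_sig_pow (IsLocalRing.residue O) hσ)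
      (fun i => coeffMap (IsLocalRing.residue O) (g i)) h1
    intro c hc
    refine h2 c ?_
    rw [← hc]
    refine Finset.sum_congr rfl (fun i _ => ?_)
    rw [coeffMap_qExpand]

end Hyp5'

end Fermat.Agent.S18
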