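/-
S18, package (I2) [GRADE] (helper16): the `q₁`-expansion principle for `(F'', σ)` with descent.
Prefix `s18gr_`.

* `s18gr_grade`    : the descent clause, for every reduction datum of the chart of `(F'', σ)`;
* `s18gr_core`     : [GAUSS-ABS] + `s18_GaussQAt` + `s18gr_IndepAt` ⟹ `s18_GradeAt`
                     (any discrete valuation ring `O` in which `M` is invertible);
* `s18gr_main_of`  : `s18_GradeStatement` from `s18gr_IndepAt` over number fields.
-/
import Mathlib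
import Fermat.Agent.S18.GradeHyp

set_option autoImplicit false
set_option maxHeartbeats 1000000
set_option linter.unusedSectionVars false
set_option linter.style.haveILetI false

open AlgebraicCurve ModularCurve IntermediateField

noncomputable section

namespace Fermat.Agent.S18

section Grade

variable {O K : Type} [CommRing O] [IsDomain O] [IsDiscreteValuationRing O] [Field K]
  [CharZero K] [Algebra O K] [IsFractionRing O K] {M : ℕ} [NeZero M] {σ : LaurentSeries O}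

/-- **The descent clause** of `s18_GradeAt`. -/
theorem s18gr_grade (hM : IsUnit (M : O)) (hσ : s18_IsSigma O M σ)
    (hfd : FiniteDimensional ↥(K⟮s18_j K M⟯) ↥(s18_F K M))
    {ρ' : letI := s18_algOFF O K (s18_F K M)
      ↥(s18_chart O ({(s18_j K M)⁻¹} : Set ↥(s18_F K M))) →+*
        LaurentSeries (IsLocalRing.ResidueField O)}
    (hρ' : s18gr_IsRed ({(s18_j K M)⁻¹} : Set ↥(s18_F K M)) ρ')
    {ρ : letI := s18_algOFF O K (s18_Fpp O K M σ)
      ↥(s18_chart O ({s18_sig O K M σ} : Set ↥(s18_Fpp O K M σ))) →+*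
        LaurentSeries (IsLocalRing.ResidueField O)}
    (hρ : s18gr_IsRed ({s18_sig O K M σ} : Set ↥(s18_Fpp O K M σ)) ρ) :
    letI := s18_algOFF O K (s18_F K M)
    letI := s18_algOFF O K (s18_Fpp O K M σ)
    ∀ y : ↥(s18_chart O ({s18_sig O K M σ} : Set ↥(s18_Fpp O K M σ))),
      ∃ b : ↥(s18_F K M), b ∈ s18_chart O ({(s18_j K M)⁻¹} : Set ↥(s18_F K M)) ∧
        ∃ hb : s18_theta O K M σ b ∈
            s18_chart O ({s18_sig O K M σ} : Set ↥(s18_Fpp O K M σ)),
          ρ ⟨s18_theta O K M σ b, hb⟩ = s18gr_pr M (ρ y) := by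
  letI := s18_algOFF O K (s18_F K M)
  letI := s18_algOFF O K (s18_Fpp O K M σ)
  intro y
  have hsig : s18_sig O K M σ ∈
      s18_chart O ({s18_sig O K M σ} : Set ↥(s18_Fpp O K M σ)) :=
    (s18_mem_chart_iff O).mpr (isIntegral_algebraMap
      (R := ↥(Algebra.adjoin O ({s18_sig O K M σ} : Set ↥(s18_Fpp O K M σ))))
      (x := ⟨s18_sig O K M σ, Algebra.subset_adjoin (Set.mem_singleton _)⟩))
  set sigC : ↥(s18_chart O ({s18_sig O K M σ} : Set ↥(s18_Fpp O K M σ))) :=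
    ⟨s18_sig O K M σ, hsig⟩ with hsigC
  set s : LaurentSeries K := coeffMap (algebraMap O K) σ with hs
  set sb : LaurentSeries (IsLocalRing.ResidueField O) :=
    coeffMap (IsLocalRing.residue O) σ with hsb
  let c : ↥(s18_chart O ({s18_sig O K M σ} : Set ↥(s18_Fpp O K M σ))) →+* LaurentSeries K :=
    (algebraMap ↥(s18_Fpp O K M σ) (LaurentSeries K)).comp
      (s18_chart O ({s18_sig O K M σ} : Set ↥(s18_Fpp O K M σ))).val.toRingHom
  have hc : Function.Injective c := by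
    intro a b hab
    exact Subtype.ext (Subtype.ext hab)
  have hcsig : c sigC = s := rfl
  have h1 : ∀ i : ℕ, ∃ g : ↥(s18_F K M),
      g ∈ s18_chart O ({(s18_j K M)⁻¹} : Set ↥(s18_F K M)) ∧
      qExpand K M (g : LaurentSeries K) = s18gr_pr M (c y * s ^ i) := by
    intro i
    obtain ⟨g, hg, hgY⟩ := s18gr_descend hM hσ ((y * sigC ^ i :
      ↥(s18_chart O ({s18_sig O K M σ} : Set ↥(s18_Fpp O K M σ)))) : ↥(s18_Fpp O K M σ))
      (y * sigC ^ i).2
    refine ⟨g, hg, ?_⟩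
    rw [hgY]
    have e : ((((y * sigC ^ i : ↥(s18_chart O ({s18_sig O K M σ} :
        Set ↥(s18_Fpp O K M σ)))) : ↥(s18_Fpp O K M σ))) : LaurentSeries K) =
        c (y * sigC ^ i) := rfl
    rw [e, map_mul, map_pow, hcsig]
  choose g hgB hgY using h1
  let G : ℕ → ↥(s18_chart O ({s18_sig O K M σ} : Set ↥(s18_Fpp O K M σ))) :=
    fun i => ⟨s18_theta O K M σ (g i), s18gr_theta_mem hσ (g i) (hgB i)⟩
  have hcG : ∀ i, c (G i) = s18gr_pr M (c y * s ^ i) := fun i => hgY i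
  have hid : ∑ i ∈ Finset.range M, G i * sigC ^ (M - i) = y * sigC ^ M := by
    apply hc
    rw [map_sum]
    simp only [map_mul, map_pow, hcsig, hcG]
    exact s18gr_sum_pr_mul (s18gr_isCl_sig _ hσ) (c y)
  have hρsig : ρ sigC = sb := s18gr_red_int hρ sigC σ rfl
  have hρid := congrArg ρ hid
  rw [map_sum] at hρid
  simp only [map_mul, map_pow, hρsig] at hρid
  have hcl : ∀ i, s18gr_IsCl M 0 (ρ (G i)) :=
    fun i => s18gr_red_theta hfd hσ hρ' hρ (g i) (hgB i) _
  have hclsb : s18gr_IsCl M 1 sb := s18gr_isCl_sig _ hσ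
  have hclM : s18gr_IsCl M 0 (sb ^ M) := by
    have := s18gr_isCl_pow hclsb M
    exact s18gr_isCl_congr (by simp) this
  have hpr := congrArg (s18gr_pr M) hρid
  rw [s18gr_pr_sum] at hpr
  have hMpos : 0 < M := Nat.pos_of_ne_zero (NeZero.ne M)
  have hL : ∑ i ∈ Finset.range M, s18gr_pr M (ρ (G i) * sb ^ (M - i)) = ρ (G 0) * sb ^ M := by
    rw [Finset.sum_eq_single 0]
    · rw [s18gr_pr_mul (hcl 0), Nat.sub_zero, s18gr_pr_of_isCl hclM]
    · intro i hi hne
      rw [Finset.mem_range] at hi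
      have h2 := s18gr_isCl_pow hclsb (M - i)
      rw [s18gr_pr_mul (hcl i), s18gr_pr_eq_zero h2, mul_zero]
      rw [mul_one]
      intro h3
      have h4 := Nat.le_of_dvd (by omega) (Int.natCast_dvd_natCast.mp h3)
      omega
    · intro h
      exact absurd (Finset.mem_range.mpr hMpos) h
  have hR : s18gr_pr M (ρ y * sb ^ M) = s18gr_pr M (ρ y) * sb ^ M := by
    rw [mul_comm, s18gr_pr_mul hclM, mul_comm]
  rw [hL, hR] at hpr
  have hne : sb ^ M ≠ 0 := pow_ne_zero _ (s18gr_sig_ne_zero _ hσ)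
  exact ⟨g 0, hgB 0, (G 0).2, mul_right_cancel₀ hne hpr⟩

/-- **[GRADE], the core**: for every discrete valuation ring `O` in which `M` is invertible. -/
theorem s18gr_core (hGA : s18_GaussAbsStatement) (hM : IsUnit (M : O))
    (hg : s18_GaussQAt O K M) (hσ : s18_IsSigma O M σ) (hI : s18gr_IndepAt O K M) :
    s18_GradeAt O K M σ := by
  obtain ⟨n, he, hgI⟩ := hI
  obtain ⟨-, hfd, -, -, -, hred', -⟩ := hg
  obtain ⟨ρ', hρ'1, hρ'2⟩ := hred'
  obtain ⟨ρ, h1, h2⟩ := hGA O K (s18_Fpp O K M σ) (s18_sig O K M σ) σ n rfl (s18gr_hyp2 hσ)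
    s18gr_hyp3 (s18gr_hyp4 hσ he) (s18gr_hyp5 hσ hgI)
  refine ⟨ρ, h1, h2, ?_⟩
  intro y
  obtain ⟨b, hb, hb', hρb⟩ := s18gr_grade hM hσ hfd (ρ' := ρ') ⟨hρ'1, hρ'2⟩ (ρ := ρ) ⟨h1, h2⟩ y
  refine ⟨b, hb, hb', ?_⟩
  intro k
  rw [hρb, s18gr_pr_coeff]

end Grade

/-- `M` is invertible in a local ring of residue characteristic `ℓ ∤ M`. -/
theorem s18gr_isUnit_of_not_dvd {O : Type*} [CommRing O] [IsLocalRing O] {ℓ M : ℕ}
    [hℓ : Fact ℓ.Prime] (hℓM : ¬ ℓ ∣ M) (h : (ℓ : O) ∈ IsLocalRing.maximalIdeal O) :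
    IsUnit (M : O) := by
  by_contra hM
  have hM' : (M : O) ∈ IsLocalRing.maximalIdeal O := (IsLocalRing.mem_maximalIdeal _).mpr hM
  have hcop : Nat.Coprime ℓ M := (Nat.Prime.coprime_iff_not_dvd hℓ.out).mpr hℓM
  have h1 : IsCoprime (ℓ : ℤ) (M : ℤ) := Nat.isCoprime_iff_coprime.mpr hcop
  obtain ⟨a, b, hab⟩ := h1
  have h2 : ((a : O) * (ℓ : O) + (b : O) * (M : O)) = 1 := by
    have := congrArg (Int.cast : ℤ → O) hab
    push_cast at this
    exact this
  have h3 : (1 : O) ∈ IsLocalRing.maximalIdeal O := by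
    rw [← h2]
    exact Ideal.add_mem _ (Ideal.mul_mem_left _ _ h) (Ideal.mul_mem_left _ _ hM')
  exact (IsLocalRing.mem_maximalIdeal _).mp h3 isUnit_one

/-- **[GRADE]** from the independence statement over number fields. -/
theorem s18gr_main_of
    (hI : ∀ (M : ℕ) [NeZero M] {ℓ : ℕ} [Fact ℓ.Prime], ¬ ℓ ∣ M →
      ∀ (K0 : IntermediateField ℚ (AlgebraicClosure ℚ)), FiniteDimensional ℚ ↥K0 →
      ∀ (O : ValuationSubring ↥K0) [IsDiscreteValuationRing ↥O],
        (ℓ : ↥O) ∈ IsLocalRing.maximalIdeal ↥O → s18gr_IndepAt ↥O ↥K0 M) :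
    s18_GradeStatement := by
  intro hGA M _ ℓ _ hℓM K0 hK0 O _ hℓ hg σ hσ
  exact s18gr_core hGA (s18gr_isUnit_of_not_dvd hℓM hℓ) hg hσ (hI M hℓM K0 hK0 O hℓ)

end Fermat.Agent.S18
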