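/-
S18, package (I2) [GRADE] (helper16): `s18gr_main : s18_GradeStatement`.
Prefix `s18gr_`.

The core `s18gr_core` (S18/Grade.lean) with the independence statement of [GAUSS-Q-OF]
(`s18gq_hyp45_at`, helper27) plugged in.
-/
import Mathlib
import Fermat.Agent.S18.Grade
import Fermat.Agent.S18.GaussQOfExport

set_option autoImplicit false
set_option maxHeartbeats 1000000
set_option linter.unusedSectionVars false

open AlgebraicCurve ModularCurve IntermediateField

noncomputable section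

namespace Fermat.Agent.S18

/-- Hypotheses 4 and 5 of [GAUSS-ABS] for `(F_K(M), j)` hold over every local ring of residue
characteristic `ℓ ∤ M`. -/
theorem s18gr_indepAt (O K : Type) [CommRing O] [IsLocalRing O] [Field K] [CharZero K]
    [Algebra O K] (M : ℕ) [NeZero M] (ℓ : ℕ) [Fact ℓ.Prime] (hℓM : ¬ ℓ ∣ M)
    (hℓ : (ℓ : O) ∈ IsLocalRing.maximalIdeal O) : s18gr_IndepAt O K M :=
  ⟨_, s18gq_hyp45_at O K M ℓ hℓM hℓ⟩

/-- **[GRADE], general form**: for every discrete valuation ring `O` with `Frac O = K` of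
characteristic `0` and residue characteristic `ℓ ∤ M`. -/
theorem s18gr_at (hGA : s18_GaussAbsStatement) (O K : Type) [CommRing O] [IsDomain O]
    [IsDiscreteValuationRing O] [Field K] [CharZero K] [Algebra O K] [IsFractionRing O K]
    (M : ℕ) [NeZero M] (ℓ : ℕ) [Fact ℓ.Prime] (hℓM : ¬ ℓ ∣ M)
    (hℓ : (ℓ : O) ∈ IsLocalRing.maximalIdeal O) (hg : s18_GaussQAt O K M)
    (σ : LaurentSeries O) (hσ : s18_IsSigma O M σ) : s18_GradeAt O K M σ :=
  s18gr_core hGA (s18gr_isUnit_of_not_dvd hℓM hℓ) hg hσ (s18gr_indepAt O K M ℓ hℓM hℓ)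

/-- **[GRADE]** -/
theorem s18gr_main : s18_GradeStatement := by
  intro hGA M _ ℓ _ hℓM K0 hK0 O _ hℓ hg σ hσ
  exact s18gr_at hGA ↥O ↥K0 M ℓ hℓM hℓ hg σ hσ

end Fermat.Agent.S18
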