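/-
S18 package (M5) [HAUPT-4] (helper7), part 1: THE POLYNOMIAL SIDE.  Prefix `s18h4_`.

`A = X² + 256 X + 4096`, `P = A³`, `Q = X⁴ (X + 16)`, `D = X³ - 480 X² - 24576 X - 262144`:
`P - 1728 Q = D²`, `A` and `D` are separable over `ℚ`, and `a P + b Q = 2^56`.
-/
import Mathlib

set_option autoImplicit false

open Polynomial

noncomputable section

namespace Fermat.Agent.S18

/-- `A = X² + 256 X + 4096`. -/
def s18h4_A : ℤ[X] := X ^ 2 + 256 * X + 4096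

/-- `P = A³`. -/
def s18h4_P : ℤ[X] := s18h4_A ^ 3

/-- `Q = X⁴ (X + 16)`. -/
def s18h4_Q : ℤ[X] := X ^ 4 * (X + 16)

/-- `D = X³ - 480 X² - 24576 X - 262144`. -/
def s18h4_D : ℤ[X] := X ^ 3 - 480 * X ^ 2 - 24576 * X - 262144

theorem s18h4_A_monic : s18h4_A.Monic := by
  unfold s18h4_A
  monicity!

theorem s18h4_A_natDegree : s18h4_A.natDegree = 2 := by
  unfold s18h4_A
  compute_degree!

theorem s18h4_P_monic : s18h4_P.Monic := s18h4_A_monic.pow 3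

theorem s18h4_P_natDegree : s18h4_P.natDegree = 6 := by
  rw [s18h4_P, s18h4_A_monic.natDegree_pow, s18h4_A_natDegree]

theorem s18h4_Q_natDegree : s18h4_Q.natDegree = 5 := by
  unfold s18h4_Q
  compute_degree!

theorem s18h4_P_sub : s18h4_P - C 1728 * s18h4_Q = s18h4_D ^ 2 := by
  have h : (C (1728 : ℤ) : ℤ[X]) = 1728 := rfl
  rw [h]
  unfold s18h4_P s18h4_A s18h4_Q s18h4_D
  ring

/-- Bezout: `a P + b Q = 2^56`. -/
theorem s18h4_bezout :
    (65231 * X ^ 4 - 2368 * X ^ 3 + 23808 * X ^ 2 - 196608 * X + 1048576 : ℤ[X]) * s18h4_P +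
      (-65231 * X ^ 5 - 49051344 * X ^ 4 - 12839878656 * X ^ 3 - 1298877906944 * X ^ 2
        - 34982273744896 * X - 279261457940480) * s18h4_Q = C (2 ^ 56) := by
  have h : (C ((2 : ℤ) ^ 56) : ℤ[X]) = 2 ^ 56 := by
    rw [map_pow]; rfl
  rw [h]
  unfold s18h4_P s18h4_A s18h4_Q
  ring

theorem s18h4_not_dvd (ℓ : ℕ) (hℓ : ℓ.Prime) (h2 : ℓ ≠ 2) : ¬ (ℓ : ℤ) ∣ 2 ^ 56 := by
  intro h
  have h1 : (ℓ : ℤ) ∣ 2 := (Nat.prime_iff_prime_int.mp hℓ).dvd_of_dvd_pow h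
  have h3 : ℓ ∣ 2 := by exact_mod_cast h1
  exact h2 ((Nat.prime_dvd_prime_iff_eq hℓ Nat.prime_two).mp h3)

theorem s18h4_A_separable : (s18h4_A.map (Int.castRingHom ℚ)).Separable := by
  have hA : s18h4_A.map (Int.castRingHom ℚ) = X ^ 2 + 256 * X + 4096 := by
    simp [s18h4_A]
  rw [hA]
  have hd : derivative (X ^ 2 + 256 * X + 4096 : ℚ[X]) = 2 * X + 256 := by
    have h2 : (C (2 : ℚ) : ℚ[X]) = 2 := rfl
    simp [derivative_pow, h2]
  have key : (-2 : ℚ[X]) * (X ^ 2 + 256 * X + 4096) + (X + 128) * (2 * X + 256) = C 24576 := by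
    have h : (C (24576 : ℚ) : ℚ[X]) = 24576 := rfl
    rw [h]; ring
  refine ⟨C (1 / 24576) * (-2), C (1 / 24576) * (X + 128), ?_⟩
  rw [hd, mul_assoc, mul_assoc, ← mul_add, key, ← C_mul]
  norm_num

theorem s18h4_D_separable : (s18h4_D.map (Int.castRingHom ℚ)).Separable := by
  have hD : s18h4_D.map (Int.castRingHom ℚ) = X ^ 3 - 480 * X ^ 2 - 24576 * X - 262144 := by
    simp [s18h4_D]
  rw [hD]
  have hd : derivative (X ^ 3 - 480 * X ^ 2 - 24576 * X - 262144 : ℚ[X]) =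
      3 * X ^ 2 - 960 * X - 24576 := by
    have h2 : (C (2 : ℚ) : ℚ[X]) = 2 := rfl
    have h3 : (C (3 : ℚ) : ℚ[X]) = 3 := rfl
    simp [derivative_pow, h2, h3]
    ring
  have key : (-33 * X + 11328 : ℚ[X]) * (X ^ 3 - 480 * X ^ 2 - 24576 * X - 262144) +
      (11 * X ^ 2 - 5536 * X - 139264) * (3 * X ^ 2 - 960 * X - 24576) = C 452984832 := by
    have h : (C (452984832 : ℚ) : ℚ[X]) = 452984832 := rfl
    rw [h]; ring
  refine ⟨C (1 / 452984832) * (-33 * X + 11328),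
    C (1 / 452984832) * (11 * X ^ 2 - 5536 * X - 139264), ?_⟩
  rw [hd, mul_assoc, mul_assoc, ← mul_add, key, ← C_mul]
  norm_num

end Fermat.Agent.S18
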