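/-
S18 package (M5) [HAUPT-4] (helper7), part 2: THE ANALYTIC IDENTITIES AT LEVEL `Γ₀(4)`.
Prefix `s18h4_`.

`a = (2 φ₄ - 3 φ₂) / 3 = 1 - 8 q + 24 q² - 32 q³ + …`, `b = (3 φ₂ - φ₄) / 48 = q + 4 q³ + …`
(`φ_N = N E₂(N z) - E₂(z)`, `S16/Eis.lean`) are modular forms of weight `2` on `Γ₀(4)` and

  `E₄ = a² + 256 a b + 4096 b²`,   `E₆ = a³ - 480 a² b - 24576 a b² - 262144 b³`

by the Sturm bound (index `6`: three resp. four coefficients).
-/
import Mathlib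
import Fermat.Prelude.Thm_ModularForm_sturm_bound_Gamma0
import Fermat.Agent.S22.Basic
import Fermat.Agent.S22.Forms
import Fermat.Agent.S22.Nice
import Fermat.Agent.S22.LevelOne
import Fermat.Agent.S24.CombIndex
import Fermat.Agent.S16.Eis

set_option autoImplicit false

noncomputable section

namespace Fermat.Agent.S18

open UpperHalfPlane ModularFormClass CongruenceSubgroup Matrix.SpecialLinearGroup
open Fermat.Agent.S22 Fermat.Agent.S16 ModularForm EisensteinSeries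
open scoped MatrixGroups ModularForm Manifold

/-! ### Jets of `q`-expansions (four coefficients) -/

/-- The `3`-jet of the `q`-expansion of `f`. -/
def s18h4_J (f : ℍ → ℂ) (c0 c1 c2 c3 : ℂ) : Prop :=
  (qExpansion 1 f).coeff 0 = c0 ∧ (qExpansion 1 f).coeff 1 = c1 ∧
    (qExpansion 1 f).coeff 2 = c2 ∧ (qExpansion 1 f).coeff 3 = c3

namespace s18h4_J

variable {f g : ℍ → ℂ} {c0 c1 c2 c3 d0 d1 d2 d3 : ℂ}

theorem mul (hf : IsNice f) (hg : IsNice g) (h : s18h4_J f c0 c1 c2 c3)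
    (h' : s18h4_J g d0 d1 d2 d3) :
    s18h4_J (f * g) (c0 * d0) (c0 * d1 + c1 * d0) (c0 * d2 + c1 * d1 + c2 * d0)
      (c0 * d3 + c1 * d2 + c2 * d1 + c3 * d0) := by
  obtain ⟨h0, h1, h2, h3⟩ := h
  obtain ⟨h0', h1', h2', h3'⟩ := h'
  refine ⟨?_, ?_, ?_, ?_⟩
  · rw [hf.qExpansion_mul hg, PowerSeries.coeff_mul]
    simp [h0, h0']
  · rw [hf.qExpansion_mul hg, PowerSeries.coeff_mul]
    simp [Finset.Nat.antidiagonal_succ, h0, h0', h1, h1']
  · rw [hf.qExpansion_mul hg, PowerSeries.coeff_mul]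
    simp [Finset.Nat.antidiagonal_succ, h0, h0', h1, h1', h2, h2']
    ring
  · rw [hf.qExpansion_mul hg, PowerSeries.coeff_mul]
    simp [Finset.Nat.antidiagonal_succ, h0, h0', h1, h1', h2, h2', h3, h3']
    ring

theorem add (hf : IsNice f) (hg : IsNice g) (h : s18h4_J f c0 c1 c2 c3)
    (h' : s18h4_J g d0 d1 d2 d3) :
    s18h4_J (f + g) (c0 + d0) (c1 + d1) (c2 + d2) (c3 + d3) := by
  obtain ⟨h0, h1, h2, h3⟩ := h
  obtain ⟨h0', h1', h2', h3'⟩ := h'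
  refine ⟨?_, ?_, ?_, ?_⟩ <;> rw [hf.qExpansion_add hg, map_add] <;> simp [*]

theorem sub (hf : IsNice f) (hg : IsNice g) (h : s18h4_J f c0 c1 c2 c3)
    (h' : s18h4_J g d0 d1 d2 d3) :
    s18h4_J (f - g) (c0 - d0) (c1 - d1) (c2 - d2) (c3 - d3) := by
  obtain ⟨h0, h1, h2, h3⟩ := h
  obtain ⟨h0', h1', h2', h3'⟩ := h'
  refine ⟨?_, ?_, ?_, ?_⟩ <;> rw [hf.qExpansion_sub hg, map_sub] <;> simp [*]

theorem smul (r : ℂ) (hf : IsNice f) (h : s18h4_J f c0 c1 c2 c3) :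
    s18h4_J (r • f) (r * c0) (r * c1) (r * c2) (r * c3) := by
  obtain ⟨h0, h1, h2, h3⟩ := h
  refine ⟨?_, ?_, ?_, ?_⟩ <;> rw [hf.qExpansion_smul r] <;> simp [*]

theorem congr {e0 e1 e2 e3 : ℂ} (h : s18h4_J f c0 c1 c2 c3)
    (h0 : c0 = e0) (h1 : c1 = e1) (h2 : c2 = e2) (h3 : c3 = e3) : s18h4_J f e0 e1 e2 e3 := by
  subst h0 h1 h2 h3; exact h

end s18h4_J

theorem s18h4_J_E4 : s18h4_J (E₄ : ℍ → ℂ) 1 240 2160 6720 := by
  have hc : ∀ n : ℕ, (qExpansion 1 (E₄ : ℍ → ℂ)).coeff n =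
      if n = 0 then 1 else 240 * (ArithmeticFunction.sigma 3 n : ℂ) := by
    intro n
    rw [E_qExpansion_coeff _ ⟨2, rfl⟩, show bernoulli 4 = -1 / 30 by decide +kernel]
    by_cases h : n = 0
    · simp [h]
    · simp only [h, if_false]
      push_cast
      norm_num
  refine ⟨?_, ?_, ?_, ?_⟩
  · rw [hc]; simp
  · rw [hc]; simp
  · rw [hc]
    have : ArithmeticFunction.sigma 3 2 = 9 := by decide
    simp [this]
    norm_num
  · rw [hc]
    have : ArithmeticFunction.sigma 3 3 = 28 := by decide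
    simp [this]
    norm_num

theorem s18h4_J_E6 : s18h4_J (E₆ : ℍ → ℂ) 1 (-504) (-16632) (-122976) := by
  have hc : ∀ n : ℕ, (qExpansion 1 (E₆ : ℍ → ℂ)).coeff n =
      if n = 0 then 1 else -504 * (ArithmeticFunction.sigma 5 n : ℂ) := by
    intro n
    rw [E_qExpansion_coeff _ ⟨3, rfl⟩, show bernoulli 6 = 1 / 42 by decide +kernel]
    by_cases h : n = 0
    · simp [h]
    · simp only [h, if_false]
      push_cast
      norm_num
  refine ⟨?_, ?_, ?_, ?_⟩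
  · rw [hc]; simp
  · rw [hc]; simp
  · rw [hc]
    have : ArithmeticFunction.sigma 5 2 = 33 := by decide
    simp [this]
    norm_num
  · rw [hc]
    have : ArithmeticFunction.sigma 5 3 = 244 := by decide
    simp [this]
    norm_num

/-! ### The forms `a`, `b` -/

/-- `a = (2 φ₄ - 3 φ₂) / 3`. -/
def s18h4_a : ℍ → ℂ := (2 / 3 : ℂ) • s16e_fun 4 - s16e_fun 2

/-- `b = (3 φ₂ - φ₄) / 48`. -/
def s18h4_b : ℍ → ℂ := (1 / 16 : ℂ) • s16e_fun 2 - (1 / 48 : ℂ) • s16e_fun 4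

theorem s18h4_Gamma0_le {M N : ℕ} (h : M ∣ N) : Gamma0 N ≤ Gamma0 M := by
  intro γ hγ
  rw [Gamma0_mem] at hγ ⊢
  obtain ⟨c, rfl⟩ := h
  have h1 : ((γ 1 0 : ℤ) : ZMod (M * c)) = 0 := by exact_mod_cast hγ
  rw [ZMod.intCast_zmod_eq_zero_iff_dvd] at h1 ⊢
  exact dvd_trans (by push_cast; exact dvd_mul_right _ _) h1

theorem s18h4_phi2 : IsMF (G0 4) 2 (s16e_fun 2) :=
  (s16e_isMF 2).restrict (Subgroup.map_mono (s18h4_Gamma0_le (by norm_num : 2 ∣ 4)))

theorem s18h4_phi4 : IsMF (G0 4) 2 (s16e_fun 4) := s16e_isMF 4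

theorem s18h4_a_isMF : IsMF (G0 4) 2 s18h4_a := (s18h4_phi4.smul _).sub s18h4_phi2

theorem s18h4_b_isMF : IsMF (G0 4) 2 s18h4_b := (s18h4_phi2.smul _).sub (s18h4_phi4.smul _)

theorem s18h4_J_phi2 : s18h4_J (s16e_fun 2) 1 24 24 96 := by
  have hs1 : ArithmeticFunction.sigma 1 1 = 1 := by decide
  have hs2 : ArithmeticFunction.sigma 1 2 = 3 := by decide
  have hs3 : ArithmeticFunction.sigma 1 3 = 4 := by decide
  refine ⟨?_, ?_, ?_, ?_⟩
  · rw [s16e_coeff (by norm_num)]; norm_num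
  · rw [s16e_coeff (by norm_num)]; norm_num [hs1]
  · rw [s16e_coeff (by norm_num)]; norm_num [hs1, hs2]
  · rw [s16e_coeff (by norm_num)]; norm_num [hs3]

theorem s18h4_J_phi4 : s18h4_J (s16e_fun 4) 3 24 72 96 := by
  have hs1 : ArithmeticFunction.sigma 1 1 = 1 := by decide
  have hs2 : ArithmeticFunction.sigma 1 2 = 3 := by decide
  have hs3 : ArithmeticFunction.sigma 1 3 = 4 := by decide
  refine ⟨?_, ?_, ?_, ?_⟩
  · rw [s16e_coeff (by norm_num)]; norm_num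
  · rw [s16e_coeff (by norm_num)]; norm_num [hs1]
  · rw [s16e_coeff (by norm_num)]; norm_num [hs2]
  · rw [s16e_coeff (by norm_num)]; norm_num [hs3]

theorem s18h4_J_a : s18h4_J s18h4_a 1 (-8) 24 (-32) :=
  (((s18h4_J_phi4.smul (2 / 3) s18h4_phi4.isNice_G0).sub
    (s18h4_phi4.smul _).isNice_G0 s18h4_phi2.isNice_G0 s18h4_J_phi2)).congr
    (by norm_num) (by norm_num) (by norm_num) (by norm_num)

theorem s18h4_J_b : s18h4_J s18h4_b 0 1 0 4 :=
  (((s18h4_J_phi2.smul (1 / 16) s18h4_phi2.isNice_G0).sub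
    (s18h4_phi2.smul _).isNice_G0 (s18h4_phi4.smul _).isNice_G0
    (s18h4_J_phi4.smul (1 / 48) s18h4_phi4.isNice_G0))).congr
    (by norm_num) (by norm_num) (by norm_num) (by norm_num)

/-! ### The index and the Sturm bounds -/

theorem s18h4_index : (CongruenceSubgroup.Gamma0 4).index = 6 := by
  have h := Fermat.Agent.S24.Comb.card_X 4 (by norm_num)
  have h4 : ModularCurve.dedekindPsi 4 = 6 := by
    have := Fermat.Agent.S24.Comb.dedekindPsi_prime_pow Nat.prime_two 1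
    simpa using this
  rw [h4] at h
  exact h

theorem s18h4_card : Nat.card (SL(2, ℤ) ⧸ CongruenceSubgroup.Gamma0 4) = 6 := s18h4_index

theorem s18h4_sturm4 :
    ((4 : ℤ) * ((CongruenceSubgroup.Gamma0 4).index : ℤ)).toNat / 12 = 2 := by
  rw [s18h4_index]
  rfl

theorem s18h4_sturm6 :
    ((6 : ℤ) * ((CongruenceSubgroup.Gamma0 4).index : ℤ)).toNat / 12 = 3 := by
  rw [s18h4_index]
  rfl

/-! ### The two identities -/

/-- **`E₄ = a² + 256 a b + 4096 b²`.** -/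
theorem s18h4_E4_eq :
    (E₄ : ℍ → ℂ) = s18h4_a ^ 2 + (256 : ℂ) • (s18h4_a * s18h4_b) + (4096 : ℂ) • s18h4_b ^ 2 := by
  have hE4 : IsMF (G0 4) 4 (E₄ : ℍ → ℂ) := isMF_E4.restrict_G0 4
  have ha := s18h4_a_isMF
  have hb := s18h4_b_isMF
  have na := ha.isNice_G0
  have nb := hb.isNice_G0
  have t1 : IsMF (G0 4) 4 (s18h4_a ^ 2) := (ha.pow 2).cast (by norm_num)
  have t2 : IsMF (G0 4) 4 ((256 : ℂ) • (s18h4_a * s18h4_b)) :=
    ((ha.mul hb).cast (by norm_num)).smul 256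
  have t3 : IsMF (G0 4) 4 ((4096 : ℂ) • s18h4_b ^ 2) := ((hb.pow 2).cast (by norm_num)).smul 4096
  have hF := hE4.sub ((t1.add t2).add t3)
  have j1 : s18h4_J (s18h4_a ^ 2) 1 (-16) 112 (-448) := by
    have := s18h4_J_a.mul na na s18h4_J_a
    rw [← pow_two] at this
    exact this.congr (by norm_num) (by norm_num) (by norm_num) (by norm_num)
  have j2 : s18h4_J ((256 : ℂ) • (s18h4_a * s18h4_b)) 0 256 (-2048) 7168 :=
    ((s18h4_J_a.mul na nb s18h4_J_b).smul 256 (na.mul nb)).congr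
      (by norm_num) (by norm_num) (by norm_num) (by norm_num)
  have j3 : s18h4_J ((4096 : ℂ) • s18h4_b ^ 2) 0 0 4096 0 := by
    have := s18h4_J_b.mul nb nb s18h4_J_b
    rw [← pow_two] at this
    exact (this.smul 4096 (nb.pow 2)).congr (by norm_num) (by norm_num) (by norm_num)
      (by norm_num)
  have jF : s18h4_J ((E₄ : ℍ → ℂ) - (s18h4_a ^ 2 + (256 : ℂ) • (s18h4_a * s18h4_b) +
      (4096 : ℂ) • s18h4_b ^ 2)) 0 0 0 0 :=
    (s18h4_J_E4.sub isNice_E4 ((t1.add t2).add t3).isNice_G0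
      ((j1.add t1.isNice_G0 t2.isNice_G0 j2).add (t1.add t2).isNice_G0 t3.isNice_G0 j3)).congr
      (by norm_num) (by norm_num) (by norm_num) (by norm_num)
  obtain ⟨F, hF'⟩ := hF
  have hzero : F = 0 := by
    apply ModularForm.sturm_bound_Gamma0 4 F
    intro n hn
    rw [s18h4_sturm4] at hn
    rw [hF']
    obtain ⟨h0, h1, h2, -⟩ := jF
    interval_cases n
    · exact h0
    · exact h1
    · exact h2
  have hfun : (E₄ : ℍ → ℂ) - (s18h4_a ^ 2 + (256 : ℂ) • (s18h4_a * s18h4_b) +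
      (4096 : ℂ) • s18h4_b ^ 2) = 0 := by
    rw [← hF', hzero]
    rfl
  exact sub_eq_zero.mp hfun

/-- **`E₆ = a³ - 480 a² b - 24576 a b² - 262144 b³`.** -/
theorem s18h4_E6_eq :
    (E₆ : ℍ → ℂ) = s18h4_a ^ 3 - (480 : ℂ) • (s18h4_a ^ 2 * s18h4_b)
      - (24576 : ℂ) • (s18h4_a * s18h4_b ^ 2) - (262144 : ℂ) • s18h4_b ^ 3 := by
  have hE6 : IsMF (G0 4) 6 (E₆ : ℍ → ℂ) := isMF_E6.restrict_G0 4
  have ha := s18h4_a_isMF
  have hb := s18h4_b_isMF
  have na := ha.isNice_G0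
  have nb := hb.isNice_G0
  have t1 : IsMF (G0 4) 6 (s18h4_a ^ 3) := (ha.pow 3).cast (by norm_num)
  have t2 : IsMF (G0 4) 6 ((480 : ℂ) • (s18h4_a ^ 2 * s18h4_b)) :=
    (((ha.pow 2).mul hb).cast (by norm_num)).smul 480
  have t3 : IsMF (G0 4) 6 ((24576 : ℂ) • (s18h4_a * s18h4_b ^ 2)) :=
    ((ha.mul (hb.pow 2)).cast (by norm_num)).smul 24576
  have t4 : IsMF (G0 4) 6 ((262144 : ℂ) • s18h4_b ^ 3) :=
    ((hb.pow 3).cast (by norm_num)).smul 262144
  have hF := hE6.sub (((t1.sub t2).sub t3).sub t4)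
  have ja2 : s18h4_J (s18h4_a ^ 2) 1 (-16) 112 (-448) := by
    have := s18h4_J_a.mul na na s18h4_J_a
    rw [← pow_two] at this
    exact this.congr (by norm_num) (by norm_num) (by norm_num) (by norm_num)
  have jb2 : s18h4_J (s18h4_b ^ 2) 0 0 1 0 := by
    have := s18h4_J_b.mul nb nb s18h4_J_b
    rw [← pow_two] at this
    exact this.congr (by norm_num) (by norm_num) (by norm_num) (by norm_num)
  have j1 : s18h4_J (s18h4_a ^ 3) 1 (-24) 264 (-1760) := by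
    have := ja2.mul (na.pow 2) na s18h4_J_a
    rw [← pow_succ] at this
    exact this.congr (by norm_num) (by norm_num) (by norm_num) (by norm_num)
  have j2 : s18h4_J ((480 : ℂ) • (s18h4_a ^ 2 * s18h4_b)) 0 480 (-7680) 55680 :=
    ((ja2.mul (na.pow 2) nb s18h4_J_b).smul 480 ((na.pow 2).mul nb)).congr
      (by norm_num) (by norm_num) (by norm_num) (by norm_num)
  have j3 : s18h4_J ((24576 : ℂ) • (s18h4_a * s18h4_b ^ 2)) 0 0 24576 (-196608) :=
    ((s18h4_J_a.mul na (nb.pow 2) jb2).smul 24576 (na.mul (nb.pow 2))).congr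
      (by norm_num) (by norm_num) (by norm_num) (by norm_num)
  have j4 : s18h4_J ((262144 : ℂ) • s18h4_b ^ 3) 0 0 0 262144 := by
    have := jb2.mul (nb.pow 2) nb s18h4_J_b
    rw [← pow_succ] at this
    exact (this.smul 262144 (nb.pow 3)).congr (by norm_num) (by norm_num) (by norm_num)
      (by norm_num)
  have jF : s18h4_J ((E₆ : ℍ → ℂ) - (s18h4_a ^ 3 - (480 : ℂ) • (s18h4_a ^ 2 * s18h4_b)
      - (24576 : ℂ) • (s18h4_a * s18h4_b ^ 2) - (262144 : ℂ) • s18h4_b ^ 3)) 0 0 0 0 :=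
    (s18h4_J_E6.sub isNice_E6 (((t1.sub t2).sub t3).sub t4).isNice_G0
      (((j1.sub t1.isNice_G0 t2.isNice_G0 j2).sub (t1.sub t2).isNice_G0 t3.isNice_G0 j3).sub
        ((t1.sub t2).sub t3).isNice_G0 t4.isNice_G0 j4)).congr
      (by norm_num) (by norm_num) (by norm_num) (by norm_num)
  obtain ⟨F, hF'⟩ := hF
  have hzero : F = 0 := by
    apply ModularForm.sturm_bound_Gamma0 4 F
    intro n hn
    rw [s18h4_sturm6] at hn
    rw [hF']
    obtain ⟨h0, h1, h2, h3⟩ := jF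
    interval_cases n
    · exact h0
    · exact h1
    · exact h2
    · exact h3
  have hfun : (E₆ : ℍ → ℂ) - (s18h4_a ^ 3 - (480 : ℂ) • (s18h4_a ^ 2 * s18h4_b)
      - (24576 : ℂ) • (s18h4_a * s18h4_b ^ 2) - (262144 : ℂ) • s18h4_b ^ 3) = 0 := by
    rw [← hF', hzero]
    rfl
  exact sub_eq_zero.mp hfun

end Fermat.Agent.S18
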