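/-
S18 package (M5) [HAUPT-4] (helper7), part 3: THE HAUPTMODUL OF LEVEL `4`.  Prefix `s18h4_`.

`t = a / b = a⁵ (a + 16 b) / Δ = q⁻¹ - 8 + 20 q - 62 q³ + … ∈ ℤ((q))`:
* `t ∈ ℚ(j(q), j(q²), j(q⁴))` (the `q`-expansion principle `s16i_mem_full` for the modular
  function `a⁵ (a + 16 b) / Δ` of level `4`);
* `j · t⁴ (t + 16) = (t² + 256 t + 4096)³` (from `E₄ = A(a, b)`, `E₆ = D(a, b)`,
  `1728 Δ = E₄³ - E₆²`, `j Δ = E₄³`).
-/
import Mathlib
import Fermat.Agent.S18.ModelDefs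
import Fermat.Agent.S18.Haupt4Poly
import Fermat.Agent.S18.Haupt4Sturm
import Fermat.Agent.S16.FormChart
import Fermat.Agent.S16.C22Data

set_option autoImplicit false
set_option linter.style.haveILetI false

noncomputable section

namespace Fermat.Agent.S18

open UpperHalfPlane ModularFormClass CongruenceSubgroup Matrix.SpecialLinearGroup
open Fermat.Agent.S22 Fermat.Agent.S16 Fermat.Agent.S24 Fermat.Agent.S28
open ModularForm EisensteinSeries ModularCurve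
open scoped MatrixGroups ModularForm Manifold ArithmeticFunction.sigma

local notation "Δ" => ModularForm.discriminant

/-! ### The integral `q`-expansions of `a` and `b` -/

/-- The coefficients of `a`. -/
def s18h4_ca (n : ℕ) : ℤ :=
  if n = 0 then 1
  else -8 * (σ 1 n : ℤ) + (if 2 ∣ n then 48 * (σ 1 (n / 2) : ℤ) else 0)
    - (if 4 ∣ n then 64 * (σ 1 (n / 4) : ℤ) else 0)

/-- The coefficients of `b`. -/
def s18h4_cb (n : ℕ) : ℤ :=
  if n = 0 then 0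
  else (σ 1 n : ℤ) - (if 2 ∣ n then 3 * (σ 1 (n / 2) : ℤ) else 0)
    + (if 4 ∣ n then 2 * (σ 1 (n / 4) : ℤ) else 0)

/-- `a ∈ ℤ⟦q⟧`. -/
def s18h4_aZ : PowerSeries ℤ := PowerSeries.mk s18h4_ca

/-- `b ∈ ℤ⟦q⟧`. -/
def s18h4_bZ : PowerSeries ℤ := PowerSeries.mk s18h4_cb

theorem s18h4_a_coeff (n : ℕ) :
    (qExpansion 1 s18h4_a).coeff n = ((s18h4_ca n : ℤ) : ℂ) := by
  have n2 := (s18h4_phi2).isNice_G0
  have n4 := (s18h4_phi4).isNice_G0
  rw [s18h4_a, (n4.smul _).qExpansion_sub n2, n4.qExpansion_smul, map_sub,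
    PowerSeries.coeff_smul, s16e_coeff (by norm_num), s16e_coeff (by norm_num), s18h4_ca]
  by_cases h0 : n = 0
  · subst h0
    norm_num
  · rw [if_neg h0, if_neg h0, if_neg h0]
    by_cases h2 : 2 ∣ n <;> by_cases h4 : 4 ∣ n <;> simp [h2, h4] <;> ring

theorem s18h4_b_coeff (n : ℕ) :
    (qExpansion 1 s18h4_b).coeff n = ((s18h4_cb n : ℤ) : ℂ) := by
  have n2 := (s18h4_phi2).isNice_G0
  have n4 := (s18h4_phi4).isNice_G0
  rw [s18h4_b, (n2.smul _).qExpansion_sub (n4.smul _), n4.qExpansion_smul, n2.qExpansion_smul,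
    map_sub, PowerSeries.coeff_smul, PowerSeries.coeff_smul, s16e_coeff (by norm_num),
    s16e_coeff (by norm_num), s18h4_cb]
  by_cases h0 : n = 0
  · subst h0
    norm_num
  · rw [if_neg h0, if_neg h0, if_neg h0]
    by_cases h2 : 2 ∣ n <;> by_cases h4 : 4 ∣ n <;> simp [h2, h4] <;> ring

/-! ### Rational Laurent expansions of functions with integral `q`-expansion -/

/-- The image of an integral power series in `ℚ((q))`. -/
def s18h4_ser : PowerSeries ℤ →+* LaurentSeries ℚ :=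
  (coeffMap (Int.castRingHom ℚ)).comp (HahnSeries.ofPowerSeries ℤ ℤ)

theorem s18h4_ser_apply (c : PowerSeries ℤ) :
    s18h4_ser c = coeffMap (Int.castRingHom ℚ) (HahnSeries.ofPowerSeries ℤ ℤ c) := rfl

theorem s18h4_HL_of_coeff {f : ℍ → ℂ} (hf : IsNice f) (c : PowerSeries ℤ)
    (h : ∀ n, (qExpansion 1 f).coeff n = ((PowerSeries.coeff n c : ℤ) : ℂ)) :
    s16q_HL (s18h4_ser c) f := by
  have e : coeffEmb ℂ (s18h4_ser c) = HahnSeries.ofPowerSeries ℤ ℂ (qExpansion 1 f) := by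
    rw [s18h4_ser_apply, coeffEmb, coeffMap_coeffMap, anA_coeffMap_ofPowerSeries]
    congr 1
    ext n
    rw [PowerSeries.coeff_map, h n]
    simp
  rw [s16q_HL, e]
  exact anA_HasLaurent.of_isNice hf

/-- `a` in `ℚ((q))`. -/
def s18h4_uA : LaurentSeries ℚ := s18h4_ser s18h4_aZ

/-- `b` in `ℚ((q))`. -/
def s18h4_uB : LaurentSeries ℚ := s18h4_ser s18h4_bZ

theorem s18h4_HL_a : s16q_HL s18h4_uA s18h4_a :=
  s18h4_HL_of_coeff s18h4_a_isMF.isNice_G0 _ (fun n => by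
    rw [s18h4_a_coeff, s18h4_aZ, PowerSeries.coeff_mk])

theorem s18h4_HL_b : s16q_HL s18h4_uB s18h4_b :=
  s18h4_HL_of_coeff s18h4_b_isMF.isNice_G0 _ (fun n => by
    rw [s18h4_b_coeff, s18h4_bZ, PowerSeries.coeff_mk])

theorem s18h4_HL_smul {u : LaurentSeries ℚ} {f : ℍ → ℂ} (n : ℕ) [n.AtLeastTwo]
    (h : s16q_HL u f) :
    s16q_HL ((OfNat.ofNat n : LaurentSeries ℚ) * u) ((OfNat.ofNat n : ℂ) • f) := by
  refine ((s16c22d_HL_ofNat n).mul h).congr ?_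
  funext z
  simp

/-- `E₄` in `ℚ((q))`. -/
theorem s18h4_HL_E4 :
    s16q_HL (s18h4_uA ^ 2 + 256 * (s18h4_uA * s18h4_uB) + 4096 * s18h4_uB ^ 2)
      (E₄ : ℍ → ℂ) := by
  have h := ((s18h4_HL_a.pow 2).add (s18h4_HL_smul 256 (s18h4_HL_a.mul s18h4_HL_b))).add
    (s18h4_HL_smul 4096 (s18h4_HL_b.pow 2))
  exact h.congr s18h4_E4_eq.symm

/-- `E₆` in `ℚ((q))`. -/
theorem s18h4_HL_E6 :
    s16q_HL (s18h4_uA ^ 3 - 480 * (s18h4_uA ^ 2 * s18h4_uB)
      - 24576 * (s18h4_uA * s18h4_uB ^ 2) - 262144 * s18h4_uB ^ 3) (E₆ : ℍ → ℂ) := by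
  have h := (((s18h4_HL_a.pow 3).sub
    (s18h4_HL_smul 480 ((s18h4_HL_a.pow 2).mul s18h4_HL_b))).sub
    (s18h4_HL_smul 24576 (s18h4_HL_a.mul (s18h4_HL_b.pow 2)))).sub
    (s18h4_HL_smul 262144 (s18h4_HL_b.pow 3))
  exact h.congr s18h4_E6_eq.symm

/-- `Δ = a⁴ (a + 16 b) b` in `ℚ((q))`. -/
theorem s18h4_delta_eq :
    umem_deltaQ = s18h4_uA ^ 4 * (s18h4_uA + 16 * s18h4_uB) * s18h4_uB := by
  have h := s16c22d_del s18h4_HL_E4 s18h4_HL_E6
  haveI : CharZero (LaurentSeries ℚ) :=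
    charZero_of_injective_algebraMap (algebraMap ℚ (LaurentSeries ℚ)).injective
  have h1728 : (1728 : LaurentSeries ℚ) ≠ 0 := by
    have : ((1728 : ℕ) : LaurentSeries ℚ) ≠ 0 := Nat.cast_ne_zero.mpr (by norm_num)
    exact_mod_cast this
  apply mul_left_cancel₀ h1728
  rw [h]
  ring

/-- `j Δ = (a² + 256 a b + 4096 b²)³` in `ℚ((q))`. -/
theorem s18h4_j_delta :
    jq * umem_deltaQ =
      (s18h4_uA ^ 2 + 256 * (s18h4_uA * s18h4_uB) + 4096 * s18h4_uB ^ 2) ^ 3 :=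
  s16c22d_jd s18h4_HL_E4

/-! ### The Hauptmodul as a modular function -/

/-- The weight-12 form `a⁵ (a + 16 b)`. -/
def s18h4_f : ℍ → ℂ := s18h4_a ^ 5 * (s18h4_a + (16 : ℂ) • s18h4_b)

theorem s18h4_f_isMF : IsMF (G0 4) 12 s18h4_f :=
  ((s18h4_a_isMF.pow 5).mul (s18h4_a_isMF.add (s18h4_b_isMF.smul 16))).cast (by norm_num)

/-- The Hauptmodul in `ℚ((q))`. -/
def s18h4_tQ : LaurentSeries ℚ :=
  s18h4_uA ^ 5 * (s18h4_uA + 16 * s18h4_uB) * umem_deltaQ⁻¹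

theorem s18h4_HL_t : s16q_HL s18h4_tQ (fun z => s18h4_f z / Δ z) := by
  have h := ((s18h4_HL_a.pow 5).mul (s18h4_HL_a.add (s18h4_HL_smul 16 s18h4_HL_b))).mul
    s16q_HL.disc_inv
  refine h.congr ?_
  funext z
  simp [s18h4_f, div_eq_mul_inv]

/-- **The Hauptmodul lies in the function field of level `4`.** -/
theorem s18h4_tQ_mem : s18h4_tQ ∈ modularFunctionFieldFull 4 :=
  s16i_mem_full 4 (s16f_isModFun 4 s18h4_f_isMF) _ s18h4_HL_t

theorem s18h4_ne_zero :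
    s18h4_uA ≠ 0 ∧ s18h4_uA + 16 * s18h4_uB ≠ 0 ∧ s18h4_uB ≠ 0 := by
  have h := umem_deltaQ_ne_zero
  rw [s18h4_delta_eq] at h
  refine ⟨?_, ?_, ?_⟩
  · intro h0; apply h; rw [h0]; ring
  · intro h0; apply h; rw [h0]; ring
  · intro h0; apply h; rw [h0]; ring

theorem s18h4_tQ_eq : s18h4_tQ = s18h4_uA / s18h4_uB := by
  obtain ⟨ha, hab, hb⟩ := s18h4_ne_zero
  rw [s18h4_tQ, s18h4_delta_eq]
  field_simp

/-- **`j · t⁴ (t + 16) = (t² + 256 t + 4096)³` in `ℚ((q))`.** -/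
theorem s18h4_relQ :
    jq * (s18h4_tQ ^ 4 * (s18h4_tQ + 16)) = (s18h4_tQ ^ 2 + 256 * s18h4_tQ + 4096) ^ 3 := by
  obtain ⟨ha, hab, hb⟩ := s18h4_ne_zero
  have hj := s18h4_j_delta
  rw [s18h4_delta_eq] at hj
  rw [s18h4_tQ_eq]
  field_simp
  linear_combination hj

/-! ### The Hauptmodul in `ℤ((q))` -/

/-- The numerator `a⁵ (a + 16 b) ∏ (1 - qⁿ)⁻²⁴ ∈ ℤ⟦q⟧` of `q t`. -/
def s18h4_w : PowerSeries ℤ :=
  s18h4_aZ ^ 5 * (s18h4_aZ + 16 * s18h4_bZ) * dedekindEtaUnitInv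

/-- **The Hauptmodul of level `4`**: `t = q⁻¹ - 8 + 20 q - 62 q³ + … ∈ ℤ((q))`. -/
def s18h4_t : LaurentSeries ℤ :=
  HahnSeries.single (-1 : ℤ) (1 : ℤ) * HahnSeries.ofPowerSeries ℤ ℤ s18h4_w

theorem s18h4_constantCoeff_aZ : PowerSeries.constantCoeff s18h4_aZ = 1 := by
  rw [← PowerSeries.coeff_zero_eq_constantCoeff_apply, s18h4_aZ, PowerSeries.coeff_mk, s18h4_ca,
    if_pos rfl]

theorem s18h4_constantCoeff_bZ : PowerSeries.constantCoeff s18h4_bZ = 0 := by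
  rw [← PowerSeries.coeff_zero_eq_constantCoeff_apply, s18h4_bZ, PowerSeries.coeff_mk, s18h4_cb,
    if_pos rfl]

theorem s18h4_constantCoeff_w : PowerSeries.constantCoeff s18h4_w = 1 := by
  rw [s18h4_w, map_mul, map_mul, map_pow, map_add, map_mul, s18h4_constantCoeff_aZ,
    s18h4_constantCoeff_bZ, constantCoeff_dedekindEtaUnitInv]
  simp

theorem s18h4_t_coeff_neg_one : s18h4_t.coeff (-1) = 1 := by
  rw [s18h4_t, HahnSeries.coeff_single_mul, one_mul, sub_neg_eq_add, neg_add_cancel,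
    show (0 : ℤ) = ((0 : ℕ) : ℤ) from rfl, HahnSeries.ofPowerSeries_apply_coeff,
    PowerSeries.coeff_zero_eq_constantCoeff, s18h4_constantCoeff_w]

theorem s18h4_t_coeff_of_lt {k : ℤ} (hk : k < -1) : s18h4_t.coeff k = 0 := by
  rw [s18h4_t, HahnSeries.coeff_single_mul, one_mul]
  exact ofPowerSeries_coeff_of_neg _ (by omega)

theorem s18h4_t_order : s18h4_t.order = -1 := by
  have hne : s18h4_t ≠ 0 := by
    intro h
    have := s18h4_t_coeff_neg_one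
    rw [h] at this
    simp at this
  apply le_antisymm
  · exact HahnSeries.order_le_of_coeff_ne_zero (by rw [s18h4_t_coeff_neg_one]; exact one_ne_zero)
  · by_contra hlt
    rw [not_le] at hlt
    exact hne (HahnSeries.coeff_order_eq_zero.mp (s18h4_t_coeff_of_lt hlt))

theorem s18h4_coeffMap_injective :
    Function.Injective (coeffMap (Int.castRingHom ℚ)) := by
  intro x y h
  ext k
  have := congrArg (fun z : LaurentSeries ℚ => z.coeff k) h
  simp only [coeffMap_coeff] at this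
  exact Int.cast_injective this

theorem s18h4_coeffMap_t : coeffMap (Int.castRingHom ℚ) s18h4_t = s18h4_tQ := by
  have h1 : s18h4_t = HahnSeries.ofPowerSeries ℤ ℤ (s18h4_aZ ^ 5 * (s18h4_aZ + 16 * s18h4_bZ)) *
      s16f_deltaInvZ := by
    rw [s18h4_t, s16f_deltaInvZ, s18h4_w, map_mul]
    ring
  have h2 : coeffMap (Int.castRingHom ℚ)
      (HahnSeries.ofPowerSeries ℤ ℤ (s18h4_aZ ^ 5 * (s18h4_aZ + 16 * s18h4_bZ))) =
      s18h4_uA ^ 5 * (s18h4_uA + 16 * s18h4_uB) := by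
    rw [← s18h4_ser_apply, map_mul, map_pow, map_add, map_mul, map_ofNat]
    rfl
  rw [h1, map_mul, h2, ← s16f_deltaQ_inv, s18h4_tQ]

theorem s18h4_coeffMap_aeval (x : LaurentSeries ℤ) (p : Polynomial ℤ) :
    coeffMap (Int.castRingHom ℚ) (Polynomial.aeval x p) =
      Polynomial.aeval (coeffMap (Int.castRingHom ℚ) x) p := by
  rw [Polynomial.aeval_def, Polynomial.aeval_def, Polynomial.hom_eval₂]
  congr 1
  exact RingHom.ext_int _ _

/-- **`j · Q(t) = P(t)` in `ℤ((q))`.** -/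
theorem s18h4_rel :
    jqModC ℤ * Polynomial.aeval s18h4_t s18h4_Q = Polynomial.aeval s18h4_t s18h4_P := by
  apply s18h4_coeffMap_injective
  have hj : coeffMap (Int.castRingHom ℚ) (jqModC ℤ) = jq := by
    rw [← jqModC_rat]
    exact (jqModC_eq_map_intCast ℚ).symm
  rw [map_mul, hj, s18h4_coeffMap_aeval, s18h4_coeffMap_aeval, s18h4_coeffMap_t]
  have hQ : Polynomial.aeval s18h4_tQ s18h4_Q = s18h4_tQ ^ 4 * (s18h4_tQ + 16) := by
    rw [s18h4_Q, map_mul, map_pow, map_add, Polynomial.aeval_X, map_ofNat]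
  have hP : Polynomial.aeval s18h4_tQ s18h4_P = (s18h4_tQ ^ 2 + 256 * s18h4_tQ + 4096) ^ 3 := by
    rw [s18h4_P, s18h4_A, map_pow, map_add, map_add, map_mul, map_pow, Polynomial.aeval_X,
      map_ofNat, map_ofNat]
  rw [hQ, hP]
  exact s18h4_relQ

/-- **[HAUPT-4]** -/
theorem s18h4_main : s18_Haupt4Statement := by
  intro ℓ hℓ h2
  refine ⟨s18h4_t, s18h4_P, s18h4_Q, s18h4_A, s18h4_D, ?_, s18h4_t_order,
    s18h4_t_coeff_neg_one, s18h4_P_monic, ?_, ?_, s18h4_rel, rfl, s18h4_P_sub,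
    s18h4_A_separable, s18h4_D_separable, _, _, 2 ^ 56, s18h4_not_dvd ℓ hℓ.out h2,
    s18h4_bezout⟩
  · rw [s18h4_coeffMap_t]
    exact s18h4_tQ_mem
  · rw [s18h4_Q_natDegree, s18h4_P_natDegree]
    norm_num
  · rw [s18h4_P_natDegree, s18h4_card]

end Fermat.Agent.S18
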