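/-
S18 shared tool (helper7): JETS OF `q`-EXPANSIONS WITH INTEGER COEFFICIENTS, of any length `N`,
computed by the kernel (`decide` on lists of integers).  Prefix `s18j_`.

* `s18j_J N f l` : the first `N` coefficients of the `q`-expansion of `f` are the entries of the
  list `l : List ℤ` (missing entries are `0`);
* `s18j_J.mul / add / sub / smul / pow / neg` : the calculus (`f`, `g` nice), with the lists
  `s18j_conv N l₁ l₂`, `s18j_add N l₁ l₂`, … which reduce by `decide`;
* `s18j_J.of_coeff` : from a coefficient formula `c : ℕ → ℤ`;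
* `s18j_J.of_smul` : division by a non-zero integer;
* `s18j_sturm` : a modular form on `Γ₀(M)` of weight `k` whose jet of length
  `k * index / 12 + 1` is zero vanishes (Prelude `ModularForm.sturm_bound_Gamma0`).
-/
import Mathlib
import Fermat.Prelude.Thm_ModularForm_sturm_bound_Gamma0
import Fermat.Agent.S22.Basic
import Fermat.Agent.S22.Forms
import Fermat.Agent.S22.Nice

set_option autoImplicit false

noncomputable section

namespace Fermat.Agent.S18

open UpperHalfPlane ModularFormClass CongruenceSubgroup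
open Fermat.Agent.S22
open scoped MatrixGroups ModularForm Manifold

/-! ### Lists -/

/-- The truncated product (convolution) of two lists of coefficients. -/
def s18j_conv (N : ℕ) (l₁ l₂ : List ℤ) : List ℤ :=
  (List.range N).map fun n =>
    ((List.range (n + 1)).map fun i => l₁.getD i 0 * l₂.getD (n - i) 0).sum

/-- The truncated sum. -/
def s18j_add (N : ℕ) (l₁ l₂ : List ℤ) : List ℤ :=
  (List.range N).map fun n => l₁.getD n 0 + l₂.getD n 0

/-- The truncated difference. -/
def s18j_sub (N : ℕ) (l₁ l₂ : List ℤ) : List ℤ :=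
  (List.range N).map fun n => l₁.getD n 0 - l₂.getD n 0

/-- The truncated multiple. -/
def s18j_smul (N : ℕ) (c : ℤ) (l : List ℤ) : List ℤ :=
  (List.range N).map fun n => c * l.getD n 0

/-- The truncated power. -/
def s18j_pow (N : ℕ) (l : List ℤ) : ℕ → List ℤ
  | 0 => (List.range N).map fun n => if n = 0 then 1 else 0
  | k + 1 => s18j_conv N (s18j_pow N l k) l

theorem s18j_getD_map_range (N : ℕ) (c : ℕ → ℤ) {n : ℕ} (hn : n < N) :
    ((List.range N).map c).getD n 0 = c n := by
  rw [List.getD_eq_getElem _ _ (by simpa using hn)]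
  simp

/-! ### Jets -/

/-- The first `N` coefficients of the `q`-expansion of `f` are given by the list `l`. -/
def s18j_J (N : ℕ) (f : ℍ → ℂ) (l : List ℤ) : Prop :=
  ∀ n < N, (qExpansion 1 f).coeff n = ((l.getD n 0 : ℤ) : ℂ)

namespace s18j_J

variable {N : ℕ} {f g : ℍ → ℂ} {l l₁ l₂ : List ℤ}

theorem congr {l' : List ℤ} (h : s18j_J N f l) (e : l = l') : s18j_J N f l' := e ▸ h

theorem congr_fun {f' : ℍ → ℂ} (h : s18j_J N f l) (e : f = f') : s18j_J N f' l := e ▸ h

theorem mono {M : ℕ} (hM : M ≤ N) (h : s18j_J N f l) : s18j_J M f l :=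
  fun n hn => h n (lt_of_lt_of_le hn hM)

theorem of_coeff (N : ℕ) (c : ℕ → ℤ) (h : ∀ n, (qExpansion 1 f).coeff n = ((c n : ℤ) : ℂ)) :
    s18j_J N f ((List.range N).map c) := by
  intro n hn
  rw [s18j_getD_map_range N c hn, h n]

theorem mul (hf : IsNice f) (hg : IsNice g) (h : s18j_J N f l₁) (h' : s18j_J N g l₂) :
    s18j_J N (f * g) (s18j_conv N l₁ l₂) := by
  intro n hn
  rw [s18j_conv, s18j_getD_map_range N _ hn, hf.qExpansion_mul hg, PowerSeries.coeff_mul,
    Finset.Nat.sum_antidiagonal_eq_sum_range_succ_mk, ← List.sum_toFinset _ (List.nodup_range),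
    List.toFinset_range]  
  push_cast
  refine Finset.sum_congr rfl (fun i hi => ?_)
  have hi' : i < n + 1 := Finset.mem_range.mp hi
  rw [h i (by omega), h' (n - i) (by omega)]

theorem add (hf : IsNice f) (hg : IsNice g) (h : s18j_J N f l₁) (h' : s18j_J N g l₂) :
    s18j_J N (f + g) (s18j_add N l₁ l₂) := by
  intro n hn
  rw [s18j_add, s18j_getD_map_range N _ hn, hf.qExpansion_add hg, map_add, h n hn, h' n hn]
  push_cast
  rfl

theorem sub (hf : IsNice f) (hg : IsNice g) (h : s18j_J N f l₁) (h' : s18j_J N g l₂) :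
    s18j_J N (f - g) (s18j_sub N l₁ l₂) := by
  intro n hn
  rw [s18j_sub, s18j_getD_map_range N _ hn, hf.qExpansion_sub hg, map_sub, h n hn, h' n hn]
  push_cast
  rfl

theorem smul (c : ℤ) (hf : IsNice f) (h : s18j_J N f l) :
    s18j_J N ((c : ℂ) • f) (s18j_smul N c l) := by
  intro n hn
  rw [s18j_smul, s18j_getD_map_range N _ hn, hf.qExpansion_smul, PowerSeries.coeff_smul, h n hn]
  push_cast
  rfl

theorem one (N : ℕ) : s18j_J N (1 : ℍ → ℂ) (s18j_pow N [] 0) := by
  intro n hn
  rw [s18j_pow, s18j_getD_map_range N _ hn, qExpansion_one, PowerSeries.coeff_one]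
  split_ifs <;> simp

theorem pow (hf : IsNice f) (h : s18j_J N f l) (k : ℕ) :
    s18j_J N (f ^ k) (s18j_pow N l k) := by
  induction k with
  | zero =>
    intro n hn
    rw [pow_zero, s18j_pow, s18j_getD_map_range N _ hn, qExpansion_one, PowerSeries.coeff_one]
    split_ifs <;> simp
  | succ k ih =>
    rw [pow_succ, s18j_pow]
    exact ih.mul (hf.pow k) hf h

/-- Division by a non-zero integer. -/
theorem of_smul {c : ℤ} (hc : c ≠ 0) (hf : IsNice f) {l' : List ℤ}
    (h : s18j_J N ((c : ℂ) • f) l') (e : l' = s18j_smul N c l) : s18j_J N f l := by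
  intro n hn
  have h1 := h n hn
  rw [e, s18j_smul, s18j_getD_map_range N _ hn, hf.qExpansion_smul, PowerSeries.coeff_smul] at h1
  push_cast at h1
  have hc' : (c : ℂ) ≠ 0 := by exact_mod_cast hc
  exact mul_left_cancel₀ hc' (by simpa using h1)

end s18j_J

/-! ### The Sturm bound -/

/-- **Sturm**: a modular form of weight `k` on `Γ₀(M)` with vanishing jet of length
`k * index / 12 + 1` is zero. -/
theorem s18j_sturm (M : ℕ) [NeZero M] {k : ℤ} {f : ℍ → ℂ} (hf : IsMF (G0 M) k f) (N : ℕ)
    (hN : (k * (CongruenceSubgroup.Gamma0 M).index).toNat / 12 < N) {l : List ℤ}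
    (h : s18j_J N f l) (hl : l = List.replicate N 0) : f = 0 := by
  obtain ⟨F, hF⟩ := hf
  have hzero : F = 0 := by
    apply ModularForm.sturm_bound_Gamma0 M F
    intro n hn
    rw [hF, h n (lt_of_le_of_lt hn hN), hl]
    simp
  rw [← hF, hzero]
  rfl

end Fermat.Agent.S18
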