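/-
S18 package (M6) [HAUPT-9], SHADOW ROUTE (helper7): THE ANALYTIC IDENTITIES AT LEVEL `Γ₀(9)`.
Prefix `s18h9f_`.

With `u = a(q³)`, `v = c(q³)` (cubic theta functions; NOT used in Lean):
  `U = u² = (φ₉ - φ₃) / 6`,  `S = u v + v² = (4 φ₃ - φ₉) / 24`,
  `O = u v (u² + u v + v²) = (E₄(3z) - U² + 8 U S) / 8`      (`φ_N = N E₂(N z) - E₂(z)`),
modular forms of weight `2`, `2`, `4` on `Γ₀(9)` with integral `q`-expansions, and by the Sturm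
bound (index `12`, bound `= weight`):
  (w4) `E₄ = U² + 152 U S + 160 S² - 72 O`
  (w6) `E₆ = U³ - 996 U² S - 3048 U S² - 2024 S³ + 828 U O + 1368 S O`
  (w8) `O² = n² U (n - U) - n U O`,  `n = U + S`.
-/
import Mathlib
import Fermat.Agent.S18.Jet
import Fermat.Agent.S22.LevelOne
import Fermat.Agent.S22.DN
import Fermat.Agent.S24.CombIndex
import Fermat.Agent.S16.Eis

set_option autoImplicit false

noncomputable section

namespace Fermat.Agent.S18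

open UpperHalfPlane ModularFormClass CongruenceSubgroup Matrix.SpecialLinearGroup
open Fermat.Agent.S22 Fermat.Agent.S16 ModularForm EisensteinSeries
open scoped MatrixGroups ModularForm Manifold ArithmeticFunction.sigma

/-! ### Coefficient functions -/

/-- The coefficients of `φ_N = N E₂(N z) - E₂(z)`. -/
def s18h9f_cphi (N n : ℕ) : ℤ :=
  if n = 0 then (N : ℤ) - 1
  else 24 * ((σ 1 n : ℤ) - if N ∣ n then (N : ℤ) * (σ 1 (n / N) : ℤ) else 0)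

theorem s18h9f_phi_coeff {N : ℕ} (hN : N ≠ 0) (n : ℕ) :
    (qExpansion 1 (s16e_fun N)).coeff n = ((s18h9f_cphi N n : ℤ) : ℂ) := by
  rw [s16e_coeff hN, s18h9f_cphi]
  by_cases h0 : n = 0
  · rw [if_pos h0, if_pos h0]; push_cast; ring
  · rw [if_neg h0, if_neg h0]
    by_cases hd : N ∣ n
    · rw [if_pos hd, if_pos hd]; push_cast; ring
    · rw [if_neg hd, if_neg hd]; push_cast; ring

/-- The coefficients of `E₄`. -/
def s18h9f_c4 (n : ℕ) : ℤ := if n = 0 then 1 else 240 * (σ 3 n : ℤ)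

/-- The coefficients of `E₆`. -/
def s18h9f_c6 (n : ℕ) : ℤ := if n = 0 then 1 else -504 * (σ 5 n : ℤ)

theorem s18h9f_E4_coeff (n : ℕ) :
    (qExpansion 1 (E₄ : ℍ → ℂ)).coeff n = ((s18h9f_c4 n : ℤ) : ℂ) := by
  rw [E_qExpansion_coeff _ ⟨2, rfl⟩, show bernoulli 4 = -1 / 30 by decide +kernel, s18h9f_c4]
  by_cases h : n = 0
  · simp [h]
  · simp only [h, if_false]
    push_cast
    norm_num

theorem s18h9f_E6_coeff (n : ℕ) :
    (qExpansion 1 (E₆ : ℍ → ℂ)).coeff n = ((s18h9f_c6 n : ℤ) : ℂ) := by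
  rw [E_qExpansion_coeff _ ⟨3, rfl⟩, show bernoulli 6 = 1 / 42 by decide +kernel, s18h9f_c6]
  by_cases h : n = 0
  · simp [h]
  · simp only [h, if_false]
    push_cast
    norm_num

/-- `E₄(3z)`. -/
def s18h9f_Z : ℍ → ℂ := fun z => E₄ (ModularForm.heckeDiagMatrix 3 • z)

/-- The coefficients of `E₄(3z)`. -/
def s18h9f_cZ (n : ℕ) : ℤ := if 3 ∣ n then s18h9f_c4 (n / 3) else 0

theorem s18h9f_Z_coeff (n : ℕ) :
    (qExpansion 1 s18h9f_Z).coeff n = ((s18h9f_cZ n : ℤ) : ℂ) := by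
  unfold s18h9f_Z
  rw [DN.qExpansion_comp_diag_coeff isNice_E4 (by norm_num), s18h9f_cZ]
  by_cases h : 3 ∣ n
  · rw [if_pos h, if_pos h, s18h9f_E4_coeff]
  · rw [if_neg h, if_neg h]; simp

/-! ### The jets (nine coefficients) -/

theorem s18h9f_J_phi3 : s18j_J 9 (s16e_fun 3) [2, 24, 72, 24, 168, 144, 72, 192, 360] :=
  (s18j_J.of_coeff 9 _ (s18h9f_phi_coeff (by norm_num))).congr (by decide)

theorem s18h9f_J_phi9 : s18j_J 9 (s16e_fun 9) [8, 24, 72, 96, 168, 144, 288, 192, 360] :=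
  (s18j_J.of_coeff 9 _ (s18h9f_phi_coeff (by norm_num))).congr (by decide)

theorem s18h9f_J_E4 :
    s18j_J 9 (E₄ : ℍ → ℂ) [1, 240, 2160, 6720, 17520, 30240, 60480, 82560, 140400] :=
  (s18j_J.of_coeff 9 _ s18h9f_E4_coeff).congr (by decide)

theorem s18h9f_J_E6 :
    s18j_J 9 (E₆ : ℍ → ℂ)
      [1, -504, -16632, -122976, -532728, -1575504, -4058208, -8471232, -17047800] :=
  (s18j_J.of_coeff 9 _ s18h9f_E6_coeff).congr (by decide)

theorem s18h9f_J_Z : s18j_J 9 s18h9f_Z [1, 0, 0, 240, 0, 0, 2160, 0, 0] :=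
  (s18j_J.of_coeff 9 _ s18h9f_Z_coeff).congr (by decide)

/-! ### The forms `U`, `S`, `O` -/

/-- `U = a(q³)² = (φ₉ - φ₃) / 6`. -/
def s18h9f_U : ℍ → ℂ := (1 / 6 : ℂ) • (s16e_fun 9 - s16e_fun 3)

/-- `S = (a(q)² - a(q³)²) / 4 = (4 φ₃ - φ₉) / 24`. -/
def s18h9f_S : ℍ → ℂ := (1 / 24 : ℂ) • (((4 : ℤ) : ℂ) • s16e_fun 3 - s16e_fun 9)

/-- `O = (E₄(3z) - U² + 8 U S) / 8`. -/
def s18h9f_O : ℍ → ℂ :=
  (1 / 8 : ℂ) • (s18h9f_Z - s18h9f_U ^ 2 + ((8 : ℤ) : ℂ) • (s18h9f_U * s18h9f_S))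

theorem s18h9f_Gamma0_le {M N : ℕ} (h : M ∣ N) : Gamma0 N ≤ Gamma0 M := by
  intro γ hγ
  rw [Gamma0_mem] at hγ ⊢
  obtain ⟨c, rfl⟩ := h
  have h1 : ((γ 1 0 : ℤ) : ZMod (M * c)) = 0 := by exact_mod_cast hγ
  rw [ZMod.intCast_zmod_eq_zero_iff_dvd] at h1 ⊢
  exact dvd_trans (by push_cast; exact dvd_mul_right _ _) h1

theorem s18h9f_G0_le {M N : ℕ} (h : M ∣ N) : G0 N ≤ G0 M :=
  Subgroup.map_mono (s18h9f_Gamma0_le h)

theorem s18h9f_phi3 : IsMF (G0 9) 2 (s16e_fun 3) :=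
  (s16e_isMF 3).restrict (s18h9f_G0_le (by norm_num : 3 ∣ 9))

theorem s18h9f_phi9 : IsMF (G0 9) 2 (s16e_fun 9) := s16e_isMF 9

theorem s18h9f_E4_isMF : IsMF (G0 9) 4 (E₄ : ℍ → ℂ) := isMF_E4.restrict_G0 9

theorem s18h9f_E6_isMF : IsMF (G0 9) 6 (E₆ : ℍ → ℂ) := isMF_E6.restrict_G0 9

theorem s18h9f_Z_isMF : IsMF (G0 9) 4 s18h9f_Z :=
  (DN.isMF_comp_diag 3 isMF_E4).restrict (s18h9f_G0_le (by norm_num : 3 ∣ 9))

theorem s18h9f_U_isMF : IsMF (G0 9) 2 s18h9f_U := (s18h9f_phi9.sub s18h9f_phi3).smul _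

theorem s18h9f_S_isMF : IsMF (G0 9) 2 s18h9f_S :=
  ((s18h9f_phi3.smul _).sub s18h9f_phi9).smul _

theorem s18h9f_O_isMF : IsMF (G0 9) 4 s18h9f_O :=
  (((s18h9f_Z_isMF.sub ((s18h9f_U_isMF.pow 2).cast (by norm_num))).add
    (((s18h9f_U_isMF.mul s18h9f_S_isMF).cast (by norm_num)).smul _))).smul _

theorem s18h9f_J_U : s18j_J 9 s18h9f_U [1, 0, 0, 12, 0, 0, 36, 0, 0] := by
  have h := s18h9f_J_phi9.sub s18h9f_phi9.isNice_G0 s18h9f_phi3.isNice_G0 s18h9f_J_phi3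
  refine s18j_J.of_smul (c := 6) (by norm_num) s18h9f_U_isMF.isNice_G0 (h.congr_fun ?_)
    (by decide)
  rw [s18h9f_U, smul_smul]
  norm_num

theorem s18h9f_J_S : s18j_J 9 s18h9f_S [0, 3, 9, 0, 21, 18, 0, 24, 45] := by
  have h := (s18h9f_J_phi3.smul 4 s18h9f_phi3.isNice_G0).sub (s18h9f_phi3.smul _).isNice_G0
    s18h9f_phi9.isNice_G0 s18h9f_J_phi9
  refine s18j_J.of_smul (c := 24) (by norm_num) s18h9f_S_isMF.isNice_G0 (h.congr_fun ?_)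
    (by decide)
  rw [s18h9f_S, smul_smul]
  norm_num

theorem s18h9f_J_O : s18j_J 9 s18h9f_O [0, 3, 9, 27, 57, 126, 243, 384, 585] := by
  have nU := s18h9f_U_isMF.isNice_G0
  have nS := s18h9f_S_isMF.isNice_G0
  have nZ := s18h9f_Z_isMF.isNice_G0
  have h := (s18h9f_J_Z.sub nZ (nU.pow 2) (s18h9f_J_U.pow nU 2)).add (nZ.sub (nU.pow 2))
    ((nU.mul nS).smul _) ((s18h9f_J_U.mul nU nS s18h9f_J_S).smul 8 (nU.mul nS))
  refine s18j_J.of_smul (c := 8) (by norm_num) s18h9f_O_isMF.isNice_G0 (h.congr_fun ?_)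
    (by decide)
  rw [s18h9f_O, smul_smul]
  norm_num

/-! ### The index and the three identities -/

theorem s18h9f_index : (CongruenceSubgroup.Gamma0 9).index = 12 := by
  have h := Fermat.Agent.S24.Comb.card_X 9 (by norm_num)
  have h9 : ModularCurve.dedekindPsi 9 = 12 := by
    have := Fermat.Agent.S24.Comb.dedekindPsi_prime_pow Nat.prime_three 1
    simpa using this
  rw [h9] at h
  exact h

theorem s18h9f_bound (k : ℕ) (hk : k < 9) :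
    (((k : ℤ)) * ((CongruenceSubgroup.Gamma0 9).index : ℤ)).toNat / 12 < 9 := by
  rw [s18h9f_index]
  have : ((k : ℤ) * ((12 : ℕ) : ℤ)).toNat = k * 12 := by
    have : ((k : ℤ) * ((12 : ℕ) : ℤ)) = ((k * 12 : ℕ) : ℤ) := by push_cast; ring
    rw [this, Int.toNat_natCast]
  rw [this, Nat.mul_div_cancel _ (by norm_num)]
  exact hk

/-- **(w4)** `E₄ = U² + 152 U S + 160 S² - 72 O`. -/
theorem s18h9f_w4 :
    (E₄ : ℍ → ℂ) = s18h9f_U ^ 2 + ((152 : ℤ) : ℂ) • (s18h9f_U * s18h9f_S)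
      + ((160 : ℤ) : ℂ) • s18h9f_S ^ 2 - ((72 : ℤ) : ℂ) • s18h9f_O := by
  have hU := s18h9f_U_isMF
  have hS := s18h9f_S_isMF
  have hO := s18h9f_O_isMF
  have nU := hU.isNice_G0
  have nS := hS.isNice_G0
  have nO := hO.isNice_G0
  have t1 : IsMF (G0 9) 4 (s18h9f_U ^ 2) := (hU.pow 2).cast (by norm_num)
  have t2 : IsMF (G0 9) 4 (((152 : ℤ) : ℂ) • (s18h9f_U * s18h9f_S)) :=
    ((hU.mul hS).cast (by norm_num)).smul _
  have t3 : IsMF (G0 9) 4 (((160 : ℤ) : ℂ) • s18h9f_S ^ 2) :=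
    ((hS.pow 2).cast (by norm_num)).smul _
  have t4 : IsMF (G0 9) 4 (((72 : ℤ) : ℂ) • s18h9f_O) := hO.smul _
  have hR := ((t1.add t2).add t3).sub t4
  have hF := s18h9f_E4_isMF.sub hR
  have jR := (((s18h9f_J_U.pow nU 2).add t1.isNice_G0 t2.isNice_G0
    ((s18h9f_J_U.mul nU nS s18h9f_J_S).smul 152 (nU.mul nS))).add (t1.add t2).isNice_G0
    t3.isNice_G0 ((s18h9f_J_S.pow nS 2).smul 160 (nS.pow 2))).sub
    ((t1.add t2).add t3).isNice_G0 t4.isNice_G0 (s18h9f_J_O.smul 72 nO)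
  have jF := s18h9f_J_E4.sub isNice_E4 hR.isNice_G0 jR
  have h0 := s18j_sturm 9 hF 9 (by simpa using s18h9f_bound 4 (by norm_num)) jF (by decide)
  exact sub_eq_zero.mp h0

/-- **(w6)** `E₆ = U³ - 996 U² S - 3048 U S² - 2024 S³ + 828 U O + 1368 S O`. -/
theorem s18h9f_w6 :
    (E₆ : ℍ → ℂ) = s18h9f_U ^ 3 - ((996 : ℤ) : ℂ) • (s18h9f_U ^ 2 * s18h9f_S)
      - ((3048 : ℤ) : ℂ) • (s18h9f_U * s18h9f_S ^ 2) - ((2024 : ℤ) : ℂ) • s18h9f_S ^ 3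
      + ((828 : ℤ) : ℂ) • (s18h9f_U * s18h9f_O) + ((1368 : ℤ) : ℂ) • (s18h9f_S * s18h9f_O) := by
  have hU := s18h9f_U_isMF
  have hS := s18h9f_S_isMF
  have hO := s18h9f_O_isMF
  have nU := hU.isNice_G0
  have nS := hS.isNice_G0
  have nO := hO.isNice_G0
  have t1 : IsMF (G0 9) 6 (s18h9f_U ^ 3) := (hU.pow 3).cast (by norm_num)
  have t2 : IsMF (G0 9) 6 (((996 : ℤ) : ℂ) • (s18h9f_U ^ 2 * s18h9f_S)) :=
    (((hU.pow 2).mul hS).cast (by norm_num)).smul _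
  have t3 : IsMF (G0 9) 6 (((3048 : ℤ) : ℂ) • (s18h9f_U * s18h9f_S ^ 2)) :=
    ((hU.mul (hS.pow 2)).cast (by norm_num)).smul _
  have t4 : IsMF (G0 9) 6 (((2024 : ℤ) : ℂ) • s18h9f_S ^ 3) :=
    ((hS.pow 3).cast (by norm_num)).smul _
  have t5 : IsMF (G0 9) 6 (((828 : ℤ) : ℂ) • (s18h9f_U * s18h9f_O)) :=
    ((hU.mul hO).cast (by norm_num)).smul _
  have t6 : IsMF (G0 9) 6 (((1368 : ℤ) : ℂ) • (s18h9f_S * s18h9f_O)) :=
    ((hS.mul hO).cast (by norm_num)).smul _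
  have hR := ((((t1.sub t2).sub t3).sub t4).add t5).add t6
  have hF := s18h9f_E6_isMF.sub hR
  have jR := ((((((s18h9f_J_U.pow nU 3).sub t1.isNice_G0 t2.isNice_G0
    (((s18h9f_J_U.pow nU 2).mul (nU.pow 2) nS s18h9f_J_S).smul 996 ((nU.pow 2).mul nS))).sub
    (t1.sub t2).isNice_G0 t3.isNice_G0
    ((s18h9f_J_U.mul nU (nS.pow 2) (s18h9f_J_S.pow nS 2)).smul 3048 (nU.mul (nS.pow 2)))).sub
    ((t1.sub t2).sub t3).isNice_G0 t4.isNice_G0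
    ((s18h9f_J_S.pow nS 3).smul 2024 (nS.pow 3))).add
    (((t1.sub t2).sub t3).sub t4).isNice_G0 t5.isNice_G0
    ((s18h9f_J_U.mul nU nO s18h9f_J_O).smul 828 (nU.mul nO))).add
    ((((t1.sub t2).sub t3).sub t4).add t5).isNice_G0 t6.isNice_G0
    ((s18h9f_J_S.mul nS nO s18h9f_J_O).smul 1368 (nS.mul nO)))
  have jF := s18h9f_J_E6.sub isNice_E6 hR.isNice_G0 jR
  have h0 := s18j_sturm 9 hF 9 (by simpa using s18h9f_bound 6 (by norm_num)) jF (by decide)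
  exact sub_eq_zero.mp h0

/-- **(w8)** `O² = n² U (n - U) - n U O` with `n = U + S`, i.e. `O² = (U+S)² U S - (U+S) U O`. -/
theorem s18h9f_w8 :
    s18h9f_O ^ 2 = (s18h9f_U + s18h9f_S) ^ 2 * (s18h9f_U * s18h9f_S)
      - (s18h9f_U + s18h9f_S) * (s18h9f_U * s18h9f_O) := by
  have hU := s18h9f_U_isMF
  have hS := s18h9f_S_isMF
  have hO := s18h9f_O_isMF
  have nU := hU.isNice_G0
  have nS := hS.isNice_G0
  have nO := hO.isNice_G0
  have hn : IsMF (G0 9) 2 (s18h9f_U + s18h9f_S) := hU.add hS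
  have jn := s18h9f_J_U.add nU nS s18h9f_J_S
  have nn := hn.isNice_G0
  have t0 : IsMF (G0 9) 8 (s18h9f_O ^ 2) := (hO.pow 2).cast (by norm_num)
  have t1 : IsMF (G0 9) 8 ((s18h9f_U + s18h9f_S) ^ 2 * (s18h9f_U * s18h9f_S)) :=
    ((hn.pow 2).mul (hU.mul hS)).cast (by norm_num)
  have t2 : IsMF (G0 9) 8 ((s18h9f_U + s18h9f_S) * (s18h9f_U * s18h9f_O)) :=
    (hn.mul (hU.mul hO)).cast (by norm_num)
  have hR := t1.sub t2
  have hF := t0.sub hR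
  have jR := ((jn.pow nn 2).mul (nn.pow 2) (nU.mul nS) (s18h9f_J_U.mul nU nS s18h9f_J_S)).sub
    t1.isNice_G0 t2.isNice_G0 (jn.mul nn (nU.mul nO) (s18h9f_J_U.mul nU nO s18h9f_J_O))
  have jF := (s18h9f_J_O.pow nO 2).sub t0.isNice_G0 hR.isNice_G0 jR
  have h0 := s18j_sturm 9 hF 9 (by simpa using s18h9f_bound 8 (by norm_num)) jF (by decide)
  exact sub_eq_zero.mp h0

end Fermat.Agent.S18
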