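/-
S18, [HAUPT-9], THE POLYNOMIAL SIDE (helper3; split off from helper4's package).
Prefix `s18h9p_`.

The polynomials of the Hauptmodul `t = η(z)³/η(9z)³` of `Γ₀(9)`:

  `A = (X + 9)(X³ + 243 X² + 2187 X + 6561)`,  `P = A³`,  `Q = X⁹ (X² + 9 X + 27)`,
  `D = X⁶ - 486 X⁵ - 24057 X⁴ - 367416 X³ - 2657205 X² - 9565938 X - 14348907`,

with `P - 1728 Q = D²`, `A`, `D` separable over `ℚ` (Bezout certificates), and
`a P + b Q = 3^51`.  `s18h9p_of` packages `s18_HauptAt 9 ℓ` from the four facts about `t`.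
-/
import Mathlib
import Fermat.Agent.S18.ModelDefs
import Fermat.Agent.S24.CombIndex

set_option autoImplicit false

open Polynomial ModularCurve
open scoped MatrixGroups

noncomputable section

namespace Fermat.Agent.S18

/-- `A₉ = (X + 9)(X³ + 243 X² + 2187 X + 6561)`. -/
def s18h9p_A : ℤ[X] := (X + 9) * (X ^ 3 + 243 * X ^ 2 + 2187 * X + 6561)

/-- `Q₉ = X⁹ (X² + 9 X + 27)`. -/
def s18h9p_Q : ℤ[X] := X ^ 9 * (X ^ 2 + 9 * X + 27)

/-- `D₉`. -/
def s18h9p_D : ℤ[X] :=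
  X ^ 6 - 486 * X ^ 5 - 24057 * X ^ 4 - 367416 * X ^ 3 - 2657205 * X ^ 2 - 9565938 * X - 14348907

/-- `P₉ = A₉³`. -/
def s18h9p_P : ℤ[X] := s18h9p_A ^ 3

theorem s18h9p_P_eq : s18h9p_P = s18h9p_A ^ 3 := rfl

/-! ### Evaluation -/

section Eval

variable {R : Type*} [CommRing R] [Algebra ℤ R] (t : R)

theorem s18h9p_aeval_A :
    aeval t s18h9p_A = (t + 9) * (t ^ 3 + 243 * t ^ 2 + 2187 * t + 6561) := by
  simp only [s18h9p_A, map_add, map_mul, map_pow, aeval_X, map_ofNat]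

theorem s18h9p_aeval_P :
    aeval t s18h9p_P = ((t + 9) * (t ^ 3 + 243 * t ^ 2 + 2187 * t + 6561)) ^ 3 := by
  rw [s18h9p_P, map_pow, s18h9p_aeval_A]

theorem s18h9p_aeval_Q : aeval t s18h9p_Q = t ^ 9 * (t ^ 2 + 9 * t + 27) := by
  simp only [s18h9p_Q, map_add, map_mul, map_pow, aeval_X, map_ofNat]

theorem s18h9p_aeval_D :
    aeval t s18h9p_D = t ^ 6 - 486 * t ^ 5 - 24057 * t ^ 4 - 367416 * t ^ 3 - 2657205 * t ^ 2
      - 9565938 * t - 14348907 := by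
  simp only [s18h9p_D, map_sub, map_mul, map_pow, aeval_X, map_ofNat]

end Eval

/-! ### Degrees -/

theorem s18h9p_A_expand :
    s18h9p_A = X ^ 4 + 252 * X ^ 3 + 4374 * X ^ 2 + 26244 * X + 59049 := by
  rw [s18h9p_A]; ring

theorem s18h9p_A_monic : s18h9p_A.Monic := by
  rw [s18h9p_A_expand]; monicity!

theorem s18h9p_A_natDegree : s18h9p_A.natDegree = 4 := by
  rw [s18h9p_A_expand]; compute_degree!

theorem s18h9p_P_monic : s18h9p_P.Monic := s18h9p_A_monic.pow 3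

theorem s18h9p_P_natDegree : s18h9p_P.natDegree = 12 := by
  rw [s18h9p_P, s18h9p_A_monic.natDegree_pow, s18h9p_A_natDegree]

theorem s18h9p_Q_expand : s18h9p_Q = X ^ 11 + 9 * X ^ 10 + 27 * X ^ 9 := by
  rw [s18h9p_Q]; ring

theorem s18h9p_Q_natDegree : s18h9p_Q.natDegree = 11 := by
  rw [s18h9p_Q_expand]; compute_degree!

theorem s18h9p_Q_lt_P : s18h9p_Q.natDegree < s18h9p_P.natDegree := by
  rw [s18h9p_Q_natDegree, s18h9p_P_natDegree]; norm_num

/-! ### The index of `Γ₀(9)` -/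

theorem s18h9p_index : Nat.card (SL(2, ℤ) ⧸ CongruenceSubgroup.Gamma0 9) = 12 := by
  have h := Fermat.Agent.S24.Comb.card_X 9 (by norm_num)
  have h9 : ModularCurve.dedekindPsi 9 = 12 := by
    have := Fermat.Agent.S24.Comb.dedekindPsi_prime_pow Nat.prime_three 1
    simpa using this
  rw [h9] at h
  exact h

theorem s18h9p_P_natDegree_eq_index :
    s18h9p_P.natDegree = Nat.card (SL(2, ℤ) ⧸ CongruenceSubgroup.Gamma0 9) := by
  rw [s18h9p_P_natDegree, s18h9p_index]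

/-! ### `P - 1728 Q = D²` -/

theorem s18h9p_sq : s18h9p_P - C 1728 * s18h9p_Q = s18h9p_D ^ 2 := by
  have hC : (C (1728 : ℤ) : ℤ[X]) = 1728 := map_ofNat C 1728
  rw [hC, s18h9p_P, s18h9p_A, s18h9p_Q, s18h9p_D]
  ring

/-! ### Separability -/

/-- A Bezout identity over `ℤ` with non-zero right-hand side gives separability over `ℚ`. -/
theorem s18h9p_sep_of_bezout (f u v : ℤ[X]) (r : ℤ) (hr : r ≠ 0)
    (h : u * f + v * derivative f = C r) : (f.map (Int.castRingHom ℚ)).Separable := by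
  rw [separable_def]
  have h' := congrArg (Polynomial.map (Int.castRingHom ℚ)) h
  rw [Polynomial.map_add, Polynomial.map_mul, Polynomial.map_mul, ← derivative_map,
    Polynomial.map_C] at h'
  have hr' : ((Int.castRingHom ℚ) r) ≠ 0 := by simpa using hr
  refine ⟨C ((Int.castRingHom ℚ) r)⁻¹ * u.map (Int.castRingHom ℚ),
    C ((Int.castRingHom ℚ) r)⁻¹ * v.map (Int.castRingHom ℚ), ?_⟩
  rw [mul_assoc, mul_assoc, ← mul_add, h', ← C_mul, inv_mul_cancel₀ hr', C_1]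

theorem s18h9p_A_derivative :
    derivative s18h9p_A = 4 * X ^ 3 + 756 * X ^ 2 + 8748 * X + 26244 := by
  rw [s18h9p_A_expand]
  simp only [derivative_add, derivative_mul, derivative_X_pow, derivative_X, derivative_ofNat,
    zero_mul, zero_add, mul_one]
  norm_num
  ring

theorem s18h9p_D_derivative :
    derivative s18h9p_D =
      6 * X ^ 5 - 2430 * X ^ 4 - 96228 * X ^ 3 - 1102248 * X ^ 2 - 5314410 * X - 9565938 := by
  rw [s18h9p_D]
  simp only [derivative_sub, derivative_mul, derivative_X_pow, derivative_X, derivative_ofNat,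
    zero_mul, zero_add, mul_one]
  norm_num
  ring

theorem s18h9p_A_sep : (s18h9p_A.map (Int.castRingHom ℚ)).Separable := by
  refine s18h9p_sep_of_bezout s18h9p_A (35964 - 504 * X - 4 * X ^ 2)
    (-72171 - 10773 * X + 189 * X ^ 2 + X ^ 3) 229582512 (by norm_num) ?_
  have hC : (C (229582512 : ℤ) : ℤ[X]) = 229582512 := map_ofNat C 229582512
  rw [hC, s18h9p_A_derivative, s18h9p_A_expand]
  ring

theorem s18h9p_D_sep : (s18h9p_D.map (Int.castRingHom ℚ)).Separable := by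
  refine s18h9p_sep_of_bezout s18h9p_D
    (1040797674 + 427344174 * X + 49001922 * X ^ 2 + 1372842 * X ^ 3 - 3360 * X ^ 4)
    (-1564030863 - 812907900 * X - 158124474 * X ^ 2 - 12495060 * X ^ 3 - 274167 * X ^ 4
      + 560 * X ^ 5) 27113235502176 (by norm_num) ?_
  have hC : (C (27113235502176 : ℤ) : ℤ[X]) = 27113235502176 := map_ofNat C 27113235502176
  rw [hC, s18h9p_D_derivative, s18h9p_D]
  ring

/-! ### Bezout: `a P + b Q = 3^51` -/

/-- The Bezout cofactor of `P`. -/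
def s18h9p_a : ℤ[X] :=
  10460353203 - 13947137604 * X + 10072932714 * X ^ 2 - 5184738396 * X ^ 3
    + 2112477975 * X ^ 4 - 717091056 * X ^ 5 + 207998280 * X ^ 6 - 51939792 * X ^ 7
    + 11028474 * X ^ 8 + 3497366448 * X ^ 9 + 776867365 * X ^ 10

/-- The Bezout cofactor of `Q`. -/
def s18h9p_b : ℤ[X] :=
  -26683920638225814361896 - 32606377371248789460195 * X - 17781915839763440387907 * X ^ 2
    - 5645928442640677568766 * X ^ 3 - 1140698877219771745977 * X ^ 4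
    - 150362834789477630700 * X ^ 5 - 12710964720641046201 * X ^ 6
    - 645744178017598356 * X ^ 7 - 16927522230011913 * X ^ 8 - 155565298055790 * X ^ 9
    - 583817288103 * X ^ 10 - 776867365 * X ^ 11

theorem s18h9p_bezout : s18h9p_a * s18h9p_P + s18h9p_b * s18h9p_Q = C ((3 : ℤ) ^ 51) := by
  have hC : (C ((3 : ℤ) ^ 51) : ℤ[X]) = 3 ^ 51 := by
    rw [map_pow]; congr 1
  rw [hC, s18h9p_a, s18h9p_b, s18h9p_P, s18h9p_A, s18h9p_Q]
  ring

theorem s18h9p_not_dvd (ℓ : ℕ) [hℓp : Fact ℓ.Prime] (hℓ : ℓ ≠ 3) (k : ℕ) :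
    ¬ (ℓ : ℤ) ∣ (3 : ℤ) ^ k := by
  intro h
  have h1 : ((ℓ : ℕ) : ℤ) ∣ ((3 ^ k : ℕ) : ℤ) := by exact_mod_cast h
  have h2 : ℓ ∣ 3 ^ k := Int.natCast_dvd_natCast.mp h1
  have h3 : ℓ ∣ 3 := hℓp.out.dvd_of_dvd_pow h2
  exact hℓ ((Nat.prime_dvd_prime_iff_eq hℓp.out Nat.prime_three).mp h3)

theorem s18h9p_bezout' (ℓ : ℕ) [Fact ℓ.Prime] (hℓ : ℓ ≠ 3) :
    ∃ (a b : ℤ[X]) (r : ℤ), ¬ (ℓ : ℤ) ∣ r ∧ a * s18h9p_P + b * s18h9p_Q = C r :=
  ⟨s18h9p_a, s18h9p_b, 3 ^ 51, s18h9p_not_dvd ℓ hℓ 51, s18h9p_bezout⟩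

/-! ### The packaging -/

/-- **The polynomial side of [HAUPT-9]**: a Laurent series `t = q⁻¹ + ...` over `ℤ` in the
function field of level `9` with `j · Q(t) = P(t)` is a Hauptmodul in the sense of
`s18_HauptAt 9 ℓ`, for every prime `ℓ ≠ 3`. -/
theorem s18h9p_of (t : LaurentSeries ℤ)
    (hmem : coeffMap (Int.castRingHom ℚ) t ∈ modularFunctionFieldFull 9)
    (hord : t.order = -1) (hlead : t.coeff (-1) = 1)
    (hj : jqModC ℤ * aeval t s18h9p_Q = aeval t s18h9p_P)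
    (ℓ : ℕ) [Fact ℓ.Prime] (hℓ : ℓ ≠ 3) : s18_HauptAt 9 ℓ :=
  ⟨t, s18h9p_P, s18h9p_Q, s18h9p_A, s18h9p_D, hmem, hord, hlead, s18h9p_P_monic,
    s18h9p_Q_lt_P, s18h9p_P_natDegree_eq_index, hj, rfl, s18h9p_sq, s18h9p_A_sep,
    s18h9p_D_sep, s18h9p_bezout' ℓ hℓ⟩

/-- The form of `j · Q(t) = P(t)` without polynomials. -/
theorem s18h9p_of' (t : LaurentSeries ℤ)
    (hmem : coeffMap (Int.castRingHom ℚ) t ∈ modularFunctionFieldFull 9)
    (hord : t.order = -1) (hlead : t.coeff (-1) = 1)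
    (hj : jqModC ℤ * (t ^ 9 * (t ^ 2 + 9 * t + 27)) =
      ((t + 9) * (t ^ 3 + 243 * t ^ 2 + 2187 * t + 6561)) ^ 3)
    (ℓ : ℕ) [Fact ℓ.Prime] (hℓ : ℓ ≠ 3) : s18_HauptAt 9 ℓ :=
  s18h9p_of t hmem hord hlead (by rw [s18h9p_aeval_Q, s18h9p_aeval_P]; exact hj) ℓ hℓ

end Fermat.Agent.S18
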