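/-
S18 package (M6) [HAUPT-9], SHADOW ROUTE (helper7): THE HAUPTMODUL OF LEVEL `9`.
Prefix `s18h9f_`.

`t = η(z)³ / η(9z)³ = F / Δ = q⁻¹ - 3 + 5 q² - 7 q⁵ + … ∈ ℤ((q))` where
  `F = n A(U, n) + B(U, n) O`   (`n = U + S`; an INTEGER polynomial in the integral series
  `U`, `S`, `O` of `Haupt9FSturm.lean`; `F = n (n - 3 W)⁵` for `W = O / n`)
is a modular form of weight `12` on `Γ₀(9)`:
* `t ∈ ℚ(j(q), j(q³), j(q⁹))` by the `q`-expansion principle (`s16i_mem_full`);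
* `j · t⁹ (t² + 9 t + 27) = ((t + 9)(t³ + 243 t² + 2187 t + 6561))³` from (w4), (w6), (w8),
  `1728 Δ = E₄³ - E₆²`, `j Δ = E₄³`.
-/
import Mathlib
import Fermat.Agent.S18.ModelDefs
import Fermat.Agent.S18.Haupt9Poly
import Fermat.Agent.S18.Haupt9FSturm
import Fermat.Agent.S18.Haupt4
import Fermat.Agent.S16.FormChart
import Fermat.Agent.S16.C22Data

set_option autoImplicit false
set_option linter.style.haveILetI false

noncomputable section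

namespace Fermat.Agent.S18

open UpperHalfPlane ModularFormClass CongruenceSubgroup Matrix.SpecialLinearGroup
open Fermat.Agent.S22 Fermat.Agent.S16 Fermat.Agent.S24 Fermat.Agent.S28
open ModularForm EisensteinSeries ModularCurve
open scoped MatrixGroups ModularForm Manifold ArithmeticFunction.sigma

local notation "Δ" => ModularForm.discriminant

/-! ### `q`-expansions with integer coefficients -/

/-- `f` has the `q`-expansion `c ∈ ℤ⟦q⟧`. -/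
def s18h9f_QE (f : ℍ → ℂ) (c : PowerSeries ℤ) : Prop :=
  qExpansion 1 f = c.map (Int.castRingHom ℂ)

namespace s18h9f_QE

variable {f g : ℍ → ℂ} {a b : PowerSeries ℤ}

theorem of_coeff (c : ℕ → ℤ) (h : ∀ n, (qExpansion 1 f).coeff n = ((c n : ℤ) : ℂ)) :
    s18h9f_QE f (PowerSeries.mk c) := by
  ext n
  rw [h n, PowerSeries.coeff_map, PowerSeries.coeff_mk]
  simp

theorem coeff (h : s18h9f_QE f a) (n : ℕ) :
    (qExpansion 1 f).coeff n = ((PowerSeries.coeff n a : ℤ) : ℂ) := by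
  rw [h, PowerSeries.coeff_map]
  simp

theorem congr (h : s18h9f_QE f a) (e : f = g) : s18h9f_QE g a := e ▸ h

theorem add (hf : IsNice f) (hg : IsNice g) (h : s18h9f_QE f a) (h' : s18h9f_QE g b) :
    s18h9f_QE (f + g) (a + b) := by
  rw [s18h9f_QE] at h h' ⊢
  rw [hf.qExpansion_add hg, h, h', map_add]

theorem sub (hf : IsNice f) (hg : IsNice g) (h : s18h9f_QE f a) (h' : s18h9f_QE g b) :
    s18h9f_QE (f - g) (a - b) := by
  rw [s18h9f_QE] at h h' ⊢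
  rw [hf.qExpansion_sub hg, h, h', map_sub]

theorem mul (hf : IsNice f) (hg : IsNice g) (h : s18h9f_QE f a) (h' : s18h9f_QE g b) :
    s18h9f_QE (f * g) (a * b) := by
  rw [s18h9f_QE] at h h' ⊢
  rw [hf.qExpansion_mul hg, h, h', map_mul]

theorem pow (hf : IsNice f) (h : s18h9f_QE f a) (n : ℕ) : s18h9f_QE (f ^ n) (a ^ n) := by
  rw [s18h9f_QE] at h ⊢
  rw [hf.qExpansion_pow, h, map_pow]

theorem smul (c : ℤ) (hf : IsNice f) (h : s18h9f_QE f a) :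
    s18h9f_QE ((c : ℂ) • f) (PowerSeries.C c * a) := by
  rw [s18h9f_QE] at h ⊢
  rw [hf.qExpansion_smul, h, map_mul, PowerSeries.map_C]
  ext n
  rw [PowerSeries.coeff_smul, PowerSeries.coeff_C_mul, smul_eq_mul]
  simp

/-- Division by a non-zero integer. -/
theorem of_smul {c : ℤ} (hc : c ≠ 0) (hf : IsNice f)
    (h : s18h9f_QE ((c : ℂ) • f) (PowerSeries.C c * a)) : s18h9f_QE f a := by
  rw [s18h9f_QE] at h ⊢
  rw [hf.qExpansion_smul] at h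
  ext n
  have h1 := congrArg (PowerSeries.coeff n) h
  rw [PowerSeries.coeff_smul, PowerSeries.coeff_map, PowerSeries.coeff_C_mul, smul_eq_mul] at h1
  have hc' : (c : ℂ) ≠ 0 := by exact_mod_cast hc
  rw [PowerSeries.coeff_map]
  apply mul_left_cancel₀ hc'
  rw [h1]
  simp

theorem hl (hf : IsNice f) (h : s18h9f_QE f a) : s16q_HL (s18h4_ser a) f :=
  s18h4_HL_of_coeff hf a h.coeff

end s18h9f_QE

/-! ### The integral series `U`, `S`, `O` -/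

/-- The coefficients of `y₀ = (U - 1) / 12`. -/
def s18h9f_cy (n : ℕ) : ℤ :=
  if n = 0 then 0
  else (if 3 ∣ n then (σ 1 (n / 3) : ℤ) else 0) - 3 * (if 9 ∣ n then (σ 1 (n / 9) : ℤ) else 0)

/-- The coefficients of `S`. -/
def s18h9f_cS (n : ℕ) : ℤ :=
  if n = 0 then 0
  else 3 * (σ 1 n : ℤ) - 12 * (if 3 ∣ n then (σ 1 (n / 3) : ℤ) else 0)
    + 9 * (if 9 ∣ n then (σ 1 (n / 9) : ℤ) else 0)

/-- The coefficients of `T = (E₄(q³) - 1) / 8`. -/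
def s18h9f_cT (n : ℕ) : ℤ :=
  if n = 0 then 0 else if 3 ∣ n then 30 * (σ 3 (n / 3) : ℤ) else 0

/-- `y₀ ∈ ℤ⟦q⟧`. -/
def s18h9f_yZ : PowerSeries ℤ := PowerSeries.mk s18h9f_cy

/-- `T ∈ ℤ⟦q⟧`. -/
def s18h9f_TZ : PowerSeries ℤ := PowerSeries.mk s18h9f_cT

/-- `U = 1 + 12 y₀ ∈ ℤ⟦q⟧`. -/
def s18h9f_UZ : PowerSeries ℤ := 1 + PowerSeries.C 12 * s18h9f_yZ

/-- `S ∈ ℤ⟦q⟧`. -/
def s18h9f_SZ : PowerSeries ℤ := PowerSeries.mk s18h9f_cS

/-- `E₄(q³) = 1 + 8 T ∈ ℤ⟦q⟧`. -/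
def s18h9f_ZZ : PowerSeries ℤ := 1 + PowerSeries.C 8 * s18h9f_TZ

/-- `O = T - 3 y₀ - 18 y₀² + U S ∈ ℤ⟦q⟧`. -/
def s18h9f_OZ : PowerSeries ℤ :=
  s18h9f_TZ - PowerSeries.C 3 * s18h9f_yZ - PowerSeries.C 18 * s18h9f_yZ ^ 2
    + s18h9f_UZ * s18h9f_SZ

theorem s18h9f_OZ_eq :
    PowerSeries.C 8 * s18h9f_OZ =
      s18h9f_ZZ - s18h9f_UZ ^ 2 + PowerSeries.C 8 * (s18h9f_UZ * s18h9f_SZ) := by
  have h8 : (PowerSeries.C (8 : ℤ) : PowerSeries ℤ) = 8 := rfl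
  have h3 : (PowerSeries.C (3 : ℤ) : PowerSeries ℤ) = 3 := rfl
  have h18 : (PowerSeries.C (18 : ℤ) : PowerSeries ℤ) = 18 := rfl
  have h12 : (PowerSeries.C (12 : ℤ) : PowerSeries ℤ) = 12 := rfl
  rw [s18h9f_OZ, s18h9f_ZZ]
  generalize s18h9f_SZ = S
  rw [s18h9f_UZ, h8, h3, h18, h12]
  ring

theorem s18h9f_UZ_coeff (n : ℕ) :
    PowerSeries.coeff n s18h9f_UZ = (if n = 0 then 1 else 0) + 12 * s18h9f_cy n := by
  rw [s18h9f_UZ, map_add, PowerSeries.coeff_one, PowerSeries.coeff_C_mul, s18h9f_yZ,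
    PowerSeries.coeff_mk]

theorem s18h9f_ZZ_coeff (n : ℕ) :
    PowerSeries.coeff n s18h9f_ZZ = (if n = 0 then 1 else 0) + 8 * s18h9f_cT n := by
  rw [s18h9f_ZZ, map_add, PowerSeries.coeff_one, PowerSeries.coeff_C_mul, s18h9f_TZ,
    PowerSeries.coeff_mk]

theorem s18h9f_QE_U : s18h9f_QE s18h9f_U s18h9f_UZ := by
  have n3 := s18h9f_phi3.isNice_G0
  have n9 := s18h9f_phi9.isNice_G0
  ext n
  rw [PowerSeries.coeff_map, s18h9f_UZ_coeff, s18h9f_U, (n9.sub n3).qExpansion_smul,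
    PowerSeries.coeff_smul, n9.qExpansion_sub n3, map_sub, s18h9f_phi_coeff (by norm_num),
    s18h9f_phi_coeff (by norm_num), s18h9f_cphi, s18h9f_cphi, s18h9f_cy]
  by_cases h0 : n = 0
  · subst h0
    norm_num
  · have h93 : 9 ∣ n → 3 ∣ n := fun h => dvd_trans (by norm_num) h
    by_cases h3 : 3 ∣ n <;> by_cases h9 : 9 ∣ n <;> simp [h0, h3, h9] <;> ring

theorem s18h9f_QE_S : s18h9f_QE s18h9f_S s18h9f_SZ := by
  have n3 := s18h9f_phi3.isNice_G0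
  have n9 := s18h9f_phi9.isNice_G0
  ext n
  rw [PowerSeries.coeff_map, s18h9f_SZ, PowerSeries.coeff_mk, s18h9f_S,
    ((n3.smul _).sub n9).qExpansion_smul, PowerSeries.coeff_smul, (n3.smul _).qExpansion_sub n9,
    map_sub, n3.qExpansion_smul, PowerSeries.coeff_smul, s18h9f_phi_coeff (by norm_num),
    s18h9f_phi_coeff (by norm_num), s18h9f_cphi, s18h9f_cphi, s18h9f_cS]
  by_cases h0 : n = 0
  · subst h0
    norm_num
  · by_cases h3 : 3 ∣ n <;> by_cases h9 : 9 ∣ n <;> simp [h0, h3, h9] <;> ring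

theorem s18h9f_QE_Z : s18h9f_QE s18h9f_Z s18h9f_ZZ := by
  ext n
  rw [PowerSeries.coeff_map, s18h9f_ZZ_coeff, s18h9f_Z_coeff, s18h9f_cZ, s18h9f_cT, s18h9f_c4]
  by_cases h0 : n = 0
  · subst h0
    norm_num
  · by_cases h3 : 3 ∣ n
    · have h1 : n / 3 ≠ 0 := by
        intro h
        rcases Nat.div_eq_zero_iff.mp h with h | h
        · norm_num at h
        · obtain ⟨k, rfl⟩ := h3
          omega
      simp [h0, h3, h1]
      ring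
    · simp [h0, h3]

theorem s18h9f_QE_O : s18h9f_QE s18h9f_O s18h9f_OZ := by
  have nU := s18h9f_U_isMF.isNice_G0
  have nS := s18h9f_S_isMF.isNice_G0
  have nZ := s18h9f_Z_isMF.isNice_G0
  have h := (s18h9f_QE_Z.sub nZ (nU.pow 2) (s18h9f_QE_U.pow nU 2)).add (nZ.sub (nU.pow 2))
    ((nU.mul nS).smul _) ((s18h9f_QE_U.mul nU nS s18h9f_QE_S).smul 8 (nU.mul nS))
  rw [← s18h9f_OZ_eq] at h
  refine s18h9f_QE.of_smul (c := 8) (by norm_num) s18h9f_O_isMF.isNice_G0 (h.congr ?_)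
  rw [s18h9f_O, smul_smul]
  norm_num

/-! ### The formal identities in `ℤ⟦q⟧` -/

theorem s18h9f_QE_unique {f : ℍ → ℂ} {a b : PowerSeries ℤ} (h : s18h9f_QE f a)
    (h' : s18h9f_QE f b) : a = b := by
  rw [s18h9f_QE] at h h'
  rw [h] at h'
  exact PowerSeries.map_injective _ (RingHom.injective_int (Int.castRingHom ℂ)) h'

/-- `E₄ ∈ ℤ⟦q⟧` in terms of `U`, `S`, `O`. -/
def s18h9f_e4Z : PowerSeries ℤ :=
  s18h9f_UZ ^ 2 + PowerSeries.C 152 * (s18h9f_UZ * s18h9f_SZ)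
    + PowerSeries.C 160 * s18h9f_SZ ^ 2 - PowerSeries.C 72 * s18h9f_OZ

/-- `E₆ ∈ ℤ⟦q⟧` in terms of `U`, `S`, `O`. -/
def s18h9f_e6Z : PowerSeries ℤ :=
  s18h9f_UZ ^ 3 - PowerSeries.C 996 * (s18h9f_UZ ^ 2 * s18h9f_SZ)
    - PowerSeries.C 3048 * (s18h9f_UZ * s18h9f_SZ ^ 2) - PowerSeries.C 2024 * s18h9f_SZ ^ 3
    + PowerSeries.C 828 * (s18h9f_UZ * s18h9f_OZ) + PowerSeries.C 1368 * (s18h9f_SZ * s18h9f_OZ)

theorem s18h9f_QE_E4 : s18h9f_QE (E₄ : ℍ → ℂ) s18h9f_e4Z := by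
  have nU := s18h9f_U_isMF.isNice_G0
  have nS := s18h9f_S_isMF.isNice_G0
  have nO := s18h9f_O_isMF.isNice_G0
  have h := (((s18h9f_QE_U.pow nU 2).add (nU.pow 2) ((nU.mul nS).smul _)
    ((s18h9f_QE_U.mul nU nS s18h9f_QE_S).smul 152 (nU.mul nS))).add
    ((nU.pow 2).add ((nU.mul nS).smul _)) ((nS.pow 2).smul _)
    ((s18h9f_QE_S.pow nS 2).smul 160 (nS.pow 2))).sub
    (((nU.pow 2).add ((nU.mul nS).smul _)).add ((nS.pow 2).smul _)) (nO.smul _)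
    (s18h9f_QE_O.smul 72 nO)
  exact h.congr s18h9f_w4.symm

theorem s18h9f_QE_E6 : s18h9f_QE (E₆ : ℍ → ℂ) s18h9f_e6Z := by
  have nU := s18h9f_U_isMF.isNice_G0
  have nS := s18h9f_S_isMF.isNice_G0
  have nO := s18h9f_O_isMF.isNice_G0
  have n1 := nU.pow 3
  have n2 := ((nU.pow 2).mul nS).smul ((996 : ℤ) : ℂ)
  have n3 := (nU.mul (nS.pow 2)).smul ((3048 : ℤ) : ℂ)
  have n4 := (nS.pow 3).smul ((2024 : ℤ) : ℂ)
  have n5 := (nU.mul nO).smul ((828 : ℤ) : ℂ)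
  have n6 := (nS.mul nO).smul ((1368 : ℤ) : ℂ)
  have h := (((((s18h9f_QE_U.pow nU 3).sub n1 n2
    (((s18h9f_QE_U.pow nU 2).mul (nU.pow 2) nS s18h9f_QE_S).smul 996 ((nU.pow 2).mul nS))).sub
    (n1.sub n2) n3
    ((s18h9f_QE_U.mul nU (nS.pow 2) (s18h9f_QE_S.pow nS 2)).smul 3048 (nU.mul (nS.pow 2)))).sub
    ((n1.sub n2).sub n3) n4 ((s18h9f_QE_S.pow nS 3).smul 2024 (nS.pow 3))).add
    (((n1.sub n2).sub n3).sub n4) n5
    ((s18h9f_QE_U.mul nU nO s18h9f_QE_O).smul 828 (nU.mul nO))).add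
    ((((n1.sub n2).sub n3).sub n4).add n5) n6
    ((s18h9f_QE_S.mul nS nO s18h9f_QE_O).smul 1368 (nS.mul nO))
  exact h.congr s18h9f_w6.symm

/-- **(w8)** in `ℤ⟦q⟧`. -/
theorem s18h9f_w8Z :
    s18h9f_OZ ^ 2 = (s18h9f_UZ + s18h9f_SZ) ^ 2 * (s18h9f_UZ * s18h9f_SZ)
      - (s18h9f_UZ + s18h9f_SZ) * (s18h9f_UZ * s18h9f_OZ) := by
  have nU := s18h9f_U_isMF.isNice_G0
  have nS := s18h9f_S_isMF.isNice_G0
  have nO := s18h9f_O_isMF.isNice_G0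
  have nn := nU.add nS
  have qn := s18h9f_QE_U.add nU nS s18h9f_QE_S
  have h1 := s18h9f_QE_O.pow nO 2
  have h2 := ((qn.pow nn 2).mul (nn.pow 2) (nU.mul nS) (s18h9f_QE_U.mul nU nS s18h9f_QE_S)).sub
    ((nn.pow 2).mul (nU.mul nS)) (nn.mul (nU.mul nO))
    (qn.mul nn (nU.mul nO) (s18h9f_QE_U.mul nU nO s18h9f_QE_O))
  exact s18h9f_QE_unique h1 (h2.congr s18h9f_w8.symm)

/-! ### The weight-12 form `F = t Δ` -/

/-- `n = U + S`. -/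
def s18h9f_n : ℍ → ℂ := s18h9f_U + s18h9f_S

/-- `n ∈ ℤ⟦q⟧`. -/
def s18h9f_nZ : PowerSeries ℤ := s18h9f_UZ + s18h9f_SZ

/-- The term `c Uⁱ nʲ`. -/
def s18h9f_tm (c : ℤ) (i j : ℕ) : ℍ → ℂ := (c : ℂ) • (s18h9f_U ^ i * s18h9f_n ^ j)

/-- The term `c Uⁱ nʲ` in `ℤ⟦q⟧`. -/
def s18h9f_tmZ (c : ℤ) (i j : ℕ) : PowerSeries ℤ :=
  PowerSeries.C c * (s18h9f_UZ ^ i * s18h9f_nZ ^ j)

theorem s18h9f_n_isMF : IsMF (G0 9) 2 s18h9f_n := s18h9f_U_isMF.add s18h9f_S_isMF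

theorem s18h9f_QE_n : s18h9f_QE s18h9f_n s18h9f_nZ :=
  s18h9f_QE_U.add s18h9f_U_isMF.isNice_G0 s18h9f_S_isMF.isNice_G0 s18h9f_QE_S

theorem s18h9f_tm_isMF (c : ℤ) (i j : ℕ) (k : ℤ) (hk : (2 : ℤ) * i + 2 * j = k) :
    IsMF (G0 9) k (s18h9f_tm c i j) :=
  (((s18h9f_U_isMF.pow i).mul (s18h9f_n_isMF.pow j)).cast hk).smul _

theorem s18h9f_tm_nice (c : ℤ) (i j : ℕ) : IsNice (s18h9f_tm c i j) :=
  (s18h9f_tm_isMF c i j _ rfl).isNice_G0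

theorem s18h9f_tm_QE (c : ℤ) (i j : ℕ) : s18h9f_QE (s18h9f_tm c i j) (s18h9f_tmZ c i j) :=
  ((s18h9f_QE_U.pow s18h9f_U_isMF.isNice_G0 i).mul (s18h9f_U_isMF.isNice_G0.pow i)
    (s18h9f_n_isMF.isNice_G0.pow j) (s18h9f_QE_n.pow s18h9f_n_isMF.isNice_G0 j)).smul c
    ((s18h9f_U_isMF.isNice_G0.pow i).mul (s18h9f_n_isMF.isNice_G0.pow j))

/-- `A(U, n)`, of weight `10`: `(n - 3 W)⁵ = A + B W`. -/
def s18h9f_A : ℍ → ℂ := s18h9f_tm (1) 0 5 + s18h9f_tm (90) 1 4 + s18h9f_tm (585) 2 3 + s18h9f_tm (-189) 3 2 + s18h9f_tm (-729) 4 1 + s18h9f_tm (243) 5 0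

/-- `B(U, n)`, of weight `8`. -/
def s18h9f_B : ℍ → ℂ := s18h9f_tm (-15) 0 4 + s18h9f_tm (-360) 1 3 + s18h9f_tm (-1053) 2 2 + s18h9f_tm (162) 3 1 + s18h9f_tm (243) 4 0

/-- `A ∈ ℤ⟦q⟧`. -/
def s18h9f_AZ : PowerSeries ℤ := s18h9f_tmZ (1) 0 5 + s18h9f_tmZ (90) 1 4 + s18h9f_tmZ (585) 2 3 + s18h9f_tmZ (-189) 3 2 + s18h9f_tmZ (-729) 4 1 + s18h9f_tmZ (243) 5 0

/-- `B ∈ ℤ⟦q⟧`. -/
def s18h9f_BZ : PowerSeries ℤ := s18h9f_tmZ (-15) 0 4 + s18h9f_tmZ (-360) 1 3 + s18h9f_tmZ (-1053) 2 2 + s18h9f_tmZ (162) 3 1 + s18h9f_tmZ (243) 4 0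

theorem s18h9f_A_isMF : IsMF (G0 9) 10 s18h9f_A :=
  ((((((s18h9f_tm_isMF (1) 0 5 10 (by norm_num)).add (s18h9f_tm_isMF (90) 1 4 10 (by norm_num))).add (s18h9f_tm_isMF (585) 2 3 10 (by norm_num))).add (s18h9f_tm_isMF (-189) 3 2 10 (by norm_num))).add (s18h9f_tm_isMF (-729) 4 1 10 (by norm_num))).add (s18h9f_tm_isMF (243) 5 0 10 (by norm_num)))

theorem s18h9f_B_isMF : IsMF (G0 9) 8 s18h9f_B :=
  (((((s18h9f_tm_isMF (-15) 0 4 8 (by norm_num)).add (s18h9f_tm_isMF (-360) 1 3 8 (by norm_num))).add (s18h9f_tm_isMF (-1053) 2 2 8 (by norm_num))).add (s18h9f_tm_isMF (162) 3 1 8 (by norm_num))).add (s18h9f_tm_isMF (243) 4 0 8 (by norm_num)))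

theorem s18h9f_QE_A : s18h9f_QE s18h9f_A s18h9f_AZ :=
  ((((((s18h9f_tm_QE (1) 0 5).add (s18h9f_tm_nice (1) 0 5) (s18h9f_tm_nice (90) 1 4) (s18h9f_tm_QE (90) 1 4)).add ((s18h9f_tm_nice (1) 0 5).add (s18h9f_tm_nice (90) 1 4)) (s18h9f_tm_nice (585) 2 3) (s18h9f_tm_QE (585) 2 3)).add (((s18h9f_tm_nice (1) 0 5).add (s18h9f_tm_nice (90) 1 4)).add (s18h9f_tm_nice (585) 2 3)) (s18h9f_tm_nice (-189) 3 2) (s18h9f_tm_QE (-189) 3 2)).add ((((s18h9f_tm_nice (1) 0 5).add (s18h9f_tm_nice (90) 1 4)).add (s18h9f_tm_nice (585) 2 3)).add (s18h9f_tm_nice (-189) 3 2)) (s18h9f_tm_nice (-729) 4 1) (s18h9f_tm_QE (-729) 4 1)).add (((((s18h9f_tm_nice (1) 0 5).add (s18h9f_tm_nice (90) 1 4)).add (s18h9f_tm_nice (585) 2 3)).add (s18h9f_tm_nice (-189) 3 2)).add (s18h9f_tm_nice (-729) 4 1)) (s18h9f_tm_nice (243) 5 0) (s18h9f_tm_QE (243) 5 0))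

theorem s18h9f_QE_B : s18h9f_QE s18h9f_B s18h9f_BZ :=
  (((((s18h9f_tm_QE (-15) 0 4).add (s18h9f_tm_nice (-15) 0 4) (s18h9f_tm_nice (-360) 1 3) (s18h9f_tm_QE (-360) 1 3)).add ((s18h9f_tm_nice (-15) 0 4).add (s18h9f_tm_nice (-360) 1 3)) (s18h9f_tm_nice (-1053) 2 2) (s18h9f_tm_QE (-1053) 2 2)).add (((s18h9f_tm_nice (-15) 0 4).add (s18h9f_tm_nice (-360) 1 3)).add (s18h9f_tm_nice (-1053) 2 2)) (s18h9f_tm_nice (162) 3 1) (s18h9f_tm_QE (162) 3 1)).add ((((s18h9f_tm_nice (-15) 0 4).add (s18h9f_tm_nice (-360) 1 3)).add (s18h9f_tm_nice (-1053) 2 2)).add (s18h9f_tm_nice (162) 3 1)) (s18h9f_tm_nice (243) 4 0) (s18h9f_tm_QE (243) 4 0))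

/-- **The form `F = n A + B O = η(z)²⁷ / η(9z)³` of weight `12` on `Γ₀(9)`.** -/
def s18h9f_F : ℍ → ℂ := s18h9f_n * s18h9f_A + s18h9f_B * s18h9f_O

/-- `F ∈ ℤ⟦q⟧`. -/
def s18h9f_FZ : PowerSeries ℤ := s18h9f_nZ * s18h9f_AZ + s18h9f_BZ * s18h9f_OZ

theorem s18h9f_F_isMF : IsMF (G0 9) 12 s18h9f_F :=
  ((s18h9f_n_isMF.mul s18h9f_A_isMF).cast (by norm_num)).add
    ((s18h9f_B_isMF.mul s18h9f_O_isMF).cast (by norm_num))

theorem s18h9f_QE_F : s18h9f_QE s18h9f_F s18h9f_FZ :=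
  (s18h9f_QE_n.mul s18h9f_n_isMF.isNice_G0 s18h9f_A_isMF.isNice_G0 s18h9f_QE_A).add
    (s18h9f_n_isMF.isNice_G0.mul s18h9f_A_isMF.isNice_G0)
    (s18h9f_B_isMF.isNice_G0.mul s18h9f_O_isMF.isNice_G0)
    (s18h9f_QE_B.mul s18h9f_B_isMF.isNice_G0 s18h9f_O_isMF.isNice_G0 s18h9f_QE_O)

/-! ### The Hauptmodul as a modular function -/

theorem s18h9f_ser_C (c : ℤ) : s18h4_ser (PowerSeries.C c) = (c : LaurentSeries ℚ) := by
  rw [eq_intCast (PowerSeries.C (R := ℤ)) c, map_intCast]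

theorem s18h9f_ser_coeff (c : PowerSeries ℤ) (n : ℕ) :
    (s18h4_ser c).coeff (n : ℤ) = ((PowerSeries.coeff n c : ℤ) : ℚ) := by
  rw [s18h4_ser_apply, coeffMap_coeff, HahnSeries.ofPowerSeries_apply_coeff]
  rfl

/-- The Hauptmodul in `ℚ((q))`. -/
def s18h9f_tQ : LaurentSeries ℚ := s18h4_ser s18h9f_FZ * umem_deltaQ⁻¹

theorem s18h9f_HL_t : s16q_HL s18h9f_tQ (fun z => s18h9f_F z / Δ z) := by
  have h := (s18h9f_QE_F.hl s18h9f_F_isMF.isNice_G0).mul s16q_HL.disc_inv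
  refine h.congr ?_
  funext z
  simp [div_eq_mul_inv]

/-- **The Hauptmodul lies in the function field of level `9`.** -/
theorem s18h9f_tQ_mem : s18h9f_tQ ∈ modularFunctionFieldFull 9 :=
  s16i_mem_full 9 (s16f_isModFun 9 s18h9f_F_isMF) _ s18h9f_HL_t

/-! ### The relation in `ℚ((q))` -/

/-- The algebra: from (w4), (w6), (w8), `1728 Δ = E₄³ - E₆²`, `j Δ = E₄³` to
`j Q(t) = P(t)` for `t = F / Δ`, in any field of characteristic `0`. -/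
theorem s18h9f_alg {K : Type*} [Field K] [CharZero K] (u s o δ j e4 e6 F : K)
    (hs : s ≠ 0) (hn : u + s ≠ 0) (hδ : δ ≠ 0)
    (hw8 : o ^ 2 = (u + s) ^ 2 * (u * s) - (u + s) * (u * o))
    (he4 : e4 = u ^ 2 + 152 * (u * s) + 160 * s ^ 2 - 72 * o)
    (he6 : e6 = u ^ 3 - 996 * (u ^ 2 * s) - 3048 * (u * s ^ 2) - 2024 * s ^ 3
      + 828 * (u * o) + 1368 * (s * o))
    (hdel : 1728 * δ = e4 ^ 3 - e6 ^ 2) (hjd : j * δ = e4 ^ 3)
    (hF : F = (u + s) * ((u + s) ^ 5 + 90 * (u * (u + s) ^ 4) + 585 * (u ^ 2 * (u + s) ^ 3)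
        - 189 * (u ^ 3 * (u + s) ^ 2) - 729 * (u ^ 4 * (u + s)) + 243 * u ^ 5)
      + (-15 * (u + s) ^ 4 - 360 * (u * (u + s) ^ 3) - 1053 * (u ^ 2 * (u + s) ^ 2)
        + 162 * (u ^ 3 * (u + s)) + 243 * u ^ 4) * o) :
    j * ((F / δ) ^ 9 * ((F / δ) ^ 2 + 9 * (F / δ) + 27)) =
      ((F / δ + 9) * ((F / δ) ^ 3 + 243 * (F / δ) ^ 2 + 2187 * (F / δ) + 6561)) ^ 3 := by
  -- the parameters `W = u₀ v₀`, `V = v₀²`
  obtain ⟨W, hW⟩ : ∃ W, W = o / (u + s) := ⟨_, rfl⟩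
  obtain ⟨V, hV⟩ : ∃ V, V = s - W := ⟨_, rfl⟩
  have ho : o = (u + s) * W := by rw [hW]; field_simp
  have hsV : s = V + W := by rw [hV]; ring
  have hUV : u * V = W ^ 2 := by
    have h1 : (u + s) ^ 2 * (W ^ 2 - u * V) = 0 := by
      rw [hV]
      rw [ho] at hw8
      linear_combination hw8
    rcases mul_eq_zero.mp h1 with h | h
    · exact absurd (pow_eq_zero_iff two_ne_zero |>.mp h) hn
    · exact (sub_eq_zero.mp h).symm
  have hV0 : V ≠ 0 := by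
    intro h0
    rw [h0, mul_zero] at hUV
    have hW0 : W = 0 := by
      have := hUV.symm
      exact pow_eq_zero_iff (two_ne_zero) |>.mp this
    apply hs
    rw [hsV, h0, hW0, add_zero]
  have hu : u = W ^ 2 / V := by
    rw [eq_div_iff hV0]; exact hUV
  have hn' : u + s = (W ^ 2 + W * V + V ^ 2) / V := by
    rw [hu, hsV]; field_simp; ring
  have hE4 : e4 = (W + 2 * V) * (W ^ 3 + 78 * W ^ 2 * V + 84 * W * V ^ 2 + 80 * V ^ 3) / V ^ 2 := by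
    rw [he4, ho, hn', hu, hsV]; field_simp; ring
  have hE6 : e6 = ((W + 2 * V) ^ 6 - 180 * (W + 2 * V) ^ 3 * V * (W ^ 2 + W * V + V ^ 2)
      - 648 * V ^ 2 * (W ^ 2 + W * V + V ^ 2) ^ 2) / V ^ 3 := by
    rw [he6, ho, hn', hu, hsV]; field_simp; ring
  have hD : δ = (W - V) ^ 9 * (W ^ 2 + W * V + V ^ 2) / (3 * V ^ 5) := by
    have h1728 : (1728 : K) ≠ 0 := by norm_num
    apply mul_left_cancel₀ h1728
    rw [hdel, hE4, hE6]; field_simp; ring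
  have hWV : W - V ≠ 0 := by
    intro h0
    apply hδ
    rw [hD, h0]; simp
  have hq : W ^ 2 + W * V + V ^ 2 ≠ 0 := by
    intro h0
    apply hδ
    rw [hD, h0]; simp
  have hFf : F = (W - V) ^ 10 * (W ^ 2 + W * V + V ^ 2) / V ^ 6 := by
    rw [hF, ho, hn', hu]; field_simp; ring
  have ht : F / δ = 3 * (W - V) / V := by
    rw [div_eq_iff hδ, hFf, hD]; field_simp
  have hA : (3 * (W - V) / V + 9) * ((3 * (W - V) / V) ^ 3 + 243 * (3 * (W - V) / V) ^ 2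
      + 2187 * (3 * (W - V) / V) + 6561) = 81 * e4 / V ^ 2 := by
    rw [hE4]; field_simp; ring
  have hQ : (3 * (W - V) / V) ^ 9 * ((3 * (W - V) / V) ^ 2 + 9 * (3 * (W - V) / V) + 27) =
      531441 * δ / V ^ 6 := by
    rw [hD]; field_simp; ring
  rw [ht, hA, hQ]
  field_simp
  linear_combination (531441 : K) * hjd

/-- **`j · Q(t) = P(t)` in `ℚ((q))`.** -/
theorem s18h9f_relQ :
    jq * (s18h9f_tQ ^ 9 * (s18h9f_tQ ^ 2 + 9 * s18h9f_tQ + 27)) =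
      ((s18h9f_tQ + 9) * (s18h9f_tQ ^ 3 + 243 * s18h9f_tQ ^ 2 + 2187 * s18h9f_tQ + 6561)) ^ 3 := by
  haveI : CharZero (LaurentSeries ℚ) :=
    charZero_of_injective_algebraMap (algebraMap ℚ (LaurentSeries ℚ)).injective
  have hs : s18h4_ser s18h9f_SZ ≠ 0 := by
    intro h
    have h1 := s18h9f_ser_coeff s18h9f_SZ 1
    rw [h, s18h9f_SZ, PowerSeries.coeff_mk] at h1
    have h2 : s18h9f_cS 1 = 3 := by decide
    rw [h2] at h1
    norm_num at h1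
  have hn : s18h4_ser s18h9f_UZ + s18h4_ser s18h9f_SZ ≠ 0 := by
    intro h
    have h1 := s18h9f_ser_coeff (s18h9f_UZ + s18h9f_SZ) 0
    rw [map_add, h, map_add, s18h9f_UZ_coeff, s18h9f_SZ, PowerSeries.coeff_mk] at h1
    have h2 : s18h9f_cS 0 = 0 := by decide
    have h3 : s18h9f_cy 0 = 0 := by decide
    rw [h2, h3] at h1
    norm_num at h1
  have h4 := s18h9f_QE_E4.hl isNice_E4
  have h6 := s18h9f_QE_E6.hl isNice_E6
  have hdel := s16c22d_del h4 h6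
  have hjd := s16c22d_jd h4
  have hw8 := congrArg s18h4_ser s18h9f_w8Z
  simp only [map_sub, map_mul, map_pow, map_add] at hw8
  have he4 : s18h4_ser s18h9f_e4Z = s18h4_ser s18h9f_UZ ^ 2
      + 152 * (s18h4_ser s18h9f_UZ * s18h4_ser s18h9f_SZ) + 160 * s18h4_ser s18h9f_SZ ^ 2
      - 72 * s18h4_ser s18h9f_OZ := by
    simp only [s18h9f_e4Z, map_add, map_sub, map_mul, map_pow, s18h9f_ser_C]
    push_cast
    ring
  have he6 : s18h4_ser s18h9f_e6Z = s18h4_ser s18h9f_UZ ^ 3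
      - 996 * (s18h4_ser s18h9f_UZ ^ 2 * s18h4_ser s18h9f_SZ)
      - 3048 * (s18h4_ser s18h9f_UZ * s18h4_ser s18h9f_SZ ^ 2)
      - 2024 * s18h4_ser s18h9f_SZ ^ 3
      + 828 * (s18h4_ser s18h9f_UZ * s18h4_ser s18h9f_OZ)
      + 1368 * (s18h4_ser s18h9f_SZ * s18h4_ser s18h9f_OZ) := by
    simp only [s18h9f_e6Z, map_add, map_sub, map_mul, map_pow, s18h9f_ser_C]
    push_cast
    ring
  have hF : s18h4_ser s18h9f_FZ =
      (s18h4_ser s18h9f_UZ + s18h4_ser s18h9f_SZ) *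
        ((s18h4_ser s18h9f_UZ + s18h4_ser s18h9f_SZ) ^ 5
          + 90 * (s18h4_ser s18h9f_UZ * (s18h4_ser s18h9f_UZ + s18h4_ser s18h9f_SZ) ^ 4)
          + 585 * (s18h4_ser s18h9f_UZ ^ 2 * (s18h4_ser s18h9f_UZ + s18h4_ser s18h9f_SZ) ^ 3)
          - 189 * (s18h4_ser s18h9f_UZ ^ 3 * (s18h4_ser s18h9f_UZ + s18h4_ser s18h9f_SZ) ^ 2)
          - 729 * (s18h4_ser s18h9f_UZ ^ 4 * (s18h4_ser s18h9f_UZ + s18h4_ser s18h9f_SZ))
          + 243 * s18h4_ser s18h9f_UZ ^ 5)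
      + (-15 * (s18h4_ser s18h9f_UZ + s18h4_ser s18h9f_SZ) ^ 4
          - 360 * (s18h4_ser s18h9f_UZ * (s18h4_ser s18h9f_UZ + s18h4_ser s18h9f_SZ) ^ 3)
          - 1053 * (s18h4_ser s18h9f_UZ ^ 2 * (s18h4_ser s18h9f_UZ + s18h4_ser s18h9f_SZ) ^ 2)
          + 162 * (s18h4_ser s18h9f_UZ ^ 3 * (s18h4_ser s18h9f_UZ + s18h4_ser s18h9f_SZ))
          + 243 * s18h4_ser s18h9f_UZ ^ 4) * s18h4_ser s18h9f_OZ := by
    simp only [s18h9f_FZ, s18h9f_AZ, s18h9f_BZ, s18h9f_tmZ, s18h9f_nZ, map_add, map_mul, map_pow,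
      s18h9f_ser_C]
    push_cast
    ring
  have key := s18h9f_alg (s18h4_ser s18h9f_UZ) (s18h4_ser s18h9f_SZ) (s18h4_ser s18h9f_OZ)
    umem_deltaQ jq (s18h4_ser s18h9f_e4Z) (s18h4_ser s18h9f_e6Z) (s18h4_ser s18h9f_FZ)
    hs hn umem_deltaQ_ne_zero hw8 he4 he6 hdel hjd hF
  rw [s18h9f_tQ, ← div_eq_mul_inv]
  exact key

/-! ### The Hauptmodul in `ℤ((q))` -/

/-- The numerator `F ∏ (1 - qⁿ)⁻²⁴ ∈ ℤ⟦q⟧` of `q t`. -/
def s18h9f_w : PowerSeries ℤ := s18h9f_FZ * dedekindEtaUnitInv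

/-- **The Hauptmodul of level `9`**: `t = q⁻¹ - 3 + 5 q² - 7 q⁵ + … ∈ ℤ((q))`. -/
def s18h9f_t : LaurentSeries ℤ :=
  HahnSeries.single (-1 : ℤ) (1 : ℤ) * HahnSeries.ofPowerSeries ℤ ℤ s18h9f_w

theorem s18h9f_constantCoeff_mk (c : ℕ → ℤ) :
    PowerSeries.constantCoeff (PowerSeries.mk c) = c 0 := by
  rw [← PowerSeries.coeff_zero_eq_constantCoeff_apply, PowerSeries.coeff_mk]

theorem s18h9f_constantCoeff_FZ : PowerSeries.constantCoeff s18h9f_FZ = 1 := by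
  have hS : PowerSeries.constantCoeff s18h9f_SZ = 0 := by
    rw [s18h9f_SZ, s18h9f_constantCoeff_mk]; decide
  have hy : PowerSeries.constantCoeff s18h9f_yZ = 0 := by
    rw [s18h9f_yZ, s18h9f_constantCoeff_mk]; decide
  have hT : PowerSeries.constantCoeff s18h9f_TZ = 0 := by
    rw [s18h9f_TZ, s18h9f_constantCoeff_mk]; decide
  have hU : PowerSeries.constantCoeff s18h9f_UZ = 1 := by
    rw [s18h9f_UZ, map_add, map_mul, hy]; simp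
  have hO : PowerSeries.constantCoeff s18h9f_OZ = 0 := by
    rw [s18h9f_OZ, map_add, map_sub, map_sub, map_mul, map_mul, map_mul, map_pow, hy, hT, hS]
    simp
  simp only [s18h9f_FZ, s18h9f_AZ, s18h9f_BZ, s18h9f_tmZ, s18h9f_nZ, map_add, map_mul, map_pow,
    hU, hS, hO, PowerSeries.constantCoeff_C]
  norm_num

theorem s18h9f_constantCoeff_w : PowerSeries.constantCoeff s18h9f_w = 1 := by
  rw [s18h9f_w, map_mul, s18h9f_constantCoeff_FZ, constantCoeff_dedekindEtaUnitInv, mul_one]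

theorem s18h9f_t_coeff_neg_one : s18h9f_t.coeff (-1) = 1 := by
  rw [s18h9f_t, HahnSeries.coeff_single_mul, one_mul, sub_neg_eq_add, neg_add_cancel,
    show (0 : ℤ) = ((0 : ℕ) : ℤ) from rfl, HahnSeries.ofPowerSeries_apply_coeff,
    PowerSeries.coeff_zero_eq_constantCoeff, s18h9f_constantCoeff_w]

theorem s18h9f_t_coeff_of_lt {k : ℤ} (hk : k < -1) : s18h9f_t.coeff k = 0 := by
  rw [s18h9f_t, HahnSeries.coeff_single_mul, one_mul]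
  exact ofPowerSeries_coeff_of_neg _ (by omega)

theorem s18h9f_t_order : s18h9f_t.order = -1 := by
  have hne : s18h9f_t ≠ 0 := by
    intro h
    have := s18h9f_t_coeff_neg_one
    rw [h] at this
    simp at this
  apply le_antisymm
  · exact HahnSeries.order_le_of_coeff_ne_zero (by rw [s18h9f_t_coeff_neg_one]; exact one_ne_zero)
  · by_contra hlt
    rw [not_le] at hlt
    exact hne (HahnSeries.coeff_order_eq_zero.mp (s18h9f_t_coeff_of_lt hlt))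

theorem s18h9f_coeffMap_t : coeffMap (Int.castRingHom ℚ) s18h9f_t = s18h9f_tQ := by
  have h1 : s18h9f_t = HahnSeries.ofPowerSeries ℤ ℤ s18h9f_FZ * s16f_deltaInvZ := by
    rw [s18h9f_t, s16f_deltaInvZ, s18h9f_w, map_mul]
    ring
  rw [h1, map_mul, ← s16f_deltaQ_inv, s18h9f_tQ, s18h4_ser_apply]

/-- **`j · Q(t) = P(t)` in `ℤ((q))`.** -/
theorem s18h9f_rel :
    jqModC ℤ * (s18h9f_t ^ 9 * (s18h9f_t ^ 2 + 9 * s18h9f_t + 27)) =
      ((s18h9f_t + 9) * (s18h9f_t ^ 3 + 243 * s18h9f_t ^ 2 + 2187 * s18h9f_t + 6561)) ^ 3 := by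
  apply s18h4_coeffMap_injective
  have hj : coeffMap (Int.castRingHom ℚ) (jqModC ℤ) = jq := by
    rw [← jqModC_rat]
    exact (jqModC_eq_map_intCast ℚ).symm
  simp only [map_mul, map_pow, map_add, map_ofNat, hj, s18h9f_coeffMap_t]
  exact s18h9f_relQ

/-- **[HAUPT-9]** -/
theorem s18h9f_main : s18_Haupt9Statement := fun ℓ _ hℓ =>
  s18h9p_of' s18h9f_t (by rw [s18h9f_coeffMap_t]; exact s18h9f_tQ_mem) s18h9f_t_order
    s18h9f_t_coeff_neg_one s18h9f_rel ℓ hℓ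

end Fermat.Agent.S18
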