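/-
S18, package (I2) [GRADE] (helper16), part 2: integrality of the degree-`0` component.
Prefix `s18gr_`.

* `s18gr_int_map`, `s18gr_int_descend`, `s18gr_int_sum`, `s18gr_int_trans` : the calculus of
  `RingHom.IsIntegralElem`;
* `s18gr_key` : if `y ∈ K((q))` is integral over a ring `R₁ → K((q))` which is integral over a
  ring `R₀ → K((q))` of series in `q^M` (`M` invertible in `R₀`), then the part of `y` with
  exponents in `M ℤ` is integral over `R₀`.
-/
import Mathlib
import Fermat.Agent.S18.GradeSeries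

set_option autoImplicit false
set_option maxHeartbeats 1000000

open ModularCurve

noncomputable section

namespace Fermat.Agent.S18

section Calculus

variable {R A B : Type*} [CommRing R] [CommRing A] [CommRing B]

theorem s18gr_int_map (f : R →+* A) (g : A →+* B) {y : A} (h : f.IsIntegralElem y) :
    (g.comp f).IsIntegralElem (g y) := by
  obtain ⟨p, hp, hpy⟩ := h
  refine ⟨p, hp, ?_⟩
  rw [← Polynomial.hom_eval₂, hpy, map_zero]

theorem s18gr_int_descend (f : R →+* A) (g : A →+* B) (hg : Function.Injective g) {y : A}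
    (h : (g.comp f).IsIntegralElem (g y)) : f.IsIntegralElem y := by
  obtain ⟨p, hp, hpy⟩ := h
  refine ⟨p, hp, ?_⟩
  apply hg
  rw [Polynomial.hom_eval₂, hpy, map_zero]

theorem s18gr_int_sum {ι : Type*} (f : R →+* A) (s : Finset ι) (z : ι → A)
    (hz : ∀ a ∈ s, f.IsIntegralElem (z a)) : f.IsIntegralElem (∑ a ∈ s, z a) := by
  classical
  induction s using Finset.induction_on with
  | empty => simpa using f.isIntegralElem_zero
  | insert a s ha ih =>
    rw [Finset.sum_insert ha]
    exact RingHom.IsIntegralElem.add f (hz a (Finset.mem_insert_self a s))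
      (ih fun b hb => hz b (Finset.mem_insert_of_mem hb))

theorem s18gr_int_trans {R₀ R₁ : Type*} [CommRing R₀] [CommRing R₁] (f₀ : R₀ →+* A)
    (f₁ : R₁ →+* A) (h : ∀ r, f₀.IsIntegralElem (f₁ r)) {y : A} (hy : f₁.IsIntegralElem y) :
    f₀.IsIntegralElem y := by
  letI : Algebra R₀ A := f₀.toAlgebra
  obtain ⟨p, hp, hpy⟩ := hy
  let f₁' : R₁ →+* ↥(integralClosure R₀ A) :=
    f₁.codRestrict (integralClosure R₀ A).toSubring (fun r => h r)
  have h1 : IsIntegral ↥(integralClosure R₀ A) y := by
    refine ⟨p.map f₁', hp.map _, ?_⟩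
    rw [Polynomial.eval₂_map]
    have : (algebraMap ↥(integralClosure R₀ A) A).comp f₁' = f₁ := by
      ext r
      rfl
    rw [this, hpy]
  exact isIntegral_trans (R := R₀) (A := ↥(integralClosure R₀ A)) y h1

end Calculus

section Key

variable {K : Type} [Field K] [CharZero K] (M : ℕ) [NeZero M]

theorem s18gr_coeffMap_injective {R S : Type*} [CommRing R] [CommRing S] (f : R →+* S)
    (hf : Function.Injective f) : Function.Injective (coeffMap f) := by
  intro x y hxy
  ext k
  apply hf
  have := congrArg (fun z => HahnSeries.coeff z k) hxy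
  simpa using this

/-- **The degree-`0` component of an integral element is integral.** -/
theorem s18gr_key {R₀ R₁ : Type*} [CommRing R₀] [CommRing R₁]
    (f₀ : R₀ →+* LaurentSeries K) (f₁ : R₁ →+* LaurentSeries K)
    (h0 : ∀ r, s18gr_IsCl M 0 (f₀ r))
    (hM : ∃ m : R₀, f₀ m * HahnSeries.C (M : K) = 1)
    (h1 : ∀ r, f₀.IsIntegralElem (f₁ r)) {y : LaurentSeries K} (hy : f₁.IsIntegralElem y) :
    f₀.IsIntegralElem (s18gr_pr M y) := by
  have hy0 : f₀.IsIntegralElem y := s18gr_int_trans f₀ f₁ h1 hy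
  -- pass to the algebraic closure
  let K' := AlgebraicClosure K
  let c : LaurentSeries K →+* LaurentSeries K' := coeffMap (algebraMap K K')
  have hc : Function.Injective c :=
    s18gr_coeffMap_injective _ (algebraMap K K').injective
  obtain ⟨ζ₀, hζ₀⟩ := HasEnoughRootsOfUnity.exists_primitiveRoot K' M
  have hζ₀u : IsUnit ζ₀ := hζ₀.isUnit (NeZero.ne M)
  obtain ⟨ζ, rfl⟩ := hζ₀u
  have hζ : IsPrimitiveRoot ζ M := by
    rw [← IsPrimitiveRoot.coe_units_iff]
    exact hζ₀
  have hcy : (c.comp f₀).IsIntegralElem (c y) := s18gr_int_map f₀ c hy0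
  have hk : ∀ k ∈ Finset.range M, (c.comp f₀).IsIntegralElem (s18gr_tau (ζ ^ k) (c y)) := by
    intro k _
    have h2 := s18gr_int_map (c.comp f₀) (s18gr_tau (ζ ^ k)) hcy
    have h3 : (s18gr_tau (ζ ^ k)).comp (c.comp f₀) = c.comp f₀ := by
      ext1 r
      show s18gr_tau (ζ ^ k) (c (f₀ r)) = c (f₀ r)
      refine s18gr_tau_of_isCl (M := M) ?_ (s18gr_isCl_coeffMap _ (h0 r))
      rw [← pow_mul, mul_comm, pow_mul, hζ.pow_eq_one, one_pow]
    rwa [h3] at h2
  have hsum := s18gr_int_sum (c.comp f₀) (Finset.range M) _ hk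
  rw [s18gr_sum_tau hζ] at hsum
  have e1 : HahnSeries.C ((M : ℕ) : K') * s18gr_pr M (c y) =
      c (HahnSeries.C (M : K) * s18gr_pr M y) := by
    rw [map_mul]
    congr 1
    · show _ = coeffMap (algebraMap K K') (HahnSeries.C (M : K))
      rw [show (HahnSeries.C (M : K) : LaurentSeries K) = HahnSeries.single 0 (M : K) from rfl,
        coeffMap_single, map_natCast]
      rfl
    · exact s18gr_pr_coeffMap _ _
  rw [e1] at hsum
  have h4 : f₀.IsIntegralElem (HahnSeries.C (M : K) * s18gr_pr M y) :=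
    s18gr_int_descend f₀ c hc hsum
  obtain ⟨m, hm⟩ := hM
  have h5 : s18gr_pr M y = f₀ m * (HahnSeries.C (M : K) * s18gr_pr M y) := by
    rw [← mul_assoc, hm, one_mul]
  rw [h5]
  exact RingHom.IsIntegralElem.mul f₀ f₀.isIntegralElem_map h4

end Key

end Fermat.Agent.S18
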