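/-
S18, package (I2) [GRADE] (helper16), part 3: the field `F'' = θ(F)(σ)`.
Prefix `s18gr_`.

* `s18gr_sigK_pow`    : `σ^M = θ(1/j)`;
* `s18gr_exists_poly` : every element of `F''` is a polynomial in `σ` with coefficients in
                        `θ(F)`;
* `s18gr_pr_mem`      : the part of `y ∈ F''` with exponents in `M ℤ` lies in `θ(F)`;
* `s18gr_F_le`        : `F_K(M) ≤ T` as soon as `T` contains the generators `j(q^d)`;
* `s18gr_fracField`   : the field of fractions, inside `K((q))`, of a subring of `K((q))`.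
-/
import Mathlib
import Fermat.Agent.S18.GradeInt

set_option autoImplicit false
set_option maxHeartbeats 1000000

open AlgebraicCurve ModularCurve IntermediateField

noncomputable section

namespace Fermat.Agent.S18

section Sigma

variable {O : Type} [CommRing O] {M : ℕ} [NeZero M] {σ : LaurentSeries O}

theorem s18gr_isCl_sig {S : Type*} [CommRing S] (f : O →+* S) (hσ : s18_IsSigma O M σ) :
    s18gr_IsCl M 1 (coeffMap f σ) := by
  intro k hk
  by_contra h
  apply hk
  rw [coeffMap_coeff, hσ.2.2 k (Or.inr h), map_zero]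

theorem s18gr_sig_coeff_one {S : Type*} [CommRing S] (f : O →+* S) (hσ : s18_IsSigma O M σ) :
    (coeffMap f σ).coeff 1 = 1 := by
  rw [coeffMap_coeff, hσ.2.1, map_one]

theorem s18gr_sig_ne_zero {S : Type*} [CommRing S] [Nontrivial S] (f : O →+* S)
    (hσ : s18_IsSigma O M σ) : coeffMap f σ ≠ 0 := by
  intro h
  have := s18gr_sig_coeff_one f hσ
  rw [h, HahnSeries.coeff_zero] at this
  exact zero_ne_one this

theorem s18gr_sig_mul {S : Type*} [CommRing S] (f : O →+* S) (hσ : s18_IsSigma O M σ) :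
    coeffMap f σ ^ M * qExpand S M (jqModC S) = 1 := by
  have := congrArg (coeffMap f) hσ.1
  rwa [map_mul, map_pow, coeffMap_qExpand, coeffMap_jqModC, map_one] at this

theorem s18gr_sig_pow {k : Type*} [Field k] (f : O →+* k) (hσ : s18_IsSigma O M σ) :
    coeffMap f σ ^ M = qExpand k M (jqModC k)⁻¹ := by
  rw [map_inv₀]
  exact eq_inv_of_mul_eq_one_left (s18gr_sig_mul f hσ)

theorem s18gr_sig_order {k : Type*} [Field k] (f : O →+* k) (hσ : s18_IsSigma O M σ) :
    (coeffMap f σ).order = 1 := by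
  have hne := s18gr_sig_ne_zero f hσ
  apply le_antisymm
  · exact HahnSeries.order_le_of_coeff_ne_zero
      (by rw [s18gr_sig_coeff_one f hσ]; exact one_ne_zero)
  · by_contra h
    have h1 : (coeffMap f σ).order < 1 := not_le.1 h
    apply hne
    rw [← HahnSeries.coeff_order_eq_zero, coeffMap_coeff, hσ.2.2 _ (Or.inl h1), map_zero]

end Sigma

section Field

variable (O K : Type) [CommRing O] [Field K] [CharZero K] [Algebra O K] (M : ℕ) [NeZero M]
  (σ : LaurentSeries O)

/-- `θ(F)`. -/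
abbrev s18gr_L : IntermediateField K (LaurentSeries K) :=
  (s18_F K M).map (qExpandAlgHomC K M)

theorem s18gr_Fpp_eq :
    s18_Fpp O K M σ = s18gr_L K M ⊔ K⟮coeffMap (algebraMap O K) σ⟯ := rfl

theorem s18gr_mem_L {w : LaurentSeries K} :
    w ∈ s18gr_L K M ↔ ∃ f ∈ s18_F K M, qExpand K M f = w := Iff.rfl

theorem s18gr_isCl_of_mem_L {w : LaurentSeries K} (hw : w ∈ s18gr_L K M) :
    s18gr_IsCl M 0 w := by
  obtain ⟨f, -, rfl⟩ := hw
  exact s18gr_isCl_qExpand f

theorem s18gr_jK_mem : jqModC K ∈ s18_F K M := by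
  have h := (s18_j K M).2
  have e : ((s18_j K M : ↥(s18_F K M)) : LaurentSeries K) = jqModC K := by
    show coeffEmb K jq = jqModC K
    rw [← jqModC_rat]
    exact coeffMap_jqModC _
  rwa [e] at h

theorem s18gr_j_coe : ((s18_j K M : ↥(s18_F K M)) : LaurentSeries K) = jqModC K := by
  show coeffEmb K jq = jqModC K
  rw [← jqModC_rat]
  exact coeffMap_jqModC _

variable {O K M σ}

theorem s18gr_sigK_pow_mem (hσ : s18_IsSigma O M σ) (k : ℕ) :
    (coeffMap (algebraMap O K) σ ^ M) ^ k ∈ s18gr_L K M := by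
  have h1 : coeffMap (algebraMap O K) σ ^ M ∈ s18gr_L K M := by
    rw [s18gr_sig_pow _ hσ]
    exact ⟨(jqModC K)⁻¹, (s18_F K M).inv_mem (s18gr_jK_mem K M), rfl⟩
  exact (s18gr_L K M).pow_mem h1 k

/-- Every element of `F''` is a polynomial in `σ` with coefficients in `θ(F)`. -/
theorem s18gr_exists_poly (hσ : s18_IsSigma O M σ) {y : LaurentSeries K}
    (hy : y ∈ s18_Fpp O K M σ) :
    ∃ (N : ℕ) (a : ℕ → LaurentSeries K), (∀ k, a k ∈ s18gr_L K M) ∧
      y = ∑ k ∈ Finset.range N, a k * coeffMap (algebraMap O K) σ ^ k := by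
  set s := coeffMap (algebraMap O K) σ with hs
  have hint : IsIntegral ↥(s18gr_L K M) s := by
    refine ⟨Polynomial.X ^ M - Polynomial.C ⟨s ^ M, by simpa using s18gr_sigK_pow_mem hσ 1⟩,
      Polynomial.monic_X_pow_sub_C _ (NeZero.ne M), ?_⟩
    rw [Polynomial.eval₂_sub, Polynomial.eval₂_pow, Polynomial.eval₂_X, Polynomial.eval₂_C]
    exact sub_self _
  have h1 : y ∈ (IntermediateField.adjoin ↥(s18gr_L K M) ({s} : Set (LaurentSeries K))) := by
    have h2 : s18_Fpp O K M σ =
        (IntermediateField.adjoin ↥(s18gr_L K M)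
          ({s} : Set (LaurentSeries K))).restrictScalars K := by
      rw [IntermediateField.restrictScalars_adjoin_eq_sup]
      rfl
    rw [h2] at hy
    exact hy
  have h3 : y ∈ Algebra.adjoin ↥(s18gr_L K M) ({s} : Set (LaurentSeries K)) := by
    rw [← IntermediateField.adjoin_simple_toSubalgebra_of_isAlgebraic hint.isAlgebraic]
    exact h1
  rw [Algebra.adjoin_singleton_eq_range_aeval] at h3
  obtain ⟨p, rfl⟩ := h3
  refine ⟨p.natDegree + 1, fun k => ((p.coeff k : ↥(s18gr_L K M)) : LaurentSeries K),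
    fun k => (p.coeff k).2, ?_⟩
  show Polynomial.aeval s p = _
  rw [Polynomial.aeval_eq_sum_range]
  refine Finset.sum_congr rfl (fun k _ => ?_)
  rw [Algebra.smul_def]
  rfl

theorem s18gr_pr_sig_pow (hσ : s18_IsSigma O M σ) (k : ℕ) :
    s18gr_pr M (coeffMap (algebraMap O K) σ ^ k) ∈ s18gr_L K M := by
  have hcl := s18gr_isCl_pow (s18gr_isCl_sig (algebraMap O K) hσ) k
  rw [mul_one] at hcl
  by_cases h : (M : ℤ) ∣ (k : ℤ)
  · rw [s18gr_pr_of_isCl (s18gr_isCl_congr (by simpa using h) hcl)]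
    obtain ⟨m, hm⟩ := Int.natCast_dvd_natCast.mp h
    rw [hm, pow_mul]
    exact s18gr_sigK_pow_mem hσ m
  · rw [s18gr_pr_eq_zero hcl h]
    exact zero_mem _

/-- The part of `y ∈ F''` with exponents in `M ℤ` lies in `θ(F)`. -/
theorem s18gr_pr_mem (hσ : s18_IsSigma O M σ) {y : LaurentSeries K}
    (hy : y ∈ s18_Fpp O K M σ) : s18gr_pr M y ∈ s18gr_L K M := by
  obtain ⟨N, a, ha, rfl⟩ := s18gr_exists_poly hσ hy
  rw [s18gr_pr_sum]
  refine sum_mem (fun k _ => ?_)
  rw [s18gr_pr_mul (s18gr_isCl_of_mem_L K M (ha k))]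
  exact mul_mem (ha k) (s18gr_pr_sig_pow hσ k)

end Field

section Gen

variable (K : Type) [Field K] [CharZero K] (M : ℕ) [NeZero M]

theorem s18gr_coeffEmb_gen (d : ℕ) [NeZero d] :
    coeffEmb K (qExpand ℚ d jq) = qExpand K d (jqModC K) := by
  rw [coeffEmb, coeffMap_qExpand, ← jqModC_rat, coeffMap_jqModC]

theorem s18gr_coeffEmb_algebraMap (r : ℚ) :
    coeffEmb K (algebraMap ℚ (LaurentSeries ℚ) r) =
      algebraMap K (LaurentSeries K) (algebraMap ℚ K r) := by
  rw [algebraMap_laurentSeries_eq_single, algebraMap_laurentSeries_eq_single, coeffEmb,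
    coeffMap_single]

/-- `F_K(M) ≤ T` as soon as `T` contains the generators. -/
theorem s18gr_F_le (T : IntermediateField K (LaurentSeries K))
    (h : ∀ (d : ℕ) [NeZero d], d ∣ M → qExpand K d (jqModC K) ∈ T) : s18_F K M ≤ T := by
  show laurentBaseChange K (modularFunctionFieldFull M) ≤ T
  rw [laurentBaseChange, IntermediateField.adjoin_le_iff]
  rintro _ ⟨x, hx, rfl⟩
  have hx' : x ∈ IntermediateField.adjoin ℚ (divisorExpansions M) := hx
  clear hx
  induction hx' using IntermediateField.adjoin_induction with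
  | mem y hy =>
    obtain ⟨d, hd, hdM, rfl⟩ := hy
    rw [s18gr_coeffEmb_gen]
    exact h d hdM
  | algebraMap r =>
    rw [s18gr_coeffEmb_algebraMap]
    exact T.algebraMap_mem _
  | add x y _ _ hx hy =>
    rw [map_add]
    exact add_mem hx hy
  | inv x _ hx =>
    rw [map_inv₀]
    exact inv_mem hx
  | mul x y _ _ hx hy =>
    rw [map_mul]
    exact mul_mem hx hy

end Gen

section Frac

variable {K : Type} [Field K]

/-- The field of fractions, inside `K((q))`, of a subring `J`. -/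
def s18gr_fracField (J : Subring (LaurentSeries K))
    (hJ : ∀ c : K, ∃ a ∈ J, ∃ b ∈ J, b ≠ 0 ∧ algebraMap K (LaurentSeries K) c * b = a) :
    IntermediateField K (LaurentSeries K) :=
  Subfield.toIntermediateField
    { carrier := {z | ∃ a ∈ J, ∃ b ∈ J, b ≠ 0 ∧ z * b = a}
      mul_mem' := by
        rintro x y ⟨a, ha, b, hb, hb0, h⟩ ⟨a', ha', b', hb', hb0', h'⟩
        exact ⟨a * a', mul_mem ha ha', b * b', mul_mem hb hb', mul_ne_zero hb0 hb0',
          by rw [← h, ← h']; ring⟩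
      one_mem' := ⟨1, one_mem _, 1, one_mem _, one_ne_zero, by ring⟩
      add_mem' := by
        rintro x y ⟨a, ha, b, hb, hb0, h⟩ ⟨a', ha', b', hb', hb0', h'⟩
        exact ⟨a * b' + a' * b, add_mem (mul_mem ha hb') (mul_mem ha' hb), b * b',
          mul_mem hb hb', mul_ne_zero hb0 hb0', by rw [← h, ← h']; ring⟩
      zero_mem' := ⟨0, zero_mem _, 1, one_mem _, one_ne_zero, by ring⟩
      neg_mem' := by
        rintro x ⟨a, ha, b, hb, hb0, h⟩
        exact ⟨-a, neg_mem ha, b, hb, hb0, by rw [← h]; ring⟩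
      inv_mem' := by
        rintro x ⟨a, ha, b, hb, hb0, h⟩
        by_cases hx : x = 0
        · exact ⟨0, zero_mem _, 1, one_mem _, one_ne_zero, by rw [hx]; simp⟩
        · have ha0 : a ≠ 0 := by rw [← h]; exact mul_ne_zero hx hb0
          exact ⟨b, hb, a, ha, ha0, by rw [← h, ← mul_assoc, inv_mul_cancel₀ hx, one_mul]⟩ }
    (fun c => hJ c)

theorem s18gr_mem_fracField {J : Subring (LaurentSeries K)}
    {hJ : ∀ c : K, ∃ a ∈ J, ∃ b ∈ J, b ≠ 0 ∧ algebraMap K (LaurentSeries K) c * b = a}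
    {z : LaurentSeries K} :
    z ∈ s18gr_fracField J hJ ↔ ∃ a ∈ J, ∃ b ∈ J, b ≠ 0 ∧ z * b = a := Iff.rfl

theorem s18gr_le_fracField {J : Subring (LaurentSeries K)}
    {hJ : ∀ c : K, ∃ a ∈ J, ∃ b ∈ J, b ≠ 0 ∧ algebraMap K (LaurentSeries K) c * b = a}
    {z : LaurentSeries K} (hz : z ∈ J) : z ∈ s18gr_fracField J hJ :=
  ⟨z, hz, 1, one_mem _, one_ne_zero, mul_one z⟩

end Frac

end Fermat.Agent.S18
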