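/-
S18, package (I2) [GRADE] (helper16), part 4: the calculus of a reduction datum
`ρ : chart → κ((q))` (the two clauses of `s18_HasRedF`).
Prefix `s18gr_`.

* `s18gr_exists_div`   : a series with zero reduction is divisible by `ϖ`;
* `s18gr_exists_strip` : a non-zero series is `ϖ^k ·` a series with non-zero reduction;
* `s18gr_red_int`      : `ρ` is the coefficientwise reduction on the integral series of the chart;
* `s18gr_red_div`      : if `ϖ^k u` lies in the chart (`u` an integral series), so does `u`;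
* `s18gr_red_isInt`    : if `x` lies in the chart and `ϖ^k x` is an integral series, so is `x`.
-/
import Mathlib
import Fermat.Agent.S18.GradeField

set_option autoImplicit false
set_option maxHeartbeats 1000000
set_option linter.unusedSectionVars false
set_option linter.style.haveILetI false

open AlgebraicCurve ModularCurve IntermediateField

noncomputable section

namespace Fermat.Agent.S18

section Strip

variable {O : Type} [CommRing O] [IsDomain O] [IsDiscreteValuationRing O]

theorem s18gr_C_mul_coeff {R : Type*} [CommRing R] (c : R) (a : LaurentSeries R) (k : ℤ) :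
    (HahnSeries.C c * a).coeff k = c * a.coeff k := by
  rw [HahnSeries.C_mul_eq_smul, HahnSeries.coeff_smul, smul_eq_mul]

theorem s18gr_coeffMap_C {R S : Type*} [CommRing R] [CommRing S] (f : R →+* S) (c : R) :
    coeffMap f (HahnSeries.C c) = HahnSeries.C (f c) := by
  show coeffMap f (HahnSeries.single 0 c) = HahnSeries.single 0 (f c)
  exact coeffMap_single f 0 c

/-- A series with zero reduction is divisible by `ϖ`. -/
theorem s18gr_exists_div {ϖ : O} (hϖ : Irreducible ϖ) (a : LaurentSeries O)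
    (ha : coeffMap (IsLocalRing.residue O) a = 0) :
    ∃ a' : LaurentSeries O, a = HahnSeries.C ϖ * a' := by
  have h : ∀ k : ℤ, ∃ c : O, a.coeff k = ϖ * c := by
    intro k
    have h1 : IsLocalRing.residue O (a.coeff k) = 0 := by
      have := congrArg (fun z => HahnSeries.coeff z k) ha
      simpa using this
    rw [IsLocalRing.residue_eq_zero_iff, hϖ.maximalIdeal_eq, Ideal.mem_span_singleton] at h1
    exact h1
  choose c hc using h
  have hsupp : Function.support c ⊆ a.support := by
    intro k hk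
    rw [Function.mem_support] at hk
    rw [HahnSeries.mem_support, hc k]
    exact mul_ne_zero hϖ.ne_zero hk
  refine ⟨⟨c, a.isPWO_support.mono hsupp⟩, ?_⟩
  ext k
  rw [s18gr_C_mul_coeff]
  exact hc k

/-- A non-zero series is `ϖ^k ·` a series with non-zero reduction. -/
theorem s18gr_exists_strip {ϖ : O} (hϖ : Irreducible ϖ) (a : LaurentSeries O) (ha : a ≠ 0) :
    ∃ (k : ℕ) (a' : LaurentSeries O), a = HahnSeries.C ϖ ^ k * a' ∧
      coeffMap (IsLocalRing.residue O) a' ≠ 0 := by
  obtain ⟨k₀, hk₀⟩ : ∃ k₀ : ℤ, a.coeff k₀ ≠ 0 := by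
    by_contra h
    apply ha
    ext k
    by_contra h'
    exact h ⟨k, h'⟩
  obtain ⟨m, u, hu⟩ := IsDiscreteValuationRing.eq_unit_mul_pow_irreducible hk₀ hϖ
  clear hk₀ ha
  induction m generalizing a with
  | zero =>
    refine ⟨0, a, by rw [pow_zero, one_mul], ?_⟩
    intro h
    have h1 : IsLocalRing.residue O (a.coeff k₀) = 0 := by
      have := congrArg (fun z => HahnSeries.coeff z k₀) h
      simpa using this
    rw [hu, pow_zero, mul_one, IsLocalRing.residue_eq_zero_iff] at h1
    exact (IsLocalRing.mem_maximalIdeal _).mp h1 u.isUnit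
  | succ m ih =>
    by_cases h : coeffMap (IsLocalRing.residue O) a = 0
    · obtain ⟨a₁, ha₁⟩ := s18gr_exists_div hϖ a h
      have h2 : a₁.coeff k₀ = ↑u * ϖ ^ m := by
        have h3 : a.coeff k₀ = ϖ * a₁.coeff k₀ := by rw [ha₁, s18gr_C_mul_coeff]
        rw [hu, pow_succ] at h3
        have h4 : ϖ * (↑u * ϖ ^ m) = ϖ * a₁.coeff k₀ := by rw [← h3]; ring
        exact (mul_left_cancel₀ hϖ.ne_zero h4).symm
      obtain ⟨k, a', hk, ha'⟩ := ih a₁ h2
      exact ⟨k + 1, a', by rw [ha₁, hk, pow_succ]; ring, ha'⟩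
    · exact ⟨0, a, by rw [pow_zero, one_mul], h⟩

end Strip

section Red

variable (O K : Type) [CommRing O] [IsDomain O] [IsDiscreteValuationRing O] [Field K]
  [Algebra O K] [IsFractionRing O K]
  (F : IntermediateField K (LaurentSeries K))

/-- the image of `O` in `F ⊆ K((q))` -/
theorem s18gr_algebraMap_coe (o : O) :
    letI := s18_algOFF O K F
    ((algebraMap O ↥F o : ↥F) : LaurentSeries K) =
      coeffMap (algebraMap O K) (HahnSeries.C o) := by
  letI := s18_algOFF O K F
  rw [s18gr_coeffMap_C]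
  show algebraMap K (LaurentSeries K) (algebraMap O K o) = _
  rw [algebraMap_laurentSeries_eq_single]
  rfl

theorem s18gr_coeffMap_inj : Function.Injective (coeffMap (algebraMap O K)) :=
  s18gr_coeffMap_injective _ (IsFractionRing.injective O K)

variable {O K F}

/-- the hypotheses on a reduction datum -/
structure s18gr_IsRed (S : Set ↥F)
    (ρ : letI := s18_algOFF O K F
      ↥(s18_chart O S) →+* LaurentSeries (IsLocalRing.ResidueField O)) : Prop where
  ker : letI := s18_algOFF O K F
    ∀ b, ρ b = 0 → b ∈ s18_fibreIdeal O S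
  compat : letI := s18_algOFF O K F
    ∀ (b b' : ↥(s18_chart O S)) (a : LaurentSeries O),
      ((b' : ↥F) : LaurentSeries K) =
          coeffMap (algebraMap O K) a * ((b : ↥F) : LaurentSeries K) →
        ρ b' = coeffMap (IsLocalRing.residue O) a * ρ b

section

variable {S : Set ↥F}
  {ρ : letI := s18_algOFF O K F
    ↥(s18_chart O S) →+* LaurentSeries (IsLocalRing.ResidueField O)}

/-- `ρ` is the coefficientwise reduction on the integral series of the chart. -/
theorem s18gr_red_int (hρ : s18gr_IsRed S ρ) :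
    letI := s18_algOFF O K F
    ∀ (b : ↥(s18_chart O S)) (a : LaurentSeries O),
      ((b : ↥F) : LaurentSeries K) = coeffMap (algebraMap O K) a →
      ρ b = coeffMap (IsLocalRing.residue O) a := by
  letI := s18_algOFF O K F
  intro b a h
  have := hρ.compat 1 b a (by rw [h]; simp)
  rw [this, map_one, mul_one]

theorem s18gr_red_uniformizer (hρ : s18gr_IsRed S ρ) {ϖ : O} (hϖ : Irreducible ϖ) :
    letI := s18_algOFF O K F
    ρ (algebraMap O ↥(s18_chart O S) ϖ) = 0 := by
  letI := s18_algOFF O K F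
  have h := s18gr_red_int hρ (algebraMap O ↥(s18_chart O S) ϖ) (HahnSeries.C ϖ)
    (s18gr_algebraMap_coe O K F ϖ)
  rw [h, s18gr_coeffMap_C]
  have : IsLocalRing.residue O ϖ = 0 := by
    rw [IsLocalRing.residue_eq_zero_iff]
    exact hϖ.not_isUnit
  rw [this, map_zero]

theorem s18gr_mem_fibre {ϖ : O} (hϖ : Irreducible ϖ) :
    letI := s18_algOFF O K F
    ∀ b : ↥(s18_chart O S), b ∈ s18_fibreIdeal O S →
      ∃ b' : ↥(s18_chart O S), b = algebraMap O ↥(s18_chart O S) ϖ * b' := by
  letI := s18_algOFF O K F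
  intro b hb
  rw [s18_fibreIdeal, hϖ.maximalIdeal_eq, Ideal.map_span, Set.image_singleton,
    Ideal.mem_span_singleton] at hb
  exact hb

theorem s18gr_pi_ne_zero {ϖ : O} (hϖ : Irreducible ϖ) :
    coeffMap (algebraMap O K) (HahnSeries.C ϖ) ≠ 0 := by
  intro h
  have := s18gr_coeffMap_inj O K (h.trans (map_zero _).symm)
  have h2 : (HahnSeries.C ϖ : LaurentSeries O).coeff 0 = 0 := by rw [this]; rfl
  have h3 : (HahnSeries.C ϖ : LaurentSeries O).coeff 0 = ϖ :=
    HahnSeries.coeff_single_same 0 ϖ
  exact hϖ.ne_zero (h3.symm.trans h2)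

/-- If `ϖ u` lies in the chart (`u` an integral series), so does `u`. -/
theorem s18gr_red_div_one (hρ : s18gr_IsRed S ρ) {ϖ : O} (hϖ : Irreducible ϖ) :
    letI := s18_algOFF O K F
    ∀ (x : ↥(s18_chart O S)) (u : LaurentSeries O),
      ((x : ↥F) : LaurentSeries K) = coeffMap (algebraMap O K) (HahnSeries.C ϖ * u) →
      ∃ x' : ↥(s18_chart O S), ((x' : ↥F) : LaurentSeries K) = coeffMap (algebraMap O K) u := by
  letI := s18_algOFF O K F
  intro x u hx
  have h1 : ρ x = 0 := by
    rw [s18gr_red_int hρ x _ hx, map_mul, s18gr_coeffMap_C]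
    have : IsLocalRing.residue O ϖ = 0 := by
      rw [IsLocalRing.residue_eq_zero_iff]
      exact hϖ.not_isUnit
    rw [this, map_zero, zero_mul]
  obtain ⟨x', hx'⟩ := s18gr_mem_fibre hϖ x (hρ.ker x h1)
  refine ⟨x', ?_⟩
  have h2 : ((x : ↥F) : LaurentSeries K) =
      coeffMap (algebraMap O K) (HahnSeries.C ϖ) * ((x' : ↥F) : LaurentSeries K) := by
    rw [hx', ← s18gr_algebraMap_coe O K F ϖ]
    rfl
  rw [hx, map_mul] at h2
  exact (mul_left_cancel₀ (s18gr_pi_ne_zero hϖ) h2).symm

/-- If `ϖ^k u` lies in the chart (`u` an integral series), so does `u`. -/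
theorem s18gr_red_div (hρ : s18gr_IsRed S ρ) {ϖ : O} (hϖ : Irreducible ϖ) (k : ℕ) :
    letI := s18_algOFF O K F
    ∀ (x : ↥(s18_chart O S)) (u : LaurentSeries O),
      ((x : ↥F) : LaurentSeries K) = coeffMap (algebraMap O K) (HahnSeries.C ϖ ^ k * u) →
      ∃ x' : ↥(s18_chart O S), ((x' : ↥F) : LaurentSeries K) = coeffMap (algebraMap O K) u := by
  letI := s18_algOFF O K F
  induction k with
  | zero =>
    intro x u hx
    exact ⟨x, by rw [hx, pow_zero, one_mul]⟩
  | succ k ih =>
    intro x u hx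
    obtain ⟨x₁, hx₁⟩ := s18gr_red_div_one hρ hϖ x (HahnSeries.C ϖ ^ k * u)
      (by rw [hx, pow_succ]; congr 1; ring)
    exact ih x₁ u hx₁

/-- If `x` lies in the chart and `ϖ x` is an integral series, so is `x`. -/
theorem s18gr_red_isInt_one (hρ : s18gr_IsRed S ρ) {ϖ : O} (hϖ : Irreducible ϖ) :
    letI := s18_algOFF O K F
    ∀ (x : ↥(s18_chart O S)) (a : LaurentSeries O),
      coeffMap (algebraMap O K) (HahnSeries.C ϖ) * ((x : ↥F) : LaurentSeries K) =
        coeffMap (algebraMap O K) a →
      ∃ a' : LaurentSeries O, ((x : ↥F) : LaurentSeries K) = coeffMap (algebraMap O K) a' := by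
  letI := s18_algOFF O K F
  intro x a hx
  have h1 : ρ (algebraMap O ↥(s18_chart O S) ϖ * x) = coeffMap (IsLocalRing.residue O) a := by
    refine s18gr_red_int hρ _ a ?_
    rw [← hx, ← s18gr_algebraMap_coe O K F ϖ]
    rfl
  rw [map_mul, s18gr_red_uniformizer hρ hϖ, zero_mul] at h1
  obtain ⟨a', ha'⟩ := s18gr_exists_div hϖ a h1.symm
  refine ⟨a', ?_⟩
  rw [ha', map_mul] at hx
  exact mul_left_cancel₀ (s18gr_pi_ne_zero hϖ) hx

/-- If `x` lies in the chart and `ϖ^k x` is an integral series, so is `x`. -/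
theorem s18gr_red_isInt (hρ : s18gr_IsRed S ρ) {ϖ : O} (hϖ : Irreducible ϖ) (k : ℕ) :
    letI := s18_algOFF O K F
    ∀ (x : ↥(s18_chart O S)) (a : LaurentSeries O),
      coeffMap (algebraMap O K) (HahnSeries.C ϖ ^ k) * ((x : ↥F) : LaurentSeries K) =
        coeffMap (algebraMap O K) a →
      ∃ a' : LaurentSeries O, ((x : ↥F) : LaurentSeries K) = coeffMap (algebraMap O K) a' := by
  letI := s18_algOFF O K F
  induction k with
  | zero =>
    intro x a hx
    exact ⟨a, by rw [← hx, pow_zero, map_one, one_mul]⟩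
  | succ k ih =>
    intro x a hx
    have h2 : coeffMap (algebraMap O K) (HahnSeries.C ϖ) *
        (((algebraMap O ↥(s18_chart O S) ϖ ^ k * x : ↥(s18_chart O S)) : ↥F) :
          LaurentSeries K) = coeffMap (algebraMap O K) a := by
      rw [← hx, pow_succ, map_mul, map_pow]
      have e : (((algebraMap O ↥(s18_chart O S) ϖ ^ k * x : ↥(s18_chart O S)) : ↥F) :
          LaurentSeries K) =
          coeffMap (algebraMap O K) (HahnSeries.C ϖ) ^ k * ((x : ↥F) : LaurentSeries K) := by
        rw [← s18gr_algebraMap_coe O K F ϖ]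
        rfl
      rw [e]
      ring
    obtain ⟨a₁, ha₁⟩ := s18gr_red_isInt_one hρ hϖ _ a h2
    refine ih x a₁ ?_
    rw [← ha₁, map_pow, ← s18gr_algebraMap_coe O K F ϖ]
    rfl

end

end Red

end Fermat.Agent.S18
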