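/-
S18, package (I2) [GRADE] (helper16), part 5: the chart at infinity of `F_K(M)` and integral
series.
Prefix `s18gr_`.

* `s18gr_exists_tinv`  : `1 / j` is an integral series;
* `s18gr_exists_mult`  : every element of `F` has a non-zero multiple in the chart by an element
                         of `O[t]`;
* `s18gr_F_le_frac`    : every element of `F_K(M)` is a quotient of two integral series lying in
                         the chart at infinity;
* `s18gr_exists_den`   : every element `g` of the chart at infinity is `α / β`, `α`, `β`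
                         integral series, `β` in the chart with non-zero reduction.
-/
import Mathlib
import Fermat.Agent.S18.GradeRed
import Fermat.Agent.S18.Fin

set_option autoImplicit false
set_option maxHeartbeats 1000000
set_option linter.unusedSectionVars false
set_option linter.style.haveILetI false

open AlgebraicCurve ModularCurve IntermediateField

noncomputable section

namespace Fermat.Agent.S18

section TInv

/-- `1 / j` is an integral series. -/
theorem s18gr_exists_tinv (R : Type*) [CommRing R] :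
    ∃ t : LaurentSeries R, t * jqModC R = 1 := by
  set u : PowerSeries R := jNum.map (Int.castRingHom R) with hu
  have hu0 : PowerSeries.constantCoeff u = ((1 : Rˣ) : R) := by
    rw [hu, ← PowerSeries.coeff_zero_eq_constantCoeff, PowerSeries.coeff_map,
      PowerSeries.coeff_zero_eq_constantCoeff, constantCoeff_jNum, map_one, Units.val_one]
  have hvu : u.invOfUnit 1 * u = 1 := by
    rw [mul_comm]
    exact PowerSeries.mul_invOfUnit u 1 hu0
  refine ⟨HahnSeries.single (1 : ℤ) (1 : R) * HahnSeries.ofPowerSeries ℤ R (u.invOfUnit 1), ?_⟩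
  have h1 : jqModC R = HahnSeries.single (-1 : ℤ) 1 * HahnSeries.ofPowerSeries ℤ R u := rfl
  rw [h1]
  have h2 : HahnSeries.single (1 : ℤ) (1 : R) * HahnSeries.ofPowerSeries ℤ R (u.invOfUnit 1) *
      (HahnSeries.single (-1 : ℤ) 1 * HahnSeries.ofPowerSeries ℤ R u) =
      (HahnSeries.single (1 : ℤ) (1 : R) * HahnSeries.single (-1 : ℤ) 1) *
        HahnSeries.ofPowerSeries ℤ R (u.invOfUnit 1 * u) := by
    rw [map_mul]
    ring
  have e1 : HahnSeries.ofPowerSeries ℤ R (1 : PowerSeries R) = 1 := map_one _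
  rw [h2, hvu, e1, mul_one, HahnSeries.single_mul_single, mul_one]
  rfl

theorem s18gr_tinv_coe {O K : Type} [CommRing O] [Field K] (f : O →+* K)
    {t : LaurentSeries O} (ht : t * jqModC O = 1) : coeffMap f t = (jqModC K)⁻¹ := by
  have := congrArg (coeffMap f) ht
  rw [map_mul, coeffMap_jqModC, map_one] at this
  exact eq_inv_of_mul_eq_one_left this

end TInv

section Mult

variable {O K F : Type} [CommRing O] [IsDomain O] [Field K] [Algebra O K] [IsFractionRing O K]
  [Field F] [Algebra K F] [Algebra O F] [IsScalarTower O K F]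

/-- every element of `F` has a non-zero multiple in the chart by an element of `O[t]`. -/
theorem s18gr_exists_mult (t : F) [FiniteDimensional ↥K⟮t⟯ F] (z : F) :
    ∃ y : F, y ∈ Algebra.adjoin O ({t} : Set F) ∧ y ≠ 0 ∧ y * z ∈ s18_chart O ({t} : Set F) := by
  have htL : t ∈ K⟮t⟯ := mem_adjoin_simple_self K t
  letI : Algebra ↥(Algebra.adjoin O ({t} : Set F)) ↥K⟮t⟯ := (s18fin_incl K⟮t⟯ htL).toAlgebra
  haveI : IsScalarTower ↥(Algebra.adjoin O ({t} : Set F)) ↥K⟮t⟯ F :=
    IsScalarTower.of_algebraMap_eq (fun x => rfl)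
  haveI : FaithfulSMul ↥(Algebra.adjoin O ({t} : Set F)) ↥K⟮t⟯ :=
    (faithfulSMul_iff_algebraMap_injective _ _).mpr (s18fin_incl_injective K⟮t⟯ htL)
  haveI : IsFractionRing ↥(Algebra.adjoin O ({t} : Set F)) ↥K⟮t⟯ := by
    refine IsFractionRing.of_field _ _ (fun z => ?_)
    obtain ⟨x, y, h⟩ := s18fin_frac (O := O) (t := t) (z := (z : F)) z.2
    refine ⟨x, y, ?_⟩
    apply Subtype.ext
    rw [h]; rfl
  have halg : IsAlgebraic ↥(Algebra.adjoin O ({t} : Set F)) z :=
    (IsFractionRing.isAlgebraic_iff ↥(Algebra.adjoin O ({t} : Set F)) ↥K⟮t⟯ F).mpr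
      (Algebra.IsAlgebraic.isAlgebraic z)
  obtain ⟨y, hy0, hy⟩ := halg.exists_integral_multiple
  refine ⟨(y : F), y.2, ?_, ?_⟩
  · intro h
    exact hy0 (Subtype.ext h)
  · have e : y • z = (y : F) * z := by
      rw [Algebra.smul_def]
      rfl
    rw [e] at hy
    exact hy

end Mult

section Chart

variable (O K : Type) [CommRing O] [IsDomain O] [IsDiscreteValuationRing O] [Field K]
  [Algebra O K] [IsFractionRing O K]
  (F : IntermediateField K (LaurentSeries K))

/-- The integral series lying in a chart, as a subring of `K((q))`. -/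
def s18gr_J (S : Set ↥F) : Subring (LaurentSeries K) :=
  (coeffMap (algebraMap O K)).range ⊓
    Subring.map (algebraMap ↥F (LaurentSeries K))
      (letI := s18_algOFF O K F
       (s18_chart O S).toSubring)

variable {O K F}

theorem s18gr_mem_J {S : Set ↥F} {w : LaurentSeries K} :
    letI := s18_algOFF O K F
    w ∈ s18gr_J O K F S ↔ (∃ a : LaurentSeries O, coeffMap (algebraMap O K) a = w) ∧
      ∃ x : ↥F, x ∈ s18_chart O S ∧ (x : LaurentSeries K) = w := by
  letI := s18_algOFF O K F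
  constructor
  · rintro ⟨h1, x, hx, rfl⟩
    exact ⟨h1, x, hx, rfl⟩
  · rintro ⟨h1, x, hx, rfl⟩
    exact ⟨h1, x, hx, rfl⟩

theorem s18gr_const_mem_J (S : Set ↥F) (o : O) :
    coeffMap (algebraMap O K) (HahnSeries.C o) ∈ s18gr_J O K F S := by
  letI := s18_algOFF O K F
  rw [s18gr_mem_J]
  refine ⟨⟨_, rfl⟩, algebraMap O ↥F o, Subalgebra.algebraMap_mem _ o, ?_⟩
  exact s18gr_algebraMap_coe O K F o

theorem s18gr_J_const (S : Set ↥F) (c : K) :
    ∃ a ∈ s18gr_J O K F S, ∃ b ∈ s18gr_J O K F S, b ≠ 0 ∧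
      algebraMap K (LaurentSeries K) c * b = a := by
  obtain ⟨x, y, hy, hxy⟩ := IsFractionRing.div_surjective (A := O) c
  have hy0 : y ≠ 0 := nonZeroDivisors.ne_zero hy
  have hyK : algebraMap O K y ≠ 0 :=
    (map_ne_zero_iff _ (IsFractionRing.injective O K)).mpr hy0
  refine ⟨_, s18gr_const_mem_J S x, _, s18gr_const_mem_J S y, ?_, ?_⟩
  · intro h
    have h2 := s18gr_coeffMap_inj O K (h.trans (map_zero _).symm)
    have h3 : (HahnSeries.C y : LaurentSeries O).coeff 0 = y := HahnSeries.coeff_single_same 0 y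
    rw [h2] at h3
    exact hy0 h3.symm
  · rw [s18gr_coeffMap_C, s18gr_coeffMap_C, algebraMap_laurentSeries_eq_single, ← hxy]
    show HahnSeries.C _ * HahnSeries.C _ = HahnSeries.C _
    rw [← map_mul, div_mul_cancel₀ _ hyK]

end Chart

section Modular

variable (O K : Type) [CommRing O] [IsDomain O] [IsDiscreteValuationRing O] [Field K]
  [CharZero K] [Algebra O K] [IsFractionRing O K] (M : ℕ) [NeZero M]

theorem s18gr_jinv_coe :
    (((s18_j K M)⁻¹ : ↥(s18_F K M)) : LaurentSeries K) = (jqModC K)⁻¹ := by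
  rw [← s18gr_j_coe K M]
  rfl

/-- the elements of `O[1/j]` are integral series -/
theorem s18gr_adjoin_int :
    letI := s18_algOFF O K (s18_F K M)
    ∀ y : ↥(s18_F K M), y ∈ Algebra.adjoin O ({(s18_j K M)⁻¹} : Set ↥(s18_F K M)) →
      ∃ a : LaurentSeries O, coeffMap (algebraMap O K) a = (y : LaurentSeries K) := by
  letI := s18_algOFF O K (s18_F K M)
  intro y hy
  obtain ⟨t, ht⟩ := s18gr_exists_tinv O
  induction hy using Algebra.adjoin_induction with
  | mem x hx =>
    rw [Set.mem_singleton_iff] at hx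
    subst hx
    exact ⟨t, by rw [s18gr_tinv_coe _ ht, s18gr_jinv_coe]⟩
  | algebraMap o =>
    exact ⟨HahnSeries.C o, (s18gr_algebraMap_coe O K (s18_F K M) o).symm⟩
  | add x y _ _ hx hy =>
    obtain ⟨a, ha⟩ := hx
    obtain ⟨b, hb⟩ := hy
    exact ⟨a + b, by rw [map_add, ha, hb]; rfl⟩
  | mul x y _ _ hx hy =>
    obtain ⟨a, ha⟩ := hx
    obtain ⟨b, hb⟩ := hy
    exact ⟨a * b, by rw [map_mul, ha, hb]; rfl⟩

variable {O K M}

/-- **Every element of `F_K(M)` is a quotient of two integral series lying in the chart at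
infinity.** -/
theorem s18gr_F_le_frac
    (hfd : FiniteDimensional ↥(K⟮s18_j K M⟯) ↥(s18_F K M)) :
    s18_F K M ≤ s18gr_fracField
      (s18gr_J O K (s18_F K M) ({(s18_j K M)⁻¹} : Set ↥(s18_F K M)))
      (s18gr_J_const _) := by
  letI := s18_algOFF O K (s18_F K M)
  haveI : IsScalarTower O K ↥(s18_F K M) := IsScalarTower.of_algebraMap_eq' rfl
  haveI hfd' : FiniteDimensional ↥(K⟮(s18_j K M)⁻¹⟯) ↥(s18_F K M) := by
    rw [← s18fin_adjoin_inv (K := K) (s18_j K M)]
    exact hfd
  refine s18gr_F_le K M _ ?_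
  intro d _ hdM
  have hz : qExpand K d (jqModC K) ∈ s18_F K M := by
    rw [← s18gr_coeffEmb_gen]
    exact coeffEmb_mem_laurentBaseChange K (jqd_mem_full M hdM)
  obtain ⟨y, hyA, hy0, hyz⟩ := s18gr_exists_mult (O := O) (K := K) ((s18_j K M)⁻¹)
    (⟨qExpand K d (jqModC K), hz⟩ : ↥(s18_F K M))
  obtain ⟨a, ha⟩ := s18gr_adjoin_int O K M y hyA
  rw [s18gr_mem_fracField]
  refine ⟨((y * ⟨qExpand K d (jqModC K), hz⟩ : ↥(s18_F K M)) : LaurentSeries K), ?_,
    (y : LaurentSeries K), ?_, ?_, ?_⟩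
  · rw [s18gr_mem_J]
    refine ⟨⟨a * qExpand O d (jqModC O), ?_⟩, _, hyz, rfl⟩
    rw [map_mul, ha, coeffMap_qExpand, coeffMap_jqModC]
    rfl
  · rw [s18gr_mem_J]
    refine ⟨⟨a, ha⟩, y, ?_, rfl⟩
    exact (s18_mem_chart_iff O).mpr (isIntegral_algebraMap (R := ↥(Algebra.adjoin O
      ({(s18_j K M)⁻¹} : Set ↥(s18_F K M)))) (x := ⟨y, hyA⟩))
  · intro h
    exact hy0 (Subtype.ext h)
  · show _ = (y : LaurentSeries K) * qExpand K d (jqModC K)
    ring

/-- **Every element `g` of the chart at infinity is `α / β`**, `α`, `β` integral series, `β` in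
the chart with non-zero reduction. -/
theorem s18gr_exists_den
    (hfd : FiniteDimensional ↥(K⟮s18_j K M⟯) ↥(s18_F K M))
    {ρ : letI := s18_algOFF O K (s18_F K M)
      ↥(s18_chart O ({(s18_j K M)⁻¹} : Set ↥(s18_F K M))) →+*
        LaurentSeries (IsLocalRing.ResidueField O)}
    (hρ : s18gr_IsRed ({(s18_j K M)⁻¹} : Set ↥(s18_F K M)) ρ) :
    letI := s18_algOFF O K (s18_F K M)
    ∀ g : ↥(s18_F K M), g ∈ s18_chart O ({(s18_j K M)⁻¹} : Set ↥(s18_F K M)) →
      ∃ (α β : LaurentSeries O) (x : ↥(s18_F K M)),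
        coeffMap (IsLocalRing.residue O) β ≠ 0 ∧
        x ∈ s18_chart O ({(s18_j K M)⁻¹} : Set ↥(s18_F K M)) ∧
        (x : LaurentSeries K) = coeffMap (algebraMap O K) β ∧
        (g : LaurentSeries K) * coeffMap (algebraMap O K) β = coeffMap (algebraMap O K) α := by
  letI := s18_algOFF O K (s18_F K M)
  intro g hg
  obtain ⟨ϖ, hϖ⟩ := IsDiscreteValuationRing.exists_irreducible O
  have h1 := s18gr_F_le_frac (O := O) hfd g.2
  rw [s18gr_mem_fracField] at h1
  obtain ⟨a, ha, b, hb, hb0, hgb⟩ := h1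
  rw [s18gr_mem_J] at ha hb
  obtain ⟨⟨aO, haO⟩, xa, hxa, hxa'⟩ := ha
  obtain ⟨⟨bO, hbO⟩, xb, hxb, hxb'⟩ := hb
  have hbO0 : bO ≠ 0 := by
    rintro rfl
    rw [map_zero] at hbO
    exact hb0 hbO.symm
  obtain ⟨k, β, hβ, hβ0⟩ := s18gr_exists_strip hϖ bO hbO0
  -- `β` lies in the chart
  obtain ⟨x, hx⟩ := s18gr_red_div hρ hϖ k ⟨xb, hxb⟩ β (by
    show (xb : LaurentSeries K) = _
    rw [hxb', ← hbO, hβ])
  -- `g β` lies in the chart and `ϖ^k g β = a`
  have h2 : coeffMap (algebraMap O K) (HahnSeries.C ϖ ^ k) *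
      (((⟨g, hg⟩ * x : ↥(s18_chart O ({(s18_j K M)⁻¹} : Set ↥(s18_F K M)))) :
        ↥(s18_F K M)) : LaurentSeries K) = coeffMap (algebraMap O K) aO := by
    have e : (((⟨g, hg⟩ * x : ↥(s18_chart O ({(s18_j K M)⁻¹} : Set ↥(s18_F K M)))) :
        ↥(s18_F K M)) : LaurentSeries K) =
        (g : LaurentSeries K) * ((x : ↥(s18_F K M)) : LaurentSeries K) := rfl
    rw [e, hx, haO, ← hgb, ← hbO, hβ, map_mul]
    ring
  obtain ⟨α, hα⟩ := s18gr_red_isInt hρ hϖ k _ aO h2
  refine ⟨α, β, (x : ↥(s18_F K M)), hβ0, x.2, hx, ?_⟩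
  rw [← hα, ← hx]
  rfl

end Modular

end Fermat.Agent.S18
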