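import Mathlib

/-!
# S18, package (I4) [INF-ASM], part 6: the ring `A = O[s, 1/g(s)]`

`O` a discrete valuation ring with uniformizer `ϖ`, `E` a field over `O`, `s ∈ E` transcendental
over `O`, `g ∈ O[X]` with `g(0) = 1`, `c = g(s)`, `A = O[s, c⁻¹] ⊆ E`.  Then `A` is the
localisation of `O[X]` at `g`; it is noetherian and integrally closed, `ϖ` is a prime element of
`A`, and `A / ϖ` is a principal ideal ring.
-/

set_option autoImplicit false
set_option linter.unusedSectionVars false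
set_option linter.style.haveILetI false

open Polynomial

noncomputable section

namespace Fermat.Agent.S18

/-- A localisation of a principal ideal ring is a principal ideal ring. -/
theorem s18ia_pid_of_isLocalization {R S : Type*} [CommRing R] [CommRing S] [Algebra R S]
    (M : Submonoid R) [IsLocalization M S] [IsPrincipalIdealRing R] :
    IsPrincipalIdealRing S := by
  refine ⟨fun J => ?_⟩
  have h := IsLocalization.map_under M S J
  obtain ⟨r, hr⟩ := (IsPrincipalIdealRing.principal (Ideal.under R J)).principal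
  refine ⟨⟨algebraMap R S r, ?_⟩⟩
  rw [← h, hr]
  show Ideal.map (algebraMap R S) (Ideal.span {r}) = Ideal.span {algebraMap R S r}
  rw [Ideal.map_span, Set.image_singleton]

section A

variable {O E : Type} [CommRing O] [IsDomain O] [IsDiscreteValuationRing O] [Field E]
  [Algebra O E] (s c : E) (g : O[X])

theorem s18ia_A_aeval_mem (p : O[X]) :
    aeval s p ∈ Algebra.adjoin O ({s, c⁻¹} : Set E) := by
  have h : Algebra.adjoin O ({s} : Set E) ≤ Algebra.adjoin O ({s, c⁻¹} : Set E) :=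
    Algebra.adjoin_mono (by intro x hx; rw [Set.mem_singleton_iff] at hx; subst hx; simp)
  apply h
  rw [Algebra.adjoin_singleton_eq_range_aeval]
  exact ⟨p, rfl⟩

/-- The structure map `O[X] → A`. -/
def s18ia_A_hom : O[X] →ₐ[O] ↥(Algebra.adjoin O ({s, c⁻¹} : Set E)) :=
  AlgHom.codRestrict (aeval s) (Algebra.adjoin O ({s, c⁻¹} : Set E)) (s18ia_A_aeval_mem s c)

theorem s18ia_A_hom_coe (p : O[X]) : ((s18ia_A_hom s c p : ↥(Algebra.adjoin O ({s, c⁻¹} : Set E))) : E)
    = aeval s p := rfl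

/-- The `O[X]`-algebra structure of `A`.  USE IT WITH `letI`. -/
def s18ia_A_alg : Algebra O[X] ↥(Algebra.adjoin O ({s, c⁻¹} : Set E)) :=
  (s18ia_A_hom s c).toRingHom.toAlgebra

variable {s c g}

theorem s18ia_A_c_ne_zero (hs : Transcendental O s) (hg0 : g.coeff 0 = 1) (hc : aeval s g = c) :
    c ≠ 0 := by
  rw [← hc]
  intro h
  have hg : g = 0 := (transcendental_iff_injective.mp hs) (by rw [h, map_zero])
  rw [hg] at hg0
  simp at hg0

/-- `a ∈ A` has `cᴺ a ∈ O[s]` for some `N`. -/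
theorem s18ia_A_clear (hc0 : c ≠ 0) (hc : aeval s g = c) {a : E}
    (ha : a ∈ Algebra.adjoin O ({s, c⁻¹} : Set E)) :
    ∃ (N : ℕ) (p : O[X]), c ^ N * a = aeval s p := by
  induction ha using Algebra.adjoin_induction with
  | mem x hx =>
    rcases hx with rfl | hx
    · exact ⟨0, X, by simp⟩
    · rw [Set.mem_singleton_iff] at hx
      subst hx
      exact ⟨1, 1, by rw [pow_one, map_one]; field_simp⟩
  | algebraMap r => exact ⟨0, C r, by simp⟩
  | add x y _ _ hx hy =>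
    obtain ⟨N₁, p₁, h₁⟩ := hx
    obtain ⟨N₂, p₂, h₂⟩ := hy
    refine ⟨N₁ + N₂, g ^ N₂ * p₁ + g ^ N₁ * p₂, ?_⟩
    rw [map_add, map_mul, map_mul, map_pow, map_pow, hc, ← h₁, ← h₂, pow_add]
    ring
  | mul x y _ _ hx hy =>
    obtain ⟨N₁, p₁, h₁⟩ := hx
    obtain ⟨N₂, p₂, h₂⟩ := hy
    refine ⟨N₁ + N₂, p₁ * p₂, ?_⟩
    rw [map_mul, ← h₁, ← h₂, pow_add]
    ring

theorem s18ia_A_clear' (hc0 : c ≠ 0) (hc : aeval s g = c) {a : E}
    (ha : a ∈ Algebra.adjoin O ({s, c⁻¹} : Set E)) :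
    ∃ N : ℕ, c ^ N * a ∈ Algebra.adjoin O ({s} : Set E) := by
  obtain ⟨N, p, h⟩ := s18ia_A_clear hc0 hc ha
  refine ⟨N, ?_⟩
  rw [h, Algebra.adjoin_singleton_eq_range_aeval]
  exact ⟨p, rfl⟩

/-- `A` is the localisation of `O[X]` at `g`. -/
theorem s18ia_A_isLoc (hs : Transcendental O s) (hg0 : g.coeff 0 = 1) (hc : aeval s g = c) :
    letI := s18ia_A_alg (O := O) s c
    IsLocalization (Submonoid.powers g) ↥(Algebra.adjoin O ({s, c⁻¹} : Set E)) := by
  letI := s18ia_A_alg (O := O) s c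
  have hc0 : c ≠ 0 := s18ia_A_c_ne_zero hs hg0 hc
  have hmap : ∀ p : O[X], algebraMap O[X] ↥(Algebra.adjoin O ({s, c⁻¹} : Set E)) p =
      s18ia_A_hom s c p := fun p => rfl
  rw [isLocalization_iff]
  refine ⟨?_, ?_, ?_⟩
  · rintro ⟨_, k, rfl⟩
    have hcinv : c⁻¹ ∈ Algebra.adjoin O ({s, c⁻¹} : Set E) :=
      Algebra.subset_adjoin (by simp)
    refine IsUnit.of_mul_eq_one (⟨c⁻¹, hcinv⟩ ^ k : ↥(Algebra.adjoin O ({s, c⁻¹} : Set E))) ?_
    apply Subtype.ext
    rw [hmap]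
    push_cast
    rw [s18ia_A_hom_coe, map_pow, hc, ← mul_pow, mul_inv_cancel₀ hc0, one_pow]
  · intro z
    obtain ⟨N, p, h⟩ := s18ia_A_clear hc0 hc z.2
    refine ⟨(p, ⟨g ^ N, N, rfl⟩), ?_⟩
    apply Subtype.ext
    rw [hmap, hmap]
    push_cast
    rw [s18ia_A_hom_coe, s18ia_A_hom_coe, map_pow, hc, ← h, mul_comm]
  · intro x y hxy
    refine ⟨1, ?_⟩
    rw [hmap, hmap] at hxy
    have h1 := congrArg (fun z : ↥(Algebra.adjoin O ({s, c⁻¹} : Set E)) => (z : E)) hxy
    simp only [s18ia_A_hom_coe] at h1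
    have := (transcendental_iff_injective.mp hs) h1
    rw [this]

theorem s18ia_A_powers_le (hg0 : g.coeff 0 = 1) :
    Submonoid.powers g ≤ nonZeroDivisors O[X] := by
  have hg : g ≠ 0 := by
    rintro rfl
    simp at hg0
  rintro _ ⟨k, rfl⟩
  exact mem_nonZeroDivisors_of_ne_zero (pow_ne_zero _ hg)

theorem s18ia_A_noeth (hs : Transcendental O s) (hg0 : g.coeff 0 = 1) (hc : aeval s g = c) :
    IsNoetherianRing ↥(Algebra.adjoin O ({s, c⁻¹} : Set E)) := by
  letI := s18ia_A_alg (O := O) s c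
  haveI := s18ia_A_isLoc hs hg0 hc
  exact IsLocalization.isNoetherianRing (Submonoid.powers g) _ inferInstance

theorem s18ia_A_ic (hs : Transcendental O s) (hg0 : g.coeff 0 = 1) (hc : aeval s g = c) :
    IsIntegrallyClosed ↥(Algebra.adjoin O ({s, c⁻¹} : Set E)) := by
  letI := s18ia_A_alg (O := O) s c
  haveI := s18ia_A_isLoc hs hg0 hc
  exact isIntegrallyClosed_of_isLocalization _ (Submonoid.powers g) (s18ia_A_powers_le hg0)

theorem s18ia_A_pi_coe (a : O) :
    ((algebraMap O ↥(Algebra.adjoin O ({s, c⁻¹} : Set E)) a :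
      ↥(Algebra.adjoin O ({s, c⁻¹} : Set E))) : E) = algebraMap O E a := rfl

theorem s18ia_A_pi_ne_zero (hs : Transcendental O s) {ϖ : O} (hϖ : Irreducible ϖ) :
    algebraMap O ↥(Algebra.adjoin O ({s, c⁻¹} : Set E)) ϖ ≠ 0 := by
  intro h
  have h1 := congrArg (fun z : ↥(Algebra.adjoin O ({s, c⁻¹} : Set E)) => (z : E)) h
  simp only [s18ia_A_pi_coe] at h1
  have h2 : aeval s (C ϖ : O[X]) = 0 := by rw [aeval_C]; exact h1
  have h3 : (C ϖ : O[X]) = 0 := (transcendental_iff_injective.mp hs) (by rw [h2, map_zero])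
  exact hϖ.ne_zero (C_eq_zero.mp h3)

theorem s18ia_A_span_prime (hs : Transcendental O s) (hg0 : g.coeff 0 = 1)
    (hc : aeval s g = c) {ϖ : O} (hϖ : Irreducible ϖ) :
    (Ideal.span ({algebraMap O ↥(Algebra.adjoin O ({s, c⁻¹} : Set E)) ϖ} :
      Set ↥(Algebra.adjoin O ({s, c⁻¹} : Set E)))).IsPrime := by
  letI := s18ia_A_alg (O := O) s c
  haveI := s18ia_A_isLoc hs hg0 hc
  have hP : (Ideal.span ({C ϖ} : Set O[X])).IsPrime := by
    have e : Ideal.span ({C ϖ} : Set O[X]) = Ideal.map C (IsLocalRing.maximalIdeal O) := by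
      rw [hϖ.maximalIdeal_eq, Ideal.map_span, Set.image_singleton]
    rw [e]
    exact Ideal.isPrime_map_C_of_isPrime
  have hdisj : Disjoint (Submonoid.powers g : Set O[X]) (Ideal.span ({C ϖ} : Set O[X])) := by
    rw [Set.disjoint_left]
    rintro _ ⟨k, rfl⟩ hk
    rw [SetLike.mem_coe, Ideal.mem_span_singleton, C_dvd_iff_dvd_coeff] at hk
    have h0 := hk 0
    rw [coeff_zero_eq_eval_zero, eval_pow, ← coeff_zero_eq_eval_zero, hg0, one_pow] at h0
    exact hϖ.not_isUnit (isUnit_of_dvd_one h0)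
  have h := IsLocalization.isPrime_of_isPrime_disjoint (Submonoid.powers g)
    ↥(Algebra.adjoin O ({s, c⁻¹} : Set E)) _ hP hdisj
  rw [Ideal.map_span, Set.image_singleton] at h
  have e : algebraMap O[X] ↥(Algebra.adjoin O ({s, c⁻¹} : Set E)) (C ϖ) =
      algebraMap O ↥(Algebra.adjoin O ({s, c⁻¹} : Set E)) ϖ := by
    apply Subtype.ext
    show aeval s (C ϖ) = _
    rw [aeval_C]
    rfl
  rw [e] at h
  exact h

theorem s18ia_A_prime (hs : Transcendental O s) (hg0 : g.coeff 0 = 1)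
    (hc : aeval s g = c) {ϖ : O} (hϖ : Irreducible ϖ) :
    Prime (algebraMap O ↥(Algebra.adjoin O ({s, c⁻¹} : Set E)) ϖ) :=
  (Ideal.span_singleton_prime (s18ia_A_pi_ne_zero hs hϖ)).mp (s18ia_A_span_prime hs hg0 hc hϖ)

/-- `A / ϖ` is a principal ideal ring (a quotient of a localisation of `κ[X]`). -/
theorem s18ia_A_pid (hs : Transcendental O s) (hg0 : g.coeff 0 = 1)
    (hc : aeval s g = c) {ϖ : O} (hϖ : Irreducible ϖ) :
    IsPrincipalIdealRing (↥(Algebra.adjoin O ({s, c⁻¹} : Set E)) ⧸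
      Ideal.span ({algebraMap O ↥(Algebra.adjoin O ({s, c⁻¹} : Set E)) ϖ} :
        Set ↥(Algebra.adjoin O ({s, c⁻¹} : Set E)))) := by
  letI := s18ia_A_alg (O := O) s c
  haveI := s18ia_A_isLoc hs hg0 hc
  set I := Ideal.span ({algebraMap O ↥(Algebra.adjoin O ({s, c⁻¹} : Set E)) ϖ} :
        Set ↥(Algebra.adjoin O ({s, c⁻¹} : Set E))) with hI
  -- `κ → A / ϖ`
  let f₀ : O →+* ↥(Algebra.adjoin O ({s, c⁻¹} : Set E)) ⧸ I :=
    (Ideal.Quotient.mk I).comp (algebraMap O ↥(Algebra.adjoin O ({s, c⁻¹} : Set E)))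
  have hf₀ : ∀ a ∈ IsLocalRing.maximalIdeal O, f₀ a = 0 := by
    intro a ha
    rw [hϖ.maximalIdeal_eq, Ideal.mem_span_singleton] at ha
    obtain ⟨a', rfl⟩ := ha
    show Ideal.Quotient.mk I (algebraMap O _ (ϖ * a')) = 0
    rw [Ideal.Quotient.eq_zero_iff_mem, map_mul]
    exact Ideal.mul_mem_right _ _ (Ideal.subset_span rfl)
  let f : IsLocalRing.ResidueField O →+* ↥(Algebra.adjoin O ({s, c⁻¹} : Set E)) ⧸ I :=
    Ideal.Quotient.lift (IsLocalRing.maximalIdeal O) f₀ hf₀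
  have hf : ∀ a : O, f (IsLocalRing.residue O a) = f₀ a := fun a =>
    Ideal.Quotient.lift_mk _ _ _
  let sA : ↥(Algebra.adjoin O ({s, c⁻¹} : Set E)) := ⟨s, Algebra.subset_adjoin (by simp)⟩
  let ψ₀ : (IsLocalRing.ResidueField O)[X] →+* ↥(Algebra.adjoin O ({s, c⁻¹} : Set E)) ⧸ I :=
    Polynomial.eval₂RingHom f (Ideal.Quotient.mk I sA)
  have hψ₀ : ∀ p : O[X], ψ₀ (p.map (IsLocalRing.residue O)) =
      Ideal.Quotient.mk I (algebraMap O[X] ↥(Algebra.adjoin O ({s, c⁻¹} : Set E)) p) := by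
    intro p
    have h1 : ψ₀.comp (Polynomial.mapRingHom (IsLocalRing.residue O)) =
        (Ideal.Quotient.mk I).comp
          (algebraMap O[X] ↥(Algebra.adjoin O ({s, c⁻¹} : Set E))) := by
      apply Polynomial.ringHom_ext
      · intro a
        simp only [RingHom.comp_apply, Polynomial.coe_mapRingHom, Polynomial.map_C]
        show Polynomial.eval₂ f _ (C (IsLocalRing.residue O a)) = _
        rw [Polynomial.eval₂_C, hf]
        show Ideal.Quotient.mk I (algebraMap O _ a) = Ideal.Quotient.mk I _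
        congr 1
        apply Subtype.ext
        show algebraMap O E a = aeval s (C a)
        rw [aeval_C]
      · simp only [RingHom.comp_apply, Polynomial.coe_mapRingHom, Polynomial.map_X]
        show Polynomial.eval₂ f _ X = _
        rw [Polynomial.eval₂_X]
        congr 1
        apply Subtype.ext
        show s = aeval s X
        rw [aeval_X]
    exact congrArg (fun φ => φ p) h1
  set gb : (IsLocalRing.ResidueField O)[X] := g.map (IsLocalRing.residue O) with hgb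
  have hunit : IsUnit (ψ₀ gb) := by
    rw [hgb, hψ₀]
    exact (IsLocalization.map_units _ (⟨g, Submonoid.mem_powers g⟩ : Submonoid.powers g)).map
      (Ideal.Quotient.mk I)
  let ψ : Localization.Away gb →+* ↥(Algebra.adjoin O ({s, c⁻¹} : Set E)) ⧸ I :=
    IsLocalization.Away.lift gb hunit
  haveI : IsPrincipalIdealRing (Localization.Away gb) :=
    s18ia_pid_of_isLocalization (Submonoid.powers gb)
  refine IsPrincipalIdealRing.of_surjective ψ ?_
  intro q
  obtain ⟨a, rfl⟩ := Ideal.Quotient.mk_surjective q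
  obtain ⟨⟨p, ⟨_, k, rfl⟩⟩, h⟩ := IsLocalization.surj (Submonoid.powers g) a
  refine ⟨IsLocalization.mk' _ (p.map (IsLocalRing.residue O))
    (⟨gb ^ k, k, rfl⟩ : Submonoid.powers gb), ?_⟩
  show IsLocalization.lift _ _ = _
  rw [IsLocalization.lift_mk'_spec]
  show ψ₀ (p.map (IsLocalRing.residue O)) = ψ₀ (gb ^ k) * _
  have e : gb ^ k = (g ^ k).map (IsLocalRing.residue O) := by rw [Polynomial.map_pow]
  rw [e, hψ₀, hψ₀, ← map_mul]
  congr 1
  rw [mul_comm]
  exact h.symm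

/-- Every positive integer divides a power of `ϖ` in `A`, if `O` has characteristic `0`. -/
theorem s18ia_A_nat [CharZero O] {ϖ : O} (hϖ : Irreducible ϖ) (n : ℕ) (hn : 0 < n) :
    ∃ (k : ℕ) (a : ↥(Algebra.adjoin O ({s, c⁻¹} : Set E))),
      (n : ↥(Algebra.adjoin O ({s, c⁻¹} : Set E))) * a =
        algebraMap O ↥(Algebra.adjoin O ({s, c⁻¹} : Set E)) ϖ ^ k := by
  have hn0 : (n : O) ≠ 0 := Nat.cast_ne_zero.mpr hn.ne'
  obtain ⟨k, u, hu⟩ := IsDiscreteValuationRing.eq_unit_mul_pow_irreducible hn0 hϖ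
  refine ⟨k, algebraMap O _ ((u⁻¹ : Oˣ) : O), ?_⟩
  rw [← map_natCast (algebraMap O ↥(Algebra.adjoin O ({s, c⁻¹} : Set E))) n, ← map_mul,
    ← map_pow]
  congr 1
  rw [hu]
  have : (u : O) * ((u⁻¹ : Oˣ) : O) = 1 := Units.mul_inv u
  linear_combination (ϖ ^ k) * this

end A

end Fermat.Agent.S18
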