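import Mathlib
import Fermat.Agent.S18.LiftDefs
import Fermat.Agent.S18.Fin
import Fermat.Agent.S18.Cech

/-!
# S18, package (I4) [INF-ASM], part 3: clearing denominators in integral equations

* `s18ia_clear`: `R, R'` subalgebras of a field, `s ∈ R`, every `a ∈ R'` has `s^N a ∈ R`
  for some `N`; then every `x` integral over `R'` has `s^N x` integral over `R` for some `N`;
* `s18ia_cover`, `s18ia_cover'`: the two charts `B`, `B'` of `t`, `t⁻¹` cover each other;
* `s18ia_exists_mul_mem_chart`: every element of `F` has a non-zero `O[t]`-multiple in the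
  chart (`F` algebraic over `K(t)`).
-/

set_option autoImplicit false
set_option linter.unusedSectionVars false
set_option linter.style.haveILetI false

open AlgebraicCurve IntermediateField Polynomial

noncomputable section

namespace Fermat.Agent.S18

section Clear

variable {O F : Type} [CommRing O] [Field F] [Algebra O F]

theorem s18ia_clear (R R' : Subalgebra O F) {s : F} (hs : s ∈ R)
    (h : ∀ a ∈ R', ∃ N : ℕ, s ^ N * a ∈ R) {x : F} (hx : IsIntegral ↥R' x) :
    ∃ N : ℕ, IsIntegral ↥R (s ^ N * x) := by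
  classical
  obtain ⟨p, hp, hpx⟩ := hx
  -- a common exponent
  have hN : ∃ N : ℕ, ∀ i : ℕ, s ^ N * ((p.coeff i : ↥R') : F) ∈ R := by
    have h1 : ∀ i : ℕ, ∃ N : ℕ, s ^ N * ((p.coeff i : ↥R') : F) ∈ R := fun i => h _ (p.coeff i).2
    choose N hN using h1
    refine ⟨(Finset.range (p.natDegree + 1)).sup N, fun i => ?_⟩
    by_cases hi : i ≤ p.natDegree
    · have hle : N i ≤ (Finset.range (p.natDegree + 1)).sup N :=
        Finset.le_sup (Finset.mem_range.mpr (Nat.lt_succ_of_le hi))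
      rw [← pow_sub_mul_pow s hle, mul_assoc]
      exact mul_mem (pow_mem hs _) (hN i)
    · rw [Polynomial.coeff_eq_zero_of_natDegree_lt (not_le.mp hi)]
      simp
  obtain ⟨N, hN⟩ := hN
  refine ⟨N, ?_⟩
  set pF : F[X] := p.map (algebraMap ↥R' F) with hpF
  have hpFm : pF.Monic := hp.map _
  have hdeg : pF.natDegree = p.natDegree := hp.natDegree_map _
  have hroot : Polynomial.eval₂ (RingHom.id F) x pF = 0 := by
    rw [hpF, Polynomial.eval₂_map]
    exact hpx
  have hq : Polynomial.eval₂ (RingHom.id F) (s ^ N * x) (Polynomial.scaleRoots pF (s ^ N)) = 0 :=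
    Polynomial.scaleRoots_eval₂_eq_zero (RingHom.id F) hroot
  have hqm : (Polynomial.scaleRoots pF (s ^ N)).Monic :=
    (Polynomial.monic_scaleRoots_iff _).mpr hpFm
  have hlift : Polynomial.scaleRoots pF (s ^ N) ∈ Polynomial.lifts (algebraMap ↥R F) := by
    rw [Polynomial.lifts_iff_coeff_lifts]
    intro i
    rw [Polynomial.coeff_scaleRoots, hdeg, hpF, Polynomial.coeff_map]
    by_cases hi : i < p.natDegree
    · obtain ⟨k, hk⟩ : ∃ k, p.natDegree - i = k + 1 := ⟨p.natDegree - i - 1, by omega⟩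
      rw [hk, pow_succ, mul_comm, mul_assoc]
      have h2 : ((s ^ N) ^ k) * (s ^ N * ((p.coeff i : ↥R') : F)) ∈ R :=
        mul_mem (pow_mem (pow_mem hs _) _) (hN i)
      exact ⟨⟨_, h2⟩, rfl⟩
    · rcases Nat.lt_or_ge p.natDegree i with hi' | hi'
      · rw [Polynomial.coeff_eq_zero_of_natDegree_lt hi']
        exact ⟨0, by simp⟩
      · have hi'' : i = p.natDegree := le_antisymm hi' (not_lt.mp hi)
        rw [hi'', Nat.sub_self, pow_zero, mul_one, Polynomial.Monic.coeff_natDegree hp]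
        exact ⟨1, by simp⟩
  obtain ⟨q, hqmap, -, hqmonic⟩ := Polynomial.lifts_and_natDegree_eq_and_monic hlift hqm
  refine ⟨q, hqmonic, ?_⟩
  rw [← hqmap, Polynomial.eval₂_map, RingHom.id_comp] at hq
  exact hq

/-- `B' ⊆ ⋃ t⁻ᴺ B`. -/
theorem s18ia_cover {t : F} (ht : t ≠ 0) {x : F}
    (hx : x ∈ s18_chart O ({t⁻¹} : Set F)) : ∃ N : ℕ, t ^ N * x ∈ s18_chart O ({t} : Set F) := by
  have htm : t ∈ Algebra.adjoin O ({t} : Set F) := Algebra.subset_adjoin rfl
  refine s18ia_clear (Algebra.adjoin O ({t} : Set F)) (Algebra.adjoin O ({t⁻¹} : Set F))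
    htm ?_ hx
  intro a ha
  rw [Algebra.adjoin_singleton_eq_range_aeval] at ha
  obtain ⟨q, rfl⟩ := ha
  induction q using Polynomial.induction_on' with
  | add p q hp hq =>
    obtain ⟨N₁, h₁⟩ := hp
    obtain ⟨N₂, h₂⟩ := hq
    refine ⟨N₁ + N₂, ?_⟩
    have e : t ^ (N₁ + N₂) * (aeval t⁻¹ : O[X] →ₐ[O] F).toRingHom (p + q) =
        t ^ N₂ * (t ^ N₁ * (aeval t⁻¹ : O[X] →ₐ[O] F).toRingHom p) +
          t ^ N₁ * (t ^ N₂ * (aeval t⁻¹ : O[X] →ₐ[O] F).toRingHom q) := by
      rw [map_add, pow_add]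
      ring
    rw [e]
    exact add_mem (mul_mem (pow_mem htm _) h₁) (mul_mem (pow_mem htm _) h₂)
  | monomial n a =>
    refine ⟨n, ?_⟩
    have e : t ^ n * (aeval t⁻¹ : O[X] →ₐ[O] F).toRingHom (monomial n a) = algebraMap O F a := by
      show t ^ n * aeval t⁻¹ (monomial n a) = _
      rw [Polynomial.aeval_monomial, inv_pow]
      have : t ^ n ≠ 0 := pow_ne_zero _ ht
      field_simp
    rw [e]
    exact Subalgebra.algebraMap_mem _ a

/-- `B ⊆ ⋃ tᴺ B'`. -/
theorem s18ia_cover' {t : F} (ht : t ≠ 0) {x : F}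
    (hx : x ∈ s18_chart O ({t} : Set F)) :
    ∃ N : ℕ, t⁻¹ ^ N * x ∈ s18_chart O ({t⁻¹} : Set F) := by
  have h := s18ia_cover (O := O) (t := t⁻¹) (inv_ne_zero ht) (x := x) (by rw [inv_inv]; exact hx)
  exact h

theorem s18ia_cover_mono {t : F} {x : F} {N N' : ℕ} (hNN : N ≤ N')
    (h : t ^ N * x ∈ s18_chart O ({t} : Set F)) : t ^ N' * x ∈ s18_chart O ({t} : Set F) := by
  rw [← pow_sub_mul_pow t hNN, mul_assoc]
  exact mul_mem (pow_mem (s18ce_self_mem O t) _) h

end Clear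

section Alg

variable {O K F : Type} [CommRing O] [IsDomain O] [Field K] [Algebra O K] [IsFractionRing O K]
  [Field F] [Algebra K F] [Algebra O F] [IsScalarTower O K F]

/-- Every element of `F` has a non-zero `O[t]`-multiple in the chart. -/
theorem s18ia_exists_mul_mem_chart {t : F} (halg : ∀ f : F, IsAlgebraic ↥K⟮t⟯ f) (f : F) :
    ∃ d : F, d ∈ Algebra.adjoin O ({t} : Set F) ∧ d ≠ 0 ∧
      d * f ∈ s18_chart O ({t} : Set F) := by
  have htL : t ∈ K⟮t⟯ := mem_adjoin_simple_self K t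
  letI : Algebra ↥(Algebra.adjoin O ({t} : Set F)) ↥K⟮t⟯ := (s18fin_incl K⟮t⟯ htL).toAlgebra
  haveI : IsScalarTower ↥(Algebra.adjoin O ({t} : Set F)) ↥K⟮t⟯ F :=
    IsScalarTower.of_algebraMap_eq (fun x => rfl)
  haveI : FaithfulSMul ↥(Algebra.adjoin O ({t} : Set F)) ↥K⟮t⟯ :=
    (faithfulSMul_iff_algebraMap_injective _ _).mpr (s18fin_incl_injective K⟮t⟯ htL)
  haveI : IsFractionRing ↥(Algebra.adjoin O ({t} : Set F)) ↥K⟮t⟯ := by
    refine IsFractionRing.of_field _ _ (fun z => ?_)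
    obtain ⟨x, y, h⟩ := s18fin_frac (O := O) (t := t) (z := (z : F)) z.2
    refine ⟨x, y, ?_⟩
    apply Subtype.ext
    rw [h]; rfl
  have h1 : IsAlgebraic ↥(Algebra.adjoin O ({t} : Set F)) f :=
    (IsFractionRing.isAlgebraic_iff ↥(Algebra.adjoin O ({t} : Set F)) ↥K⟮t⟯ F).mpr (halg f)
  obtain ⟨y, hy0, hy⟩ := h1.exists_integral_multiple
  refine ⟨(y : F), y.2, fun h0 => hy0 (Subtype.ext h0), ?_⟩
  exact hy

end Alg

end Fermat.Agent.S18
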