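import Mathlib
import Fermat.Agent.S18.InfDefs

/-!
# S18, package (I4) [INF-ASM], part 1: the Gauss reduction `Red`

`O` a discrete valuation ring, `K = Frac O`, `κ` the residue field.  `img : O((q)) → K((q))`,
`red : O((q)) → κ((q))` coefficientwise.

* `s18ia_IsRed f r`: `f ∈ K((q))` is a quotient `β₁ / β₂` of integral series with `red β₂ ≠ 0`
  and `r = red β₁ / red β₂` (the graph of the reduction map of the Gauss valuation ring);
* uniqueness, sums, products, inverses, `qExpand`;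
* `s18ia_lemmaG`: a reduction datum `ρ` of a chart (kernel in `π · chart`, compatible with
  coefficientwise reduction) IS the Gauss reduction: `IsRed b (ρ b)` for all `b` in the chart.
-/

set_option autoImplicit false
set_option linter.unusedSectionVars false

open AlgebraicCurve ModularCurve IntermediateField

noncomputable section

namespace Fermat.Agent.S18

section Basic

variable (O K : Type) [CommRing O] [IsDomain O] [IsDiscreteValuationRing O] [Field K]
  [Algebra O K] [IsFractionRing O K]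

theorem s18ia_img_injective : Function.Injective (coeffMap (algebraMap O K)) := by
  intro a b h
  ext n
  have := congrArg (fun x : LaurentSeries K => x.coeff n) h
  simp only [coeffMap_coeff] at this
  exact IsFractionRing.injective O K this

theorem s18ia_img_eq_zero {a : LaurentSeries O} :
    coeffMap (algebraMap O K) a = 0 ↔ a = 0 := by
  constructor
  · intro h
    exact s18ia_img_injective O K (by rw [h, map_zero])
  · rintro rfl
    exact map_zero _

variable {O}

theorem s18ia_C_mul_coeff (c : O) (a : LaurentSeries O) (n : ℤ) :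
    (HahnSeries.C c * a).coeff n = c * a.coeff n := by
  rw [HahnSeries.C_mul_eq_smul, HahnSeries.coeff_smul, smul_eq_mul]

theorem s18ia_red_C {ϖ : O} (hϖ : Irreducible ϖ) :
    coeffMap (IsLocalRing.residue O) (HahnSeries.C ϖ) = 0 := by
  have h : IsLocalRing.residue O ϖ = 0 := by
    rw [IsLocalRing.residue_eq_zero_iff]
    rw [hϖ.maximalIdeal_eq]
    exact Ideal.mem_span_singleton_self ϖ
  have e : (HahnSeries.C ϖ : LaurentSeries O) = HahnSeries.single 0 ϖ := rfl
  rw [e, coeffMap_single, h]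
  simp

/-- The kernel of the coefficientwise reduction is `ϖ · O((q))`. -/
theorem s18ia_red_eq_zero {ϖ : O} (hϖ : Irreducible ϖ) (a : LaurentSeries O)
    (h : coeffMap (IsLocalRing.residue O) a = 0) :
    ∃ a₁ : LaurentSeries O, a = HahnSeries.C ϖ * a₁ := by
  classical
  have hc : ∀ n : ℤ, ∃ r' : O, a.coeff n = ϖ * r' := fun n => by
    have h1 : IsLocalRing.residue O (a.coeff n) = 0 := by
      have := congrArg (fun x : LaurentSeries (IsLocalRing.ResidueField O) => x.coeff n) h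
      simpa using this
    rw [IsLocalRing.residue_eq_zero_iff, hϖ.maximalIdeal_eq, Ideal.mem_span_singleton] at h1
    exact h1
  choose b hb using hc
  have hsupp : Function.support b ⊆ a.support := by
    intro n hn
    simp only [Function.mem_support, HahnSeries.mem_support] at hn ⊢
    rw [hb n]
    exact mul_ne_zero hϖ.ne_zero hn
  refine ⟨⟨b, a.isPWO_support.mono hsupp⟩, ?_⟩
  ext n
  rw [s18ia_C_mul_coeff, hb n]

theorem s18ia_exists_factor_aux {ϖ : O} (hϖ : Irreducible ϖ) (n₀ : ℤ) : ∀ (k : ℕ)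
    (a : LaurentSeries O), ¬ ϖ ^ (k + 1) ∣ a.coeff n₀ →
    ∃ (m : ℕ) (a' : LaurentSeries O),
      coeffMap (IsLocalRing.residue O) a' ≠ 0 ∧ a = HahnSeries.C ϖ ^ m * a' := by
  intro k
  induction k with
  | zero =>
    intro a hk
    by_cases hred : coeffMap (IsLocalRing.residue O) a = 0
    · exfalso
      obtain ⟨a₁, ha₁⟩ := s18ia_red_eq_zero hϖ a hred
      apply hk
      rw [ha₁, s18ia_C_mul_coeff, zero_add, pow_one]
      exact dvd_mul_right _ _
    · exact ⟨0, a, hred, by simp⟩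
  | succ k ih =>
    intro a hk
    by_cases hred : coeffMap (IsLocalRing.residue O) a = 0
    · obtain ⟨a₁, ha₁⟩ := s18ia_red_eq_zero hϖ a hred
      have h1 : ¬ ϖ ^ (k + 1) ∣ a₁.coeff n₀ := by
        intro h
        apply hk
        rw [ha₁, s18ia_C_mul_coeff, pow_succ' ϖ (k + 1)]
        exact mul_dvd_mul_left ϖ h
      obtain ⟨m, a', h', e⟩ := ih a₁ h1
      exact ⟨m + 1, a', h', by rw [ha₁, e, pow_succ]; ring⟩
    · exact ⟨0, a, hred, by simp⟩

/-- Every nonzero integral Laurent series is `ϖ^m` times one with nonzero reduction. -/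
theorem s18ia_exists_factor {ϖ : O} (hϖ : Irreducible ϖ) (a : LaurentSeries O) (ha : a ≠ 0) :
    ∃ (m : ℕ) (a' : LaurentSeries O),
      coeffMap (IsLocalRing.residue O) a' ≠ 0 ∧ a = HahnSeries.C ϖ ^ m * a' := by
  obtain ⟨n₀, hn₀⟩ : ∃ n₀, a.coeff n₀ ≠ 0 := by
    by_contra h
    apply ha
    ext n
    by_contra h'
    exact h ⟨n, h'⟩
  obtain ⟨k, u, hu⟩ := IsDiscreteValuationRing.eq_unit_mul_pow_irreducible hn₀ hϖ
  refine s18ia_exists_factor_aux hϖ n₀ k a ?_
  rw [hu]
  intro h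
  rw [pow_succ] at h
  have h1 : ϖ ^ k * ϖ ∣ ϖ ^ k * (u : O) := by
    rw [mul_comm (u : O)] at h
    exact h
  have h2 := (mul_dvd_mul_iff_left (pow_ne_zero k hϖ.ne_zero)).mp h1
  exact hϖ.not_isUnit (isUnit_of_dvd_unit h2 u.isUnit)

end Basic

/-! ### The graph of the Gauss reduction -/

section IsRed

variable (O K : Type) [CommRing O] [IsDomain O] [IsDiscreteValuationRing O] [Field K]
  [Algebra O K] [IsFractionRing O K]

/-- `f = β₁ / β₂` with `β₁, β₂ ∈ O((q))`, `red β₂ ≠ 0`, and `r = red β₁ / red β₂`. -/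
def s18ia_IsRed (f : LaurentSeries K) (r : LaurentSeries (IsLocalRing.ResidueField O)) : Prop :=
  ∃ β₁ β₂ : LaurentSeries O, coeffMap (IsLocalRing.residue O) β₂ ≠ 0 ∧
    f * coeffMap (algebraMap O K) β₂ = coeffMap (algebraMap O K) β₁ ∧
    r * coeffMap (IsLocalRing.residue O) β₂ = coeffMap (IsLocalRing.residue O) β₁

variable {O K}

theorem s18ia_img_ne_zero_of_red {β : LaurentSeries O}
    (h : coeffMap (IsLocalRing.residue O) β ≠ 0) : coeffMap (algebraMap O K) β ≠ 0 := by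
  intro h0
  rw [s18ia_img_eq_zero] at h0
  rw [h0, map_zero] at h
  exact h rfl

theorem s18ia_IsRed.unique {f : LaurentSeries K}
    {r r' : LaurentSeries (IsLocalRing.ResidueField O)}
    (h : s18ia_IsRed O K f r) (h' : s18ia_IsRed O K f r') : r = r' := by
  obtain ⟨β₁, β₂, hβ, e₁, e₂⟩ := h
  obtain ⟨γ₁, γ₂, hγ, e₁', e₂'⟩ := h'
  have h1 : β₁ * γ₂ = γ₁ * β₂ := by
    apply s18ia_img_injective O K
    rw [map_mul, map_mul, ← e₁, ← e₁']
    ring
  have h2 := congrArg (coeffMap (IsLocalRing.residue O)) h1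
  rw [map_mul, map_mul, ← e₂, ← e₂'] at h2
  have h3 : (r - r') * (coeffMap (IsLocalRing.residue O) β₂ *
      coeffMap (IsLocalRing.residue O) γ₂) = 0 := by
    linear_combination h2
  rcases mul_eq_zero.mp h3 with h4 | h4
  · exact sub_eq_zero.mp h4
  · exact absurd h4 (mul_ne_zero hβ hγ)

theorem s18ia_isRed_img (β : LaurentSeries O) :
    s18ia_IsRed O K (coeffMap (algebraMap O K) β) (coeffMap (IsLocalRing.residue O) β) :=
  ⟨β, 1, by rw [map_one]; exact one_ne_zero, by rw [map_one, mul_one], by rw [map_one, mul_one]⟩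

theorem s18ia_isRed_zero : s18ia_IsRed O K 0 0 := by
  have := s18ia_isRed_img (O := O) (K := K) 0
  rwa [map_zero, map_zero] at this

theorem s18ia_isRed_one : s18ia_IsRed O K 1 1 := by
  have := s18ia_isRed_img (O := O) (K := K) 1
  rwa [map_one, map_one] at this

theorem s18ia_IsRed.add {f g : LaurentSeries K}
    {r s : LaurentSeries (IsLocalRing.ResidueField O)}
    (h : s18ia_IsRed O K f r) (h' : s18ia_IsRed O K g s) : s18ia_IsRed O K (f + g) (r + s) := by
  obtain ⟨β₁, β₂, hβ, e₁, e₂⟩ := h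
  obtain ⟨γ₁, γ₂, hγ, e₁', e₂'⟩ := h'
  refine ⟨β₁ * γ₂ + γ₁ * β₂, β₂ * γ₂, ?_, ?_, ?_⟩
  · rw [map_mul]
    exact mul_ne_zero hβ hγ
  · rw [map_add, map_mul, map_mul, map_mul, ← e₁, ← e₁']
    ring
  · rw [map_add, map_mul, map_mul, map_mul, ← e₂, ← e₂']
    ring

theorem s18ia_IsRed.mul {f g : LaurentSeries K}
    {r s : LaurentSeries (IsLocalRing.ResidueField O)}
    (h : s18ia_IsRed O K f r) (h' : s18ia_IsRed O K g s) : s18ia_IsRed O K (f * g) (r * s) := by
  obtain ⟨β₁, β₂, hβ, e₁, e₂⟩ := h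
  obtain ⟨γ₁, γ₂, hγ, e₁', e₂'⟩ := h'
  refine ⟨β₁ * γ₁, β₂ * γ₂, ?_, ?_, ?_⟩
  · rw [map_mul]
    exact mul_ne_zero hβ hγ
  · rw [map_mul, map_mul, ← e₁, ← e₁']
    ring
  · rw [map_mul, map_mul, ← e₂, ← e₂']
    ring

theorem s18ia_IsRed.neg {f : LaurentSeries K}
    {r : LaurentSeries (IsLocalRing.ResidueField O)}
    (h : s18ia_IsRed O K f r) : s18ia_IsRed O K (-f) (-r) := by
  obtain ⟨β₁, β₂, hβ, e₁, e₂⟩ := h
  refine ⟨-β₁, β₂, hβ, ?_, ?_⟩
  · rw [map_neg, ← e₁]
    ring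
  · rw [map_neg, ← e₂]
    ring

theorem s18ia_IsRed.sub {f g : LaurentSeries K}
    {r s : LaurentSeries (IsLocalRing.ResidueField O)}
    (h : s18ia_IsRed O K f r) (h' : s18ia_IsRed O K g s) : s18ia_IsRed O K (f - g) (r - s) := by
  rw [sub_eq_add_neg, sub_eq_add_neg]
  exact h.add h'.neg

theorem s18ia_IsRed.pow {f : LaurentSeries K}
    {r : LaurentSeries (IsLocalRing.ResidueField O)}
    (h : s18ia_IsRed O K f r) (n : ℕ) : s18ia_IsRed O K (f ^ n) (r ^ n) := by
  induction n with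
  | zero => rw [pow_zero, pow_zero]; exact s18ia_isRed_one
  | succ n ih => rw [pow_succ, pow_succ]; exact ih.mul h

theorem s18ia_IsRed.inv {f : LaurentSeries K}
    {r : LaurentSeries (IsLocalRing.ResidueField O)}
    (h : s18ia_IsRed O K f r) (hr : r ≠ 0) : s18ia_IsRed O K f⁻¹ r⁻¹ := by
  obtain ⟨β₁, β₂, hβ, e₁, e₂⟩ := h
  have h1 : coeffMap (IsLocalRing.residue O) β₁ ≠ 0 := by
    rw [← e₂]
    exact mul_ne_zero hr hβ
  have h2 : coeffMap (algebraMap O K) β₁ ≠ 0 := s18ia_img_ne_zero_of_red h1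
  have h3 : coeffMap (algebraMap O K) β₂ ≠ 0 := s18ia_img_ne_zero_of_red hβ
  have hf : f ≠ 0 := by
    rintro rfl
    rw [zero_mul] at e₁
    exact h2 e₁.symm
  refine ⟨β₂, β₁, h1, ?_, ?_⟩
  · rw [← e₁]
    field_simp
  · rw [← e₂]
    field_simp

theorem s18ia_IsRed.qExp {f : LaurentSeries K}
    {r : LaurentSeries (IsLocalRing.ResidueField O)} (M : ℕ) [NeZero M]
    (h : s18ia_IsRed O K f r) :
    s18ia_IsRed O K (qExpand K M f) (qExpand (IsLocalRing.ResidueField O) M r) := by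
  obtain ⟨β₁, β₂, hβ, e₁, e₂⟩ := h
  refine ⟨qExpand O M β₁, qExpand O M β₂, ?_, ?_, ?_⟩
  · rw [coeffMap_qExpand]
    intro h0
    apply hβ
    apply qExpand_injective (R := IsLocalRing.ResidueField O) M
    rw [h0, map_zero]
  · rw [coeffMap_qExpand, coeffMap_qExpand, ← map_mul, e₁]
  · rw [coeffMap_qExpand, coeffMap_qExpand, ← map_mul, e₂]

/-- The kernel of the Gauss reduction is `π V`. -/
theorem s18ia_IsRed.div_pi {ϖ : O} (hϖ : Irreducible ϖ) {f : LaurentSeries K}
    (h : s18ia_IsRed O K f 0) :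
    ∃ (g : LaurentSeries K) (r : LaurentSeries (IsLocalRing.ResidueField O)),
      s18ia_IsRed O K g r ∧ f = coeffMap (algebraMap O K) (HahnSeries.C ϖ) * g := by
  obtain ⟨β₁, β₂, hβ, e₁, e₂⟩ := h
  rw [zero_mul] at e₂
  obtain ⟨γ₁, hγ₁⟩ := s18ia_red_eq_zero hϖ β₁ e₂.symm
  have h3 : coeffMap (algebraMap O K) β₂ ≠ 0 := s18ia_img_ne_zero_of_red hβ
  refine ⟨coeffMap (algebraMap O K) γ₁ / coeffMap (algebraMap O K) β₂,
    coeffMap (IsLocalRing.residue O) γ₁ / coeffMap (IsLocalRing.residue O) β₂,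
    ⟨γ₁, β₂, hβ, by field_simp, by field_simp⟩, ?_⟩
  rw [hγ₁, map_mul] at e₁
  rw [← mul_div_assoc, ← e₁]
  field_simp

variable (O K)

/-- The Gauss reduction as a total function (`0` outside the Gauss valuation ring). -/
def s18ia_RedF (f : LaurentSeries K) : LaurentSeries (IsLocalRing.ResidueField O) :=
  open Classical in
  if h : ∃ r, s18ia_IsRed O K f r then h.choose else 0

variable {O K}

theorem s18ia_RedF_eq {f : LaurentSeries K} {r : LaurentSeries (IsLocalRing.ResidueField O)}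
    (h : s18ia_IsRed O K f r) : s18ia_RedF O K f = r := by
  have h' : ∃ r, s18ia_IsRed O K f r := ⟨r, h⟩
  unfold s18ia_RedF
  rw [dif_pos h']
  exact h'.choose_spec.unique h

theorem s18ia_isRed_RedF {f : LaurentSeries K} (h : ∃ r, s18ia_IsRed O K f r) :
    s18ia_IsRed O K f (s18ia_RedF O K f) := by
  obtain ⟨r, hr⟩ := h
  rw [s18ia_RedF_eq hr]
  exact hr

end IsRed

/-! ### Reduction data of charts are Gauss reductions -/

section LemmaG

variable {O K : Type} [CommRing O] [IsDomain O] [IsDiscreteValuationRing O] [Field K]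
  [Algebra O K] [IsFractionRing O K]
  (F : IntermediateField K (LaurentSeries K)) [Algebra O ↥F] [IsScalarTower O K ↥F]

theorem s18ia_coe_algebraMap (a : O) :
    (((algebraMap O ↥F a : ↥F)) : LaurentSeries K) =
      coeffMap (algebraMap O K) (HahnSeries.C a) := by
  rw [IsScalarTower.algebraMap_apply O K ↥F]
  have e : (HahnSeries.C a : LaurentSeries O) = HahnSeries.single 0 a := rfl
  rw [e, coeffMap_single, ← algebraMap_laurentSeries_eq_single]
  rfl

theorem s18ia_mem_fibreIdeal {ϖ : O} (hϖ : Irreducible ϖ) (S : Set ↥F)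
    (x : ↥(s18_chart O S)) :
    x ∈ s18_fibreIdeal O S ↔ ∃ b : ↥(s18_chart O S), x = algebraMap O ↥(s18_chart O S) ϖ * b := by
  unfold s18_fibreIdeal
  rw [hϖ.maximalIdeal_eq, Ideal.map_span, Set.image_singleton, Ideal.mem_span_singleton]
  rfl

variable {F}

theorem s18ia_lemmaG_aux {ϖ : O} (hϖ : Irreducible ϖ) (S : Set ↥F)
    (ρ : ↥(s18_chart O S) →+* LaurentSeries (IsLocalRing.ResidueField O))
    (hker : ∀ b, ρ b = 0 → b ∈ s18_fibreIdeal O S)
    (hcompat : ∀ (b b' : ↥(s18_chart O S)) (a : LaurentSeries O),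
      ((b' : ↥F) : LaurentSeries K) = coeffMap (algebraMap O K) a * ((b : ↥F) : LaurentSeries K) →
        ρ b' = coeffMap (IsLocalRing.residue O) a * ρ b)
    (b : ↥(s18_chart O S)) : ∀ (n : ℕ) (β₁ β₂ β₂' : LaurentSeries O),
      coeffMap (IsLocalRing.residue O) β₂' ≠ 0 → β₂ = HahnSeries.C ϖ ^ n * β₂' →
      ((b : ↥F) : LaurentSeries K) * coeffMap (algebraMap O K) β₂ = coeffMap (algebraMap O K) β₁ →
      (∃ c : ↥(s18_chart O S), ((c : ↥F) : LaurentSeries K) = coeffMap (algebraMap O K) β₂) →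
      s18ia_IsRed O K ((b : ↥F) : LaurentSeries K) (ρ b) := by
  have hone : ρ 1 = 1 := map_one ρ
  have hint : ∀ (c : ↥(s18_chart O S)) (β : LaurentSeries O),
      ((c : ↥F) : LaurentSeries K) = coeffMap (algebraMap O K) β →
      ρ c = coeffMap (IsLocalRing.residue O) β := by
    intro c β h
    have := hcompat 1 c β (by rw [h]; simp)
    rw [this, hone, mul_one]
  intro n
  induction n with
  | zero =>
    intro β₁ β₂ β₂' hβ e hb ⟨c, hc⟩
    rw [pow_zero, one_mul] at e
    subst e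
    refine ⟨β₁, β₂, hβ, hb, ?_⟩
    have h1 : ρ (b * c) = coeffMap (IsLocalRing.residue O) β₁ := by
      apply hint
      push_cast
      rw [hc, hb]
    rw [map_mul, hint c β₂ hc] at h1
    exact h1
  | succ n ih =>
    intro β₁ β₂ β₂' hβ e hb ⟨c, hc⟩
    obtain ⟨γ₂, hγ₂⟩ : ∃ γ₂ : LaurentSeries O, γ₂ = HahnSeries.C ϖ ^ n * β₂' := ⟨_, rfl⟩
    have e' : β₂ = HahnSeries.C ϖ * γ₂ := by rw [e, hγ₂, pow_succ]; ring
    have hπ0 : coeffMap (algebraMap O K) (HahnSeries.C ϖ) ≠ 0 := by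
      rw [Ne, s18ia_img_eq_zero]
      intro h
      have := congrArg (fun x : LaurentSeries O => x.coeff 0) h
      simp at this
      exact hϖ.ne_zero this
    -- `c ∈ π · chart`
    have h1 : ρ c = 0 := by
      rw [hint c β₂ hc, e', map_mul, s18ia_red_C hϖ, zero_mul]
    obtain ⟨c', hc'⟩ := (s18ia_mem_fibreIdeal F hϖ S c).mp (hker c h1)
    have hc'L : ((c' : ↥F) : LaurentSeries K) = coeffMap (algebraMap O K) γ₂ := by
      have h2 : ((c : ↥F) : LaurentSeries K) =
          coeffMap (algebraMap O K) (HahnSeries.C ϖ) * ((c' : ↥F) : LaurentSeries K) := by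
        rw [hc']
        push_cast
        rw [← s18ia_coe_algebraMap F ϖ]
      rw [hc, e', map_mul] at h2
      exact (mul_left_cancel₀ hπ0 h2).symm
    -- `β₁ ∈ π · O((q))`
    have h3 : ρ (b * c) = 0 := by rw [map_mul, h1, mul_zero]
    have h4 : ρ (b * c) = coeffMap (IsLocalRing.residue O) β₁ := by
      apply hint
      push_cast
      rw [hc, hb]
    rw [h3] at h4
    obtain ⟨γ₁, hγ₁⟩ := s18ia_red_eq_zero hϖ β₁ h4.symm
    refine ih γ₁ γ₂ β₂' hβ hγ₂ ?_ ⟨c', hc'L⟩
    rw [e', hγ₁, map_mul, map_mul] at hb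
    apply mul_left_cancel₀ hπ0
    rw [← hb]
    ring

/-- **Lemma G**: a reduction datum of a chart is the Gauss reduction. -/
theorem s18ia_lemmaG {ϖ : O} (hϖ : Irreducible ϖ) (S : Set ↥F)
    (ρ : ↥(s18_chart O S) →+* LaurentSeries (IsLocalRing.ResidueField O))
    (hker : ∀ b, ρ b = 0 → b ∈ s18_fibreIdeal O S)
    (hcompat : ∀ (b b' : ↥(s18_chart O S)) (a : LaurentSeries O),
      ((b' : ↥F) : LaurentSeries K) = coeffMap (algebraMap O K) a * ((b : ↥F) : LaurentSeries K) →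
        ρ b' = coeffMap (IsLocalRing.residue O) a * ρ b)
    (H : ∀ f : ↥F, ∃ β₁ β₂ : LaurentSeries O, β₂ ≠ 0 ∧
      (f : LaurentSeries K) * coeffMap (algebraMap O K) β₂ = coeffMap (algebraMap O K) β₁ ∧
      ∃ c : ↥(s18_chart O S), ((c : ↥F) : LaurentSeries K) = coeffMap (algebraMap O K) β₂)
    (b : ↥(s18_chart O S)) : s18ia_IsRed O K ((b : ↥F) : LaurentSeries K) (ρ b) := by
  obtain ⟨β₁, β₂, hβ₂, hb, hc⟩ := H (b : ↥F)
  obtain ⟨n, β₂', hβ₂', e⟩ := s18ia_exists_factor hϖ β₂ hβ₂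
  exact s18ia_lemmaG_aux hϖ S ρ hker hcompat b n β₁ β₂ β₂' hβ₂' e hb hc

end LemmaG

end Fermat.Agent.S18
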