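import Mathlib
import Fermat.Agent.S18.InfDefs
import Fermat.Agent.S18.InfAsmRed
import Fermat.Agent.S18.InfAsmClear

/-!
# S18, package (I4) [INF-ASM], part 4: the fields `F` and `F''` are generated by integral series

* `s18ia_Q 𝔽`: the subfield of `K((q))` of all quotients `img β₁ / img β₂` of integral series
  `β₁, β₂ ∈ O((q))` with `img β₁, img β₂ ∈ 𝔽`;
* `s18ia_F_le_Q`, `s18ia_Fpp_le_Q`: `F ≤ Q(F)`, `F'' ≤ Q(F'')`;
* `s18ia_H`: the hypothesis of Lemma G for a chart.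
-/

set_option autoImplicit false
set_option linter.unusedSectionVars false
set_option linter.style.haveILetI false

open AlgebraicCurve ModularCurve IntermediateField

noncomputable section

namespace Fermat.Agent.S18

section Q

variable (O : Type) {K : Type} [CommRing O] [IsDomain O] [IsDiscreteValuationRing O] [Field K]
  [Algebra O K] [IsFractionRing O K] (𝔽 : IntermediateField K (LaurentSeries K))

/-- `y = img β₁ / img β₂` with `img β₁, img β₂ ∈ 𝔽`. -/
def s18ia_P (y : LaurentSeries K) : Prop :=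
  ∃ β₁ β₂ : LaurentSeries O, β₂ ≠ 0 ∧ coeffMap (algebraMap O K) β₁ ∈ 𝔽 ∧
    coeffMap (algebraMap O K) β₂ ∈ 𝔽 ∧
    y * coeffMap (algebraMap O K) β₂ = coeffMap (algebraMap O K) β₁

variable {O 𝔽}

theorem s18ia_P_img {β : LaurentSeries O} (h : coeffMap (algebraMap O K) β ∈ 𝔽) :
    s18ia_P O 𝔽 (coeffMap (algebraMap O K) β) :=
  ⟨β, 1, one_ne_zero, h, by rw [map_one]; exact one_mem _, by rw [map_one, mul_one]⟩

theorem s18ia_img_C (a : O) :
    coeffMap (algebraMap O K) (HahnSeries.C a) =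
      algebraMap K (LaurentSeries K) (algebraMap O K a) := by
  have e : (HahnSeries.C a : LaurentSeries O) = HahnSeries.single 0 a := rfl
  rw [e, coeffMap_single, ← algebraMap_laurentSeries_eq_single]

theorem s18ia_P_algebraMap (c : K) : s18ia_P O 𝔽 (algebraMap K (LaurentSeries K) c) := by
  obtain ⟨a, b, hb, rfl⟩ := IsFractionRing.div_surjective (A := O) c
  have hb0 : b ≠ 0 := nonZeroDivisors.ne_zero hb
  refine ⟨HahnSeries.C a, HahnSeries.C b, ?_, ?_, ?_, ?_⟩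
  · intro h
    have := congrArg (fun x : LaurentSeries O => x.coeff 0) h
    simp at this
    exact hb0 this
  · rw [s18ia_img_C]
    exact 𝔽.algebraMap_mem _
  · rw [s18ia_img_C]
    exact 𝔽.algebraMap_mem _
  · rw [s18ia_img_C, s18ia_img_C, ← map_mul]
    congr 1
    have : algebraMap O K b ≠ 0 :=
      (map_ne_zero_iff _ (IsFractionRing.injective O K)).mpr hb0
    field_simp

theorem s18ia_P.mem {y : LaurentSeries K} (h : s18ia_P O 𝔽 y) : y ∈ 𝔽 := by
  obtain ⟨β₁, β₂, h0, h1, h2, e⟩ := h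
  have h3 : coeffMap (algebraMap O K) β₂ ≠ 0 := by
    rw [Ne, s18ia_img_eq_zero]
    exact h0
  have : y = coeffMap (algebraMap O K) β₁ / coeffMap (algebraMap O K) β₂ := by
    rw [← e]
    field_simp
  rw [this]
  exact div_mem h1 h2

theorem s18ia_P.add {y z : LaurentSeries K} (hy : s18ia_P O 𝔽 y) (hz : s18ia_P O 𝔽 z) :
    s18ia_P O 𝔽 (y + z) := by
  obtain ⟨β₁, β₂, h0, h1, h2, e⟩ := hy
  obtain ⟨γ₁, γ₂, h0', h1', h2', e'⟩ := hz
  refine ⟨β₁ * γ₂ + γ₁ * β₂, β₂ * γ₂, mul_ne_zero h0 h0', ?_, ?_, ?_⟩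
  · rw [map_add, map_mul, map_mul]
    exact add_mem (mul_mem h1 h2') (mul_mem h1' h2)
  · rw [map_mul]
    exact mul_mem h2 h2'
  · rw [map_add, map_mul, map_mul, map_mul, ← e, ← e']
    ring

theorem s18ia_P.mul {y z : LaurentSeries K} (hy : s18ia_P O 𝔽 y) (hz : s18ia_P O 𝔽 z) :
    s18ia_P O 𝔽 (y * z) := by
  obtain ⟨β₁, β₂, h0, h1, h2, e⟩ := hy
  obtain ⟨γ₁, γ₂, h0', h1', h2', e'⟩ := hz
  refine ⟨β₁ * γ₁, β₂ * γ₂, mul_ne_zero h0 h0', ?_, ?_, ?_⟩
  · rw [map_mul]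
    exact mul_mem h1 h1'
  · rw [map_mul]
    exact mul_mem h2 h2'
  · rw [map_mul, map_mul, ← e, ← e']
    ring

theorem s18ia_P.neg {y : LaurentSeries K} (hy : s18ia_P O 𝔽 y) : s18ia_P O 𝔽 (-y) := by
  obtain ⟨β₁, β₂, h0, h1, h2, e⟩ := hy
  refine ⟨-β₁, β₂, h0, ?_, h2, ?_⟩
  · rw [map_neg]
    exact neg_mem h1
  · rw [map_neg, ← e]
    ring

theorem s18ia_P.inv {y : LaurentSeries K} (hy : s18ia_P O 𝔽 y) : s18ia_P O 𝔽 y⁻¹ := by
  by_cases hy0 : y = 0
  · rw [hy0, inv_zero]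
    have := s18ia_P_algebraMap (O := O) (𝔽 := 𝔽) (0 : K)
    rwa [map_zero] at this
  obtain ⟨β₁, β₂, h0, h1, h2, e⟩ := hy
  have h3 : coeffMap (algebraMap O K) β₂ ≠ 0 := by
    rw [Ne, s18ia_img_eq_zero]
    exact h0
  have h4 : coeffMap (algebraMap O K) β₁ ≠ 0 := by
    rw [← e]
    exact mul_ne_zero hy0 h3
  refine ⟨β₂, β₁, ?_, h2, h1, ?_⟩
  · intro h
    rw [h, map_zero] at h4
    exact h4 rfl
  · rw [← e]
    field_simp

variable (O 𝔽)

/-- The field of quotients of integral series of `𝔽`. -/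
def s18ia_Q : IntermediateField K (LaurentSeries K) where
  carrier := {y | s18ia_P O 𝔽 y}
  mul_mem' := fun hy hz => hy.mul hz
  one_mem' := by
    have := s18ia_P_algebraMap (O := O) (𝔽 := 𝔽) (1 : K)
    rwa [map_one] at this
  add_mem' := fun hy hz => hy.add hz
  zero_mem' := by
    have := s18ia_P_algebraMap (O := O) (𝔽 := 𝔽) (0 : K)
    rwa [map_zero] at this
  algebraMap_mem' := fun c => s18ia_P_algebraMap c
  inv_mem' := fun _ hy => hy.inv

theorem s18ia_mem_Q {y : LaurentSeries K} : y ∈ s18ia_Q O 𝔽 ↔ s18ia_P O 𝔽 y := Iff.rfl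

variable {O 𝔽}

theorem s18ia_P_mono {𝔽' : IntermediateField K (LaurentSeries K)} (h : 𝔽 ≤ 𝔽')
    {y : LaurentSeries K} (hy : s18ia_P O 𝔽 y) : s18ia_P O 𝔽' y := by
  obtain ⟨β₁, β₂, h0, h1, h2, e⟩ := hy
  exact ⟨β₁, β₂, h0, h h1, h h2, e⟩

theorem s18ia_P.qExp {𝔽' : IntermediateField K (LaurentSeries K)} (M : ℕ) [NeZero M]
    (h : 𝔽.map (qExpandAlgHomC K M) ≤ 𝔽') {y : LaurentSeries K} (hy : s18ia_P O 𝔽 y) :
    s18ia_P O 𝔽' (qExpand K M y) := by
  obtain ⟨β₁, β₂, h0, h1, h2, e⟩ := hy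
  refine ⟨qExpand O M β₁, qExpand O M β₂, ?_, ?_, ?_, ?_⟩
  · intro h'
    apply h0
    apply qExpand_injective (R := O) M
    rw [h', map_zero]
  · rw [coeffMap_qExpand]
    exact h ⟨_, h1, rfl⟩
  · rw [coeffMap_qExpand]
    exact h ⟨_, h2, rfl⟩
  · rw [coeffMap_qExpand, coeffMap_qExpand, ← map_mul, e]

end Q

/-! ### The modular function field -/

section F

variable (O K : Type) [CommRing O] [IsDomain O] [IsDiscreteValuationRing O] [Field K] [CharZero K]
  [Algebra O K] [IsFractionRing O K] (M : ℕ) [NeZero M]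

theorem s18ia_coeffEmb_gen (d : ℕ) [NeZero d] :
    coeffEmb K (qExpand ℚ d jq) = coeffMap (algebraMap O K) (qExpand O d (jqModC O)) := by
  unfold coeffEmb
  rw [coeffMap_qExpand, coeffMap_qExpand, ← jqModC_rat, coeffMap_jqModC, coeffMap_jqModC]

theorem s18ia_P_coeffEmb {x : LaurentSeries ℚ} (hx : x ∈ modularFunctionFieldFull M) :
    s18ia_P O (s18_F K M) (coeffEmb K x) := by
  unfold modularFunctionFieldFull at hx
  induction hx using IntermediateField.adjoin_induction with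
  | mem y hy =>
    obtain ⟨d, hd, hdM, rfl⟩ := hy
    rw [s18ia_coeffEmb_gen O K d]
    apply s18ia_P_img
    rw [← s18ia_coeffEmb_gen O K d]
    exact coeffEmb_mem_laurentBaseChange K (jqd_mem_full M hdM)
  | algebraMap c =>
    have e : coeffEmb K (algebraMap ℚ (LaurentSeries ℚ) c) =
        algebraMap K (LaurentSeries K) (algebraMap ℚ K c) := by
      unfold coeffEmb
      rw [algebraMap_laurentSeries_eq_single, coeffMap_single,
        ← algebraMap_laurentSeries_eq_single]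
    rw [e]
    exact s18ia_P_algebraMap _
  | add y z _ _ hy hz =>
    rw [map_add]
    exact hy.add hz
  | inv y _ hy =>
    rw [map_inv₀]
    exact hy.inv
  | mul y z _ _ hy hz =>
    rw [map_mul]
    exact hy.mul hz

/-- Every element of `F_K(M)` is a quotient of integral series of `F_K(M)`. -/
theorem s18ia_F_le_Q : s18_F K M ≤ s18ia_Q O (s18_F K M) := by
  show laurentBaseChange K (modularFunctionFieldFull M) ≤ _
  unfold laurentBaseChange
  rw [IntermediateField.adjoin_le_iff]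
  rintro _ ⟨x, hx, rfl⟩
  exact s18ia_P_coeffEmb O K M hx

/-- Every element of `F''` is a quotient of integral series of `F''`. -/
theorem s18ia_Fpp_le_Q (σ : LaurentSeries O) :
    s18_Fpp O K M σ ≤ s18ia_Q O (s18_Fpp O K M σ) := by
  unfold s18_Fpp
  refine sup_le ?_ ?_
  · rintro _ ⟨x, hx, rfl⟩
    exact (s18ia_F_le_Q O K M hx).qExp M le_sup_left
  · rw [IntermediateField.adjoin_simple_le_iff]
    apply s18ia_P_img
    exact (le_sup_right : K⟮coeffMap (algebraMap O K) σ⟯ ≤ _)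
      (IntermediateField.mem_adjoin_simple_self K _)

end F

/-! ### The hypothesis of Lemma G -/

section H

variable {O K : Type} [CommRing O] [IsDomain O] [IsDiscreteValuationRing O] [Field K]
  [Algebra O K] [IsFractionRing O K]
  (𝔽 : IntermediateField K (LaurentSeries K)) [Algebra O ↥𝔽] [IsScalarTower O K ↥𝔽]

/-- The elements of `O[t]` are integral series, if `t` is. -/
theorem s18ia_adjoin_img {t : ↥𝔽} {τ : LaurentSeries O}
    (ht : (t : LaurentSeries K) = coeffMap (algebraMap O K) τ) {d : ↥𝔽}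
    (hd : d ∈ Algebra.adjoin O ({t} : Set ↥𝔽)) :
    ∃ δ : LaurentSeries O, (d : LaurentSeries K) = coeffMap (algebraMap O K) δ := by
  induction hd using Algebra.adjoin_induction with
  | mem x hx =>
    rw [Set.mem_singleton_iff] at hx
    subst hx
    exact ⟨τ, ht⟩
  | algebraMap a =>
    exact ⟨HahnSeries.C a, s18ia_coe_algebraMap 𝔽 a⟩
  | add x y _ _ hx hy =>
    obtain ⟨δ₁, h₁⟩ := hx
    obtain ⟨δ₂, h₂⟩ := hy
    exact ⟨δ₁ + δ₂, by push_cast; rw [h₁, h₂, map_add]⟩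
  | mul x y _ _ hx hy =>
    obtain ⟨δ₁, h₁⟩ := hx
    obtain ⟨δ₂, h₂⟩ := hy
    exact ⟨δ₁ * δ₂, by push_cast; rw [h₁, h₂, map_mul]⟩

/-- The hypothesis of Lemma G for the chart of an integral series `t`. -/
theorem s18ia_H (hQ : 𝔽 ≤ s18ia_Q O 𝔽) {t : ↥𝔽} {τ : LaurentSeries O}
    (ht : (t : LaurentSeries K) = coeffMap (algebraMap O K) τ)
    (halg : ∀ f : ↥𝔽, IsAlgebraic ↥K⟮t⟯ f) (f : ↥𝔽) :
    ∃ β₁ β₂ : LaurentSeries O, β₂ ≠ 0 ∧
      (f : LaurentSeries K) * coeffMap (algebraMap O K) β₂ = coeffMap (algebraMap O K) β₁ ∧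
      ∃ c : ↥(s18_chart O ({t} : Set ↥𝔽)),
        ((c : ↥𝔽) : LaurentSeries K) = coeffMap (algebraMap O K) β₂ := by
  obtain ⟨β₁, β₂, h0, -, h2, e⟩ := hQ f.2
  obtain ⟨d, hd, hd0, hdc⟩ := s18ia_exists_mul_mem_chart (O := O) (K := K) halg
    (⟨coeffMap (algebraMap O K) β₂, h2⟩ : ↥𝔽)
  obtain ⟨δ, hδ⟩ := s18ia_adjoin_img 𝔽 ht hd
  have hδ0 : δ ≠ 0 := by
    rintro rfl
    rw [map_zero] at hδ
    exact hd0 (Subtype.ext hδ)
  refine ⟨δ * β₁, δ * β₂, mul_ne_zero hδ0 h0, ?_, ⟨_, hdc⟩, ?_⟩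
  · rw [map_mul, map_mul, ← e]
    ring
  · push_cast
    rw [hδ, map_mul]

end H

end Fermat.Agent.S18
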