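import Mathlib
import Fermat.Agent.S18.InfDefs

/-!
# S18, package (I4) [INF-ASM], part 10: the projection onto the exponents in `M ℤ`

`s18ia_proj`: if `θ̄ W = θ̄ U · v` in `κ((q))` and `θ̄ z` is the part of `v` with exponents in
`M ℤ`, then `W = U · z`.
-/

set_option autoImplicit false
set_option linter.unusedSectionVars false

open AlgebraicCurve ModularCurve

noncomputable section

namespace Fermat.Agent.S18

section Proj

variable {κ : Type*} [Field κ] (M : ℕ) [NeZero M]

theorem s18ia_proj (U W z v : LaurentSeries κ)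
    (h : qExpand κ M W = qExpand κ M U * v)
    (hz : ∀ k : ℤ, (qExpand κ M z).coeff k = if (M : ℤ) ∣ k then v.coeff k else 0) :
    W = U * z := by
  apply qExpand_injective (R := κ) M
  rw [map_mul]
  -- `d = v - θ̄ z` has no exponents in `M ℤ`
  have hd : ∀ k : ℤ, (M : ℤ) ∣ k → (v - qExpand κ M z).coeff k = 0 := by
    intro k hk
    rw [HahnSeries.coeff_sub, hz k, if_pos hk, sub_self]
  have e : qExpand κ M W - qExpand κ M U * qExpand κ M z =
      qExpand κ M U * (v - qExpand κ M z) := by
    rw [h]; ring
  have h0 : qExpand κ M W - qExpand κ M U * qExpand κ M z = 0 := by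
    ext k
    rw [HahnSeries.coeff_zero]
    by_cases hk : (M : ℤ) ∣ k
    · rw [e, HahnSeries.coeff_mul]
      refine Finset.sum_eq_zero (fun ij hij => ?_)
      rw [Finset.mem_antidiagonal] at hij
      obtain ⟨h1, -, h3⟩ := hij
      by_cases ha : (M : ℤ) ∣ ij.1
      · have hb : (M : ℤ) ∣ ij.2 := by
          have : ij.2 = k - ij.1 := by omega
          rw [this]
          exact dvd_sub hk ha
        rw [hd _ hb, mul_zero]
      · rw [qExpand_coeff_of_not_dvd M U ha, zero_mul]
    · rw [← map_mul, ← map_sub, qExpand_coeff_of_not_dvd M _ hk]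
  exact sub_eq_zero.mp h0

end Proj

end Fermat.Agent.S18
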