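import Mathlib

/-!
# S18, package (I4) [INF-ASM], part 2: integrally closed quotients, concretely

`ρ : B → E` a ring homomorphism to a field with kernel `I`.  Then `B ⧸ I` is integrally closed
iff for all `a, b ∈ B`, `ρ b ≠ 0`, such that `ρ a / ρ b` is integral over `ρ(B)`, there is
`c ∈ B` with `ρ a = ρ b · ρ c` (`s18ia_ic_iff`); `s18ia_ic_hom_iff` is the same with the integral
equation in homogeneous form.
-/

set_option autoImplicit false

open Polynomial

noncomputable section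

namespace Fermat.Agent.S18

section IC

variable {B E : Type*} [CommRing B] [Field E] (ρ : B →+* E) (I : Ideal B)

theorem s18ia_ic_iff (hI : ∀ x, x ∈ I ↔ ρ x = 0) :
    IsIntegrallyClosed (B ⧸ I) ↔
      ∀ a b : B, ρ b ≠ 0 → (∃ p : B[X], p.Monic ∧ p.eval₂ ρ (ρ a / ρ b) = 0) →
        ∃ c : B, ρ a = ρ b * ρ c := by
  have hIker : I = RingHom.ker ρ := by
    ext x
    rw [hI, RingHom.mem_ker]
  haveI hprime : I.IsPrime := by
    rw [hIker]
    exact RingHom.ker_isPrime ρ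
  haveI : IsDomain (B ⧸ I) := Ideal.Quotient.isDomain I
  set ι : B ⧸ I →+* E := Ideal.Quotient.lift I ρ (fun x hx => (hI x).mp hx) with hι
  have hιmk : ∀ x : B, ι (Ideal.Quotient.mk I x) = ρ x := fun x => Ideal.Quotient.lift_mk I ρ _
  have hιinj : Function.Injective ι := by
    rw [injective_iff_map_eq_zero]
    intro x hx
    obtain ⟨b, rfl⟩ := Ideal.Quotient.mk_surjective x
    rw [hιmk] at hx
    exact Ideal.Quotient.eq_zero_iff_mem.mpr ((hI b).mpr hx)
  set ι' : FractionRing (B ⧸ I) →+* E := IsFractionRing.lift hιinj with hι'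
  have hι'alg : ∀ x : B ⧸ I, ι' (algebraMap (B ⧸ I) (FractionRing (B ⧸ I)) x) = ι x :=
    fun x => IsFractionRing.lift_algebraMap hιinj x
  have hι'inj : Function.Injective ι' := ι'.injective
  have hcomp : (ι'.comp (algebraMap (B ⧸ I) (FractionRing (B ⧸ I)))).comp
      (Ideal.Quotient.mk I) = ρ := by
    ext x
    simp only [RingHom.comp_apply]
    rw [hι'alg, hιmk]
  have key : ∀ (p : B[X]) (x : FractionRing (B ⧸ I)),
      ι' ((p.map (Ideal.Quotient.mk I)).eval₂ (algebraMap (B ⧸ I) (FractionRing (B ⧸ I))) x) =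
        p.eval₂ ρ (ι' x) := by
    intro p x
    rw [Polynomial.hom_eval₂, Polynomial.eval₂_map, hcomp]
  constructor
  · intro hic a b hb ⟨p, hp, hpe⟩
    set x : FractionRing (B ⧸ I) :=
      algebraMap (B ⧸ I) (FractionRing (B ⧸ I)) (Ideal.Quotient.mk I a) /
        algebraMap (B ⧸ I) (FractionRing (B ⧸ I)) (Ideal.Quotient.mk I b) with hx
    have hιx : ι' x = ρ a / ρ b := by
      rw [hx, map_div₀, hι'alg, hι'alg, hιmk, hιmk]
    have hint : IsIntegral (B ⧸ I) x := by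
      refine ⟨p.map (Ideal.Quotient.mk I), hp.map _, ?_⟩
      apply hι'inj
      rw [key, hιx, hpe, map_zero]
    obtain ⟨y, hy⟩ := IsIntegrallyClosed.isIntegral_iff.mp hint
    obtain ⟨c, rfl⟩ := Ideal.Quotient.mk_surjective y
    refine ⟨c, ?_⟩
    have h1 : ι' x = ρ c := by rw [← hy, hι'alg, hιmk]
    rw [hιx] at h1
    rw [← h1]
    field_simp
  · intro h
    refine (isIntegrallyClosed_iff (FractionRing (B ⧸ I))).mpr ?_
    intro x hx
    obtain ⟨a', b', hb', rfl⟩ := IsFractionRing.div_surjective (A := B ⧸ I) x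
    obtain ⟨a, rfl⟩ := Ideal.Quotient.mk_surjective a'
    obtain ⟨b, rfl⟩ := Ideal.Quotient.mk_surjective b'
    have hb0 : ρ b ≠ 0 := by
      intro h0
      have : Ideal.Quotient.mk I b = 0 := Ideal.Quotient.eq_zero_iff_mem.mpr ((hI b).mpr h0)
      rw [this] at hb'
      exact zero_notMem_nonZeroDivisors hb'
    obtain ⟨p', hp', hpe'⟩ := hx
    obtain ⟨p, hpmap, -, hp⟩ := Polynomial.lifts_and_natDegree_eq_and_monic
      ((Polynomial.mem_lifts _).mpr (Polynomial.map_surjective _ Ideal.Quotient.mk_surjective p'))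
      hp'
    have hιx : ι' (algebraMap (B ⧸ I) (FractionRing (B ⧸ I)) (Ideal.Quotient.mk I a) /
        algebraMap (B ⧸ I) (FractionRing (B ⧸ I)) (Ideal.Quotient.mk I b)) = ρ a / ρ b := by
      rw [map_div₀, hι'alg, hι'alg, hιmk, hιmk]
    have h1 : p.eval₂ ρ (ρ a / ρ b) = 0 := by
      rw [← hιx, ← key, hpmap, hpe', map_zero]
    obtain ⟨c, hc⟩ := h a b hb0 ⟨p, hp, h1⟩
    refine ⟨Ideal.Quotient.mk I c, ?_⟩
    apply hι'inj
    rw [hι'alg, hιmk, hιx, hc]
    field_simp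

/-- The homogeneous form of the integral equation. -/
theorem s18ia_hom_of_monic (a b : B) (hb : ρ b ≠ 0) (p : B[X]) (hp : p.Monic)
    (hpe : p.eval₂ ρ (ρ a / ρ b) = 0) :
    ρ a ^ p.natDegree +
      ∑ i ∈ Finset.range p.natDegree, ρ (p.coeff i) * ρ a ^ i * ρ b ^ (p.natDegree - i) = 0 := by
  have h1 : p.eval₂ ρ (ρ a / ρ b) = (ρ a / ρ b) ^ p.natDegree +
      ∑ i ∈ Finset.range p.natDegree, ρ (p.coeff i) * (ρ a / ρ b) ^ i := by
    conv_lhs => rw [hp.as_sum]
    rw [Polynomial.eval₂_add, Polynomial.eval₂_pow, Polynomial.eval₂_X,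
      Polynomial.eval₂_finsetSum]
    congr 1
    refine Finset.sum_congr rfl (fun i _ => ?_)
    rw [Polynomial.eval₂_mul, Polynomial.eval₂_C, Polynomial.eval₂_pow, Polynomial.eval₂_X]
  rw [h1] at hpe
  have h2 := congrArg (fun z => z * ρ b ^ p.natDegree) hpe
  simp only [zero_mul, add_mul, Finset.sum_mul] at h2
  rw [← h2]
  congr 1
  · rw [div_pow]
    field_simp
  · refine Finset.sum_congr rfl (fun i hi => ?_)
    have hi' : i ≤ p.natDegree := (Finset.mem_range.mp hi).le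
    rw [div_pow, ← pow_sub_mul_pow (ρ b) hi']
    field_simp

theorem s18ia_monic_of_hom (a b : B) (hb : ρ b ≠ 0) (n : ℕ) (α : ℕ → B)
    (h : ρ a ^ n + ∑ i ∈ Finset.range n, ρ (α i) * ρ a ^ i * ρ b ^ (n - i) = 0) :
    ∃ p : B[X], p.Monic ∧ p.eval₂ ρ (ρ a / ρ b) = 0 := by
  classical
  refine ⟨X ^ n + ∑ i ∈ Finset.range n, C (α i) * X ^ i, ?_, ?_⟩
  · apply Polynomial.monic_X_pow_add
    refine (Polynomial.degree_sum_le _ _).trans_lt ?_
    rw [Finset.sup_lt_iff (by exact WithBot.bot_lt_coe n)]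
    intro i hi
    refine (Polynomial.degree_C_mul_X_pow_le i (α i)).trans_lt ?_
    exact_mod_cast Finset.mem_range.mp hi
  · rw [Polynomial.eval₂_add, Polynomial.eval₂_pow, Polynomial.eval₂_X,
      Polynomial.eval₂_finsetSum]
    have h2 : (ρ a / ρ b) ^ n + ∑ i ∈ Finset.range n,
        Polynomial.eval₂ ρ (ρ a / ρ b) (C (α i) * X ^ i) =
        (ρ a ^ n + ∑ i ∈ Finset.range n, ρ (α i) * ρ a ^ i * ρ b ^ (n - i)) / ρ b ^ n := by
      rw [add_div, Finset.sum_div, div_pow]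
      congr 1
      refine Finset.sum_congr rfl (fun i hi => ?_)
      have hi' : i ≤ n := (Finset.mem_range.mp hi).le
      rw [Polynomial.eval₂_mul, Polynomial.eval₂_C, Polynomial.eval₂_pow, Polynomial.eval₂_X,
        div_pow, ← pow_sub_mul_pow (ρ b) hi']
      field_simp
    rw [h2, h, zero_div]

theorem s18ia_ic_hom_iff (hI : ∀ x, x ∈ I ↔ ρ x = 0) :
    IsIntegrallyClosed (B ⧸ I) ↔
      ∀ a b : B, ρ b ≠ 0 → ∀ (n : ℕ) (α : ℕ → B),
        ρ a ^ n + ∑ i ∈ Finset.range n, ρ (α i) * ρ a ^ i * ρ b ^ (n - i) = 0 →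
        ∃ c : B, ρ a = ρ b * ρ c := by
  rw [s18ia_ic_iff ρ I hI]
  constructor
  · intro h a b hb n α hα
    exact h a b hb (s18ia_monic_of_hom ρ a b hb n α hα)
  · intro h a b hb ⟨p, hp, hpe⟩
    exact h a b hb p.natDegree (fun i => p.coeff i) (s18ia_hom_of_monic ρ a b hb p hp hpe)

end IC

end Fermat.Agent.S18
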