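import Mathlib
import Fermat.Agent.S18.InfDefs
import Fermat.Agent.S18.InfAsmRed
import Fermat.Agent.S18.InfAsmIC
import Fermat.Agent.S18.InfAsmClear
import Fermat.Agent.S18.InfAsmField
import Fermat.Agent.S18.InfAsmA

/-!
# S18, package (I4) [INF-ASM], part 7: the reduction map of `B''_A`

`𝔽 ⊆ K((q))` a subfield, `sig ∈ 𝔽` the image of an integral series `σ = q + ...`,
`c = 1 - 1728 sig^M`, `A = O[sig, c⁻¹]`, `B'' =` the chart of `sig`, `B''_A =` the integral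
closure of `A` in `𝔽`.  If every element of `B''` has a Gauss reduction, so has every element
of `B''_A = B''[1/c]`; `s18ia_rhoA` is the reduction map of `B''_A`.
-/

set_option autoImplicit false
set_option linter.unusedSectionVars false
set_option linter.style.haveILetI false

open AlgebraicCurve ModularCurve IntermediateField Polynomial

noncomputable section

namespace Fermat.Agent.S18

/-- `g = 1 - 1728 X^M`. -/
def s18ia_g (O : Type) [CommRing O] (M : ℕ) : O[X] := 1 - C 1728 * X ^ M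

theorem s18ia_g_coeff (O : Type) [CommRing O] {M : ℕ} (hM : 0 < M) :
    (s18ia_g O M).coeff 0 = 1 := by
  unfold s18ia_g
  rw [Polynomial.coeff_sub, Polynomial.coeff_one_zero, Polynomial.coeff_C_mul,
    Polynomial.coeff_X_pow, if_neg hM.ne, mul_zero, sub_zero]

theorem s18ia_g_aeval {O E : Type} [CommRing O] [Field E] [Algebra O E] (M : ℕ) (s : E) :
    aeval s (s18ia_g O M) = 1 - 1728 * s ^ M := by
  unfold s18ia_g
  rw [map_sub, map_one, map_mul, map_pow, aeval_X, aeval_C, map_ofNat]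

section Sigma

variable {O : Type} [CommRing O] [IsDomain O] [IsDiscreteValuationRing O]

theorem s18ia_sigma_ne_zero {σ : LaurentSeries O} (hσ1 : σ.coeff 1 = 1) : σ ≠ 0 := by
  rintro rfl
  simp at hσ1

theorem s18ia_sigma_order {σ : LaurentSeries O} (hσ1 : σ.coeff 1 = 1)
    (hσ0 : ∀ k : ℤ, k < 1 → σ.coeff k = 0) : σ.order = 1 := by
  have h0 := s18ia_sigma_ne_zero hσ1
  apply le_antisymm
  · exact HahnSeries.order_le_of_coeff_ne_zero (by rw [hσ1]; exact one_ne_zero)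
  · by_contra h
    exact h0 (HahnSeries.coeff_order_eq_zero.mp (hσ0 _ (not_le.mp h)))

theorem s18ia_sigma_pow_coeff {σ : LaurentSeries O} (hσ1 : σ.coeff 1 = 1)
    (hσ0 : ∀ k : ℤ, k < 1 → σ.coeff k = 0) {M : ℕ} (hM : 0 < M) : (σ ^ M).coeff 0 = 0 := by
  apply HahnSeries.coeff_eq_zero_of_lt_order
  rw [HahnSeries.order_pow, s18ia_sigma_order hσ1 hσ0]
  simpa using hM

/-- The reduction of `1 - 1728 σ^M` is not zero. -/
theorem s18ia_red_c_ne_zero {σ : LaurentSeries O} (hσ1 : σ.coeff 1 = 1)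
    (hσ0 : ∀ k : ℤ, k < 1 → σ.coeff k = 0) {M : ℕ} (hM : 0 < M) :
    coeffMap (IsLocalRing.residue O) (1 - HahnSeries.C 1728 * σ ^ M) ≠ 0 := by
  intro h
  have h1 := congrArg (fun x : LaurentSeries (IsLocalRing.ResidueField O) => x.coeff 0) h
  simp only [coeffMap_coeff, HahnSeries.coeff_zero] at h1
  rw [HahnSeries.coeff_sub, s18ia_C_mul_coeff, s18ia_sigma_pow_coeff hσ1 hσ0 hM, mul_zero,
    sub_zero, HahnSeries.coeff_one, if_pos rfl, map_one] at h1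
  exact one_ne_zero h1

end Sigma

section RhoA

variable {O K : Type} [CommRing O] [IsDomain O] [IsDiscreteValuationRing O] [Field K]
  [Algebra O K] [IsFractionRing O K]
  (𝔽 : IntermediateField K (LaurentSeries K)) [Algebra O ↥𝔽] [IsScalarTower O K ↥𝔽]
  {M : ℕ} {sig : ↥𝔽} {σ : LaurentSeries O}

/-- `c = 1 - 1728 sig^M` is the image of an integral series. -/
theorem s18ia_c_coe (hsig : (sig : LaurentSeries K) = coeffMap (algebraMap O K) σ) :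
    (((1 - 1728 * sig ^ M : ↥𝔽)) : LaurentSeries K) =
      coeffMap (algebraMap O K) (1 - HahnSeries.C 1728 * σ ^ M) := by
  push_cast
  rw [hsig, map_sub, map_one, map_mul, map_pow]
  congr 2
  have e : (HahnSeries.C (1728 : O) : LaurentSeries O) = HahnSeries.single 0 1728 := rfl
  rw [e, coeffMap_single, map_ofNat]
  rfl

theorem s18ia_c_isRed (hsig : (sig : LaurentSeries K) = coeffMap (algebraMap O K) σ) :
    s18ia_IsRed O K (((1 - 1728 * sig ^ M : ↥𝔽)) : LaurentSeries K)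
      (coeffMap (IsLocalRing.residue O) (1 - HahnSeries.C 1728 * σ ^ M)) := by
  rw [s18ia_c_coe 𝔽 hsig]
  exact s18ia_isRed_img _

theorem s18ia_c_mem_adjoin :
    (1 - 1728 * sig ^ M : ↥𝔽) ∈ Algebra.adjoin O ({sig} : Set ↥𝔽) := by
  rw [← s18ia_g_aeval (O := O) M sig, Algebra.adjoin_singleton_eq_range_aeval]
  exact ⟨_, rfl⟩

variable {𝔽}

/-- `B''_A = B''[1/c]`. -/
theorem s18ia_BA_clear (hc0 : (1 - 1728 * sig ^ M : ↥𝔽) ≠ 0) {y : ↥𝔽}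
    (hy : IsIntegral ↥(Algebra.adjoin O ({sig, (1 - 1728 * sig ^ M)⁻¹} : Set ↥𝔽)) y) :
    ∃ N : ℕ, (1 - 1728 * sig ^ M) ^ N * y ∈ s18_chart O ({sig} : Set ↥𝔽) :=
  s18ia_clear (Algebra.adjoin O ({sig} : Set ↥𝔽))
    (Algebra.adjoin O ({sig, (1 - 1728 * sig ^ M)⁻¹} : Set ↥𝔽)) (s18ia_c_mem_adjoin 𝔽)
    (fun _ ha => s18ia_A_clear' hc0 (s18ia_g_aeval (O := O) M sig) ha) hy

/-- `B'' ⊆ B''_A`. -/
theorem s18ia_chart_le_BA {y : ↥𝔽} (hy : y ∈ s18_chart O ({sig} : Set ↥𝔽)) :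
    IsIntegral ↥(Algebra.adjoin O ({sig, (1 - 1728 * sig ^ M)⁻¹} : Set ↥𝔽)) y := by
  have hle : Algebra.adjoin O ({sig} : Set ↥𝔽) ≤
      Algebra.adjoin O ({sig, (1 - 1728 * sig ^ M)⁻¹} : Set ↥𝔽) :=
    Algebra.adjoin_mono (by intro x hx; rw [Set.mem_singleton_iff] at hx; subst hx; simp)
  obtain ⟨p, hp, hpy⟩ := hy
  refine ⟨p.map (Subalgebra.inclusion hle).toRingHom, hp.map _, ?_⟩
  rw [Polynomial.eval₂_map]
  exact hpy

/-- Every element of `B''_A` has a Gauss reduction. -/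
theorem s18ia_BA_isRed (hM : 0 < M)
    (hsig : (sig : LaurentSeries K) = coeffMap (algebraMap O K) σ)
    (hσ1 : σ.coeff 1 = 1) (hσ0 : ∀ k : ℤ, k < 1 → σ.coeff k = 0)
    (hV : ∀ b : ↥(s18_chart O ({sig} : Set ↥𝔽)),
      ∃ r, s18ia_IsRed O K ((b : ↥𝔽) : LaurentSeries K) r)
    (hc0 : (1 - 1728 * sig ^ M : ↥𝔽) ≠ 0) {y : ↥𝔽}
    (hy : IsIntegral ↥(Algebra.adjoin O ({sig, (1 - 1728 * sig ^ M)⁻¹} : Set ↥𝔽)) y) :
    ∃ r, s18ia_IsRed O K (y : LaurentSeries K) r := by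
  obtain ⟨N, hN⟩ := s18ia_BA_clear hc0 hy
  obtain ⟨r, hr⟩ := hV ⟨_, hN⟩
  have hc := (s18ia_c_isRed 𝔽 (M := M) hsig).pow N
  have hcne := pow_ne_zero N (s18ia_red_c_ne_zero hσ1 hσ0 hM)
  have h1 := (hc.inv hcne).mul hr
  refine ⟨((coeffMap (IsLocalRing.residue O)) (1 - HahnSeries.C 1728 * σ ^ M) ^ N)⁻¹ * r, ?_⟩
  have h0 : (((1 - 1728 * sig ^ M : ↥𝔽)) : LaurentSeries K) ^ N ≠ 0 := by
    apply pow_ne_zero
    intro h
    apply hc0
    exact Subtype.ext h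
  have e1 : ((((1 - 1728 * sig ^ M) ^ N * y : ↥𝔽)) : LaurentSeries K) =
      (((1 - 1728 * sig ^ M : ↥𝔽)) : LaurentSeries K) ^ N * (y : LaurentSeries K) := rfl
  have e : (y : LaurentSeries K) =
      ((((1 - 1728 * sig ^ M : ↥𝔽)) : LaurentSeries K) ^ N)⁻¹ *
        ((((1 - 1728 * sig ^ M) ^ N * y : ↥𝔽)) : LaurentSeries K) := by
    rw [e1, ← mul_assoc, inv_mul_cancel₀ h0, one_mul]
  rw [e]
  exact h1

end RhoA

/-! ### Reduction maps of rings of Gauss-integral series -/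

section RedHom

variable {O K : Type} [CommRing O] [IsDomain O] [IsDiscreteValuationRing O] [Field K]
  [Algebra O K] [IsFractionRing O K]

/-- The Gauss reduction, restricted to a ring of Gauss-integral series. -/
def s18ia_redHom {R : Type*} [CommRing R] (ι : R →+* LaurentSeries K)
    (h : ∀ x, ∃ r, s18ia_IsRed O K (ι x) r) :
    R →+* LaurentSeries (IsLocalRing.ResidueField O) where
  toFun x := s18ia_RedF O K (ι x)
  map_one' := s18ia_RedF_eq (by rw [map_one]; exact s18ia_isRed_one)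
  map_mul' x y := s18ia_RedF_eq (by
    rw [map_mul]; exact (s18ia_isRed_RedF (h x)).mul (s18ia_isRed_RedF (h y)))
  map_zero' := s18ia_RedF_eq (by rw [map_zero]; exact s18ia_isRed_zero)
  map_add' x y := s18ia_RedF_eq (by
    rw [map_add]; exact (s18ia_isRed_RedF (h x)).add (s18ia_isRed_RedF (h y)))

theorem s18ia_redHom_isRed {R : Type*} [CommRing R] (ι : R →+* LaurentSeries K)
    (h : ∀ x, ∃ r, s18ia_IsRed O K (ι x) r) (x : R) :
    s18ia_IsRed O K (ι x) (s18ia_redHom ι h x) :=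
  s18ia_isRed_RedF (h x)

theorem s18ia_redHom_eq {R : Type*} [CommRing R] (ι : R →+* LaurentSeries K)
    (h : ∀ x, ∃ r, s18ia_IsRed O K (ι x) r) {x : R}
    {r : LaurentSeries (IsLocalRing.ResidueField O)} (hr : s18ia_IsRed O K (ι x) r) :
    s18ia_redHom ι h x = r :=
  s18ia_RedF_eq hr

end RedHom

section RhoA2

variable {O K : Type} [CommRing O] [IsDomain O] [IsDiscreteValuationRing O] [Field K]
  [Algebra O K] [IsFractionRing O K]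
  {𝔽 : IntermediateField K (LaurentSeries K)} [Algebra O ↥𝔽] [IsScalarTower O K ↥𝔽]
  {M : ℕ} {sig : ↥𝔽} {σ : LaurentSeries O}

/-- The coercion `B''_A → K((q))`. -/
def s18ia_BA_coe (𝔽 : IntermediateField K (LaurentSeries K)) [Algebra O ↥𝔽] (M : ℕ)
    (sig : ↥𝔽) :
    ↥(integralClosure ↥(Algebra.adjoin O ({sig, (1 - 1728 * sig ^ M)⁻¹} : Set ↥𝔽)) ↥𝔽) →+*
      LaurentSeries K :=
  (𝔽.val : ↥𝔽 →+* LaurentSeries K).comp
    (algebraMap ↥(integralClosure ↥(Algebra.adjoin O ({sig, (1 - 1728 * sig ^ M)⁻¹} : Set ↥𝔽))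
      ↥𝔽) ↥𝔽)

theorem s18ia_BA_coe_apply
    (y : ↥(integralClosure ↥(Algebra.adjoin O ({sig, (1 - 1728 * sig ^ M)⁻¹} : Set ↥𝔽)) ↥𝔽)) :
    s18ia_BA_coe 𝔽 M sig y = (((y : ↥𝔽)) : LaurentSeries K) := rfl

theorem s18ia_BA_hV (hM : 0 < M)
    (hsig : (sig : LaurentSeries K) = coeffMap (algebraMap O K) σ)
    (hσ1 : σ.coeff 1 = 1) (hσ0 : ∀ k : ℤ, k < 1 → σ.coeff k = 0)
    (hV : ∀ b : ↥(s18_chart O ({sig} : Set ↥𝔽)),
      ∃ r, s18ia_IsRed O K ((b : ↥𝔽) : LaurentSeries K) r)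
    (hc0 : (1 - 1728 * sig ^ M : ↥𝔽) ≠ 0)
    (y : ↥(integralClosure ↥(Algebra.adjoin O ({sig, (1 - 1728 * sig ^ M)⁻¹} : Set ↥𝔽)) ↥𝔽)) :
    ∃ r, s18ia_IsRed O K (s18ia_BA_coe 𝔽 M sig y) r :=
  s18ia_BA_isRed hM hsig hσ1 hσ0 hV hc0 y.2

/-- The kernel of the reduction map of `B''_A` is generated by `ϖ`. -/
theorem s18ia_BA_ker {ϖ : O} (hϖ : Irreducible ϖ)
    (hsig : (sig : LaurentSeries K) = coeffMap (algebraMap O K) σ)
    (ρ : ↥(s18_chart O ({sig} : Set ↥𝔽)) →+* LaurentSeries (IsLocalRing.ResidueField O))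
    (hker : ∀ b, ρ b = 0 → b ∈ s18_fibreIdeal O ({sig} : Set ↥𝔽))
    (hG : ∀ b : ↥(s18_chart O ({sig} : Set ↥𝔽)),
      s18ia_IsRed O K ((b : ↥𝔽) : LaurentSeries K) (ρ b))
    (hc0 : (1 - 1728 * sig ^ M : ↥𝔽) ≠ 0)
    (y : ↥(integralClosure ↥(Algebra.adjoin O ({sig, (1 - 1728 * sig ^ M)⁻¹} : Set ↥𝔽)) ↥𝔽))
    (hy : s18ia_IsRed O K (s18ia_BA_coe 𝔽 M sig y) 0) :
    y ∈ Ideal.span ({algebraMap ↥(Algebra.adjoin O ({sig, (1 - 1728 * sig ^ M)⁻¹} : Set ↥𝔽))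
      ↥(integralClosure ↥(Algebra.adjoin O ({sig, (1 - 1728 * sig ^ M)⁻¹} : Set ↥𝔽)) ↥𝔽)
      (algebraMap O ↥(Algebra.adjoin O ({sig, (1 - 1728 * sig ^ M)⁻¹} : Set ↥𝔽)) ϖ)} :
      Set ↥(integralClosure ↥(Algebra.adjoin O ({sig, (1 - 1728 * sig ^ M)⁻¹} : Set ↥𝔽)) ↥𝔽)) := by
  obtain ⟨N, hN⟩ := s18ia_BA_clear hc0 y.2
  have hc := (s18ia_c_isRed 𝔽 (M := M) hsig).pow N
  have h1 : s18ia_IsRed O K
      ((((⟨(1 - 1728 * sig ^ M) ^ N * (y : ↥𝔽), hN⟩ : ↥(s18_chart O ({sig} : Set ↥𝔽))) : ↥𝔽)) :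
        LaurentSeries K)
      (coeffMap (IsLocalRing.residue O) (1 - HahnSeries.C 1728 * σ ^ M) ^ N * 0) :=
    hc.mul hy
  rw [mul_zero] at h1
  have h2 : ρ ⟨(1 - 1728 * sig ^ M) ^ N * (y : ↥𝔽), hN⟩ = 0 := (hG _).unique h1
  obtain ⟨b, hb⟩ := (s18ia_mem_fibreIdeal 𝔽 hϖ _ _).mp (hker _ h2)
  have hb' : (1 - 1728 * sig ^ M) ^ N * (y : ↥𝔽) = algebraMap O ↥𝔽 ϖ * (b : ↥𝔽) := by
    have := congrArg (fun z : ↥(s18_chart O ({sig} : Set ↥𝔽)) => (z : ↥𝔽)) hb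
    exact this
  -- `z = c⁻ᴺ b ∈ B''_A`
  have hcinv : IsIntegral ↥(Algebra.adjoin O ({sig, (1 - 1728 * sig ^ M)⁻¹} : Set ↥𝔽))
      ((1 - 1728 * sig ^ M : ↥𝔽)⁻¹) := by
    have hmem : (1 - 1728 * sig ^ M : ↥𝔽)⁻¹ ∈
        Algebra.adjoin O ({sig, (1 - 1728 * sig ^ M)⁻¹} : Set ↥𝔽) :=
      Algebra.subset_adjoin (by simp)
    exact isIntegral_algebraMap (R := ↥(Algebra.adjoin O ({sig, (1 - 1728 * sig ^ M)⁻¹} :
      Set ↥𝔽))) (A := ↥𝔽) (x := ⟨_, hmem⟩)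
  have hz : IsIntegral ↥(Algebra.adjoin O ({sig, (1 - 1728 * sig ^ M)⁻¹} : Set ↥𝔽))
      (((1 - 1728 * sig ^ M : ↥𝔽)⁻¹) ^ N * (b : ↥𝔽)) :=
    (hcinv.pow N).mul (s18ia_chart_le_BA b.2)
  rw [Ideal.mem_span_singleton]
  refine ⟨⟨_, hz⟩, ?_⟩
  apply Subtype.ext
  show (y : ↥𝔽) = algebraMap O ↥𝔽 ϖ * (((1 - 1728 * sig ^ M : ↥𝔽)⁻¹) ^ N * (b : ↥𝔽))
  have h0 : (1 - 1728 * sig ^ M : ↥𝔽) ^ N ≠ 0 := pow_ne_zero _ hc0
  apply mul_left_cancel₀ h0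
  rw [hb', inv_pow]
  field_simp

end RhoA2

end Fermat.Agent.S18
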