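import Mathlib
import Fermat.Agent.S18.InfDefs
import Fermat.Agent.S18.InfAsmRed
import Fermat.Agent.S18.InfAsmClear
import Fermat.Agent.S18.InfAsmField

/-!
# S18, package (I4) [INF-ASM], part 5: `θ : F → F''` and the finiteness of `F'' / K(σ)`
-/

set_option autoImplicit false
set_option linter.unusedSectionVars false
set_option linter.style.haveILetI false

open AlgebraicCurve ModularCurve IntermediateField

noncomputable section

namespace Fermat.Agent.S18

section Theta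

variable (O K : Type) [CommRing O] [IsDomain O] [IsDiscreteValuationRing O] [Field K]
  [CharZero K] [Algebra O K] [IsFractionRing O K] (M : ℕ) [NeZero M] (σ : LaurentSeries O)

/-- `θ : F → F''` as a homomorphism of `K`-algebras. -/
def s18ia_theta : ↥(s18_F K M) →ₐ[K] ↥(s18_Fpp O K M σ) :=
  AlgHom.codRestrict ((qExpandAlgHomC K M).comp (s18_F K M).val)
    (s18_Fpp O K M σ).toSubalgebra
    (fun f => (le_sup_left : (s18_F K M).map (qExpandAlgHomC K M) ≤ s18_Fpp O K M σ)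
      ⟨_, f.2, rfl⟩)

theorem s18ia_theta_coe (f : ↥(s18_F K M)) :
    ((s18ia_theta O K M σ f : ↥(s18_Fpp O K M σ)) : LaurentSeries K) =
      qExpand K M (f : LaurentSeries K) := rfl

theorem s18ia_theta_eq (f : ↥(s18_F K M)) :
    s18ia_theta O K M σ f = s18_theta O K M σ f := rfl

theorem s18ia_j_coe : ((s18_j K M : ↥(s18_F K M)) : LaurentSeries K) =
    coeffMap (algebraMap O K) (jqModC O) := by
  show coeffEmb K jq = _
  unfold coeffEmb
  rw [← jqModC_rat, coeffMap_jqModC, coeffMap_jqModC]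

theorem s18ia_sig_coe : ((s18_sig O K M σ : ↥(s18_Fpp O K M σ)) : LaurentSeries K) =
    coeffMap (algebraMap O K) σ := rfl

variable {O M σ}

/-- `σ^M · θ(j) = 1`. -/
theorem s18ia_sig_pow_mul (hσ : s18_IsSigma O M σ) :
    s18_sig O K M σ ^ M * s18ia_theta O K M σ (s18_j K M) = 1 := by
  apply Subtype.ext
  push_cast
  rw [s18ia_theta_coe, s18ia_j_coe O K M, s18ia_sig_coe, ← coeffMap_qExpand, ← map_pow,
    ← map_mul, hσ.1, map_one]

theorem s18ia_sig_ne_zero (hσ : s18_IsSigma O M σ) : s18_sig O K M σ ≠ 0 := by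
  intro h
  have := s18ia_sig_pow_mul K hσ
  rw [h, zero_pow (NeZero.ne M), zero_mul] at this
  exact zero_ne_one this

theorem s18ia_theta_j (hσ : s18_IsSigma O M σ) :
    s18ia_theta O K M σ (s18_j K M) = (s18_sig O K M σ ^ M)⁻¹ := by
  have h := s18ia_sig_pow_mul K hσ
  have h0 : s18_sig O K M σ ^ M ≠ 0 := pow_ne_zero _ (s18ia_sig_ne_zero K hσ)
  field_simp
  rw [mul_comm]
  exact h

theorem s18ia_theta_j_inv (hσ : s18_IsSigma O M σ) :
    s18ia_theta O K M σ (s18_j K M)⁻¹ = s18_sig O K M σ ^ M := by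
  rw [map_inv₀, s18ia_theta_j K hσ, inv_inv]

omit [IsDomain O] [IsDiscreteValuationRing O] [IsFractionRing O K] [Algebra O K] in
theorem s18ia_j_ne_zero : s18_j K M ≠ 0 := by
  intro h
  have h1 : ((s18_j K M : ↥(s18_F K M)) : LaurentSeries K) = 0 := by rw [h]; rfl
  have h2 : ((s18_j K M : ↥(s18_F K M)) : LaurentSeries K) = jqModC K := by
    show coeffEmb K jq = _
    unfold coeffEmb
    rw [← jqModC_rat, coeffMap_jqModC]
  rw [h2] at h1
  exact jqModC_ne_zero_of_nontrivial K h1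

/-- `θ` maps `K(j)` into `K(σ)`. -/
theorem s18ia_theta_mem (hσ : s18_IsSigma O M σ) {x : ↥(s18_F K M)}
    (hx : x ∈ K⟮s18_j K M⟯) : s18ia_theta O K M σ x ∈ K⟮s18_sig O K M σ⟯ := by
  have h1 : (K⟮s18_j K M⟯).map (s18ia_theta O K M σ) ≤ K⟮s18_sig O K M σ⟯ := by
    rw [IntermediateField.adjoin_map, Set.image_singleton,
      IntermediateField.adjoin_simple_le_iff, s18ia_theta_j K hσ]
    exact inv_mem (pow_mem (IntermediateField.mem_adjoin_simple_self K _) _)
  exact h1 ⟨x, hx, rfl⟩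

/-- `F''` is finite over `K(σ)`. -/
theorem s18ia_finite (hσ : s18_IsSigma O M σ)
    (hfin : FiniteDimensional ↥K⟮s18_j K M⟯ ↥(s18_F K M)) :
    FiniteDimensional ↥K⟮s18_sig O K M σ⟯ ↥(s18_Fpp O K M σ) := by
  classical
  haveI := hfin
  set b := Module.finBasis ↥K⟮s18_j K M⟯ ↥(s18_F K M) with hb
  set S : Set ↥(s18_Fpp O K M σ) := Set.range (fun i => s18ia_theta O K M σ (b i)) with hS
  haveI : Finite S := Set.finite_range _
  -- `θ` restricted to `K(j)`
  let φ : ↥K⟮s18_j K M⟯ →+* ↥K⟮s18_sig O K M σ⟯ :=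
    ((s18ia_theta O K M σ : ↥(s18_F K M) →+* ↥(s18_Fpp O K M σ)).comp
      (algebraMap ↥K⟮s18_j K M⟯ ↥(s18_F K M))).codRestrict K⟮s18_sig O K M σ⟯.toSubring
      (fun x => s18ia_theta_mem K hσ x.2)
  have hint : ∀ x ∈ S, IsIntegral ↥K⟮s18_sig O K M σ⟯ x := by
    rintro _ ⟨i, rfl⟩
    have h1 : IsIntegral ↥K⟮s18_j K M⟯ (b i) := Algebra.IsIntegral.isIntegral _
    exact h1.map_of_comp_eq φ (s18ia_theta O K M σ : ↥(s18_F K M) →+* ↥(s18_Fpp O K M σ))
      (by ext x; rfl)
  have hT : FiniteDimensional ↥K⟮s18_sig O K M σ⟯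
      ↥(IntermediateField.adjoin ↥K⟮s18_sig O K M σ⟯ S) :=
    IntermediateField.finiteDimensional_adjoin hint
  -- the adjunction is everything
  have hθT : ∀ x : ↥(s18_F K M),
      s18ia_theta O K M σ x ∈ IntermediateField.adjoin ↥K⟮s18_sig O K M σ⟯ S := by
    intro x
    rw [← b.sum_repr x, map_sum]
    refine sum_mem (fun i _ => ?_)
    rw [Algebra.smul_def, map_mul]
    refine mul_mem ?_ (IntermediateField.subset_adjoin _ _ ⟨i, rfl⟩)
    exact (IntermediateField.adjoin ↥K⟮s18_sig O K M σ⟯ S).algebraMap_mem (φ (b.repr x i))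
  have htop : IntermediateField.adjoin ↥K⟮s18_sig O K M σ⟯ S = ⊤ := by
    rw [eq_top_iff]
    intro y _
    have hle : s18_Fpp O K M σ ≤
        ((IntermediateField.adjoin ↥K⟮s18_sig O K M σ⟯ S).restrictScalars K).map
          (s18_Fpp O K M σ).val := by
      unfold s18_Fpp
      refine sup_le ?_ ?_
      · rintro _ ⟨x, hx, rfl⟩
        exact ⟨s18ia_theta O K M σ ⟨x, hx⟩, hθT ⟨x, hx⟩, rfl⟩
      · rw [IntermediateField.adjoin_simple_le_iff]
        refine ⟨s18_sig O K M σ, ?_, rfl⟩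
        exact (IntermediateField.adjoin ↥K⟮s18_sig O K M σ⟯ S).algebraMap_mem
          (⟨s18_sig O K M σ, IntermediateField.mem_adjoin_simple_self K _⟩ :
            ↥K⟮s18_sig O K M σ⟯)
    obtain ⟨y', hy', e⟩ := hle y.2
    have : y' = y := Subtype.ext e
    rw [← this]
    exact hy'
  rw [htop] at hT
  exact (IntermediateField.topEquiv (F := ↥K⟮s18_sig O K M σ⟯)
    (E := ↥(s18_Fpp O K M σ))).toLinearEquiv.finiteDimensional

end Theta

end Fermat.Agent.S18
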