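import Mathlib
import Fermat.Agent.S18.InfDefs
import Fermat.Agent.S18.InfAsmRed
import Fermat.Agent.S18.InfAsmClear
import Fermat.Agent.S18.InfAsmField
import Fermat.Agent.S18.InfAsmTheta
import Fermat.Agent.S18.InfAsmRhoA
import Fermat.Agent.S18.InfAsmProj

/-!
# S18, package (I4) [INF-ASM], part 11: the descent through `pr₀`

From the integral closedness of `B''_A / ϖ` (hom-form) and the descent clause of (G''), every
`ū / v̄` integral over `B̄'` satisfies `c̄₀^m ū ∈ v̄ B̄'` for some `m`, `c₀ = 1 - 1728 / j`.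
-/

set_option autoImplicit false
set_option linter.unusedSectionVars false
set_option linter.style.haveILetI false

open AlgebraicCurve ModularCurve IntermediateField Polynomial

noncomputable section

namespace Fermat.Agent.S18

section Scale

/-- The value of a ring homomorphism on `(p.scaleRoots v)(u)`, `p` monic. -/
theorem s18ia_scaleRoots_hom {B E : Type*} [CommRing B] [CommRing E] (ρ : B →+* E) (u v : B)
    (p : B[X]) (hp : p.Monic) :
    ρ ((p.scaleRoots v).eval u) = ρ u ^ p.natDegree +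
      ∑ i ∈ Finset.range p.natDegree, ρ (p.coeff i) * ρ u ^ i * ρ v ^ (p.natDegree - i) := by
  rw [Polynomial.eval_eq_sum_range, Polynomial.natDegree_scaleRoots, Finset.sum_range_succ,
    Polynomial.coeff_scaleRoots, Nat.sub_self, pow_zero, mul_one, hp.coeff_natDegree, one_mul,
    map_add, map_sum ρ, map_pow, add_comm]
  congr 1
  refine Finset.sum_congr rfl (fun i _ => ?_)
  rw [Polynomial.coeff_scaleRoots, map_mul, map_mul, map_pow, map_pow]
  ring

end Scale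

section Descent

variable {O K : Type} [CommRing O] [IsDomain O] [IsDiscreteValuationRing O] [Field K]
  [CharZero K] [Algebra O K] [IsFractionRing O K] {M : ℕ} [NeZero M] {σ : LaurentSeries O}
  [Algebra O ↥(s18_F K M)] [IsScalarTower O K ↥(s18_F K M)]
  [Algebra O ↥(s18_Fpp O K M σ)] [IsScalarTower O K ↥(s18_Fpp O K M σ)]

/-- `θ` maps the chart at infinity of `F` into the chart of `F''`. -/
theorem s18ia_theta_chart (hσ : s18_IsSigma O M σ) {b : ↥(s18_F K M)}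
    (hb : b ∈ s18_chart O ({(s18_j K M)⁻¹} : Set ↥(s18_F K M))) :
    s18ia_theta O K M σ b ∈ s18_chart O ({s18_sig O K M σ} : Set ↥(s18_Fpp O K M σ)) := by
  obtain ⟨θO, hθO⟩ : ∃ θO : ↥(s18_F K M) →ₐ[O] ↥(s18_Fpp O K M σ),
      θO = (s18ia_theta O K M σ).restrictScalars O := ⟨_, rfl⟩
  have hθO' : ∀ x, θO x = s18ia_theta O K M σ x := fun x => by rw [hθO]; rfl
  have hmap : ∀ x ∈ Algebra.adjoin O ({(s18_j K M)⁻¹} : Set ↥(s18_F K M)),
      θO x ∈ Algebra.adjoin O ({s18_sig O K M σ} : Set ↥(s18_Fpp O K M σ)) := by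
    intro x hx
    have h1 : θO x ∈ (Algebra.adjoin O ({(s18_j K M)⁻¹} : Set ↥(s18_F K M))).map θO :=
      ⟨x, hx, rfl⟩
    rw [AlgHom.map_adjoin] at h1
    refine Algebra.adjoin_le ?_ h1
    intro z hz
    obtain ⟨y, hy, rfl⟩ := hz
    have hy' : y = (s18_j K M)⁻¹ := hy
    have h4 : θO y = s18_sig O K M σ ^ M := by
      rw [hθO', hy']
      exact s18ia_theta_j_inv K hσ
    rw [SetLike.mem_coe, h4]
    have h5 : s18_sig O K M σ ∈ Algebra.adjoin O ({s18_sig O K M σ} : Set ↥(s18_Fpp O K M σ)) :=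
      Algebra.subset_adjoin (Set.mem_singleton _)
    exact pow_mem h5 M
  let φ : ↥(Algebra.adjoin O ({(s18_j K M)⁻¹} : Set ↥(s18_F K M))) →+*
      ↥(Algebra.adjoin O ({s18_sig O K M σ} : Set ↥(s18_Fpp O K M σ))) :=
    (θO.toRingHom.comp
      (Algebra.adjoin O ({(s18_j K M)⁻¹} : Set ↥(s18_F K M))).val.toRingHom).codRestrict
      (Algebra.adjoin O ({s18_sig O K M σ} : Set ↥(s18_Fpp O K M σ))).toSubring
      (fun x => hmap x x.2)
  have h2 : IsIntegral ↥(Algebra.adjoin O ({s18_sig O K M σ} : Set ↥(s18_Fpp O K M σ)))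
      (θO.toRingHom b) :=
    IsIntegral.map_of_comp_eq φ θO.toRingHom (by ext x; rfl) hb
  have h3 : θO.toRingHom b = s18ia_theta O K M σ b := hθO' b
  rw [h3] at h2
  exact h2

/-- Membership in the ideal of the special fibre implies vanishing of the reduction. -/
theorem s18ia_red_of_mem {ϖ : O} (hϖ : Irreducible ϖ)
    (𝔽 : IntermediateField K (LaurentSeries K)) [Algebra O ↥𝔽] [IsScalarTower O K ↥𝔽]
    (S : Set ↥𝔽)
    (ρ : ↥(s18_chart O S) →+* LaurentSeries (IsLocalRing.ResidueField O))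
    (hG : ∀ b : ↥(s18_chart O S), s18ia_IsRed O K ((b : ↥𝔽) : LaurentSeries K) (ρ b))
    (x : ↥(s18_chart O S)) (hx : x ∈ s18_fibreIdeal O S) : ρ x = 0 := by
  obtain ⟨b, rfl⟩ := (s18ia_mem_fibreIdeal 𝔽 hϖ S x).mp hx
  rw [map_mul]
  have h1 : s18ia_IsRed O K
      (((algebraMap O ↥(s18_chart O S) ϖ : ↥(s18_chart O S)) : ↥𝔽) : LaurentSeries K) 0 := by
    have e : (((algebraMap O ↥(s18_chart O S) ϖ : ↥(s18_chart O S)) : ↥𝔽) : LaurentSeries K) =
        coeffMap (algebraMap O K) (HahnSeries.C ϖ) := by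
      rw [← s18ia_coe_algebraMap 𝔽 ϖ]
      rfl
    rw [e, ← s18ia_red_C hϖ]
    exact s18ia_isRed_img _
  rw [(hG _).unique h1, zero_mul]

local notation "B'" => (s18_chart O ({(s18_j K M)⁻¹} : Set (s18_F K M)))
local notation "I'" => s18_fibreIdeal O ({(s18_j K M)⁻¹} : Set (s18_F K M))
local notation "B''" => (s18_chart O ({s18_sig O K M σ} : Set (s18_Fpp O K M σ)))
local notation "BA" => (integralClosure (Algebra.adjoin O
  ({s18_sig O K M σ, (1 - 1728 * s18_sig O K M σ ^ M)⁻¹} : Set (s18_Fpp O K M σ)))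
  (s18_Fpp O K M σ))
local notation "κκ" => LaurentSeries (IsLocalRing.ResidueField O)

/-- **Step (c)**: the descent through `pr₀`. -/
theorem s18ia_stepA (hσ : s18_IsSigma O M σ) {ϖ : O} (hϖ : Irreducible ϖ)
    (ρ' : B' →+* κκ) (hker' : ∀ b, ρ' b = 0 → b ∈ I')
    (hG' : ∀ b : B', s18ia_IsRed O K ((b : ↥(s18_F K M)) : LaurentSeries K) (ρ' b))
    (ρ'' : B'' →+* κκ)
    (hG'' : ∀ b : B'', s18ia_IsRed O K ((b : ↥(s18_Fpp O K M σ)) : LaurentSeries K) (ρ'' b))
    (hdesc : ∀ y : B'',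
      ∃ b : ↥(s18_F K M), b ∈ s18_chart O ({(s18_j K M)⁻¹} : Set ↥(s18_F K M)) ∧
        ∃ hb : s18_theta O K M σ b ∈
            s18_chart O ({s18_sig O K M σ} : Set ↥(s18_Fpp O K M σ)),
          ∀ k : ℤ, (ρ'' ⟨s18_theta O K M σ b, hb⟩).coeff k =
            if (M : ℤ) ∣ k then (ρ'' y).coeff k else 0)
    (hc0 : (1 - 1728 * s18_sig O K M σ ^ M : ↥(s18_Fpp O K M σ)) ≠ 0)
    (hV : ∀ y : BA,
      ∃ r, s18ia_IsRed O K (s18ia_BA_coe (s18_Fpp O K M σ) M (s18_sig O K M σ) y) r)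
    (hic : ∀ a b : BA,
      s18ia_RedF O K (s18ia_BA_coe (s18_Fpp O K M σ) M (s18_sig O K M σ) b) ≠ 0 →
      ∀ (n : ℕ) (α : ℕ → BA),
        s18ia_RedF O K (s18ia_BA_coe (s18_Fpp O K M σ) M (s18_sig O K M σ) a) ^ n +
          ∑ i ∈ Finset.range n,
            s18ia_RedF O K (s18ia_BA_coe (s18_Fpp O K M σ) M (s18_sig O K M σ) (α i)) *
            s18ia_RedF O K (s18ia_BA_coe (s18_Fpp O K M σ) M (s18_sig O K M σ) a) ^ i *
            s18ia_RedF O K (s18ia_BA_coe (s18_Fpp O K M σ) M (s18_sig O K M σ) b) ^ (n - i)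
            = 0 →
        ∃ c : BA,
          s18ia_RedF O K (s18ia_BA_coe (s18_Fpp O K M σ) M (s18_sig O K M σ) a) =
            s18ia_RedF O K (s18ia_BA_coe (s18_Fpp O K M σ) M (s18_sig O K M σ) b) *
              s18ia_RedF O K (s18ia_BA_coe (s18_Fpp O K M σ) M (s18_sig O K M σ) c))
    (c₀ : B') (hc₀ : (c₀ : ↥(s18_F K M)) = 1 - 1728 * (s18_j K M)⁻¹)
    (u v : B') (hv : v ∉ I') (p : Polynomial B') (hp : p.Monic)
    (hpe : (p.scaleRoots v).eval u ∈ I') :
    ∃ (m : ℕ) (w : B'), w * v - c₀ ^ m * u ∈ I' := by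
  have hv' : ρ' v ≠ 0 := fun h => hv (hker' v h)
  have hpe' := s18ia_red_of_mem hϖ (s18_F K M) _ ρ' hG' _ hpe
  rw [s18ia_scaleRoots_hom ρ' u v p hp] at hpe'
  -- transport to `B''_A`
  obtain ⟨toA, htoA⟩ : ∃ toA : B' → BA, ∀ x : B',
      ((toA x : BA) : ↥(s18_Fpp O K M σ)) = s18ia_theta O K M σ (x : ↥(s18_F K M)) :=
    ⟨fun x => ⟨s18ia_theta O K M σ (x : ↥(s18_F K M)),
      s18ia_chart_le_BA (s18ia_theta_chart hσ x.2)⟩, fun x => rfl⟩
  have hred : ∀ x : B',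
      s18ia_RedF O K (s18ia_BA_coe (s18_Fpp O K M σ) M (s18_sig O K M σ) (toA x)) =
        qExpand (IsLocalRing.ResidueField O) M (ρ' x) := by
    intro x
    apply s18ia_RedF_eq
    have e : s18ia_BA_coe (s18_Fpp O K M σ) M (s18_sig O K M σ) (toA x) =
        qExpand K M ((x : ↥(s18_F K M)) : LaurentSeries K) := by
      rw [s18ia_BA_coe_apply, htoA]
      rfl
    rw [e]
    exact (hG' x).qExp M
  have hq := congrArg (qExpand (IsLocalRing.ResidueField O) M) hpe'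
  rw [map_add, map_pow, map_sum, map_zero] at hq
  have hq' : s18ia_RedF O K (s18ia_BA_coe (s18_Fpp O K M σ) M (s18_sig O K M σ) (toA u)) ^
        p.natDegree +
      ∑ i ∈ Finset.range p.natDegree,
        s18ia_RedF O K (s18ia_BA_coe (s18_Fpp O K M σ) M (s18_sig O K M σ)
          (toA (p.coeff i))) *
        s18ia_RedF O K (s18ia_BA_coe (s18_Fpp O K M σ) M (s18_sig O K M σ) (toA u)) ^ i *
        s18ia_RedF O K (s18ia_BA_coe (s18_Fpp O K M σ) M (s18_sig O K M σ) (toA v)) ^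
          (p.natDegree - i) = 0 := by
    rw [← hq, hred]
    congr 1
    refine Finset.sum_congr rfl (fun i _ => ?_)
    rw [hred, hred, map_mul, map_mul, map_pow, map_pow]
  have hvA : s18ia_RedF O K (s18ia_BA_coe (s18_Fpp O K M σ) M (s18_sig O K M σ) (toA v)) ≠ 0 := by
    rw [hred]
    intro h
    exact hv' (qExpand_injective (R := IsLocalRing.ResidueField O) M (h.trans (map_zero _).symm))
  obtain ⟨y, hy⟩ := hic (toA u) (toA v) hvA p.natDegree (fun i => toA (p.coeff i)) hq'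
  rw [hred, hred] at hy
  -- clear the denominator of `y`
  obtain ⟨N, hN⟩ := s18ia_BA_clear hc0 y.2
  obtain ⟨y₁, hy₁⟩ : ∃ y₁ : B'', (y₁ : ↥(s18_Fpp O K M σ)) =
      (1 - 1728 * s18_sig O K M σ ^ M) ^ N * (y : ↥(s18_Fpp O K M σ)) := ⟨⟨_, hN⟩, rfl⟩
  have hcred := s18ia_c_isRed (O := O) (K := K) (s18_Fpp O K M σ) (M := M)
    (sig := s18_sig O K M σ) (σ := σ) rfl
  have hy₁red : ρ'' y₁ = coeffMap (IsLocalRing.residue O) (1 - HahnSeries.C 1728 * σ ^ M) ^ N *
      s18ia_RedF O K (s18ia_BA_coe (s18_Fpp O K M σ) M (s18_sig O K M σ) y) := by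
    refine (hG'' y₁).unique ?_
    have e : ((y₁ : ↥(s18_Fpp O K M σ)) : LaurentSeries K) =
        (((1 - 1728 * s18_sig O K M σ ^ M : ↥(s18_Fpp O K M σ))) : LaurentSeries K) ^ N *
          s18ia_BA_coe (s18_Fpp O K M σ) M (s18_sig O K M σ) y := by
      rw [hy₁]
      rfl
    rw [e]
    exact (hcred.pow N).mul (s18ia_isRed_RedF (hV y))
  -- the descent
  obtain ⟨bs, hbs, hb, hcoeff⟩ := hdesc y₁
  have hbsred : ρ'' ⟨s18_theta O K M σ bs, hb⟩ =
      qExpand (IsLocalRing.ResidueField O) M (ρ' ⟨bs, hbs⟩) := by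
    refine (hG'' _).unique ?_
    exact (hG' ⟨bs, hbs⟩).qExp M
  -- `θ̄ (ρ' c₀) = c̄`
  have hc₀red : qExpand (IsLocalRing.ResidueField O) M (ρ' c₀) =
      coeffMap (IsLocalRing.residue O) (1 - HahnSeries.C 1728 * σ ^ M) := by
    refine ((hG' c₀).qExp M).unique ?_
    have e : qExpand K M ((c₀ : ↥(s18_F K M)) : LaurentSeries K) =
        (((1 - 1728 * s18_sig O K M σ ^ M : ↥(s18_Fpp O K M σ))) : LaurentSeries K) := by
      rw [← s18ia_theta_coe O K M σ, hc₀, map_sub, map_one, map_mul, map_ofNat,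
        s18ia_theta_j_inv K hσ]
    rw [e]
    exact hcred
  refine ⟨N, ⟨bs, hbs⟩, ?_⟩
  apply hker'
  rw [map_sub, map_mul, map_mul, map_pow, sub_eq_zero]
  have hproj := s18ia_proj M (ρ' v) (ρ' u * ρ' c₀ ^ N) (ρ' ⟨bs, hbs⟩) (ρ'' y₁) ?_ ?_
  · rw [mul_comm (ρ' c₀ ^ N), hproj, mul_comm]
  · rw [map_mul, map_pow, hc₀red, hy, hy₁red]
    ring
  · intro k
    rw [← hbsred]
    exact hcoeff k

end Descent

end Fermat.Agent.S18
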