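import Mathlib
import Fermat.Agent.S18.LiftDefs
import Fermat.Agent.S18.Fin

/-!
# S18, package (I4) [INF-ASM], part 8: a finite spanning set with a common denominator

`F` finite over `K(t)`, `A ⊇ O[t]` a subalgebra of `F`: there is a finite set `s ⊆ F` such that
every `y ∈ F` has `d y = ∑_{e ∈ s} c_e e` with `d ≠ 0`, `c_e` in `A`.
-/

set_option autoImplicit false
set_option linter.unusedSectionVars false
set_option linter.style.haveILetI false

open AlgebraicCurve IntermediateField Polynomial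

noncomputable section

namespace Fermat.Agent.S18

section Span

variable {O K F : Type} [CommRing O] [IsDomain O] [Field K] [Algebra O K] [IsFractionRing O K]
  [Field F] [Algebra K F] [Algebra O F] [IsScalarTower O K F]

theorem s18ia_frac' {t : F} {z : F} (hz : z ∈ K⟮t⟯) :
    ∃ x y : F, x ∈ Algebra.adjoin O ({t} : Set F) ∧ y ∈ Algebra.adjoin O ({t} : Set F) ∧
      y ≠ 0 ∧ z * y = x := by
  obtain ⟨x, y, h⟩ := s18fin_frac (O := O) hz
  by_cases hy : (y : F) = 0
  · refine ⟨0, 1, zero_mem _, one_mem _, one_ne_zero, ?_⟩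
    rw [h, hy, div_zero, zero_mul]
  · refine ⟨x, y, x.2, y.2, hy, ?_⟩
    rw [h]
    field_simp

theorem s18ia_span {t : F} (hfin : FiniteDimensional ↥K⟮t⟯ F) (A : Subalgebra O F)
    (hA : Algebra.adjoin O ({t} : Set F) ≤ A) :
    ∃ s : Finset F, ∀ y : F, ∃ (d : ↥A) (c : F → ↥A), d ≠ 0 ∧ d • y = ∑ e ∈ s, c e • e := by
  classical
  haveI := hfin
  set b := Module.finBasis ↥K⟮t⟯ F with hb
  refine ⟨Finset.univ.image b, fun y => ?_⟩
  have h1 : ∀ i, ∃ x' y' : F, x' ∈ Algebra.adjoin O ({t} : Set F) ∧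
      y' ∈ Algebra.adjoin O ({t} : Set F) ∧ y' ≠ 0 ∧ ((b.repr y i : ↥K⟮t⟯) : F) * y' = x' :=
    fun i => s18ia_frac' (O := O) (b.repr y i).2
  choose xs ys hxs hys hys0 hxy using h1
  have hinj : Function.Injective b := b.injective
  let coefF : Fin (Module.finrank ↥K⟮t⟯ F) → F := fun i => xs i * ∏ k ∈ Finset.univ.erase i, ys k
  have hcoef : ∀ i, coefF i ∈ A := fun i =>
    mul_mem (hA (hxs i)) (prod_mem (fun k _ => hA (hys k)))
  let c : F → ↥A := fun e => if h : ∃ i, b i = e then ⟨coefF h.choose, hcoef _⟩ else 0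
  have hc : ∀ i, ((c (b i) : ↥A) : F) = coefF i := by
    intro i
    have h : ∃ k, b k = b i := ⟨i, rfl⟩
    have hk : h.choose = i := hinj h.choose_spec
    simp only [c, dif_pos h]
    rw [hk]
  have hd : ∏ k, ys k ∈ A := prod_mem (fun k _ => hA (hys k))
  have hd0 : ∏ k, ys k ≠ 0 := Finset.prod_ne_zero_iff.mpr (fun k _ => hys0 k)
  refine ⟨⟨∏ k, ys k, hd⟩, c, fun h => hd0 (congrArg Subtype.val h), ?_⟩
  rw [Finset.sum_image (fun i _ k _ h => hinj h)]
  show (∏ k, ys k) * y = ∑ i, ((c (b i) : ↥A) : F) * b i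
  conv_lhs => rw [← b.sum_repr y]
  rw [Finset.mul_sum]
  refine Finset.sum_congr rfl (fun i _ => ?_)
  rw [hc i, Algebra.smul_def]
  show (∏ k, ys k) * (((b.repr y i : ↥K⟮t⟯) : F) * b i) = _
  rw [← Finset.mul_prod_erase Finset.univ ys (Finset.mem_univ i)]
  simp only [coefF]
  rw [← hxy i]
  ring

end Span

end Fermat.Agent.S18
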