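import Mathlib
import Fermat.Agent.S18.InfDefs
import Fermat.Agent.S18.InfAsmRed
import Fermat.Agent.S18.InfAsmIC
import Fermat.Agent.S18.InfAsmClear
import Fermat.Agent.S18.InfAsmField
import Fermat.Agent.S18.InfAsmA
import Fermat.Agent.S18.InfAsmRhoA
import Fermat.Agent.S18.InfAsmSpan

/-!
# S18, package (I4) [INF-ASM], part 9: the application of [PURE] and [SEP]

`B''_A / ϖ` is integrally closed.
-/

set_option autoImplicit false
set_option linter.unusedSectionVars false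
set_option linter.style.haveILetI false

open AlgebraicCurve ModularCurve IntermediateField Polynomial

noncomputable section

namespace Fermat.Agent.S18

theorem s18ia_order_eq_one {R : Type*} [CommRing R] [Nontrivial R] {x : LaurentSeries R}
    (h1 : x.coeff 1 = 1) (h0 : ∀ k : ℤ, k < 1 → x.coeff k = 0) : x.order = 1 := by
  have hx : x ≠ 0 := by
    rintro rfl
    simp at h1
  apply le_antisymm
  · exact HahnSeries.order_le_of_coeff_ne_zero (by rw [h1]; exact one_ne_zero)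
  · by_contra h
    exact hx (HahnSeries.coeff_order_eq_zero.mp (h0 _ (not_le.mp h)))

section Sep

variable {O K : Type} [CommRing O] [IsDomain O] [IsDiscreteValuationRing O] [Field K]
  [Algebra O K] [IsFractionRing O K]
  {𝔽 : IntermediateField K (LaurentSeries K)} [Algebra O ↥𝔽] [IsScalarTower O K ↥𝔽]
  {M : ℕ} {sig : ↥𝔽} {σ : LaurentSeries O}

theorem s18ia_red_C_eq (a : O) :
    coeffMap (IsLocalRing.residue O) (HahnSeries.C a) =
      algebraMap (IsLocalRing.ResidueField O) (LaurentSeries (IsLocalRing.ResidueField O))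
        (IsLocalRing.residue O a) := by
  have e : (HahnSeries.C a : LaurentSeries O) = HahnSeries.single 0 a := rfl
  rw [e, coeffMap_single, ← algebraMap_laurentSeries_eq_single]

/-- The reductions of the elements of `A` lie in `κ(σ̄)`. -/
theorem s18ia_A_red_mem (hM : 0 < M)
    (hsig : (sig : LaurentSeries K) = coeffMap (algebraMap O K) σ)
    (hσ1 : σ.coeff 1 = 1) (hσ0 : ∀ k : ℤ, k < 1 → σ.coeff k = 0) {a : ↥𝔽}
    (ha : a ∈ Algebra.adjoin O ({sig, (1 - 1728 * sig ^ M)⁻¹} : Set ↥𝔽)) :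
    ∃ r, r ∈ (IsLocalRing.ResidueField O)⟮coeffMap (IsLocalRing.residue O) σ⟯ ∧
      s18ia_IsRed O K (a : LaurentSeries K) r := by
  have hx : coeffMap (IsLocalRing.residue O) σ ∈
      (IsLocalRing.ResidueField O)⟮coeffMap (IsLocalRing.residue O) σ⟯ :=
    IntermediateField.mem_adjoin_simple_self _ _
  induction ha using Algebra.adjoin_induction with
  | mem x hx' =>
    rcases hx' with rfl | hx'
    · refine ⟨_, hx, ?_⟩
      rw [hsig]
      exact s18ia_isRed_img σ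
    · rw [Set.mem_singleton_iff] at hx'
      subst hx'
      refine ⟨(coeffMap (IsLocalRing.residue O) (1 - HahnSeries.C 1728 * σ ^ M))⁻¹, ?_, ?_⟩
      · apply inv_mem
        rw [map_sub, map_one, map_mul, map_pow, s18ia_red_C_eq]
        exact sub_mem (one_mem _) (mul_mem (IntermediateField.algebraMap_mem _ _)
          (pow_mem hx _))
      · rw [IntermediateField.coe_inv]
        exact (s18ia_c_isRed 𝔽 hsig).inv (s18ia_red_c_ne_zero hσ1 hσ0 hM)
  | algebraMap r =>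
    refine ⟨coeffMap (IsLocalRing.residue O) (HahnSeries.C r), ?_, ?_⟩
    · rw [s18ia_red_C_eq]
      exact IntermediateField.algebraMap_mem _ _
    · rw [s18ia_coe_algebraMap 𝔽 r]
      exact s18ia_isRed_img _
  | add x y _ _ hx hy =>
    obtain ⟨r₁, h₁, h₁'⟩ := hx
    obtain ⟨r₂, h₂, h₂'⟩ := hy
    exact ⟨r₁ + r₂, add_mem h₁ h₂, h₁'.add h₂'⟩
  | mul x y _ _ hx hy =>
    obtain ⟨r₁, h₁, h₁'⟩ := hx
    obtain ⟨r₂, h₂, h₂'⟩ := hy
    exact ⟨r₁ * r₂, mul_mem h₁ h₂, h₁'.mul h₂'⟩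

/-- **Separability** of the reductions of the elements of `B''_A` over the field generated by
the reductions of the elements of `A`. -/
theorem s18ia_sep (hS : s18_SepStatement) (ℓ : ℕ) [Fact ℓ.Prime]
    [CharP (IsLocalRing.ResidueField O) ℓ] [PerfectField (IsLocalRing.ResidueField O)]
    (hM : 0 < M) (hsig : (sig : LaurentSeries K) = coeffMap (algebraMap O K) σ)
    (hσ1 : σ.coeff 1 = 1) (hσ0 : ∀ k : ℤ, k < 1 → σ.coeff k = 0)
    (ρA : ↥(integralClosure ↥(Algebra.adjoin O ({sig, (1 - 1728 * sig ^ M)⁻¹} : Set ↥𝔽)) ↥𝔽)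
      →+* LaurentSeries (IsLocalRing.ResidueField O))
    (hρA : ∀ y, s18ia_IsRed O K (s18ia_BA_coe 𝔽 M sig y) (ρA y))
    (b : ↥(integralClosure ↥(Algebra.adjoin O ({sig, (1 - 1728 * sig ^ M)⁻¹} : Set ↥𝔽)) ↥𝔽)) :
    IsSeparable ↥(Subfield.closure (Set.range (ρA.comp
      (algebraMap ↥(Algebra.adjoin O ({sig, (1 - 1728 * sig ^ M)⁻¹} : Set ↥𝔽))
        ↥(integralClosure ↥(Algebra.adjoin O ({sig, (1 - 1728 * sig ^ M)⁻¹} : Set ↥𝔽)) ↥𝔽)))))
      (ρA b) := by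
  set x : LaurentSeries (IsLocalRing.ResidueField O) := coeffMap (IsLocalRing.residue O) σ
    with hx
  -- the order of `σ̄`
  have hord : ¬ ((ℓ : ℕ) : ℤ) ∣ x.order := by
    have h1 : x.order = 1 := by
      apply s18ia_order_eq_one
      · rw [hx, coeffMap_coeff, hσ1, map_one]
      · intro k hk
        rw [hx, coeffMap_coeff, hσ0 k hk, map_zero]
    rw [h1]
    intro h
    have h2 : ℓ ∣ 1 := by exact_mod_cast h
    exact (Fact.out : ℓ.Prime).one_lt.ne' (Nat.dvd_one.mp h2)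
  -- the reductions of the elements of `A`
  have hA : ∀ a : ↥(Algebra.adjoin O ({sig, (1 - 1728 * sig ^ M)⁻¹} : Set ↥𝔽)),
      ρA (algebraMap _ _ a) ∈ (IsLocalRing.ResidueField O)⟮x⟯ := by
    intro a
    obtain ⟨r, hr, hr'⟩ := s18ia_A_red_mem hM hsig hσ1 hσ0 a.2
    have := (hρA (algebraMap _ _ a)).unique hr'
    rw [this]
    exact hr
  let φ : ↥(Algebra.adjoin O ({sig, (1 - 1728 * sig ^ M)⁻¹} : Set ↥𝔽)) →+*
      ↥((IsLocalRing.ResidueField O)⟮x⟯) :=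
    (ρA.comp (algebraMap _ _)).codRestrict ((IsLocalRing.ResidueField O)⟮x⟯).toSubring hA
  have halg : IsAlgebraic ↥((IsLocalRing.ResidueField O)⟮x⟯) (ρA b) := by
    have h1 : IsIntegral ↥(Algebra.adjoin O ({sig, (1 - 1728 * sig ^ M)⁻¹} : Set ↥𝔽)) b :=
      integralClosure.isIntegral b
    exact (h1.map_of_comp_eq φ ρA (by ext a; rfl)).isAlgebraic
  have hsep := hS (IsLocalRing.ResidueField O) ℓ x (ρA b) hord halg
  -- transfer to the subfield generated by the reductions of `A`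
  set k₀ := Subfield.closure (Set.range (ρA.comp
      (algebraMap ↥(Algebra.adjoin O ({sig, (1 - 1728 * sig ^ M)⁻¹} : Set ↥𝔽))
        ↥(integralClosure ↥(Algebra.adjoin O ({sig, (1 - 1728 * sig ^ M)⁻¹} : Set ↥𝔽)) ↥𝔽))))
    with hk₀
  have hconst : ∀ r : IsLocalRing.ResidueField O,
      algebraMap (IsLocalRing.ResidueField O) (LaurentSeries (IsLocalRing.ResidueField O)) r
        ∈ k₀ := by
    intro r
    obtain ⟨a, rfl⟩ := IsLocalRing.residue_surjective r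
    apply Subfield.subset_closure
    refine ⟨algebraMap O ↥(Algebra.adjoin O ({sig, (1 - 1728 * sig ^ M)⁻¹} : Set ↥𝔽)) a, ?_⟩
    rw [← s18ia_red_C_eq]
    refine (hρA _).unique ?_
    have e : s18ia_BA_coe 𝔽 M sig
        (algebraMap ↥(Algebra.adjoin O ({sig, (1 - 1728 * sig ^ M)⁻¹} : Set ↥𝔽))
          ↥(integralClosure ↥(Algebra.adjoin O ({sig, (1 - 1728 * sig ^ M)⁻¹} : Set ↥𝔽)) ↥𝔽)
          (algebraMap O ↥(Algebra.adjoin O ({sig, (1 - 1728 * sig ^ M)⁻¹} : Set ↥𝔽)) a)) =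
        coeffMap (algebraMap O K) (HahnSeries.C a) := by
      rw [← s18ia_coe_algebraMap 𝔽 a]
      rfl
    rw [e]
    exact s18ia_isRed_img _
  have hxk : x ∈ k₀ := by
    apply Subfield.subset_closure
    refine ⟨⟨sig, Algebra.subset_adjoin (by simp)⟩, ?_⟩
    refine (hρA _).unique ?_
    have e : s18ia_BA_coe 𝔽 M sig
        (algebraMap ↥(Algebra.adjoin O ({sig, (1 - 1728 * sig ^ M)⁻¹} : Set ↥𝔽))
          ↥(integralClosure ↥(Algebra.adjoin O ({sig, (1 - 1728 * sig ^ M)⁻¹} : Set ↥𝔽)) ↥𝔽)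
        (⟨sig, Algebra.subset_adjoin (by simp)⟩ :
          ↥(Algebra.adjoin O ({sig, (1 - 1728 * sig ^ M)⁻¹} : Set ↥𝔽)))) =
        coeffMap (algebraMap O K) σ := by
      rw [← hsig]
      rfl
    rw [e]
    exact s18ia_isRed_img _
  have hle : (IsLocalRing.ResidueField O)⟮x⟯ ≤ k₀.toIntermediateField hconst := by
    rw [IntermediateField.adjoin_simple_le_iff]
    exact hxk
  let ι : ↥((IsLocalRing.ResidueField O)⟮x⟯) →+* ↥k₀ :=
    ((IsLocalRing.ResidueField O)⟮x⟯.val :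
      ↥((IsLocalRing.ResidueField O)⟮x⟯) →+* LaurentSeries (IsLocalRing.ResidueField O)).codRestrict
      k₀.toSubring (fun z => hle z.2)
  letI : Algebra ↥((IsLocalRing.ResidueField O)⟮x⟯) ↥k₀ := ι.toAlgebra
  haveI : IsScalarTower ↥((IsLocalRing.ResidueField O)⟮x⟯) ↥k₀
      (LaurentSeries (IsLocalRing.ResidueField O)) :=
    IsScalarTower.of_algebraMap_eq (fun _ => rfl)
  exact IsSeparable.tower_top ↥k₀ hsep

end Sep

section Pure

variable {O K : Type} [CommRing O] [IsDomain O] [IsDiscreteValuationRing O] [Field K]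
  [CharZero K] [Algebra O K] [IsFractionRing O K]
  {𝔽 : IntermediateField K (LaurentSeries K)} [Algebra O ↥𝔽] [IsScalarTower O K ↥𝔽]
  {M : ℕ} {sig : ↥𝔽} {σ : LaurentSeries O}

/-- **`B''_A / ϖ` is integrally closed**, in concrete form. -/
theorem s18ia_pure_app (hP : s18_PureStatement) (hS : s18_SepStatement)
    (ℓ : ℕ) [Fact ℓ.Prime] (hℓ : (ℓ : O) ∈ IsLocalRing.maximalIdeal O)
    [PerfectField (IsLocalRing.ResidueField O)] {ϖ : O} (hϖ : Irreducible ϖ)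
    (hM : 0 < M) (hsig : (sig : LaurentSeries K) = coeffMap (algebraMap O K) σ)
    (hσ1 : σ.coeff 1 = 1) (hσ0 : ∀ k : ℤ, k < 1 → σ.coeff k = 0)
    (htr : Transcendental K sig) (hfin : FiniteDimensional ↥K⟮sig⟯ ↥𝔽)
    (ρ : ↥(s18_chart O ({sig} : Set ↥𝔽)) →+* LaurentSeries (IsLocalRing.ResidueField O))
    (hker : ∀ b, ρ b = 0 → b ∈ s18_fibreIdeal O ({sig} : Set ↥𝔽))
    (hG : ∀ b : ↥(s18_chart O ({sig} : Set ↥𝔽)),
      s18ia_IsRed O K ((b : ↥𝔽) : LaurentSeries K) (ρ b))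
    (hK : ∀ P : Ideal ↥(integralClosure
        ↥(Algebra.adjoin O ({sig, (1 - 1728 * sig ^ M)⁻¹} : Set ↥𝔽)) ↥𝔽),
      P.IsPrime → P ≠ ⊥ →
      (ℓ : ↥(integralClosure
        ↥(Algebra.adjoin O ({sig, (1 - 1728 * sig ^ M)⁻¹} : Set ↥𝔽)) ↥𝔽)) ∉ P →
      ∃ a : ↥(Algebra.adjoin O ({sig, (1 - 1728 * sig ^ M)⁻¹} : Set ↥𝔽)),
        algebraMap ↥(Algebra.adjoin O ({sig, (1 - 1728 * sig ^ M)⁻¹} : Set ↥𝔽))
          ↥(integralClosure ↥(Algebra.adjoin O ({sig, (1 - 1728 * sig ^ M)⁻¹} : Set ↥𝔽)) ↥𝔽)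
          a ∈ P ∧
        ∀ x ∈ P, ∃ y z : ↥(integralClosure
            ↥(Algebra.adjoin O ({sig, (1 - 1728 * sig ^ M)⁻¹} : Set ↥𝔽)) ↥𝔽),
          z ∉ P ∧ x * z =
            algebraMap ↥(Algebra.adjoin O ({sig, (1 - 1728 * sig ^ M)⁻¹} : Set ↥𝔽))
              ↥(integralClosure
                ↥(Algebra.adjoin O ({sig, (1 - 1728 * sig ^ M)⁻¹} : Set ↥𝔽)) ↥𝔽) a * y) :
    (∀ y : ↥(integralClosure ↥(Algebra.adjoin O ({sig, (1 - 1728 * sig ^ M)⁻¹} : Set ↥𝔽)) ↥𝔽),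
      ∃ r, s18ia_IsRed O K (s18ia_BA_coe 𝔽 M sig y) r) ∧
    ∀ a b : ↥(integralClosure ↥(Algebra.adjoin O ({sig, (1 - 1728 * sig ^ M)⁻¹} : Set ↥𝔽)) ↥𝔽),
      s18ia_RedF O K (s18ia_BA_coe 𝔽 M sig b) ≠ 0 →
      ∀ (n : ℕ) (α : ℕ → ↥(integralClosure
          ↥(Algebra.adjoin O ({sig, (1 - 1728 * sig ^ M)⁻¹} : Set ↥𝔽)) ↥𝔽)),
        s18ia_RedF O K (s18ia_BA_coe 𝔽 M sig a) ^ n +
          ∑ i ∈ Finset.range n, s18ia_RedF O K (s18ia_BA_coe 𝔽 M sig (α i)) *
            s18ia_RedF O K (s18ia_BA_coe 𝔽 M sig a) ^ i *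
            s18ia_RedF O K (s18ia_BA_coe 𝔽 M sig b) ^ (n - i) = 0 →
        ∃ c : ↥(integralClosure
            ↥(Algebra.adjoin O ({sig, (1 - 1728 * sig ^ M)⁻¹} : Set ↥𝔽)) ↥𝔽),
          s18ia_RedF O K (s18ia_BA_coe 𝔽 M sig a) =
            s18ia_RedF O K (s18ia_BA_coe 𝔽 M sig b) *
              s18ia_RedF O K (s18ia_BA_coe 𝔽 M sig c) := by
  have hs : Transcendental O sig := s18fin_transc_O htr
  have hg0 := s18ia_g_coeff O hM
  have hc := s18ia_g_aeval (O := O) M sig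
  have hc0 : (1 - 1728 * sig ^ M : ↥𝔽) ≠ 0 := s18ia_A_c_ne_zero hs hg0 hc
  haveI := s18ia_A_noeth hs hg0 hc
  haveI := s18ia_A_ic hs hg0 hc
  haveI : CharZero ↥𝔽 := charZero_of_injective_algebraMap (algebraMap K ↥𝔽).injective
  haveI : CharZero O := ⟨fun m n h => by
    have h1 := congrArg (algebraMap O K) h
    rw [map_natCast, map_natCast] at h1
    exact Nat.cast_injective h1⟩
  haveI : CharP (IsLocalRing.ResidueField O) ℓ := by
    rw [CharP.charP_iff_prime_eq_zero (Fact.out : ℓ.Prime)]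
    have : IsLocalRing.residue O (ℓ : O) = 0 := (IsLocalRing.residue_eq_zero_iff _).mpr hℓ
    rw [map_natCast] at this
    exact this
  have hV : ∀ b : ↥(s18_chart O ({sig} : Set ↥𝔽)),
      ∃ r, s18ia_IsRed O K ((b : ↥𝔽) : LaurentSeries K) r := fun b => ⟨ρ b, hG b⟩
  have hV' := s18ia_BA_hV hM hsig hσ1 hσ0 hV hc0
  refine ⟨hV', ?_⟩
  set ρA := s18ia_redHom (s18ia_BA_coe 𝔽 M sig) hV' with hρAdef
  have hρA : ∀ y, s18ia_IsRed O K (s18ia_BA_coe 𝔽 M sig y) (ρA y) :=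
    s18ia_redHom_isRed _ hV'
  set πA := algebraMap O ↥(Algebra.adjoin O ({sig, (1 - 1728 * sig ^ M)⁻¹} : Set ↥𝔽)) ϖ
    with hπA
  set πB := algebraMap ↥(Algebra.adjoin O ({sig, (1 - 1728 * sig ^ M)⁻¹} : Set ↥𝔽))
    ↥(integralClosure ↥(Algebra.adjoin O ({sig, (1 - 1728 * sig ^ M)⁻¹} : Set ↥𝔽)) ↥𝔽) πA
    with hπB
  have hρAπ : ρA πB = 0 := by
    refine (hρA πB).unique ?_
    have e : s18ia_BA_coe 𝔽 M sig πB = coeffMap (algebraMap O K) (HahnSeries.C ϖ) := by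
      rw [← s18ia_coe_algebraMap 𝔽 ϖ]
      rfl
    rw [e, ← s18ia_red_C hϖ]
    exact s18ia_isRed_img _
  have hkerA : ∀ y, ρA y = 0 → y ∈ Ideal.span ({πB} : Set _) := by
    intro y hy
    apply s18ia_BA_ker hϖ hsig ρ hker hG hc0 y
    have := hρA y
    rwa [hy] at this
  have hI : ∀ x, x ∈ Ideal.span ({πB} : Set ↥(integralClosure
      ↥(Algebra.adjoin O ({sig, (1 - 1728 * sig ^ M)⁻¹} : Set ↥𝔽)) ↥𝔽)) ↔ ρA x = 0 := by
    intro x
    constructor
    · intro hx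
      rw [Ideal.mem_span_singleton] at hx
      obtain ⟨z, rfl⟩ := hx
      rw [map_mul, hρAπ, zero_mul]
    · exact hkerA x
  have hic : IsIntegrallyClosed (↥(integralClosure
      ↥(Algebra.adjoin O ({sig, (1 - 1728 * sig ^ M)⁻¹} : Set ↥𝔽)) ↥𝔽) ⧸
        Ideal.span ({πB} : Set _)) := by
    refine hP ↥(Algebra.adjoin O ({sig, (1 - 1728 * sig ^ M)⁻¹} : Set ↥𝔽)) ↥𝔽 πA
      (s18ia_A_prime hs hg0 hc hϖ) (s18ia_A_pid hs hg0 hc hϖ) (s18ia_A_nat hϖ) ?_ ?_ ?_ ?_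
    · exact s18ia_span (O := O) hfin _
        (Algebra.adjoin_mono (by intro x hx; rw [Set.mem_singleton_iff] at hx; subst hx; simp))
    · have hprime : (Ideal.span ({πB} : Set ↥(integralClosure
          ↥(Algebra.adjoin O ({sig, (1 - 1728 * sig ^ M)⁻¹} : Set ↥𝔽)) ↥𝔽))).IsPrime := by
        have e : Ideal.span ({πB} : Set ↥(integralClosure
            ↥(Algebra.adjoin O ({sig, (1 - 1728 * sig ^ M)⁻¹} : Set ↥𝔽)) ↥𝔽)) =
            RingHom.ker ρA := by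
          ext x
          rw [hI, RingHom.mem_ker]
        rw [e]
        exact RingHom.ker_isPrime ρA
      exact Ideal.Quotient.isDomain _
    · exact ⟨LaurentSeries (IsLocalRing.ResidueField O), inferInstance, ρA, hρAπ, hkerA,
        fun b => s18ia_sep hS ℓ hM hsig hσ1 hσ0 ρA hρA b⟩
    · intro P hPp hP0 hπP
      apply hK P hPp hP0
      intro hℓP
      apply hπP
      have hℓ0 : (ℓ : O) ≠ 0 := Nat.cast_ne_zero.mpr (Fact.out : ℓ.Prime).ne_zero
      obtain ⟨k, u, hu⟩ := IsDiscreteValuationRing.eq_unit_mul_pow_irreducible hℓ0 hϖ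
      have e : (ℓ : ↥(integralClosure
          ↥(Algebra.adjoin O ({sig, (1 - 1728 * sig ^ M)⁻¹} : Set ↥𝔽)) ↥𝔽)) =
          algebraMap ↥(Algebra.adjoin O ({sig, (1 - 1728 * sig ^ M)⁻¹} : Set ↥𝔽))
            ↥(integralClosure ↥(Algebra.adjoin O ({sig, (1 - 1728 * sig ^ M)⁻¹} : Set ↥𝔽)) ↥𝔽)
            (algebraMap O ↥(Algebra.adjoin O ({sig, (1 - 1728 * sig ^ M)⁻¹} : Set ↥𝔽)) (u : O)) *
          πB ^ k := by
        rw [hπB, hπA, ← map_pow, ← map_pow, ← map_mul, ← map_mul, ← hu, map_natCast,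
          map_natCast]
      rw [e] at hℓP
      rcases hPp.mem_or_mem hℓP with h | h
      · exfalso
        apply hPp.ne_top
        apply Ideal.eq_top_of_isUnit_mem _ h
        exact (u.isUnit.map (algebraMap O _)).map (algebraMap _ _)
      · exact hPp.mem_of_pow_mem k h
  exact (s18ia_ic_hom_iff ρA _ hI).mp hic

end Pure

end Fermat.Agent.S18
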