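/-
S18, SPLIT-OFF OF [INF-ASM] (helper13).  Prefix `s18ig_`.

The endgame of [NORM-INF]: the fibre `B̄' = B'/πB'` of the chart at infinity is integrally closed
as soon as every `x̄ ∈ Frac B̄'` integral over `B̄'` lies in `B̄'[1/s̄]` and in
`B̄'[1/(1 - 1728 s̄)]`, `s = 1/j`; the first holds when the fibre of the finite chart is
integrally closed.  Everything is stated ELEMENTWISE (`s18ig_Elem`).
-/
import Mathlib
import Fermat.Agent.S18.StarDefs
import Fermat.Agent.S18.BasicB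

set_option autoImplicit false
set_option linter.style.haveILetI false
set_option linter.unusedVariables false

open AlgebraicCurve IntermediateField Polynomial

noncomputable section

namespace Fermat.Agent.S18

section Elem

variable {R : Type*} [CommRing R] (I : Ideal R)

/-- `R/I` is integrally closed, elementwise: if `ū/v̄` is a root of the monic polynomial `p̄`
then `ū/v̄ = w̄` for some `w`. -/
def s18ig_Elem : Prop :=
  ∀ u v : R, v ∉ I → ∀ p : R[X], p.Monic → (p.scaleRoots v).eval u ∈ I → ∃ w : R, w * v - u ∈ I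

variable {I}

theorem s18ig_ic_of_elem [I.IsPrime] (h : s18ig_Elem I) : IsIntegrallyClosed (R ⧸ I) := by
  rw [isIntegrallyClosed_iff (FractionRing (R ⧸ I))]
  intro x hx
  obtain ⟨a, b, hb, hab⟩ := IsFractionRing.div_surjective (A := R ⧸ I) x
  obtain ⟨u, rfl⟩ := Ideal.Quotient.mk_surjective a
  obtain ⟨v, rfl⟩ := Ideal.Quotient.mk_surjective b
  have hv : v ∉ I := fun hv =>
    nonZeroDivisors.ne_zero hb (Ideal.Quotient.eq_zero_iff_mem.2 hv)
  obtain ⟨pbar, hpm, hpx⟩ := hx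
  obtain ⟨p, hp, -, hpmon⟩ := Polynomial.lifts_and_natDegree_eq_and_monic
    ((Polynomial.mem_lifts _).2 (Polynomial.map_surjective _ Ideal.Quotient.mk_surjective pbar))
    hpm
  have hinj : Function.Injective (algebraMap (R ⧸ I) (FractionRing (R ⧸ I))) :=
    IsFractionRing.injective _ _
  have h1 : eval₂ (algebraMap (R ⧸ I) (FractionRing (R ⧸ I)))
      (algebraMap (R ⧸ I) (FractionRing (R ⧸ I)) (Ideal.Quotient.mk I u))
      (scaleRoots pbar (Ideal.Quotient.mk I v)) = 0 :=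
    scaleRoots_eval₂_eq_zero_of_eval₂_div_eq_zero hinj (by rw [hab]; exact hpx) hb
  have h2 : eval (Ideal.Quotient.mk I u) (scaleRoots pbar (Ideal.Quotient.mk I v)) = 0 := by
    apply hinj
    rw [map_zero, ← h1, Polynomial.eval₂_at_apply]
  have h3 : (p.scaleRoots v).eval u ∈ I := by
    rw [← Ideal.Quotient.eq_zero_iff_mem, ← Polynomial.eval₂_at_apply,
      ← Polynomial.eval_map, map_scaleRoots, hp]
    · exact h2
    · rw [hpmon.leadingCoeff, map_one]; exact one_ne_zero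
  obtain ⟨w, hw⟩ := h u v hv p hpmon h3
  refine ⟨Ideal.Quotient.mk I w, ?_⟩
  have hw' : Ideal.Quotient.mk I w * Ideal.Quotient.mk I v = Ideal.Quotient.mk I u := by
    rw [← map_mul, ← sub_eq_zero, ← map_sub]
    exact Ideal.Quotient.eq_zero_iff_mem.2 hw
  have hb0 : algebraMap (R ⧸ I) (FractionRing (R ⧸ I)) (Ideal.Quotient.mk I v) ≠ 0 := by
    intro h0
    exact nonZeroDivisors.ne_zero hb (hinj (by rw [h0, map_zero]))
  rw [← hab, ← hw', map_mul]
  field_simp

theorem s18ig_elem_of_ic [I.IsPrime] (h : IsIntegrallyClosed (R ⧸ I)) : s18ig_Elem I := by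
  intro u v hv p hp hE
  have hinj : Function.Injective (algebraMap (R ⧸ I) (FractionRing (R ⧸ I))) :=
    IsFractionRing.injective _ _
  have hv0 : Ideal.Quotient.mk I v ≠ 0 := fun h0 => hv (Ideal.Quotient.eq_zero_iff_mem.1 h0)
  have hb0 : algebraMap (R ⧸ I) (FractionRing (R ⧸ I)) (Ideal.Quotient.mk I v) ≠ 0 := by
    intro h0
    exact hv0 (hinj (by rw [h0, map_zero]))
  -- the integral element
  have hint : IsIntegral (R ⧸ I)
      (algebraMap (R ⧸ I) (FractionRing (R ⧸ I)) (Ideal.Quotient.mk I u) /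
        algebraMap (R ⧸ I) (FractionRing (R ⧸ I)) (Ideal.Quotient.mk I v)) := by
    refine ⟨p.map (Ideal.Quotient.mk I), hp.map _, ?_⟩
    have h1 := scaleRoots_eval₂_mul (p := p.map (Ideal.Quotient.mk I))
      (algebraMap (R ⧸ I) (FractionRing (R ⧸ I)))
      (algebraMap (R ⧸ I) (FractionRing (R ⧸ I)) (Ideal.Quotient.mk I u) /
        algebraMap (R ⧸ I) (FractionRing (R ⧸ I)) (Ideal.Quotient.mk I v))
      (Ideal.Quotient.mk I v)
    have h2 : algebraMap (R ⧸ I) (FractionRing (R ⧸ I)) (Ideal.Quotient.mk I v) *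
        (algebraMap (R ⧸ I) (FractionRing (R ⧸ I)) (Ideal.Quotient.mk I u) /
          algebraMap (R ⧸ I) (FractionRing (R ⧸ I)) (Ideal.Quotient.mk I v)) =
        algebraMap (R ⧸ I) (FractionRing (R ⧸ I)) (Ideal.Quotient.mk I u) := by
      field_simp
    rw [h2] at h1
    have h3 : eval₂ (algebraMap (R ⧸ I) (FractionRing (R ⧸ I)))
        (algebraMap (R ⧸ I) (FractionRing (R ⧸ I)) (Ideal.Quotient.mk I u))
        (scaleRoots (p.map (Ideal.Quotient.mk I)) (Ideal.Quotient.mk I v)) = 0 := by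
      rw [← map_scaleRoots, Polynomial.eval₂_at_apply, Polynomial.eval_map,
        Polynomial.eval₂_at_apply, Ideal.Quotient.eq_zero_iff_mem.2 hE, map_zero]
      rw [hp.leadingCoeff, map_one]; exact one_ne_zero
    rw [h3] at h1
    rcases mul_eq_zero.1 h1.symm with h4 | h4
    · exact absurd h4 (pow_ne_zero _ hb0)
    · exact h4
  obtain ⟨y, hy⟩ := (isIntegrallyClosed_iff (FractionRing (R ⧸ I))).1 h hint
  obtain ⟨w, rfl⟩ := Ideal.Quotient.mk_surjective y
  refine ⟨w, ?_⟩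
  rw [← Ideal.Quotient.eq_zero_iff_mem, map_sub, map_mul, sub_eq_zero]
  apply hinj
  rw [map_mul, hy]
  field_simp

/-- Gluing: if `a, c` are comaximal and the integral elements of `Frac (R/I)` lie in
`(R/I)[1/ā]` and in `(R/I)[1/c̄]`, then `R/I` is integrally closed. -/
theorem s18ig_glue_abs {a c : R} (hac : IsCoprime a c)
    (h1 : ∀ u v : R, v ∉ I → ∀ p : R[X], p.Monic → (p.scaleRoots v).eval u ∈ I →
      ∃ (n : ℕ) (w : R), w * v - a ^ n * u ∈ I)
    (h2 : ∀ u v : R, v ∉ I → ∀ p : R[X], p.Monic → (p.scaleRoots v).eval u ∈ I →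
      ∃ (m : ℕ) (w : R), w * v - c ^ m * u ∈ I) : s18ig_Elem I := by
  intro u v hv p hp hE
  obtain ⟨n, w₁, hw₁⟩ := h1 u v hv p hp hE
  obtain ⟨m, w₂, hw₂⟩ := h2 u v hv p hp hE
  obtain ⟨x, y, hxy⟩ := (hac.pow (m := n) (n := m))
  refine ⟨x * w₁ + y * w₂, ?_⟩
  have e : (x * w₁ + y * w₂) * v - u =
      x * (w₁ * v - a ^ n * u) + y * (w₂ * v - c ^ m * u) + (x * a ^ n + y * c ^ m - 1) * u := by
    ring
  rw [e, hxy, sub_self, zero_mul, add_zero]
  exact I.add_mem (I.mul_mem_left _ hw₁) (I.mul_mem_left _ hw₂)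

end Elem

section Chart

variable {O F : Type} [CommRing O] [IsDomain O] [IsDiscreteValuationRing O] [Field F]
  [Algebra O F]

theorem s18ig_mem_fibre {ϖ : O} (hϖ : Irreducible ϖ) (S : Set F) (x : ↥(s18_chart O S)) :
    x ∈ s18_fibreIdeal O S ↔ ∃ b : ↥(s18_chart O S), (x : F) = algebraMap O F ϖ * (b : F) := by
  rw [s18_fibreIdeal, hϖ.maximalIdeal_eq, Ideal.map_span, Set.image_singleton,
    Ideal.mem_span_singleton]
  constructor
  · rintro ⟨b, hb⟩
    exact ⟨b, by rw [hb]; rfl⟩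
  · rintro ⟨b, hb⟩
    exact ⟨b, Subtype.ext (by rw [hb]; rfl)⟩

omit [IsDomain O] [IsDiscreteValuationRing O] in
theorem s18ig_self_mem (t : F) : t ∈ s18_chart O ({t} : Set F) := by
  rw [s18_mem_chart_iff]
  have h : t ∈ Algebra.adjoin O ({t} : Set F) := Algebra.self_mem_adjoin_singleton O t
  exact (isIntegral_algebraMap (R := ↥(Algebra.adjoin O ({t} : Set F))) (A := F) (x := ⟨t, h⟩))

omit [IsDomain O] [IsDiscreteValuationRing O] in
theorem s18ig_pow_mul_mem {t x : F} (hx : x ∈ s18_chart O ({t} : Set F)) (n : ℕ) :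
    t ^ n * x ∈ s18_chart O ({t} : Set F) :=
  Subalgebra.mul_mem _ (Subalgebra.pow_mem _ (s18ig_self_mem t) n) hx

omit [IsDomain O] [IsDiscreteValuationRing O] in
/-- `jⁿ x ∈ B` for `x ∈ B'`, `n` large. -/
theorem s18ig_up {j : F} (hj : j ≠ 0) {x : F} (hx : x ∈ s18_chart O ({j⁻¹} : Set F)) :
    ∃ N : ℕ, ∀ n : ℕ, N ≤ n → j ^ n * x ∈ s18_chart O ({j} : Set F) := by
  obtain ⟨k, hk⟩ := s18b_cover (O := O) (j := j⁻¹) (inv_ne_zero hj) hx
  rw [inv_inv] at hk
  refine ⟨k, fun n hn => ?_⟩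
  have e : j ^ n * x = j ^ (n - k) * (j ^ k * x) := by
    rw [← mul_assoc, ← pow_add, Nat.sub_add_cancel hn]
  rw [e]
  exact s18ig_pow_mul_mem hk _

omit [IsDomain O] [IsDiscreteValuationRing O] in
/-- `j⁻ⁿ x ∈ B'` for `x ∈ B`, `n` large. -/
theorem s18ig_down {j : F} (hj : j ≠ 0) {x : F} (hx : x ∈ s18_chart O ({j} : Set F)) :
    ∃ N : ℕ, ∀ n : ℕ, N ≤ n → j⁻¹ ^ n * x ∈ s18_chart O ({j⁻¹} : Set F) := by
  obtain ⟨k, hk⟩ := s18b_cover (O := O) (j := j) hj hx
  refine ⟨k, fun n hn => ?_⟩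
  have e : j⁻¹ ^ n * x = j⁻¹ ^ (n - k) * (j⁻¹ ^ k * x) := by
    rw [← mul_assoc, ← pow_add, Nat.sub_add_cancel hn]
  rw [e]
  exact s18ig_pow_mul_mem hk _

/-- Saturation: `π y ∈ B`, `tᵐ y ∈ B`, `t ∉ π B`, `B/πB` a domain ⟹ `y ∈ B`. -/
theorem s18ig_sat {ϖ : O} (hϖ : Irreducible ϖ) (hϖF : algebraMap O F ϖ ≠ 0) {t : F}
    (hprime : (s18_fibreIdeal O ({t} : Set F)).IsPrime)
    (ht : (⟨t, s18ig_self_mem t⟩ : ↥(s18_chart O ({t} : Set F))) ∉ s18_fibreIdeal O ({t} : Set F))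
    {y : F} (h1 : algebraMap O F ϖ * y ∈ s18_chart O ({t} : Set F)) (m : ℕ)
    (h2 : t ^ m * y ∈ s18_chart O ({t} : Set F)) : y ∈ s18_chart O ({t} : Set F) := by
  have h3 : (⟨t, s18ig_self_mem t⟩ : ↥(s18_chart O ({t} : Set F))) ^ m *
      (⟨_, h1⟩ : ↥(s18_chart O ({t} : Set F))) ∈ s18_fibreIdeal O ({t} : Set F) := by
    rw [s18ig_mem_fibre hϖ]
    refine ⟨⟨_, h2⟩, ?_⟩
    show t ^ m * (algebraMap O F ϖ * y) = algebraMap O F ϖ * (t ^ m * y)
    ring
  rcases hprime.mem_or_mem h3 with h4 | h4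
  · exact absurd (hprime.mem_of_pow_mem _ h4) ht
  · rw [s18ig_mem_fibre hϖ] at h4
    obtain ⟨b, hb⟩ := h4
    have : y = (b : F) := mul_left_cancel₀ hϖF hb
    rw [this]; exact b.2

end Chart

section Chart2

variable {O K F : Type} [CommRing O] [IsDomain O] [IsDiscreteValuationRing O] [Field K]
  [Algebra O K] [IsFractionRing O K] [Field F] [Algebra K F] [Algebra O F] [IsScalarTower O K F]

/-- A transcendental generator does not vanish on the special fibre: `t ∉ π B`. -/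
theorem s18ig_gen_notMem {t : F} (ht : Transcendental K t) :
    (⟨t, s18ig_self_mem t⟩ : ↥(s18_chart O ({t} : Set F))) ∉ s18_fibreIdeal O ({t} : Set F) := by
  classical
  obtain ⟨ϖ, hϖ⟩ := IsDiscreteValuationRing.exists_irreducible O
  intro hmem
  rw [s18ig_mem_fibre hϖ] at hmem
  obtain ⟨b, hb⟩ := hmem
  have htO : Transcendental O t := s18fin_transc_O (K := K) ht
  have hinj : Function.Injective (aeval t : O[X] →ₐ[O] F) := transcendental_iff_injective.1 htO
  -- the integral equation of `b`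
  obtain ⟨p, hp, hpb⟩ := (s18_mem_chart_iff O).1 b.2
  have hq : ∀ i : ℕ, ∃ q : O[X], aeval t q = ((p.coeff i : ↥(Algebra.adjoin O ({t} : Set F))) : F) :=
    fun i => s18fin_mem_adjoin.1 (p.coeff i).2
  choose q hq using hq
  set d := p.natDegree with hd
  -- `G = Σ ϖ^(d-i) q_i X^i`
  set G : O[X] := ∑ i ∈ Finset.range (d + 1), C (ϖ ^ (d - i)) * q i * X ^ i with hG
  have hGt : aeval t G = 0 := by
    have h1 : aeval t G = algebraMap O F ϖ ^ d * eval₂ (algebraMap _ F) (b : F) p := by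
      rw [hG, map_sum, Polynomial.eval₂_eq_sum_range, Finset.mul_sum]
      refine Finset.sum_congr rfl (fun i hi => ?_)
      have hi' : i ≤ d := Nat.lt_succ_iff.mp (Finset.mem_range.mp hi)
      rw [map_mul, map_mul, aeval_C, map_pow, map_pow, aeval_X, hq i]
      have e1 : algebraMap O F ϖ ^ d = algebraMap O F ϖ ^ (d - i) * algebraMap O F ϖ ^ i := by
        rw [← pow_add, Nat.sub_add_cancel hi']
      have hb' : t = algebraMap O F ϖ * (b : F) := hb
      have e2 : t ^ i = algebraMap O F ϖ ^ i * (b : F) ^ i := by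
        rw [← mul_pow, ← hb']
      rw [e1, e2]
      show _ = _ * _ * (((p.coeff i : ↥(Algebra.adjoin O ({t} : Set F))) : F) * _)
      ring
    rw [h1, hpb, mul_zero]
  have hG0 : G = 0 := hinj (by rw [hGt, map_zero])
  -- reduce modulo `ϖ`
  have hred : G.map (IsLocalRing.residue O) = X ^ d := by
    rw [hG, Polynomial.map_sum, Finset.sum_range_succ]
    have hlast : (C (ϖ ^ (d - d)) * q d * X ^ d).map (IsLocalRing.residue O) = X ^ d := by
      have hqd : q d = 1 := by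
        apply hinj
        rw [hq d, map_one]
        have : p.coeff d = 1 := hp.coeff_natDegree
        rw [this]; rfl
      rw [Nat.sub_self, pow_zero, hqd, map_one, one_mul, one_mul, Polynomial.map_pow,
        Polynomial.map_X]
    rw [hlast]
    have hz : ∑ i ∈ Finset.range d, (C (ϖ ^ (d - i)) * q i * X ^ i).map (IsLocalRing.residue O)
        = 0 := by
      refine Finset.sum_eq_zero (fun i hi => ?_)
      have hi' : i < d := Finset.mem_range.mp hi
      have hϖ0 : IsLocalRing.residue O (ϖ ^ (d - i)) = 0 := by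
        rw [map_pow]
        have : IsLocalRing.residue O ϖ = 0 := by
          rw [IsLocalRing.residue_eq_zero_iff]
          exact hϖ.not_isUnit
        rw [this, zero_pow (by omega)]
      rw [Polynomial.map_mul, Polynomial.map_mul, Polynomial.map_C, hϖ0, map_zero, zero_mul,
        zero_mul]
    rw [hz, zero_add]
  rw [hG0, Polynomial.map_zero] at hred
  exact (pow_ne_zero d (X_ne_zero (R := IsLocalRing.ResidueField O))) hred.symm

end Chart2

section Chart3

theorem s18ig_unif_ne_zero (K : Type) {O F : Type} [CommRing O] [IsDomain O] [Field K]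
    [Algebra O K] [IsFractionRing O K] [Field F] [Algebra K F] [Algebra O F] [IsScalarTower O K F]
    {ϖ : O} (hϖ : ϖ ≠ 0) : algebraMap O F ϖ ≠ 0 := by
  rw [IsScalarTower.algebraMap_apply O K F]
  intro h
  have h1 : algebraMap O K ϖ = 0 := (algebraMap K F).injective (by rw [h, map_zero])
  exact hϖ (IsFractionRing.injective O K (by rw [h1, map_zero]))

/-- coercion of an evaluation -/
theorem s18ig_coe_eval {O F : Type} [CommRing O] [Field F] [Algebra O F] (S : Set F) (q : (↥(s18_chart O S))[X]) (x : ↥(s18_chart O S)) :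
    ((q.eval x : ↥(s18_chart O S)) : F) =
      (q.map (s18_chart O S).val.toRingHom).eval (x : F) := by
  rw [Polynomial.eval_map]
  exact (Polynomial.eval₂_at_apply (s18_chart O S).val.toRingHom x).symm ▸ rfl

/-- homogeneity of `scaleRoots` -/
theorem s18ig_eval_scale {R : Type*} [CommRing R] (q : R[X]) (a u v : R) :
    (q.scaleRoots (a * v)).eval (a * u) = a ^ q.natDegree * (q.scaleRoots v).eval u := by
  have h := scaleRoots_eval₂_mul (p := q.scaleRoots v) (RingHom.id R) u a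
  rw [Polynomial.eval₂_id, Polynomial.eval₂_id, natDegree_scaleRoots, RingHom.id_apply] at h
  rw [← h, mul_comm a v, scaleRoots_mul]

end Chart3

section Chart4

/-- **The finite chart**: if the fibre of the chart of `j` is integrally closed, every element of
`Frac B̄'` integral over the fibre `B̄'` of the chart of `1/j` lies in `B̄'[1/s̄]`, `s = 1/j`. -/
theorem s18ig_fin_aux (K : Type) {O F : Type} [CommRing O] [IsDomain O]
    [IsDiscreteValuationRing O] [Field K] [Algebra O K] [IsFractionRing O K] [Field F]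
    [Algebra K F] [Algebra O F] [IsScalarTower O K F] {j : F} (hj : j ≠ 0)
    (hdom : (s18_fibreIdeal O ({j} : Set F)).IsPrime)
    (hdom' : (s18_fibreIdeal O ({j⁻¹} : Set F)).IsPrime)
    (hs : (⟨j⁻¹, s18ig_self_mem j⁻¹⟩ : ↥(s18_chart O ({j⁻¹} : Set F))) ∉
      s18_fibreIdeal O ({j⁻¹} : Set F))
    (hE : s18ig_Elem (s18_fibreIdeal O ({j} : Set F)))
    (u v : ↥(s18_chart O ({j⁻¹} : Set F))) (hv : v ∉ s18_fibreIdeal O ({j⁻¹} : Set F))
    (p : (↥(s18_chart O ({j⁻¹} : Set F)))[X]) (hp : p.Monic)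
    (hpuv : (p.scaleRoots v).eval u ∈ s18_fibreIdeal O ({j⁻¹} : Set F)) :
    ∃ (n : ℕ) (w : ↥(s18_chart O ({j⁻¹} : Set F))),
      w * v - (⟨j⁻¹, s18ig_self_mem j⁻¹⟩ : ↥(s18_chart O ({j⁻¹} : Set F))) ^ n * u ∈
        s18_fibreIdeal O ({j⁻¹} : Set F) := by
  classical
  obtain ⟨ϖ, hϖ⟩ := IsDiscreteValuationRing.exists_irreducible O
  have hϖF : algebraMap O F ϖ ≠ 0 := s18ig_unif_ne_zero K hϖ.ne_zero
  set ι' : ↥(s18_chart O ({j⁻¹} : Set F)) →+* F := (s18_chart O ({j⁻¹} : Set F)).val.toRingHom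
    with hι'
  set ι : ↥(s18_chart O ({j} : Set F)) →+* F := (s18_chart O ({j} : Set F)).val.toRingHom
    with hι
  set pF : F[X] := p.map ι' with hpF
  have hpFmon : pF.Monic := hp.map ι'
  have hpFdeg : pF.natDegree = p.natDegree := hp.natDegree_map ι'
  set d := p.natDegree with hd
  -- the relation in `F`
  obtain ⟨r', hr'⟩ := (s18ig_mem_fibre hϖ _ _).1 hpuv
  have hEF : (pF.scaleRoots (v : F)).eval (u : F) = algebraMap O F ϖ * (r' : F) := by
    rw [← hr', s18ig_coe_eval, map_scaleRoots]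
    · rfl
    · rw [hp.leadingCoeff, map_one]; exact one_ne_zero
  -- `d ≥ 1`
  have hd0 : 0 < d := by
    rcases Nat.eq_zero_or_pos d with h0 | h0
    · exfalso
      have hp1 : p = 1 := (Polynomial.Monic.natDegree_eq_zero hp).1 h0
      rw [hp1] at hpuv
      have : (1 : ↥(s18_chart O ({j⁻¹} : Set F))) ∈ s18_fibreIdeal O ({j⁻¹} : Set F) := by
        have e : ((1 : (↥(s18_chart O ({j⁻¹} : Set F)))[X]).scaleRoots v).eval u = 1 := by
          rw [show (1 : (↥(s18_chart O ({j⁻¹} : Set F)))[X]) = C 1 from (map_one C).symm,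
            scaleRoots_C, eval_C]
        rwa [e] at hpuv
      exact hdom'.ne_top ((Ideal.eq_top_iff_one _).2 this)
    · exact h0
  -- a common exponent
  obtain ⟨Nu, hNu⟩ := s18ig_up (O := O) hj u.2
  obtain ⟨Nv, hNv⟩ := s18ig_up (O := O) hj v.2
  obtain ⟨Nr, hNr⟩ := s18ig_up (O := O) hj r'.2
  have hNc : ∀ i : ℕ, ∃ N : ℕ, ∀ n : ℕ, N ≤ n →
      j ^ n * ((p.coeff i : ↥(s18_chart O ({j⁻¹} : Set F))) : F) ∈ s18_chart O ({j} : Set F) :=
    fun i => s18ig_up (O := O) hj (p.coeff i).2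
  choose Nc hNc using hNc
  set n : ℕ := max (max Nu Nv) (max Nr ((Finset.range (d + 1)).sup Nc)) with hn
  have hnu : Nu ≤ n := le_trans (le_max_left _ _) (le_max_left _ _)
  have hnv : Nv ≤ n := le_trans (le_max_right _ _) (le_max_left _ _)
  have hnr : Nr ≤ n := le_trans (le_max_left _ _) (le_max_right _ _)
  have hnc : ∀ i, i ≤ d → Nc i ≤ n := fun i hi =>
    le_trans (Finset.le_sup (f := Nc) (Finset.mem_range.mpr (Nat.lt_succ_of_le hi)))
      (le_trans (le_max_right _ _) (le_max_right _ _))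
  have hV : j ^ n * (v : F) ∈ s18_chart O ({j} : Set F) := hNv n hnv
  have hU : j ^ (2 * n) * (u : F) ∈ s18_chart O ({j} : Set F) := by
    have e : j ^ (2 * n) * (u : F) = j ^ n * (j ^ n * (u : F)) := by rw [two_mul, pow_add]; ring
    rw [e]
    exact s18ig_pow_mul_mem (hNu n hnu) n
  -- the scaled polynomial over `B`
  have hlift : pF.scaleRoots (j ^ n) ∈ Polynomial.lifts ι := by
    rw [Polynomial.lifts_iff_coeff_lifts]
    intro i
    rw [coeff_scaleRoots, hpFdeg, hpF, Polynomial.coeff_map]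
    rcases lt_trichotomy i d with hi | hi | hi
    · have e : ι' (p.coeff i) * (j ^ n) ^ (d - i) =
          j ^ (n * (d - i - 1)) * (j ^ n * ((p.coeff i : ↥(s18_chart O ({j⁻¹} : Set F))) : F)) := by
        have : d - i = (d - i - 1) + 1 := by omega
        rw [← pow_mul]
        conv_lhs => rw [this]
        rw [Nat.mul_add, mul_one, pow_add]
        show ((p.coeff i : ↥(s18_chart O ({j⁻¹} : Set F))) : F) * _ = _
        ring
      rw [e]
      exact ⟨⟨_, s18ig_pow_mul_mem (hNc i n (hnc i hi.le)) _⟩, rfl⟩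
    · rw [hi, Nat.sub_self, pow_zero, mul_one]
      have : p.coeff d = 1 := hp.coeff_natDegree
      rw [this, map_one]
      exact ⟨1, map_one _⟩
    · rw [Polynomial.coeff_eq_zero_of_natDegree_lt hi, map_zero, zero_mul]
      exact ⟨0, map_zero _⟩
  obtain ⟨P₂, hP₂map, hP₂deg, hP₂mon⟩ := Polynomial.lifts_and_natDegree_eq_and_monic hlift
    ((monic_scaleRoots_iff _).2 hpFmon)
  -- the relation in `B`
  have hrel : (P₂.scaleRoots (⟨_, hV⟩ : ↥(s18_chart O ({j} : Set F)))).eval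
      (⟨_, hU⟩ : ↥(s18_chart O ({j} : Set F))) ∈ s18_fibreIdeal O ({j} : Set F) := by
    rw [s18ig_mem_fibre hϖ]
    have hmem : j ^ (2 * n * d - n) * (j ^ n * (r' : F)) ∈ s18_chart O ({j} : Set F) :=
      s18ig_pow_mul_mem (hNr n hnr) _
    refine ⟨⟨_, hmem⟩, ?_⟩
    rw [s18ig_coe_eval, map_scaleRoots]
    · show ((P₂.map ι).scaleRoots (j ^ n * (v : F))).eval (j ^ (2 * n) * (u : F)) = _
      rw [hP₂map, ← scaleRoots_mul]
      have e1 : j ^ n * (j ^ n * (v : F)) = j ^ (2 * n) * (v : F) := by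
        rw [two_mul, pow_add]; ring
      rw [e1, s18ig_eval_scale, hEF, hpFdeg]
      show _ = algebraMap O F ϖ * (j ^ (2 * n * d - n) * (j ^ n * (r' : F)))
      have e2 : (j ^ (2 * n)) ^ d = j ^ (2 * n * d - n) * j ^ n := by
        rw [← pow_mul, ← pow_add]
        congr 1
        have : n ≤ 2 * n * d := by nlinarith
        omega
      rw [e2]; ring
    · rw [hP₂mon.leadingCoeff, map_one]; exact one_ne_zero
  -- `V ∉ π B`
  have hVI : (⟨_, hV⟩ : ↥(s18_chart O ({j} : Set F))) ∉ s18_fibreIdeal O ({j} : Set F) := by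
    intro hmem
    obtain ⟨b, hb⟩ := (s18ig_mem_fibre hϖ _ _).1 hmem
    have hb' : j ^ n * (v : F) = algebraMap O F ϖ * (b : F) := hb
    obtain ⟨k, hk⟩ := s18ig_down (O := O) hj b.2
    have h1 : algebraMap O F ϖ * (j⁻¹ ^ n * (b : F)) ∈ s18_chart O ({j⁻¹} : Set F) := by
      have : algebraMap O F ϖ * (j⁻¹ ^ n * (b : F)) = (v : F) := by
        have : algebraMap O F ϖ * (j⁻¹ ^ n * (b : F)) = j⁻¹ ^ n * (algebraMap O F ϖ * (b : F)) := by
          ring
        rw [this, ← hb', ← mul_assoc, ← mul_pow, inv_mul_cancel₀ hj, one_pow, one_mul]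
      rw [this]; exact v.2
    have h2 : j⁻¹ ^ k * (j⁻¹ ^ n * (b : F)) ∈ s18_chart O ({j⁻¹} : Set F) := by
      rw [← mul_assoc, ← pow_add]
      exact hk _ (Nat.le_add_right _ _)
    have hy := s18ig_sat hϖ hϖF hdom' hs h1 k h2
    apply hv
    rw [s18ig_mem_fibre hϖ]
    refine ⟨⟨_, hy⟩, ?_⟩
    show (v : F) = algebraMap O F ϖ * (j⁻¹ ^ n * (b : F))
    have : algebraMap O F ϖ * (j⁻¹ ^ n * (b : F)) = j⁻¹ ^ n * (algebraMap O F ϖ * (b : F)) := by
      ring
    rw [this, ← hb', ← mul_assoc, ← mul_pow, inv_mul_cancel₀ hj, one_pow, one_mul]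
  -- integral closedness of the finite fibre
  obtain ⟨W, hW⟩ := hE _ _ hVI P₂ hP₂mon hrel
  obtain ⟨b₁, hb₁⟩ := (s18ig_mem_fibre hϖ _ _).1 hW
  have hb₁' : (W : F) * (j ^ n * (v : F)) - j ^ (2 * n) * (u : F) =
      algebraMap O F ϖ * (b₁ : F) := hb₁
  obtain ⟨k₁, hk₁⟩ := s18ig_down (O := O) hj W.2
  obtain ⟨k₂, hk₂⟩ := s18ig_down (O := O) hj b₁.2
  set e : ℕ := max k₁ k₂ with he
  have hw : j⁻¹ ^ (n + e) * (W : F) ∈ s18_chart O ({j⁻¹} : Set F) :=
    hk₁ _ (le_trans (le_max_left _ _) (Nat.le_add_left _ _))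
  have hb2 : j⁻¹ ^ n * (j⁻¹ ^ (n + e) * (b₁ : F)) ∈ s18_chart O ({j⁻¹} : Set F) :=
    s18ig_pow_mul_mem (hk₂ _ (le_trans (le_max_right _ _) (Nat.le_add_left _ _))) _
  refine ⟨e, ⟨_, hw⟩, ?_⟩
  rw [s18ig_mem_fibre hϖ]
  refine ⟨⟨_, hb2⟩, ?_⟩
  show j⁻¹ ^ (n + e) * (W : F) * (v : F) - j⁻¹ ^ e * (u : F) =
    algebraMap O F ϖ * (j⁻¹ ^ n * (j⁻¹ ^ (n + e) * (b₁ : F)))
  have hjn : j⁻¹ ^ n * j ^ n = 1 := by rw [← mul_pow, inv_mul_cancel₀ hj, one_pow]
  have e1 : j⁻¹ ^ (n + e) * (W : F) * (v : F) - j⁻¹ ^ e * (u : F) =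
      j⁻¹ ^ n * j⁻¹ ^ (n + e) * ((W : F) * (j ^ n * (v : F)) - j ^ (2 * n) * (u : F)) := by
    have hj2 : j ^ (2 * n) = j ^ n * j ^ n := by rw [two_mul, pow_add]
    rw [hj2, pow_add]
    linear_combination (-(j⁻¹ ^ n * j⁻¹ ^ e * (W : F) * (v : F)) +
      j⁻¹ ^ e * (u : F) * (1 + j⁻¹ ^ n * j ^ n)) * hjn
  rw [e1, hb₁']
  ring

end Chart4

section Main

variable {O K F : Type} [CommRing O] [IsDomain O] [IsDiscreteValuationRing O] [Field K]
  [Algebra O K] [IsFractionRing O K] [Field F] [Algebra K F] [Algebra O F] [IsScalarTower O K F]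

/-- `s = 1/j` as an element of the chart at infinity. -/
def s18ig_s (O : Type) [CommRing O] {F : Type} [Field F] [Algebra O F] (j : F) :
    ↥(s18_chart O ({j⁻¹} : Set F)) := ⟨j⁻¹, s18ig_self_mem j⁻¹⟩

/-- **(2)** the finite chart. -/
theorem s18ig_fin {j : F} (hj : Transcendental K j)
    (hdom : IsDomain (s18_fibre O ({j} : Set F)))
    (hdom' : IsDomain (s18_fibre O ({j⁻¹} : Set F)))
    (hic : IsIntegrallyClosed (s18_fibre O ({j} : Set F)))
    (u v : ↥(s18_chart O ({j⁻¹} : Set F))) (hv : v ∉ s18_fibreIdeal O ({j⁻¹} : Set F))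
    (p : (↥(s18_chart O ({j⁻¹} : Set F)))[X]) (hp : p.Monic)
    (hpuv : (p.scaleRoots v).eval u ∈ s18_fibreIdeal O ({j⁻¹} : Set F)) :
    ∃ (n : ℕ) (w : ↥(s18_chart O ({j⁻¹} : Set F))),
      w * v - s18ig_s O j ^ n * u ∈ s18_fibreIdeal O ({j⁻¹} : Set F) := by
  have hj0 : j ≠ 0 := fun h => hj (by rw [h]; exact isAlgebraic_zero)
  have hP : (s18_fibreIdeal O ({j} : Set F)).IsPrime :=
    (Ideal.Quotient.isDomain_iff_prime _).1 hdom
  have hP' : (s18_fibreIdeal O ({j⁻¹} : Set F)).IsPrime :=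
    (Ideal.Quotient.isDomain_iff_prime _).1 hdom'
  exact s18ig_fin_aux K hj0 hP hP' (s18ig_gen_notMem (K := K) (s18fin_transc_inv hj))
    (s18ig_elem_of_ic hic) u v hv p hp hpuv

/-- **(3)** gluing along `s` and `1 - 1728 s`. -/
theorem s18ig_glue {j : F}
    (h1 : ∀ u v : ↥(s18_chart O ({j⁻¹} : Set F)), v ∉ s18_fibreIdeal O ({j⁻¹} : Set F) →
      ∀ p : (↥(s18_chart O ({j⁻¹} : Set F)))[X], p.Monic →
      (p.scaleRoots v).eval u ∈ s18_fibreIdeal O ({j⁻¹} : Set F) →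
      ∃ (n : ℕ) (w : ↥(s18_chart O ({j⁻¹} : Set F))),
        w * v - s18ig_s O j ^ n * u ∈ s18_fibreIdeal O ({j⁻¹} : Set F))
    (h2 : ∀ u v : ↥(s18_chart O ({j⁻¹} : Set F)), v ∉ s18_fibreIdeal O ({j⁻¹} : Set F) →
      ∀ p : (↥(s18_chart O ({j⁻¹} : Set F)))[X], p.Monic →
      (p.scaleRoots v).eval u ∈ s18_fibreIdeal O ({j⁻¹} : Set F) →
      ∃ (m : ℕ) (w : ↥(s18_chart O ({j⁻¹} : Set F))),
        w * v - (1 - 1728 * s18ig_s O j) ^ m * u ∈ s18_fibreIdeal O ({j⁻¹} : Set F)) :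
    s18ig_Elem (s18_fibreIdeal O ({j⁻¹} : Set F)) :=
  s18ig_glue_abs (a := s18ig_s O j) (c := 1 - 1728 * s18ig_s O j) ⟨1728, 1, by ring⟩ h1 h2

/-- **The endgame of [NORM-INF]**: the fibre of the chart at infinity is integrally closed if the
fibre of the finite chart is and every integral element of `Frac B̄'` lies in
`B̄'[1/(1 - 1728 s̄)]`. -/
theorem s18ig_main {j : F} (hj : Transcendental K j)
    (hdom : IsDomain (s18_fibre O ({j} : Set F)))
    (hdom' : IsDomain (s18_fibre O ({j⁻¹} : Set F)))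
    (hic : IsIntegrallyClosed (s18_fibre O ({j} : Set F)))
    (h2 : ∀ u v : ↥(s18_chart O ({j⁻¹} : Set F)), v ∉ s18_fibreIdeal O ({j⁻¹} : Set F) →
      ∀ p : (↥(s18_chart O ({j⁻¹} : Set F)))[X], p.Monic →
      (p.scaleRoots v).eval u ∈ s18_fibreIdeal O ({j⁻¹} : Set F) →
      ∃ (m : ℕ) (w : ↥(s18_chart O ({j⁻¹} : Set F))),
        w * v - (1 - 1728 * s18ig_s O j) ^ m * u ∈ s18_fibreIdeal O ({j⁻¹} : Set F)) :
    IsIntegrallyClosed (s18_fibre O ({j⁻¹} : Set F)) := by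
  haveI : (s18_fibreIdeal O ({j⁻¹} : Set F)).IsPrime :=
    (Ideal.Quotient.isDomain_iff_prime _).1 hdom'
  exact s18ig_ic_of_elem (s18ig_glue (fun u v hv p hp hpuv =>
    s18ig_fin hj hdom hdom' hic u v hv p hp hpuv) h2)

/-- **(2')** the finite chart, with `s : B'` a parameter. -/
theorem s18ig_fin' {j : F} (hj : Transcendental K j)
    (hdom : IsDomain (s18_fibre O ({j} : Set F)))
    (hdom' : IsDomain (s18_fibre O ({j⁻¹} : Set F)))
    (hic : IsIntegrallyClosed (s18_fibre O ({j} : Set F)))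
    (s : ↥(s18_chart O ({j⁻¹} : Set F))) (hs : (s : F) = j⁻¹)
    (u v : ↥(s18_chart O ({j⁻¹} : Set F))) (hv : v ∉ s18_fibreIdeal O ({j⁻¹} : Set F))
    (p : (↥(s18_chart O ({j⁻¹} : Set F)))[X]) (hp : p.Monic)
    (hpuv : (p.scaleRoots v).eval u ∈ s18_fibreIdeal O ({j⁻¹} : Set F)) :
    ∃ (n : ℕ) (w : ↥(s18_chart O ({j⁻¹} : Set F))),
      w * v - s ^ n * u ∈ s18_fibreIdeal O ({j⁻¹} : Set F) := by
  have e : s = s18ig_s O j := Subtype.ext hs
  rw [e]
  exact s18ig_fin hj hdom hdom' hic u v hv p hp hpuv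

/-- **The endgame of [NORM-INF]**, generic form: `s c : B'` with `s = 1/j` and `s, c` comaximal. -/
theorem s18ig_main' {j : F} (hj : Transcendental K j)
    (hdom : IsDomain (s18_fibre O ({j} : Set F)))
    (hdom' : IsDomain (s18_fibre O ({j⁻¹} : Set F)))
    (hic : IsIntegrallyClosed (s18_fibre O ({j} : Set F)))
    (s c : ↥(s18_chart O ({j⁻¹} : Set F))) (hs : (s : F) = j⁻¹) (hsc : IsCoprime s c)
    (h2 : ∀ u v : ↥(s18_chart O ({j⁻¹} : Set F)), v ∉ s18_fibreIdeal O ({j⁻¹} : Set F) →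
      ∀ p : (↥(s18_chart O ({j⁻¹} : Set F)))[X], p.Monic →
      (p.scaleRoots v).eval u ∈ s18_fibreIdeal O ({j⁻¹} : Set F) →
      ∃ (m : ℕ) (w : ↥(s18_chart O ({j⁻¹} : Set F))),
        w * v - c ^ m * u ∈ s18_fibreIdeal O ({j⁻¹} : Set F)) :
    IsIntegrallyClosed (s18_fibre O ({j⁻¹} : Set F)) := by
  haveI : (s18_fibreIdeal O ({j⁻¹} : Set F)).IsPrime :=
    (Ideal.Quotient.isDomain_iff_prime _).1 hdom'
  exact s18ig_ic_of_elem (s18ig_glue_abs hsc (fun u v hv p hp hpuv =>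
    s18ig_fin' hj hdom hdom' hic s hs u v hv p hp hpuv) h2)

end Main

end Fermat.Agent.S18
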