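import Mathlib
import Fermat.Agent.S18.InfDefs
import Fermat.Agent.S18.InfAsmRed
import Fermat.Agent.S18.InfAsmClear
import Fermat.Agent.S18.InfAsmField
import Fermat.Agent.S18.InfAsmTheta
import Fermat.Agent.S18.InfAsmA
import Fermat.Agent.S18.InfAsmRhoA
import Fermat.Agent.S18.InfAsmPure
import Fermat.Agent.S18.InfAsmDescent
import Fermat.Agent.S18.InfGlue
import Fermat.Agent.S18.GradeChart

/-!
# S18, package (I4) [INF-ASM]: the assembly of [NORM-INF]

`s18ia_main : s18_InfAsmStatement`.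

The fibre of the chart at infinity `B' = s18_chart O {1/j}` is integrally closed:
* on `D(s̄)`, `s = 1/j`, by the finite chart (`s18ig_fin'`, helper13);
* on `D(c̄₀)`, `c₀ = 1 - 1728/j`, by [PURE] applied to `A = O[σ, 1/(1 - 1728 σ^M)] ⊆ F''`
  (`s18ia_pure_app`) and the descent through the projection onto the exponents in `M ℤ`
  (`s18ia_stepA`);
* `s` and `c₀` are comaximal (`s18ig_main'`, helper13).
-/

set_option autoImplicit false
set_option linter.unusedSectionVars false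
set_option linter.style.haveILetI false

open AlgebraicCurve ModularCurve IntermediateField Polynomial

noncomputable section

namespace Fermat.Agent.S18

section Core

variable {O K : Type} [CommRing O] [IsDomain O] [IsDiscreteValuationRing O] [Field K]
  [CharZero K] [Algebra O K] [IsFractionRing O K] (M : ℕ) [NeZero M]

/-- `1 / j` is an integral series. -/
theorem s18ia_jinv_coe :
    ∃ τ : LaurentSeries O, (((s18_j K M)⁻¹ : ↥(s18_F K M)) : LaurentSeries K) =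
      coeffMap (algebraMap O K) τ := by
  obtain ⟨τ, hτ⟩ := s18gr_exists_tinv O
  refine ⟨τ, ?_⟩
  have h1 := congrArg (coeffMap (algebraMap O K)) hτ
  rw [map_mul, map_one, ← s18ia_j_coe O K M] at h1
  have h2 : (((s18_j K M)⁻¹ : ↥(s18_F K M)) : LaurentSeries K) =
      ((s18_j K M : ↥(s18_F K M)) : LaurentSeries K)⁻¹ := rfl
  rw [h2]
  exact (eq_inv_of_mul_eq_one_left h1).symm

/-- `σ` is transcendental over `K`. -/
theorem s18ia_sig_transc {σ : LaurentSeries O} (hσ : s18_IsSigma O M σ)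
    (htr : Transcendental K (s18_j K M)) : Transcendental K (s18_sig O K M σ) := by
  intro halg
  apply htr
  have h1 : IsAlgebraic K (s18ia_theta O K M σ (s18_j K M)) := by
    rw [s18ia_theta_j K hσ]
    exact (halg.pow M).inv
  exact (isAlgebraic_algHom_iff (s18ia_theta O K M σ) (s18ia_theta O K M σ).injective).mp h1

/-- **The core of [INF-ASM]**, over an abstract discrete valuation ring. -/
theorem s18ia_core (hP : s18_PureStatement) (hS : s18_SepStatement)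
    (ℓ : ℕ) [Fact ℓ.Prime] (hℓ : (ℓ : O) ∈ IsLocalRing.maximalIdeal O)
    [PerfectField (IsLocalRing.ResidueField O)]
    (σ : LaurentSeries O) (hσ : s18_IsSigma O M σ)
    (hg : s18_GaussQAt O K M) (hgr : s18_GradeAt O K M σ) (hku : s18_KummerAt O K M σ ℓ) :
    letI := s18_algOF O K M
    IsIntegrallyClosed (s18_fibre O ({s18_j K M} : Set ↥(s18_F K M))) →
    IsIntegrallyClosed (s18_fibre O ({(s18_j K M)⁻¹} : Set ↥(s18_F K M))) := by
  letI := s18_algOF O K M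
  haveI := s18_towerOF O K M
  letI := s18_algOFF O K (s18_Fpp O K M σ)
  haveI : IsScalarTower O K ↥(s18_Fpp O K M σ) := IsScalarTower.of_algebraMap_eq' rfl
  intro hicB
  obtain ⟨htrj, hfinj, hdomB, hdomB', -, ⟨ρ', hker', hcompat'⟩, -⟩ := hg
  obtain ⟨ρ'', hker'', hcompat'', hdesc⟩ := hgr
  obtain ⟨ϖ, hϖ⟩ := IsDiscreteValuationRing.exists_irreducible O
  have hM : 0 < M := Nat.pos_of_ne_zero (NeZero.ne M)
  have hσ1 : σ.coeff 1 = 1 := hσ.2.1
  have hσ0 : ∀ k : ℤ, k < 1 → σ.coeff k = 0 := fun k hk => hσ.2.2 k (Or.inl hk)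
  -- Lemma G for the chart at infinity of `F`
  obtain ⟨τ', hτ'⟩ := s18ia_jinv_coe (O := O) (K := K) M
  have halg' : ∀ f : ↥(s18_F K M), IsAlgebraic ↥K⟮(s18_j K M)⁻¹⟯ f := by
    have h1 : ∀ E : IntermediateField K ↥(s18_F K M), E = K⟮s18_j K M⟯ →
        ∀ f : ↥(s18_F K M), IsAlgebraic ↥E f := by
      rintro E rfl f
      exact Algebra.IsAlgebraic.isAlgebraic f
    exact h1 _ (s18fin_adjoin_inv (s18_j K M)).symm
  have hG' : ∀ b : ↥(s18_chart O ({(s18_j K M)⁻¹} : Set ↥(s18_F K M))),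
      s18ia_IsRed O K ((b : ↥(s18_F K M)) : LaurentSeries K) (ρ' b) :=
    s18ia_lemmaG hϖ _ ρ' hker' hcompat'
      (s18ia_H (s18_F K M) (s18ia_F_le_Q O K M) hτ' halg')
  -- Lemma G for the chart of `F''`
  haveI hfin'' : FiniteDimensional ↥K⟮s18_sig O K M σ⟯ ↥(s18_Fpp O K M σ) :=
    s18ia_finite K hσ hfinj
  have halg'' : ∀ f : ↥(s18_Fpp O K M σ), IsAlgebraic ↥K⟮s18_sig O K M σ⟯ f :=
    fun f => Algebra.IsAlgebraic.isAlgebraic f
  have hG'' : ∀ b : ↥(s18_chart O ({s18_sig O K M σ} : Set ↥(s18_Fpp O K M σ))),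
      s18ia_IsRed O K ((b : ↥(s18_Fpp O K M σ)) : LaurentSeries K) (ρ'' b) :=
    s18ia_lemmaG hϖ _ ρ'' hker'' hcompat''
      (s18ia_H (s18_Fpp O K M σ) (s18ia_Fpp_le_Q O K M σ) (s18ia_sig_coe O K M σ) halg'')
  -- [PURE]
  have htr : Transcendental K (s18_sig O K M σ) := s18ia_sig_transc M hσ htrj
  have hpure := s18ia_pure_app hP hS ℓ hℓ hϖ hM (s18ia_sig_coe O K M σ) hσ1 hσ0 htr hfin''
    ρ'' hker'' hG'' hku
  have hc0 : (1 - 1728 * s18_sig O K M σ ^ M : ↥(s18_Fpp O K M σ)) ≠ 0 :=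
    s18ia_A_c_ne_zero (s18fin_transc_O htr) (s18ia_g_coeff O hM)
      (s18ia_g_aeval (O := O) M (s18_sig O K M σ))
  -- the two functions
  have hs_mem : (s18_j K M)⁻¹ ∈ s18_chart O ({(s18_j K M)⁻¹} : Set ↥(s18_F K M)) :=
    s18ce_self_mem O _
  have hc_mem : 1 - 1728 * (s18_j K M)⁻¹ ∈
      s18_chart O ({(s18_j K M)⁻¹} : Set ↥(s18_F K M)) :=
    sub_mem (one_mem _) (mul_mem (ofNat_mem _ 1728) hs_mem)
  have hsc : IsCoprime
      (⟨(s18_j K M)⁻¹, hs_mem⟩ : ↥(s18_chart O ({(s18_j K M)⁻¹} : Set ↥(s18_F K M))))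
      ⟨1 - 1728 * (s18_j K M)⁻¹, hc_mem⟩ := by
    refine ⟨1728, 1, ?_⟩
    apply Subtype.ext
    show (1728 : ↥(s18_F K M)) * (s18_j K M)⁻¹ + 1 * (1 - 1728 * (s18_j K M)⁻¹) = 1
    ring
  exact s18ig_main' htrj hdomB hdomB' hicB ⟨(s18_j K M)⁻¹, hs_mem⟩
    ⟨1 - 1728 * (s18_j K M)⁻¹, hc_mem⟩ rfl hsc
    (s18ia_stepA hσ hϖ ρ' hker' hG' ρ'' hG'' hdesc hc0 hpure.1 hpure.2
      ⟨1 - 1728 * (s18_j K M)⁻¹, hc_mem⟩ rfl)

end Core

/-- `M` is a unit of a local ring whose residue characteristic does not divide `M`. -/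
theorem s18ia_isUnit_M {R : Type*} [CommRing R] [IsLocalRing R] {M ℓ : ℕ} (hℓp : ℓ.Prime)
    (hℓM : ¬ ℓ ∣ M) (hℓ : (ℓ : R) ∈ IsLocalRing.maximalIdeal R) : IsUnit (M : R) := by
  by_contra hM
  have hM' : (M : R) ∈ IsLocalRing.maximalIdeal R := (IsLocalRing.mem_maximalIdeal _).mpr hM
  have hco : IsCoprime (ℓ : ℤ) (M : ℤ) :=
    Nat.isCoprime_iff_coprime.mpr ((Nat.Prime.coprime_iff_not_dvd hℓp).mpr hℓM)
  obtain ⟨a, b, hab⟩ := hco
  have h1 : ((a : R) * (ℓ : R) + (b : R) * (M : R)) = 1 := by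
    have := congrArg (Int.cast : ℤ → R) hab
    push_cast at this
    exact this
  have h2 : (1 : R) ∈ IsLocalRing.maximalIdeal R := by
    rw [← h1]
    exact Ideal.add_mem _ (Ideal.mul_mem_left _ _ hℓ) (Ideal.mul_mem_left _ _ hM')
  exact (Ideal.ne_top_iff_one _).mp (IsLocalRing.maximalIdeal.isMaximal R).ne_top h2

/-- **[INF-ASM]** -/
theorem s18ia_main : s18_InfAsmStatement := by
  intro hR hS hP M _ ℓ _ hℓM _ K0 _ O _ hℓ hperf hg hGr hKu
  haveI := hperf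
  obtain ⟨σ, hσ⟩ := hR ↥O M (s18ia_isUnit_M (Fact.out : ℓ.Prime) hℓM hℓ)
  exact s18ia_core M hP hS ℓ hℓ σ hσ hg (hGr σ hσ) (hKu σ hσ)

end Fermat.Agent.S18
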