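/-
# S18 / [PP]: the place of a prime ideal.  Owner: helper29, prefix `s18lpp_`.
(Shape of the shared tool [PP] of the S18 cut: `s18lpp_main`.)

`B ⊆ F` integrally closed in the field `F`, `t ∈ B` transcendental over the field `K ⊆ F`,
`F / K(t)` finite (characteristic `0`), `P ≠ 0` a prime ideal of `B` with `K ⊆ B_P`.  Then `B_P` is
the valuation ring of a place `Q` of `F / K`.

ROUTE.  `A = K[t] ≅ K[X]` is a principal ideal domain with field of fractions `K(t)`, so the
integral closure `C` of `A` in `F` is a Dedekind domain with field of fractions `F`.  `C ⊆ B_P`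
(`B_P` is integrally closed and contains `K` and `t`); `m = C ∩ P B_P` is a non-zero prime of `C`
(otherwise `F ⊆ B_P`); `Q` is the place of `m`.  Its valuation ring `C_m` is contained in `B_P`,
and `B_P ⊆ C_m` because the maximal ideal of `C_m` is contained in `P B_P ∌ 1`.
-/
import Mathlib
import Fermat.Prelude.Def_AlgebraicCurve_DivisorClassGroup

set_option autoImplicit false

namespace Fermat.Agent.S18

open AlgebraicCurve IsDedekindDomain IntermediateField

noncomputable section

/-! ### Orders and the valuation ring of a place -/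

section ord

variable {K F : Type*} [Field K] [Field F] [Algebra K F] (Q : Place K F)

theorem s18lpp_ord_nonneg {x : F} (hx : x ∈ Q.toValuationSubring) : 0 ≤ Q.ord x := by
  rcases eq_or_ne x 0 with rfl | hx0
  · rw [Place.ord_zero]
  · have h1 : Q.adicValuation x ≤ 1 := by
      have h2 := Q.adicValuation_coe ⟨x, hx⟩
      rw [show ((⟨x, hx⟩ : Q.toValuationSubring) : F) = x from rfl] at h2
      rw [h2]
      exact Q.heightOneSpectrum.intValuation_le_one _
    have h3 : WithZero.log (Q.adicValuation x) ≤ WithZero.log (1 : WithZero (Multiplicative ℤ)) :=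
      (WithZero.log_le_log (Q.adicValuation_ne_zero hx0) one_ne_zero).2 h1
    rw [WithZero.log_one] at h3
    unfold Place.ord
    omega

theorem s18lpp_mem_of_ord_nonneg {x : F} (hx : 0 ≤ Q.ord x) : x ∈ Q.toValuationSubring := by
  rcases eq_or_ne x 0 with rfl | hx0
  · exact zero_mem _
  · obtain ⟨π, hπ⟩ := IsDiscreteValuationRing.exists_irreducible Q.toValuationSubring
    obtain ⟨u, hu⟩ := Q.exists_unit_mul_zpow hx0 hπ
    obtain ⟨n, hn⟩ := Int.eq_ofNat_of_zero_le hx
    rw [hn, zpow_natCast] at hu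
    rw [hu]
    exact Q.toValuationSubring.mul_mem _ _ (u : Q.toValuationSubring).2
      (pow_mem π.2 n)

theorem s18lpp_ord_pos_iff {x : F} (hx0 : x ≠ 0) (hx : x ∈ Q.toValuationSubring) :
    0 < Q.ord x ↔ (⟨x, hx⟩ : Q.toValuationSubring) ∈
      IsLocalRing.maximalIdeal Q.toValuationSubring := by
  have h2 := Q.adicValuation_coe ⟨x, hx⟩
  rw [show ((⟨x, hx⟩ : Q.toValuationSubring) : F) = x from rfl] at h2
  have h3 : WithZero.log (Q.adicValuation x) < WithZero.log (1 : WithZero (Multiplicative ℤ)) ↔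
      Q.adicValuation x < 1 :=
    WithZero.log_lt_log (Q.adicValuation_ne_zero hx0) one_ne_zero
  rw [WithZero.log_one] at h3
  rw [← Place.heightOneSpectrum_asIdeal, ← HeightOneSpectrum.intValuation_lt_one_iff_mem, ← h2,
    ← h3]
  unfold Place.ord
  omega

end ord

/-! ### The local ring of a prime ideal inside `F` -/

section S

variable {K F B : Type*} [Field K] [Field F] [Algebra K F] [CommRing B] [Algebra B F]
  (P : Ideal B) [hP : P.IsPrime]

/-- `x ∈ B_P`. -/
def s18lpp_In (x : F) : Prop :=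
  ∃ y z : B, z ∉ P ∧ x * algebraMap B F z = algebraMap B F y

/-- `x ∈ P B_P`. -/
def s18lpp_InN (x : F) : Prop :=
  ∃ y z : B, y ∈ P ∧ z ∉ P ∧ x * algebraMap B F z = algebraMap B F y

variable {P}

omit hP in
theorem s18lpp_InN.in {x : F} (h : s18lpp_InN P x) : s18lpp_In P x := by
  obtain ⟨y, z, -, hz, h⟩ := h
  exact ⟨y, z, hz, h⟩

theorem s18lpp_In.mul {x x' : F} (h : s18lpp_In P x) (h' : s18lpp_In P x') :
    s18lpp_In P (x * x') := by
  obtain ⟨y, z, hz, h⟩ := h
  obtain ⟨y', z', hz', h'⟩ := h'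
  refine ⟨y * y', z * z', fun hm => ?_, ?_⟩
  · rcases hP.mem_or_mem hm with hm | hm
    · exact hz hm
    · exact hz' hm
  · rw [map_mul, map_mul, ← h, ← h']
    ring

theorem s18lpp_In.add {x x' : F} (h : s18lpp_In P x) (h' : s18lpp_In P x') :
    s18lpp_In P (x + x') := by
  obtain ⟨y, z, hz, h⟩ := h
  obtain ⟨y', z', hz', h'⟩ := h'
  refine ⟨y * z' + y' * z, z * z', fun hm => ?_, ?_⟩
  · rcases hP.mem_or_mem hm with hm | hm
    · exact hz hm
    · exact hz' hm
  · rw [map_add, map_mul, map_mul, map_mul, ← h, ← h']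
    ring

theorem s18lpp_In.of (b : B) : s18lpp_In P (algebraMap B F b) :=
  ⟨b, 1, fun h => hP.ne_top ((Ideal.eq_top_iff_one P).2 h), by rw [map_one, mul_one]⟩

theorem s18lpp_InN.mul_in {x x' : F} (h : s18lpp_InN P x) (h' : s18lpp_In P x') :
    s18lpp_InN P (x * x') := by
  obtain ⟨y, z, hy, hz, h⟩ := h
  obtain ⟨y', z', hz', h'⟩ := h'
  refine ⟨y * y', z * z', P.mul_mem_right _ hy, fun hm => ?_, ?_⟩
  · rcases hP.mem_or_mem hm with hm | hm
    · exact hz hm
    · exact hz' hm
  · rw [map_mul, map_mul, ← h, ← h']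
    ring

theorem s18lpp_InN.add {x x' : F} (h : s18lpp_InN P x) (h' : s18lpp_InN P x') :
    s18lpp_InN P (x + x') := by
  obtain ⟨y, z, hy, hz, h⟩ := h
  obtain ⟨y', z', hy', hz', h'⟩ := h'
  refine ⟨y * z' + y' * z, z * z', P.add_mem (P.mul_mem_right _ hy) (P.mul_mem_right _ hy'),
    fun hm => ?_, ?_⟩
  · rcases hP.mem_or_mem hm with hm | hm
    · exact hz hm
    · exact hz' hm
  · rw [map_add, map_mul, map_mul, map_mul, ← h, ← h']
    ring

theorem s18lpp_InN.zero : s18lpp_InN P (0 : F) :=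
  ⟨0, 1, P.zero_mem, fun h => hP.ne_top ((Ideal.eq_top_iff_one P).2 h), by simp⟩

omit hP in
theorem s18lpp_not_inN_one (hinj : Function.Injective (algebraMap B F)) :
    ¬ s18lpp_InN P (1 : F) := by
  rintro ⟨y, z, hy, hz, h⟩
  rw [one_mul] at h
  exact hz (hinj h ▸ hy)

/-- Elements of `B_P` outside `P B_P` are units of `B_P`. -/
theorem s18lpp_In.inv {x : F} (h : s18lpp_In P x) (hn : ¬ s18lpp_InN P x) :
    s18lpp_In P x⁻¹ := by
  obtain ⟨y, z, hz, h⟩ := h
  have hy : y ∉ P := fun hy => hn ⟨y, z, hy, hz, h⟩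
  have hx0 : x ≠ 0 := by
    rintro rfl
    exact hn s18lpp_InN.zero
  refine ⟨z, y, hy, ?_⟩
  rw [← h]
  field_simp

theorem s18lpp_inN_of_iff (hinj : Function.Injective (algebraMap B F)) (b : B) :
    s18lpp_InN P (algebraMap B F b) ↔ b ∈ P := by
  constructor
  · rintro ⟨y, z, hy, hz, h⟩
    rw [← map_mul] at h
    have h1 : b * z ∈ P := hinj h ▸ hy
    exact (hP.mem_or_mem h1).resolve_right hz
  · intro hb
    exact ⟨b, 1, hb, fun h => hP.ne_top ((Ideal.eq_top_iff_one P).2 h), by
      rw [map_one, mul_one]⟩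

end S

/-! ### The abstract theorem: a Dedekind domain inside `B_P` -/

section abs

variable {K F B : Type*} [Field K] [Field F] [Algebra K F] [CommRing B] [Algebra B F]
  (P : Ideal B) [hP : P.IsPrime]
  (C : Type*) [CommRing C] [IsDedekindDomain C] [Algebra C F] [IsFractionRing C F]
  [Algebra K C] [IsScalarTower K C F]

/-- `m = C ∩ P B_P`. -/
def s18lpp_m (hC : ∀ c : C, s18lpp_In P (algebraMap C F c)) : Ideal C where
  carrier := {c | s18lpp_InN P (algebraMap C F c)}
  add_mem' := by
    intro a b ha hb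
    show s18lpp_InN P (algebraMap C F (a + b))
    rw [map_add]
    exact s18lpp_InN.add ha hb
  zero_mem' := by
    show s18lpp_InN P (algebraMap C F 0)
    rw [map_zero]
    exact s18lpp_InN.zero
  smul_mem' := by
    intro c x hx
    show s18lpp_InN P (algebraMap C F (c • x))
    rw [smul_eq_mul, map_mul, mul_comm]
    exact s18lpp_InN.mul_in hx (hC c)

omit [IsDedekindDomain C] [IsFractionRing C F] in
theorem s18lpp_mem_m (hC : ∀ c : C, s18lpp_In P (algebraMap C F c)) (c : C) :
    c ∈ s18lpp_m P C hC ↔ s18lpp_InN P (algebraMap C F c) := Iff.rfl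

omit [IsDedekindDomain C] [IsFractionRing C F] in
theorem s18lpp_m_isPrime (hinj : Function.Injective (algebraMap B F))
    (hC : ∀ c : C, s18lpp_In P (algebraMap C F c)) : (s18lpp_m P C hC).IsPrime := by
  refine ⟨fun h => ?_, fun {a b} hab => ?_⟩
  · have h1 : (1 : C) ∈ s18lpp_m P C hC := (Ideal.eq_top_iff_one _).1 h
    rw [s18lpp_mem_m, map_one] at h1
    exact s18lpp_not_inN_one hinj h1
  · by_contra hcon
    push Not at hcon
    obtain ⟨ha, hb⟩ := hcon
    rw [s18lpp_mem_m] at ha hb hab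
    have ha0 : algebraMap C F a ≠ 0 := fun h => ha (h ▸ s18lpp_InN.zero)
    have hb0 : algebraMap C F b ≠ 0 := fun h => hb (h ▸ s18lpp_InN.zero)
    have h1 := s18lpp_InN.mul_in hab ((s18lpp_In.inv (hC a) ha).mul (s18lpp_In.inv (hC b) hb))
    rw [map_mul] at h1
    have h2 : algebraMap C F a * algebraMap C F b *
        ((algebraMap C F a)⁻¹ * (algebraMap C F b)⁻¹) = 1 := by
      field_simp
    rw [h2] at h1
    exact s18lpp_not_inN_one hinj h1

theorem s18lpp_m_ne_bot (hinj : Function.Injective (algebraMap B F)) (hP0 : P ≠ ⊥)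
    (hC : ∀ c : C, s18lpp_In P (algebraMap C F c)) : s18lpp_m P C hC ≠ ⊥ := by
  intro hbot
  obtain ⟨p, hpP, hp0⟩ := Submodule.exists_mem_ne_zero_of_ne_bot hP0
  have hpF : algebraMap B F p ≠ 0 := fun h => hp0 (hinj (h.trans (map_zero _).symm))
  obtain ⟨a, s, hs, has⟩ := IsFractionRing.div_surjective (A := C) (algebraMap B F p)⁻¹
  have hs0 : s ≠ 0 := nonZeroDivisors.ne_zero hs
  have hsm : ¬ s18lpp_InN P (algebraMap C F s) := by
    intro h
    have h1 : s ∈ s18lpp_m P C hC := h
    rw [hbot, Ideal.mem_bot] at h1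
    exact hs0 h1
  have h1 : s18lpp_In P (algebraMap B F p)⁻¹ := by
    rw [← has, div_eq_mul_inv]
    exact (hC a).mul (s18lpp_In.inv (hC s) hsm)
  have h2 := s18lpp_InN.mul_in ((s18lpp_inN_of_iff hinj p).2 hpP) h1
  rw [mul_inv_cancel₀ hpF] at h2
  exact s18lpp_not_inN_one hinj h2

/-- **The abstract theorem**: `B_P` is the valuation ring of a place, `P B_P` its maximal
ideal. -/
theorem s18lpp_abs (hinj : Function.Injective (algebraMap B F)) (hP0 : P ≠ ⊥)
    (hC : ∀ c : C, s18lpp_In P (algebraMap C F c)) :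
    ∃ Q : Place K F, (∀ x : F, x ∈ Q.toValuationSubring ↔ s18lpp_In P x) ∧
      (∀ x : F, x ≠ 0 → (0 < Q.ord x ↔ s18lpp_InN P x)) := by
  have hprime := s18lpp_m_isPrime P C hinj hC
  have hne := s18lpp_m_ne_bot P C hinj hP0 hC
  set w : HeightOneSpectrum C := ⟨s18lpp_m P C hC, hprime, hne⟩ with hw
  have hfrac : ∀ (x : F) (n : C) (d : w.asIdeal.primeCompl),
      x * algebraMap C F d = algebraMap C F n →
      s18lpp_In P (algebraMap C F d)⁻¹ ∧ x = algebraMap C F n * (algebraMap C F d)⁻¹ := by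
    intro x n d h
    have hd : ¬ s18lpp_InN P (algebraMap C F (d : C)) := d.2
    have hd0 : algebraMap C F (d : C) ≠ 0 := fun h => hd (h ▸ s18lpp_InN.zero)
    exact ⟨s18lpp_In.inv (hC d) hd, by rw [← h]; field_simp⟩
  have h1 : ∀ x : F, x ∈ (Place.ofHeightOneSpectrum (K := K) w).toValuationSubring ↔
      s18lpp_In P x := by
    intro x
    rw [Place.ofHeightOneSpectrum_toValuationSubring, Valuation.mem_valuationSubring_iff]
    constructor
    · intro hv
      obtain ⟨n, d, h⟩ := w.exists_primeCompl_mul_eq_of_integer x hv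
      obtain ⟨hd, hx⟩ := hfrac x n d h
      rw [hx]
      exact (hC n).mul hd
    · intro hx
      by_contra hv
      rw [not_le] at hv
      have hx0 : x ≠ 0 := by
        rintro rfl
        rw [map_zero] at hv
        exact not_lt.2 zero_le_one hv
      have hv' : w.valuation F x⁻¹ < 1 := by
        rw [map_inv₀]
        exact inv_lt_one_of_one_lt₀ hv
      obtain ⟨n, d, h⟩ := w.exists_primeCompl_mul_eq_of_integer x⁻¹ hv'.le
      obtain ⟨hd, hxi⟩ := hfrac x⁻¹ n d h
      have hn : n ∈ w.asIdeal := by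
        refine (w.valuation_lt_one_iff_mem (K := F) n).1 ?_
        show w.valuation F (algebraMap C F n) < 1
        rw [← h, map_mul]
        calc w.valuation F x⁻¹ * w.valuation F (algebraMap C F d)
            ≤ w.valuation F x⁻¹ * 1 := by
              gcongr
              exact w.valuation_le_one _
          _ < 1 := by rwa [mul_one]
      have hnN : s18lpp_InN P (algebraMap C F n) := hn
      have h2 := (hnN.mul_in hd).mul_in hx
      rw [← hxi, inv_mul_cancel₀ hx0] at h2
      exact s18lpp_not_inN_one hinj h2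
  refine ⟨Place.ofHeightOneSpectrum (K := K) w, h1, fun x hx0 => ?_⟩
  constructor
  · intro hpos
    have hxV := s18lpp_mem_of_ord_nonneg _ hpos.le
    have hmax := (s18lpp_ord_pos_iff _ hx0 hxV).1 hpos
    by_contra hN
    have hinv := (h1 x⁻¹).2 (s18lpp_In.inv ((h1 x).1 hxV) hN)
    rw [IsLocalRing.mem_maximalIdeal, mem_nonunits_iff] at hmax
    exact hmax (isUnit_iff_exists_inv.2 ⟨⟨x⁻¹, hinv⟩, Subtype.ext (mul_inv_cancel₀ hx0)⟩)
  · intro hN
    have hxV := (h1 x).2 hN.in
    refine (s18lpp_ord_pos_iff _ hx0 hxV).2 ?_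
    rw [IsLocalRing.mem_maximalIdeal, mem_nonunits_iff]
    intro hu
    obtain ⟨b, hb⟩ := isUnit_iff_exists_inv.1 hu
    have hb' : x * (b : F) = 1 := congrArg Subtype.val hb
    have h2 := hN.mul_in ((h1 _).1 b.2)
    rw [hb'] at h2
    exact s18lpp_not_inN_one hinj h2

end abs

/-! ### `B_P` is integrally closed and contains the integral closure of `K[t]` -/

section closure

variable {K F B : Type*} [Field K] [Field F] [Algebra K F] [CommRing B] [Algebra B F]
  (P : Ideal B) [hP : P.IsPrime]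

/-- `B_P` as a `K`-subalgebra of `F`. -/
def s18lpp_S
    (hK : ∀ c : K, ∃ y z : B, z ∉ P ∧ algebraMap K F c * algebraMap B F z = algebraMap B F y) :
    Subalgebra K F where
  carrier := {x | s18lpp_In P x}
  mul_mem' := fun ha hb => s18lpp_In.mul ha hb
  add_mem' := fun ha hb => s18lpp_In.add ha hb
  algebraMap_mem' := hK

theorem s18lpp_mem_S
    (hK : ∀ c : K, ∃ y z : B, z ∉ P ∧ algebraMap K F c * algebraMap B F z = algebraMap B F y)
    (x : F) : x ∈ s18lpp_S P hK ↔ s18lpp_In P x := Iff.rfl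

/-- An element of `F` which is integral over `B_P` lies in `B_P` (if `B` is integrally closed in
`F`). -/
theorem s18lpp_closed (hinj : Function.Injective (algebraMap B F))
    (hic : ∀ x : F, IsIntegral B x → ∃ b, algebraMap B F b = x)
    (hK : ∀ c : K, ∃ y z : B, z ∉ P ∧ algebraMap K F c * algebraMap B F z = algebraMap B F y)
    (x : F) (hx : IsIntegral ↥(s18lpp_S P hK) x) : s18lpp_In P x := by
  let _ : Algebra B ↥(s18lpp_S P hK) :=
    ((algebraMap B F).codRestrict (s18lpp_S P hK).toSubring (fun b => s18lpp_In.of b)).toAlgebra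
  have : IsScalarTower B ↥(s18lpp_S P hK) F := IsScalarTower.of_algebraMap_eq (fun _ => rfl)
  have : IsLocalization P.primeCompl ↥(s18lpp_S P hK) := by
    refine (isLocalization_iff _ _).2 ⟨fun y => ?_, fun z => ?_, fun {a b} h => ?_⟩
    · have hy : ¬ s18lpp_InN P (algebraMap B F (y : B)) := fun h =>
        y.2 ((s18lpp_inN_of_iff hinj _).1 h)
      have hy0 : algebraMap B F (y : B) ≠ 0 := fun h => hy (h ▸ s18lpp_InN.zero)
      exact isUnit_iff_exists_inv.2
        ⟨⟨(algebraMap B F (y : B))⁻¹, s18lpp_In.inv (s18lpp_In.of _) hy⟩,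
          Subtype.ext (mul_inv_cancel₀ hy0)⟩
    · obtain ⟨y, z', hz', h⟩ := z.2
      exact ⟨(y, ⟨z', hz'⟩), Subtype.ext h⟩
    · refine ⟨1, ?_⟩
      have h1 : algebraMap B F a = algebraMap B F b := congrArg Subtype.val h
      rw [hinj h1]
  obtain ⟨m, hm⟩ := IsIntegral.exists_multiple_integral_of_isLocalization P.primeCompl x hx
  obtain ⟨b, hb⟩ := hic _ hm
  refine ⟨b, m, m.2, ?_⟩
  rw [hb, Submonoid.smul_def, Algebra.smul_def, mul_comm]

end closure

/-! ### The polynomial ring `K[t]` -/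

section line

variable {K F : Type*} [Field K] [Field F] [Algebra K F] (t : F)

theorem s18lpp_t_mem : t ∈ Algebra.adjoin K ({t} : Set F) :=
  Algebra.subset_adjoin (Set.mem_singleton t)

/-- `K[X] → K[t]` is onto. -/
theorem s18lpp_aeval_surj :
    Function.Surjective (Polynomial.aeval (R := K)
      (⟨t, s18lpp_t_mem t⟩ : ↥(Algebra.adjoin K ({t} : Set F)))) := by
  rintro ⟨a, ha⟩
  have ha' := ha
  rw [Algebra.adjoin_singleton_eq_range_aeval] at ha'
  obtain ⟨f, hf⟩ := ha'
  refine ⟨f, Subtype.ext ?_⟩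
  have h1 := Polynomial.aeval_algebraMap_apply F
    (⟨t, s18lpp_t_mem t⟩ : ↥(Algebra.adjoin K ({t} : Set F))) f
  exact h1.symm.trans hf

/-- `K[t]` is a principal ideal ring. -/
theorem s18lpp_pid : IsPrincipalIdealRing ↥(Algebra.adjoin K ({t} : Set F)) :=
  IsPrincipalIdealRing.of_surjective _ (s18lpp_aeval_surj (K := K) t)

/-- `K[t] ⊆ K(t)`. -/
theorem s18lpp_adjoin_le : Algebra.adjoin K ({t} : Set F) ≤ (K⟮t⟯).toSubalgebra :=
  IntermediateField.algebra_adjoin_le_adjoin K _

/-- The inclusion `K[t] → K(t)`. -/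
def s18lpp_incl : ↥(Algebra.adjoin K ({t} : Set F)) →+* ↥K⟮t⟯ :=
  (Subalgebra.inclusion (s18lpp_adjoin_le (K := K) t)).toRingHom

theorem s18lpp_incl_coe (x : ↥(Algebra.adjoin K ({t} : Set F))) :
    ((s18lpp_incl (K := K) t x : ↥K⟮t⟯) : F) = (x : F) := rfl

end line

/-! ### The theorem -/

/-- **[PP]** the local ring of a non-zero prime ideal of an integrally closed ring of functions is
the valuation ring of a place. -/
theorem s18lpp_main (K F B : Type) [Field K] [CharZero K] [Field F] [Algebra K F] [CommRing B]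
    [Algebra B F] (hinj : Function.Injective (algebraMap B F))
    (hic : ∀ x : F, IsIntegral B x → ∃ b, algebraMap B F b = x)
    (t : B) (_ht : Transcendental K (algebraMap B F t))
    (hfin : FiniteDimensional K⟮algebraMap B F t⟯ F)
    (P : Ideal B) [P.IsPrime] (hP : P ≠ ⊥)
    (hK : ∀ c : K, ∃ y z : B, z ∉ P ∧ algebraMap K F c * algebraMap B F z = algebraMap B F y) :
    ∃ Q : Place K F, (∀ b : B, 0 ≤ Q.ord (algebraMap B F b)) ∧
      (∀ b : B, b ∈ P ↔ b = 0 ∨ 0 < Q.ord (algebraMap B F b)) ∧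
      ∀ x : F, 0 ≤ Q.ord x → ∃ y z : B, z ∉ P ∧ x * algebraMap B F z = algebraMap B F y := by
  -- the line
  let _ : Algebra ↥(Algebra.adjoin K ({algebraMap B F t} : Set F)) ↥K⟮algebraMap B F t⟯ :=
    (s18lpp_incl (K := K) (algebraMap B F t)).toAlgebra
  have : IsScalarTower ↥(Algebra.adjoin K ({algebraMap B F t} : Set F))
      ↥K⟮algebraMap B F t⟯ F := IsScalarTower.of_algebraMap_eq (fun _ => rfl)
  have : FaithfulSMul ↥(Algebra.adjoin K ({algebraMap B F t} : Set F))
      ↥K⟮algebraMap B F t⟯ := by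
    refine (faithfulSMul_iff_algebraMap_injective _ _).2 (fun x y h => Subtype.ext ?_)
    exact congrArg (fun z : ↥K⟮algebraMap B F t⟯ => (z : F)) h
  have : IsFractionRing ↥(Algebra.adjoin K ({algebraMap B F t} : Set F))
      ↥K⟮algebraMap B F t⟯ := by
    refine IsFractionRing.of_field _ _ (fun z => ?_)
    obtain ⟨r, s, hrs⟩ := (IntermediateField.mem_adjoin_simple_iff K (z : F)).1 z.2
    refine ⟨⟨Polynomial.aeval (algebraMap B F t) r, ?_⟩,
      ⟨Polynomial.aeval (algebraMap B F t) s, ?_⟩, Subtype.ext ?_⟩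
    · rw [Algebra.adjoin_singleton_eq_range_aeval]
      exact ⟨r, rfl⟩
    · rw [Algebra.adjoin_singleton_eq_range_aeval]
      exact ⟨s, rfl⟩
    · rw [hrs]
      rfl
  have : IsPrincipalIdealRing ↥(Algebra.adjoin K ({algebraMap B F t} : Set F)) :=
    s18lpp_pid (K := K) (algebraMap B F t)
  have : CharZero ↥K⟮algebraMap B F t⟯ :=
    charZero_of_injective_algebraMap (algebraMap K ↥K⟮algebraMap B F t⟯).injective
  have : Algebra.IsSeparable ↥K⟮algebraMap B F t⟯ F :=
    Algebra.IsSeparable.of_integral _ _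
  have hded : IsDedekindDomain
      ↥(integralClosure ↥(Algebra.adjoin K ({algebraMap B F t} : Set F)) F) :=
    integralClosure.isDedekindDomain _ ↥K⟮algebraMap B F t⟯ F
  have hfrac : IsFractionRing
      ↥(integralClosure ↥(Algebra.adjoin K ({algebraMap B F t} : Set F)) F) F :=
    integralClosure.isFractionRing_of_finite_extension ↥K⟮algebraMap B F t⟯ F
  -- the integral closure is contained in `B_P`
  have hAS : Algebra.adjoin K ({algebraMap B F t} : Set F) ≤ s18lpp_S P hK := by
    refine Algebra.adjoin_le (fun x hx => ?_)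
    rw [Set.mem_singleton_iff] at hx
    rw [hx]
    exact s18lpp_In.of t
  have hC : ∀ c : ↥(integralClosure ↥(Algebra.adjoin K ({algebraMap B F t} : Set F)) F),
      s18lpp_In P (algebraMap
        ↥(integralClosure ↥(Algebra.adjoin K ({algebraMap B F t} : Set F)) F) F c) := by
    intro c
    let _ : Algebra ↥(Algebra.adjoin K ({algebraMap B F t} : Set F)) ↥(s18lpp_S P hK) :=
      (Subalgebra.inclusion hAS).toRingHom.toAlgebra
    have : IsScalarTower ↥(Algebra.adjoin K ({algebraMap B F t} : Set F))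
        ↥(s18lpp_S P hK) F := IsScalarTower.of_algebraMap_eq (fun _ => rfl)
    have h1 : IsIntegral ↥(Algebra.adjoin K ({algebraMap B F t} : Set F)) (c : F) := c.2
    exact s18lpp_closed P hinj hic hK _ h1.tower_top
  obtain ⟨Q, hQ1, hQ2⟩ := s18lpp_abs (K := K) P
    ↥(integralClosure ↥(Algebra.adjoin K ({algebraMap B F t} : Set F)) F) hinj hP hC
  refine ⟨Q, fun b => ?_, fun b => ?_, fun x hx => ?_⟩
  · exact s18lpp_ord_nonneg Q ((hQ1 _).2 (s18lpp_In.of b))
  · constructor
    · intro hb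
      by_cases hb0 : b = 0
      · exact Or.inl hb0
      · right
        have hbF : algebraMap B F b ≠ 0 := fun h => hb0 (hinj (h.trans (map_zero _).symm))
        exact (hQ2 _ hbF).2 ((s18lpp_inN_of_iff hinj b).2 hb)
    · rintro (rfl | hb)
      · exact P.zero_mem
      · have hbF : algebraMap B F b ≠ 0 := by
          intro h
          rw [h, Place.ord_zero] at hb
          exact lt_irrefl _ hb
        exact (s18lpp_inN_of_iff hinj b).1 ((hQ2 _ hbF).1 hb)
  · exact (hQ1 x).1 (s18lpp_mem_of_ord_nonneg Q hx)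

end

end Fermat.Agent.S18
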