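/-
S18, package (I3) [KUMMER] (helper2), THE ABSTRACT ASSEMBLY.  Prefix `s18ku_`.

`O` a discrete valuation ring with fraction field `K` (characteristic `0`), `L ⊇ K` a field,
`σ ∈ L` transcendental over `K`, `L / K(σ)` finite, `A = O[σ, 1/(1 - 1728 σ^M)]`, `C` the
integral closure of `A` in `L`.  If at every place `Q` of `L / K` at which `σ` is finite and
`1 - 1728 σ^M` is a unit there is `H ∈ K[X]` with `ord_Q H(σ) = 1`, then every non-zero prime
`P ∌ ℓ` of `C` (`ℓ` in the maximal ideal of `O`) is generated, locally at `P`, by an element of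
`A`.  (The place of `P` is helper29's [PP], `s18lpp_main`.)
-/
import Mathlib
import Fermat.Prelude.Def_AlgebraicCurve_DivisorClassGroup
import Fermat.Agent.S24.PlaceBasic
import Fermat.Agent.S18.LocPP

set_option autoImplicit false
set_option maxHeartbeats 1000000
set_option synthInstance.maxHeartbeats 400000
set_option linter.style.haveILetI false

open Polynomial AlgebraicCurve IntermediateField Fermat.Agent.S24

noncomputable section

namespace Fermat.Agent.S18

section Asm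

variable (O K L : Type) [CommRing O] [IsDomain O] [IsDiscreteValuationRing O] [Field K]
  [CharZero K] [Algebra O K] [IsFractionRing O K] [Field L] [Algebra K L] [Algebra O L]
  [IsScalarTower O K L] (sig : L) (M ℓ : ℕ)

/-- a non-zero element of `O` divides a power of `ℓ`. -/
theorem s18ku_dvd_pow (hℓ : (ℓ : O) ∈ IsLocalRing.maximalIdeal O) (d : O) (hd : d ≠ 0) :
    ∃ (n : ℕ) (d' : O), (ℓ : O) ^ n = d * d' := by
  obtain ⟨ϖ, hϖ⟩ := IsDiscreteValuationRing.exists_irreducible O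
  rw [hϖ.maximalIdeal_eq, Ideal.mem_span_singleton] at hℓ
  obtain ⟨e, he⟩ := hℓ
  obtain ⟨n, u, hu⟩ := IsDiscreteValuationRing.eq_unit_mul_pow_irreducible hd hϖ
  refine ⟨n, ((u⁻¹ : Oˣ) : O) * e ^ n, ?_⟩
  rw [hu, he, mul_pow]
  have h1 : ((u : O) * ϖ ^ n) * (((u⁻¹ : Oˣ) : O) * e ^ n) =
      ((u : O) * ((u⁻¹ : Oˣ) : O)) * (ϖ ^ n * e ^ n) := by ring
  rw [h1, Units.mul_inv, one_mul]

theorem s18ku_asm (hℓ : (ℓ : O) ∈ IsLocalRing.maximalIdeal O)
    (htr : Transcendental K sig) (hfin : FiniteDimensional ↥(K⟮sig⟯) L)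
    (hcore : ∀ Q : Place K L, 0 ≤ Q.ord sig → Q.ord (1 - 1728 * sig ^ M) = 0 →
      ∃ H : K[X], Q.ord (aeval sig H) = 1)
    (P : Ideal ↥(integralClosure
      ↥(Algebra.adjoin O ({sig, (1 - 1728 * sig ^ M)⁻¹} : Set L)) L))
    (hP : P.IsPrime) (hP0 : P ≠ ⊥)
    (hℓP : (ℓ : ↥(integralClosure
      ↥(Algebra.adjoin O ({sig, (1 - 1728 * sig ^ M)⁻¹} : Set L)) L)) ∉ P) :
    ∃ a : ↥(Algebra.adjoin O ({sig, (1 - 1728 * sig ^ M)⁻¹} : Set L)),
      algebraMap ↥(Algebra.adjoin O ({sig, (1 - 1728 * sig ^ M)⁻¹} : Set L))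
        ↥(integralClosure ↥(Algebra.adjoin O ({sig, (1 - 1728 * sig ^ M)⁻¹} : Set L)) L) a ∈ P ∧
      ∀ x ∈ P, ∃ y z : ↥(integralClosure
          ↥(Algebra.adjoin O ({sig, (1 - 1728 * sig ^ M)⁻¹} : Set L)) L),
        z ∉ P ∧ x * z =
          algebraMap ↥(Algebra.adjoin O ({sig, (1 - 1728 * sig ^ M)⁻¹} : Set L))
            ↥(integralClosure ↥(Algebra.adjoin O ({sig, (1 - 1728 * sig ^ M)⁻¹} : Set L)) L)
              a * y := by
  classical
  -- abbreviations
  have hsigA : sig ∈ Algebra.adjoin O ({sig, (1 - 1728 * sig ^ M)⁻¹} : Set L) :=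
    Algebra.subset_adjoin (Set.mem_insert _ _)
  have hwinvA : (1 - 1728 * sig ^ M)⁻¹ ∈
      Algebra.adjoin O ({sig, (1 - 1728 * sig ^ M)⁻¹} : Set L) :=
    Algebra.subset_adjoin (Set.mem_insert_of_mem _ (Set.mem_singleton _))
  have hwA : (1 - 1728 * sig ^ M : L) ∈
      Algebra.adjoin O ({sig, (1 - 1728 * sig ^ M)⁻¹} : Set L) :=
    sub_mem (one_mem _) (mul_mem (ofNat_mem _ 1728) (pow_mem hsigA M))
  -- elements of `A` in `C`
  have hAC : ∀ (x : L) (hx : x ∈ Algebra.adjoin O ({sig, (1 - 1728 * sig ^ M)⁻¹} : Set L)),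
      ((algebraMap ↥(Algebra.adjoin O ({sig, (1 - 1728 * sig ^ M)⁻¹} : Set L))
        ↥(integralClosure ↥(Algebra.adjoin O ({sig, (1 - 1728 * sig ^ M)⁻¹} : Set L)) L)
          ⟨x, hx⟩ : ↥(integralClosure
            ↥(Algebra.adjoin O ({sig, (1 - 1728 * sig ^ M)⁻¹} : Set L)) L)) : L) = x :=
    fun _ _ => rfl
  -- non-zero elements of `O` are not in `P`
  have hOP : ∀ d : O, d ≠ 0 →
      algebraMap ↥(Algebra.adjoin O ({sig, (1 - 1728 * sig ^ M)⁻¹} : Set L))
        ↥(integralClosure ↥(Algebra.adjoin O ({sig, (1 - 1728 * sig ^ M)⁻¹} : Set L)) L)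
          (algebraMap O ↥(Algebra.adjoin O ({sig, (1 - 1728 * sig ^ M)⁻¹} : Set L)) d) ∉ P := by
    intro d hd hmem
    obtain ⟨n, d', hn⟩ := s18ku_dvd_pow O ℓ hℓ d hd
    apply hℓP
    refine hP.mem_of_pow_mem n ?_
    have h1 : (ℓ : ↥(integralClosure
        ↥(Algebra.adjoin O ({sig, (1 - 1728 * sig ^ M)⁻¹} : Set L)) L)) ^ n =
        algebraMap ↥(Algebra.adjoin O ({sig, (1 - 1728 * sig ^ M)⁻¹} : Set L))
          ↥(integralClosure ↥(Algebra.adjoin O ({sig, (1 - 1728 * sig ^ M)⁻¹} : Set L)) L)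
            (algebraMap O ↥(Algebra.adjoin O ({sig, (1 - 1728 * sig ^ M)⁻¹} : Set L)) d) *
        algebraMap ↥(Algebra.adjoin O ({sig, (1 - 1728 * sig ^ M)⁻¹} : Set L))
          ↥(integralClosure ↥(Algebra.adjoin O ({sig, (1 - 1728 * sig ^ M)⁻¹} : Set L)) L)
            (algebraMap O ↥(Algebra.adjoin O ({sig, (1 - 1728 * sig ^ M)⁻¹} : Set L)) d') := by
      rw [← map_mul, ← map_mul, ← hn, map_pow, map_pow, map_natCast, map_natCast]
    rw [h1]
    exact P.mul_mem_right _ hmem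
  -- the place of `P`
  have hinj : Function.Injective (algebraMap ↥(integralClosure
      ↥(Algebra.adjoin O ({sig, (1 - 1728 * sig ^ M)⁻¹} : Set L)) L) L) :=
    Subtype.val_injective
  have hic : ∀ x : L, IsIntegral ↥(integralClosure
      ↥(Algebra.adjoin O ({sig, (1 - 1728 * sig ^ M)⁻¹} : Set L)) L) x →
      ∃ b : ↥(integralClosure ↥(Algebra.adjoin O ({sig, (1 - 1728 * sig ^ M)⁻¹} : Set L)) L),
        algebraMap ↥(integralClosure
          ↥(Algebra.adjoin O ({sig, (1 - 1728 * sig ^ M)⁻¹} : Set L)) L) L b = x := by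
    intro x hx
    have h1 : IsIntegral ↥(Algebra.adjoin O ({sig, (1 - 1728 * sig ^ M)⁻¹} : Set L)) x :=
      isIntegral_trans x hx
    exact ⟨⟨x, h1⟩, rfl⟩
  have hK : ∀ c : K, ∃ y z : ↥(integralClosure
      ↥(Algebra.adjoin O ({sig, (1 - 1728 * sig ^ M)⁻¹} : Set L)) L), z ∉ P ∧
      algebraMap K L c * algebraMap ↥(integralClosure
        ↥(Algebra.adjoin O ({sig, (1 - 1728 * sig ^ M)⁻¹} : Set L)) L) L z =
      algebraMap ↥(integralClosure
        ↥(Algebra.adjoin O ({sig, (1 - 1728 * sig ^ M)⁻¹} : Set L)) L) L y := by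
    intro c
    obtain ⟨x, y, hy, hxy⟩ := IsFractionRing.div_surjective O c
    have hy0 : y ≠ 0 := nonZeroDivisors.ne_zero hy
    refine ⟨algebraMap ↥(Algebra.adjoin O ({sig, (1 - 1728 * sig ^ M)⁻¹} : Set L))
        ↥(integralClosure ↥(Algebra.adjoin O ({sig, (1 - 1728 * sig ^ M)⁻¹} : Set L)) L)
          (algebraMap O ↥(Algebra.adjoin O ({sig, (1 - 1728 * sig ^ M)⁻¹} : Set L)) x),
      algebraMap ↥(Algebra.adjoin O ({sig, (1 - 1728 * sig ^ M)⁻¹} : Set L))
        ↥(integralClosure ↥(Algebra.adjoin O ({sig, (1 - 1728 * sig ^ M)⁻¹} : Set L)) L)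
          (algebraMap O ↥(Algebra.adjoin O ({sig, (1 - 1728 * sig ^ M)⁻¹} : Set L)) y),
      hOP y hy0, ?_⟩
    show algebraMap K L c * algebraMap O L y = algebraMap O L x
    rw [IsScalarTower.algebraMap_apply O K L y, IsScalarTower.algebraMap_apply O K L x,
      ← map_mul, ← hxy]
    congr 1
    have hyK : algebraMap O K y ≠ 0 := by
      intro h
      exact hy0 ((IsFractionRing.injective O K) (by rw [h, map_zero]))
    field_simp
  obtain ⟨Q, hQ1, hQ2, hQ3⟩ := s18lpp_main K L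
    ↥(integralClosure ↥(Algebra.adjoin O ({sig, (1 - 1728 * sig ^ M)⁻¹} : Set L)) L)
    hinj hic
    (algebraMap ↥(Algebra.adjoin O ({sig, (1 - 1728 * sig ^ M)⁻¹} : Set L))
      ↥(integralClosure ↥(Algebra.adjoin O ({sig, (1 - 1728 * sig ^ M)⁻¹} : Set L)) L)
        ⟨sig, hsigA⟩) htr hfin P hP0 hK
  -- the orders of `σ` and `1 - 1728 σ^M`
  have hs0 : 0 ≤ Q.ord sig := hQ1
    (algebraMap ↥(Algebra.adjoin O ({sig, (1 - 1728 * sig ^ M)⁻¹} : Set L))
      ↥(integralClosure ↥(Algebra.adjoin O ({sig, (1 - 1728 * sig ^ M)⁻¹} : Set L)) L)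
        ⟨sig, hsigA⟩)
  have hw0 : 0 ≤ Q.ord (1 - 1728 * sig ^ M) := hQ1
    (algebraMap ↥(Algebra.adjoin O ({sig, (1 - 1728 * sig ^ M)⁻¹} : Set L))
      ↥(integralClosure ↥(Algebra.adjoin O ({sig, (1 - 1728 * sig ^ M)⁻¹} : Set L)) L)
        ⟨_, hwA⟩)
  have hw1 : 0 ≤ Q.ord (1 - 1728 * sig ^ M)⁻¹ := hQ1
    (algebraMap ↥(Algebra.adjoin O ({sig, (1 - 1728 * sig ^ M)⁻¹} : Set L))
      ↥(integralClosure ↥(Algebra.adjoin O ({sig, (1 - 1728 * sig ^ M)⁻¹} : Set L)) L)
        ⟨_, hwinvA⟩)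
  rw [Place.ord_inv] at hw1
  have hw2 : Q.ord (1 - 1728 * sig ^ M) = 0 := le_antisymm (by linarith) hw0
  obtain ⟨H, hH⟩ := hcore Q hs0 hw2
  have hH0 : aeval sig H ≠ 0 := by
    intro h
    rw [h, Place.ord_zero] at hH
    exact zero_ne_one hH
  -- clearing denominators
  obtain ⟨b, hb, hbH⟩ := IsLocalization.integerNormalization_spec (nonZeroDivisors O) H
  have hb0 : b ≠ 0 := nonZeroDivisors.ne_zero hb
  have hbK : algebraMap O K b ≠ 0 := by
    intro h
    exact hb0 ((IsFractionRing.injective O K) (by rw [h, map_zero]))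
  have ha0 : aeval sig (IsLocalization.integerNormalization (nonZeroDivisors O) H) =
      algebraMap K L (algebraMap O K b) * aeval sig H := by
    rw [← aeval_map_algebraMap K sig, hbH, ← algebraMap_smul K b H, map_smul, Algebra.smul_def]
  have haA : aeval sig (IsLocalization.integerNormalization (nonZeroDivisors O) H) ∈
      Algebra.adjoin O ({sig, (1 - 1728 * sig ^ M)⁻¹} : Set L) :=
    Algebra.adjoin_mono (Set.singleton_subset_iff.2 (Set.mem_insert _ _))
      (aeval_mem_adjoin_singleton O sig)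
  have hbL : algebraMap K L (algebraMap O K b) ≠ 0 := by
    intro h
    exact hbK ((algebraMap K L).injective (by rw [h, map_zero]))
  have haord : Q.ord (aeval sig (IsLocalization.integerNormalization (nonZeroDivisors O) H)) =
      1 := by
    rw [ha0, Q.ord_mul hbL hH0, place_ord_algebraMap, hH, zero_add]
  have hane : aeval sig (IsLocalization.integerNormalization (nonZeroDivisors O) H) ≠ 0 := by
    rw [ha0]
    exact mul_ne_zero hbL hH0
  refine ⟨⟨_, haA⟩, ?_, ?_⟩
  · rw [hQ2]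
    right
    show 0 < Q.ord (aeval sig (IsLocalization.integerNormalization (nonZeroDivisors O) H))
    rw [haord]
    exact one_pos
  · intro x hx
    rcases (hQ2 x).1 hx with hx0 | hxpos
    · refine ⟨0, 1, hP.one_notMem, ?_⟩
      rw [hx0, zero_mul, mul_zero]
    · have hxL : (x : L) ≠ 0 := by
        intro h
        have h1 : Q.ord (algebraMap ↥(integralClosure
          ↥(Algebra.adjoin O ({sig, (1 - 1728 * sig ^ M)⁻¹} : Set L)) L) L x) = 0 := by
          show Q.ord (x : L) = 0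
          rw [h, Place.ord_zero]
        rw [h1] at hxpos
        exact lt_irrefl _ hxpos
      have hq : 0 ≤ Q.ord ((x : L) *
          (aeval sig (IsLocalization.integerNormalization (nonZeroDivisors O) H))⁻¹) := by
        rw [Q.ord_mul hxL (inv_ne_zero hane), Place.ord_inv, haord]
        have h2 : 0 < Q.ord (x : L) := hxpos
        linarith
      obtain ⟨y, z, hz, hyz⟩ := hQ3 _ hq
      refine ⟨y, z, hz, Subtype.ext ?_⟩
      have h3 : (x : L) * (aeval sig (IsLocalization.integerNormalization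
          (nonZeroDivisors O) H))⁻¹ * (z : L) = (y : L) := hyz
      show (x : L) * (z : L) =
        aeval sig (IsLocalization.integerNormalization (nonZeroDivisors O) H) * (y : L)
      rw [← h3]
      field_simp

end Asm

end Fermat.Agent.S18
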