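/-
S18, package (I3) [KUMMER] (helper2), KUMMER EXTENSIONS BY A ROOT OF A UNIT ARE UNRAMIFIED.
Prefix `s18ku_`.  Mathlib only.

`V` a valuation ring of `L` with an order function `w : L → ℤ` (`x ∈ V ↔ 0 ≤ w x`), `φ : E → L`
a subfield on which all orders are divisible by `e = w (φ ϖ) > 0`, `α ∈ L` a unit of `V` with
`α ^ n ∈ φ(E)`, `n` a unit of `V`.  Then all orders on `φ(E)[α]` are divisible by `e`
(`s18ku_unr`).

PROOF.  `O₁ = V ∩ E`, `κ₁` its residue field, `g = X^n - u`.  For `a ∈ O₁[X]` with `a(α)` a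
non-unit: `dbar = gcd(ā, ḡ)` has `d(α)` a non-unit (Bezout), `ḡ = dbar rbar` and `ḡ'(α) = n α^(n-1)` is
a unit, so `r(α)` is a unit; `ā rbar = ḡ bbar`, so `a r - g b ∈ ϖ O₁[X]` and
`a(α) r(α) = ϖ a₁(α)`.  Induction on the order.
-/
import Mathlib

set_option autoImplicit false
set_option linter.style.haveILetI false

open Polynomial

noncomputable section

namespace Fermat.Agent.S18

section Dict

variable {L : Type*} [Field L] (V : ValuationSubring L) (w : L → ℤ)
  (hmul : ∀ x y : L, x ≠ 0 → y ≠ 0 → w (x * y) = w x + w y)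
  (hV : ∀ x : L, x ≠ 0 → (x ∈ V ↔ 0 ≤ w x))

include hmul in
theorem s18ku_w_one : w 1 = 0 := by
  have := hmul 1 1 one_ne_zero one_ne_zero
  rw [mul_one] at this
  omega

include hmul in
theorem s18ku_w_inv {x : L} (hx : x ≠ 0) : w x⁻¹ = -w x := by
  have := hmul x x⁻¹ hx (inv_ne_zero hx)
  rw [mul_inv_cancel₀ hx, s18ku_w_one w hmul] at this
  omega

include hmul in
theorem s18ku_w_pow {x : L} (hx : x ≠ 0) (k : ℕ) : w (x ^ k) = k * w x := by
  induction k with
  | zero => simp [s18ku_w_one w hmul]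
  | succ k ih =>
    rw [pow_succ, hmul _ _ (pow_ne_zero k hx) hx, ih]
    push_cast
    ring

include hmul in
theorem s18ku_w_zpow {x : L} (hx : x ≠ 0) (k : ℤ) : w (x ^ k) = k * w x := by
  obtain ⟨m, rfl | rfl⟩ := k.eq_nat_or_neg
  · rw [zpow_natCast, s18ku_w_pow w hmul hx]
  · rw [zpow_neg, zpow_natCast, s18ku_w_inv w hmul (pow_ne_zero m hx), s18ku_w_pow w hmul hx]
    ring

include hV in
theorem s18ku_val_le {x : L} (hx : x ≠ 0) : V.valuation x ≤ 1 ↔ 0 ≤ w x :=
  (V.valuation_le_one_iff x).trans (hV x hx)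

include hmul hV in
theorem s18ku_val_lt {x : L} (hx : x ≠ 0) : V.valuation x < 1 ↔ 0 < w x := by
  have h1 : V.valuation x⁻¹ ≤ 1 ↔ 0 ≤ w x⁻¹ := s18ku_val_le V w hV (inv_ne_zero hx)
  rw [map_inv₀, s18ku_w_inv w hmul hx] at h1
  have h2 : 0 < V.valuation x := zero_lt_iff.2 ((Valuation.ne_zero_iff _).2 hx)
  rw [inv_le_one₀ h2] at h1
  rw [← not_le, h1]
  omega

include hmul hV in
theorem s18ku_val_eq {x : L} (hx : x ≠ 0) : V.valuation x = 1 ↔ w x = 0 := by
  have h1 := s18ku_val_le V w hV hx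
  have h2 := s18ku_val_lt V w hmul hV hx
  constructor
  · intro h
    have h3 : 0 ≤ w x := h1.1 h.le
    have h4 : ¬ 0 < w x := fun h5 => absurd (h2.2 h5) (by rw [h]; exact lt_irrefl _)
    omega
  · intro h
    refine le_antisymm (h1.2 (by omega)) (not_lt.1 fun h5 => ?_)
    have := h2.1 h5
    omega

end Dict

section Unr

variable {E L : Type*} [Field E] [Field L] (V : ValuationSubring L) (φ : E →+* L)

/-- The local homomorphism `V ∩ E → V`. -/
def s18ku_incl : ↥(V.comap φ) →+* ↥V :=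
  (φ.comp (V.comap φ).subtype).codRestrict V.toSubring (fun x => x.2)

theorem s18ku_incl_coe (x : ↥(V.comap φ)) : ((s18ku_incl V φ x : ↥V) : L) = φ (x : E) := rfl

/-- Evaluation at `α ∈ V` of polynomials over `V ∩ E`. -/
def s18ku_ev (α : L) : Polynomial ↥(V.comap φ) →+* L :=
  eval₂RingHom (φ.comp (V.comap φ).subtype) α

theorem s18ku_ev_C (α : L) (x : ↥(V.comap φ)) : s18ku_ev V φ α (C x) = φ (x : E) := by
  simp [s18ku_ev]

theorem s18ku_ev_X (α : L) : s18ku_ev V φ α X = α := by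
  simp [s18ku_ev]

theorem s18ku_ev_mem {α : L} (hα : α ∈ V) (a : Polynomial ↥(V.comap φ)) :
    s18ku_ev V φ α a ∈ V := by
  show eval₂ (φ.comp (V.comap φ).subtype) α a ∈ V
  rw [eval₂_eq_sum_range]
  exact sum_mem fun i _ => mul_mem (a.coeff i).2 (pow_mem hα i)

theorem s18ku_ev_le {α : L} (hα : α ∈ V) (a : Polynomial ↥(V.comap φ)) :
    V.valuation (s18ku_ev V φ α a) ≤ 1 :=
  (V.valuation_le_one_iff _).2 (s18ku_ev_mem V φ hα a)

/-- Units of `V ∩ E`. -/
theorem s18ku_isUnit_iff (x : ↥(V.comap φ)) : IsUnit x ↔ V.valuation (φ (x : E)) = 1 := by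
  have hx1 : V.valuation (φ (x : E)) ≤ 1 := (V.valuation_le_one_iff _).2 x.2
  constructor
  · intro h
    obtain ⟨y, hy⟩ := isUnit_iff_exists_inv.1 h
    have h1 : φ (x : E) * φ (y : E) = 1 := by
      rw [← map_mul]
      have := congrArg (fun z : ↥(V.comap φ) => φ (z : E)) hy
      simpa using this
    have hy1 : V.valuation (φ (y : E)) ≤ 1 := (V.valuation_le_one_iff _).2 y.2
    have h2 := congrArg V.valuation h1
    rw [map_mul, map_one] at h2
    by_contra h3
    have h4 : V.valuation (φ (x : E)) < 1 := lt_of_le_of_ne hx1 h3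
    have h5 : V.valuation (φ (x : E)) * V.valuation (φ (y : E)) < 1 :=
      calc V.valuation (φ (x : E)) * V.valuation (φ (y : E))
          ≤ V.valuation (φ (x : E)) * 1 := mul_le_mul_right hy1 _
        _ < 1 := by rwa [mul_one]
    rw [h2] at h5
    exact lt_irrefl _ h5
  · intro h
    have hx0 : (x : E) ≠ 0 := by
      intro h0
      rw [h0, map_zero, map_zero] at h
      exact zero_ne_one h
    have hmem : (x : E)⁻¹ ∈ V.comap φ := by
      rw [ValuationSubring.mem_comap, map_inv₀, ← V.valuation_le_one_iff, map_inv₀, h, inv_one]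
    exact isUnit_iff_exists_inv.2 ⟨⟨(x : E)⁻¹, hmem⟩, Subtype.ext (mul_inv_cancel₀ hx0)⟩

/-- The maximal ideal of `V ∩ E`. -/
theorem s18ku_residue_eq_zero_iff (x : ↥(V.comap φ)) :
    IsLocalRing.residue ↥(V.comap φ) x = 0 ↔ V.valuation (φ (x : E)) < 1 := by
  have hx1 : V.valuation (φ (x : E)) ≤ 1 := (V.valuation_le_one_iff _).2 x.2
  rw [IsLocalRing.residue_eq_zero_iff, IsLocalRing.mem_maximalIdeal, mem_nonunits_iff,
    s18ku_isUnit_iff]
  exact ⟨fun h => lt_of_le_of_ne hx1 h, fun h => h.ne⟩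

/-- A polynomial with zero reduction is divisible by the uniformizer. -/
theorem s18ku_red_zero (ϖ : ↥(V.comap φ))
    (hϖ : ∀ x : ↥(V.comap φ), V.valuation (φ (x : E)) < 1 → ϖ ∣ x)
    (a : Polynomial ↥(V.comap φ))
    (ha : a.map (IsLocalRing.residue ↥(V.comap φ)) = 0) :
    ∃ a₁ : Polynomial ↥(V.comap φ), a = C ϖ * a₁ := by
  have h1 : a ∈ Ideal.map (C : ↥(V.comap φ) →+* _) (Ideal.span {ϖ}) := by
    rw [Ideal.mem_map_C_iff]
    intro k
    rw [Ideal.mem_span_singleton]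
    apply hϖ
    rw [← s18ku_residue_eq_zero_iff, ← coeff_map, ha, coeff_zero]
  rw [Ideal.map_span, Set.image_singleton, Ideal.mem_span_singleton] at h1
  exact h1

/-- **The key step**: a non-unit `a(α)` is, up to a unit `r(α)`, divisible by `ϖ`. -/
theorem s18ku_unr_step (ϖ : ↥(V.comap φ))
    (hϖ : ∀ x : ↥(V.comap φ), V.valuation (φ (x : E)) < 1 → ϖ ∣ x)
    (hϖ1 : V.valuation (φ (ϖ : E)) < 1)
    (α : L) (hα : V.valuation α = 1) (n : ℕ) (hnv : V.valuation (n : L) = 1)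
    (u : ↥(V.comap φ)) (hu : α ^ n = φ (u : E))
    (a : Polynomial ↥(V.comap φ)) (ha : V.valuation (s18ku_ev V φ α a) < 1) :
    ∃ r a₁ : Polynomial ↥(V.comap φ), V.valuation (s18ku_ev V φ α r) = 1 ∧
      s18ku_ev V φ α a * s18ku_ev V φ α r = φ (ϖ : E) * s18ku_ev V φ α a₁ := by
  classical
  have hαV : α ∈ V := (V.valuation_le_one_iff _).1 hα.le
  set κ := IsLocalRing.ResidueField ↥(V.comap φ)
  set red : Polynomial ↥(V.comap φ) →+* Polynomial κ :=
    mapRingHom (IsLocalRing.residue ↥(V.comap φ)) with hred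
  have hsurj : Function.Surjective red :=
    map_surjective _ IsLocalRing.residue_surjective
  set ev := s18ku_ev V φ α with hev
  have hle : ∀ p, V.valuation (ev p) ≤ 1 := fun p => s18ku_ev_le V φ hαV p
  -- elements of the kernel of `red` have non-unit values
  have hker : ∀ p, red p = 0 → V.valuation (ev p) < 1 := by
    intro p hp
    obtain ⟨p₁, rfl⟩ := s18ku_red_zero V φ ϖ hϖ p hp
    rw [map_mul, map_mul, hev, s18ku_ev_C]
    calc V.valuation (φ (ϖ : E)) * V.valuation (s18ku_ev V φ α p₁)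
        ≤ V.valuation (φ (ϖ : E)) * 1 := mul_le_mul_right (s18ku_ev_le V φ hαV p₁) _
      _ < 1 := by rwa [mul_one]
  -- the polynomial `g = X ^ n - u`
  set g : Polynomial ↥(V.comap φ) := X ^ n - C u with hg
  have hgα : ev g = 0 := by
    rw [hg, map_sub, map_pow, hev, s18ku_ev_X, s18ku_ev_C, hu, sub_self]
  -- gcd and Bezout
  set dbar := EuclideanDomain.gcd (red a) (red g) with hdbar
  obtain ⟨bbar, hbbar⟩ := EuclideanDomain.gcd_dvd_left (red a) (red g)
  obtain ⟨rbar, hrbar⟩ := EuclideanDomain.gcd_dvd_right (red a) (red g)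
  have hbez := EuclideanDomain.gcd_eq_gcd_ab (red a) (red g)
  obtain ⟨d, hd⟩ := hsurj dbar
  obtain ⟨b, hb⟩ := hsurj bbar
  obtain ⟨r, hr⟩ := hsurj rbar
  obtain ⟨s, hs⟩ := hsurj (EuclideanDomain.gcdA (red a) (red g))
  obtain ⟨t, ht⟩ := hsurj (EuclideanDomain.gcdB (red a) (red g))
  -- `d(α)` is a non-unit
  have hdα : V.valuation (ev d) < 1 := by
    have h1 : red (d - (a * s + g * t)) = 0 := by
      rw [map_sub, map_add, map_mul, map_mul, hd, hs, ht, hdbar, ← hbez, sub_self]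
    have h2 := hker _ h1
    have h3 : ev d = ev (d - (a * s + g * t)) + ev a * ev s := by
      rw [map_sub, map_add, map_mul, map_mul, hgα]
      ring
    rw [h3]
    refine lt_of_le_of_lt (Valuation.map_add _ _ _) (max_lt h2 ?_)
    rw [map_mul]
    calc V.valuation (ev a) * V.valuation (ev s)
        ≤ V.valuation (ev a) * 1 := mul_le_mul_right (hle s) _
      _ < 1 := by rwa [mul_one]
  -- `r(α)` is a unit
  have hrα : V.valuation (ev r) = 1 := by
    have h1 : red (g - d * r) = 0 := by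
      rw [map_sub, map_mul, hd, hr, ← hrbar, sub_self]
    obtain ⟨z, hz⟩ := s18ku_red_zero V φ ϖ hϖ _ h1
    have h2 : g = d * r + C ϖ * z := by rw [← hz]; ring
    have h3 : derivative g = derivative d * r + d * derivative r + C ϖ * derivative z := by
      rw [h2, derivative_add, derivative_mul, derivative_mul, derivative_C, zero_mul, zero_add]
    have h4 : ev (derivative g) = (n : L) * α ^ (n - 1) := by
      rw [hg, derivative_sub, derivative_C, sub_zero, derivative_X_pow, map_mul, map_pow,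
        hev, s18ku_ev_X]
      congr 1
      rw [s18ku_ev_C]
      simp
    have h5 : V.valuation (ev (derivative g)) = 1 := by
      rw [h4, map_mul, map_pow, hnv, hα, one_pow, one_mul]
    have h6 : V.valuation (ev (d * derivative r + C ϖ * derivative z)) < 1 := by
      rw [map_add]
      refine lt_of_le_of_lt (Valuation.map_add _ _ _) (max_lt ?_ ?_)
      · rw [map_mul, map_mul]
        calc V.valuation (ev d) * V.valuation (ev (derivative r))
            ≤ V.valuation (ev d) * 1 := mul_le_mul_right (hle _) _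
          _ < 1 := by rwa [mul_one]
      · rw [map_mul, map_mul, hev, s18ku_ev_C]
        calc V.valuation (φ (ϖ : E)) * V.valuation (s18ku_ev V φ α (derivative z))
            ≤ V.valuation (φ (ϖ : E)) * 1 := mul_le_mul_right (s18ku_ev_le V φ hαV _) _
          _ < 1 := by rwa [mul_one]
    have h7 : V.valuation (ev (derivative d * r)) = 1 := by
      have h8 : ev (derivative g) =
          ev (derivative d * r) + ev (d * derivative r + C ϖ * derivative z) := by
        rw [← map_add, h3]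
        congr 1
        ring
      by_contra h9
      have h10 : V.valuation (ev (derivative d * r)) < 1 := lt_of_le_of_ne (hle _) h9
      have h11 : V.valuation (ev (derivative g)) < 1 := by
        rw [h8]
        exact lt_of_le_of_lt (Valuation.map_add _ _ _) (max_lt h10 h6)
      rw [h5] at h11
      exact lt_irrefl _ h11
    rw [map_mul, map_mul] at h7
    by_contra h9
    have h10 : V.valuation (ev r) < 1 := lt_of_le_of_ne (hle _) h9
    have h11 : V.valuation (ev (derivative d)) * V.valuation (ev r) < 1 :=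
      calc V.valuation (ev (derivative d)) * V.valuation (ev r)
          ≤ 1 * V.valuation (ev r) := mul_le_mul_left (hle _) _
        _ < 1 := by rwa [one_mul]
    rw [h7] at h11
    exact lt_irrefl _ h11
  -- the relation
  have hrel : red (a * r - g * b) = 0 := by
    rw [map_sub, map_mul, map_mul, hr, hb]
    have e1 : red a = dbar * bbar := hbbar
    have e2 : red g = dbar * rbar := hrbar
    linear_combination rbar * e1 - bbar * e2
  obtain ⟨a₁, ha₁⟩ := s18ku_red_zero V φ ϖ hϖ _ hrel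
  refine ⟨r, a₁, hrα, ?_⟩
  have h1 := congrArg ev ha₁
  rw [map_sub, map_mul, map_mul, map_mul, hgα, zero_mul, sub_zero] at h1
  rw [h1, hev, s18ku_ev_C]

variable (w : L → ℤ)
  (hmul : ∀ x y : L, x ≠ 0 → y ≠ 0 → w (x * y) = w x + w y)
  (hV : ∀ x : L, x ≠ 0 → (x ∈ V ↔ 0 ≤ w x))

include hmul hV in
/-- All orders on `(V ∩ E)[α]` are divisible by `e`. -/
theorem s18ku_unr_poly (e : ℤ) (he : 0 < e) (ϖ : E) (hϖ0 : ϖ ≠ 0) (hϖ : w (φ ϖ) = e)
    (hE : ∀ x : E, x ≠ 0 → e ∣ w (φ x))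
    (α : L) (hα0 : α ≠ 0) (hα : w α = 0) (n : ℕ) (hn : 0 < n) (hn0 : (n : L) ≠ 0)
    (hnw : w (n : L) = 0) (u : E) (hu : α ^ n = φ u)
    (a : Polynomial ↥(V.comap φ)) (ha : s18ku_ev V φ α a ≠ 0) :
    e ∣ w (s18ku_ev V φ α a) := by
  have hφ0 : ∀ x : E, x ≠ 0 → φ x ≠ 0 := fun x hx => (map_ne_zero φ).2 hx
  have hαv : V.valuation α = 1 := (s18ku_val_eq V w hmul hV hα0).2 hα
  have hαV : α ∈ V := (V.valuation_le_one_iff _).1 hαv.le
  have hnv : V.valuation (n : L) = 1 := (s18ku_val_eq V w hmul hV hn0).2 hnw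
  have hϖmem : ϖ ∈ V.comap φ := by
    rw [ValuationSubring.mem_comap, hV _ (hφ0 ϖ hϖ0), hϖ]
    exact he.le
  have hu0 : u ≠ 0 := by
    intro h
    rw [h, map_zero] at hu
    exact hα0 (pow_eq_zero_iff hn.ne' |>.1 hu)
  have humem : u ∈ V.comap φ := by
    rw [ValuationSubring.mem_comap, hV _ (hφ0 u hu0), ← hu, s18ku_w_pow w hmul hα0, hα, mul_zero]
  have hϖdvd : ∀ x : ↥(V.comap φ), V.valuation (φ (x : E)) < 1 →
      (⟨ϖ, hϖmem⟩ : ↥(V.comap φ)) ∣ x := by
    intro x hx
    rcases eq_or_ne (x : E) 0 with h0 | h0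
    · exact ⟨0, Subtype.ext (by simp [h0])⟩
    · have h1 : 0 < w (φ (x : E)) := (s18ku_val_lt V w hmul hV (hφ0 _ h0)).1 hx
      obtain ⟨k, hk⟩ := hE _ h0
      have hk1 : 1 ≤ k := by
        by_contra hk0
        have : k ≤ 0 := by omega
        have := mul_nonpos_of_nonneg_of_nonpos he.le this
        omega
      have hmem : (x : E) * ϖ⁻¹ ∈ V.comap φ := by
        rw [ValuationSubring.mem_comap, hV _ (hφ0 _ (mul_ne_zero h0 (inv_ne_zero hϖ0))),
          map_mul, map_inv₀, hmul _ _ (hφ0 _ h0) (inv_ne_zero (hφ0 _ hϖ0)),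
          s18ku_w_inv w hmul (hφ0 _ hϖ0), hϖ, hk]
        nlinarith
      refine ⟨⟨(x : E) * ϖ⁻¹, hmem⟩, Subtype.ext ?_⟩
      show (x : E) = ϖ * ((x : E) * ϖ⁻¹)
      field_simp
  have hϖ1 : V.valuation (φ ((⟨ϖ, hϖmem⟩ : ↥(V.comap φ)) : E)) < 1 :=
    (s18ku_val_lt V w hmul hV (hφ0 _ hϖ0)).2 (by rw [hϖ]; exact he)
  -- induction on the order
  have key : ∀ (m : ℕ) (a : Polynomial ↥(V.comap φ)), s18ku_ev V φ α a ≠ 0 →
      w (s18ku_ev V φ α a) = m → e ∣ w (s18ku_ev V φ α a) := by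
    intro m
    induction m using Nat.strong_induction_on with
    | _ m ih =>
      intro a ha hm
      rcases Nat.eq_zero_or_pos m with h0 | hpos
      · rw [hm, h0]
        exact dvd_zero e
      · have hav : V.valuation (s18ku_ev V φ α a) < 1 :=
          (s18ku_val_lt V w hmul hV ha).2 (by rw [hm]; exact_mod_cast hpos)
        obtain ⟨r, a₁, hr, hrel⟩ := s18ku_unr_step V φ ⟨ϖ, hϖmem⟩ hϖdvd hϖ1 α hαv n
          hnv ⟨u, humem⟩ hu a hav
        have hr0 : s18ku_ev V φ α r ≠ 0 := by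
          intro h
          rw [h, map_zero] at hr
          exact zero_ne_one hr
        have hrw : w (s18ku_ev V φ α r) = 0 := (s18ku_val_eq V w hmul hV hr0).1 hr
        have ha₁0 : s18ku_ev V φ α a₁ ≠ 0 := by
          intro h
          rw [h, mul_zero] at hrel
          exact mul_ne_zero ha hr0 hrel
        have h1 := congrArg w hrel
        rw [hmul _ _ ha hr0, hmul _ _ (hφ0 _ hϖ0) ha₁0, hrw, hϖ, add_zero] at h1
        have h2 : 0 ≤ w (s18ku_ev V φ α a₁) :=
          (hV _ ha₁0).1 (s18ku_ev_mem V φ hαV a₁)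
        have h3 := ih (w (s18ku_ev V φ α a₁)).toNat (by omega) a₁ ha₁0 (by omega)
        rw [h1]
        exact dvd_add (dvd_refl e) h3
  have h0 : 0 ≤ w (s18ku_ev V φ α a) := (hV _ ha).1 (s18ku_ev_mem V φ hαV a)
  exact key (w (s18ku_ev V φ α a)).toNat a ha (by omega)

include hmul hV in
/-- **Kummer extensions by a root of a unit are unramified** (characteristic `0`). -/
theorem s18ku_unr (e : ℤ) (he : 0 < e) (ϖ : E) (hϖ0 : ϖ ≠ 0) (hϖ : w (φ ϖ) = e)
    (hE : ∀ x : E, x ≠ 0 → e ∣ w (φ x))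
    (α : L) (hα0 : α ≠ 0) (hα : w α = 0) (n : ℕ) (hn : 0 < n) (hn0 : (n : L) ≠ 0)
    (hnw : w (n : L) = 0) (u : E) (hu : α ^ n = φ u) (N : ℕ) (c : ℕ → E)
    (hy : ∑ i ∈ Finset.range N, φ (c i) * α ^ i ≠ 0) :
    e ∣ w (∑ i ∈ Finset.range N, φ (c i) * α ^ i) := by
  classical
  have hφ0 : ∀ x : E, x ≠ 0 → φ x ≠ 0 := fun x hx => (map_ne_zero φ).2 hx
  -- the coefficient of minimal order
  have hne : ((Finset.range N).filter fun i => c i ≠ 0).Nonempty := by
    by_contra h
    rw [Finset.not_nonempty_iff_eq_empty, Finset.filter_eq_empty_iff] at h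
    apply hy
    refine Finset.sum_eq_zero fun i hi => ?_
    have := h hi
    rw [not_not] at this
    rw [this, map_zero, zero_mul]
  obtain ⟨i₀, hi₀, hmin⟩ := Finset.exists_min_image _ (fun i => w (φ (c i))) hne
  rw [Finset.mem_filter] at hi₀
  obtain ⟨k, hk⟩ := hE _ hi₀.2
  -- the normalised coefficients
  have hmem : ∀ i ∈ Finset.range N, c i * ϖ ^ (-k) ∈ V.comap φ := by
    intro i hi
    rcases eq_or_ne (c i) 0 with h0 | h0
    · rw [h0, zero_mul]
      exact zero_mem _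
    · have h1 : c i * ϖ ^ (-k) ≠ 0 := mul_ne_zero h0 (zpow_ne_zero _ hϖ0)
      rw [ValuationSubring.mem_comap, hV _ (hφ0 _ h1), map_mul, map_zpow₀,
        hmul _ _ (hφ0 _ h0) (zpow_ne_zero _ (hφ0 _ hϖ0)), s18ku_w_zpow w hmul (hφ0 _ hϖ0), hϖ]
      have h2 := hmin i (Finset.mem_filter.2 ⟨hi, h0⟩)
      rw [hk] at h2
      linarith
  set c' : ℕ → ↥(V.comap φ) := fun i =>
    if h : c i * ϖ ^ (-k) ∈ V.comap φ then ⟨c i * ϖ ^ (-k), h⟩ else 0 with hc'
  have hc'i : ∀ i ∈ Finset.range N, ((c' i : ↥(V.comap φ)) : E) = c i * ϖ ^ (-k) := by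
    intro i hi
    simp only [hc', dif_pos (hmem i hi)]
  set a : Polynomial ↥(V.comap φ) := ∑ i ∈ Finset.range N, C (c' i) * X ^ i with ha
  have hev : s18ku_ev V φ α a = φ ϖ ^ (-k) * ∑ i ∈ Finset.range N, φ (c i) * α ^ i := by
    rw [ha, map_sum, Finset.mul_sum]
    refine Finset.sum_congr rfl fun i hi => ?_
    rw [map_mul, map_pow, s18ku_ev_C, s18ku_ev_X, hc'i i hi, map_mul, map_zpow₀]
    ring
  have hϖk : φ ϖ ^ (-k) ≠ 0 := zpow_ne_zero _ (hφ0 _ hϖ0)
  have hev0 : s18ku_ev V φ α a ≠ 0 := by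
    rw [hev]
    exact mul_ne_zero hϖk hy
  have h1 := s18ku_unr_poly V φ w hmul hV e he ϖ hϖ0 hϖ hE α hα0 hα n hn hn0 hnw u hu a hev0
  rw [hev, hmul _ _ hϖk hy, s18ku_w_zpow w hmul (hφ0 _ hϖ0), hϖ] at h1
  have h2 : w (∑ i ∈ Finset.range N, φ (c i) * α ^ i) =
      (-k * e + w (∑ i ∈ Finset.range N, φ (c i) * α ^ i)) + e * k := by ring
  rw [h2]
  exact dvd_add h1 (dvd_mul_right e k)

end Unr

end Fermat.Agent.S18
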