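/-
S18, package (I3) [KUMMER] (helper2), GENERIC VALUATION THEORY.  Prefix `s18ku_`.
Mathlib + `S18/Discrete.lean` (`s18disc_of_ord`) only.

* `s18ku_rat`: a valuation ring `V ⊇ K[x]` which has a non-unit in `K[x]` is, on `K(x)`, the
  `f`-adic valuation for an irreducible `f ∈ K[X]`: every `p ≠ 0` is `f ^ k * p₁` with
  `p₁(x)` a unit of `V`.
* `s18ku_comap_dvr`: a restriction of `V` whose values are the powers of one value `< 1` is a
  discrete valuation ring.
* `s18ku_trick`: if `x ∈ V` is a root of `∑ aᵢ Xⁱ` with `aᵢ ∈ A ⊆ V`, one of them a unit of `V`,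
  then `x = c / b` with `b, c` integral over `A`, `b` a unit of `V`.
-/
import Mathlib
import Fermat.Agent.S18.Discrete

set_option autoImplicit false
set_option linter.style.haveILetI false

open Polynomial

noncomputable section

namespace Fermat.Agent.S18

section Rat

variable {K L : Type*} [Field K] [Field L] [Algebra K L] (V : ValuationSubring L)

/-- Polynomials in an element of `V` with coefficients in `K ⊆ V` have values in `V`. -/
theorem s18ku_aeval_mem (hK : ∀ c : K, algebraMap K L c ∈ V) {x : L} (hx : x ∈ V) (p : K[X]) :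
    aeval x p ∈ V := by
  rw [aeval_def, eval₂_eq_sum_range]
  exact sum_mem fun i _ => mul_mem (hK _) (pow_mem hx i)

theorem s18ku_aeval_le (hK : ∀ c : K, algebraMap K L c ∈ V) {x : L} (hx : x ∈ V) (p : K[X]) :
    V.valuation (aeval x p) ≤ 1 :=
  (V.valuation_le_one_iff _).2 (s18ku_aeval_mem V hK hx p)

/-- **The valuation rings of `K(x)` over `K[x]`.** -/
theorem s18ku_rat (hK : ∀ c : K, algebraMap K L c ∈ V) (x : L) (hx : x ∈ V)
    (hne : ∃ p : K[X], aeval x p ≠ 0 ∧ V.valuation (aeval x p) < 1) :
    ∃ f : K[X], aeval x f ≠ 0 ∧ V.valuation (aeval x f) < 1 ∧ Irreducible f ∧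
      (∀ p : K[X], p ≠ 0 → V.valuation (aeval x p) < 1 → f ∣ p) ∧
      ∀ p : K[X], p ≠ 0 → ∃ (k : ℕ) (p₁ : K[X]), p = f ^ k * p₁ ∧
        V.valuation (aeval x p₁) = 1 := by
  classical
  obtain ⟨p₀, hp₀x, hp₀v⟩ := hne
  have hp₀ : p₀ ≠ 0 := by
    rintro rfl
    exact hp₀x (map_zero _)
  -- an element of minimal degree
  have hex : ∃ n : ℕ, ∃ p : K[X], p ≠ 0 ∧ V.valuation (aeval x p) < 1 ∧ p.natDegree = n :=
    ⟨_, p₀, hp₀, hp₀v, rfl⟩
  obtain ⟨f, hf0, hfv, hfn⟩ := Nat.find_spec hex
  have hmin : ∀ p : K[X], p ≠ 0 → V.valuation (aeval x p) < 1 → f.natDegree ≤ p.natDegree := by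
    intro p hp hpv
    rw [hfn]
    exact Nat.find_min' hex ⟨p, hp, hpv, rfl⟩
  have hdvd : ∀ p : K[X], p ≠ 0 → V.valuation (aeval x p) < 1 → f ∣ p := by
    intro p hp hpv
    rw [← EuclideanDomain.mod_eq_zero]
    by_contra hr
    have h1 : p % f = p - f * (p / f) := by
      have := EuclideanDomain.mod_add_div p f
      linear_combination this
    have h2 : V.valuation (aeval x (p % f)) < 1 := by
      rw [h1, map_sub, map_mul]
      refine lt_of_le_of_lt (Valuation.map_sub _ _ _) (max_lt hpv ?_)
      rw [map_mul]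
      calc V.valuation (aeval x f) * V.valuation (aeval x (p / f))
          ≤ V.valuation (aeval x f) * 1 :=
            mul_le_mul_right (s18ku_aeval_le V hK hx _) _
        _ < 1 := by rwa [mul_one]
    have h3 := hmin _ hr h2
    have h4 := natDegree_lt_natDegree hr (degree_mod_lt p hf0)
    omega
  have hfx : aeval x f ≠ 0 := by
    intro h0
    obtain ⟨q, rfl⟩ := hdvd p₀ hp₀ hp₀v
    exact hp₀x (by rw [map_mul, h0, zero_mul])
  have hconst : ∀ p : K[X], p ≠ 0 → p.natDegree = 0 → V.valuation (aeval x p) = 1 := by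
    intro p hp hd
    rw [natDegree_eq_zero] at hd
    obtain ⟨c, rfl⟩ := hd
    have hc : c ≠ 0 := by
      rintro rfl
      exact hp (map_zero _)
    rw [aeval_C]
    have h1 : algebraMap K L c * algebraMap K L c⁻¹ = 1 := by
      rw [← map_mul, mul_inv_cancel₀ hc, map_one]
    have h2 := congrArg V.valuation h1
    rw [map_mul, map_one] at h2
    have h3 := (V.valuation_le_one_iff _).2 (hK c)
    have h4 := (V.valuation_le_one_iff _).2 (hK c⁻¹)
    by_contra h5
    have h6 : V.valuation (algebraMap K L c) < 1 := lt_of_le_of_ne h3 h5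
    have h7 : V.valuation (algebraMap K L c) * V.valuation (algebraMap K L c⁻¹) < 1 :=
      calc V.valuation (algebraMap K L c) * V.valuation (algebraMap K L c⁻¹)
          ≤ V.valuation (algebraMap K L c) * 1 := mul_le_mul_right h4 _
        _ < 1 := by rwa [mul_one]
    rw [h2] at h7
    exact lt_irrefl _ h7
  have hfdeg : 0 < f.natDegree := by
    rcases Nat.eq_zero_or_pos f.natDegree with h | h
    · have := hconst f hf0 h
      rw [this] at hfv
      exact absurd hfv (lt_irrefl _)
    · exact h
  have hirr : Irreducible f := by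
    refine ⟨fun hu => ?_, fun a b hab => ?_⟩
    · have := natDegree_eq_zero_of_isUnit hu
      omega
    · have ha0 : a ≠ 0 := by
        rintro rfl
        exact hf0 (by rw [hab, zero_mul])
      have hb0 : b ≠ 0 := by
        rintro rfl
        exact hf0 (by rw [hab, mul_zero])
      have hdeg : f.natDegree = a.natDegree + b.natDegree := by
        rw [hab, natDegree_mul ha0 hb0]
      have hv : V.valuation (aeval x a) * V.valuation (aeval x b) < 1 := by
        rw [← map_mul, ← map_mul, ← hab]
        exact hfv
      by_cases hav : V.valuation (aeval x a) < 1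
      · right
        have := hmin a ha0 hav
        have hb : b.natDegree = 0 := by omega
        rw [natDegree_eq_zero] at hb
        obtain ⟨c, rfl⟩ := hb
        exact isUnit_C.2 (IsUnit.mk0 c (fun h => hb0 (by rw [h, map_zero])))
      · left
        have hav' : V.valuation (aeval x a) = 1 :=
          le_antisymm (s18ku_aeval_le V hK hx a) (not_lt.1 hav)
        rw [hav', one_mul] at hv
        have := hmin b hb0 hv
        have ha : a.natDegree = 0 := by omega
        rw [natDegree_eq_zero] at ha
        obtain ⟨c, rfl⟩ := ha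
        exact isUnit_C.2 (IsUnit.mk0 c (fun h => ha0 (by rw [h, map_zero])))
  refine ⟨f, hfx, hfv, hirr, hdvd, ?_⟩
  intro p
  induction' hn : p.natDegree using Nat.strong_induction_on with n ih generalizing p
  intro hp
  by_cases hpv : V.valuation (aeval x p) < 1
  · obtain ⟨q, rfl⟩ := hdvd p hp hpv
    have hq0 : q ≠ 0 := by
      rintro rfl
      exact hp (mul_zero _)
    have hdeg : (f * q).natDegree = f.natDegree + q.natDegree := natDegree_mul hf0 hq0
    obtain ⟨k, p₁, hk, hp₁⟩ := ih q.natDegree (by omega) q rfl hq0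
    refine ⟨k + 1, p₁, ?_, hp₁⟩
    rw [hk, pow_succ]
    ring
  · exact ⟨0, p, by rw [pow_zero, one_mul],
      le_antisymm (s18ku_aeval_le V hK hx p) (not_lt.1 hpv)⟩

end Rat

section Comap

variable {E L : Type*} [Field E] [Field L]

/-- A restriction of a valuation ring whose values are the powers of one value `< 1` is a
discrete valuation ring. -/
theorem s18ku_comap_dvr (V : ValuationSubring L) (φ : E →+* L) (γ : V.ValueGroup)
    (hγ0 : γ ≠ 0) (hγ1 : γ < 1)
    (h : ∀ y : E, y ≠ 0 → ∃ n : ℤ, V.valuation (φ y) = γ ^ n)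
    (hne : ∃ y : E, y ≠ 0 ∧ V.valuation (φ y) ≠ 1) :
    IsDiscreteValuationRing ↥(V.comap φ) := by
  classical
  have hγpos : 0 < γ := zero_lt_iff.2 hγ0
  have hinj : Function.Injective fun n : ℤ => γ ^ n := zpow_right_injective₀ hγpos hγ1.ne
  let w : E → ℤ := fun y => if hy : y ≠ 0 then (h y hy).choose else 0
  have hw : ∀ y : E, y ≠ 0 → V.valuation (φ y) = γ ^ w y := by
    intro y hy
    simp only [w, dif_pos hy]
    exact (h y hy).choose_spec
  refine s18disc_of_ord (V.comap φ) w ?_ ?_ ?_
  · intro x y hx hy
    apply hinj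
    show γ ^ w (x * y) = γ ^ (w x + w y)
    rw [← hw _ (mul_ne_zero hx hy), map_mul, map_mul, hw x hx, hw y hy, zpow_add₀ hγ0]
  · intro x hx
    rw [ValuationSubring.mem_comap, ← V.valuation_le_one_iff, hw x hx]
    exact zpow_le_one_iff_right_of_lt_one₀ hγpos hγ1
  · obtain ⟨y, hy, hy1⟩ := hne
    refine ⟨y, hy, fun h0 => hy1 ?_⟩
    rw [hw y hy, h0, zpow_zero]

end Comap

section Trick

variable {A L : Type*} [CommRing A] [Field L] [Algebra A L]

/-- **Valuation rings over an integral closure are localisations**: the denominator of an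
element of `V` can be chosen integral and a unit of `V`. -/
theorem s18ku_trick (V : ValuationSubring L)
    (hCV : ∀ y : L, IsIntegral A y → y ∈ V) (x : L) (hx : x ∈ V)
    (n : ℕ) (a : ℕ → A) (hsum : ∑ i ∈ Finset.range (n + 1), algebraMap A L (a i) * x ^ i = 0)
    (hunit : ∃ i, i ≤ n ∧ V.valuation (algebraMap A L (a i)) = 1) :
    ∃ b : L, IsIntegral A b ∧ IsIntegral A (x * b) ∧ V.valuation b = 1 := by
  classical
  have haV : ∀ i, V.valuation (algebraMap A L (a i)) ≤ 1 := fun i =>
    (V.valuation_le_one_iff _).2 (hCV _ isIntegral_algebraMap)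
  have hxv : V.valuation x ≤ 1 := (V.valuation_le_one_iff _).2 hx
  -- the largest index with a unit coefficient
  obtain ⟨i₀, hi₀n, hi₀⟩ := hunit
  let r := Nat.findGreatest (fun i => V.valuation (algebraMap A L (a i)) = 1) n
  have hr : V.valuation (algebraMap A L (a r)) = 1 :=
    Nat.findGreatest_spec (P := fun i => V.valuation (algebraMap A L (a i)) = 1) hi₀n hi₀
  have hrn : r ≤ n := Nat.findGreatest_le n
  have hgt : ∀ i, r < i → i ≤ n → V.valuation (algebraMap A L (a i)) < 1 := by
    intro i hri hin
    refine lt_of_le_of_ne (haV i) ?_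
    exact Nat.findGreatest_is_greatest (P := fun i => V.valuation (algebraMap A L (a i)) = 1)
      hri hin
  -- the two halves
  set b : L := ∑ i ∈ Finset.range (n + 1 - r), algebraMap A L (a (r + i)) * x ^ i with hb
  set lo : L := ∑ i ∈ Finset.range r, algebraMap A L (a i) * x ^ i with hlo
  have hsplit : lo + x ^ r * b = 0 := by
    rw [← hsum, hlo, hb, Finset.mul_sum]
    have h1 : n + 1 = r + (n + 1 - r) := by omega
    conv_rhs => rw [h1, Finset.sum_range_add]
    congr 1
    refine Finset.sum_congr rfl fun i _ => ?_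
    rw [pow_add]
    ring
  -- `b` is a unit of `V`
  have hbv : V.valuation b = 1 := by
    have h1 : n + 1 - r = (n - r) + 1 := by omega
    rw [hb, h1, Finset.sum_range_succ']
    simp only [add_zero, pow_zero, mul_one]
    rw [add_comm, Valuation.map_add_eq_of_lt_left, hr]
    rw [hr]
    refine Valuation.map_sum_lt _ one_ne_zero fun i hi => ?_
    rw [Finset.mem_range] at hi
    rw [map_mul, map_pow]
    calc V.valuation (algebraMap A L (a (r + (i + 1)))) * V.valuation x ^ (i + 1)
        ≤ V.valuation (algebraMap A L (a (r + (i + 1)))) * 1 :=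
          mul_le_mul_right (pow_le_one₀ zero_le hxv) _
      _ < 1 := by
          rw [mul_one]
          exact hgt _ (by omega) (by omega)
  -- integrality through the valuation rings containing the integral closure
  have hint : ∀ y : L, (∀ V' : ValuationSubring L,
      (integralClosure A L).toSubring ≤ V'.toSubring → y ∈ V') → IsIntegral A y := by
    intro y hy
    by_contra hcon
    have hcon' : y ∉ (integralClosure A L).toSubring := hcon
    obtain ⟨V', hV', hyV'⟩ := Subring.exists_le_valuationSubring_of_isIntegrallyClosedIn hcon'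
    exact hyV' (hy V' hV')
  have hboth : ∀ V' : ValuationSubring L,
      (integralClosure A L).toSubring ≤ V'.toSubring → b ∈ V' ∧ x * b ∈ V' := by
    intro V' hV'
    have haV' : ∀ i, algebraMap A L (a i) ∈ V' := fun i =>
      hV' (show algebraMap A L (a i) ∈ integralClosure A L from isIntegral_algebraMap)
    by_cases hxV' : x ∈ V'
    · have hbV' : b ∈ V' := sum_mem fun i _ => mul_mem (haV' _) (pow_mem hxV' i)
      exact ⟨hbV', mul_mem hxV' hbV'⟩
    · have hx0 : x ≠ 0 := fun h => hxV' (h ▸ V'.zero_mem)
      have hxi : x⁻¹ ∈ V' := (V'.mem_or_inv_mem x).resolve_left hxV'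
      have hxb : x * b = -∑ i ∈ Finset.range r, algebraMap A L (a i) * x⁻¹ ^ (r - 1 - i) := by
        rcases Nat.eq_zero_or_pos r with h0 | hpos
        · have hb0 : b = 0 := by
            have := hsplit
            rw [hlo, h0, Finset.sum_range_zero, zero_add, pow_zero, one_mul] at this
            exact this
          rw [hb0, mul_zero, h0, Finset.sum_range_zero, neg_zero]
        · have h1 : x ^ r * b = -lo := by linear_combination hsplit
          have h2 : x * b = x⁻¹ ^ (r - 1) * (x ^ r * b) := by
            have h3 : x ^ r = x ^ (r - 1) * x := by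
              rw [← pow_succ]
              congr 1
              omega
            rw [h3, inv_pow]
            field_simp
          rw [h2, h1, hlo, mul_neg, Finset.mul_sum]
          congr 1
          refine Finset.sum_congr rfl fun i hi => ?_
          rw [Finset.mem_range] at hi
          have h4 : r - 1 = (r - 1 - i) + i := by omega
          conv_lhs => rw [h4, pow_add]
          have h5 : x⁻¹ ^ i * x ^ i = 1 := by
            rw [← mul_pow, inv_mul_cancel₀ hx0, one_pow]
          linear_combination (algebraMap A L (a i) * x⁻¹ ^ (r - 1 - i)) * h5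
      have hxbV' : x * b ∈ V' := by
        rw [hxb]
        exact neg_mem (sum_mem fun i _ => mul_mem (haV' _) (pow_mem hxi _))
      refine ⟨?_, hxbV'⟩
      have : b = x⁻¹ * (x * b) := by
        rw [← mul_assoc, inv_mul_cancel₀ hx0, one_mul]
      rw [this]
      exact mul_mem hxi hxbV'
  exact ⟨b, hint b fun V' hV' => (hboth V' hV').1, hint _ fun V' hV' => (hboth V' hV').2, hbv⟩

end Trick

end Fermat.Agent.S18
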