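/-
S18, package (I3) [KUMMER] (helper2), THE ABSTRACT RAMIFICATION COMPUTATION (Abhyankar).
Prefix `s18ku_`.

`θ : E → L` fields over `K` (characteristic `0`), `σ ∈ L` with `σ^M · θ(j) = 1`,
`L = ∑_{i<M} θ(E) σ^i`, `E` algebraic over `K(j)`.  If at every place of `E / K`
* `j` is unramified over the points `c ≠ 0, 1728, ∞` of the `j`-line (`hD1`),
* the pole orders of `j` divide `M` (`hD2`),
then at every place `P` of `L / K` with `σ` finite and `1 - 1728 σ^M` a unit there is a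
polynomial `H ∈ K[X]` with `ord_P H(σ) = 1` (`s18ku_core`): `L / K(σ)` is unramified at `P`.
-/
import Mathlib
import Fermat.Prelude.Def_AlgebraicCurve_DivisorClassGroup
import Fermat.Agent.S24.PlaceBasic
import Fermat.Agent.S24.ValPlace
import Fermat.Agent.S18.KummerVal
import Fermat.Agent.S18.KummerUnr

set_option autoImplicit false
set_option linter.style.haveILetI false

open Polynomial AlgebraicCurve IntermediateField Fermat.Agent.S24

noncomputable section

namespace Fermat.Agent.S18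

section Tools

variable {K L : Type*} [Field K] [Field L] [Algebra K L]

/-- Elements integral over a subring of a valuation ring lie in the valuation ring. -/
theorem s18ku_mem_of_isIntegral {A : Type*} [CommRing A] [Algebra A L] (V : ValuationSubring L)
    (hA : ∀ a : A, algebraMap A L a ∈ V) {y : L} (hy : IsIntegral A y) : y ∈ V := by
  obtain ⟨p, hp, hpy⟩ := hy
  let f : A →+* ↥V := (algebraMap A L).codRestrict V.toSubring hA
  have hint : IsIntegral ↥V y := by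
    refine ⟨p.map f, hp.map f, ?_⟩
    rw [eval₂_map]
    exact hpy
  obtain ⟨z, hz⟩ := IsIntegrallyClosed.isIntegral_iff.1 hint
  rw [← hz]
  exact z.2

/-- The valuation of a place in terms of its order. -/
theorem s18ku_place_val_lt (P : Place K L) {x : L} (hx : x ≠ 0) :
    P.toValuationSubring.valuation x < 1 ↔ 0 < P.ord x := by
  rw [← ValuationSubring.mem_nonunits_iff, place_mem_nonunits_iff P hx]

theorem s18ku_place_val_eq (P : Place K L) {x : L} (hx : x ≠ 0) :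
    P.toValuationSubring.valuation x = 1 ↔ P.ord x = 0 :=
  s18ku_val_eq P.toValuationSubring P.ord (fun _ _ ha hb => P.ord_mul ha hb)
    (fun _ _ => place_mem_iff P) hx

/-- A sum with a dominant term. -/
theorem s18ku_dominant (P : Place K L) {ι : Type*} (s : Finset ι) (t : ι → L) (j : ι)
    (hj : j ∈ s) (hj0 : t j ≠ 0)
    (h : ∀ i ∈ s, i ≠ j → t i = 0 ∨ P.ord (t j) < P.ord (t i)) :
    (∑ i ∈ s, t i) ≠ 0 ∧ P.ord (∑ i ∈ s, t i) = P.ord (t j) := by
  classical
  have hadd : ∀ x y : L, (x = 0 ∨ P.ord (t j) < P.ord x) → (y = 0 ∨ P.ord (t j) < P.ord y) →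
      (x + y = 0 ∨ P.ord (t j) < P.ord (x + y)) := by
    intro x y hx hy
    rcases eq_or_ne x 0 with hx0 | hx0
    · rw [hx0, zero_add]
      exact hy
    rcases eq_or_ne y 0 with hy0 | hy0
    · rw [hy0, add_zero]
      exact hx
    by_cases hxy : x + y = 0
    · exact Or.inl hxy
    · right
      have h1 := hx.resolve_left hx0
      have h2 := hy.resolve_left hy0
      exact lt_of_lt_of_le (lt_min h1 h2) (place_ord_add_ge P hx0 hy0 hxy)
  have hR : (∑ i ∈ s.erase j, t i) = 0 ∨ P.ord (t j) < P.ord (∑ i ∈ s.erase j, t i) := by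
    refine Finset.sum_induction t (fun x => x = 0 ∨ P.ord (t j) < P.ord x) hadd (Or.inl rfl) ?_
    intro i hi
    rw [Finset.mem_erase] at hi
    exact h i hi.2 hi.1
  rw [← Finset.add_sum_erase s t hj]
  rcases eq_or_ne (∑ i ∈ s.erase j, t i) 0 with h0 | h0
  · rw [h0, add_zero]
    exact ⟨hj0, rfl⟩
  · have h1 := hR.resolve_left h0
    have h2 := place_ord_add_eq_of_lt P hj0 h0 h1
    refine ⟨fun h3 => ?_, h2⟩
    have h4 : ∑ i ∈ s.erase j, t i = -t j := by linear_combination h3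
    rw [h4, place_ord_neg] at h1
    exact lt_irrefl _ h1

end Tools

section Core

variable {K E L : Type*} [Field K] [CharZero K] [Field E] [Field L] [Algebra K E] [Algebra K L]
  (θ : E →ₐ[K] L) (P : Place K L) (M : ℕ) (sig : L) (jE : E)

omit [CharZero K] in
/-- The restriction of `P` to `E` is a place. -/
theorem s18ku_restrict
    (hS : ∀ y : L, ∃ c : ℕ → E, y = ∑ i ∈ Finset.range M, θ (c i) * sig ^ i)
    (hsigV : 0 ≤ P.ord sig) :
    ∃ (P₁ : Place K E) (e : ℕ), 0 < e ∧ ∀ f : E, f ≠ 0 → P.ord (θ f) = (e : ℤ) * P₁.ord f := by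
  have hθ0 : ∀ x : E, x ≠ 0 → θ x ≠ 0 := fun x hx => (map_ne_zero θ).2 hx
  refine val_exists_place (K := K) (fun f : E => P.ord (θ f)) ?_ ?_ ?_ ?_
  · intro f g hf hg
    show P.ord (θ (f * g)) = _
    rw [map_mul]
    exact P.ord_mul (hθ0 f hf) (hθ0 g hg)
  · intro f g hf hg hfg
    show _ ≤ P.ord (θ (f + g))
    rw [map_add]
    refine place_ord_add_ge P (hθ0 f hf) (hθ0 g hg) ?_
    rw [← map_add]
    exact hθ0 _ hfg
  · intro c _
    show P.ord (θ (algebraMap K E c)) = 0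
    rw [θ.commutes]
    exact place_ord_algebraMap P c
  · by_contra hcon
    push Not at hcon
    obtain ⟨π, hπ⟩ := place_exists_irreducible P
    have hπ1 : P.ord (π : L) = 1 := P.ord_coe_irreducible hπ
    have hall : ∀ y : L, y ∈ P.toValuationSubring := by
      intro y
      obtain ⟨c, rfl⟩ := hS y
      refine sum_mem fun i _ => mul_mem ?_ (pow_mem ((place_mem_iff P).2 hsigV) i)
      rcases eq_or_ne (c i) 0 with h0 | h0
      · rw [h0, map_zero]
        exact zero_mem _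
      · rw [place_mem_iff]
        exact (hcon (c i) h0).ge
    have := (place_mem_iff P).1 (hall (π : L)⁻¹)
    rw [P.ord_inv, hπ1] at this
    omega

/-- Natural numbers are units at every place. -/
theorem s18ku_ord_natCast (m : ℕ) (hm : 0 < m) : (m : L) ≠ 0 ∧ P.ord (m : L) = 0 := by
  have h1 : (m : L) = algebraMap K L (m : K) := (map_natCast _ m).symm
  rw [h1]
  refine ⟨?_, place_ord_algebraMap P _⟩
  rw [Ne, map_eq_zero]
  exact_mod_cast hm.ne'

/-- **Case A**: `σ` a unit at `P`. -/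
theorem s18ku_caseA (hM : 0 < M) (hsig : sig ^ M * θ jE = 1) (hsig0 : P.ord sig = 0)
    (h1728 : 1 - 1728 * sig ^ M ≠ 0) (h1728' : P.ord (1 - 1728 * sig ^ M) = 0)
    (hS : ∀ y : L, ∃ c : ℕ → E, y = ∑ i ∈ Finset.range M, θ (c i) * sig ^ i)
    [Algebra.IsAlgebraic ↥(K⟮jE⟯) E]
    (hD1 : ∀ P₁ : Place K E, P₁.ord jE = 0 → P₁.ord (jE - 1728) = 0 →
      ∀ h : K[X], Irreducible h → 0 < P₁.ord (aeval jE h) → P₁.ord (aeval jE h) = 1)
    (P₁ : Place K E) (e : ℕ) (he : 0 < e)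
    (hres : ∀ f : E, f ≠ 0 → P.ord (θ f) = (e : ℤ) * P₁.ord f) :
    ∃ H : K[X], P.ord (aeval sig H) = 1 := by
  classical
  have hθ0 : ∀ x : E, x ≠ 0 → θ x ≠ 0 := fun x hx => (map_ne_zero θ).2 hx
  obtain ⟨π, hπ⟩ := place_exists_irreducible P
  have hπ1 : P.ord (π : L) = 1 := P.ord_coe_irreducible hπ
  have hπ0 : (π : L) ≠ 0 := by
    intro h
    rw [h, P.ord_zero] at hπ1
    omega
  obtain ⟨ϖ, hϖ⟩ := place_exists_irreducible P₁
  have hϖ1 : P₁.ord (ϖ : E) = 1 := P₁.ord_coe_irreducible hϖ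
  have hϖ0 : (ϖ : E) ≠ 0 := by
    intro h
    rw [h, P₁.ord_zero] at hϖ1
    omega
  have hsigM0 : sig ^ M ≠ 0 := left_ne_zero_of_mul_eq_one hsig
  have hsigne : sig ≠ 0 := fun h => hsigM0 (by rw [h, zero_pow hM.ne'])
  have hθj0 : θ jE ≠ 0 := right_ne_zero_of_mul_eq_one hsig
  have hj0 : jE ≠ 0 := fun h => hθj0 (by rw [h, map_zero])
  have hu : sig ^ M = θ jE⁻¹ := by
    rw [map_inv₀]
    exact eq_inv_of_mul_eq_one_left hsig
  -- `e = 1`
  obtain ⟨c, hc⟩ := hS (π : L)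
  have hc' : (π : L) = ∑ i ∈ Finset.range M, (θ : E →+* L) (c i) * sig ^ i := hc
  have hdiv := s18ku_unr P.toValuationSubring (θ : E →+* L) P.ord
    (fun _ _ ha hb => P.ord_mul ha hb) (fun _ _ => place_mem_iff P) (e : ℤ)
    (by exact_mod_cast he) (ϖ : E) hϖ0 (by
      show P.ord (θ (ϖ : E)) = e
      rw [hres _ hϖ0, hϖ1, mul_one])
    (fun x hx => ⟨P₁.ord x, hres x hx⟩) sig hsigne hsig0 M hM
    (s18ku_ord_natCast (K := K) P M hM).1 (s18ku_ord_natCast (K := K) P M hM).2 jE⁻¹ hu M c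
    (by rw [← hc']; exact hπ0)
  rw [← hc', hπ1] at hdiv
  have he1 : (e : ℤ) = 1 := Int.eq_one_of_dvd_one (by positivity) hdiv
  -- `j` and `j - 1728` are units at `P₁`
  have hθj : P.ord (θ jE) = 0 := by
    have h1 := congrArg P.ord hsig
    rw [P.ord_mul hsigM0 hθj0, place_ord_pow, hsig0, mul_zero, zero_add, P.ord_one] at h1
    exact h1
  have hj1 : P₁.ord jE = 0 := by
    have := hres jE hj0
    rw [hθj, he1, one_mul] at this
    exact this.symm
  have hθ1728 : θ (jE - 1728) = θ jE * (1 - 1728 * sig ^ M) := by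
    rw [map_sub, map_ofNat]
    linear_combination (1728 : L) * hsig
  have hj1728 : jE - 1728 ≠ 0 := by
    intro h
    rw [h, map_zero] at hθ1728
    exact mul_ne_zero hθj0 h1728 hθ1728.symm
  have hj1728' : P₁.ord (jE - 1728) = 0 := by
    have := hres _ hj1728
    rw [hθ1728, P.ord_mul hθj0 h1728, hθj, h1728', he1, one_mul, add_zero] at this
    exact this.symm
  -- the polynomial `h`
  have hjmem : jE ∈ P₁.toValuationSubring := (place_mem_iff P₁).2 hj1.ge
  have hne : ∃ p : K[X], aeval jE p ≠ 0 ∧ P₁.toValuationSubring.valuation (aeval jE p) < 1 := by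
    by_contra hcon
    push Not at hcon
    have hA : ∀ a : ↥(K⟮jE⟯), algebraMap ↥(K⟮jE⟯) E a ∈ P₁.toValuationSubring := by
      intro a
      obtain ⟨r, s, hrs⟩ := (IntermediateField.mem_adjoin_simple_iff K (a : E)).1 a.2
      show (a : E) ∈ _
      rw [hrs]
      rcases eq_or_ne (aeval jE s) 0 with h0 | h0
      · rw [h0, div_zero]
        exact zero_mem _
      · rw [div_eq_mul_inv]
        refine mul_mem (s18ku_aeval_mem _ P₁.algebraMap_mem' hjmem r) ?_
        rw [← ValuationSubring.valuation_le_one_iff, map_inv₀]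
        have h1 : P₁.toValuationSubring.valuation (aeval jE s) = 1 :=
          le_antisymm (s18ku_aeval_le _ P₁.algebraMap_mem' hjmem s) (hcon s h0)
        rw [h1, inv_one]
    apply P₁.ne_top'
    refine SetLike.ext fun y => ⟨fun _ => ValuationSubring.mem_top y, fun _ => ?_⟩
    exact s18ku_mem_of_isIntegral P₁.toValuationSubring hA
      (Algebra.IsIntegral.isIntegral (R := ↥(K⟮jE⟯)) y)
  obtain ⟨h, hh0, hhv, hirr, -, -⟩ :=
    s18ku_rat P₁.toValuationSubring P₁.algebraMap_mem' jE hjmem hne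
  have hpos : 0 < P₁.ord (aeval jE h) := (s18ku_place_val_lt P₁ hh0).1 hhv
  have h1 := hD1 P₁ hj1 hj1728' h hirr hpos
  have h2 : P.ord (θ (aeval jE h)) = 1 := by
    rw [hres _ hh0, h1, he1, mul_one]
  have h3 : θ (aeval jE h) = aeval (θ jE) h := (aeval_algHom_apply θ jE h).symm
  rw [h3] at h2
  -- the reverse polynomial
  refine ⟨expand K M (reverse h), ?_⟩
  rw [expand_aeval]
  letI : Invertible (θ jE) := ⟨sig ^ M, hsig, by rw [mul_comm]; exact hsig⟩
  have h4 := eval₂_reverse_mul_pow (algebraMap K L) (θ jE) h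
  have h5 : ⅟(θ jE) = sig ^ M := rfl
  rw [h5] at h4
  have h6 : aeval (sig ^ M) (reverse h) * θ jE ^ h.natDegree = aeval (θ jE) h := h4
  have h7 : aeval (θ jE) h ≠ 0 := by
    intro h0
    rw [h0, P.ord_zero] at h2
    omega
  have h8 : aeval (sig ^ M) (reverse h) ≠ 0 := by
    intro h0
    rw [h0, zero_mul] at h6
    exact h7 h6.symm
  have h9 := congrArg P.ord h6
  rw [P.ord_mul h8 (pow_ne_zero _ hθj0), place_ord_pow, hθj, mul_zero, add_zero, h2] at h9
  exact h9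

/-- **Case B**: `σ` vanishes at `P` (a cusp). -/
theorem s18ku_caseB (hM : 0 < M) (hsig : sig ^ M * θ jE = 1) (hsig0 : 0 < P.ord sig)
    (hS : ∀ y : L, ∃ c : ℕ → E, y = ∑ i ∈ Finset.range M, θ (c i) * sig ^ i)
    (hD2 : ∀ P₁ : Place K E, P₁.ord jE < 0 → P₁.ord jE ∣ (M : ℤ))
    (P₁ : Place K E) (e : ℕ) (he : 0 < e)
    (hres : ∀ f : E, f ≠ 0 → P.ord (θ f) = (e : ℤ) * P₁.ord f) :
    P.ord sig = 1 := by
  classical
  have hθ0 : ∀ x : E, x ≠ 0 → θ x ≠ 0 := fun x hx => (map_ne_zero θ).2 hx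
  obtain ⟨π, hπ⟩ := place_exists_irreducible P
  have hπ1 : P.ord (π : L) = 1 := P.ord_coe_irreducible hπ
  have hπ0 : (π : L) ≠ 0 := by
    intro h
    rw [h, P.ord_zero] at hπ1
    omega
  obtain ⟨ϖ, hϖ⟩ := place_exists_irreducible P₁
  have hϖ1 : P₁.ord (ϖ : E) = 1 := P₁.ord_coe_irreducible hϖ
  have hϖ0 : (ϖ : E) ≠ 0 := by
    intro h
    rw [h, P₁.ord_zero] at hϖ1
    omega
  have hθϖ : P.ord (θ (ϖ : E)) = e := by rw [hres _ hϖ0, hϖ1, mul_one]
  have hsigM0 : sig ^ M ≠ 0 := left_ne_zero_of_mul_eq_one hsig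
  have hsigne : sig ≠ 0 := fun h => hsigM0 (by rw [h, zero_pow hM.ne'])
  have hθj0 : θ jE ≠ 0 := right_ne_zero_of_mul_eq_one hsig
  have hj0 : jE ≠ 0 := fun h => hθj0 (by rw [h, map_zero])
  set s := P.ord sig with hs
  have hθj : P.ord (θ jE) = -((M : ℤ) * s) := by
    have h1 := congrArg P.ord hsig
    rw [P.ord_mul hsigM0 hθj0, place_ord_pow, P.ord_one] at h1
    linarith
  have hjres := hres jE hj0
  have hMs : 0 < (M : ℤ) * s := mul_pos (by exact_mod_cast hM) hsig0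
  have hjneg : P₁.ord jE < 0 := by
    by_contra hcon
    have h1 : 0 ≤ (e : ℤ) * P₁.ord jE := mul_nonneg (by positivity) (not_lt.1 hcon)
    linarith
  obtain ⟨d', hd'⟩ := hD2 P₁ hjneg
  obtain ⟨e₁, he₁⟩ : ∃ e₁ : ℕ, (e₁ : ℤ) = -P₁.ord jE := ⟨(-P₁.ord jE).toNat, by omega⟩
  have he₁pos : 0 < e₁ := by omega
  have hdvd : e₁ ∣ M := by
    rw [← Int.natCast_dvd_natCast, he₁, neg_dvd]
    exact ⟨d', hd'⟩
  obtain ⟨d, hd⟩ := hdvd
  have hdpos : 0 < d := by
    rcases Nat.eq_zero_or_pos d with h | h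
    · rw [h, mul_zero] at hd
      omega
    · exact h
  have hed : (e : ℤ) = d * s := by
    have h1 : (e : ℤ) * e₁ = M * s := by
      rw [he₁]
      linarith
    have h2 : (M : ℤ) = e₁ * d := by exact_mod_cast hd
    rw [h2] at h1
    have h3 : (e₁ : ℤ) ≠ 0 := by positivity
    apply mul_left_cancel₀ h3
    linarith
  -- the unit `τ`
  have hθϖ0 : θ (ϖ : E) ≠ 0 := hθ0 _ hϖ0
  set τ : L := sig ^ d * (θ (ϖ : E))⁻¹ with hτ
  have hτ0 : τ ≠ 0 := mul_ne_zero (pow_ne_zero _ hsigne) (inv_ne_zero hθϖ0)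
  have hτord : P.ord τ = 0 := by
    rw [hτ, P.ord_mul (pow_ne_zero _ hsigne) (inv_ne_zero hθϖ0), place_ord_pow, P.ord_inv, hθϖ,
      hed]
    ring
  have hτpow : τ ^ e₁ = θ (jE⁻¹ * ((ϖ : E) ^ e₁)⁻¹) := by
    rw [hτ, mul_pow, ← pow_mul, mul_comm d e₁, ← hd, inv_pow, map_mul, map_inv₀, map_inv₀,
      map_pow]
    congr 1
    exact eq_inv_of_mul_eq_one_left hsig
  have hsigd : sig ^ d = τ * θ (ϖ : E) := by
    rw [hτ, mul_assoc, inv_mul_cancel₀ hθϖ0, mul_one]
  -- Kummer: `θ(E)[τ]` is unramified over `θ(E)`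
  have hU : ∀ (N : ℕ) (c : ℕ → E), ∑ i ∈ Finset.range N, (θ : E →+* L) (c i) * τ ^ i ≠ 0 →
      (e : ℤ) ∣ P.ord (∑ i ∈ Finset.range N, (θ : E →+* L) (c i) * τ ^ i) := fun N c hy =>
    s18ku_unr P.toValuationSubring (θ : E →+* L) P.ord
      (fun _ _ ha hb => P.ord_mul ha hb) (fun _ _ => place_mem_iff P) (e : ℤ)
      (by exact_mod_cast he) (ϖ : E) hϖ0 hθϖ
      (fun x hx => ⟨P₁.ord x, hres x hx⟩) τ hτ0 hτord e₁ he₁pos
      (s18ku_ord_natCast (K := K) P e₁ he₁pos).1 (s18ku_ord_natCast (K := K) P e₁ he₁pos).2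
      _ hτpow N c hy
  set R₂ : Subring L := (eval₂RingHom (θ : E →+* L) τ).range with hR₂
  have hR₂dvd : ∀ Y ∈ R₂, Y ≠ 0 → (e : ℤ) ∣ P.ord Y := by
    rintro Y ⟨p, rfl⟩ hY
    have h1 : eval₂RingHom (θ : E →+* L) τ p =
        ∑ i ∈ Finset.range (p.natDegree + 1), (θ : E →+* L) (p.coeff i) * τ ^ i := by
      rw [coe_eval₂RingHom, eval₂_eq_sum_range]
    rw [h1] at hY ⊢
    exact hU _ _ hY
  have hθR₂ : ∀ x : E, θ x ∈ R₂ := fun x => ⟨C x, by simp⟩
  have hτR₂ : τ ∈ R₂ := ⟨X, by simp⟩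
  -- `L = ∑_{k < d} σ^k θ(E)[τ]`
  obtain ⟨d₀, rfl⟩ : ∃ d₀, d = d₀ + 1 := ⟨d - 1, by omega⟩
  let T : L → Prop := fun y => ∃ Y : ℕ → L, (∀ k, Y k ∈ R₂) ∧
    y = ∑ k ∈ Finset.range (d₀ + 1), sig ^ k * Y k
  have hT_of : ∀ r ∈ R₂, T r := by
    intro r hr
    refine ⟨fun k => if k = 0 then r else 0, fun k => ?_, ?_⟩
    · by_cases hk : k = 0
      · simp only [hk, if_true]
        exact hr
      · simp only [hk, if_false]
        exact zero_mem _
    · rw [Finset.sum_eq_single 0]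
      · simp
      · intro k _ hk
        simp [hk]
      · intro h
        exact absurd (Finset.mem_range.2 (Nat.succ_pos d₀)) h
  have hT_add : ∀ x y, T x → T y → T (x + y) := by
    rintro x y ⟨Y, hY, rfl⟩ ⟨Y', hY', rfl⟩
    refine ⟨fun k => Y k + Y' k, fun k => add_mem (hY k) (hY' k), ?_⟩
    rw [← Finset.sum_add_distrib]
    exact Finset.sum_congr rfl fun k _ => by ring
  have hT_sig : ∀ y, T y → T (sig * y) := by
    rintro y ⟨Y, hY, rfl⟩
    refine ⟨fun k => if k = 0 then τ * θ (ϖ : E) * Y d₀ else Y (k - 1), fun k => ?_, ?_⟩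
    · by_cases hk : k = 0
      · simp only [hk, if_true]
        exact mul_mem (mul_mem hτR₂ (hθR₂ _)) (hY _)
      · simp only [hk, if_false]
        exact hY _
    · rw [Finset.sum_range_succ' (fun k => sig ^ k * (if k = 0 then τ * θ (ϖ : E) * Y d₀
          else Y (k - 1))), Finset.mul_sum, Finset.sum_range_succ]
      simp only [Nat.add_sub_cancel, if_true, pow_zero, one_mul, Nat.succ_ne_zero, if_false]
      rw [← hsigd]
      congr 1
      · exact Finset.sum_congr rfl fun k _ => by ring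
      · ring
  have hT_pow : ∀ (i : ℕ) (y : L), T y → T (sig ^ i * y) := by
    intro i
    induction i with
    | zero =>
      intro y hy
      rw [pow_zero, one_mul]
      exact hy
    | succ i ih =>
      intro y hy
      rw [pow_succ, mul_assoc]
      exact ih _ (hT_sig y hy)
  have hT : ∀ y : L, T y := by
    intro y
    obtain ⟨c, rfl⟩ := hS y
    refine Finset.sum_induction _ T hT_add (hT_of 0 (zero_mem _)) fun i _ => ?_
    rw [mul_comm]
    exact hT_pow i _ (hT_of _ (hθR₂ _))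
  -- the orders of the terms are pairwise distinct
  obtain ⟨Y, hY, hπY⟩ := hT (π : L)
  set t : ℕ → L := fun k => sig ^ k * Y k with ht
  have hterm : ∀ k, t k ≠ 0 → ∃ a : ℤ, P.ord (t k) = s * (k + (d₀ + 1 : ℕ) * a) := by
    intro k hk
    have hYk : Y k ≠ 0 := fun h => hk (by simp only [ht, h, mul_zero])
    obtain ⟨a, ha⟩ := hR₂dvd (Y k) (hY k) hYk
    refine ⟨a, ?_⟩
    simp only [ht]
    rw [P.ord_mul (pow_ne_zero _ hsigne) hYk, place_ord_pow, ha, hed]
    ring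
  have hne : ((Finset.range (d₀ + 1)).filter fun k => t k ≠ 0).Nonempty := by
    by_contra h
    rw [Finset.not_nonempty_iff_eq_empty, Finset.filter_eq_empty_iff] at h
    apply hπ0
    rw [hπY]
    refine Finset.sum_eq_zero fun k hk => ?_
    have := h hk
    rw [not_not] at this
    exact this
  obtain ⟨j, hj, hmin⟩ := Finset.exists_min_image _ (fun k => P.ord (t k)) hne
  rw [Finset.mem_filter] at hj
  have hdom := s18ku_dominant P (Finset.range (d₀ + 1)) t j hj.1 hj.2 (by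
    intro i hi hij
    by_cases hti : t i = 0
    · exact Or.inl hti
    · right
      have h1 := hmin i (Finset.mem_filter.2 ⟨hi, hti⟩)
      refine lt_of_le_of_ne h1 fun h2 => hij ?_
      obtain ⟨a, ha⟩ := hterm i hti
      obtain ⟨b, hb⟩ := hterm j hj.2
      rw [ha, hb] at h2
      have h3 : ((j : ℤ) + (d₀ + 1 : ℕ) * b) = (i : ℤ) + (d₀ + 1 : ℕ) * a :=
        mul_left_cancel₀ hsig0.ne' h2
      have h4 : ((j : ℤ) + (d₀ + 1 : ℕ) * b) % ((d₀ + 1 : ℕ) : ℤ) =
          ((i : ℤ) + (d₀ + 1 : ℕ) * a) % ((d₀ + 1 : ℕ) : ℤ) := by rw [h3]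
      rw [Int.add_mul_emod_self_left, Int.add_mul_emod_self_left] at h4
      rw [Finset.mem_range] at hi
      have hj' := Finset.mem_range.1 hj.1
      rw [Int.emod_eq_of_lt (by positivity) (by exact_mod_cast hj'),
        Int.emod_eq_of_lt (by positivity) (by exact_mod_cast hi)] at h4
      exact_mod_cast h4.symm)
  obtain ⟨b, hb⟩ := hterm j hj.2
  have h5 : (1 : ℤ) = s * (j + (d₀ + 1 : ℕ) * b) := by
    rw [← hb, ← hdom.2, ← hπY, hπ1]
  exact Int.eq_one_of_mul_eq_one_right hsig0.le h5.symm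

/-- **The abstract ramification computation.** -/
theorem s18ku_core (hM : 0 < M) (hsig : sig ^ M * θ jE = 1) (hsigV : 0 ≤ P.ord sig)
    (h1728 : 1 - 1728 * sig ^ M ≠ 0) (h1728' : P.ord (1 - 1728 * sig ^ M) = 0)
    (hS : ∀ y : L, ∃ c : ℕ → E, y = ∑ i ∈ Finset.range M, θ (c i) * sig ^ i)
    [Algebra.IsAlgebraic ↥(K⟮jE⟯) E]
    (hD1 : ∀ P₁ : Place K E, P₁.ord jE = 0 → P₁.ord (jE - 1728) = 0 →
      ∀ h : K[X], Irreducible h → 0 < P₁.ord (aeval jE h) → P₁.ord (aeval jE h) = 1)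
    (hD2 : ∀ P₁ : Place K E, P₁.ord jE < 0 → P₁.ord jE ∣ (M : ℤ)) :
    ∃ H : K[X], P.ord (aeval sig H) = 1 := by
  obtain ⟨P₁, e, he, hres⟩ := s18ku_restrict θ P M sig hS hsigV
  rcases hsigV.lt_or_eq with h | h
  · exact ⟨X, by rw [aeval_X]; exact s18ku_caseB θ P M sig jE hM hsig h hS hD2 P₁ e he hres⟩
  · exact s18ku_caseA θ P M sig jE hM hsig h.symm h1728 h1728' hS hD1 P₁ e he hres

end Core

end Fermat.Agent.S18
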