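/-
S18, package (I3) [KUMMER] (helper2), GENERIC FIELD THEORY.  Prefix `s18ku_`.

`θ : E → L` fields over `K`, `σ ∈ L` with `σ^M · θ(j) = 1`, `L` generated by `θ(E)` and `σ`:
`L = ∑_{i<M} θ(E) σ^i`, `σ` is transcendental over `K` if `j` is, `L` is finite over `K(σ)` if
`E` is finite over `K(j)`.
-/
import Mathlib

set_option autoImplicit false
set_option linter.style.haveILetI false

open Polynomial IntermediateField

noncomputable section

namespace Fermat.Agent.S18

section Gen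

variable {K E L : Type*} [Field K] [Field E] [Field L] [Algebra K E] [Algebra K L]
  (θ : E →ₐ[K] L) (sig : L) (M : ℕ) (jE : E)

theorem s18ku_gen_theta_j (hsig : sig ^ M * θ jE = 1) : θ jE = (sig ^ M)⁻¹ :=
  eq_inv_of_mul_eq_one_right hsig

theorem s18ku_gen_sig_ne_zero (hM : M ≠ 0) (hsig : sig ^ M * θ jE = 1) : sig ≠ 0 := by
  intro h
  rw [h, zero_pow hM, zero_mul] at hsig
  exact zero_ne_one hsig

/-- `σ` is transcendental over `K`. -/
theorem s18ku_gen_transcendental (hsig : sig ^ M * θ jE = 1) (htr : Transcendental K jE) :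
    Transcendental K sig := by
  intro halg
  apply htr
  have h1 : IsAlgebraic K (θ jE) := by
    rw [s18ku_gen_theta_j θ sig M jE hsig]
    exact (halg.pow M).inv
  exact (isAlgebraic_algHom_iff θ θ.toRingHom.injective).1 h1

/-- `1 - 1728 σ^M ≠ 0`. -/
theorem s18ku_gen_w_ne_zero [CharZero K] (hM : M ≠ 0) (htr : Transcendental K sig) :
    (1 : L) - 1728 * sig ^ M ≠ 0 := by
  intro h
  apply htr
  refine ⟨1 - C 1728 * X ^ M, ?_, ?_⟩
  · intro h0
    have h1 := congrArg (fun p : K[X] => p.coeff 0) h0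
    simp only [coeff_sub, coeff_one_zero, coeff_zero, mul_coeff_zero, coeff_C_zero] at h1
    rw [coeff_X_pow, if_neg hM.symm, mul_zero, sub_zero] at h1
    exact one_ne_zero h1
  · rw [map_sub, map_one, map_mul, aeval_C, map_pow, aeval_X, map_ofNat]
    exact h

/-- **`L = ∑_{i<M} θ(E) σ^i`.** -/
theorem s18ku_gen_span (hM : M ≠ 0) (hsig : sig ^ M * θ jE = 1)
    (hgen : ∀ T : IntermediateField K L, (∀ f, θ f ∈ T) → sig ∈ T → ∀ y, y ∈ T) (y : L) :
    ∃ c : ℕ → E, y = ∑ i ∈ Finset.range M, θ (c i) * sig ^ i := by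
  classical
  have hu : sig ^ M ∈ θ.fieldRange := by
    refine ⟨jE⁻¹, ?_⟩
    have h0 : θ jE⁻¹ = (θ jE)⁻¹ := map_inv₀ θ jE
    show θ jE⁻¹ = sig ^ M
    rw [h0, s18ku_gen_theta_j θ sig M jE hsig, inv_inv]
  have hgm : (X ^ M - C (⟨sig ^ M, hu⟩ : ↥θ.fieldRange)).Monic :=
    monic_X_pow_sub_C _ hM
  have hgev : aeval sig (X ^ M - C (⟨sig ^ M, hu⟩ : ↥θ.fieldRange)) = 0 := by
    rw [map_sub, map_pow, aeval_X, aeval_C]
    exact sub_self _
  have hint : IsIntegral ↥θ.fieldRange sig := ⟨_, hgm, hgev⟩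
  have h1 : y ∈ (↥θ.fieldRange)⟮sig⟯ := by
    have h2 : y ∈ ((↥θ.fieldRange)⟮sig⟯).restrictScalars K := by
      refine hgen _ (fun f => ?_) ?_ y
      · rw [IntermediateField.mem_restrictScalars]
        exact IntermediateField.algebraMap_mem ((↥θ.fieldRange)⟮sig⟯)
          (⟨θ f, ⟨f, rfl⟩⟩ : ↥θ.fieldRange)
      · rw [IntermediateField.mem_restrictScalars]
        exact IntermediateField.mem_adjoin_simple_self _ _
    exact h2
  rw [← IntermediateField.mem_toSubalgebra,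
    IntermediateField.adjoin_simple_toSubalgebra_of_isAlgebraic hint.isAlgebraic,
    Algebra.adjoin_singleton_eq_range_aeval] at h1
  obtain ⟨p, hp⟩ := h1
  have hr : aeval sig (p %ₘ (X ^ M - C (⟨sig ^ M, hu⟩ : ↥θ.fieldRange))) = aeval sig p := by
    conv_rhs => rw [← modByMonic_add_div p (X ^ M - C (⟨sig ^ M, hu⟩ : ↥θ.fieldRange))]
    rw [map_add, map_mul, hgev, zero_mul, add_zero]
  have hdeg : (p %ₘ (X ^ M - C (⟨sig ^ M, hu⟩ : ↥θ.fieldRange))).natDegree < M := by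
    have h2 := natDegree_modByMonic_lt p hgm (by
      intro h3
      have h4 := congrArg natDegree h3
      rw [natDegree_X_pow_sub_C, natDegree_one] at h4
      exact hM h4)
    rwa [natDegree_X_pow_sub_C] at h2
  have h3 : ∀ i : ℕ, ∃ c : E, θ c =
      (((p %ₘ (X ^ M - C (⟨sig ^ M, hu⟩ : ↥θ.fieldRange))).coeff i : ↥θ.fieldRange) : L) :=
    fun i => ((p %ₘ (X ^ M - C (⟨sig ^ M, hu⟩ : ↥θ.fieldRange))).coeff i).2
  choose c hc using h3
  refine ⟨c, ?_⟩
  have hp' : y = aeval sig p := hp.symm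
  rw [hp', ← hr, aeval_eq_sum_range' hdeg]
  refine Finset.sum_congr rfl (fun i _ => ?_)
  rw [hc i, Algebra.smul_def]
  rfl

/-- `θ` maps `K(j)` into `K(σ)`. -/
theorem s18ku_gen_theta_mem (hsig : sig ^ M * θ jE = 1) (r : E) (hr : r ∈ K⟮jE⟯) :
    θ r ∈ K⟮sig⟯ := by
  have hle : K⟮jE⟯ ≤ (K⟮sig⟯).comap θ := by
    rw [IntermediateField.adjoin_simple_le_iff]
    show θ jE ∈ K⟮sig⟯
    rw [s18ku_gen_theta_j θ sig M jE hsig]
    exact inv_mem (pow_mem (IntermediateField.mem_adjoin_simple_self _ _) M)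
  exact hle hr

/-- **`L` is finite over `K(σ)`.** -/
theorem s18ku_gen_finite (hsig : sig ^ M * θ jE = 1)
    (hS : ∀ y : L, ∃ c : ℕ → E, y = ∑ i ∈ Finset.range M, θ (c i) * sig ^ i)
    (hfin : FiniteDimensional ↥(K⟮jE⟯) E) :
    FiniteDimensional ↥(K⟮sig⟯) L := by
  classical
  obtain ⟨s, hs⟩ := Module.finite_def.1 hfin
  refine Module.finite_def.2 ⟨(s ×ˢ Finset.range M).image (fun p => θ p.1 * sig ^ p.2), ?_⟩
  rw [eq_top_iff]
  intro y _
  obtain ⟨c, rfl⟩ := hS y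
  refine Submodule.sum_mem _ (fun i hi => ?_)
  have h1 : c i ∈ Submodule.span ↥(K⟮jE⟯) (s : Set E) := by
    rw [hs]
    exact Submodule.mem_top
  refine Submodule.span_induction
    (p := fun x _ => θ x * sig ^ i ∈
      Submodule.span ↥(K⟮sig⟯)
        (((s ×ˢ Finset.range M).image (fun p => θ p.1 * sig ^ p.2) : Finset L) : Set L))
    ?_ ?_ ?_ ?_ h1
  · intro x hx
    refine Submodule.subset_span ?_
    rw [Finset.mem_coe, Finset.mem_image]
    exact ⟨(x, i), Finset.mem_product.2 ⟨hx, hi⟩, rfl⟩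
  · rw [map_zero, zero_mul]
    exact Submodule.zero_mem _
  · intro x y _ _ hx hy
    rw [map_add, add_mul]
    exact Submodule.add_mem _ hx hy
  · intro r x _ hx
    have h2 : θ (r • x) * sig ^ i =
        (⟨θ (r : E), s18ku_gen_theta_mem θ sig M jE hsig _ r.2⟩ : ↥(K⟮sig⟯)) •
          (θ x * sig ^ i) := by
      rw [Algebra.smul_def, Algebra.smul_def, map_mul, mul_assoc]
      rfl
    rw [h2]
    exact Submodule.smul_mem _ _ hx

end Gen

end Fermat.Agent.S18
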