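/-
S18, package (I3) [KUMMER] (helper2), THE MODULAR DICTIONARY.  Prefix `s18ku_`.

`θ : F_K(M) → F''` as an algebra homomorphism, `σ^M θ(j) = 1`, `F'' = ∑_{i<M} θ(F) σ^i`,
`σ` transcendental over `K`, `F''` finite over `K(σ)`.
-/
import Mathlib
import Fermat.Agent.S18.InfDefs
import Fermat.Agent.S18.KummerGen

set_option autoImplicit false
set_option linter.style.haveILetI false

open Polynomial AlgebraicCurve ModularCurve IntermediateField

noncomputable section

namespace Fermat.Agent.S18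

section Dict

variable (O K : Type) [CommRing O] [Field K] [CharZero K] [Algebra O K]
  (M : ℕ) [NeZero M] (σ : LaurentSeries O)

/-- `θ` as a homomorphism of `K`-algebras. -/
def s18ku_theta : ↥(s18_F K M) →ₐ[K] ↥(s18_Fpp O K M σ) where
  toFun := s18_theta O K M σ
  map_one' := Subtype.ext (map_one (qExpand K M))
  map_mul' _ _ := Subtype.ext (map_mul (qExpand K M) _ _)
  map_zero' := Subtype.ext (map_zero (qExpand K M))
  map_add' _ _ := Subtype.ext (map_add (qExpand K M) _ _)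
  commutes' c := Subtype.ext ((qExpandAlgHomC K M).commutes c)

theorem s18ku_theta_apply (f : ↥(s18_F K M)) :
    s18ku_theta O K M σ f = s18_theta O K M σ f := rfl

theorem s18ku_theta_coe (f : ↥(s18_F K M)) :
    ((s18ku_theta O K M σ f : ↥(s18_Fpp O K M σ)) : LaurentSeries K) =
      qExpand K M (f : LaurentSeries K) := rfl

theorem s18ku_sig_coe :
    ((s18_sig O K M σ : ↥(s18_Fpp O K M σ)) : LaurentSeries K) =
      coeffMap (algebraMap O K) σ := rfl

theorem s18ku_j_coe : ((s18_j K M : ↥(s18_F K M)) : LaurentSeries K) = jqModC K := by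
  show coeffEmb K jq = jqModC K
  rw [← jqModC_rat]
  exact coeffMap_jqModC (algebraMap ℚ K)

/-- `σ^M · θ(j) = 1`. -/
theorem s18ku_sig_pow (hσ : s18_IsSigma O M σ) :
    s18_sig O K M σ ^ M * s18ku_theta O K M σ (s18_j K M) = 1 := by
  apply Subtype.ext
  have h1 := congrArg (coeffMap (algebraMap O K)) hσ.1
  rw [map_mul, map_pow, map_one, coeffMap_qExpand, coeffMap_jqModC] at h1
  show (coeffMap (algebraMap O K) σ) ^ M * qExpand K M ((s18_j K M : ↥(s18_F K M)) :
    LaurentSeries K) = 1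
  rw [s18ku_j_coe]
  exact h1

/-- `F''` is generated by `θ(F)` and `σ`. -/
theorem s18ku_gen (T : IntermediateField K ↥(s18_Fpp O K M σ))
    (h1 : ∀ f, s18ku_theta O K M σ f ∈ T) (h2 : s18_sig O K M σ ∈ T)
    (y : ↥(s18_Fpp O K M σ)) : y ∈ T := by
  have hle : s18_Fpp O K M σ ≤ IntermediateField.lift T := by
    refine sup_le ?_ ?_
    · rintro x ⟨f, hf, rfl⟩
      exact (IntermediateField.mem_lift (s18ku_theta O K M σ ⟨f, hf⟩)).2 (h1 ⟨f, hf⟩)
    · rw [IntermediateField.adjoin_simple_le_iff]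
      exact (IntermediateField.mem_lift (s18_sig O K M σ)).2 h2
  exact (IntermediateField.mem_lift y).1 (hle y.2)

/-- **`F'' = ∑_{i<M} θ(F) σ^i`.** -/
theorem s18ku_span (hσ : s18_IsSigma O M σ) (y : ↥(s18_Fpp O K M σ)) :
    ∃ c : ℕ → ↥(s18_F K M),
      y = ∑ i ∈ Finset.range M, s18ku_theta O K M σ (c i) * s18_sig O K M σ ^ i :=
  s18ku_gen_span (s18ku_theta O K M σ) (s18_sig O K M σ) M (s18_j K M) (NeZero.ne M)
    (s18ku_sig_pow O K M σ hσ) (s18ku_gen O K M σ) y

/-- `σ` is transcendental over `K`. -/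
theorem s18ku_sig_transcendental (htr : Transcendental K (s18_j K M))
    (hσ : s18_IsSigma O M σ) : Transcendental K (s18_sig O K M σ) :=
  s18ku_gen_transcendental (s18ku_theta O K M σ) (s18_sig O K M σ) M (s18_j K M)
    (s18ku_sig_pow O K M σ hσ) htr

/-- `1 - 1728 σ^M ≠ 0`. -/
theorem s18ku_w_ne_zero (htr : Transcendental K (s18_j K M))
    (hσ : s18_IsSigma O M σ) : (1 : ↥(s18_Fpp O K M σ)) - 1728 * s18_sig O K M σ ^ M ≠ 0 :=
  s18ku_gen_w_ne_zero (K := K) (s18_sig O K M σ) M (NeZero.ne M)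
    (s18ku_sig_transcendental O K M σ htr hσ)

/-- **`F''` is finite over `K(σ)`.** -/
theorem s18ku_finite (hfin : FiniteDimensional ↥(K⟮s18_j K M⟯) ↥(s18_F K M))
    (hσ : s18_IsSigma O M σ) :
    FiniteDimensional ↥(K⟮s18_sig O K M σ⟯) ↥(s18_Fpp O K M σ) :=
  s18ku_gen_finite (s18ku_theta O K M σ) (s18_sig O K M σ) M (s18_j K M)
    (s18ku_sig_pow O K M σ hσ) (s18ku_span O K M σ hσ) hfin

end Dict

end Fermat.Agent.S18
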