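/-
S18, split-off of [NORM-FIN-OF] (owner of the leaf: helper1; this file: helper12).
Prefix `s18kc_`.  THE KEY COMPUTATION.  Places of a field `F` over an algebraically closed field
`k`; NO modular vocabulary.

`s18kc_main`: let `P` be a place of `F / k`, `t, j ∈ F` with `j · Qb(t) = Pb(t)`,
`deg Qb < deg Pb`, `ord t ≥ 0`, `ord Qb(t) = 0`, `Pb = Ab³`, `Pb - 1728 Qb = Db²`, and assume
the [RAM-J] clause at `P` (`ord (j - c) = 3, 2, 1` for `c = 0`, `c = 1728`, else, whenever it is
positive).  Then `ord f(t) = 1` for every separable `f ∈ k[X]` with `ord f(t) > 0`.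

PROOF.  `f(t)` has positive order, so `t - a` has positive order `e` for a root `a` of `f`
(`s18kc_exists_root`), and `ord G(t) = mult_a(G) · e` for every `G ≠ 0` (`s18kc_ord_aeval`);
in particular `ord f(t) = e`, `Qb(a) ≠ 0`.  With `c = Pb(a) / Qb(a)` and `G = Pb - c Qb`:
`ord (j - c) = ord G(t) = mult_a(G) · e > 0`, which is `3 · ord Ab(t)` for `c = 0`,
`2 · ord Db(t)` for `c = 1728`.  In all three cases [RAM-J] forces `e = 1`.
-/
import Mathlib
import Fermat.Agent.S24.PlaceBasic

set_option autoImplicit false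
set_option maxHeartbeats 1000000
set_option synthInstance.maxHeartbeats 400000
set_option linter.style.haveILetI false
set_option linter.unusedSectionVars false

open Polynomial AlgebraicCurve

noncomputable section

namespace Fermat.Agent.S18

open Fermat.Agent.S24

section KeyComp

variable {k F : Type*} [Field k] [Field F] [Algebra k F] (P : Place k F)

/-- polynomials in an element of the valuation ring lie in the valuation ring. -/
theorem s18kc_aeval_mem {t : F} (ht : 0 ≤ P.ord t) (p : k[X]) :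
    aeval t p ∈ P.toValuationSubring := by
  have htm : t ∈ P.toValuationSubring := place_mem_of_ord_nonneg P ht
  induction p using Polynomial.induction_on with
  | C c =>
    rw [aeval_C]
    exact P.algebraMap_mem' c
  | add p q hp hq =>
    rw [map_add]
    exact P.toValuationSubring.add_mem _ _ hp hq
  | monomial n c h =>
    rw [pow_succ, ← mul_assoc, map_mul, aeval_X]
    exact P.toValuationSubring.mul_mem _ _ h htm

theorem s18kc_ord_aeval_nonneg {t : F} (ht : 0 ≤ P.ord t) (p : k[X]) :
    0 ≤ P.ord (aeval t p) :=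
  place_ord_nonneg_of_mem P (s18kc_aeval_mem P ht p)

/-- a polynomial which does not vanish at `a` is a unit at a place where `t - a` vanishes. -/
theorem s18kc_ord_of_eval_ne {t : F} {a : k} (ht : 0 ≤ P.ord t)
    (he : 0 < P.ord (t - algebraMap k F a)) (H : k[X]) (hH : H.eval a ≠ 0) :
    aeval t H ≠ 0 ∧ P.ord (aeval t H) = 0 := by
  obtain ⟨H₁, hH₁⟩ : (X - C a) ∣ H - C (H.eval a) := Polynomial.X_sub_C_dvd_sub_C_eval
  have h1 : aeval t H = algebraMap k F (H.eval a) + (t - algebraMap k F a) * aeval t H₁ := by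
    have := congrArg (aeval t) hH₁
    rw [map_sub, map_mul, map_sub, aeval_X, aeval_C, aeval_C] at this
    rw [← this]
    ring
  have hc0 : algebraMap k F (H.eval a) ≠ 0 := by
    rw [Ne, map_eq_zero_iff _ (algebraMap k F).injective]
    exact hH
  have hc : P.ord (algebraMap k F (H.eval a)) = 0 := place_ord_algebraMap P _
  rcases eq_or_ne ((t - algebraMap k F a) * aeval t H₁) 0 with h0 | h0
  · rw [h1, h0, add_zero]
    exact ⟨hc0, hc⟩
  · have hta : t - algebraMap k F a ≠ 0 := left_ne_zero_of_mul h0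
    have hh1 : aeval t H₁ ≠ 0 := right_ne_zero_of_mul h0
    have h2 : P.ord ((t - algebraMap k F a) * aeval t H₁) =
        P.ord (t - algebraMap k F a) + P.ord (aeval t H₁) := P.ord_mul hta hh1
    have h3 := s18kc_ord_aeval_nonneg P ht H₁
    have h4 : P.ord (algebraMap k F (H.eval a)) <
        P.ord ((t - algebraMap k F a) * aeval t H₁) := by
      rw [hc, h2]
      omega
    have h5 := place_ord_add_eq_of_lt P hc0 h0 h4
    rw [← h1] at h5
    refine ⟨?_, by rw [h5, hc]⟩
    intro hz
    rw [h1] at hz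
    have h6 : algebraMap k F (H.eval a) = -((t - algebraMap k F a) * aeval t H₁) :=
      eq_neg_of_add_eq_zero_left hz
    rw [h6, place_ord_neg] at h4
    exact lt_irrefl _ h4

/-- **The order of `G(t)`** at a place where `t - a` has positive order `e`:
`ord G(t) = mult_a(G) · e`. -/
theorem s18kc_ord_aeval {t : F} {a : k} (ht : 0 ≤ P.ord t)
    (he : 0 < P.ord (t - algebraMap k F a)) (G : k[X]) (hG : G ≠ 0) :
    aeval t G ≠ 0 ∧
      P.ord (aeval t G) = (G.rootMultiplicity a : ℤ) * P.ord (t - algebraMap k F a) := by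
  obtain ⟨H, hGH, hH⟩ := Polynomial.exists_eq_pow_rootMultiplicity_mul_and_not_dvd G hG a
  have hHa : H.eval a ≠ 0 := by
    intro h
    exact hH (Polynomial.dvd_iff_isRoot.2 h)
  obtain ⟨hH0, hHord⟩ := s18kc_ord_of_eval_ne P ht he H hHa
  have hta : t - algebraMap k F a ≠ 0 := by
    intro h
    rw [h, Place.ord_zero] at he
    exact lt_irrefl _ he
  have h1 : aeval t G = (t - algebraMap k F a) ^ G.rootMultiplicity a * aeval t H := by
    conv_lhs => rw [hGH]
    rw [map_mul, map_pow, map_sub, aeval_X, aeval_C]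
  refine ⟨?_, ?_⟩
  · rw [h1]
    exact mul_ne_zero (pow_ne_zero _ hta) hH0
  · rw [h1, P.ord_mul (pow_ne_zero _ hta) hH0, hHord, add_zero, place_ord_pow]

/-- a polynomial `g` with `ord g(t) > 0` has a root `a` with `ord (t - a) > 0`. -/
theorem s18kc_exists_root [IsAlgClosed k] {t : F} (ht : 0 ≤ P.ord t) :
    ∀ (n : ℕ) (g : k[X]), g.natDegree = n → 0 < P.ord (aeval t g) →
      ∃ a : k, g.IsRoot a ∧ 0 < P.ord (t - algebraMap k F a) := by
  intro n
  induction n with
  | zero =>
    intro g hg hord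
    exfalso
    rw [Polynomial.eq_C_of_natDegree_eq_zero hg, aeval_C, place_ord_algebraMap] at hord
    exact lt_irrefl _ hord
  | succ n ih =>
    intro g hg hord
    have hg0 : g ≠ 0 := by
      rintro rfl
      rw [Polynomial.natDegree_zero] at hg
      omega
    have hdeg : g.degree ≠ 0 := by
      rw [Polynomial.degree_eq_natDegree hg0, hg]
      exact_mod_cast Nat.succ_ne_zero n
    obtain ⟨b, hb⟩ := IsAlgClosed.exists_root g hdeg
    obtain ⟨g₁, hg₁⟩ := Polynomial.dvd_iff_isRoot.2 hb
    have hgt : aeval t g = (t - algebraMap k F b) * aeval t g₁ := by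
      conv_lhs => rw [hg₁]
      rw [map_mul, map_sub, aeval_X, aeval_C]
    have hne : aeval t g ≠ 0 := by
      intro h
      rw [h, Place.ord_zero] at hord
      exact lt_irrefl _ hord
    rw [hgt] at hne
    have htb : t - algebraMap k F b ≠ 0 := left_ne_zero_of_mul hne
    have hg1t : aeval t g₁ ≠ 0 := right_ne_zero_of_mul hne
    have hsum : P.ord (aeval t g) = P.ord (t - algebraMap k F b) + P.ord (aeval t g₁) := by
      rw [hgt]
      exact P.ord_mul htb hg1t
    have hnb : 0 ≤ P.ord (t - algebraMap k F b) := by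
      have : t - algebraMap k F b = aeval t (X - C b) := by
        rw [map_sub, aeval_X, aeval_C]
      rw [this]
      exact s18kc_ord_aeval_nonneg P ht _
    rcases lt_or_eq_of_le hnb with hpos | hzero
    · exact ⟨b, hb, hpos⟩
    · have hg1 : g₁ ≠ 0 := by
        rintro rfl
        exact hg1t (map_zero _)
      have hdeg1 : g₁.natDegree = n := by
        have := congrArg Polynomial.natDegree hg₁
        rw [Polynomial.natDegree_mul (Polynomial.X_sub_C_ne_zero b) hg1,
          Polynomial.natDegree_X_sub_C, hg] at this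
        omega
      have hord1 : 0 < P.ord (aeval t g₁) := by
        rw [hsum, ← hzero, zero_add] at hord
        exact hord
      obtain ⟨a, ha, hpos⟩ := ih g₁ hdeg1 hord1
      refine ⟨a, ?_, hpos⟩
      rw [Polynomial.IsRoot.def, hg₁, Polynomial.eval_mul, ha, mul_zero]

/-- integer arithmetic: `m · (μ · e) = m` with `m ≠ 0`, `e > 0` forces `e = 1`. -/
theorem s18kc_arith {m e : ℤ} {μ : ℕ} (hm : m ≠ 0) (he : 0 < e) (h : m * ((μ : ℤ) * e) = m) :
    e = 1 := by
  have h1 : (μ : ℤ) * e = 1 := by
    have : m * ((μ : ℤ) * e) = m * 1 := by rw [h, mul_one]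
    exact mul_left_cancel₀ hm this
  have h2 : e ∣ 1 := ⟨(μ : ℤ), by rw [← h1, mul_comm]⟩
  have h3 := Int.le_of_dvd one_pos h2
  omega

/-- **THE KEY COMPUTATION**, with the [RAM-J] clause in the form of three implications. -/
theorem s18kc_core [IsAlgClosed k] (t j : F) (Pb Qb Ab Db f : k[X])
    (hrel : j * aeval t Qb = aeval t Pb) (hdeg : Qb.natDegree < Pb.natDegree)
    (ht : 0 ≤ P.ord t) (hQ : P.ord (aeval t Qb) = 0)
    (hA : Pb = Ab ^ 3) (hD : Pb - C 1728 * Qb = Db ^ 2)
    (hf : f.Separable) (hft : 0 < P.ord (aeval t f))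
    (hram : 0 ≤ P.ord j → ∀ c : k, 0 < P.ord (j - algebraMap k F c) →
      (c = 0 → P.ord (j - algebraMap k F c) = 3) ∧
      (c = 1728 → P.ord (j - algebraMap k F c) = 2) ∧
      (c ≠ 0 → c ≠ 1728 → P.ord (j - algebraMap k F c) = 1)) :
    P.ord (aeval t f) = 1 := by
  -- the point `a` below `P`
  obtain ⟨a, hfa, he⟩ := s18kc_exists_root P ht f.natDegree f rfl hft
  have hf0 : f ≠ 0 := hf.ne_zero
  obtain ⟨-, hford⟩ := s18kc_ord_aeval P ht he f hf0
  have hμf : f.rootMultiplicity a = 1 := by
    have h1 := Polynomial.rootMultiplicity_le_one_of_separable hf a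
    have h2 := (Polynomial.rootMultiplicity_pos hf0).2 hfa
    omega
  rw [hford, hμf, Nat.cast_one, one_mul]
  -- `Pb`, `Qb` at `a`
  have hPb0 : Pb ≠ 0 := by
    rintro rfl
    rw [Polynomial.natDegree_zero] at hdeg
    omega
  obtain ⟨hPt, hPord⟩ := s18kc_ord_aeval P ht he Pb hPb0
  have hQb0 : Qb ≠ 0 := by
    rintro rfl
    rw [map_zero, mul_zero] at hrel
    exact hPt hrel.symm
  obtain ⟨hQt, hQord⟩ := s18kc_ord_aeval P ht he Qb hQb0
  have hQa : Qb.eval a ≠ 0 := by
    intro h
    have h2 := (Polynomial.rootMultiplicity_pos hQb0).2 h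
    rw [hQ] at hQord
    have h3 : (0 : ℤ) < (Qb.rootMultiplicity a : ℤ) * P.ord (t - algebraMap k F a) :=
      mul_pos (by exact_mod_cast h2) he
    omega
  -- `j = Pb(t) / Qb(t)`
  have hj : j = aeval t Pb / aeval t Qb := by
    rw [eq_div_iff hQt, hrel]
  have hjord : 0 ≤ P.ord j := by
    rw [hj, div_eq_mul_inv, P.ord_mul hPt (inv_ne_zero hQt), P.ord_inv, hQ, neg_zero, add_zero]
    exact s18kc_ord_aeval_nonneg P ht Pb
  -- the value `c` of `j` and `G = Pb - c Qb`
  set c : k := Pb.eval a / Qb.eval a with hc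
  set G : k[X] := Pb - C c * Qb with hGdef
  have hGdeg : G.natDegree = Pb.natDegree := by
    apply Polynomial.natDegree_sub_eq_left_of_natDegree_lt
    exact lt_of_le_of_lt (Polynomial.natDegree_C_mul_le c Qb) hdeg
  have hG0 : G ≠ 0 := by
    intro h
    rw [h, Polynomial.natDegree_zero] at hGdeg
    omega
  have hGa : G.IsRoot a := by
    rw [Polynomial.IsRoot.def, hGdef, Polynomial.eval_sub, Polynomial.eval_mul,
      Polynomial.eval_C, hc, div_mul_cancel₀ _ hQa, sub_self]
  obtain ⟨hGt, hGord⟩ := s18kc_ord_aeval P ht he G hG0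
  have hμG : 0 < G.rootMultiplicity a := (Polynomial.rootMultiplicity_pos hG0).2 hGa
  have hjc : j - algebraMap k F c = aeval t G / aeval t Qb := by
    rw [hj, hGdef, map_sub, map_mul, aeval_C, sub_div, mul_div_assoc, div_self hQt, mul_one]
  have hjcord : P.ord (j - algebraMap k F c) =
      (G.rootMultiplicity a : ℤ) * P.ord (t - algebraMap k F a) := by
    rw [hjc, div_eq_mul_inv, P.ord_mul hGt (inv_ne_zero hQt), P.ord_inv, hQ, neg_zero, add_zero,
      hGord]
  have hpos : 0 < P.ord (j - algebraMap k F c) := by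
    rw [hjcord]
    exact mul_pos (by exact_mod_cast hμG) he
  obtain ⟨hR0, hR1, hR2⟩ := hram hjord c hpos
  rw [hjcord] at hR0 hR1 hR2
  by_cases hc0 : c = 0
  · -- `G = Pb = Ab ^ 3`
    have hR := hR0 hc0
    have hGP : G = Ab ^ 3 := by
      rw [hGdef, hc0, map_zero, zero_mul, sub_zero, hA]
    have hAb0 : Ab ≠ 0 := by
      rintro rfl
      rw [hGP] at hG0
      exact hG0 (by simp)
    obtain ⟨hAt, hAord⟩ := s18kc_ord_aeval P ht he Ab hAb0
    have h1 : P.ord (aeval t G) = 3 * ((Ab.rootMultiplicity a : ℤ) *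
        P.ord (t - algebraMap k F a)) := by
      rw [hGP, map_pow, place_ord_pow, hAord]
      norm_num
    rw [← hGord, h1] at hR
    exact s18kc_arith (by norm_num) he hR
  · by_cases hc1 : c = 1728
    · have hR := hR1 hc1
      have hGD : G = Db ^ 2 := by
        rw [hGdef, hc1, ← hD]
      have hDb0 : Db ≠ 0 := by
        rintro rfl
        rw [hGD] at hG0
        exact hG0 (by simp)
      obtain ⟨hDt, hDord⟩ := s18kc_ord_aeval P ht he Db hDb0
      have h1 : P.ord (aeval t G) = 2 * ((Db.rootMultiplicity a : ℤ) *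
          P.ord (t - algebraMap k F a)) := by
        rw [hGD, map_pow, place_ord_pow, hDord]
        norm_num
      rw [← hGord, h1] at hR
      exact s18kc_arith (by norm_num) he hR
    · have hR := hR2 hc0 hc1
      have h1 : (1 : ℤ) * ((G.rootMultiplicity a : ℤ) * P.ord (t - algebraMap k F a)) = 1 := by
        rw [one_mul, hR]
      exact s18kc_arith one_ne_zero he h1

/-- **THE KEY COMPUTATION**, with the [RAM-J] clause verbatim as in `s18_RamJStatement`. -/
theorem s18kc_main [IsAlgClosed k] [CharZero k] [DecidableEq k] (t j : F) (Pb Qb Ab Db f : k[X])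
    (hrel : j * aeval t Qb = aeval t Pb) (hdeg : Qb.natDegree < Pb.natDegree)
    (ht : 0 ≤ P.ord t) (hQ : P.ord (aeval t Qb) = 0)
    (hA : Pb = Ab ^ 3) (hD : Pb - C 1728 * Qb = Db ^ 2)
    (hf : f.Separable) (hft : 0 < P.ord (aeval t f))
    (hram : 0 ≤ P.ord j → ∀ c : k, 0 < P.ord (j - algebraMap k F c) →
      P.ord (j - algebraMap k F c) = if c = 0 then 3 else if c = 1728 then 2 else 1) :
    P.ord (aeval t f) = 1 := by
  refine s18kc_core P t j Pb Qb Ab Db f hrel hdeg ht hQ hA hD hf hft ?_
  intro hj c hc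
  have h := hram hj c hc
  refine ⟨fun h0 => ?_, fun h1 => ?_, fun h0 h1 => ?_⟩
  · rw [h, if_pos h0]
  · have h0 : c ≠ 0 := by
      rw [h1]
      exact_mod_cast (by norm_num : (1728 : ℕ) ≠ 0)
    rw [h, if_neg h0, if_pos h1]
  · rw [h, if_neg h0, if_neg h1]

end KeyComp

end Fermat.Agent.S18
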