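/-
S18, package (I3) [KUMMER] (helper2), THE RAMIFICATION OF `F_{K0}(M) / K0(j)`.  Prefix `s18ku_`.

From [CFE] and [RAM-J]: at a place `P₁` of `F_{K0}(M) / K0` with `ord j = 0 = ord (j - 1728)`
every irreducible `h ∈ K0[X]` with `ord h(j) > 0` has `ord h(j) = 1` (`s18ku_hD1`); the pole
orders of `j` divide `M` (`s18ku_hD2`).
-/
import Mathlib
import Fermat.Agent.S18.InfDefs
import Fermat.Agent.S18.KeyComp
import Fermat.Agent.S18.KummerDict

set_option autoImplicit false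
set_option maxHeartbeats 1000000
set_option synthInstance.maxHeartbeats 400000
set_option linter.style.haveILetI false

open Polynomial AlgebraicCurve ModularCurve IntermediateField Fermat.Agent.S24

noncomputable section

namespace Fermat.Agent.S18

section Ram

variable (M : ℕ) [NeZero M] (K0 : IntermediateField ℚ (AlgebraicClosure ℚ))

/-- `ι` on constants. -/
theorem s18ku_iota_algebraMap (c : ↥K0) :
    coeffMap (algebraMap ↥K0 (AlgebraicClosure ℚ))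
        (algebraMap ↥K0 (LaurentSeries ↥K0) c) =
      algebraMap (AlgebraicClosure ℚ) (LaurentSeries (AlgebraicClosure ℚ))
        (algebraMap ↥K0 (AlgebraicClosure ℚ) c) := by
  rw [algebraMap_laurentSeries_eq_single, algebraMap_laurentSeries_eq_single, coeffMap_single]

/-- `ι (j) = j̄`. -/
theorem s18ku_iota_j :
    ((s18_j (AlgebraicClosure ℚ) M : ↥(s18_F (AlgebraicClosure ℚ) M)) :
        LaurentSeries (AlgebraicClosure ℚ)) =
      s18_iota K0 ((s18_j ↥K0 M : ↥(s18_F ↥K0 M)) : LaurentSeries ↥K0) := by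
  rw [s18ku_j_coe, s18ku_j_coe]
  exact (coeffMap_jqModC (algebraMap ↥K0 (AlgebraicClosure ℚ))).symm

/-- `ι (j - 1728) = j̄ - 1728`. -/
theorem s18ku_iota_j_sub :
    ((s18_j (AlgebraicClosure ℚ) M - 1728 : ↥(s18_F (AlgebraicClosure ℚ) M)) :
        LaurentSeries (AlgebraicClosure ℚ)) =
      s18_iota K0 ((s18_j ↥K0 M - 1728 : ↥(s18_F ↥K0 M)) : LaurentSeries ↥K0) := by
  have h1 : ((s18_j (AlgebraicClosure ℚ) M - 1728 : ↥(s18_F (AlgebraicClosure ℚ) M)) :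
      LaurentSeries (AlgebraicClosure ℚ)) =
      ((s18_j (AlgebraicClosure ℚ) M : ↥(s18_F (AlgebraicClosure ℚ) M)) :
        LaurentSeries (AlgebraicClosure ℚ)) - 1728 := rfl
  have h2 : ((s18_j ↥K0 M - 1728 : ↥(s18_F ↥K0 M)) : LaurentSeries ↥K0) =
      ((s18_j ↥K0 M : ↥(s18_F ↥K0 M)) : LaurentSeries ↥K0) - 1728 := rfl
  rw [h1, h2, s18ku_iota_j M K0]
  show _ = coeffMap (algebraMap ↥K0 (AlgebraicClosure ℚ)) _
  rw [map_sub, map_ofNat]
  rfl

/-- `ι (h(j)) = h^ι(j̄)`. -/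
theorem s18ku_iota_aeval (h : (↥K0)[X]) :
    ((aeval (s18_j (AlgebraicClosure ℚ) M) (h.map (algebraMap ↥K0 (AlgebraicClosure ℚ))) :
        ↥(s18_F (AlgebraicClosure ℚ) M)) : LaurentSeries (AlgebraicClosure ℚ)) =
      s18_iota K0 ((aeval (s18_j ↥K0 M) h : ↥(s18_F ↥K0 M)) : LaurentSeries ↥K0) := by
  have h1 : ((aeval (s18_j (AlgebraicClosure ℚ) M)
      (h.map (algebraMap ↥K0 (AlgebraicClosure ℚ))) :
        ↥(s18_F (AlgebraicClosure ℚ) M)) : LaurentSeries (AlgebraicClosure ℚ)) =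
      aeval ((s18_j (AlgebraicClosure ℚ) M : ↥(s18_F (AlgebraicClosure ℚ) M)) :
        LaurentSeries (AlgebraicClosure ℚ)) (h.map (algebraMap ↥K0 (AlgebraicClosure ℚ))) :=
    (aeval_algHom_apply (s18_F (AlgebraicClosure ℚ) M).val _ _).symm
  have h2 : ((aeval (s18_j ↥K0 M) h : ↥(s18_F ↥K0 M)) : LaurentSeries ↥K0) =
      aeval ((s18_j ↥K0 M : ↥(s18_F ↥K0 M)) : LaurentSeries ↥K0) h :=
    (aeval_algHom_apply (s18_F ↥K0 M).val _ _).symm
  rw [h1, h2, s18ku_iota_j M K0]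
  show _ = coeffMap (algebraMap ↥K0 (AlgebraicClosure ℚ)) _
  rw [aeval_def, aeval_def, eval₂_map, hom_eval₂]
  congr 1
  ext c
  exact (s18ku_iota_algebraMap K0 c).symm ▸ rfl

/-- **(D1)** unramified points of the `j`-line. -/
theorem s18ku_hD1 (hRam : s18_RamJStatement) (hCfe : s18_CfeStatement) (hM : 4 ∣ M ∨ 9 ∣ M)
    (hK0 : FiniteDimensional ℚ ↥K0) (P₁ : Place ↥K0 ↥(s18_F ↥K0 M))
    (h0 : P₁.ord (s18_j ↥K0 M) = 0) (h1 : P₁.ord (s18_j ↥K0 M - 1728) = 0)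
    (h : (↥K0)[X]) (hirr : Irreducible h) (hpos : 0 < P₁.ord (aeval (s18_j ↥K0 M) h)) :
    P₁.ord (aeval (s18_j ↥K0 M) h) = 1 := by
  classical
  obtain ⟨P', hP'⟩ := hCfe M K0 hK0 P₁
  have hj : P'.ord (s18_j (AlgebraicClosure ℚ) M) = P₁.ord (s18_j ↥K0 M) :=
    hP' _ _ (s18ku_iota_j M K0)
  have hj' : P'.ord (s18_j (AlgebraicClosure ℚ) M - 1728) = P₁.ord (s18_j ↥K0 M - 1728) :=
    hP' _ _ (s18ku_iota_j_sub M K0)
  have hh : P'.ord (aeval (s18_j (AlgebraicClosure ℚ) M)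
      (h.map (algebraMap ↥K0 (AlgebraicClosure ℚ)))) = P₁.ord (aeval (s18_j ↥K0 M) h) :=
    hP' _ _ (s18ku_iota_aeval M K0 h)
  have hsep : (h.map (algebraMap ↥K0 (AlgebraicClosure ℚ))).Separable :=
    hirr.separable.map
  have hne : h.map (algebraMap ↥K0 (AlgebraicClosure ℚ)) ≠ 0 :=
    (Polynomial.map_ne_zero_iff (algebraMap ↥K0 (AlgebraicClosure ℚ)).injective).2 hirr.ne_zero
  have ht : 0 ≤ P'.ord (s18_j (AlgebraicClosure ℚ) M) := by rw [hj, h0]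
  obtain ⟨a, hroot, hea⟩ := s18kc_exists_root P' ht _
    (h.map (algebraMap ↥K0 (AlgebraicClosure ℚ))) rfl (by rw [hh]; exact hpos)
  obtain ⟨-, hord⟩ := s18kc_ord_aeval P' ht hea
    (h.map (algebraMap ↥K0 (AlgebraicClosure ℚ))) hne
  have hmult : (h.map (algebraMap ↥K0 (AlgebraicClosure ℚ))).rootMultiplicity a = 1 :=
    le_antisymm (rootMultiplicity_le_one_of_separable hsep a)
      ((rootMultiplicity_pos hne).2 hroot)
  have hram := (hRam M hM P').1 ht a hea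
  have ha0 : a ≠ 0 := by
    intro ha
    rw [ha, map_zero, sub_zero, hj, h0] at hea
    exact lt_irrefl _ hea
  have ha1 : a ≠ 1728 := by
    intro ha
    rw [ha, map_ofNat, hj', h1] at hea
    exact lt_irrefl _ hea
  rw [if_neg ha0, if_neg ha1] at hram
  rw [← hh, hord, hmult, hram]
  norm_num

/-- **(D2)** the pole orders of `j` divide `M`. -/
theorem s18ku_hD2 (hRam : s18_RamJStatement) (hCfe : s18_CfeStatement) (hM : 4 ∣ M ∨ 9 ∣ M)
    (hK0 : FiniteDimensional ℚ ↥K0) (P₁ : Place ↥K0 ↥(s18_F ↥K0 M))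
    (h0 : P₁.ord (s18_j ↥K0 M) < 0) : P₁.ord (s18_j ↥K0 M) ∣ (M : ℤ) := by
  obtain ⟨P', hP'⟩ := hCfe M K0 hK0 P₁
  have hj : P'.ord (s18_j (AlgebraicClosure ℚ) M) = P₁.ord (s18_j ↥K0 M) :=
    hP' _ _ (s18ku_iota_j M K0)
  rw [← hj]
  exact (hRam M hM P').2 (by rw [hj]; exact h0)

end Ram

end Fermat.Agent.S18
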