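/-
S18, package (I3) [KUMMER] (helper2): `s18ku_main : s18_KummerStatement`.  Prefix `s18ku_`.

[RAM-J] + [CFE] ⟹ the integral closure of `A = O[σ, 1/(1 - 1728 σ^M)]` in
`F'' = θ(F_{K0}(M))(σ)` is unramified over `A` at every non-zero prime not containing `ℓ`.

ROUTE.  `P` a non-zero prime of the integral closure `C`, `ℓ ∉ P`: `C_P` is the valuation ring of
a place `Q` of `F'' / K0` (helper29's [PP], `s18lpp_main`; `K0 ⊆ C_P` because `ℓ ∉ P`).
`s18ku_core` (Abhyankar): there is `H ∈ K0[X]` with `ord_Q H(σ) = 1` - the restriction `Q₁` of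
`Q` to `θ(F)` has `e(Q | Q₁) = 1` when `σ` is a unit at `Q` (root of a unit, `s18ku_unr`), and
then `H = h(X^M)·X^…` for the irreducible polynomial `h` of the point `j(Q₁)` ([RAM-J] through
[CFE]: `ord_{Q₁} h(j) = 1`, `s18ku_hD1`); when `σ ∈ Q` the pole order of `j` at `Q₁` divides `M`
(`s18ku_hD2`) and `ord_Q σ = 1`.  Clearing denominators gives `a ∈ O[σ] ⊆ A` with `ord_Q a = 1`,
and clause 3 of [PP] turns `ord_Q (x / a) ≥ 0` into `x z = a y` (`s18ku_asm`).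
-/
import Mathlib
import Fermat.Agent.S18.InfDefs
import Fermat.Agent.S18.KummerCore
import Fermat.Agent.S18.KummerDict
import Fermat.Agent.S18.KummerRam
import Fermat.Agent.S18.KummerAsm

set_option autoImplicit false
set_option maxHeartbeats 1000000
set_option synthInstance.maxHeartbeats 400000
set_option linter.style.haveILetI false

open Polynomial AlgebraicCurve ModularCurve IntermediateField Fermat.Agent.S24

noncomputable section

namespace Fermat.Agent.S18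

/-- **[KUMMER]** -/
theorem s18ku_main : s18_KummerStatement := by
  intro hRam hCfe M _ ℓ _ _ hM49 K0 hK0 O _ hℓ hg σ hσ
  obtain ⟨htr, hfinj, -⟩ := hg
  letI := s18_algOFF ↥O ↥K0 (s18_Fpp ↥O ↥K0 M σ)
  haveI : IsScalarTower ↥O ↥K0 ↥(s18_Fpp ↥O ↥K0 M σ) := IsScalarTower.of_algebraMap_eq' rfl
  have hsp := s18ku_sig_pow ↥O ↥K0 M σ hσ
  have htrs := s18ku_sig_transcendental ↥O ↥K0 M σ htr hσ
  have hfin := s18ku_finite ↥O ↥K0 M σ hfinj hσ
  have hw := s18ku_w_ne_zero ↥O ↥K0 M σ htr hσ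
  haveI : Algebra.IsAlgebraic ↥(IntermediateField.adjoin ↥K0 {s18_j ↥K0 M})
      ↥(s18_F ↥K0 M) :=
    Algebra.IsAlgebraic.of_finite _ _
  unfold s18_KummerAt
  intro P hP hP0 hℓP
  refine s18ku_asm ↥O ↥K0 ↥(s18_Fpp ↥O ↥K0 M σ) (s18_sig ↥O ↥K0 M σ) M ℓ hℓ htrs hfin
    (fun Q hs0 hw2 => ?_) P hP hP0 hℓP
  exact s18ku_core (s18ku_theta ↥O ↥K0 M σ) Q M (s18_sig ↥O ↥K0 M σ) (s18_j ↥K0 M)
    (Nat.pos_of_ne_zero (NeZero.ne M)) hsp hs0 hw hw2 (s18ku_span ↥O ↥K0 M σ hσ)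
    (s18ku_hD1 M K0 hRam hCfe hM49 hK0) (s18ku_hD2 M K0 hRam hCfe hM49 hK0)

end Fermat.Agent.S18
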