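/-
# S18 / [LOC], part 5: the special fibre of a chart has dimension at most one.
Owner: helper29, prefix `s18loc_`.  Mathlib + `StarDefs` only.

`O` a local ring with residue field `κ`, `B = s18_chart O {j}` the integral closure of `O[j]` in
`F`.  The special fibre `B / 𝔪 B` is integral over `κ[X]` (`X ↦ j`), hence of dimension `≤ 1` if it
is a domain (`s18loc_dim`).
-/
import Mathlib
import Fermat.Agent.S18.StarDefs

set_option autoImplicit false

namespace Fermat.Agent.S18

open Polynomial

noncomputable section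

section dim

variable (O : Type) [CommRing O] [IsLocalRing O] {F : Type} [Field F] [Algebra O F] (j : F)

omit [IsLocalRing O] in
theorem s18loc_j_mem_adjoin : j ∈ Algebra.adjoin O ({j} : Set F) :=
  Algebra.subset_adjoin (Set.mem_singleton j)

omit [IsLocalRing O] in
theorem s18loc_j_mem : j ∈ s18_chart O ({j} : Set F) := by
  rw [s18_mem_chart_iff]
  exact isIntegral_algebraMap
    (x := (⟨j, s18loc_j_mem_adjoin O j⟩ : Algebra.adjoin O ({j} : Set F)))

/-- The reduction map `κ → B / 𝔪 B`. -/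
def s18loc_resMap : IsLocalRing.ResidueField O →+* s18_fibre O ({j} : Set F) :=
  Ideal.Quotient.lift (IsLocalRing.maximalIdeal O)
    ((Ideal.Quotient.mk (s18_fibreIdeal O ({j} : Set F))).comp
      (algebraMap O ↥(s18_chart O ({j} : Set F))))
    (fun a ha => by
      rw [RingHom.comp_apply, Ideal.Quotient.eq_zero_iff_mem]
      exact Ideal.mem_map_of_mem _ ha)

theorem s18loc_resMap_residue (a : O) :
    s18loc_resMap O j (IsLocalRing.residue O a) =
      Ideal.Quotient.mk (s18_fibreIdeal O ({j} : Set F))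
        (algebraMap O ↥(s18_chart O ({j} : Set F)) a) := rfl

/-- The map `κ[X] → B / 𝔪 B`, `X ↦ j`. -/
def s18loc_polyMap : (IsLocalRing.ResidueField O)[X] →+* s18_fibre O ({j} : Set F) :=
  Polynomial.eval₂RingHom (s18loc_resMap O j)
    (Ideal.Quotient.mk (s18_fibreIdeal O ({j} : Set F)) ⟨j, s18loc_j_mem O j⟩)

/-- The square `O[X] → κ[X] → B / 𝔪 B`, `O[X] → B → B / 𝔪 B` commutes. -/
theorem s18loc_polyMap_comp :
    (s18loc_polyMap O j).comp (Polynomial.mapRingHom (IsLocalRing.residue O)) =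
      (Ideal.Quotient.mk (s18_fibreIdeal O ({j} : Set F))).comp
        (Polynomial.aeval (R := O) (⟨j, s18loc_j_mem O j⟩ : ↥(s18_chart O ({j} : Set F)))).toRingHom := by
  apply Polynomial.ringHom_ext
  · intro a
    simp [s18loc_polyMap, s18loc_resMap_residue]
  · simp [s18loc_polyMap]

omit [IsLocalRing O] in
/-- `O[X] → O[j]` is onto. -/
theorem s18loc_aeval_surj :
    Function.Surjective (Polynomial.aeval (R := O)
      (⟨j, s18loc_j_mem_adjoin O j⟩ : ↥(Algebra.adjoin O ({j} : Set F)))) := by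
  rintro ⟨a, ha⟩
  have ha' := ha
  rw [Algebra.adjoin_singleton_eq_range_aeval] at ha'
  obtain ⟨f, hf⟩ := ha'
  refine ⟨f, Subtype.ext ?_⟩
  have h1 := Polynomial.aeval_algebraMap_apply F
    (⟨j, s18loc_j_mem_adjoin O j⟩ : ↥(Algebra.adjoin O ({j} : Set F))) f
  exact h1.symm.trans hf

/-- `B / 𝔪 B` is integral over `κ[X]`. -/
theorem s18loc_polyMap_integral : (s18loc_polyMap O j).IsIntegral := by
  intro x
  obtain ⟨⟨b, hb⟩, rfl⟩ := Ideal.Quotient.mk_surjective x
  obtain ⟨p, hpm, hp⟩ := (s18_mem_chart_iff O).1 hb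
  obtain ⟨P, hPp, -, hPm⟩ := Polynomial.lifts_and_natDegree_eq_and_monic
    ((Polynomial.mem_lifts p).2 (Polynomial.map_surjective _ (s18loc_aeval_surj O j) p)) hpm
  refine ⟨P.map (Polynomial.mapRingHom (IsLocalRing.residue O)), hPm.map _, ?_⟩
  rw [Polynomial.eval₂_map, s18loc_polyMap_comp, ← Polynomial.hom_eval₂]
  have h0 : Polynomial.eval₂ (Polynomial.aeval (R := O)
      (⟨j, s18loc_j_mem O j⟩ : ↥(s18_chart O ({j} : Set F)))).toRingHom ⟨b, hb⟩ P = 0 := by
    apply Subtype.ext
    have h1 := Polynomial.hom_eval₂ P (Polynomial.aeval (R := O)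
      (⟨j, s18loc_j_mem O j⟩ : ↥(s18_chart O ({j} : Set F)))).toRingHom
      (algebraMap ↥(s18_chart O ({j} : Set F)) F) ⟨b, hb⟩
    have h2 : (algebraMap ↥(s18_chart O ({j} : Set F)) F).comp (Polynomial.aeval (R := O)
        (⟨j, s18loc_j_mem O j⟩ : ↥(s18_chart O ({j} : Set F)))).toRingHom =
        (algebraMap ↥(Algebra.adjoin O ({j} : Set F)) F).comp (Polynomial.aeval (R := O)
          (⟨j, s18loc_j_mem_adjoin O j⟩ : ↥(Algebra.adjoin O ({j} : Set F)))).toRingHom := by
      apply Polynomial.ringHom_ext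
      · intro a
        simp
      · simp
    rw [h2, ← Polynomial.eval₂_map] at h1
    have h3 : Polynomial.map (Polynomial.aeval (R := O)
        (⟨j, s18loc_j_mem_adjoin O j⟩ : ↥(Algebra.adjoin O ({j} : Set F)))).toRingHom P = p := hPp
    rw [h3] at h1
    exact h1.trans hp
  rw [h0, map_zero]

/-- The special fibre of a chart has dimension at most one. -/
theorem s18loc_dim [IsDomain (s18_fibre O ({j} : Set F))] :
    Ring.DimensionLEOne (s18_fibre O ({j} : Set F)) := by
  let _ := (s18loc_polyMap O j).toAlgebra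
  have : Algebra.IsIntegral (IsLocalRing.ResidueField O)[X] (s18_fibre O ({j} : Set F)) :=
    ⟨s18loc_polyMap_integral O j⟩
  exact Ring.DimensionLEOne.of_isIntegral (IsLocalRing.ResidueField O)[X] _

end dim

end

end Fermat.Agent.S18
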