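/-
# S18 / [LOC], part 1: commutative algebra (Mathlib only).  Owner: helper29, prefix `s18loc_`.

* `s18loc_prime_principal` : in a noetherian local domain `R` with `π` in the maximal ideal such
  that `R / π` is a principal ideal ring, every prime ideal which does not contain `π` is
  principal (Nakayama).
* `s18loc_ufd` : such a ring is a unique factorisation domain if `π` is a prime element
  (Kaplansky's criterion).
* `s18loc_pow_of_count` : in a UFD, if all the differences of the multiplicities of the primes
  in `a` and `b` are divisible by `m`, then `a / b` is a unit times an `m`-th power.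
-/
import Mathlib

set_option autoImplicit false

namespace Fermat.Agent.S18

open UniqueFactorizationMonoid

section nakayama

variable {R : Type*} [CommRing R] [IsNoetherianRing R] [IsLocalRing R]

/-- Prime ideals which do not contain `π` are principal if `R / π` is a principal ideal ring. -/
theorem s18loc_prime_principal (π : R) (hπm : π ∈ IsLocalRing.maximalIdeal R)
    (hpid : ∀ J : Ideal R, π ∈ J → ∃ y ∈ J, J = Ideal.span {y} ⊔ Ideal.span {π})
    (I : Ideal R) [hI : I.IsPrime] (hπI : π ∉ I) : ∃ y, I = Ideal.span {y} := by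
  obtain ⟨y', hy'J, hJ⟩ := hpid (I ⊔ Ideal.span {π})
    (Ideal.mem_sup_right (Ideal.mem_span_singleton_self π))
  obtain ⟨y, hyI, w, hw, hyw⟩ := Submodule.mem_sup.1 hy'J
  obtain ⟨r, rfl⟩ := Ideal.mem_span_singleton'.1 hw
  -- `I ⊔ (π) = (y) ⊔ (π)`
  have hJ' : I ⊔ Ideal.span {π} = Ideal.span {y} ⊔ Ideal.span {π} := by
    apply le_antisymm
    · rw [hJ]
      refine sup_le ?_ le_sup_right
      rw [Ideal.span_singleton_le_iff_mem, ← hyw]
      exact Ideal.add_mem _ (Ideal.mem_sup_left (Ideal.mem_span_singleton_self y))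
        (Ideal.mem_sup_right (Ideal.mul_mem_left _ r (Ideal.mem_span_singleton_self π)))
    · exact sup_le ((Ideal.span_singleton_le_iff_mem _).2 (Ideal.mem_sup_left hyI)) le_sup_right
  refine ⟨y, le_antisymm ?_ ((Ideal.span_singleton_le_iff_mem _).2 hyI)⟩
  have hjac : Ideal.span {π} ≤ Ideal.jacobson (⊥ : Ideal R) := by
    rw [IsLocalRing.jacobson_eq_maximalIdeal ⊥ bot_ne_top, Ideal.span_singleton_le_iff_mem]
    exact hπm
  refine Submodule.le_of_le_smul_of_le_jacobson_bot (IsNoetherian.noetherian I) hjac ?_
  intro z hz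
  have hzJ : z ∈ Ideal.span {y} ⊔ Ideal.span {π} := by
    rw [← hJ']
    exact Ideal.mem_sup_left hz
  obtain ⟨s, hs, t, ht, hst⟩ := Submodule.mem_sup.1 hzJ
  obtain ⟨c, rfl⟩ := Ideal.mem_span_singleton'.1 ht
  have hcπ : c * π ∈ I := by
    have : c * π = z - s := by rw [← hst]; ring
    rw [this]
    exact I.sub_mem hz ((Ideal.span_singleton_le_iff_mem _).2 hyI hs)
  have hc : c ∈ I := (hI.mem_or_mem hcπ).resolve_right hπI
  rw [← hst]
  refine Submodule.add_mem _ (Submodule.mem_sup_left hs) (Submodule.mem_sup_right ?_)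
  rw [mul_comm]
  exact Submodule.smul_mem_smul (Ideal.mem_span_singleton_self π) hc

/-- **Kaplansky**: a noetherian local domain `R` with a prime element `π` such that `R / π` is a
principal ideal ring is a unique factorisation domain. -/
theorem s18loc_ufd [IsDomain R] (π : R) (hπ : Prime π)
    (hpid : ∀ J : Ideal R, π ∈ J → ∃ y ∈ J, J = Ideal.span {y} ⊔ Ideal.span {π}) :
    UniqueFactorizationMonoid R := by
  have hπm : π ∈ IsLocalRing.maximalIdeal R := by
    rw [IsLocalRing.mem_maximalIdeal, mem_nonunits_iff]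
    exact hπ.not_isUnit
  refine UniqueFactorizationMonoid.iff_exists_prime_mem_of_isPrime.2 (fun I hI0 hI => ?_)
  by_cases hπI : π ∈ I
  · exact ⟨π, hπI, hπ⟩
  · obtain ⟨y, rfl⟩ := s18loc_prime_principal π hπm hpid I hπI
    have hy0 : y ≠ 0 := by
      rintro rfl
      exact hI0 (by simp)
    exact ⟨y, Ideal.mem_span_singleton_self y, (Ideal.span_singleton_prime hy0).1 hI⟩

end nakayama

section count

variable {R : Type*} [CommRing R] [IsDomain R] [UniqueFactorizationMonoid R]
  [NormalizationMonoid R]

open scoped Classical in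
/-- If all differences of multiplicities of `a` and `b` are divisible by `m`, then `a / b` is a
unit times an `m`-th power: `a * b' ^ m ~ b * a' ^ m`. -/
theorem s18loc_pow_of_count (m : ℕ) (a b : R) (ha : a ≠ 0) (hb : b ≠ 0)
    (h : ∀ p : R, p ∈ normalizedFactors a ∨ p ∈ normalizedFactors b →
      (m : ℤ) ∣ ((normalizedFactors a).count p : ℤ) - ((normalizedFactors b).count p : ℤ)) :
    ∃ a' b' : R, a' ≠ 0 ∧ b' ≠ 0 ∧ Associated (a * b' ^ m) (b * a' ^ m) := by
  set A := normalizedFactors a with hA
  set B := normalizedFactors b with hB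
  have hAa : Associated A.prod a := prod_normalizedFactors ha
  have hBb : Associated B.prod b := prod_normalizedFactors hb
  rcases Nat.eq_zero_or_pos m with hm | hm
  · subst hm
    have hAB : A = B := by
      ext p
      by_cases hp : p ∈ A ∨ p ∈ B
      · have := h p hp
        rw [Nat.cast_zero, zero_dvd_iff, sub_eq_zero] at this
        exact_mod_cast this
      · rw [not_or] at hp
        rw [Multiset.count_eq_zero_of_notMem hp.1, Multiset.count_eq_zero_of_notMem hp.2]
    refine ⟨1, 1, one_ne_zero, one_ne_zero, ?_⟩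
    rw [pow_zero, mul_one, mul_one]
    exact hAa.symm.trans (hAB ▸ hBb)
  set C := A ∩ B with hC
  have hCA : C ≤ A := Multiset.inter_le_left
  have hCB : C ≤ B := Multiset.inter_le_right
  have hcA : ∀ p, (A - C).count p = A.count p - min (A.count p) (B.count p) := by
    intro p
    rw [Multiset.count_sub, hC, Multiset.count_inter]
  have hcB : ∀ p, (B - C).count p = B.count p - min (A.count p) (B.count p) := by
    intro p
    rw [Multiset.count_sub, hC, Multiset.count_inter]
  have hdA : ∀ p, p ∈ A - C → m ∣ (A - C).count p := by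
    intro p hp
    have hpA : p ∈ A := Multiset.mem_of_le (Multiset.sub_le_self _ _) hp
    have h1 := h p (Or.inl hpA)
    rw [hcA]
    rcases le_total (A.count p) (B.count p) with hle | hle
    · rw [min_eq_left hle, Nat.sub_self]
      exact dvd_zero m
    · rw [min_eq_right hle]
      have h2 : ((A.count p - B.count p : ℕ) : ℤ) = (A.count p : ℤ) - (B.count p : ℤ) :=
        Nat.cast_sub hle
      rw [← h2] at h1
      exact_mod_cast h1
  have hdB : ∀ p, p ∈ B - C → m ∣ (B - C).count p := by
    intro p hp
    have hpB : p ∈ B := Multiset.mem_of_le (Multiset.sub_le_self _ _) hp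
    have h1 := h p (Or.inr hpB)
    rw [hcB]
    rcases le_total (A.count p) (B.count p) with hle | hle
    · rw [min_eq_left hle]
      have h2 : ((B.count p - A.count p : ℕ) : ℤ) = (B.count p : ℤ) - (A.count p : ℤ) :=
        Nat.cast_sub hle
      have h3 : (m : ℤ) ∣ (B.count p : ℤ) - (A.count p : ℤ) := by
        have := (dvd_neg (a := (m : ℤ))).2 h1
        rwa [neg_sub] at this
      rw [← h2] at h3
      exact_mod_cast h3
    · rw [min_eq_right hle, Nat.sub_self]
      exact dvd_zero m
  obtain ⟨tA, htA⟩ := Multiset.exists_smul_of_dvd_count (A - C) hdA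
  obtain ⟨tB, htB⟩ := Multiset.exists_smul_of_dvd_count (B - C) hdB
  have hA' : A = m • tA + C := by rw [← htA, Multiset.sub_add_cancel hCA]
  have hB' : B = m • tB + C := by rw [← htB, Multiset.sub_add_cancel hCB]
  have h0A : (0 : R) ∉ tA := by
    intro h0
    have h1 : (0 : R) ∈ A := by
      rw [hA']
      exact Multiset.mem_add.2 (Or.inl (Multiset.mem_nsmul.2 ⟨Nat.pos_iff_ne_zero.1 hm, h0⟩))
    exact (prime_of_normalized_factor 0 h1).ne_zero rfl
  have h0B : (0 : R) ∉ tB := by
    intro h0
    have h1 : (0 : R) ∈ B := by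
      rw [hB']
      exact Multiset.mem_add.2 (Or.inl (Multiset.mem_nsmul.2 ⟨Nat.pos_iff_ne_zero.1 hm, h0⟩))
    exact (prime_of_normalized_factor 0 h1).ne_zero rfl
  refine ⟨tA.prod, tB.prod, Multiset.prod_ne_zero h0A, Multiset.prod_ne_zero h0B, ?_⟩
  have e1 : A.prod = tA.prod ^ m * C.prod := by
    rw [hA', Multiset.prod_add, Multiset.prod_nsmul]
  have e2 : B.prod = tB.prod ^ m * C.prod := by
    rw [hB', Multiset.prod_add, Multiset.prod_nsmul]
  have h3 : Associated (a * tB.prod ^ m) (A.prod * tB.prod ^ m) :=
    (hAa.symm).mul_right _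
  have h4 : Associated (B.prod * tA.prod ^ m) (b * tA.prod ^ m) := hBb.mul_right _
  have h5 : A.prod * tB.prod ^ m = B.prod * tA.prod ^ m := by
    rw [e1, e2]; ring
  exact h3.trans (h5 ▸ h4)

end count

end Fermat.Agent.S18
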