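/-
# S18 / [LOC], part 2: the place of a prime element.  Owner: helper29, prefix `s18loc_`.

`R` a domain with field of fractions `F` (finite multiplicities: `WfDvdMonoid R`), `p` a prime
element of `R`.  The localisation `V = R_(p) ⊆ F` is a discrete valuation ring of `F`
(`s18loc_V`); if it contains the image of a field `K`, it is a `Place K F` (`s18loc_place`), and
`ord (p ^ n * a') = n` for `p ∤ a'` (`s18loc_ord`).
-/
import Mathlib
import Fermat.Prelude.Def_AlgebraicCurve_DivisorClassGroup

set_option autoImplicit false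

namespace Fermat.Agent.S18

open AlgebraicCurve

noncomputable section

section V

variable {F : Type*} [Field F] {R : Type*} [CommRing R] [IsDomain R] [Algebra R F]
  [IsFractionRing R F]

/-- The localisation of `R` at the prime element `p`, as a valuation subring of `F`. -/
def s18loc_V [WfDvdMonoid R] (p : R) (hp : Prime p) : ValuationSubring F where
  carrier := {f | ∃ a b : R, ¬ p ∣ b ∧ f * algebraMap R F b = algebraMap R F a}
  mul_mem' := by
    rintro f g ⟨a, b, hb, hab⟩ ⟨c, d, hd, hcd⟩
    refine ⟨a * c, b * d, fun h => ?_, ?_⟩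
    · rcases hp.dvd_or_dvd h with h | h
      · exact hb h
      · exact hd h
    · rw [map_mul, map_mul, ← hab, ← hcd]
      ring
  one_mem' := ⟨1, 1, fun h => hp.not_isUnit (isUnit_of_dvd_one h), by simp⟩
  add_mem' := by
    rintro f g ⟨a, b, hb, hab⟩ ⟨c, d, hd, hcd⟩
    refine ⟨a * d + c * b, b * d, fun h => ?_, ?_⟩
    · rcases hp.dvd_or_dvd h with h | h
      · exact hb h
      · exact hd h
    · rw [map_add, map_mul, map_mul, map_mul, ← hab, ← hcd]
      ring
  zero_mem' := ⟨0, 1, fun h => hp.not_isUnit (isUnit_of_dvd_one h), by simp⟩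
  neg_mem' := by
    rintro f ⟨a, b, hb, hab⟩
    exact ⟨-a, b, hb, by rw [map_neg, ← hab]; ring⟩
  mem_or_inv_mem' := by
    intro f
    have hinj : Function.Injective (algebraMap R F) := IsFractionRing.injective R F
    by_cases hf : f = 0
    · left
      exact ⟨0, 1, fun h => hp.not_isUnit (isUnit_of_dvd_one h), by simp [hf]⟩
    obtain ⟨x, y, hy, rfl⟩ := IsFractionRing.div_surjective (A := R) f
    have hy0 : y ≠ 0 := nonZeroDivisors.ne_zero hy
    have hx0 : x ≠ 0 := by
      rintro rfl
      simp at hf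
    obtain ⟨i, x', hx', rfl⟩ := WfDvdMonoid.max_power_factor hx0 hp.irreducible
    obtain ⟨k, y', hy', rfl⟩ := WfDvdMonoid.max_power_factor hy0 hp.irreducible
    have hP : algebraMap R F p ≠ 0 := fun h => hp.ne_zero (hinj (by rw [h, map_zero]))
    have hX' : algebraMap R F x' ≠ 0 := fun h =>
      hx' (by rw [hinj (by rw [h, map_zero] : algebraMap R F x' = algebraMap R F 0)]
              exact dvd_zero p)
    have hY' : algebraMap R F y' ≠ 0 := fun h =>
      hy' (by rw [hinj (by rw [h, map_zero] : algebraMap R F y' = algebraMap R F 0)]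
              exact dvd_zero p)
    rcases le_total k i with hki | hik
    · left
      refine ⟨p ^ (i - k) * x', y', hy', ?_⟩
      obtain ⟨j, rfl⟩ := Nat.exists_eq_add_of_le hki
      rw [Nat.add_sub_cancel_left]
      simp only [map_mul, map_pow]
      field_simp
      ring
    · right
      refine ⟨p ^ (k - i) * y', x', hx', ?_⟩
      obtain ⟨j, rfl⟩ := Nat.exists_eq_add_of_le hik
      rw [Nat.add_sub_cancel_left]
      simp only [map_mul, map_pow]
      field_simp
      ring

variable [WfDvdMonoid R] (p : R) (hp : Prime p)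

theorem s18loc_mem_V {f : F} :
    f ∈ s18loc_V (F := F) p hp ↔
      ∃ a b : R, ¬ p ∣ b ∧ f * algebraMap R F b = algebraMap R F a := Iff.rfl

theorem s18loc_algebraMap_mem (a : R) : algebraMap R F a ∈ s18loc_V (F := F) p hp :=
  ⟨a, 1, fun h => hp.not_isUnit (isUnit_of_dvd_one h), by simp⟩

theorem s18loc_inv_mem {a : R} (ha : ¬ p ∣ a) :
    (algebraMap R F a)⁻¹ ∈ s18loc_V (F := F) p hp := by
  have hinj : Function.Injective (algebraMap R F) := IsFractionRing.injective R F
  have hA : algebraMap R F a ≠ 0 := fun h =>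
    ha (by rw [hinj (by rw [h, map_zero] : algebraMap R F a = algebraMap R F 0)]
           exact dvd_zero p)
  exact ⟨1, a, ha, by rw [map_one, inv_mul_cancel₀ hA]⟩

/-- The prime element, as an element of `V`. -/
def s18loc_q : ↥(s18loc_V (F := F) p hp) :=
  ⟨algebraMap R F p, s18loc_algebraMap_mem p hp p⟩

/-- The unit of `V` defined by `a / b`, `p ∤ a`, `p ∤ b`. -/
def s18loc_unit {a b : R} (ha : ¬ p ∣ a) (hb : ¬ p ∣ b) : (↥(s18loc_V (F := F) p hp))ˣ where
  val := ⟨algebraMap R F a * (algebraMap R F b)⁻¹,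
    (s18loc_V (F := F) p hp).mul_mem _ _ (s18loc_algebraMap_mem p hp a)
      (s18loc_inv_mem p hp hb)⟩
  inv := ⟨algebraMap R F b * (algebraMap R F a)⁻¹,
    (s18loc_V (F := F) p hp).mul_mem _ _ (s18loc_algebraMap_mem p hp b)
      (s18loc_inv_mem p hp ha)⟩
  val_inv := by
    have hinj : Function.Injective (algebraMap R F) := IsFractionRing.injective R F
    have hA : algebraMap R F a ≠ 0 := fun h =>
      ha (by rw [hinj (by rw [h, map_zero] : algebraMap R F a = algebraMap R F 0)]
             exact dvd_zero p)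
    have hB : algebraMap R F b ≠ 0 := fun h =>
      hb (by rw [hinj (by rw [h, map_zero] : algebraMap R F b = algebraMap R F 0)]
             exact dvd_zero p)
    apply Subtype.ext
    show algebraMap R F a * (algebraMap R F b)⁻¹ * (algebraMap R F b * (algebraMap R F a)⁻¹) = 1
    field_simp
  inv_val := by
    have hinj : Function.Injective (algebraMap R F) := IsFractionRing.injective R F
    have hA : algebraMap R F a ≠ 0 := fun h =>
      ha (by rw [hinj (by rw [h, map_zero] : algebraMap R F a = algebraMap R F 0)]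
             exact dvd_zero p)
    have hB : algebraMap R F b ≠ 0 := fun h =>
      hb (by rw [hinj (by rw [h, map_zero] : algebraMap R F b = algebraMap R F 0)]
             exact dvd_zero p)
    apply Subtype.ext
    show algebraMap R F b * (algebraMap R F a)⁻¹ * (algebraMap R F a * (algebraMap R F b)⁻¹) = 1
    field_simp

theorem s18loc_unit_val {a b : R} (ha : ¬ p ∣ a) (hb : ¬ p ∣ b) :
    (((s18loc_unit (F := F) p hp ha hb : (↥(s18loc_V (F := F) p hp))ˣ) :
      ↥(s18loc_V (F := F) p hp)) : F) = algebraMap R F a * (algebraMap R F b)⁻¹ := rfl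

/-- `p` is not a unit of `V`. -/
theorem s18loc_q_not_unit : ¬ IsUnit (s18loc_q (F := F) p hp) := by
  have hinj : Function.Injective (algebraMap R F) := IsFractionRing.injective R F
  have hP : algebraMap R F p ≠ 0 := fun h => hp.ne_zero (hinj (by rw [h, map_zero]))
  rintro ⟨⟨v, w, hvw, hwv⟩, hv⟩
  have hv' : v = s18loc_q (F := F) p hp := hv
  subst hv'
  obtain ⟨a, b, hb, hab⟩ := w.2
  have h1 : algebraMap R F p * (w : F) = 1 := congrArg Subtype.val hvw
  have h2 : algebraMap R F b = algebraMap R F (p * a) := by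
    rw [map_mul, ← hab, ← mul_assoc, h1, one_mul]
  exact hb ⟨a, hinj h2⟩

/-- Every non-zero element of `V` is a unit times a power of `p`. -/
theorem s18loc_factor (x : ↥(s18loc_V (F := F) p hp)) (hx : x ≠ 0) :
    ∃ (n : ℕ) (e : (↥(s18loc_V (F := F) p hp))ˣ),
      x = s18loc_q (F := F) p hp ^ n * (e : ↥(s18loc_V (F := F) p hp)) := by
  have hinj : Function.Injective (algebraMap R F) := IsFractionRing.injective R F
  obtain ⟨a, b, hb, hab⟩ := x.2
  have hB : algebraMap R F b ≠ 0 := fun h =>
    hb (by rw [hinj (by rw [h, map_zero] : algebraMap R F b = algebraMap R F 0)]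
           exact dvd_zero p)
  have ha0 : a ≠ 0 := by
    rintro rfl
    rw [map_zero] at hab
    rcases mul_eq_zero.1 hab with h | h
    · exact hx (Subtype.ext h)
    · exact hB h
  obtain ⟨n, a', ha', rfl⟩ := WfDvdMonoid.max_power_factor ha0 hp.irreducible
  refine ⟨n, s18loc_unit p hp ha' hb, ?_⟩
  apply Subtype.ext
  show (x : F) = (algebraMap R F p) ^ n * (algebraMap R F a' * (algebraMap R F b)⁻¹)
  rw [map_mul, map_pow] at hab
  rw [← mul_assoc, ← hab, mul_assoc, mul_inv_cancel₀ hB, mul_one]

/-- `p` is irreducible in `V`. -/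
theorem s18loc_q_irreducible : Irreducible (s18loc_q (F := F) p hp) := by
  have hinj : Function.Injective (algebraMap R F) := IsFractionRing.injective R F
  have hP : algebraMap R F p ≠ 0 := fun h => hp.ne_zero (hinj (by rw [h, map_zero]))
  have hq0 : s18loc_q (F := F) p hp ≠ 0 := fun h => hP (congrArg Subtype.val h)
  rw [irreducible_iff]
  refine ⟨s18loc_q_not_unit p hp, fun x y hxy => ?_⟩
  have hx0 : x ≠ 0 := by
    rintro rfl
    rw [zero_mul] at hxy
    exact hq0 hxy
  have hy0 : y ≠ 0 := by
    rintro rfl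
    rw [mul_zero] at hxy
    exact hq0 hxy
  obtain ⟨n, e, rfl⟩ := s18loc_factor p hp x hx0
  obtain ⟨k, e', rfl⟩ := s18loc_factor p hp y hy0
  rcases Nat.eq_zero_or_pos n with hn | hn
  · left
    rw [hn, pow_zero, one_mul]
    exact e.isUnit
  rcases Nat.eq_zero_or_pos k with hk | hk
  · right
    rw [hk, pow_zero, one_mul]
    exact e'.isUnit
  exfalso
  apply s18loc_q_not_unit (F := F) p hp
  obtain ⟨n', rfl⟩ := Nat.exists_eq_succ_of_ne_zero (Nat.pos_iff_ne_zero.1 hn)
  have h1 : s18loc_q (F := F) p hp * 1 = s18loc_q (F := F) p hp *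
      (s18loc_q (F := F) p hp ^ (n' + k) * ((e : ↥(s18loc_V (F := F) p hp)) * e')) := by
    rw [mul_one]
    conv_lhs => rw [hxy]
    rw [pow_succ, pow_add]
    ring
  have h2 := mul_left_cancel₀ hq0 h1
  obtain ⟨k', rfl⟩ := Nat.exists_eq_succ_of_ne_zero (Nat.pos_iff_ne_zero.1 hk)
  refine IsUnit.of_mul_eq_one
    (s18loc_q (F := F) p hp ^ (n' + k') * ((e : ↥(s18loc_V (F := F) p hp)) * e')) ?_
  rw [h2, Nat.succ_eq_add_one, ← add_assoc, pow_succ]
  ring

theorem s18loc_hasFactorization :
    IsDiscreteValuationRing.HasUnitMulPowIrreducibleFactorization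
      ↥(s18loc_V (F := F) p hp) := by
  refine ⟨s18loc_q p hp, s18loc_q_irreducible p hp, fun {x} hx => ?_⟩
  obtain ⟨n, e, rfl⟩ := s18loc_factor p hp x hx
  exact ⟨n, e, rfl⟩

theorem s18loc_isDVR : IsDiscreteValuationRing ↥(s18loc_V (F := F) p hp) :=
  IsDiscreteValuationRing.ofHasUnitMulPowIrreducibleFactorization (s18loc_hasFactorization p hp)

theorem s18loc_V_ne_top : s18loc_V (F := F) p hp ≠ ⊤ := by
  have hinj : Function.Injective (algebraMap R F) := IsFractionRing.injective R F
  have hP : algebraMap R F p ≠ 0 := fun h => hp.ne_zero (hinj (by rw [h, map_zero]))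
  intro htop
  have h1 : (algebraMap R F p)⁻¹ ∈ s18loc_V (F := F) p hp := by
    rw [htop]
    exact ValuationSubring.mem_top _
  obtain ⟨a, b, hb, hab⟩ := h1
  have h2 : algebraMap R F b = algebraMap R F (p * a) := by
    rw [map_mul, ← hab, ← mul_assoc, mul_inv_cancel₀ hP, one_mul]
  exact hb ⟨a, hinj h2⟩

end V

section place

variable {K F : Type*} [Field K] [Field F] [Algebra K F] {R : Type*} [CommRing R] [IsDomain R]
  [Algebra R F] [IsFractionRing R F] [WfDvdMonoid R] (p : R) (hp : Prime p)

/-- The place of `F / K` defined by the prime element `p` of `R`, if `K ⊆ R_(p)`. -/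
def s18loc_place (hK : ∀ c : K, algebraMap K F c ∈ s18loc_V (F := F) p hp) : Place K F where
  toValuationSubring := s18loc_V (F := F) p hp
  algebraMap_mem' := hK
  ne_top' := s18loc_V_ne_top p hp
  isPrincipalIdealRing' :=
    haveI := s18loc_isDVR (F := F) p hp
    inferInstance

/-- The order of `p ^ n * a / b` at the place of `p` is `n` (`p ∤ a`, `p ∤ b`). -/
theorem s18loc_ord (hK : ∀ c : K, algebraMap K F c ∈ s18loc_V (F := F) p hp) (n : ℕ)
    {a b : R} (ha : ¬ p ∣ a) (hb : ¬ p ∣ b) :
    (s18loc_place p hp hK).ord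
      (algebraMap R F (p ^ n * a) * (algebraMap R F b)⁻¹) = n := by
  have h := (s18loc_place p hp hK).ord_unit_smul_zpow (s18loc_unit (F := F) p hp ha hb)
    (π := s18loc_q (F := F) p hp) (s18loc_q_irreducible p hp) (n : ℤ)
  rw [← h]
  congr 1
  show algebraMap R F (p ^ n * a) * (algebraMap R F b)⁻¹ =
    algebraMap R F a * (algebraMap R F b)⁻¹ * (algebraMap R F p) ^ (n : ℤ)
  rw [map_mul, map_pow, zpow_natCast]
  ring

end place

end

end Fermat.Agent.S18
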