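/-
# S18 / [LOC], part 3: the local ring at a closed point of the special fibre.
Owner: helper29, prefix `s18loc_`.  Mathlib + `LocAlg` only.

`B` a noetherian domain, `ϖ ∈ B` with `B / ϖ` a Dedekind domain, `𝔫` a prime ideal of `B` with
`ϖ ∈ 𝔫`, `R = B_𝔫`.  Then `R / ϖ` is a principal ideal domain (a localisation of `B / ϖ`), `ϖ` is
a prime element of `R`, and `R` is a unique factorisation domain (`s18loc_ufd_loc`).
-/
import Mathlib
import Fermat.Agent.S18.LocAlg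

set_option autoImplicit false

namespace Fermat.Agent.S18

noncomputable section

section local_ring

variable {B : Type*} [CommRing B] [IsDomain B] [IsNoetherianRing B] (ϖ : B)
  [hdom : IsDomain (B ⧸ Ideal.span {ϖ})] [hic : IsIntegrallyClosed (B ⧸ Ideal.span {ϖ})]
  [hdim : Ring.DimensionLEOne (B ⧸ Ideal.span {ϖ})]
  (𝔫 : Ideal B) [h𝔫 : 𝔫.IsPrime]
  (R : Type*) [CommRing R] [Algebra B R] [hloc : IsLocalization.AtPrime R 𝔫]

omit [IsDomain B] [IsNoetherianRing B] hic hdim in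
/-- The image of the complement of `𝔫` in `B / ϖ` consists of non-zero-divisors. -/
theorem s18loc_submonoid_le (hϖ𝔫 : ϖ ∈ 𝔫) :
    Algebra.algebraMapSubmonoid (B ⧸ Ideal.span {ϖ}) 𝔫.primeCompl ≤
      nonZeroDivisors (B ⧸ Ideal.span {ϖ}) := by
  rintro _ ⟨s, hs, rfl⟩
  rw [mem_nonZeroDivisors_iff_ne_zero]
  intro h0
  have h1 : s ∈ Ideal.span {ϖ} := Ideal.Quotient.eq_zero_iff_mem.1 h0
  exact hs ((Ideal.span_singleton_le_iff_mem _).2 hϖ𝔫 h1)

omit [IsDomain B] [IsNoetherianRing B] hic hdim in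
/-- `R / ϖ` is a domain. -/
theorem s18loc_quot_isDomain (hϖ𝔫 : ϖ ∈ 𝔫) :
    IsDomain (R ⧸ (Ideal.span {ϖ}).map (algebraMap B R)) :=
  IsLocalization.isDomain_of_le_nonZeroDivisors
    (M := Algebra.algebraMapSubmonoid (B ⧸ Ideal.span {ϖ}) 𝔫.primeCompl) _
    (s18loc_submonoid_le ϖ 𝔫 hϖ𝔫)

omit [IsDomain B] in
/-- `R / ϖ` is a principal ideal ring. -/
theorem s18loc_quot_pid (hϖ𝔫 : ϖ ∈ 𝔫) :
    IsPrincipalIdealRing (R ⧸ (Ideal.span {ϖ}).map (algebraMap B R)) := by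
  have := s18loc_quot_isDomain ϖ 𝔫 R hϖ𝔫
  have : IsNoetherianRing (B ⧸ Ideal.span {ϖ}) := inferInstance
  have : IsDedekindRing (B ⧸ Ideal.span {ϖ}) := { hic with }
  have : IsDedekindDomain (R ⧸ (Ideal.span {ϖ}).map (algebraMap B R)) :=
    IsLocalization.isDedekindDomain (B ⧸ Ideal.span {ϖ}) (s18loc_submonoid_le ϖ 𝔫 hϖ𝔫) _
  have : IsLocalRing R := IsLocalization.AtPrime.isLocalRing R 𝔫
  have : IsLocalRing (R ⧸ (Ideal.span {ϖ}).map (algebraMap B R)) :=
    IsLocalRing.of_surjective' (Ideal.Quotient.mk _) Ideal.Quotient.mk_surjective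
  refine IsPrincipalIdealRing.of_finite_maximals ?_
  refine (Set.finite_singleton (IsLocalRing.maximalIdeal _)).subset ?_
  intro I hI
  exact IsLocalRing.eq_maximalIdeal hI

omit [IsDomain B] [IsNoetherianRing B] hdom hic hdim h𝔫 hloc in
theorem s18loc_span_map :
    (Ideal.span {ϖ}).map (algebraMap B R) = Ideal.span {algebraMap B R ϖ} := by
  rw [Ideal.map_span, Set.image_singleton]

omit [IsNoetherianRing B] hdom hic hdim in
include hloc in
/-- `B → R` is injective. -/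
theorem s18loc_inj : Function.Injective (algebraMap B R) :=
  IsLocalization.injective R (Ideal.primeCompl_le_nonZeroDivisors 𝔫)

omit [IsNoetherianRing B] hic hdim in
/-- `ϖ` is a prime element of `R`. -/
theorem s18loc_prime_pi (hϖ0 : ϖ ≠ 0) (hϖ𝔫 : ϖ ∈ 𝔫) : Prime (algebraMap B R ϖ) := by
  have hd := s18loc_quot_isDomain ϖ 𝔫 R hϖ𝔫
  have hprime := (Ideal.Quotient.isDomain_iff_prime _).1 hd
  rw [s18loc_span_map] at hprime
  refine (Ideal.span_singleton_prime ?_).1 hprime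
  intro h0
  exact hϖ0 (s18loc_inj 𝔫 R (h0.trans (map_zero _).symm))

omit [IsDomain B] in
/-- Ideals of `R` containing `ϖ` are generated by `ϖ` and one more element. -/
theorem s18loc_hpid (hϖ𝔫 : ϖ ∈ 𝔫) (J : Ideal R) (hJ : algebraMap B R ϖ ∈ J) :
    ∃ y ∈ J, J = Ideal.span {y} ⊔ Ideal.span {algebraMap B R ϖ} := by
  have hpid := s18loc_quot_pid ϖ 𝔫 R hϖ𝔫
  set I₀ := (Ideal.span {ϖ}).map (algebraMap B R) with hI₀
  have hI₀' : I₀ = Ideal.span {algebraMap B R ϖ} := s18loc_span_map ϖ R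
  obtain ⟨y', hy'⟩ := (hpid.principal (J.map (Ideal.Quotient.mk I₀))).principal
  have hy'mem : y' ∈ J.map (Ideal.Quotient.mk I₀) := by
    rw [hy']
    exact Submodule.mem_span_singleton_self y'
  obtain ⟨y, hyJ, rfl⟩ :=
    (Ideal.mem_map_iff_of_surjective _ Ideal.Quotient.mk_surjective).1 hy'mem
  refine ⟨y, hyJ, le_antisymm ?_ ?_⟩
  · intro z hz
    have hz' : Ideal.Quotient.mk I₀ z ∈ J.map (Ideal.Quotient.mk I₀) :=
      Ideal.mem_map_of_mem _ hz
    rw [hy'] at hz'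
    obtain ⟨c', hc'⟩ := Submodule.mem_span_singleton.1 hz'
    obtain ⟨c, rfl⟩ := Ideal.Quotient.mk_surjective c'
    have h1 : z - c * y ∈ I₀ := by
      rw [← Ideal.Quotient.eq, ← hc', smul_eq_mul, map_mul]
    rw [hI₀'] at h1
    have h2 : z = c * y + (z - c * y) := by ring
    rw [h2]
    exact Ideal.add_mem _
      (Ideal.mem_sup_left (Ideal.mul_mem_left _ c (Ideal.mem_span_singleton_self y)))
      (Ideal.mem_sup_right h1)
  · exact sup_le ((Ideal.span_singleton_le_iff_mem _).2 hyJ)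
      ((Ideal.span_singleton_le_iff_mem _).2 hJ)

/-- `R = B_𝔫` is a unique factorisation domain. -/
theorem s18loc_ufd_loc (hϖ0 : ϖ ≠ 0) (hϖ𝔫 : ϖ ∈ 𝔫) :
    haveI : IsDomain R := IsLocalization.isDomain_of_atPrime R 𝔫
    UniqueFactorizationMonoid R := by
  have : IsDomain R := IsLocalization.isDomain_of_atPrime R 𝔫
  have : IsLocalRing R := IsLocalization.AtPrime.isLocalRing R 𝔫
  have : IsNoetherianRing R := IsLocalization.isNoetherianRing 𝔫.primeCompl R inferInstance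
  exact s18loc_ufd (algebraMap B R ϖ) (s18loc_prime_pi ϖ 𝔫 R hϖ0 hϖ𝔫)
    (s18loc_hpid ϖ 𝔫 R hϖ𝔫)

omit [IsDomain B] [IsNoetherianRing B] hic hdim in
/-- If `ϖ` divides the image of `b` in `R`, then `ϖ` divides `b` in `B`. -/
theorem s18loc_dvd_of_dvd (hϖ𝔫 : ϖ ∈ 𝔫) {b : B} (h : algebraMap B R ϖ ∣ algebraMap B R b) :
    b ∈ Ideal.span {ϖ} := by
  have hprime : (Ideal.span {ϖ}).IsPrime := (Ideal.Quotient.isDomain_iff_prime _).1 hdom
  have hdisj : Disjoint (𝔫.primeCompl : Set B) (Ideal.span {ϖ} : Set B) := by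
    rw [Set.disjoint_left]
    intro s hs hs'
    exact hs ((Ideal.span_singleton_le_iff_mem _).2 hϖ𝔫 hs')
  have h1 := IsLocalization.under_map_of_isPrime_disjoint 𝔫.primeCompl R hprime hdisj
  rw [← h1, Ideal.under, Ideal.mem_comap, s18loc_span_map]
  exact Ideal.mem_span_singleton.2 h

end local_ring

end

end Fermat.Agent.S18
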