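/-
# S18 / [LOC], part 4: the abstract theorem.  Owner: helper29, prefix `s18loc_`.

`B` a noetherian domain with field of fractions `F`, `ϖ ∈ B` non-zero with `B / ϖ` a Dedekind
domain, `𝔫 ∋ ϖ` a prime ideal, `K ⊆ F` a field all of whose elements are fractions with a
denominator dividing a power of `ϖ`.  If `u ∈ Fˣ` is a unit at the generic point of `V(ϖ)` and
`m ∣ ord_P u` for all places `P` of `F / K`, then `u = g ^ m · d / c` with `c, d ∈ B \ 𝔫`
(`s18loc_abs`).  The local ring `B_𝔫` is factorial (`LocRing`), its prime elements `p ∤ ϖ` define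
places of `F / K` (`LocPlace`), and `ϖ` does not occur in `u`.
-/
import Mathlib
import Fermat.Prelude.Def_AlgebraicCurve_DivisorClassGroup
import Fermat.Agent.S18.LocAlg
import Fermat.Agent.S18.LocPlace
import Fermat.Agent.S18.LocRing

set_option autoImplicit false

namespace Fermat.Agent.S18

open AlgebraicCurve UniqueFactorizationMonoid

noncomputable section

section core

variable {K F : Type*} [Field K] [Field F] [Algebra K F]
  {B : Type*} [CommRing B] [IsDomain B] [IsNoetherianRing B] [Algebra B F]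
  (ϖ : B)
  [hdom : IsDomain (B ⧸ Ideal.span {ϖ})] [hic : IsIntegrallyClosed (B ⧸ Ideal.span {ϖ})]
  [hdim : Ring.DimensionLEOne (B ⧸ Ideal.span {ϖ})]
  (𝔫 : Ideal B) [h𝔫 : 𝔫.IsPrime]
  (R : Type*) [CommRing R] [IsDomain R] [Algebra B R] [hloc : IsLocalization.AtPrime R 𝔫]
  [Algebra R F] [IsScalarTower B R F] [IsFractionRing R F]

include hloc in
/-- The abstract theorem, for a given model `R ⊆ F` of the local ring `B_𝔫`. -/
theorem s18loc_core (hϖ0 : ϖ ≠ 0) (hϖ𝔫 : ϖ ∈ 𝔫)
    (hK : ∀ c : K, ∃ x y : B, ∃ k : ℕ, y ∣ ϖ ^ k ∧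
      algebraMap K F c * algebraMap B F y = algebraMap B F x)
    (m : ℕ) (u : F) (hu : u ≠ 0)
    (hred : ∃ x y : B, x ∉ Ideal.span {ϖ} ∧ y ∉ Ideal.span {ϖ} ∧
      u * algebraMap B F y = algebraMap B F x)
    (hord : ∀ P : Place K F, (m : ℤ) ∣ P.ord u) :
    ∃ g : F, g ≠ 0 ∧ ∃ c d : B, c ∉ 𝔫 ∧ d ∉ 𝔫 ∧
      g ^ m * algebraMap B F c = u * algebraMap B F d := by
  classical
  have hufd : UniqueFactorizationMonoid R := s18loc_ufd_loc ϖ 𝔫 R hϖ0 hϖ𝔫
  let _ : NormalizationMonoid R :=
    (UniqueFactorizationMonoid.strongNormalizationMonoid (α := R)).toNormalizationMonoid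
  have hinjR : Function.Injective (algebraMap R F) := IsFractionRing.injective R F
  have hπp : Prime (algebraMap B R ϖ) := s18loc_prime_pi ϖ 𝔫 R hϖ0 hϖ𝔫
  obtain ⟨a, b, hb, hab⟩ := IsFractionRing.div_surjective (A := R) u
  have hb0 : b ≠ 0 := nonZeroDivisors.ne_zero hb
  have hb0' : algebraMap R F b ≠ 0 := fun h => hb0 (hinjR (h.trans (map_zero _).symm))
  have ha0 : a ≠ 0 := by
    rintro rfl
    rw [map_zero, zero_div] at hab
    exact hu hab.symm
  have ha0' : algebraMap R F a ≠ 0 := fun h => ha0 (hinjR (h.trans (map_zero _).symm))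
  -- the count condition
  have hcount : ∀ p : R, p ∈ normalizedFactors a ∨ p ∈ normalizedFactors b →
      (m : ℤ) ∣ ((normalizedFactors a).count p : ℤ) - ((normalizedFactors b).count p : ℤ) := by
    intro p hp
    have hpp : Prime p := by
      rcases hp with hp | hp
      · exact prime_of_normalized_factor p hp
      · exact prime_of_normalized_factor p hp
    have hpn : normalize p = p := by
      rcases hp with hp | hp
      · exact normalize_normalized_factor p hp
      · exact normalize_normalized_factor p hp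
    by_cases hpπ : p ∣ algebraMap B R ϖ
    · -- the vertical prime: `u` is a unit there
      obtain ⟨x, y, hx, hy, hxy⟩ := hred
      have hassocπ : Associated p (algebraMap B R ϖ) := by
        obtain ⟨c, hc⟩ := hpπ
        rcases hπp.irreducible.isUnit_or_isUnit hc with h | h
        · exact absurd h hpp.not_isUnit
        · exact ⟨h.unit, by rw [hc, IsUnit.unit_spec]⟩
      have hnx : ¬ p ∣ algebraMap B R x := fun h =>
        hx (s18loc_dvd_of_dvd ϖ 𝔫 R hϖ𝔫 (hassocπ.symm.dvd.trans h))
      have hny : ¬ p ∣ algebraMap B R y := fun h =>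
        hy (s18loc_dvd_of_dvd ϖ 𝔫 R hϖ𝔫 (hassocπ.symm.dvd.trans h))
      have hx0 : algebraMap B R x ≠ 0 := fun h => hnx (h ▸ dvd_zero p)
      have hy0 : algebraMap B R y ≠ 0 := fun h => hny (h ▸ dvd_zero p)
      have heq : a * algebraMap B R y = b * algebraMap B R x := by
        apply hinjR
        rw [map_mul, map_mul, ← IsScalarTower.algebraMap_apply, ← IsScalarTower.algebraMap_apply,
          ← hxy, ← hab]
        field_simp
      have h1 := congrArg (fun s => Multiset.count p s) (congrArg normalizedFactors heq)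
      simp only [normalizedFactors_mul ha0 hy0, normalizedFactors_mul hb0 hx0,
        Multiset.count_add] at h1
      have h2 : Multiset.count p (normalizedFactors (algebraMap B R y)) = 0 :=
        Multiset.count_eq_zero.2 (fun h => hny (dvd_of_mem_normalizedFactors h))
      have h3 : Multiset.count p (normalizedFactors (algebraMap B R x)) = 0 :=
        Multiset.count_eq_zero.2 (fun h => hnx (dvd_of_mem_normalizedFactors h))
      rw [h2, h3, add_zero, add_zero] at h1
      rw [h1, sub_self]
      exact dvd_zero _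
    · -- a horizontal prime: a place of `F / K`
      have hKV : ∀ c : K, algebraMap K F c ∈ s18loc_V (F := F) p hpp := by
        intro c
        obtain ⟨x, y, k, hyk, hxy⟩ := hK c
        refine (s18loc_mem_V p hpp).2 ⟨algebraMap B R x, algebraMap B R y, fun h => hpπ ?_, ?_⟩
        · have h1 : p ∣ algebraMap B R ϖ ^ k := by
            have h2 := h.trans (map_dvd (algebraMap B R) hyk)
            rwa [map_pow] at h2
          exact hpp.dvd_of_dvd_pow h1
        · rw [← IsScalarTower.algebraMap_apply, ← IsScalarTower.algebraMap_apply]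
          exact hxy
      obtain ⟨i, a₁, ha₁, rfl⟩ := WfDvdMonoid.max_power_factor ha0 hpp.irreducible
      obtain ⟨j, b₁, hb₁, rfl⟩ := WfDvdMonoid.max_power_factor hb0 hpp.irreducible
      have hone : ¬ p ∣ (1 : R) := fun h => hpp.not_isUnit (isUnit_of_dvd_one h)
      have hpow : ∀ (n : ℕ) (c : R), ¬ p ∣ c → ¬ p ^ (n + 1) ∣ p ^ n * c := by
        intro n c hc h
        rw [pow_succ] at h
        exact hc ((mul_dvd_mul_iff_left (pow_ne_zero n hpp.ne_zero)).1 h)
      have hca : Multiset.count p (normalizedFactors (p ^ i * a₁)) = i :=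
        count_normalizedFactors_eq hpp.irreducible hpn (dvd_mul_right _ _) (hpow i a₁ ha₁)
      have hcb : Multiset.count p (normalizedFactors (p ^ j * b₁)) = j :=
        count_normalizedFactors_eq hpp.irreducible hpn (dvd_mul_right _ _) (hpow j b₁ hb₁)
      have hordu : (s18loc_place p hpp hKV).ord u = (i : ℤ) - j := by
        have e1 := s18loc_ord p hpp hKV i ha₁ hone
        have e2 := s18loc_ord p hpp hKV j hb₁ hone
        rw [map_one, inv_one, mul_one] at e1 e2
        rw [← hab, div_eq_mul_inv, Place.ord_mul _ ha0' (inv_ne_zero hb0'), Place.ord_inv, e1, e2]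
        ring
      have h1 := hord (s18loc_place p hpp hKV)
      rw [hordu] at h1
      rw [hca, hcb]
      exact h1
  obtain ⟨a', b', ha', hb', ε, hε⟩ := s18loc_pow_of_count m a b ha0 hb0 hcount
  obtain ⟨⟨d, s⟩, hds⟩ := IsLocalization.surj 𝔫.primeCompl (ε : R)
  have hd : d ∉ 𝔫 := by
    have hunit : IsUnit (algebraMap B R d) := by
      rw [← hds]
      exact ε.isUnit.mul (IsLocalization.map_units R s)
    exact (IsLocalization.AtPrime.isUnit_to_map_iff R 𝔫 d).1 hunit
  have ha0'' : algebraMap R F a' ≠ 0 := fun h => ha' (hinjR (h.trans (map_zero _).symm))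
  have hb0'' : algebraMap R F b' ≠ 0 := fun h => hb' (hinjR (h.trans (map_zero _).symm))
  refine ⟨algebraMap R F a' / algebraMap R F b', div_ne_zero ha0'' hb0'', (s : B), d, s.2, hd, ?_⟩
  have e1 := congrArg (algebraMap R F) hε
  have e2 := congrArg (algebraMap R F) hds
  simp only [map_mul, map_pow, ← IsScalarTower.algebraMap_apply] at e1 e2
  rw [← hab, div_pow]
  field_simp
  linear_combination (-(algebraMap B F s)) * e1 + algebraMap R F a * algebraMap R F b' ^ m * e2

end core

section abs

variable {K F : Type*} [Field K] [Field F] [Algebra K F]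
  {B : Type*} [CommRing B] [IsDomain B] [IsNoetherianRing B] [Algebra B F] [IsFractionRing B F]
  (ϖ : B)
  [hdom : IsDomain (B ⧸ Ideal.span {ϖ})] [hic : IsIntegrallyClosed (B ⧸ Ideal.span {ϖ})]
  [hdim : Ring.DimensionLEOne (B ⧸ Ideal.span {ϖ})]
  (𝔫 : Ideal B) [h𝔫 : 𝔫.IsPrime]

/-- **The abstract theorem.** -/
theorem s18loc_abs (hϖ0 : ϖ ≠ 0) (hϖ𝔫 : ϖ ∈ 𝔫)
    (hK : ∀ c : K, ∃ x y : B, ∃ k : ℕ, y ∣ ϖ ^ k ∧
      algebraMap K F c * algebraMap B F y = algebraMap B F x)
    (m : ℕ) (u : F) (hu : u ≠ 0)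
    (hred : ∃ x y : B, x ∉ Ideal.span {ϖ} ∧ y ∉ Ideal.span {ϖ} ∧
      u * algebraMap B F y = algebraMap B F x)
    (hord : ∀ P : Place K F, (m : ℤ) ∣ P.ord u) :
    ∃ g : F, g ≠ 0 ∧ ∃ c d : B, c ∉ 𝔫 ∧ d ∉ 𝔫 ∧
      g ^ m * algebraMap B F c = u * algebraMap B F d := by
  have hS := Ideal.primeCompl_le_nonZeroDivisors 𝔫
  have : IsLocalization.AtPrime (Localization.subalgebra F 𝔫.primeCompl hS) 𝔫 :=
    Localization.subalgebra.isLocalization_subalgebra F 𝔫.primeCompl hS
  exact s18loc_core ϖ 𝔫 (Localization.subalgebra F 𝔫.primeCompl hS) hϖ0 hϖ𝔫 hK m u hu hred hord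

end abs

end

end Fermat.Agent.S18
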