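/-
# S18 / [LOC]: local generators.  Owner: helper29, prefix `s18loc_`.

    theorem s18loc_main : s18_LocStatement

At a closed point `𝔫 ∋ π` of the chart `B = s18_chart O {j}` the local ring `B_𝔫` is a noetherian
local domain in which `π` is prime with `B_𝔫 / π` a discrete valuation ring or a field (a local
ring of the normal curve `B / π`), hence factorial (`LocAlg`, `LocRing`).  Its prime elements
`p ∤ π` define places of `F / K` (`LocPlace`), where `m ∣ ord u`; and `π` does not occur in `u`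
(`u ≡ 1` modulo the special fibre).  So `u = g ^ m · (unit of B_𝔫)` (`LocMain`).  The special
fibre has dimension `≤ 1` because it is integral over `κ[j]` (`LocDim`).
-/
import Mathlib
import Fermat.Agent.S18.LiftDefs
import Fermat.Agent.S18.LocMain
import Fermat.Agent.S18.LocDim

set_option autoImplicit false

namespace Fermat.Agent.S18

open AlgebraicCurve

noncomputable section

/-- **[LOC]** local generators exist. -/
theorem s18loc_main : s18_LocStatement := by
  intro O K F _ _ _ _ _ _ _ _ _ _ _ j hgood hb m u hu hred hord 𝔫 h𝔫 hle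
  have hnoeth : IsNoetherianRing ↥(s18_chart O ({j} : Set F)) := hb.noeth
  obtain ⟨ϖ, hϖ⟩ := IsDiscreteValuationRing.exists_irreducible O
  have hinjOF : Function.Injective (algebraMap O F) := by
    rw [IsScalarTower.algebraMap_eq O K F]
    exact (algebraMap K F).injective.comp (IsFractionRing.injective O K)
  have hI : s18_fibreIdeal O ({j} : Set F) =
      Ideal.span {algebraMap O ↥(s18_chart O ({j} : Set F)) ϖ} := by
    rw [s18_fibreIdeal, hϖ.maximalIdeal_eq, Ideal.map_span, Set.image_singleton]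
  have hdom : IsDomain (↥(s18_chart O ({j} : Set F)) ⧸
      Ideal.span {algebraMap O ↥(s18_chart O ({j} : Set F)) ϖ}) := by
    have h : IsDomain (↥(s18_chart O ({j} : Set F)) ⧸ s18_fibreIdeal O ({j} : Set F)) :=
      hgood.isDomain_fin
    rwa [hI] at h
  have hic : IsIntegrallyClosed (↥(s18_chart O ({j} : Set F)) ⧸
      Ideal.span {algebraMap O ↥(s18_chart O ({j} : Set F)) ϖ}) := by
    have h : IsIntegrallyClosed
        (↥(s18_chart O ({j} : Set F)) ⧸ s18_fibreIdeal O ({j} : Set F)) :=
      hgood.isIntegrallyClosed_fin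
    rwa [hI] at h
  have hdim : Ring.DimensionLEOne (↥(s18_chart O ({j} : Set F)) ⧸
      Ideal.span {algebraMap O ↥(s18_chart O ({j} : Set F)) ϖ}) := by
    have h : Ring.DimensionLEOne
        (↥(s18_chart O ({j} : Set F)) ⧸ s18_fibreIdeal O ({j} : Set F)) :=
      haveI := hgood.isDomain_fin
      s18loc_dim O j
    rwa [hI] at h
  have hfrac : IsFractionRing ↥(s18_chart O ({j} : Set F)) F := by
    refine IsFractionRing.of_field _ F (fun z => ?_)
    obtain ⟨x, y, hy, hxy⟩ := hb.frac z
    refine ⟨x, y, ?_⟩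
    have hy' : (y : F) ≠ 0 := fun h => hy (Subtype.ext h)
    exact (eq_div_iff hy').2 hxy
  have hϖ0 : algebraMap O ↥(s18_chart O ({j} : Set F)) ϖ ≠ 0 := by
    intro h
    have h1 : algebraMap O F ϖ = 0 := congrArg Subtype.val h
    exact hϖ.ne_zero (hinjOF (h1.trans (map_zero _).symm))
  have hϖ𝔫 : algebraMap O ↥(s18_chart O ({j} : Set F)) ϖ ∈ 𝔫 := by
    apply hle
    rw [hI]
    exact Ideal.mem_span_singleton_self _
  have hK : ∀ c : K, ∃ x y : ↥(s18_chart O ({j} : Set F)), ∃ k : ℕ,
      y ∣ algebraMap O ↥(s18_chart O ({j} : Set F)) ϖ ^ k ∧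
      algebraMap K F c * algebraMap ↥(s18_chart O ({j} : Set F)) F y =
        algebraMap ↥(s18_chart O ({j} : Set F)) F x := by
    intro c
    obtain ⟨a, b, hb', hab⟩ := IsFractionRing.div_surjective (A := O) c
    have hb0 : b ≠ 0 := nonZeroDivisors.ne_zero hb'
    have hb0' : algebraMap O K b ≠ 0 := fun h =>
      hb0 (IsFractionRing.injective O K (h.trans (map_zero _).symm))
    obtain ⟨k, ε, hε⟩ := IsDiscreteValuationRing.eq_unit_mul_pow_irreducible hb0 hϖ
    refine ⟨algebraMap O _ a, algebraMap O _ b, k, ?_, ?_⟩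
    · have h1 : b ∣ ϖ ^ k := ⟨((ε⁻¹ : Oˣ) : O), by
        rw [hε, mul_comm (ε : O), mul_assoc, Units.mul_inv, mul_one]⟩
      have h2 := map_dvd (algebraMap O ↥(s18_chart O ({j} : Set F))) h1
      rwa [map_pow] at h2
    · show algebraMap K F c * algebraMap O F b = algebraMap O F a
      rw [IsScalarTower.algebraMap_apply O K F, IsScalarTower.algebraMap_apply O K F, ← map_mul,
        ← hab, div_mul_cancel₀ _ hb0']
  have hred' : ∃ x y : ↥(s18_chart O ({j} : Set F)),
      x ∉ Ideal.span {algebraMap O ↥(s18_chart O ({j} : Set F)) ϖ} ∧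
      y ∉ Ideal.span {algebraMap O ↥(s18_chart O ({j} : Set F)) ϖ} ∧
      u * algebraMap ↥(s18_chart O ({j} : Set F)) F y =
        algebraMap ↥(s18_chart O ({j} : Set F)) F x := by
    obtain ⟨x, y, hy, hxy, huy⟩ := hred
    rw [hI] at hy hxy
    refine ⟨x, y, fun hx => hy ?_, hy, huy⟩
    have h1 := Ideal.sub_mem _ hx hxy
    rwa [sub_sub_cancel] at h1
  have h𝔫p : 𝔫.IsPrime := h𝔫.isPrime
  obtain ⟨g, hg, c, d, hc, hd, h⟩ :=
    s18loc_abs (K := K) (algebraMap O ↥(s18_chart O ({j} : Set F)) ϖ) 𝔫 hϖ0 hϖ𝔫 hK m u hu hred'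
      hord
  exact ⟨g, hg, c, d, hc, hd, h⟩

end

end Fermat.Agent.S18
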