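/-
# S18 : line tools (helper1), shared by [NORM-FIN-OF] and [INF-ASM]

`R` a domain, `F` a field, `t ∈ F` with `aeval t : R[X] → F` injective (`t` transcendental over
`Frac R`), `Q ∈ R[X]`, `Q ≠ 0`, and
  `A = s18ln_A R t Q := Algebra.adjoin R {t, (aeval t Q)⁻¹} ⊆ F`   (the `t`-line minus `Q = 0`).
Then `A` is the localisation of `R[X]` at the powers of `Q` (`s18ln_isLocalization`, for the
`R[X]`-algebra structure `s18ln_algebra`, USE IT WITH `letI`), hence noetherian / integrally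
closed / a Dedekind domain when `R[X]` is.  For a prime element `ϖ` of `R` not dividing `Q` the
image of `ϖ` is a prime element of `A`, and `A / ϖ` is a principal ideal ring when `R / ϖ` is a
field.
-/
import Mathlib

set_option autoImplicit false
set_option linter.style.haveILetI false
set_option linter.unusedSectionVars false

namespace Fermat.Agent.S18

open Polynomial

noncomputable section

section Line

variable (R : Type*) [CommRing R] {F : Type*} [Field F] [Algebra R F] (t : F) (Q : R[X])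

/-- `A = R[t, 1/Q(t)] ⊆ F`. -/
def s18ln_A : Subalgebra R F := Algebra.adjoin R ({t, (aeval t Q)⁻¹} : Set F)

theorem s18ln_t_mem : t ∈ s18ln_A R t Q :=
  Algebra.subset_adjoin (Set.mem_insert _ _)

theorem s18ln_inv_mem : (aeval t Q)⁻¹ ∈ s18ln_A R t Q :=
  Algebra.subset_adjoin (Set.mem_insert_of_mem _ rfl)

/-- `t` as an element of `A`. -/
def s18ln_t : ↥(s18ln_A R t Q) := ⟨t, s18ln_t_mem R t Q⟩

/-- `1 / Q(t)` as an element of `A`. -/
def s18ln_inv : ↥(s18ln_A R t Q) := ⟨(aeval t Q)⁻¹, s18ln_inv_mem R t Q⟩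

/-- The evaluation `R[X] → A`, `X ↦ t`. -/
def s18ln_hom : R[X] →ₐ[R] ↥(s18ln_A R t Q) := aeval (s18ln_t R t Q)

theorem s18ln_hom_coe (g : R[X]) : ((s18ln_hom R t Q g : ↥(s18ln_A R t Q)) : F) = aeval t g := by
  unfold s18ln_hom
  exact Polynomial.aeval_subalgebra_coe g (s18ln_A R t Q) (s18ln_t R t Q)

theorem s18ln_aeval_mem (g : R[X]) : aeval t g ∈ s18ln_A R t Q := by
  rw [← s18ln_hom_coe R t Q g]
  exact (s18ln_hom R t Q g).2

/-- The `R[X]`-algebra structure of `A`.  USE IT WITH `letI`. -/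
@[reducible] def s18ln_algebra : Algebra R[X] ↥(s18ln_A R t Q) := (s18ln_hom R t Q).toRingHom.toAlgebra

theorem s18ln_algebraMap_coe (g : R[X]) :
    letI := s18ln_algebra R t Q
    ((algebraMap R[X] ↥(s18ln_A R t Q) g : ↥(s18ln_A R t Q)) : F) = aeval t g :=
  s18ln_hom_coe R t Q g

theorem s18ln_isScalarTower :
    letI := s18ln_algebra R t Q
    IsScalarTower R R[X] ↥(s18ln_A R t Q) :=
  letI := s18ln_algebra R t Q
  IsScalarTower.of_algebraMap_eq (fun r => by
    apply Subtype.ext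
    rw [s18ln_algebraMap_coe, ← Polynomial.C_eq_algebraMap, aeval_C]
    rfl)

variable {R t Q}

/-- `Q(t) * (1 / Q(t)) = 1` in `A`. -/
theorem s18ln_mul_inv (hQ : aeval t Q ≠ 0) :
    s18ln_hom R t Q Q * s18ln_inv R t Q = 1 := by
  apply Subtype.ext
  show ((s18ln_hom R t Q Q : ↥(s18ln_A R t Q)) : F) * (aeval t Q)⁻¹ = 1
  rw [s18ln_hom_coe, mul_inv_cancel₀ hQ]

/-- Every element of `A` is `g(t) / Q(t)^n`. -/
theorem s18ln_surj (hQ : aeval t Q ≠ 0) (z : F) (hz : z ∈ s18ln_A R t Q) :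
    ∃ (g : R[X]) (n : ℕ), z * (aeval t Q) ^ n = aeval t g := by
  unfold s18ln_A at hz
  induction hz using Algebra.adjoin_induction with
  | mem x hx =>
    rcases hx with rfl | hx
    · exact ⟨X, 0, by simp⟩
    · rw [Set.mem_singleton_iff] at hx
      subst hx
      exact ⟨1, 1, by rw [pow_one, inv_mul_cancel₀ hQ, map_one]⟩
  | algebraMap r => exact ⟨C r, 0, by simp⟩
  | add x y _ _ hx hy =>
    obtain ⟨g, n, hg⟩ := hx
    obtain ⟨h, m, hh⟩ := hy
    refine ⟨g * Q ^ m + h * Q ^ n, n + m, ?_⟩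
    rw [map_add, map_mul, map_mul, map_pow, map_pow, ← hg, ← hh, pow_add]
    ring
  | mul x y _ _ hx hy =>
    obtain ⟨g, n, hg⟩ := hx
    obtain ⟨h, m, hh⟩ := hy
    refine ⟨g * h, n + m, ?_⟩
    rw [map_mul, ← hg, ← hh, pow_add]
    ring

/-- **`A` is the localisation of `R[X]` at the powers of `Q`.** -/
theorem s18ln_isLocalization (hinj : Function.Injective (aeval t : R[X] →ₐ[R] F))
    (hQ0 : Q ≠ 0) :
    letI := s18ln_algebra R t Q
    IsLocalization.Away Q ↥(s18ln_A R t Q) := by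
  letI := s18ln_algebra R t Q
  have hQ : aeval t Q ≠ 0 := by
    intro h
    apply hQ0
    apply hinj
    rw [h, map_zero]
  rw [IsLocalization.Away, isLocalization_iff]
  refine ⟨?_, ?_, ?_⟩
  · rintro ⟨y, n, rfl⟩
    rw [map_pow]
    refine IsUnit.pow n ?_
    exact IsUnit.of_mul_eq_one _ (s18ln_mul_inv hQ)
  · intro z
    obtain ⟨g, n, hg⟩ := s18ln_surj hQ (z : F) z.2
    refine ⟨(g, ⟨Q ^ n, n, rfl⟩), ?_⟩
    apply Subtype.ext
    show (z : F) * ((algebraMap R[X] ↥(s18ln_A R t Q) (Q ^ n) : ↥(s18ln_A R t Q)) : F) =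
      ((algebraMap R[X] ↥(s18ln_A R t Q) g : ↥(s18ln_A R t Q)) : F)
    rw [s18ln_algebraMap_coe, s18ln_algebraMap_coe, map_pow, hg]
  · intro x y hxy
    refine ⟨1, ?_⟩
    have h1 := congrArg (Subtype.val) hxy
    rw [s18ln_algebraMap_coe, s18ln_algebraMap_coe] at h1
    rw [hinj h1]

end Line

section Consequences

variable {R : Type*} [CommRing R] [IsDomain R] {F : Type*} [Field F] [Algebra R F] {t : F}
  {Q : R[X]}

theorem s18ln_isNoetherianRing [IsNoetherianRing R]
    (hinj : Function.Injective (aeval t : R[X] →ₐ[R] F)) (hQ0 : Q ≠ 0) :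
    IsNoetherianRing ↥(s18ln_A R t Q) := by
  letI := s18ln_algebra R t Q
  haveI : IsLocalization (Submonoid.powers Q) ↥(s18ln_A R t Q) := s18ln_isLocalization hinj hQ0
  exact IsLocalization.isNoetherianRing (Submonoid.powers Q) _ inferInstance

theorem s18ln_isIntegrallyClosed [IsIntegrallyClosed R[X]]
    (hinj : Function.Injective (aeval t : R[X] →ₐ[R] F)) (hQ0 : Q ≠ 0) :
    IsIntegrallyClosed ↥(s18ln_A R t Q) := by
  letI := s18ln_algebra R t Q
  haveI : IsLocalization (Submonoid.powers Q) ↥(s18ln_A R t Q) := s18ln_isLocalization hinj hQ0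
  exact isIntegrallyClosed_of_isLocalization _ (Submonoid.powers Q)
    (powers_le_nonZeroDivisors_of_noZeroDivisors hQ0)

theorem s18ln_isDedekindDomain [IsDedekindDomain R[X]]
    (hinj : Function.Injective (aeval t : R[X] →ₐ[R] F)) (hQ0 : Q ≠ 0) :
    IsDedekindDomain ↥(s18ln_A R t Q) := by
  letI := s18ln_algebra R t Q
  haveI : IsLocalization (Submonoid.powers Q) ↥(s18ln_A R t Q) := s18ln_isLocalization hinj hQ0
  exact IsLocalization.isDedekindDomain R[X]
    (powers_le_nonZeroDivisors_of_noZeroDivisors hQ0) _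

/-- The image in `A` of a prime element `ϖ` of `R` with `ϖ ∤ Q` is a prime element. -/
theorem s18ln_prime (hinj : Function.Injective (aeval t : R[X] →ₐ[R] F)) (hQ0 : Q ≠ 0)
    {ϖ : R} (hϖ : Prime ϖ) (hQϖ : ¬ C ϖ ∣ Q) :
    Prime (algebraMap R ↥(s18ln_A R t Q) ϖ) := by
  letI := s18ln_algebra R t Q
  haveI := s18ln_isScalarTower R t Q
  haveI : IsLocalization (Submonoid.powers Q) ↥(s18ln_A R t Q) := s18ln_isLocalization hinj hQ0
  have hC : Prime (C ϖ) := Polynomial.prime_C_iff.2 hϖ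
  have hI : (Ideal.span ({C ϖ} : Set R[X])).IsPrime :=
    (Ideal.span_singleton_prime hC.ne_zero).2 hC
  have hd : Disjoint ((Submonoid.powers Q : Submonoid R[X]) : Set R[X])
      ((Ideal.span ({C ϖ} : Set R[X]) : Ideal R[X]) : Set R[X]) := by
    rw [Set.disjoint_left]
    rintro x ⟨n, rfl⟩ hx
    rw [SetLike.mem_coe, Ideal.mem_span_singleton] at hx
    exact hQϖ (hC.dvd_of_dvd_pow hx)
  have h1 := IsLocalization.isPrime_of_isPrime_disjoint (Submonoid.powers Q)
    ↥(s18ln_A R t Q) _ hI hd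
  rw [Ideal.map_span, Set.image_singleton] at h1
  have h2 : algebraMap R[X] ↥(s18ln_A R t Q) (C ϖ) = algebraMap R ↥(s18ln_A R t Q) ϖ := by
    rw [Polynomial.C_eq_algebraMap, ← IsScalarTower.algebraMap_apply]
  rw [h2] at h1
  have hne : algebraMap R ↥(s18ln_A R t Q) ϖ ≠ 0 := by
    intro h
    have h3 := congrArg Subtype.val h
    have h4 : aeval t (C ϖ) = 0 := by
      rw [aeval_C]
      exact h3
    have h5 := hinj (h4.trans (map_zero _).symm)
    exact hC.ne_zero h5
  exact (Ideal.span_singleton_prime hne).1 h1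

/-- A localisation of a principal ideal ring is a principal ideal ring. -/
theorem s18ln_pir_of_isLocalization {R' : Type*} [CommRing R'] [IsPrincipalIdealRing R']
    (M : Submonoid R') (S : Type*) [CommRing S] [Algebra R' S] [IsLocalization M S] :
    IsPrincipalIdealRing S := by
  refine ⟨fun J => ⟨⟨algebraMap R' S (Submodule.IsPrincipal.generator (Ideal.under R' J)), ?_⟩⟩⟩
  have h1 := IsLocalization.map_under M S J
  have h2 : Ideal.under R' J =
      Ideal.span {Submodule.IsPrincipal.generator (Ideal.under R' J)} :=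
    (Ideal.span_singleton_generator _).symm
  rw [h2, Ideal.map_span, Set.image_singleton] at h1
  exact h1.symm

/-- `A / ϖ` is a principal ideal ring when `R / ϖ` is a field. -/
theorem s18ln_quot_pir (hQ : aeval t Q ≠ 0) {ϖ : R}
    (hmax : (Ideal.span ({ϖ} : Set R)).IsMaximal) :
    IsPrincipalIdealRing (↥(s18ln_A R t Q) ⧸
      Ideal.span ({algebraMap R ↥(s18ln_A R t Q) ϖ} : Set ↥(s18ln_A R t Q))) := by
  classical
  letI : Field (R ⧸ Ideal.span ({ϖ} : Set R)) := Ideal.Quotient.field _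
  set I := Ideal.span ({algebraMap R ↥(s18ln_A R t Q) ϖ} : Set ↥(s18ln_A R t Q)) with hI
  -- the constants
  let f : (R ⧸ Ideal.span ({ϖ} : Set R)) →+* (↥(s18ln_A R t Q) ⧸ I) :=
    Ideal.Quotient.lift (Ideal.span ({ϖ} : Set R))
      ((Ideal.Quotient.mk I).comp (algebraMap R ↥(s18ln_A R t Q))) (by
        intro a ha
        rw [Ideal.mem_span_singleton] at ha
        obtain ⟨b, rfl⟩ := ha
        rw [RingHom.comp_apply, map_mul, map_mul]
        have : Ideal.Quotient.mk I (algebraMap R ↥(s18ln_A R t Q) ϖ) = 0 :=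
          Ideal.Quotient.eq_zero_iff_mem.2 (Ideal.subset_span rfl)
        rw [this, zero_mul])
  let ψ₀ : (R ⧸ Ideal.span ({ϖ} : Set R))[X] →+* (↥(s18ln_A R t Q) ⧸ I) :=
    Polynomial.eval₂RingHom f (Ideal.Quotient.mk I (s18ln_t R t Q))
  have hψ₀ : ∀ g : R[X], ψ₀ (g.map (Ideal.Quotient.mk (Ideal.span ({ϖ} : Set R)))) =
      Ideal.Quotient.mk I (s18ln_hom R t Q g) := by
    intro g
    show Polynomial.eval₂ f _ (g.map _) = _
    rw [Polynomial.eval₂_map]
    have h1 : f.comp (Ideal.Quotient.mk (Ideal.span ({ϖ} : Set R))) =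
        (Ideal.Quotient.mk I).comp (algebraMap R ↥(s18ln_A R t Q)) := by
      ext a
      rfl
    rw [h1]
    unfold s18ln_hom
    rw [Polynomial.aeval_def, Polynomial.hom_eval₂]
  set Qb : (R ⧸ Ideal.span ({ϖ} : Set R))[X] :=
    Q.map (Ideal.Quotient.mk (Ideal.span ({ϖ} : Set R))) with hQb
  have hunit : IsUnit (ψ₀ Qb) := by
    rw [hQb, hψ₀]
    refine IsUnit.of_mul_eq_one (Ideal.Quotient.mk I (s18ln_inv R t Q)) ?_
    rw [← map_mul, s18ln_mul_inv hQ, map_one]
  let ψ : Localization.Away Qb →+* (↥(s18ln_A R t Q) ⧸ I) :=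
    IsLocalization.Away.lift Qb hunit
  have hψ : ∀ a, ψ (algebraMap _ _ a) = ψ₀ a := fun a => IsLocalization.Away.lift_eq Qb hunit a
  haveI : IsPrincipalIdealRing (Localization.Away Qb) :=
    s18ln_pir_of_isLocalization (Submonoid.powers Qb) _
  refine IsPrincipalIdealRing.of_surjective ψ ?_
  intro z
  obtain ⟨z₀, rfl⟩ := Ideal.Quotient.mk_surjective z
  obtain ⟨g, n, hg⟩ := s18ln_surj hQ (z₀ : F) z₀.2
  have hg' : z₀ * (s18ln_hom R t Q Q) ^ n = s18ln_hom R t Q g := by
    apply Subtype.ext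
    show (z₀ : F) * ((s18ln_hom R t Q Q ^ n : ↥(s18ln_A R t Q)) : F) = _
    rw [SubmonoidClass.coe_pow, s18ln_hom_coe, s18ln_hom_coe, hg]
  refine ⟨algebraMap _ _ (g.map (Ideal.Quotient.mk (Ideal.span ({ϖ} : Set R)))) *
    (IsLocalization.Away.invSelf Qb) ^ n, ?_⟩
  have hinv : ψ (IsLocalization.Away.invSelf Qb) * ψ₀ Qb = 1 := by
    rw [← hψ, ← map_mul, mul_comm, IsLocalization.Away.mul_invSelf, map_one]
  have hinv' : ψ (IsLocalization.Away.invSelf Qb) =
      Ideal.Quotient.mk I (s18ln_inv R t Q) := by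
    have h2 : ψ₀ Qb * Ideal.Quotient.mk I (s18ln_inv R t Q) = 1 := by
      rw [hQb, hψ₀, ← map_mul, s18ln_mul_inv hQ, map_one]
    calc ψ (IsLocalization.Away.invSelf Qb)
        = ψ (IsLocalization.Away.invSelf Qb) * (ψ₀ Qb * Ideal.Quotient.mk I (s18ln_inv R t Q)) := by
          rw [h2, mul_one]
      _ = (ψ (IsLocalization.Away.invSelf Qb) * ψ₀ Qb) * Ideal.Quotient.mk I (s18ln_inv R t Q) := by
          ring
      _ = _ := by rw [hinv, one_mul]
  rw [map_mul, map_pow, hψ, hψ₀, hinv', ← map_pow, ← map_mul, ← hg', mul_assoc, ← mul_pow,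
    s18ln_mul_inv hQ, one_pow, mul_one]

end Consequences

section DVR

variable (O : Type*) [CommRing O] [IsDomain O] [IsDiscreteValuationRing O] [CharZero O]

/-- In an algebra over a discrete valuation ring of characteristic `0` every positive integer
divides a power of the uniformizer. -/
theorem s18ln_nat_dvd (A : Type*) [CommRing A] [Algebra O A] {ϖ : O} (hϖ : Irreducible ϖ)
    (n : ℕ) (hn : 0 < n) : ∃ (k : ℕ) (c : A), (n : A) * c = (algebraMap O A ϖ) ^ k := by
  have hn0 : (n : O) ≠ 0 := by exact_mod_cast hn.ne'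
  obtain ⟨k, u, hu⟩ := IsDiscreteValuationRing.associated_pow_irreducible hn0 hϖ
  refine ⟨k, algebraMap O A (u : O), ?_⟩
  rw [← map_pow, ← hu, map_mul, map_natCast]

end DVR

end

end Fermat.Agent.S18

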