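/-
# S18, package (M8) [NORM-FIN-OF] (helper1), part 1: the chart

ABSTRACT SETTING: `O` a domain, `F` a field with `[Algebra O F]`, `j t : F`, `P Q a b : O[X]`,
`r : O` a unit, `P` monic, `deg Q < deg P`, `j · Q(t) = P(t)`, `a P + b Q = r`,
`A = s18ln_A O t Q = O[t, 1/Q(t)]`.  Then
* `t` and `1/Q(t)` are integral over `O[j]`, `j ∈ A`, so `O[j] ⊆ A ⊆ s18_chart O {j}`;
* `s18_chart O {j}` and `integralClosure A F` have the same elements (`s18nf_mem_chart_iff`), hence
  are isomorphic rings (`s18nf_chartEquiv`), and so are the special fibres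
  (`s18nf_fibreEquiv`).
-/
import Mathlib
import Fermat.Agent.S18.ModelAbsDefs
import Fermat.Agent.S18.LineTools

set_option autoImplicit false
set_option linter.style.haveILetI false
set_option linter.unusedSectionVars false

namespace Fermat.Agent.S18

open Polynomial

noncomputable section

/-! ### Integrality over subalgebras of a field -/

section Integral

variable {O : Type*} [CommRing O] {F : Type*} [Field F] [Algebra O F]

/-- Integrality over a smaller subalgebra implies integrality over a bigger one. -/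
theorem s18nf_isIntegral_mono {S T : Subalgebra O F} (h : S ≤ T) {x : F}
    (hx : IsIntegral ↥S x) : IsIntegral ↥T x := by
  obtain ⟨p, hp, hpx⟩ := hx
  refine ⟨p.map (Subalgebra.inclusion h).toRingHom, hp.map _, ?_⟩
  rw [Polynomial.eval₂_map]
  exact hpx

/-- Transitivity of integrality for subalgebras of a field. -/
theorem s18nf_isIntegral_trans {S T : Subalgebra O F} (h : S ≤ T)
    (hT : ∀ a : F, a ∈ T → IsIntegral ↥S a) {x : F} (hx : IsIntegral ↥T x) :
    IsIntegral ↥S x := by
  letI : Algebra ↥S ↥T := (Subalgebra.inclusion h).toRingHom.toAlgebra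
  haveI : IsScalarTower ↥S ↥T F := IsScalarTower.of_algebraMap_eq (fun _ => rfl)
  haveI : Algebra.IsIntegral ↥S ↥T := ⟨fun a => by
    have h1 := hT (a : F) a.2
    exact (isIntegral_algebraMap_iff (A := ↥T) (B := F) Subtype.val_injective).1 h1⟩
  exact isIntegral_trans x hx

end Integral

/-! ### The chart -/

section Chart

variable {O : Type*} [CommRing O] [IsDomain O] {F : Type*} [Field F] [Algebra O F]
  {j t : F} {P Q a b : O[X]} {r : O}

/-- `j` is integral over `O[j]`. -/
theorem s18nf_j_mem_chart (j : F) : j ∈ s18_chart O ({j} : Set F) := by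
  rw [s18_mem_chart_iff]
  have h := isIntegral_algebraMap (R := ↥(Algebra.adjoin O ({j} : Set F))) (A := F)
    (x := ⟨j, Algebra.subset_adjoin (Set.mem_singleton j)⟩)
  exact h

/-- `t` is integral over `O[j]` (root of the monic polynomial `P(T) - j Q(T)`). -/
theorem s18nf_t_mem_chart (hP : P.Monic) (hdeg : Q.natDegree < P.natDegree)
    (hjt : j * aeval t Q = aeval t P) : t ∈ s18_chart O ({j} : Set F) := by
  rw [s18_mem_chart_iff]
  set jj : ↥(Algebra.adjoin O ({j} : Set F)) :=
    ⟨j, Algebra.subset_adjoin (Set.mem_singleton j)⟩ with hjj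
  have hnt : Nontrivial ↥(Algebra.adjoin O ({j} : Set F)) := inferInstance
  set p : (↥(Algebra.adjoin O ({j} : Set F)))[X] :=
    P.map (algebraMap O ↥(Algebra.adjoin O ({j} : Set F))) -
      C jj * Q.map (algebraMap O ↥(Algebra.adjoin O ({j} : Set F))) with hp
  have hmonic : p.Monic := by
    apply Polynomial.Monic.sub_of_left (hP.map _)
    rw [Polynomial.degree_eq_natDegree (hP.map _).ne_zero, hP.natDegree_map]
    refine lt_of_le_of_lt (Polynomial.degree_le_natDegree) ?_
    have h1 : (C jj * Q.map (algebraMap O ↥(Algebra.adjoin O ({j} : Set F)))).natDegree ≤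
        Q.natDegree :=
      (Polynomial.natDegree_C_mul_le _ _).trans Polynomial.natDegree_map_le
    exact_mod_cast lt_of_le_of_lt h1 hdeg
  refine ⟨p, hmonic, ?_⟩
  rw [hp, Polynomial.eval₂_sub, Polynomial.eval₂_mul, Polynomial.eval₂_C, Polynomial.eval₂_map,
    Polynomial.eval₂_map]
  have h1 : (algebraMap ↥(Algebra.adjoin O ({j} : Set F)) F).comp
      (algebraMap O ↥(Algebra.adjoin O ({j} : Set F))) = algebraMap O F := by
    ext c
    rfl
  rw [h1, ← Polynomial.aeval_def, ← Polynomial.aeval_def, ← hjt]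
  show j * aeval t Q - j * aeval t Q = 0
  rw [sub_self]

/-- `1 / Q(t) = r⁻¹ (a(t) j + b(t))`. -/
theorem s18nf_inv_eq (hr : IsUnit r) (hjt : j * aeval t Q = aeval t P)
    (hbez : a * P + b * Q = C r) (hQ : aeval t Q ≠ 0) :
    (aeval t Q)⁻¹ = algebraMap O F (↑hr.unit⁻¹ : O) * (aeval t a * j + aeval t b) := by
  have h1 : aeval t a * aeval t P + aeval t b * aeval t Q = algebraMap O F r := by
    rw [← map_mul, ← map_mul, ← map_add, hbez, aeval_C]
  have h2 : algebraMap O F (↑hr.unit⁻¹ : O) * algebraMap O F r = 1 := by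
    rw [← map_mul, ← map_one (algebraMap O F)]
    congr 1
    exact hr.val_inv_mul
  rw [inv_eq_iff_eq_inv, eq_comm, inv_eq_iff_eq_inv, eq_comm]
  rw [eq_comm, ← mul_eq_one_iff_eq_inv₀ hQ]
  calc algebraMap O F (↑hr.unit⁻¹ : O) * (aeval t a * j + aeval t b) * aeval t Q
      = algebraMap O F (↑hr.unit⁻¹ : O) *
          (aeval t a * (j * aeval t Q) + aeval t b * aeval t Q) := by ring
    _ = 1 := by rw [hjt, h1, h2]

end Chart

section Chart2

variable {O : Type*} [CommRing O] [IsDomain O] {F : Type*} [Field F] [Algebra O F]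
  {j t : F} {P Q a b : O[X]} {r : O}

/-- `1 / Q(t)` is integral over `O[j]`. -/
theorem s18nf_inv_mem_chart (hr : IsUnit r) (hP : P.Monic) (hdeg : Q.natDegree < P.natDegree)
    (hjt : j * aeval t Q = aeval t P) (hbez : a * P + b * Q = C r) (hQ : aeval t Q ≠ 0) :
    (aeval t Q)⁻¹ ∈ s18_chart O ({j} : Set F) := by
  rw [s18nf_inv_eq hr hjt hbez hQ]
  have ht := s18nf_t_mem_chart hP hdeg hjt
  have hj := s18nf_j_mem_chart (O := O) j
  have haev : ∀ g : O[X], aeval t g ∈ s18_chart O ({j} : Set F) := by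
    intro g
    have h1 := Polynomial.aeval_mem_adjoin_singleton O t (p := g)
    have h2 : Algebra.adjoin O ({t} : Set F) ≤ s18_chart O ({j} : Set F) :=
      Algebra.adjoin_le (Set.singleton_subset_iff.2 ht)
    exact h2 h1
  exact mul_mem (Subalgebra.algebraMap_mem _ _) (add_mem (mul_mem (haev a) hj) (haev b))

/-- `A = O[t, 1/Q(t)] ⊆` the chart. -/
theorem s18nf_A_le_chart (hr : IsUnit r) (hP : P.Monic) (hdeg : Q.natDegree < P.natDegree)
    (hjt : j * aeval t Q = aeval t P) (hbez : a * P + b * Q = C r) (hQ : aeval t Q ≠ 0) :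
    s18ln_A O t Q ≤ s18_chart O ({j} : Set F) := by
  unfold s18ln_A
  apply Algebra.adjoin_le
  rintro x (rfl | hx)
  · exact s18nf_t_mem_chart hP hdeg hjt
  · rw [Set.mem_singleton_iff] at hx
    subst hx
    exact s18nf_inv_mem_chart hr hP hdeg hjt hbez hQ

/-- `j = P(t) / Q(t) ∈ A`. -/
theorem s18nf_j_mem_A (hjt : j * aeval t Q = aeval t P) (hQ : aeval t Q ≠ 0) :
    j ∈ s18ln_A O t Q := by
  have h1 : j = aeval t P * (aeval t Q)⁻¹ := by
    rw [← hjt, mul_assoc, mul_inv_cancel₀ hQ, mul_one]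
  rw [h1]
  exact mul_mem (s18ln_aeval_mem O t Q P) (s18ln_inv_mem O t Q)

theorem s18nf_adjoin_le_A (hjt : j * aeval t Q = aeval t P) (hQ : aeval t Q ≠ 0) :
    Algebra.adjoin O ({j} : Set F) ≤ s18ln_A O t Q :=
  Algebra.adjoin_le (Set.singleton_subset_iff.2 (s18nf_j_mem_A hjt hQ))

/-- **The chart is the integral closure of `A`.** -/
theorem s18nf_mem_chart_iff (hr : IsUnit r) (hP : P.Monic) (hdeg : Q.natDegree < P.natDegree)
    (hjt : j * aeval t Q = aeval t P) (hbez : a * P + b * Q = C r) (hQ : aeval t Q ≠ 0)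
    (x : F) : x ∈ s18_chart O ({j} : Set F) ↔ IsIntegral ↥(s18ln_A O t Q) x := by
  rw [s18_mem_chart_iff]
  constructor
  · exact s18nf_isIntegral_mono (s18nf_adjoin_le_A hjt hQ)
  · refine s18nf_isIntegral_trans (s18nf_adjoin_le_A hjt hQ) ?_
    intro y hy
    exact (s18_mem_chart_iff O).1 (s18nf_A_le_chart hr hP hdeg hjt hbez hQ hy)

theorem s18nf_mem_chart_iff' (hr : IsUnit r) (hP : P.Monic) (hdeg : Q.natDegree < P.natDegree)
    (hjt : j * aeval t Q = aeval t P) (hbez : a * P + b * Q = C r) (hQ : aeval t Q ≠ 0)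
    (x : F) : x ∈ s18_chart O ({j} : Set F) ↔ x ∈ integralClosure ↥(s18ln_A O t Q) F := by
  rw [mem_integralClosure_iff]
  exact s18nf_mem_chart_iff hr hP hdeg hjt hbez hQ x

/-- The ring homomorphism from the chart to the integral closure of `A`. -/
def s18nf_chartHom (hr : IsUnit r) (hP : P.Monic) (hdeg : Q.natDegree < P.natDegree)
    (hjt : j * aeval t Q = aeval t P) (hbez : a * P + b * Q = C r) (hQ : aeval t Q ≠ 0) :
    ↥(s18_chart O ({j} : Set F)) →+* ↥(integralClosure ↥(s18ln_A O t Q) F) :=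
  RingHom.codRestrict (s18_chart O ({j} : Set F)).val.toRingHom
    (integralClosure ↥(s18ln_A O t Q) F)
    (fun x => (s18nf_mem_chart_iff' hr hP hdeg hjt hbez hQ _).1 x.2)

theorem s18nf_chartHom_coe (hr : IsUnit r) (hP : P.Monic)
    (hdeg : Q.natDegree < P.natDegree) (hjt : j * aeval t Q = aeval t P)
    (hbez : a * P + b * Q = C r) (hQ : aeval t Q ≠ 0) (x : ↥(s18_chart O ({j} : Set F))) :
    ((s18nf_chartHom hr hP hdeg hjt hbez hQ x : ↥(integralClosure ↥(s18ln_A O t Q) F)) : F) =
      (x : F) := by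
  unfold s18nf_chartHom
  rw [RingHom.codRestrict_apply]
  exact Subalgebra.val_apply _ _

theorem s18nf_chartHom_bijective (hr : IsUnit r) (hP : P.Monic)
    (hdeg : Q.natDegree < P.natDegree) (hjt : j * aeval t Q = aeval t P)
    (hbez : a * P + b * Q = C r) (hQ : aeval t Q ≠ 0) :
    Function.Bijective (s18nf_chartHom hr hP hdeg hjt hbez hQ) := by
  constructor
  · intro x y hxy
    apply Subtype.ext
    rw [← s18nf_chartHom_coe hr hP hdeg hjt hbez hQ x,
      ← s18nf_chartHom_coe hr hP hdeg hjt hbez hQ y, hxy]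
  · intro y
    refine ⟨⟨(y : F), (s18nf_mem_chart_iff' hr hP hdeg hjt hbez hQ _).2 y.2⟩, ?_⟩
    apply Subtype.ext
    rw [s18nf_chartHom_coe]

/-- The ring isomorphism between the chart and the integral closure of `A`. -/
def s18nf_chartEquiv (hr : IsUnit r) (hP : P.Monic) (hdeg : Q.natDegree < P.natDegree)
    (hjt : j * aeval t Q = aeval t P) (hbez : a * P + b * Q = C r) (hQ : aeval t Q ≠ 0) :
    ↥(s18_chart O ({j} : Set F)) ≃+* ↥(integralClosure ↥(s18ln_A O t Q) F) :=
  RingEquiv.ofBijective (s18nf_chartHom hr hP hdeg hjt hbez hQ)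
    (s18nf_chartHom_bijective hr hP hdeg hjt hbez hQ)

theorem s18nf_chartEquiv_coe (hr : IsUnit r) (hP : P.Monic)
    (hdeg : Q.natDegree < P.natDegree) (hjt : j * aeval t Q = aeval t P)
    (hbez : a * P + b * Q = C r) (hQ : aeval t Q ≠ 0) (x : ↥(s18_chart O ({j} : Set F))) :
    ((s18nf_chartEquiv hr hP hdeg hjt hbez hQ x : ↥(integralClosure ↥(s18ln_A O t Q) F)) : F) =
      (x : F) := by
  unfold s18nf_chartEquiv
  rw [RingEquiv.ofBijective_apply]
  exact s18nf_chartHom_coe hr hP hdeg hjt hbez hQ x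

theorem s18nf_chartEquiv_symm_coe (hr : IsUnit r) (hP : P.Monic)
    (hdeg : Q.natDegree < P.natDegree) (hjt : j * aeval t Q = aeval t P)
    (hbez : a * P + b * Q = C r) (hQ : aeval t Q ≠ 0)
    (x : ↥(integralClosure ↥(s18ln_A O t Q) F)) :
    (((s18nf_chartEquiv hr hP hdeg hjt hbez hQ).symm x : ↥(s18_chart O ({j} : Set F))) : F) =
      (x : F) := by
  have h := s18nf_chartEquiv_coe hr hP hdeg hjt hbez hQ
    ((s18nf_chartEquiv hr hP hdeg hjt hbez hQ).symm x)
  rw [RingEquiv.apply_symm_apply] at h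
  exact h.symm

end Chart2

section Fibre

variable {O : Type*} [CommRing O] [IsDomain O] [IsDiscreteValuationRing O]
  {F : Type*} [Field F] [Algebra O F] {j t : F} {P Q a b : O[X]} {r : O}

/-- The ideal of the special fibre is generated by a uniformizer. -/
theorem s18nf_fibreIdeal_eq {ϖ : O} (hϖ : Irreducible ϖ) (S : Set F) :
    s18_fibreIdeal O S = Ideal.span {algebraMap O ↥(s18_chart O S) ϖ} := by
  unfold s18_fibreIdeal
  rw [hϖ.maximalIdeal_eq, Ideal.map_span, Set.image_singleton]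

/-- The image of the ideal of the special fibre in the integral closure of `A`. -/
theorem s18nf_map_fibreIdeal {ϖ : O} (hϖ : Irreducible ϖ)
    (hr : IsUnit r) (hP : P.Monic) (hdeg : Q.natDegree < P.natDegree)
    (hjt : j * aeval t Q = aeval t P) (hbez : a * P + b * Q = C r) (hQ : aeval t Q ≠ 0) :
    Ideal.span ({algebraMap ↥(s18ln_A O t Q) ↥(integralClosure ↥(s18ln_A O t Q) F)
        (algebraMap O ↥(s18ln_A O t Q) ϖ)} : Set ↥(integralClosure ↥(s18ln_A O t Q) F)) =
      Ideal.map ((s18nf_chartEquiv hr hP hdeg hjt hbez hQ :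
        ↥(s18_chart O ({j} : Set F)) ≃+* ↥(integralClosure ↥(s18ln_A O t Q) F)) :
          ↥(s18_chart O ({j} : Set F)) →+* ↥(integralClosure ↥(s18ln_A O t Q) F))
        (s18_fibreIdeal O ({j} : Set F)) := by
  rw [s18nf_fibreIdeal_eq hϖ, Ideal.map_span, Set.image_singleton]
  have h1 : ((s18nf_chartEquiv hr hP hdeg hjt hbez hQ :
        ↥(s18_chart O ({j} : Set F)) ≃+* ↥(integralClosure ↥(s18ln_A O t Q) F)) :
          ↥(s18_chart O ({j} : Set F)) →+* ↥(integralClosure ↥(s18ln_A O t Q) F))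
      (algebraMap O ↥(s18_chart O ({j} : Set F)) ϖ) =
      algebraMap ↥(s18ln_A O t Q) ↥(integralClosure ↥(s18ln_A O t Q) F)
        (algebraMap O ↥(s18ln_A O t Q) ϖ) := by
    apply Subtype.ext
    rw [RingEquiv.coe_toRingHom, s18nf_chartEquiv_coe, Subalgebra.coe_algebraMap,
      Subalgebra.coe_algebraMap, Subalgebra.algebraMap_apply, Subalgebra.coe_algebraMap]
  rw [h1]

/-- The special fibre of the chart is the fibre of the integral closure of `A`. -/
def s18nf_fibreEquiv {ϖ : O} (hϖ : Irreducible ϖ)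
    (hr : IsUnit r) (hP : P.Monic) (hdeg : Q.natDegree < P.natDegree)
    (hjt : j * aeval t Q = aeval t P) (hbez : a * P + b * Q = C r) (hQ : aeval t Q ≠ 0) :
    s18_fibre O ({j} : Set F) ≃+*
      (↥(integralClosure ↥(s18ln_A O t Q) F) ⧸
        Ideal.span ({algebraMap ↥(s18ln_A O t Q) ↥(integralClosure ↥(s18ln_A O t Q) F)
          (algebraMap O ↥(s18ln_A O t Q) ϖ)} : Set ↥(integralClosure ↥(s18ln_A O t Q) F))) :=
  Ideal.quotientEquiv _ _ (s18nf_chartEquiv hr hP hdeg hjt hbez hQ)
    (s18nf_map_fibreIdeal hϖ hr hP hdeg hjt hbez hQ)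

end Fibre

end

end Fermat.Agent.S18

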