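/-
# S18, package (M3) [SEP] (helper1)

`s18sep_main : s18_SepStatement` (the Prop of `S18/ModelDefs.lean`, verbatim): over a perfect
field `κ` of characteristic `p`, a Laurent series `y` which is algebraic over `K = κ(x)`, where
`p ∤ ord x`, is separable over `K`.

Route (linear disjointness of `K` and `L^p` over `K^p`, `L = κ((q))`):
1. every `b ∈ K` is `∑_{i<p} c_i^p x^i` with `c_i ∈ K` (`s18sep_decomp`);
2. `∑_{i<p} a_i^p x^i = 0` with `a_i ∈ L` forces all `a_i = 0` (`s18sep_indep`: the orders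
   `p · ord(a_i) + i · ord(x)` of the non-zero terms are pairwise distinct);
3. if `minpoly K y = g(Y^p)`, split the coefficients of `g` by 1.:
   `0 = g(y^p) = ∑_i x^i (h_i(y))^p` with `deg h_i ≤ deg g < deg (minpoly K y)`, so `h_i(y) = 0`
   by 2., `h_i = 0`, `g = 0`: contradiction.
-/
import Mathlib
import Fermat.Agent.S18.ModelDefs

set_option autoImplicit false
set_option linter.style.haveILetI false
set_option linter.unusedSectionVars false

namespace Fermat.Agent.S18

open Polynomial IntermediateField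

noncomputable section

section indep

variable {κ : Type} [Field κ]

/-- The orders `p · u + i · n`, `0 ≤ i < p`, are pairwise distinct if `p ∤ n`. -/
theorem s18sep_order_inj {p : ℕ} (hp : p.Prime) {n : ℤ} (hn : ¬ (p : ℤ) ∣ n) {i j : ℕ}
    (hi : i < p) (hj : j < p) {u u' : ℤ}
    (h : (p : ℤ) * u + (i : ℤ) * n = (p : ℤ) * u' + (j : ℤ) * n) : i = j := by
  have hpi : Prime (p : ℤ) := Nat.prime_iff_prime_int.1 hp
  have h1 : (p : ℤ) ∣ ((i : ℤ) - (j : ℤ)) * n := by
    refine ⟨u' - u, ?_⟩
    linear_combination h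
  rcases hpi.dvd_or_dvd h1 with h2 | h2
  · have h3 : |(i : ℤ) - (j : ℤ)| < (p : ℤ) := by
      rw [abs_lt]
      constructor <;> omega
    have h4 := Int.eq_zero_of_abs_lt_dvd h2 h3
    omega
  · exact absurd h2 hn

/-- **Step 2**: `1, x, …, x^(p-1)` are linearly independent over the `p`-th powers. -/
theorem s18sep_indep {p : ℕ} (hp : p.Prime) (x : LaurentSeries κ) (hx : ¬ (p : ℤ) ∣ x.order)
    (a : ℕ → LaurentSeries κ) (h : ∑ i ∈ Finset.range p, a i ^ p * x ^ i = 0) :
    ∀ i ∈ Finset.range p, a i = 0 := by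
  classical
  by_contra hcon
  obtain ⟨i₁, hi₁, hai₁⟩ : ∃ i ∈ Finset.range p, a i ≠ 0 := by
    by_contra h'
    apply hcon
    intro i hi
    by_contra h''
    exact h' ⟨i, hi, h''⟩
  have hx0 : x ≠ 0 := by
    rintro rfl
    apply hx
    rw [HahnSeries.order_zero]
    exact dvd_zero _
  set v := HahnSeries.addVal ℤ κ with hv
  set o : ℕ → ℤ := fun i => (p : ℤ) * (a i).order + (i : ℤ) * x.order with ho
  have hval : ∀ i, a i ≠ 0 → v (a i ^ p * x ^ i) = ((o i : ℤ) : WithTop ℤ) := by
    intro i hi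
    have h1 : a i ^ p * x ^ i ≠ 0 := mul_ne_zero (pow_ne_zero _ hi) (pow_ne_zero _ hx0)
    rw [hv, HahnSeries.addVal_apply_of_ne h1, HahnSeries.order_mul (pow_ne_zero _ hi)
      (pow_ne_zero _ hx0), HahnSeries.order_pow, HahnSeries.order_pow, ho]
    simp only [nsmul_eq_mul]
  set I := (Finset.range p).filter (fun i => a i ≠ 0) with hI
  have hIne : I.Nonempty := ⟨i₁, Finset.mem_filter.2 ⟨hi₁, hai₁⟩⟩
  obtain ⟨i₀, hi₀, hmin⟩ := Finset.exists_min_image I o hIne
  rw [hI, Finset.mem_filter] at hi₀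
  have hrest : ((o i₀ : ℤ) : WithTop ℤ) <
      v (∑ i ∈ (Finset.range p).erase i₀, a i ^ p * x ^ i) := by
    apply AddValuation.map_lt_sum v (WithTop.coe_ne_top)
    intro i hi
    rw [Finset.mem_erase] at hi
    by_cases hai : a i = 0
    · rw [hai, zero_pow hp.ne_zero, zero_mul, AddValuation.map_zero]
      exact WithTop.coe_lt_top _
    · rw [hval i hai, WithTop.coe_lt_coe]
      have h1 : o i₀ ≤ o i := hmin i (Finset.mem_filter.2 ⟨hi.2, hai⟩)
      have h2 : o i₀ ≠ o i := by
        intro h3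
        exact hi.1 (s18sep_order_inj hp hx (Finset.mem_range.1 hi₀.1)
          (Finset.mem_range.1 hi.2) h3).symm
      exact lt_of_le_of_ne h1 h2
  have htot : v (∑ i ∈ Finset.range p, a i ^ p * x ^ i) = ((o i₀ : ℤ) : WithTop ℤ) := by
    rw [← Finset.add_sum_erase _ _ hi₀.1, ← hval i₀ hi₀.2]
    apply AddValuation.map_add_eq_of_lt_left
    rw [hval i₀ hi₀.2]
    exact hrest
  rw [h, AddValuation.map_zero] at htot
  exact WithTop.coe_ne_top htot.symm

end indep

section decomp

variable (κ : Type) [Field κ] (p : ℕ) [Fact p.Prime] [CharP κ p]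

theorem s18sep_charP : CharP (LaurentSeries κ) p :=
  charP_of_injective_algebraMap (algebraMap κ (LaurentSeries κ)).injective p

variable {κ} (x : LaurentSeries κ)

/-- The ring homomorphism `K → L`, `c ↦ c ^ p`. -/
def s18sep_phi : ↥(κ⟮x⟯) →+* LaurentSeries κ :=
  haveI := s18sep_charP κ p
  (frobenius (LaurentSeries κ) p).comp (algebraMap ↥(κ⟮x⟯) (LaurentSeries κ))

theorem s18sep_phi_apply (c : ↥(κ⟮x⟯)) : s18sep_phi p x c = (c : LaurentSeries κ) ^ p := rfl

variable [PerfectField κ]

/-- Every element of `K = κ(x)` is a polynomial in `x` with `p`-th powers as coefficients. -/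
theorem s18sep_mem_range {b : LaurentSeries κ} (hb : b ∈ κ⟮x⟯) :
    b ∈ (Polynomial.eval₂RingHom (s18sep_phi p x) x).range := by
  have hp : p.Prime := Fact.out
  induction hb using IntermediateField.adjoin_induction with
  | mem z hz =>
    rw [Set.mem_singleton_iff] at hz
    subst hz
    exact ⟨X, by simp⟩
  | algebraMap a =>
    refine ⟨C (algebraMap κ ↥(κ⟮x⟯) ((frobeniusEquiv κ p).symm a)), ?_⟩
    rw [Polynomial.coe_eval₂RingHom, eval₂_C, s18sep_phi_apply]
    have h1 : ((algebraMap κ ↥(κ⟮x⟯) ((frobeniusEquiv κ p).symm a) : ↥(κ⟮x⟯)) :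
        LaurentSeries κ) = algebraMap κ (LaurentSeries κ) ((frobeniusEquiv κ p).symm a) := rfl
    rw [h1, ← map_pow, frobeniusEquiv_symm_pow_p]
  | add z w hz hw ihz ihw => exact Subring.add_mem _ ihz ihw
  | mul z w hz hw ihz ihw => exact Subring.mul_mem _ ihz ihw
  | inv z hz ihz =>
    have h1 : z⁻¹ = z ^ (p - 1) * (z⁻¹) ^ p := by
      by_cases hz0 : z = 0
      · rw [hz0, inv_zero, zero_pow hp.ne_zero, mul_zero]
      · have h2 : z ^ p = z ^ (p - 1) * z := by
          rw [← pow_succ]
          congr 1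
          have := hp.pos
          omega
        rw [inv_pow, h2, mul_inv, ← mul_assoc, mul_inv_cancel₀ (pow_ne_zero _ hz0), one_mul]
    rw [h1]
    refine Subring.mul_mem _ (Subring.pow_mem _ ihz _) ?_
    refine ⟨C (⟨z⁻¹, inv_mem hz⟩ : ↥(κ⟮x⟯)), ?_⟩
    rw [Polynomial.coe_eval₂RingHom, eval₂_C, s18sep_phi_apply]

/-- **Step 1**: every `b ∈ K = κ(x)` is `∑_{i<p} c_i^p x^i` with `c_i ∈ K`. -/
theorem s18sep_decomp (b : ↥(κ⟮x⟯)) :
    ∃ c : ℕ → ↥(κ⟮x⟯),
      (b : LaurentSeries κ) = ∑ i ∈ Finset.range p, ((c i : ↥(κ⟮x⟯)) : LaurentSeries κ) ^ p * x ^ i := by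
  have hp : p.Prime := Fact.out
  obtain ⟨h, hh⟩ := s18sep_mem_range p x b.2
  rw [Polynomial.coe_eval₂RingHom] at hh
  set xK : ↥(κ⟮x⟯) := ⟨x, IntermediateField.mem_adjoin_simple_self κ x⟩ with hxK
  have hmonic : (X ^ p - C xK : (↥(κ⟮x⟯))[X]).Monic := monic_X_pow_sub_C xK hp.ne_zero
  have hroot : eval₂ (s18sep_phi p x) x (X ^ p - C xK) = 0 := by
    rw [eval₂_sub, eval₂_pow, eval₂_X, eval₂_C, s18sep_phi_apply, sub_self]
  have h1 : eval₂ (s18sep_phi p x) x (h %ₘ (X ^ p - C xK)) = (b : LaurentSeries κ) := by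
    rw [Polynomial.eval₂_modByMonic_eq_self_of_root hroot, hh]
  have hdeg : (h %ₘ (X ^ p - C xK)).natDegree < p := by
    have h2 := Polynomial.natDegree_modByMonic_lt h hmonic (by
      intro h3
      have h4 := congrArg Polynomial.natDegree h3
      rw [natDegree_X_pow_sub_C, natDegree_one] at h4
      exact hp.ne_zero h4)
    rwa [natDegree_X_pow_sub_C] at h2
  refine ⟨fun i => (h %ₘ (X ^ p - C xK)).coeff i, ?_⟩
  rw [← h1, Polynomial.eval₂_eq_sum_range' _ hdeg]
  rfl

end decomp

section main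

/-- **[SEP]**. -/
theorem s18sep_main : s18_SepStatement := by
  classical
  intro κ _ _ p _ _ x y hx hy
  have hp : p.Prime := Fact.out
  haveI : CharP (LaurentSeries κ) p := s18sep_charP κ p
  haveI : CharP ↥(κ⟮x⟯) p :=
    charP_of_injective_algebraMap (algebraMap κ ↥(κ⟮x⟯)).injective p
  have hint : IsIntegral ↥(κ⟮x⟯) y := hy.isIntegral
  have hirr : Irreducible (minpoly ↥(κ⟮x⟯) y) := minpoly.irreducible hint
  rcases Polynomial.separable_or p hirr with h | ⟨-, g, hg, hgf⟩
  · exact h
  · exfalso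
    have h0 : aeval (y ^ p) g = 0 := by
      rw [← expand_aeval, hgf, minpoly.aeval]
    choose c hc using fun j => s18sep_decomp p x (g.coeff j)
    set e := g.natDegree with he
    set hpoly : ℕ → (↥(κ⟮x⟯))[X] :=
      fun i => ∑ j ∈ Finset.range (e + 1), monomial j (c j i) with hpoly_def
    have haev : ∀ i, aeval y (hpoly i) =
        ∑ j ∈ Finset.range (e + 1), ((c j i : ↥(κ⟮x⟯)) : LaurentSeries κ) * y ^ j := by
      intro i
      rw [hpoly_def, map_sum]
      refine Finset.sum_congr rfl (fun j _ => ?_)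
      rw [aeval_monomial]
      rfl
    have key : ∑ i ∈ Finset.range p, (aeval y (hpoly i)) ^ p * x ^ i = 0 := by
      have h1 : ∀ i, (aeval y (hpoly i)) ^ p =
          ∑ j ∈ Finset.range (e + 1), ((c j i : ↥(κ⟮x⟯)) : LaurentSeries κ) ^ p * (y ^ p) ^ j := by
        intro i
        rw [haev, sum_pow_char]
        refine Finset.sum_congr rfl (fun j _ => ?_)
        rw [mul_pow, ← pow_mul, ← pow_mul, mul_comm j p]
      calc ∑ i ∈ Finset.range p, (aeval y (hpoly i)) ^ p * x ^ i
          = ∑ i ∈ Finset.range p, ∑ j ∈ Finset.range (e + 1),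
              (((c j i : ↥(κ⟮x⟯)) : LaurentSeries κ) ^ p * x ^ i) * (y ^ p) ^ j := by
            refine Finset.sum_congr rfl (fun i _ => ?_)
            rw [h1, Finset.sum_mul]
            refine Finset.sum_congr rfl (fun j _ => ?_)
            ring
        _ = ∑ j ∈ Finset.range (e + 1), ∑ i ∈ Finset.range p,
              (((c j i : ↥(κ⟮x⟯)) : LaurentSeries κ) ^ p * x ^ i) * (y ^ p) ^ j :=
            Finset.sum_comm
        _ = ∑ j ∈ Finset.range (e + 1), ((g.coeff j : ↥(κ⟮x⟯)) : LaurentSeries κ) * (y ^ p) ^ j := by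
            refine Finset.sum_congr rfl (fun j _ => ?_)
            rw [← Finset.sum_mul, ← hc j]
        _ = aeval (y ^ p) g := by
            rw [aeval_eq_sum_range]
            refine Finset.sum_congr rfl (fun j _ => ?_)
            rw [Algebra.smul_def]
            rfl
        _ = 0 := h0
    have hz := s18sep_indep hp x hx _ key
    have hdeg : (minpoly ↥(κ⟮x⟯) y).natDegree = e * p := by
      rw [← hgf, natDegree_expand]
    have hpos : 0 < (minpoly ↥(κ⟮x⟯) y).natDegree := minpoly.natDegree_pos hint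
    have he0 : 0 < e := by
      rcases Nat.eq_zero_or_pos e with h1 | h1
      · rw [h1, zero_mul] at hdeg
        omega
      · exact h1
    have hlt : e < e * p := by
      have := hp.two_le
      nlinarith
    have hpz : ∀ i ∈ Finset.range p, hpoly i = 0 := by
      intro i hi
      by_contra hne
      have h1 := Polynomial.natDegree_le_natDegree
        (minpoly.degree_le_of_ne_zero ↥(κ⟮x⟯) y hne (hz i hi))
      have h2 : (hpoly i).natDegree ≤ e := by
        rw [hpoly_def]
        apply Polynomial.natDegree_sum_le_of_forall_le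
        intro j hj
        refine (natDegree_monomial_le _).trans ?_
        have := Finset.mem_range.1 hj
        omega
      omega
    have hc0 : ∀ j ∈ Finset.range (e + 1), ∀ i ∈ Finset.range p, c j i = 0 := by
      intro j hj i hi
      have h1 := congrArg (fun q => Polynomial.coeff q j) (hpz i hi)
      simp only [hpoly_def, Polynomial.finsetSum_coeff, Polynomial.coeff_monomial,
        Polynomial.coeff_zero] at h1
      rw [Finset.sum_ite_eq' (Finset.range (e + 1)) j (fun j => c j i), if_pos hj] at h1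
      exact h1
    have hg0 : g = 0 := by
      apply Polynomial.ext
      intro j
      rw [Polynomial.coeff_zero]
      by_cases hj : j ∈ Finset.range (e + 1)
      · have h1 := hc j
        rw [Finset.sum_eq_zero (fun i hi => by rw [hc0 j hj i hi]; simp [hp.ne_zero])] at h1
        exact Subtype.ext h1
      · apply Polynomial.coeff_eq_zero_of_natDegree_lt
        rw [Finset.mem_range] at hj
        omega
    exact hg.ne_zero hg0

end main

end

end Fermat.Agent.S18

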