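/-
# S18, package (M8) [NORM-FIN-OF] (helper1), part 2: the hypotheses of [PURE]

ABSTRACT SETTING as in `NormFinChart.lean`, `O` a discrete valuation ring with fraction field `K`
of characteristic `0`, `F ⊇ K`.
* `Q(t) ≠ 0`, `t` is transcendental over `K` when `j` is, `ϖ ∤ Q`;
* `F` is "finite over `Frac A`" in the sense of [PURE] (`s18nf_finite`);
* the separability clause of [PURE] from [SEP] (`s18nf_sep`).
-/
import Mathlib
import Fermat.Agent.S18.NormFinChart
import Fermat.Agent.S18.Sep

set_option autoImplicit false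
set_option linter.style.haveILetI false
set_option linter.unusedSectionVars false

namespace Fermat.Agent.S18

open Polynomial IntermediateField

noncomputable section

section Basic

variable {O : Type*} [CommRing O] [IsDomain O] (K : Type*) [Field K] [Algebra O K]
  [IsFractionRing O K] {F : Type*} [Field F] [Algebra K F] [Algebra O F] [IsScalarTower O K F]
  {j t : F} {P Q a b : O[X]} {r : O}

include K in
theorem s18nf_algebraMap_injective : Function.Injective (algebraMap O F) := by
  rw [IsScalarTower.algebraMap_eq O K F]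
  exact (algebraMap K F).injective.comp (IsFractionRing.injective O K)

include K in
/-- `Q(t) ≠ 0`. -/
theorem s18nf_Q_ne_zero (hr : IsUnit r) (hjt : j * aeval t Q = aeval t P)
    (hbez : a * P + b * Q = C r) : aeval t Q ≠ 0 := by
  intro hQ
  have hP0 : aeval t P = 0 := by rw [← hjt, hQ, mul_zero]
  have h1 : aeval t a * aeval t P + aeval t b * aeval t Q = algebraMap O F r := by
    rw [← map_mul, ← map_mul, ← map_add, hbez, aeval_C]
  rw [hP0, hQ, mul_zero, mul_zero, add_zero] at h1
  have h2 : r = 0 := s18nf_algebraMap_injective K (h1.symm.trans (map_zero _).symm)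
  rw [h2] at hr
  exact not_isUnit_zero hr

/-- `t` is transcendental over `K` when `j` is. -/
theorem s18nf_transcendental {K : Type*} [Field K] [Algebra O K]
    [IsFractionRing O K] [Algebra K F] [IsScalarTower O K F] (hr : IsUnit r) (hjt : j * aeval t Q = aeval t P)
    (hbez : a * P + b * Q = C r) (htr : Transcendental K j) : Transcendental K t := by
  intro halg
  apply htr
  have hQ := s18nf_Q_ne_zero K hr hjt hbez
  have hmem : ∀ g : O[X], IsAlgebraic K (aeval t g) := by
    intro g
    have h1 : aeval t g = aeval t (g.map (algebraMap O K)) :=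
      (Polynomial.aeval_map_algebraMap K t g).symm
    rw [h1]
    have h2 : t ∈ Subalgebra.algebraicClosure K F := halg
    have h3 := Polynomial.aeval_subalgebra_coe (g.map (algebraMap O K))
      (Subalgebra.algebraicClosure K F) ⟨t, h2⟩
    rw [← h3]
    exact (aeval (⟨t, h2⟩ : ↥(Subalgebra.algebraicClosure K F)) (g.map (algebraMap O K))).2
  have h1 : j = aeval t P * (aeval t Q)⁻¹ := by
    rw [← hjt, mul_assoc, mul_inv_cancel₀ hQ, mul_one]
  rw [h1]
  exact (hmem P).mul (hmem Q).inv

/-- `aeval t : O[X] → F` is injective. -/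
theorem s18nf_aeval_injective {K : Type*} [Field K] [Algebra O K]
    [IsFractionRing O K] [Algebra K F] [IsScalarTower O K F] (htt : Transcendental K t) :
    Function.Injective (aeval t : O[X] →ₐ[O] F) := by
  have h1 := (transcendental_iff_injective (R := K)).1 htt
  rw [injective_iff_map_eq_zero]
  intro g hg
  have h2 : aeval t (g.map (algebraMap O K)) = 0 := by
    rw [Polynomial.aeval_map_algebraMap]
    exact hg
  have h3 := h1 (h2.trans (map_zero _).symm)
  exact Polynomial.map_injective (algebraMap O K) (IsFractionRing.injective O K)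
    (h3.trans (Polynomial.map_zero _).symm)

end Basic

section Residue

variable {O : Type*} [CommRing O] [IsDomain O] [IsDiscreteValuationRing O]
  {P Q a b : O[X]} {r : O}

/-- `ϖ ∤ Q`. -/
theorem s18nf_not_dvd {ϖ : O} (hϖ : Irreducible ϖ) (hr : IsUnit r) (hP : P.Monic)
    (hdeg : Q.natDegree < P.natDegree) (hbez : a * P + b * Q = C r) : ¬ C ϖ ∣ Q := by
  rintro ⟨Q', rfl⟩
  have h1 := congrArg (Polynomial.map (IsLocalRing.residue O)) hbez
  have hϖ0 : IsLocalRing.residue O ϖ = 0 := by
    rw [IsLocalRing.residue_eq_zero_iff, hϖ.maximalIdeal_eq]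
    exact Ideal.subset_span rfl
  rw [Polynomial.map_add, Polynomial.map_mul, Polynomial.map_mul, Polynomial.map_mul,
    Polynomial.map_C, Polynomial.map_C, hϖ0, map_zero, zero_mul, mul_zero, add_zero] at h1
  have hr0 : IsLocalRing.residue O r ≠ 0 := (hr.map (IsLocalRing.residue O)).ne_zero
  have hPm : (P.map (IsLocalRing.residue O)).Monic := hP.map _
  have ha0 : a.map (IsLocalRing.residue O) ≠ 0 := by
    intro h
    rw [h, zero_mul] at h1
    exact hr0 (Polynomial.C_eq_zero.1 h1.symm)
  have h2 := congrArg Polynomial.natDegree h1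
  rw [Polynomial.natDegree_C, Polynomial.natDegree_mul ha0 hPm.ne_zero, hP.natDegree_map] at h2
  omega

end Residue

section Finite

variable {O : Type*} [CommRing O] [IsDomain O] {K : Type*} [Field K] [Algebra O K]
  [IsFractionRing O K] {F : Type*} [Field F] [Algebra K F] [Algebra O F] [IsScalarTower O K F]

/-- Every element of `K(j)` is a quotient of two elements of `A ∋ j`. -/
theorem s18nf_frac (A : Subalgebra O F) {j : F} (hj : j ∈ A) (x : F) (hx : x ∈ K⟮j⟯) :
    ∃ a d : F, a ∈ A ∧ d ∈ A ∧ d ≠ 0 ∧ d * x = a := by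
  induction hx using IntermediateField.adjoin_induction with
  | mem z hz =>
    rw [Set.mem_singleton_iff] at hz
    subst hz
    exact ⟨z, 1, hj, one_mem _, one_ne_zero, one_mul _⟩
  | algebraMap c =>
    obtain ⟨n, m, hm, rfl⟩ := IsFractionRing.div_surjective O c
    have hm0 : algebraMap O F m ≠ 0 := by
      intro h
      have := s18nf_algebraMap_injective K (h.trans (map_zero _).symm)
      exact (nonZeroDivisors.ne_zero hm) this
    refine ⟨algebraMap O F n, algebraMap O F m, Subalgebra.algebraMap_mem _ _,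
      Subalgebra.algebraMap_mem _ _, hm0, ?_⟩
    rw [map_div₀, ← IsScalarTower.algebraMap_apply, ← IsScalarTower.algebraMap_apply,
      mul_div_cancel₀ _ hm0]
  | add x y _ _ hx hy =>
    obtain ⟨a, d, ha, hd, hd0, h⟩ := hx
    obtain ⟨a', d', ha', hd', hd0', h'⟩ := hy
    refine ⟨a * d' + a' * d, d * d', add_mem (mul_mem ha hd') (mul_mem ha' hd), mul_mem hd hd',
      mul_ne_zero hd0 hd0', ?_⟩
    rw [← h, ← h']
    ring
  | inv x _ hx =>
    obtain ⟨a, d, ha, hd, hd0, h⟩ := hx
    by_cases ha0 : a = 0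
    · have hx0 : x = 0 := by
        rw [ha0] at h
        exact (mul_eq_zero.1 h).resolve_left hd0
      exact ⟨0, 1, zero_mem _, one_mem _, one_ne_zero, by rw [hx0, inv_zero, mul_zero]⟩
    · have hx0 : x ≠ 0 := by
        rintro rfl
        rw [mul_zero] at h
        exact ha0 h.symm
      refine ⟨d, a, hd, ha, ha0, ?_⟩
      rw [← h, mul_assoc, mul_inv_cancel₀ hx0, mul_one]
  | mul x y _ _ hx hy =>
    obtain ⟨a, d, ha, hd, hd0, h⟩ := hx
    obtain ⟨a', d', ha', hd', hd0', h'⟩ := hy
    refine ⟨a * a', d * d', mul_mem ha ha', mul_mem hd hd', mul_ne_zero hd0 hd0', ?_⟩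
    rw [← h, ← h']
    ring

/-- The finiteness hypothesis of [PURE]. -/
theorem s18nf_finite (A : Subalgebra O F) {j : F} (hj : j ∈ A)
    (hfin : FiniteDimensional K⟮j⟯ F) :
    ∃ s : Finset F, ∀ y : F, ∃ (d : ↥A) (c : F → ↥A), d ≠ 0 ∧ d • y = ∑ e ∈ s, c e • e := by
  classical
  obtain ⟨s, hs⟩ := (Module.Finite.fg_top : (⊤ : Submodule ↥(K⟮j⟯) F).FG)
  refine ⟨s, fun y => ?_⟩
  have hy : y ∈ Submodule.span ↥(K⟮j⟯) (s : Set F) := by
    rw [hs]
    exact Submodule.mem_top
  obtain ⟨f, -, hf⟩ := Submodule.mem_span_finset.1 hy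
  choose a d ha hd hd0 had using fun e => s18nf_frac A hj ((f e : ↥(K⟮j⟯)) : F) (f e).2
  refine ⟨⟨∏ e ∈ s, d e, prod_mem (fun e _ => hd e)⟩,
    fun e => ⟨a e * ∏ e' ∈ s.erase e, d e', mul_mem (ha e) (prod_mem (fun e' _ => hd e'))⟩,
    ?_, ?_⟩
  · intro h
    have h1 := congrArg Subtype.val h
    exact (Finset.prod_ne_zero_iff.2 (fun e _ => hd0 e)) h1
  · rw [← hf, Finset.smul_sum]
    refine Finset.sum_congr rfl (fun e he => ?_)
    rw [Subalgebra.smul_def, Subalgebra.smul_def, smul_eq_mul, smul_eq_mul]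
    show (∏ e ∈ s, d e) * ((f e : ↥(K⟮j⟯)) • e) = (a e * ∏ e' ∈ s.erase e, d e') * e
    rw [IntermediateField.smul_def, smul_eq_mul, ← Finset.mul_prod_erase s d he, ← had e]
    ring

end Finite

end

end Fermat.Agent.S18

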