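/-
# S18, package (M8) [NORM-FIN-OF] (helper1), part 3: the separability clause of [PURE]

ABSTRACT SETTING as in `NormFinChart.lean`.  Given a ring homomorphism `ρ` from the chart to a
field `E ⊇ κ` with kernel the ideal of the special fibre, which is the reduction on constants,
and such that every element of `E` algebraic over `κ(ρ t)` is separable over it, the clause
"the fibre is generically separable over `A / π`" of [PURE] holds for `A = O[t, 1/Q(t)]`.
-/
import Mathlib
import Fermat.Agent.S18.NormFinChart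

set_option autoImplicit false
set_option linter.style.haveILetI false
set_option linter.unusedSectionVars false

namespace Fermat.Agent.S18

open Polynomial IntermediateField

noncomputable section

section Sep

variable {O : Type*} [CommRing O] [IsDomain O] [IsDiscreteValuationRing O]
  {F : Type*} [Field F] [Algebra O F] {j t : F} {P Q a b : O[X]} {r : O}

/-- The image of `A` under a ring homomorphism `φ` to a field `E ⊇ κ` lies in `κ(φ t)`. -/
theorem s18nf_image_mem {E : Type*} [Field E] [Algebra (IsLocalRing.ResidueField O) E]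
    (hQ : aeval t Q ≠ 0)
    (φ : ↥(s18ln_A O t Q) →+* E)
    (hconst : ∀ c : O, φ (algebraMap O ↥(s18ln_A O t Q) c) =
      algebraMap (IsLocalRing.ResidueField O) E (IsLocalRing.residue O c))
    (z : F) (hz : z ∈ s18ln_A O t Q) :
    φ ⟨z, hz⟩ ∈ (IsLocalRing.ResidueField O)⟮φ (s18ln_t O t Q)⟯ := by
  set L := (IsLocalRing.ResidueField O)⟮φ (s18ln_t O t Q)⟯ with hL
  have hc : ∀ c : O, φ (algebraMap O ↥(s18ln_A O t Q) c) ∈ L := by
    intro c
    rw [hconst]
    exact L.algebraMap_mem _
  have ht : φ (s18ln_t O t Q) ∈ L := IntermediateField.mem_adjoin_simple_self _ _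
  have hpoly : ∀ g : O[X], φ (s18ln_hom O t Q g) ∈ L := by
    intro g
    induction g using Polynomial.induction_on with
    | C c =>
      have h1 : s18ln_hom O t Q (C c) = algebraMap O ↥(s18ln_A O t Q) c := by
        unfold s18ln_hom
        rw [aeval_C]
      rw [h1]
      exact hc c
    | add p q hp hq =>
      rw [map_add, map_add]
      exact add_mem hp hq
    | monomial n c h =>
      have h1 : s18ln_hom O t Q (C c * X ^ (n + 1)) =
          s18ln_hom O t Q (C c * X ^ n) * s18ln_t O t Q := by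
        rw [pow_succ, ← mul_assoc, map_mul (s18ln_hom O t Q) (C c * X ^ n) X]
        congr 1
        unfold s18ln_hom
        rw [aeval_X]
      rw [h1, map_mul]
      exact mul_mem h ht
  have hinv : φ (s18ln_inv O t Q) ∈ L := by
    have h1 := s18ln_mul_inv (R := O) hQ
    have h2 : φ (s18ln_hom O t Q Q) * φ (s18ln_inv O t Q) = 1 := by
      rw [← map_mul, h1, map_one]
    have h3 : φ (s18ln_inv O t Q) = (φ (s18ln_hom O t Q Q))⁻¹ :=
      eq_inv_of_mul_eq_one_right h2
    rw [h3]
    exact inv_mem (hpoly Q)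
  have key : ∀ (z : F) (hz : z ∈ Algebra.adjoin O ({t, (aeval t Q)⁻¹} : Set F)),
      φ ⟨z, hz⟩ ∈ L := by
    intro z hz
    induction hz using Algebra.adjoin_induction with
    | mem x hx =>
      rcases hx with rfl | hx
      · exact ht
      · rw [Set.mem_singleton_iff] at hx
        subst hx
        exact hinv
    | algebraMap c => exact hc c
    | add x y hx hy hx' hy' =>
      have h1 : (⟨x + y, add_mem hx hy⟩ : ↥(s18ln_A O t Q)) = ⟨x, hx⟩ + ⟨y, hy⟩ := rfl
      rw [h1, map_add]
      exact add_mem hx' hy'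
    | mul x y hx hy hx' hy' =>
      have h1 : (⟨x * y, mul_mem hx hy⟩ : ↥(s18ln_A O t Q)) = ⟨x, hx⟩ * ⟨y, hy⟩ := rfl
      rw [h1, map_mul]
      exact mul_mem hx' hy'
  exact key z hz


/-- Separability goes up along an inclusion of subfields. -/
theorem s18nf_isSeparable_of_le {E : Type*} [Field E] {L₁ L₂ : Subfield E} (h : L₁ ≤ L₂)
    {y : E} (hy : IsSeparable ↥L₁ y) : IsSeparable ↥L₂ y := by
  letI : Algebra ↥L₁ ↥L₂ := (Subfield.inclusion h).toAlgebra
  haveI : IsScalarTower ↥L₁ ↥L₂ E := IsScalarTower.of_algebraMap_eq (fun _ => rfl)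
  exact IsSeparable.tower_top ↥L₂ hy

/-- **The separability clause of [PURE]** for `A = O[t, 1/Q(t)]`. -/
theorem s18nf_sep {ϖ : O} (hϖ : Irreducible ϖ)
    (hr : IsUnit r) (hP : P.Monic) (hdeg : Q.natDegree < P.natDegree)
    (hjt : j * aeval t Q = aeval t P) (hbez : a * P + b * Q = C r) (hQ : aeval t Q ≠ 0)
    (E : Type) [Field E] [Algebra (IsLocalRing.ResidueField O) E]
    (ρ : ↥(s18_chart O ({j} : Set F)) →+* E)
    (hker : ∀ x, ρ x = 0 → x ∈ s18_fibreIdeal O ({j} : Set F))
    (hconst : ∀ c : O, ρ (algebraMap O ↥(s18_chart O ({j} : Set F)) c) =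
      algebraMap (IsLocalRing.ResidueField O) E (IsLocalRing.residue O c))
    (hsep : ∀ y : E,
      IsAlgebraic ↥((IsLocalRing.ResidueField O)⟮ρ ⟨t, s18nf_t_mem_chart hP hdeg hjt⟩⟯) y →
      IsSeparable ↥((IsLocalRing.ResidueField O)⟮ρ ⟨t, s18nf_t_mem_chart hP hdeg hjt⟩⟯) y) :
    ∃ (E : Type) (_ : Field E) (ρ : ↥(integralClosure ↥(s18ln_A O t Q) F) →+* E),
      ρ (algebraMap ↥(s18ln_A O t Q) ↥(integralClosure ↥(s18ln_A O t Q) F)
        (algebraMap O ↥(s18ln_A O t Q) ϖ)) = 0 ∧
      (∀ x, ρ x = 0 → x ∈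
        Ideal.span ({algebraMap ↥(s18ln_A O t Q) ↥(integralClosure ↥(s18ln_A O t Q) F)
          (algebraMap O ↥(s18ln_A O t Q) ϖ)} : Set ↥(integralClosure ↥(s18ln_A O t Q) F))) ∧
      ∀ x, IsSeparable
        ↥(Subfield.closure (Set.range (ρ.comp
          (algebraMap ↥(s18ln_A O t Q) ↥(integralClosure ↥(s18ln_A O t Q) F))))) (ρ x) := by
  set e := s18nf_chartEquiv hr hP hdeg hjt hbez hQ with he
  set ρ' : ↥(integralClosure ↥(s18ln_A O t Q) F) →+* E :=
    ρ.comp (e.symm : ↥(integralClosure ↥(s18ln_A O t Q) F) →+* ↥(s18_chart O ({j} : Set F)))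
    with hρ'
  set φ : ↥(s18ln_A O t Q) →+* E :=
    ρ'.comp (algebraMap ↥(s18ln_A O t Q) ↥(integralClosure ↥(s18ln_A O t Q) F)) with hφ
  -- `φ` on constants
  have hsymm_const : ∀ c : O, e.symm (algebraMap ↥(s18ln_A O t Q)
      ↥(integralClosure ↥(s18ln_A O t Q) F) (algebraMap O ↥(s18ln_A O t Q) c)) =
      algebraMap O ↥(s18_chart O ({j} : Set F)) c := by
    intro c
    apply Subtype.ext
    rw [he, s18nf_chartEquiv_symm_coe, Subalgebra.coe_algebraMap, Subalgebra.algebraMap_apply,
      Subalgebra.coe_algebraMap, Subalgebra.coe_algebraMap]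
  have hφconst : ∀ c : O, φ (algebraMap O ↥(s18ln_A O t Q) c) =
      algebraMap (IsLocalRing.ResidueField O) E (IsLocalRing.residue O c) := by
    intro c
    rw [hφ, hρ', RingHom.comp_apply, RingHom.comp_apply, RingEquiv.coe_toRingHom,
      hsymm_const, hconst]
  have hφt : φ (s18ln_t O t Q) = ρ ⟨t, s18nf_t_mem_chart hP hdeg hjt⟩ := by
    rw [hφ, hρ', RingHom.comp_apply, RingHom.comp_apply, RingEquiv.coe_toRingHom]
    congr 1
    apply Subtype.ext
    rw [he, s18nf_chartEquiv_symm_coe, Subalgebra.coe_algebraMap]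
    rfl
  refine ⟨E, inferInstance, ρ', ?_, ?_, ?_⟩
  · have h1 := hφconst ϖ
    rw [hφ, RingHom.comp_apply] at h1
    rw [h1]
    have hϖ0 : IsLocalRing.residue O ϖ = 0 := by
      rw [IsLocalRing.residue_eq_zero_iff, hϖ.maximalIdeal_eq]
      exact Ideal.subset_span rfl
    rw [hϖ0, map_zero]
  · intro x hx
    rw [hρ', RingHom.comp_apply, RingEquiv.coe_toRingHom] at hx
    have h1 := hker _ hx
    rw [s18nf_map_fibreIdeal hϖ hr hP hdeg hjt hbez hQ]
    have h2 := Ideal.mem_map_of_mem ((e : ↥(s18_chart O ({j} : Set F)) ≃+*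
      ↥(integralClosure ↥(s18ln_A O t Q) F)) : ↥(s18_chart O ({j} : Set F)) →+*
        ↥(integralClosure ↥(s18ln_A O t Q) F)) h1
    rw [RingEquiv.coe_toRingHom, RingEquiv.apply_symm_apply] at h2
    exact h2
  · intro x
    set L := (IsLocalRing.ResidueField O)⟮ρ ⟨t, s18nf_t_mem_chart hP hdeg hjt⟩⟯ with hL
    have himg : ∀ z : ↥(s18ln_A O t Q), φ z ∈ L := by
      intro z
      have h1 := s18nf_image_mem hQ φ hφconst (z : F) z.2
      rw [hφt] at h1
      exact h1
    -- `ρ' x` is integral over `L`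
    have hint : IsIntegral ↥L (ρ' x) := by
      obtain ⟨p, hp, hpx⟩ := integralClosure.isIntegral (R := ↥(s18ln_A O t Q)) (A := F) x
      set ψ : ↥(s18ln_A O t Q) →+* ↥L := RingHom.codRestrict φ L.toSubfield.toSubring himg
        with hψ
      refine ⟨p.map ψ, hp.map _, ?_⟩
      rw [Polynomial.eval₂_map]
      have h1 : (algebraMap ↥L E).comp ψ = φ := by
        ext z
        rfl
      rw [h1, hφ, ← Polynomial.hom_eval₂, hpx, map_zero]
    have h1 : IsSeparable ↥L (ρ' x) := hsep _ hint.isAlgebraic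
    -- `L ≤` the closure of the image of `A`
    have hle : L.toSubfield ≤ Subfield.closure (Set.range φ) := by
      intro y hy
      have hy' : y ∈ L := hy
      clear hy
      rw [hL] at hy'
      induction hy' using IntermediateField.adjoin_induction with
      | mem z hz =>
        rw [Set.mem_singleton_iff] at hz
        subst hz
        exact Subfield.subset_closure ⟨s18ln_t O t Q, hφt⟩
      | algebraMap c =>
        obtain ⟨c', rfl⟩ := IsLocalRing.residue_surjective c
        exact Subfield.subset_closure ⟨algebraMap O ↥(s18ln_A O t Q) c', hφconst c'⟩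
      | add x y _ _ hx hy => exact add_mem hx hy
      | inv x _ hx => exact inv_mem hx
      | mul x y _ _ hx hy => exact mul_mem hx hy
    exact s18nf_isSeparable_of_le hle h1

end Sep

end

end Fermat.Agent.S18
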