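/-
# S18, package (M8) [NORM-FIN-OF] (helper1), part 4: the unramifiedness clause of [PURE]

ABSTRACT SETTING: `O` a discrete valuation ring with fraction field `K` of characteristic `0`,
`F ⊇ K` a field, `t ∈ F` transcendental over `K` with `F / K(t)` finite, `Q ∈ O[X]`,
`A = O[t, 1/Q(t)]`, `B` the integral closure of `A` in `F`.  If every irreducible `f ∈ K[X]`
has order `≤ 1` at every place of `F / K` where `t` is finite and `Q(t)` is a unit
(`hkey`), then every non-zero prime `P ∌ π` of `B` is unramified over `A` in the sense of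
[PURE]: there is `a ∈ A ∩ P` generating `P B_P`.
-/
import Mathlib
import Fermat.Agent.S18.LineTools
import Fermat.Agent.S18.LocPP
import Fermat.Agent.S18.KeyComp

set_option autoImplicit false
set_option linter.style.haveILetI false
set_option linter.unusedSectionVars false

namespace Fermat.Agent.S18

open Polynomial IntermediateField AlgebraicCurve
open Fermat.Agent.S24

noncomputable section

section Irr

variable {K F : Type*} [Field K] [Field F] [Algebra K F] (𝔓 : Place K F)

/-- If `G(t)` has positive order, some irreducible factor `f` of `G` has `f(t)` of positive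
order. -/
theorem s18nf_exists_irreducible {t : F} (ht : 0 ≤ 𝔓.ord t) (G : K[X]) (hG : G ≠ 0)
    (hGt : 0 < 𝔓.ord (aeval t G)) : ∃ f : K[X], Irreducible f ∧ 0 < 𝔓.ord (aeval t f) := by
  revert hG hGt
  induction G using UniqueFactorizationMonoid.induction_on_prime with
  | h₁ => intro h; exact absurd rfl h
  | h₂ x hx =>
    intro _ hGt
    obtain ⟨c, -, rfl⟩ := Polynomial.isUnit_iff.1 hx
    rw [aeval_C, place_ord_algebraMap] at hGt
    exact absurd hGt (lt_irrefl _)
  | h₃ g p hg hp ih =>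
    intro _ hGt
    rw [map_mul] at hGt
    have hne : aeval t p * aeval t g ≠ 0 := by
      intro h
      rw [h, Place.ord_zero] at hGt
      exact lt_irrefl _ hGt
    rw [Place.ord_mul 𝔓 (left_ne_zero_of_mul hne) (right_ne_zero_of_mul hne)] at hGt
    by_cases hpt : 0 < 𝔓.ord (aeval t p)
    · exact ⟨p, hp.irreducible, hpt⟩
    · have h0 := s18kc_ord_aeval_nonneg 𝔓 ht p
      have h1 : 𝔓.ord (aeval t p) = 0 := le_antisymm (not_lt.1 hpt) h0
      rw [h1, zero_add] at hGt
      exact ih hg hGt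

end Irr

section Unr

variable {O : Type} [CommRing O] [IsDomain O] [IsDiscreteValuationRing O]
  {K : Type} [Field K] [CharZero K] [Algebra O K] [IsFractionRing O K]
  {F : Type} [Field F] [Algebra K F] [Algebra O F] [IsScalarTower O K F]
  {t : F} {Q : O[X]}

/-- The coercion of the structure map `A → B`. -/
theorem s18nf_coe_map (x : ↥(s18ln_A O t Q)) :
    ((algebraMap ↥(s18ln_A O t Q) ↥(integralClosure ↥(s18ln_A O t Q) F) x :
      ↥(integralClosure ↥(s18ln_A O t Q) F)) : F) = (x : F) := rfl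

/-- `B` is integrally closed in `F`. -/
theorem s18nf_closed (x : F) (hx : IsIntegral ↥(integralClosure ↥(s18ln_A O t Q) F) x) :
    ∃ y : ↥(integralClosure ↥(s18ln_A O t Q) F),
      algebraMap ↥(integralClosure ↥(s18ln_A O t Q) F) F y = x := by
  have h1 : IsIntegral ↥(s18ln_A O t Q) x := isIntegral_trans x hx
  exact ⟨⟨x, h1⟩, rfl⟩

/-- Constants of `K` are fractions with denominator outside `P`. -/
theorem s18nf_const {ϖ : O} (hϖ : Irreducible ϖ)
    (P : Ideal ↥(integralClosure ↥(s18ln_A O t Q) F)) (hPp : P.IsPrime)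
    (hπ : algebraMap ↥(s18ln_A O t Q) ↥(integralClosure ↥(s18ln_A O t Q) F)
        (algebraMap O ↥(s18ln_A O t Q) ϖ) ∉ P) (c : K) :
    ∃ y z : ↥(integralClosure ↥(s18ln_A O t Q) F), z ∉ P ∧
      algebraMap K F c * algebraMap ↥(integralClosure ↥(s18ln_A O t Q) F) F z =
        algebraMap ↥(integralClosure ↥(s18ln_A O t Q) F) F y := by
  obtain ⟨n, d, hd, rfl⟩ := IsFractionRing.div_surjective O c
  have hd0 : d ≠ 0 := nonZeroDivisors.ne_zero hd
  obtain ⟨k, u, hu⟩ := IsDiscreteValuationRing.associated_pow_irreducible hd0 hϖ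
  set ι : O →+* ↥(integralClosure ↥(s18ln_A O t Q) F) :=
    (algebraMap ↥(s18ln_A O t Q) ↥(integralClosure ↥(s18ln_A O t Q) F)).comp
      (algebraMap O ↥(s18ln_A O t Q)) with hι
  have hcoe : ∀ x : O, ((ι x : ↥(integralClosure ↥(s18ln_A O t Q) F)) : F) =
      algebraMap O F x := fun x => rfl
  refine ⟨ι n, ι d, ?_, ?_⟩
  · intro hmem
    have h1 : ι (ϖ ^ k) ∈ P := by
      rw [← hu, map_mul]
      exact P.mul_mem_right _ hmem
    rw [map_pow] at h1
    exact hπ (hPp.mem_of_pow_mem k h1)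
  · have hd1 : algebraMap O F d ≠ 0 := by
      intro h
      have h2 : Function.Injective (algebraMap O F) := by
        rw [IsScalarTower.algebraMap_eq O K F]
        exact (algebraMap K F).injective.comp (IsFractionRing.injective O K)
      exact hd0 (h2 (h.trans (map_zero _).symm))
    show algebraMap K F (algebraMap O K n / algebraMap O K d) * algebraMap O F d =
      algebraMap O F n
    rw [map_div₀, ← IsScalarTower.algebraMap_apply, ← IsScalarTower.algebraMap_apply,
      div_mul_cancel₀ _ hd1]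

/-- **The unramifiedness clause of [PURE]** for `A = O[t, 1/Q(t)]`. -/
theorem s18nf_unr {ϖ : O} (hϖ : Irreducible ϖ) (hQ : aeval t Q ≠ 0)
    (htt : Transcendental K t) (hfin : FiniteDimensional ↥(K⟮t⟯) F)
    (hkey : ∀ 𝔓 : Place K F, 0 ≤ 𝔓.ord t → 𝔓.ord (aeval t Q) = 0 →
      ∀ f : K[X], Irreducible f → 0 < 𝔓.ord (aeval t f) → 𝔓.ord (aeval t f) = 1)
    (P : Ideal ↥(integralClosure ↥(s18ln_A O t Q) F)) (hPp : P.IsPrime) (hP0 : P ≠ ⊥)
    (hπ : algebraMap ↥(s18ln_A O t Q) ↥(integralClosure ↥(s18ln_A O t Q) F)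
        (algebraMap O ↥(s18ln_A O t Q) ϖ) ∉ P) :
    ∃ a : ↥(s18ln_A O t Q),
      algebraMap ↥(s18ln_A O t Q) ↥(integralClosure ↥(s18ln_A O t Q) F) a ∈ P ∧
      ∀ x ∈ P, ∃ y z : ↥(integralClosure ↥(s18ln_A O t Q) F), z ∉ P ∧
        x * z = algebraMap ↥(s18ln_A O t Q) ↥(integralClosure ↥(s18ln_A O t Q) F) a * y := by
  classical
  set ι := algebraMap ↥(s18ln_A O t Q) ↥(integralClosure ↥(s18ln_A O t Q) F) with hι
  -- the place of `P`
  obtain ⟨𝔓, h1, h2, h3⟩ := s18lpp_main K F ↥(integralClosure ↥(s18ln_A O t Q) F)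
    Subtype.val_injective s18nf_closed (ι (s18ln_t O t Q)) htt hfin P hP0
    (s18nf_const hϖ P hPp hπ)
  have hval : ∀ x : ↥(integralClosure ↥(s18ln_A O t Q) F),
      algebraMap ↥(integralClosure ↥(s18ln_A O t Q) F) F x = (x : F) := fun x => rfl
  have hordt : 0 ≤ 𝔓.ord t := h1 (ι (s18ln_t O t Q))
  have hordQ : 𝔓.ord (aeval t Q) = 0 := by
    have h4 : 0 ≤ 𝔓.ord (aeval t Q) := by
      have := h1 (ι (s18ln_hom O t Q Q))
      rw [hval, s18nf_coe_map, s18ln_hom_coe] at this
      exact this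
    have h5 : 0 ≤ 𝔓.ord (aeval t Q)⁻¹ := h1 (ι (s18ln_inv O t Q))
    rw [Place.ord_inv] at h5
    omega
  -- a non-zero element of `A ∩ P`
  obtain ⟨b, hbP, hb0⟩ := Submodule.exists_mem_ne_zero_of_ne_bot hP0
  have hcomap : P.comap ι ≠ ⊥ :=
    Ideal.comap_ne_bot_of_integral_mem hb0 hbP (integralClosure.isIntegral b)
  obtain ⟨a0, ha0P, ha00⟩ := Submodule.exists_mem_ne_zero_of_ne_bot hcomap
  obtain ⟨G, n, hG⟩ := s18ln_surj hQ (a0 : F) a0.2
  have ha0F : (a0 : F) ≠ 0 := fun h => ha00 (Subtype.ext h)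
  have hGt0 : aeval t G ≠ 0 := by
    rw [← hG]
    exact mul_ne_zero ha0F (pow_ne_zero _ hQ)
  have hGP : ι (s18ln_hom O t Q G) ∈ P := by
    have h4 : s18ln_hom O t Q G = a0 * (s18ln_hom O t Q Q) ^ n := by
      apply Subtype.ext
      rw [s18ln_hom_coe, ← hG]
      push_cast
      rw [s18ln_hom_coe]
    rw [h4, map_mul]
    exact P.mul_mem_right _ ha0P
  have hGord : 0 < 𝔓.ord (aeval t G) := by
    have h4 := (h2 _).1 hGP
    rw [hval, s18nf_coe_map, s18ln_hom_coe] at h4
    rcases h4 with h4 | h4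
    · exfalso
      apply hGt0
      have h5 : ((ι (s18ln_hom O t Q G) : ↥(integralClosure ↥(s18ln_A O t Q) F)) : F) =
          ((0 : ↥(integralClosure ↥(s18ln_A O t Q) F)) : F) := congrArg Subtype.val h4
      rw [s18nf_coe_map, s18ln_hom_coe] at h5
      exact h5
    · exact h4
  -- pass to `K[X]`
  have hGK : aeval t (G.map (algebraMap O K)) = aeval t G := Polynomial.aeval_map_algebraMap K t G
  have hGK0 : G.map (algebraMap O K) ≠ 0 := by
    intro h
    rw [h, map_zero] at hGK
    exact hGt0 hGK.symm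
  rw [← hGK] at hGord
  obtain ⟨f, hf, hft⟩ := s18nf_exists_irreducible 𝔓 hordt _ hGK0 hGord
  have hf1 := hkey 𝔓 hordt hordQ f hf hft
  -- clear denominators
  obtain ⟨d, hdM, hd⟩ := IsLocalization.integerNormalization_spec (nonZeroDivisors O) f
  set f0 := IsLocalization.integerNormalization (nonZeroDivisors O) f with hf0
  have hd0 : algebraMap O K (d : O) ≠ 0 := by
    intro h
    exact nonZeroDivisors.ne_zero hdM (IsFractionRing.injective O K (h.trans (map_zero _).symm))
  have hf0t : aeval t f0 = algebraMap K F (algebraMap O K (d : O)) * aeval t f := by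
    rw [← Polynomial.aeval_map_algebraMap K t f0, hd, ← algebraMap_smul K d f, map_smul,
      Algebra.smul_def]
  have hft0 : aeval t f ≠ 0 := by
    intro h
    rw [h, Place.ord_zero] at hf1
    exact zero_ne_one hf1
  have hdF : algebraMap K F (algebraMap O K (d : O)) ≠ 0 := by
    intro h
    exact hd0 ((algebraMap K F).injective (h.trans (map_zero _).symm))
  have hford : 𝔓.ord (aeval t f0) = 1 := by
    rw [hf0t, Place.ord_mul 𝔓 hdF hft0, place_ord_algebraMap, hf1, zero_add]
  have hf00 : aeval t f0 ≠ 0 := by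
    rw [hf0t]
    exact mul_ne_zero hdF hft0
  refine ⟨s18ln_hom O t Q f0, ?_, ?_⟩
  · rw [h2, hval, s18nf_coe_map, s18ln_hom_coe, hford]
    exact Or.inr one_pos
  · intro x hx
    rcases (h2 x).1 hx with h4 | h4
    · refine ⟨0, 1, fun h => hPp.ne_top ((Ideal.eq_top_iff_one P).2 h), ?_⟩
      rw [h4, zero_mul, mul_zero]
    · rw [hval] at h4
      have hx0 : (x : F) ≠ 0 := by
        intro h
        rw [h, Place.ord_zero] at h4
        exact lt_irrefl _ h4
      have h5 : 0 ≤ 𝔓.ord ((x : F) * (aeval t f0)⁻¹) := by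
        rw [Place.ord_mul 𝔓 hx0 (inv_ne_zero hf00), Place.ord_inv, hford]
        omega
      obtain ⟨y, z, hz, hyz⟩ := h3 _ h5
      refine ⟨y, z, hz, ?_⟩
      apply Subtype.ext
      rw [hval, hval] at hyz
      push_cast
      rw [s18nf_coe_map, s18ln_hom_coe, ← hyz]
      field_simp

end Unr

end

end Fermat.Agent.S18
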