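/-
# S18, package (M8) [NORM-FIN-OF] (helper1), part 5: the abstract theorem

`O` a discrete valuation ring with fraction field `K` of characteristic `0`, `F ⊇ K` a field,
`j, t ∈ F` with `j · Q(t) = P(t)`, `P` monic, `deg Q < deg P`, `a P + b Q = r ∈ Oˣ`;
`j` transcendental over `K`, `F / K(j)` finite, the special fibre of the chart
`B = s18_chart O {j}` a domain with a reduction map `ρ : B → E` (kernel `π B`) such that every
element of `E` algebraic over `κ(ρ t)` is separable over it, and `F / K(t)` unramified at the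
places where `t` is finite and `Q(t)` is a unit (`hkey`).  Then the special fibre is integrally
closed ([PURE] applied to `A = O[t, 1/Q(t)]`).
-/
import Mathlib
import Fermat.Agent.S18.NormFinRed
import Fermat.Agent.S18.NormFinSep
import Fermat.Agent.S18.NormFinUnr

set_option autoImplicit false
set_option linter.style.haveILetI false
set_option linter.unusedSectionVars false

namespace Fermat.Agent.S18

open Polynomial IntermediateField AlgebraicCurve

noncomputable section

section Asm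

/-- Finiteness goes up along an inclusion of intermediate fields. -/
theorem s18nf_finite_of_le {K F : Type*} [Field K] [Field F] [Algebra K F]
    {L₁ L₂ : IntermediateField K F} (h : L₁ ≤ L₂) (hfin : FiniteDimensional ↥L₁ F) :
    FiniteDimensional ↥L₂ F := by
  letI : Algebra ↥L₁ ↥L₂ := (IntermediateField.inclusion h).toRingHom.toAlgebra
  haveI : IsScalarTower ↥L₁ ↥L₂ F := IsScalarTower.of_algebraMap_eq (fun _ => rfl)
  exact Module.Finite.of_restrictScalars_finite ↥L₁ ↥L₂ F

variable {O : Type} [CommRing O] [IsDomain O] [IsDiscreteValuationRing O]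
  {K : Type} [Field K] [CharZero K] [Algebra O K] [IsFractionRing O K]
  {F : Type} [Field F] [Algebra K F] [Algebra O F] [IsScalarTower O K F]
  {j t : F} {P Q a b : O[X]} {r : O}

/-- `g(t) ∈ K(t)` for `g ∈ O[X]`. -/
theorem s18nf_aeval_mem_adjoin (t : F) (g : O[X]) : aeval t g ∈ K⟮t⟯ := by
  rw [← Polynomial.aeval_map_algebraMap K t g]
  exact IntermediateField.algebra_adjoin_le_adjoin K _
    (Polynomial.aeval_mem_adjoin_singleton K t)

/-- `K(j) ≤ K(t)`. -/
theorem s18nf_adjoin_le (hr : IsUnit r) (hjt : j * aeval t Q = aeval t P)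
    (hbez : a * P + b * Q = C r) : K⟮j⟯ ≤ K⟮t⟯ := by
  rw [IntermediateField.adjoin_simple_le_iff]
  have hQ := s18nf_Q_ne_zero K hr hjt hbez
  have h1 : j = aeval t P * (aeval t Q)⁻¹ := by
    rw [← hjt, mul_assoc, mul_inv_cancel₀ hQ, mul_one]
  rw [h1]
  exact mul_mem (s18nf_aeval_mem_adjoin t P) (inv_mem (s18nf_aeval_mem_adjoin t Q))

/-- **[NORM-FIN], abstract form.** -/
theorem s18nf_abs (hPure : s18_PureStatement)
    (hr : IsUnit r) (hP : P.Monic) (hdeg : Q.natDegree < P.natDegree)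
    (hjt : j * aeval t Q = aeval t P) (hbez : a * P + b * Q = C r)
    (htr : Transcendental K j) (hfin : FiniteDimensional ↥(K⟮j⟯) F)
    (hdom : IsDomain (s18_fibre O ({j} : Set F)))
    (E : Type) [Field E] [Algebra (IsLocalRing.ResidueField O) E]
    (ρ : ↥(s18_chart O ({j} : Set F)) →+* E)
    (hker : ∀ x, ρ x = 0 → x ∈ s18_fibreIdeal O ({j} : Set F))
    (hconst : ∀ c : O, ρ (algebraMap O ↥(s18_chart O ({j} : Set F)) c) =
      algebraMap (IsLocalRing.ResidueField O) E (IsLocalRing.residue O c))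
    (hsep : ∀ y : E,
      IsAlgebraic ↥((IsLocalRing.ResidueField O)⟮ρ ⟨t, s18nf_t_mem_chart hP hdeg hjt⟩⟯) y →
      IsSeparable ↥((IsLocalRing.ResidueField O)⟮ρ ⟨t, s18nf_t_mem_chart hP hdeg hjt⟩⟯) y)
    (hkey : ∀ 𝔓 : Place K F, 0 ≤ 𝔓.ord t → 𝔓.ord (aeval t Q) = 0 →
      ∀ f : K[X], Irreducible f → 0 < 𝔓.ord (aeval t f) → 𝔓.ord (aeval t f) = 1) :
    IsIntegrallyClosed (s18_fibre O ({j} : Set F)) := by
  obtain ⟨ϖ, hϖ⟩ := IsDiscreteValuationRing.exists_irreducible O
  have hQ := s18nf_Q_ne_zero K hr hjt hbez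
  have htt : Transcendental K t := s18nf_transcendental hr hjt hbez htr
  have hinj : Function.Injective (aeval t : O[X] →ₐ[O] F) := s18nf_aeval_injective htt
  have hQ0 : Q ≠ 0 := by
    rintro rfl
    exact hQ (map_zero _)
  haveI : IsNoetherianRing ↥(s18ln_A O t Q) := s18ln_isNoetherianRing hinj hQ0
  haveI : IsIntegrallyClosed ↥(s18ln_A O t Q) := s18ln_isIntegrallyClosed hinj hQ0
  haveI : CharZero F := charZero_of_injective_algebraMap (algebraMap K F).injective
  haveI : CharZero O := (algebraMap O K).charZero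
  have hprime : Prime (algebraMap O ↥(s18ln_A O t Q) ϖ) :=
    s18ln_prime hinj hQ0 hϖ.prime (s18nf_not_dvd hϖ hr hP hdeg hbez)
  have hmax : (Ideal.span ({ϖ} : Set O)).IsMaximal := by
    rw [← hϖ.maximalIdeal_eq]
    exact IsLocalRing.maximalIdeal.isMaximal O
  have hpir := s18ln_quot_pir (t := t) (Q := Q) hQ hmax
  have hnat := s18ln_nat_dvd O ↥(s18ln_A O t Q) hϖ
  have hfinite := s18nf_finite (K := K) (s18ln_A O t Q) (s18nf_j_mem_A hjt hQ) hfin
  have hfin' : FiniteDimensional ↥(K⟮t⟯) F :=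
    s18nf_finite_of_le (s18nf_adjoin_le hr hjt hbez) hfin
  have h1 : IsDomain (↥(integralClosure ↥(s18ln_A O t Q) F) ⧸
      Ideal.span ({algebraMap ↥(s18ln_A O t Q) ↥(integralClosure ↥(s18ln_A O t Q) F)
        (algebraMap O ↥(s18ln_A O t Q) ϖ)} : Set ↥(integralClosure ↥(s18ln_A O t Q) F))) :=
    MulEquiv.isDomain (s18_fibre O ({j} : Set F))
      (s18nf_fibreEquiv hϖ hr hP hdeg hjt hbez hQ).symm.toMulEquiv
  have h2 := s18nf_sep hϖ hr hP hdeg hjt hbez hQ E ρ hker hconst hsep
  have h3 := fun Pr hPp hP0 hπ => s18nf_unr (K := K) hϖ hQ htt hfin' hkey Pr hPp hP0 hπ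
  haveI := hPure ↥(s18ln_A O t Q) F (algebraMap O ↥(s18ln_A O t Q) ϖ) hprime hpir hnat hfinite
    h1 h2 h3
  have e : (↥(integralClosure ↥(s18ln_A O t Q) F) ⧸
      Ideal.span ({algebraMap ↥(s18ln_A O t Q) ↥(integralClosure ↥(s18ln_A O t Q) F)
        (algebraMap O ↥(s18ln_A O t Q) ϖ)} : Set ↥(integralClosure ↥(s18ln_A O t Q) F))) ≃+*
      s18_fibre O ({j} : Set F) := (s18nf_fibreEquiv hϖ hr hP hdeg hjt hbez hQ).symm
  exact IsIntegrallyClosed.of_equiv (R := ↥(integralClosure ↥(s18ln_A O t Q) F) ⧸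
      Ideal.span ({algebraMap ↥(s18ln_A O t Q) ↥(integralClosure ↥(s18ln_A O t Q) F)
        (algebraMap O ↥(s18ln_A O t Q) ϖ)} : Set ↥(integralClosure ↥(s18ln_A O t Q) F))) e

end Asm

end

end Fermat.Agent.S18
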