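/-
S18, package [RAT-Q] (owner: helper14), part 1: DESCENT OF COEFFICIENTS.  Prefix `s18rq_`.

* `s18rq_coeffMap_mem`: a field homomorphism `φ : K1 → K2` maps `F_{K1}(M)` into `F_{K2}(M)`
  (coefficientwise), for any base field `F₀ ⊆ ℚ((q))`.
* `s18rq_descent`: every element of `F̄_M` is the coefficientwise image of an element of
  `F_{K0}(M)` for some `K0 ⊆ Q̄` finite over `ℚ`.
* `s18rq_descent₂`: the same for two elements at once.
* `s18rq_lift`: a Laurent series all of whose coefficients lie in the range of `f` is in the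
  image of `coeffMap f`.
-/
import Mathlib
import Fermat.Agent.S18.ModelDefs

set_option autoImplicit false

open AlgebraicCurve ModularCurve IntermediateField

noncomputable section

namespace Fermat.Agent.S18

section Mono

variable {K1 K2 : Type*} [Field K1] [Field K2] [Algebra ℚ K1] [Algebra ℚ K2]

theorem s18rq_coeffMap_coeffEmb (φ : K1 →+* K2) (x : LaurentSeries ℚ) :
    coeffMap φ (coeffEmb K1 x) = coeffEmb K2 x := by
  rw [coeffEmb, coeffEmb, coeffMap_coeffMap]
  exact coeffMap_congr (Subsingleton.elim _ _) x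

omit [Algebra ℚ K1] [Algebra ℚ K2] in
theorem s18rq_coeffMap_algebraMap (φ : K1 →+* K2) (c : K1) :
    coeffMap φ (algebraMap K1 (LaurentSeries K1) c) =
      algebraMap K2 (LaurentSeries K2) (φ c) := by
  rw [algebraMap_laurentSeries_eq_single, algebraMap_laurentSeries_eq_single, coeffMap_single]

/-- A field homomorphism maps `F_{K1}` into `F_{K2}`. -/
theorem s18rq_coeffMap_mem (φ : K1 →+* K2) (F₀ : IntermediateField ℚ (LaurentSeries ℚ))
    {x : LaurentSeries K1} (hx : x ∈ laurentBaseChange K1 F₀) :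
    coeffMap φ x ∈ laurentBaseChange K2 F₀ := by
  rw [mem_laurentBaseChange_iff] at hx
  induction hx using Subfield.closure_induction with
  | mem y hy =>
      rcases hy with ⟨a, rfl⟩ | ⟨z, hz, rfl⟩
      · rw [s18rq_coeffMap_algebraMap]
        exact (laurentBaseChange K2 F₀).algebraMap_mem _
      · rw [s18rq_coeffMap_coeffEmb]
        exact coeffEmb_mem_laurentBaseChange K2 hz
  | one => simp
  | add x y _ _ hx hy => simpa using add_mem hx hy
  | neg x _ hx => simpa using neg_mem hx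
  | inv x _ hx => simpa using inv_mem hx
  | mul x y _ _ hx hy => simpa using mul_mem hx hy

theorem s18rq_coeffMap_injective {R S : Type*} [CommRing R] [CommRing S] (f : R →+* S)
    (hf : Function.Injective f) : Function.Injective (coeffMap f) := by
  intro x y h
  ext k
  apply hf
  have := congrArg (fun z => z.coeff k) h
  simpa using this

end Mono

section Lift

variable {R S : Type*} [CommRing R] [CommRing S]

/-- A Laurent series with coefficients in the range of `f` is in the image of `coeffMap f`. -/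
theorem s18rq_lift (f : R →+* S) (x : LaurentSeries S) (h : ∀ k, ∃ r : R, f r = x.coeff k) :
    ∃ y : LaurentSeries R, coeffMap f y = x := by
  classical
  choose g hg using h
  have hsupp : Function.support (fun k => if x.coeff k = 0 then (0 : R) else g k) ⊆
      x.support := by
    intro k hk
    simp only [Function.mem_support, ne_eq, ite_eq_left_iff, not_forall] at hk
    obtain ⟨hk1, -⟩ := hk
    exact hk1
  refine ⟨⟨fun k => if x.coeff k = 0 then (0 : R) else g k, x.isPWO_support.mono hsupp⟩, ?_⟩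
  ext k
  simp only [coeffMap_coeff]
  by_cases hk : x.coeff k = 0
  · simp [hk]
  · simp [hk, hg]

end Lift

section Descent

variable (M : ℕ)

/-- Enlarging the field of coefficients inside `Q̄`. -/
theorem s18rq_enlarge {K1 K2 : IntermediateField ℚ (AlgebraicClosure ℚ)} (h : K1 ≤ K2)
    {x : LaurentSeries ↥K1} (hx : x ∈ s18_F ↥K1 M) :
    ∃ y : LaurentSeries ↥K2, y ∈ s18_F ↥K2 M ∧
      coeffMap (algebraMap ↥K2 (AlgebraicClosure ℚ)) y =
        coeffMap (algebraMap ↥K1 (AlgebraicClosure ℚ)) x := by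
  refine ⟨coeffMap (IntermediateField.inclusion h : ↥K1 →+* ↥K2) x,
    s18rq_coeffMap_mem _ _ hx, ?_⟩
  rw [coeffMap_coeffMap]
  exact coeffMap_congr (RingHom.ext fun c => rfl) x

/-- **Descent**: every element of `F̄_M` comes from a number field. -/
theorem s18rq_descent {x : LaurentSeries (AlgebraicClosure ℚ)}
    (hx : x ∈ modularFunctionFieldBar M) :
    ∃ K0 : IntermediateField ℚ (AlgebraicClosure ℚ), FiniteDimensional ℚ ↥K0 ∧
      ∃ x0 : LaurentSeries ↥K0, x0 ∈ s18_F ↥K0 M ∧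
        coeffMap (algebraMap ↥K0 (AlgebraicClosure ℚ)) x0 = x := by
  rw [mem_laurentBaseChange_iff] at hx
  induction hx using Subfield.closure_induction with
  | mem y hy =>
      rcases hy with ⟨c, rfl⟩ | ⟨z, hz, rfl⟩
      · have hc : IsIntegral ℚ c := ((AlgebraicClosure.isAlgebraic ℚ).isAlgebraic c).isIntegral
        refine ⟨ℚ⟮c⟯, IntermediateField.adjoin.finiteDimensional hc,
          algebraMap ↥(ℚ⟮c⟯) (LaurentSeries ↥(ℚ⟮c⟯)) ⟨c, mem_adjoin_simple_self ℚ c⟩,
          (s18_F ↥(ℚ⟮c⟯) M).algebraMap_mem _, ?_⟩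
        rw [s18rq_coeffMap_algebraMap]
        rfl
      · refine ⟨⊥, inferInstance, coeffEmb _ z, coeffEmb_mem_laurentBaseChange _ hz, ?_⟩
        rw [s18rq_coeffMap_coeffEmb]
  | one =>
      exact ⟨⊥, inferInstance, 1, one_mem _, map_one _⟩
  | add x y _ _ hx hy =>
      obtain ⟨K1, hK1, x1, hx1, rfl⟩ := hx
      obtain ⟨K2, hK2, y2, hy2, rfl⟩ := hy
      obtain ⟨x', hx', hxx⟩ := s18rq_enlarge M (le_sup_left : K1 ≤ K1 ⊔ K2) hx1
      obtain ⟨y', hy', hyy⟩ := s18rq_enlarge M (le_sup_right : K2 ≤ K1 ⊔ K2) hy2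
      refine ⟨K1 ⊔ K2, IntermediateField.finiteDimensional_sup K1 K2, x' + y',
        add_mem hx' hy', ?_⟩
      rw [map_add, hxx, hyy]
  | neg x _ hx =>
      obtain ⟨K1, hK1, x1, hx1, rfl⟩ := hx
      exact ⟨K1, hK1, -x1, neg_mem hx1, map_neg _ _⟩
  | inv x _ hx =>
      obtain ⟨K1, hK1, x1, hx1, rfl⟩ := hx
      exact ⟨K1, hK1, x1⁻¹, inv_mem hx1, map_inv₀ _ _⟩
  | mul x y _ _ hx hy =>
      obtain ⟨K1, hK1, x1, hx1, rfl⟩ := hx
      obtain ⟨K2, hK2, y2, hy2, rfl⟩ := hy
      obtain ⟨x', hx', hxx⟩ := s18rq_enlarge M (le_sup_left : K1 ≤ K1 ⊔ K2) hx1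
      obtain ⟨y', hy', hyy⟩ := s18rq_enlarge M (le_sup_right : K2 ≤ K1 ⊔ K2) hy2
      refine ⟨K1 ⊔ K2, IntermediateField.finiteDimensional_sup K1 K2, x' * y',
        mul_mem hx' hy', ?_⟩
      rw [map_mul, hxx, hyy]

/-- **Descent of two elements** to a common number field. -/
theorem s18rq_descent₂ {x y : LaurentSeries (AlgebraicClosure ℚ)}
    (hx : x ∈ modularFunctionFieldBar M) (hy : y ∈ modularFunctionFieldBar M) :
    ∃ K0 : IntermediateField ℚ (AlgebraicClosure ℚ), FiniteDimensional ℚ ↥K0 ∧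
      ∃ x0 y0 : LaurentSeries ↥K0, x0 ∈ s18_F ↥K0 M ∧ y0 ∈ s18_F ↥K0 M ∧
        coeffMap (algebraMap ↥K0 (AlgebraicClosure ℚ)) x0 = x ∧
        coeffMap (algebraMap ↥K0 (AlgebraicClosure ℚ)) y0 = y := by
  obtain ⟨K1, hK1, x1, hx1, rfl⟩ := s18rq_descent M hx
  obtain ⟨K2, hK2, y2, hy2, rfl⟩ := s18rq_descent M hy
  obtain ⟨x', hx', hxx⟩ := s18rq_enlarge M (le_sup_left : K1 ≤ K1 ⊔ K2) hx1
  obtain ⟨y', hy', hyy⟩ := s18rq_enlarge M (le_sup_right : K2 ≤ K1 ⊔ K2) hy2
  exact ⟨K1 ⊔ K2, IntermediateField.finiteDimensional_sup K1 K2, x', y', hx', hy', hxx, hyy⟩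

end Descent

end Fermat.Agent.S18
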