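/-
# S18, package (M8) [NORM-FIN-OF] (helper1), part 6: the key hypothesis, concretely

For a number field `K0 ⊆ Q̄`, a level `M` with `4 ∣ M` or `9 ∣ M` and a Hauptmodul
`t ∈ ℤ((q))` with `j · Q(t) = P(t)`, `P = A³`, `P - 1728 Q = D²`: at every place of
`F_{K0}(M) / K0` where `t` is finite and `Q(t)` is a unit, every irreducible `f ∈ K0[X]` with
`ord f(t) > 0` has `ord f(t) = 1`.  ([CFE] transports the place to `F̄_M / Q̄`, where
[RAM-J] and the key computation `s18kc_main` (helper12) apply.)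
-/
import Mathlib
import Fermat.Agent.S18.ModelAbsDefs
import Fermat.Agent.S18.KeyComp
import Fermat.Agent.S18.RatQDescent

set_option autoImplicit false
set_option maxHeartbeats 1000000
set_option synthInstance.maxHeartbeats 400000
set_option linter.style.haveILetI false
set_option linter.unusedSectionVars false

namespace Fermat.Agent.S18

open Polynomial IntermediateField AlgebraicCurve ModularCurve

noncomputable section

section IntPoly

/-- Ring homomorphisms commute with the evaluation of integer polynomials. -/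
theorem s18nf_hom_eval₂_int {R S : Type*} [CommRing R] [CommRing S] (φ : R →+* S) (x : R)
    (G : ℤ[X]) :
    φ (eval₂ (Int.castRingHom R) x G) = eval₂ (Int.castRingHom S) (φ x) G := by
  rw [Polynomial.hom_eval₂]
  congr 1
  exact RingHom.ext_int _ _

/-- The evaluation of an integer polynomial mapped to an algebra. -/
theorem s18nf_aeval_map_int {K F : Type*} [CommRing K] [CommRing F] [Algebra K F] (x : F)
    (G : ℤ[X]) : aeval x (G.map (Int.castRingHom K)) = eval₂ (Int.castRingHom F) x G := by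
  rw [aeval_def, eval₂_map]
  congr 1
  exact RingHom.ext_int _ _

theorem s18nf_coeffMap_int {R S : Type*} [CommRing R] [CommRing S] (φ : R →+* S)
    (t : LaurentSeries ℤ) :
    coeffMap φ (coeffMap (Int.castRingHom R) t) = coeffMap (Int.castRingHom S) t := by
  rw [coeffMap_coeffMap]
  exact coeffMap_congr (RingHom.ext_int _ _) t

/-- The Hauptmodul lies in `F_K(M)`. -/
theorem s18nf_t_mem (K : Type) [Field K] [CharZero K] {M0 M : ℕ} [NeZero M0] [NeZero M]
    (hM : M0 ∣ M) (t : LaurentSeries ℤ)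
    (ht : coeffMap (Int.castRingHom ℚ) t ∈ modularFunctionFieldFull M0) :
    coeffMap (Int.castRingHom K) t ∈ s18_F K M := by
  have h1 : coeffMap (Int.castRingHom K) t = coeffEmb K (coeffMap (Int.castRingHom ℚ) t) := by
    rw [coeffEmb, s18nf_coeffMap_int]
  rw [h1]
  exact coeffEmb_mem_laurentBaseChange K (full_degeneracy_le hM ht)

/-- `j` as a coefficientwise image of the integral series. -/
theorem s18nf_j_coe (K : Type) [Field K] [CharZero K] (M : ℕ) [NeZero M] :
    ((s18_j K M : ↥(s18_F K M)) : LaurentSeries K) = coeffMap (Int.castRingHom K) (jqModC ℤ) := by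
  rw [coeffMap_jqModC]
  show coeffEmb K jq = jqModC K
  rw [← jqModC_rat, coeffEmb, coeffMap_jqModC]

/-- The coercion of the value of an integer polynomial at an element of `F_K(M)`. -/
theorem s18nf_eval₂_coe {K : Type} [Field K] (F : IntermediateField K (LaurentSeries K))
    (x : ↥F) (G : ℤ[X]) :
    ((eval₂ (Int.castRingHom ↥F) x G : ↥F) : LaurentSeries K) =
      eval₂ (Int.castRingHom (LaurentSeries K)) (x : LaurentSeries K) G :=
  s18nf_hom_eval₂_int (F.val : ↥F →+* LaurentSeries K) x G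

/-- The coercion of the value of a polynomial at an element of `F_K(M)`. -/
theorem s18nf_aeval_coe {K : Type} [Field K] (F : IntermediateField K (LaurentSeries K))
    (x : ↥F) (g : K[X]) :
    ((aeval x g : ↥F) : LaurentSeries K) = aeval (x : LaurentSeries K) g :=
  (Polynomial.aeval_algHom_apply F.val x g).symm

/-- Coefficientwise maps and the evaluation of polynomials. -/
theorem s18nf_coeffMap_aeval {K L : Type} [Field K] [Field L] (φ : K →+* L)
    (x : LaurentSeries K) (g : K[X]) :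
    coeffMap φ (aeval x g) = aeval (coeffMap φ x) (g.map φ) := by
  rw [aeval_def, aeval_def, Polynomial.hom_eval₂, eval₂_map]
  congr 1
  ext c
  rw [RingHom.comp_apply, RingHom.comp_apply, s18rq_coeffMap_algebraMap]

end IntPoly

section Key

/-- **The key hypothesis of `s18nf_abs`**, for `F_{K0}(M)`. -/
theorem s18nf_key (hRamJ : s18_RamJStatement) (hCfe : s18_CfeStatement) (M : ℕ) [NeZero M]
    (h49 : 4 ∣ M ∨ 9 ∣ M) (K0 : IntermediateField ℚ (AlgebraicClosure ℚ))
    (hK0 : FiniteDimensional ℚ ↥K0) (t : LaurentSeries ℤ) (P Q A D : ℤ[X])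
    (htmem : coeffMap (Int.castRingHom ↥K0) t ∈ s18_F ↥K0 M)
    (hdeg : Q.natDegree < P.natDegree)
    (hrel : jqModC ℤ * aeval t Q = aeval t P)
    (hA : P = A ^ 3) (hD : P - C 1728 * Q = D ^ 2)
    (𝔓 : Place ↥K0 ↥(s18_F ↥K0 M))
    (ht : 0 ≤ 𝔓.ord (⟨coeffMap (Int.castRingHom ↥K0) t, htmem⟩ : ↥(s18_F ↥K0 M)))
    (hQ : 𝔓.ord (eval₂ (Int.castRingHom ↥(s18_F ↥K0 M))
      (⟨coeffMap (Int.castRingHom ↥K0) t, htmem⟩ : ↥(s18_F ↥K0 M)) Q) = 0)
    (f : (↥K0)[X]) (hf : Irreducible f)
    (hft : 0 < 𝔓.ord (aeval (⟨coeffMap (Int.castRingHom ↥K0) t, htmem⟩ : ↥(s18_F ↥K0 M)) f)) :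
    𝔓.ord (aeval (⟨coeffMap (Int.castRingHom ↥K0) t, htmem⟩ : ↥(s18_F ↥K0 M)) f) = 1 := by
  classical
  set φ : ↥K0 →+* AlgebraicClosure ℚ := algebraMap ↥K0 (AlgebraicClosure ℚ) with hφ
  set tF : ↥(s18_F ↥K0 M) := ⟨coeffMap (Int.castRingHom ↥K0) t, htmem⟩ with htF
  obtain ⟨𝔓', h𝔓'⟩ := hCfe M K0 hK0 𝔓
  have ht'mem : coeffMap (Int.castRingHom (AlgebraicClosure ℚ)) t ∈
      s18_F (AlgebraicClosure ℚ) M := by
    rw [← s18nf_coeffMap_int φ t]
    exact s18rq_coeffMap_mem φ _ htmem
  set t' : ↥(s18_F (AlgebraicClosure ℚ) M) :=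
    ⟨coeffMap (Int.castRingHom (AlgebraicClosure ℚ)) t, ht'mem⟩ with ht'
  -- transfer of orders
  have htrans : ∀ g : (↥K0)[X], 𝔓'.ord (aeval t' (g.map φ)) = 𝔓.ord (aeval tF g) := by
    intro g
    apply h𝔓'
    rw [s18nf_aeval_coe, s18nf_aeval_coe]
    unfold s18_iota
    rw [s18nf_coeffMap_aeval, htF, ht']
    show _ = aeval (coeffMap (algebraMap ↥K0 (AlgebraicClosure ℚ))
      (coeffMap (Int.castRingHom ↥K0) t)) _
    rw [s18nf_coeffMap_int]
  have hmapmap : ∀ G : ℤ[X], (G.map (Int.castRingHom ↥K0)).map φ =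
      G.map (Int.castRingHom (AlgebraicClosure ℚ)) := by
    intro G
    rw [Polynomial.map_map,
      RingHom.ext_int (φ.comp (Int.castRingHom ↥K0)) (Int.castRingHom (AlgebraicClosure ℚ))]
  have hinj : Function.Injective (Int.castRingHom (AlgebraicClosure ℚ)) := Int.cast_injective
  -- the hypotheses of the key computation
  have h1 : s18_j (AlgebraicClosure ℚ) M *
      aeval t' (Q.map (Int.castRingHom (AlgebraicClosure ℚ))) =
      aeval t' (P.map (Int.castRingHom (AlgebraicClosure ℚ))) := by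
    apply Subtype.ext
    have h2 := congrArg (coeffMap (Int.castRingHom (AlgebraicClosure ℚ))) hrel
    have e : algebraMap ℤ (LaurentSeries ℤ) = Int.castRingHom (LaurentSeries ℤ) :=
      RingHom.ext_int _ _
    rw [map_mul, aeval_def, aeval_def, e, s18nf_hom_eval₂_int, s18nf_hom_eval₂_int] at h2
    rw [s18nf_aeval_map_int, s18nf_aeval_map_int]
    push_cast
    rw [s18nf_eval₂_coe, s18nf_eval₂_coe, s18nf_j_coe]
    exact h2
  have h2 : (Q.map (Int.castRingHom (AlgebraicClosure ℚ))).natDegree <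
      (P.map (Int.castRingHom (AlgebraicClosure ℚ))).natDegree := by
    rw [Polynomial.natDegree_map_eq_of_injective hinj, Polynomial.natDegree_map_eq_of_injective hinj]
    exact hdeg
  have h3 : 0 ≤ 𝔓'.ord t' := by
    have := htrans X
    rw [Polynomial.map_X, aeval_X, aeval_X] at this
    rw [this]
    exact ht
  have h4 : 𝔓'.ord (aeval t' (Q.map (Int.castRingHom (AlgebraicClosure ℚ)))) = 0 := by
    rw [← hmapmap, htrans, s18nf_aeval_map_int]
    exact hQ
  have h5 : P.map (Int.castRingHom (AlgebraicClosure ℚ)) =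
      (A.map (Int.castRingHom (AlgebraicClosure ℚ))) ^ 3 := by
    rw [hA, Polynomial.map_pow]
  have h6 : P.map (Int.castRingHom (AlgebraicClosure ℚ)) -
      C 1728 * Q.map (Int.castRingHom (AlgebraicClosure ℚ)) =
      (D.map (Int.castRingHom (AlgebraicClosure ℚ))) ^ 2 := by
    rw [← Polynomial.map_pow, ← hD, Polynomial.map_sub, Polynomial.map_mul, Polynomial.map_C]
    congr 3
  have h7 : (f.map φ).Separable := (hf.separable).map
  have h8 : 0 < 𝔓'.ord (aeval t' (f.map φ)) := by
    rw [htrans]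
    exact hft
  have h9 := s18kc_main 𝔓' t' (s18_j (AlgebraicClosure ℚ) M) _ _ _ _ (f.map φ) h1 h2 h3 h4 h5 h6
    h7 h8 (hRamJ M h49 𝔓').1
  rw [htrans] at h9
  exact h9

end Key

end

end Fermat.Agent.S18
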