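/-
S18, package [RAT-Q] (owner: helper14), part 2: THE RING `O = A ∩ K0`.  Prefix `s18rq_`.

* `s18rq_dvrQ`: a valuation subring of `ℚ` in which the prime `ℓ` is not a unit is a discrete
  valuation ring (it is `ℤ_(ℓ)`; through helper11's `s18disc_of_ord` with `padicValRat ℓ`).
* `s18rq_isUnit_intCast`: in a local ring with `ℓ` in the maximal ideal the integers prime to
  `ℓ` are units.
* `s18rq_perfect`: the residue field of a valuation subring over `ℓ` of a field algebraic over
  `ℚ` is perfect (it is algebraic over `𝔽_ℓ`).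
* `s18rq_incl`, `s18rq_isUnit_incl`, `s18rq_residue_incl`: the local homomorphism
  `A.comap f → A` and the comparison of the residue maps.
-/
import Mathlib
import Fermat.Agent.S18.ModelDefs
import Fermat.Agent.S18.Discrete

set_option autoImplicit false

open AlgebraicCurve ModularCurve IntermediateField

noncomputable section

namespace Fermat.Agent.S18

/-! ### Integers prime to `ℓ` are units -/

theorem s18rq_isUnit_intCast {R : Type*} [CommRing R] [IsLocalRing R] {ℓ : ℕ}
    [hℓ : Fact ℓ.Prime] (h : (ℓ : R) ∈ IsLocalRing.maximalIdeal R) (n : ℤ)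
    (hn : ¬ (ℓ : ℤ) ∣ n) : IsUnit (n : R) := by
  by_contra hu
  have hn' : (n : R) ∈ IsLocalRing.maximalIdeal R := (IsLocalRing.mem_maximalIdeal _).2 hu
  have hirr : Irreducible (ℓ : ℤ) := (Nat.prime_iff_prime_int.1 hℓ.out).irreducible
  obtain ⟨u, w, huw⟩ := (hirr.coprime_iff_not_dvd).2 hn
  have h1 : ((u * (ℓ : ℤ) + w * n : ℤ) : R) = 1 := by rw [huw]; simp
  have h2 : ((u * (ℓ : ℤ) + w * n : ℤ) : R) ∈ IsLocalRing.maximalIdeal R := by
    push_cast
    exact Ideal.add_mem _ (Ideal.mul_mem_left _ _ h) (Ideal.mul_mem_left _ _ hn')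
  rw [h1] at h2
  exact (Ideal.ne_top_iff_one _).1 (IsLocalRing.maximalIdeal.isMaximal R).ne_top h2

theorem s18rq_isUnit_natCast {R : Type*} [CommRing R] [IsLocalRing R] {ℓ : ℕ}
    [hℓ : Fact ℓ.Prime] (h : (ℓ : R) ∈ IsLocalRing.maximalIdeal R) (m : ℕ)
    (hm : ¬ ℓ ∣ m) : IsUnit (m : R) := by
  have := s18rq_isUnit_intCast h (m : ℤ) (fun h' => hm (Int.natCast_dvd_natCast.1 h'))
  simpa using this

/-! ### Valuation subrings of `ℚ` -/

theorem s18rq_den_not_dvd (ℓ : ℕ) [hℓ : Fact ℓ.Prime] (x : ℚ) (hx : 0 ≤ padicValRat ℓ x) :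
    ¬ ℓ ∣ x.den := by
  intro h
  have hnum : ¬ (ℓ : ℤ) ∣ x.num := by
    intro h2
    have hcop : x.num.natAbs.Coprime x.den := x.reduced
    have h3 : ℓ ∣ x.num.natAbs := Int.natCast_dvd.1 h2
    have h4 : ℓ ∣ Nat.gcd x.num.natAbs x.den := Nat.dvd_gcd h3 h
    rw [hcop] at h4
    exact hℓ.out.one_lt.ne' (Nat.dvd_one.1 h4)
  rw [padicValRat_def] at hx
  have h1 : padicValInt ℓ x.num = 0 := padicValInt.eq_zero_of_not_dvd hnum
  have h2 : 1 ≤ padicValNat ℓ x.den := one_le_padicValNat_of_dvd x.den_ne_zero h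
  omega

theorem s18rq_natCast_mem_maximalIdeal {K : Type*} [Field K] (V : ValuationSubring K) (ℓ : ℕ)
    (h : (ℓ : K) ∈ V.nonunits) : (ℓ : ↥V) ∈ IsLocalRing.maximalIdeal ↥V := by
  have h1 : (((ℓ : ↥V) : ↥V) : K) ∈ V.nonunits := by
    simpa using h
  exact ValuationSubring.coe_mem_nonunits_iff.1 h1

theorem s18rq_mem_of_padic (V : ValuationSubring ℚ) (ℓ : ℕ) [hℓ : Fact ℓ.Prime]
    (h : (ℓ : ℚ) ∈ V.nonunits) (x : ℚ) (hx : 0 ≤ padicValRat ℓ x) : x ∈ V := by
  have hden := s18rq_den_not_dvd ℓ x hx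
  have hu : IsUnit ((x.den : ℤ) : ↥V) :=
    s18rq_isUnit_intCast (s18rq_natCast_mem_maximalIdeal V ℓ h) (x.den : ℤ)
      (fun h' => hden (Int.natCast_dvd_natCast.1 h'))
  obtain ⟨y, hy⟩ := isUnit_iff_exists_inv.1 hu
  have hy' : (x.den : ℚ) * (y : ℚ) = 1 := by
    have := congrArg (Subtype.val) hy
    simpa using this
  have hx' : x = (x.num : ℚ) * (y : ℚ) := by
    have hd : (x.den : ℚ) ≠ 0 := by exact_mod_cast x.den_ne_zero
    have h1 : (y : ℚ) = (x.den : ℚ)⁻¹ := by
      field_simp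
      linarith
    rw [h1, ← div_eq_mul_inv, Rat.num_div_den]
  rw [hx']
  exact V.mul_mem _ _ (intCast_mem V x.num) y.2

/-- A valuation subring of `ℚ` in which `ℓ` is not a unit is a discrete valuation ring. -/
theorem s18rq_dvrQ (V : ValuationSubring ℚ) (ℓ : ℕ) [hℓ : Fact ℓ.Prime]
    (h : (ℓ : ℚ) ∈ V.nonunits) : IsDiscreteValuationRing ↥V := by
  have hℓ0 : (ℓ : ℚ) ≠ 0 := by exact_mod_cast hℓ.out.ne_zero
  have hinv : (ℓ : ℚ)⁻¹ ∉ V := by
    rcases (ValuationSubring.mem_nonunits_iff_or V).1 h with h0 | h0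
    · exact absurd h0 hℓ0
    · exact h0
  refine s18disc_of_ord V (padicValRat ℓ) (fun x y hx hy => padicValRat.mul hx hy) ?_
    ⟨(ℓ : ℚ), hℓ0, by rw [padicValRat.self hℓ.out.one_lt]; norm_num⟩
  intro x hx
  refine ⟨fun hxV => ?_, fun hx' => s18rq_mem_of_padic V ℓ h x hx'⟩
  by_contra hneg
  rw [not_le] at hneg
  -- `x⁻¹ / ℓ` has non-negative order
  have h1 : 0 ≤ padicValRat ℓ (x⁻¹ / (ℓ : ℚ)) := by
    rw [padicValRat.div (inv_ne_zero hx) hℓ0, padicValRat.inv, padicValRat.self hℓ.out.one_lt]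
    omega
  have h2 : x⁻¹ / (ℓ : ℚ) ∈ V := s18rq_mem_of_padic V ℓ h _ h1
  have h3 : (ℓ : ℚ)⁻¹ = x * (x⁻¹ / (ℓ : ℚ)) := by
    field_simp
  exact hinv (h3 ▸ V.mul_mem _ _ hxV h2)

/-! ### The residue field is perfect -/

theorem s18rq_perfect {K : Type*} [Field K] [CharZero K] [Algebra.IsAlgebraic ℚ K]
    (O : ValuationSubring K) (ℓ : ℕ) [hℓ : Fact ℓ.Prime]
    (h : (ℓ : ↥O) ∈ IsLocalRing.maximalIdeal ↥O) :
    PerfectField (IsLocalRing.ResidueField ↥O) := by
  classical
  have hchar0 : ((ℓ : ℕ) : IsLocalRing.ResidueField ↥O) = 0 := by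
    have := (IsLocalRing.residue_eq_zero_iff (ℓ : ↥O)).2 h
    simpa using this
  have : CharP (IsLocalRing.ResidueField ↥O) ℓ :=
    (CharP.charP_iff_prime_eq_zero hℓ.out).2 hchar0
  let _ : Algebra (ZMod ℓ) (IsLocalRing.ResidueField ↥O) := ZMod.algebra _ ℓ
  have : Algebra.IsAlgebraic (ZMod ℓ) (IsLocalRing.ResidueField ↥O) := by
    refine ⟨fun xbar => ?_⟩
    obtain ⟨x, rfl⟩ := IsLocalRing.residue_surjective xbar
    have hxalg : IsAlgebraic ℤ (x : K) :=
      (IsFractionRing.isAlgebraic_iff ℤ ℚ K).2 (Algebra.IsAlgebraic.isAlgebraic (x : K))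
    obtain ⟨p, hp0, hp⟩ := hxalg
    -- the primitive part
    have hqprim : p.primPart.IsPrimitive := Polynomial.isPrimitive_primPart p
    have hq : Polynomial.eval₂ (Int.castRingHom K) (x : K) p.primPart = 0 := by
      have h1 : Polynomial.eval₂ (Int.castRingHom K) (x : K) p = 0 := by
        rw [← hp, Polynomial.aeval_def]
        congr 1
      rw [Polynomial.eq_C_content_mul_primPart p, Polynomial.eval₂_mul,
        Polynomial.eval₂_C] at h1
      rcases mul_eq_zero.1 h1 with h2 | h2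
      · exfalso
        have : (p.content : ℤ) = 0 := by
          have : ((p.content : ℤ) : K) = 0 := by simpa using h2
          exact_mod_cast this
        exact hp0 (Polynomial.content_eq_zero_iff.1 this)
      · exact h2
    have hqO : Polynomial.eval₂ (Int.castRingHom ↥O) x p.primPart = 0 := by
      apply Subtype.ext
      have := Polynomial.hom_eval₂ p.primPart (Int.castRingHom ↥O) O.subtype x
      rw [show (O.subtype : ↥O →+* K).comp (Int.castRingHom ↥O) = Int.castRingHom K from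
        RingHom.ext_int _ _] at this
      rw [show ((Polynomial.eval₂ (Int.castRingHom ↥O) x p.primPart : ↥O) : K) =
        O.subtype (Polynomial.eval₂ (Int.castRingHom ↥O) x p.primPart) from rfl, this]
      exact hq
    have hqκ : Polynomial.eval₂ (Int.castRingHom (IsLocalRing.ResidueField ↥O))
        (IsLocalRing.residue ↥O x) p.primPart = 0 := by
      have := Polynomial.hom_eval₂ p.primPart (Int.castRingHom ↥O) (IsLocalRing.residue ↥O) x
      rw [show (IsLocalRing.residue ↥O).comp (Int.castRingHom ↥O) =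
        Int.castRingHom (IsLocalRing.ResidueField ↥O) from RingHom.ext_int _ _] at this
      rw [← this, hqO, map_zero]
    refine ⟨p.primPart.map (Int.castRingHom (ZMod ℓ)), ?_, ?_⟩
    · intro hmap
      have hdvd : Polynomial.C (ℓ : ℤ) ∣ p.primPart := by
        rw [Polynomial.C_dvd_iff_dvd_coeff]
        intro i
        have := congrArg (fun r => r.coeff i) hmap
        simp only [Polynomial.coeff_map, Polynomial.coeff_zero] at this
        exact (ZMod.intCast_zmod_eq_zero_iff_dvd _ _).1 this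
      have hunit : IsUnit (ℓ : ℤ) := hqprim _ hdvd
      have := Int.isUnit_iff.1 hunit
      have hℓ1 := hℓ.out.one_lt
      omega
    · rw [Polynomial.aeval_def, Polynomial.eval₂_map,
        show (algebraMap (ZMod ℓ) (IsLocalRing.ResidueField ↥O)).comp
          (Int.castRingHom (ZMod ℓ)) = Int.castRingHom (IsLocalRing.ResidueField ↥O) from
          RingHom.ext_int _ _]
      exact hqκ
  exact Algebra.IsAlgebraic.perfectField (ZMod ℓ)

/-! ### The comparison `A.comap f → A` -/

section Incl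

variable {K L : Type*} [Field K] [Field L] (f : K →+* L) (A : ValuationSubring L)

/-- The inclusion `A ∩ K → A`. -/
def s18rq_incl : ↥(A.comap f) →+* ↥A :=
  (f.comp (A.comap f).subtype).codRestrict A.toSubring (fun x => x.2)

@[simp]
theorem s18rq_incl_coe (x : ↥(A.comap f)) : ((s18rq_incl f A x : ↥A) : L) = f (x : K) := rfl

theorem s18rq_subtype_comp_incl :
    (A.subtype : ↥A →+* L).comp (s18rq_incl f A) = f.comp (A.comap f).subtype := rfl

theorem s18rq_isUnit_incl (x : ↥(A.comap f)) : IsUnit (s18rq_incl f A x) ↔ IsUnit x := by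
  constructor
  · intro hu
    obtain ⟨y, hy⟩ := isUnit_iff_exists_inv.1 hu
    have hy' : f (x : K) * (y : L) = 1 := by
      have := congrArg (Subtype.val) hy
      simpa using this
    have hx0 : (x : K) ≠ 0 := by
      intro h0
      rw [h0, map_zero, zero_mul] at hy'
      exact zero_ne_one hy'
    have hfx0 : f (x : K) ≠ 0 := (map_ne_zero f).2 hx0
    have hyinv : (y : L) = f ((x : K)⁻¹) := by
      rw [map_inv₀]
      exact eq_inv_of_mul_eq_one_right hy'
    have hmem : (x : K)⁻¹ ∈ A.comap f := by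
      rw [ValuationSubring.mem_comap, ← hyinv]
      exact y.2
    exact isUnit_iff_exists_inv.2 ⟨⟨(x : K)⁻¹, hmem⟩, Subtype.ext (mul_inv_cancel₀ hx0)⟩
  · intro hu
    exact hu.map (s18rq_incl f A)

theorem s18rq_residue_incl (x : ↥(A.comap f)) :
    IsLocalRing.residue ↥A (s18rq_incl f A x) = 0 ↔ IsLocalRing.residue ↥(A.comap f) x = 0 := by
  rw [IsLocalRing.residue_eq_zero_iff, IsLocalRing.residue_eq_zero_iff,
    IsLocalRing.mem_maximalIdeal, IsLocalRing.mem_maximalIdeal, mem_nonunits_iff,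
    mem_nonunits_iff, s18rq_isUnit_incl]

theorem s18rq_nonunits_comap {x : K} (hx : f x ∈ A.nonunits) : x ∈ (A.comap f).nonunits := by
  rw [ValuationSubring.mem_nonunits_iff_or] at hx ⊢
  rcases hx with h0 | h0
  · left
    exact (map_eq_zero f).1 h0
  · right
    intro h1
    apply h0
    rw [ValuationSubring.mem_comap, map_inv₀] at h1
    exact h1

end Incl

end Fermat.Agent.S18
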