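/-
# S18, package (M8) [NORM-FIN-OF] (helper1): the finite chart

`s18nf_main : s18_NormFinOfStatement`
  (= [HAUPT-4] → [HAUPT-9] → [RAM-J] → [CFE] → [SEP] → [PURE] → [NORM-FIN]).

The abstract theorem `s18nf_abs` (`NormFinAsm.lean`) is applied to `O ⊆ K0`, `F = F_{K0}(M)`,
`j`, and the Hauptmodul `t` of level `4` or `9`; the reduction map is the one of [GAUSS-Q],
its separability is [SEP] (`ord t̄ = -1`), and the key hypothesis is `s18nf_key`
(`NormFinKey.lean`: [CFE] + [RAM-J] + the key computation).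
-/
import Mathlib
import Fermat.Agent.S18.NormFinAsm
import Fermat.Agent.S18.NormFinKey
import Fermat.Agent.S18.RatQRing

set_option autoImplicit false
set_option maxHeartbeats 1000000
set_option synthInstance.maxHeartbeats 400000
set_option linter.style.haveILetI false
set_option linter.unusedSectionVars false

namespace Fermat.Agent.S18

open Polynomial IntermediateField AlgebraicCurve ModularCurve

noncomputable section

section Final

/-- The order of the coefficientwise image of a series `q⁻¹ + ...`. -/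
theorem s18nf_order_red {R : Type*} [CommRing R] [Nontrivial R] (f : ℤ →+* R)
    (t : LaurentSeries ℤ) (hord : t.order = -1) (hlead : t.coeff (-1) = 1) :
    (coeffMap f t).order = -1 := by
  have h1 : (coeffMap f t).coeff (-1) ≠ 0 := by
    rw [coeffMap_coeff, hlead, map_one]
    exact one_ne_zero
  have h0 : coeffMap f t ≠ 0 := by
    intro h
    rw [h] at h1
    exact h1 rfl
  apply le_antisymm (HahnSeries.order_le_of_coeff_ne_zero h1)
  by_contra hlt
  rw [not_le] at hlt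
  apply h0
  rw [← HahnSeries.coeff_order_eq_zero, coeffMap_coeff,
    HahnSeries.coeff_eq_zero_of_lt_order (by rw [hord]; exact hlt), map_zero]


/-- **[NORM-FIN] at a level `M` divisible by a level `M0` with a Hauptmodul.** -/
theorem s18nf_at (hRamJ : s18_RamJStatement) (hCfe : s18_CfeStatement)
    (hSep : s18_SepStatement) (hPure : s18_PureStatement) (M : ℕ) [NeZero M] {ℓ : ℕ}
    [Fact ℓ.Prime] (h49 : 4 ∣ M ∨ 9 ∣ M) (M0 : ℕ) [NeZero M0] (hM0 : M0 ∣ M)
    (hH : s18_HauptAt M0 ℓ) (K0 : IntermediateField ℚ (AlgebraicClosure ℚ))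
    (hK0 : FiniteDimensional ℚ ↥K0) (O : ValuationSubring ↥K0) [IsDiscreteValuationRing ↥O]
    (hℓ : (ℓ : ↥O) ∈ IsLocalRing.maximalIdeal ↥O)
    (hperf : PerfectField (IsLocalRing.ResidueField ↥O)) (hg : s18_GaussQAt ↥O ↥K0 M) :
    letI := s18_algOF ↥O ↥K0 M
    IsIntegrallyClosed (s18_fibre ↥O ({s18_j ↥K0 M} : Set ↥(s18_F ↥K0 M))) := by
  letI := s18_algOF ↥O ↥K0 M
  haveI := s18_towerOF ↥O ↥K0 M
  obtain ⟨t, P, Q, A, D, hmem, hord, hlead, hPm, hdeg, -, hrel, hA, hD, -, -, a, b, r, hr,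
    hbez⟩ := hH
  obtain ⟨htr, hfin, hdom, -, ⟨ρ, hker, hcompat⟩, -, -⟩ := hg
  have htmem := s18nf_t_mem ↥K0 hM0 t hmem
  set tF : ↥(s18_F ↥K0 M) := ⟨coeffMap (Int.castRingHom ↥K0) t, htmem⟩ with htF
  set ι := Int.castRingHom ↥O with hι
  have hr' : IsUnit (ι r) := s18rq_isUnit_intCast hℓ r hr
  have hP' : (P.map ι).Monic := hPm.map ι
  have hdeg' : (Q.map ι).natDegree < (P.map ι).natDegree := by
    rw [hPm.natDegree_map]
    exact lt_of_le_of_lt Polynomial.natDegree_map_le hdeg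
  have hjt' : s18_j ↥K0 M * aeval tF (Q.map ι) = aeval tF (P.map ι) := by
    apply Subtype.ext
    have e : algebraMap ℤ (LaurentSeries ℤ) = Int.castRingHom (LaurentSeries ℤ) :=
      RingHom.ext_int _ _
    have h2 := congrArg (coeffMap (Int.castRingHom ↥K0)) hrel
    rw [map_mul, aeval_def, aeval_def, e, s18nf_hom_eval₂_int, s18nf_hom_eval₂_int] at h2
    rw [s18nf_aeval_map_int, s18nf_aeval_map_int]
    push_cast
    rw [s18nf_eval₂_coe, s18nf_eval₂_coe, s18nf_j_coe]
    exact h2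
  have hbez' : a.map ι * P.map ι + b.map ι * Q.map ι = C (ι r) := by
    rw [← Polynomial.map_mul, ← Polynomial.map_mul, ← Polynomial.map_add, hbez,
      Polynomial.map_C]
  -- the reduction map
  have hρ1 : ρ 1 = 1 := map_one ρ
  have hconst : ∀ c : ↥O, ρ (algebraMap ↥O ↥(s18_chart ↥O ({s18_j ↥K0 M} :
      Set ↥(s18_F ↥K0 M))) c) =
      algebraMap (IsLocalRing.ResidueField ↥O) (LaurentSeries (IsLocalRing.ResidueField ↥O))
        (IsLocalRing.residue ↥O c) := by
    intro c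
    have h1 := hcompat 1 (algebraMap ↥O ↥(s18_chart ↥O ({s18_j ↥K0 M} :
      Set ↥(s18_F ↥K0 M))) c) (HahnSeries.single 0 c) (by
        rw [coeffMap_single, ← algebraMap_laurentSeries_eq_single]
        show algebraMap ↥K0 (LaurentSeries ↥K0) (algebraMap ↥O ↥K0 c) = _ * 1
        rw [mul_one])
    rw [h1, hρ1, mul_one, coeffMap_single, ← algebraMap_laurentSeries_eq_single]
  have hρt : ρ ⟨tF, s18nf_t_mem_chart hP' hdeg' hjt'⟩ =
      coeffMap (Int.castRingHom (IsLocalRing.ResidueField ↥O)) t := by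
    have h1 := hcompat 1 ⟨tF, s18nf_t_mem_chart hP' hdeg' hjt'⟩
      (coeffMap (Int.castRingHom ↥O) t) (by
        rw [s18nf_coeffMap_int]
        show coeffMap (Int.castRingHom ↥K0) t = _ * 1
        rw [mul_one])
    rw [h1, hρ1, mul_one, s18nf_coeffMap_int]
  -- separability
  haveI : CharP (IsLocalRing.ResidueField ↥O) ℓ := by
    rw [CharP.charP_iff_prime_eq_zero (Fact.out : ℓ.Prime)]
    have h1 := (IsLocalRing.residue_eq_zero_iff (ℓ : ↥O)).2 hℓ
    rw [map_natCast] at h1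
    exact h1
  haveI := hperf
  have hordt : (coeffMap (Int.castRingHom (IsLocalRing.ResidueField ↥O)) t).order = -1 :=
    s18nf_order_red _ t hord hlead
  have hdvd : ¬ (ℓ : ℤ) ∣ (coeffMap (Int.castRingHom (IsLocalRing.ResidueField ↥O)) t).order := by
    rw [hordt]
    intro h
    have h1 : (ℓ : ℤ) ∣ 1 := (dvd_neg.1 h)
    have h2 : ℓ ∣ 1 := Int.natCast_dvd_natCast.1 (by simpa using h1)
    exact (Fact.out : ℓ.Prime).one_lt.ne' (Nat.dvd_one.1 h2)
  have hsep0 : ∀ x : LaurentSeries (IsLocalRing.ResidueField ↥O),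
      x = coeffMap (Int.castRingHom (IsLocalRing.ResidueField ↥O)) t →
      ∀ y : LaurentSeries (IsLocalRing.ResidueField ↥O),
        IsAlgebraic ↥((IsLocalRing.ResidueField ↥O)⟮x⟯) y →
        IsSeparable ↥((IsLocalRing.ResidueField ↥O)⟮x⟯) y := by
    rintro x rfl y hy
    exact hSep (IsLocalRing.ResidueField ↥O) ℓ _ y hdvd hy
  have hsep := hsep0 _ hρt
  -- the key hypothesis
  have hkey : ∀ 𝔓 : Place ↥K0 ↥(s18_F ↥K0 M), 0 ≤ 𝔓.ord tF →
      𝔓.ord (aeval tF (Q.map ι)) = 0 →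
      ∀ f : (↥K0)[X], Irreducible f → 0 < 𝔓.ord (aeval tF f) → 𝔓.ord (aeval tF f) = 1 := by
    intro 𝔓 h1 h2 f hf hft
    rw [s18nf_aeval_map_int] at h2
    exact s18nf_key hRamJ hCfe M h49 K0 hK0 t P Q A D htmem hdeg hrel hA hD 𝔓 h1 h2 f hf hft
  exact s18nf_abs hPure hr' hP' hdeg' hjt' hbez' htr hfin hdom
    (LaurentSeries (IsLocalRing.ResidueField ↥O)) ρ hker hconst hsep hkey

/-- **[NORM-FIN-OF]** -/
theorem s18nf_main : s18_NormFinOfStatement := by
  intro hH4 hH9 hRamJ hCfe hSep hPure M _ ℓ _ hℓM h49 K0 hK0 O _ hℓ hperf hg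
  rcases h49 with h4 | h9
  · have hℓ2 : ℓ ≠ 2 := by
      rintro rfl
      exact hℓM (dvd_trans (by norm_num) h4)
    exact s18nf_at hRamJ hCfe hSep hPure M (Or.inl h4) 4 h4 (hH4 ℓ hℓ2) K0 hK0 O hℓ hperf hg
  · have hℓ3 : ℓ ≠ 3 := by
      rintro rfl
      exact hℓM (dvd_trans (by norm_num) h9)
    exact s18nf_at hRamJ hCfe hSep hPure M (Or.inr h9) 9 h9 (hH9 ℓ hℓ3) K0 hK0 O hℓ hperf hg

end Final

end

end Fermat.Agent.S18
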