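/-
S18, package (A8) [NSATZ] (owner: lead).  Prefix `s18ns_`.

`s18ns_main : s18_NsatzStatement`: approximate `m`-th roots of `u` modulo `ϖ^k` for all `k`
inside a finitely generated `O`-module give an `m`-th root of `1 ⊗ u` in `C ⊗[K] F` for every
algebraically closed field `C ⊇ K`.

PROOF.  `Λ = span_O (e_1, …, e_r)`.  In `P ⊗[K] F`, `P = K[X_1, …, X_r]`, let
`Y = ∑ X_i ⊗ e_i` and write `Y^m - 1 ⊗ u = ∑_i b_i ⊗ 𝒞_i` along a `K`-basis `𝒞` of `F`.
If the ideal `I = (b_i)` is proper, Zariski's lemma gives a `K`-algebra map `ψ : P → C` killing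
`I`, and `y = (ψ ⊗ id) Y` is the root.  If `1 = ∑ c_i b_i`, evaluate at the coordinate vectors
`x⁽ᵏ⁾ ∈ O^r` of the approximate roots `s_k`: `b_i(x⁽ᵏ⁾) = ϖ^k · 𝒞_i^*(t_k)`, so `1 ∈ ϖ^k N` for
all `k`, with `N = ∑_i (O-span of the coefficients of c_i) · 𝒞_i^*(Λ')` finitely generated over
`O`: impossible by Krull's intersection theorem.
-/
import Mathlib
import Fermat.Agent.S18.LiftDefs

set_option autoImplicit false

open scoped TensorProduct

noncomputable section

namespace Fermat.Agent.S18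

/-- Krull: in a finitely generated module over a DVR nothing nonzero is divisible by all
powers of `ϖ` (inside the module). -/
theorem s18ns_krull {O : Type} [CommRing O] [IsDomain O] [IsDiscreteValuationRing O]
    {M : Type} [AddCommGroup M] [Module O M] (ϖ : O) (hϖ : Irreducible ϖ)
    (N : Submodule O M) (hN : N.FG) (z : M)
    (h : ∀ k : ℕ, ∃ n ∈ N, z = ϖ ^ k • n) : z = 0 := by
  have : Module.Finite O ↥N := Module.Finite.iff_fg.mpr hN
  have hI : Ideal.span ({ϖ} : Set O) ≠ ⊤ := by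
    rw [Ne, Ideal.span_singleton_eq_top]
    exact hϖ.not_isUnit
  have hK := Ideal.iInf_pow_smul_eq_bot_of_isLocalRing (Ideal.span ({ϖ} : Set O)) (M := ↥N) hI
  obtain ⟨n₀, hn₀, hz₀⟩ := h 0
  have hzN : z ∈ N := by
    rw [hz₀]
    simpa using hn₀
  have hmem : (⟨z, hzN⟩ : ↥N) ∈ ⨅ i : ℕ, Ideal.span ({ϖ} : Set O) ^ i • (⊤ : Submodule O ↥N) := by
    rw [Submodule.mem_iInf]
    intro k
    obtain ⟨n, hn, hz⟩ := h k
    have : (⟨z, hzN⟩ : ↥N) = ϖ ^ k • (⟨n, hn⟩ : ↥N) := by
      apply Subtype.ext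
      simpa using hz
    rw [this]
    exact Submodule.smul_mem_smul (Ideal.pow_mem_pow (Ideal.mem_span_singleton_self ϖ) k)
      Submodule.mem_top
  rw [hK, Submodule.mem_bot] at hmem
  exact congrArg Subtype.val hmem

/-- The value of a polynomial over `K` at an `O`-valued point lies in the `O`-span of its
coefficients. -/
theorem s18ns_eval_mem {O K : Type} [CommRing O] [Field K] [Algebra O K] {r : ℕ}
    (g : MvPolynomial (Fin r) K) (x : Fin r → O) :
    MvPolynomial.eval (fun i => algebraMap O K (x i)) g ∈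
      Submodule.span O ((fun d => g.coeff d) '' (g.support : Set (Fin r →₀ ℕ))) := by
  rw [MvPolynomial.eval_eq']
  refine Submodule.sum_mem _ fun d hd => ?_
  have h1 : (∏ i, (algebraMap O K (x i)) ^ d i) = algebraMap O K (∏ i, x i ^ d i) := by
    simp [map_prod]
  rw [h1, mul_comm, ← Algebra.smul_def]
  exact Submodule.smul_mem _ _ (Submodule.subset_span ⟨d, hd, rfl⟩)

/-- Step 1: the ideal generated by the coefficients `b_i` is proper. -/
theorem s18ns_proper {O K F : Type} [CommRing O] [IsDomain O] [IsDiscreteValuationRing O]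
    [Field K] [Algebra O K] [Field F] [Algebra K F]
    [Algebra O F] [IsScalarTower O K F] (ϖ : O) (hϖ : Irreducible ϖ)
    (m : ℕ) (u : F) (r : ℕ) (e : Fin r → F) (Λ' : Submodule O F) (hΛ' : Λ'.FG)
    (happ : ∀ k : ℕ, ∃ x : Fin r → O, ∃ t ∈ Λ', (∑ i, x i • e i) ^ m - u = (ϖ ^ k) • t)
    {ι : Type} (𝒞 : Module.Basis ι K F) (b : ι →₀ MvPolynomial (Fin r) K)
    (hb : b.sum (fun i a => a ⊗ₜ[K] 𝒞 i) =
      (∑ i, (MvPolynomial.X i : MvPolynomial (Fin r) K) ⊗ₜ[K] e i) ^ m - 1 ⊗ₜ[K] u) :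
    Ideal.span (Set.range b) ≠ ⊤ := by
  classical
  intro htop
  have h1 : (1 : MvPolynomial (Fin r) K) ∈ Ideal.span (Set.range b) := by
    rw [htop]; trivial
  obtain ⟨c, hc⟩ := Finsupp.mem_ideal_span_range_iff_exists_finsupp.mp h1
  let N : Submodule O K := ⨆ i ∈ c.support,
    (Submodule.span O ((fun d => (c i).coeff d) '' ((c i).support : Set (Fin r →₀ ℕ)))) *
      (Λ'.map ((𝒞.coord i).restrictScalars O))
  have hN : N.FG := Submodule.fg_biSup _ _ fun i _ =>
    (Submodule.fg_span ((Finset.finite_toSet _).image _)).mul (hΛ'.map _)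
  refine one_ne_zero (s18ns_krull ϖ hϖ N hN (1 : K) fun k => ?_)
  obtain ⟨x, t, ht, hxt⟩ := happ k
  let xK : Fin r → K := fun i => algebraMap O K (x i)
  let θ : MvPolynomial (Fin r) K ⊗[K] F →ₐ[K] F :=
    Algebra.TensorProduct.productMap
      (MvPolynomial.aeval (fun i => algebraMap K F (xK i))) (AlgHom.id K F)
  have hθ := congrArg θ hb
  have hae : ∀ a : MvPolynomial (Fin r) K,
      MvPolynomial.aeval (fun i => algebraMap K F (xK i)) a
        = algebraMap K F (MvPolynomial.eval xK a) := by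
    intro a
    have := MvPolynomial.aeval_algebraMap_apply (B := F) xK a
    simpa [Function.comp_def, MvPolynomial.coe_aeval_eq_eval] using this
  have hL : θ (b.sum (fun i a => a ⊗ₜ[K] 𝒞 i)) =
      Finsupp.linearCombination K 𝒞 (b.mapRange (MvPolynomial.eval xK) (map_zero _)) := by
    rw [map_finsuppSum, Finsupp.linearCombination_apply, Finsupp.sum_mapRange_index (by simp)]
    refine Finsupp.sum_congr fun i _ => ?_
    simp only [θ, Algebra.TensorProduct.productMap_apply_tmul, AlgHom.coe_id, id_eq, hae,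
      Algebra.smul_def]
  have hR : θ ((∑ i, (MvPolynomial.X i : MvPolynomial (Fin r) K) ⊗ₜ[K] e i) ^ m - 1 ⊗ₜ[K] u) =
      (ϖ ^ k) • t := by
    rw [← hxt, map_sub, map_pow, map_sum]
    congr 1
    · congr 1
      refine Finset.sum_congr rfl fun i _ => ?_
      simp only [θ, xK, Algebra.TensorProduct.productMap_apply_tmul, AlgHom.coe_id, id_eq,
        MvPolynomial.aeval_X]
      rw [← IsScalarTower.algebraMap_apply, Algebra.smul_def]
    · simp [θ]
  rw [hL, hR] at hθ
  have hrep : ∀ i, MvPolynomial.eval xK (b i) = algebraMap O K (ϖ ^ k) * 𝒞.coord i t := by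
    intro i
    have h2 := congrArg (fun v => 𝒞.repr v i) hθ
    simp only [Module.Basis.repr_linearCombination, Finsupp.mapRange_apply] at h2
    rw [h2, ← IsScalarTower.algebraMap_smul K (ϖ ^ k) t, map_smul]
    simp [Module.Basis.coord_apply]
  refine ⟨∑ i ∈ c.support, MvPolynomial.eval xK (c i) * 𝒞.coord i t, ?_, ?_⟩
  · refine Submodule.sum_mem _ fun i hi => ?_
    refine Submodule.mem_iSup_of_mem i (Submodule.mem_iSup_of_mem hi ?_)
    exact Submodule.mul_mem_mul (s18ns_eval_mem (c i) x)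
      (Submodule.mem_map_of_mem (f := (𝒞.coord i).restrictScalars O) ht)
  · have h3 := congrArg (MvPolynomial.eval xK) hc
    rw [map_one, map_finsuppSum] at h3
    rw [← h3, Finsupp.sum, Finset.smul_sum]
    refine Finset.sum_congr rfl fun i _ => ?_
    rw [map_mul, hrep, Algebra.smul_def]
    ring

/-- **[NSATZ]**: approximate roots modulo `ϖ^k` for all `k` in a finitely generated `O`-module
give a root over every algebraically closed field `C ⊇ K`. -/
theorem s18ns_main : s18_NsatzStatement := by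
  intro O K F _ _ _ _ _ _ _ _ _ _ ϖ hϖ m u hA C _ _ _
  obtain ⟨Λ, Λ', hΛ, hΛ', happ⟩ := hA
  obtain ⟨r, e, he⟩ := Submodule.fg_iff_exists_fin_generating_family.mp hΛ
  have happ' : ∀ k : ℕ, ∃ x : Fin r → O, ∃ t ∈ Λ',
      (∑ i, x i • e i) ^ m - u = (ϖ ^ k) • t := by
    intro k
    obtain ⟨s, hs, t, ht, hst⟩ := happ k
    rw [← he] at hs
    obtain ⟨x, hx⟩ := (Submodule.mem_span_range_iff_exists_fun O).mp hs
    exact ⟨x, t, ht, by rw [hx]; exact hst⟩
  obtain ⟨b, hb⟩ := TensorProduct.eq_repr_basis_right (Module.Basis.ofVectorSpace K F)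
    ((∑ i, (MvPolynomial.X i : MvPolynomial (Fin r) K) ⊗ₜ[K] e i) ^ m - 1 ⊗ₜ[K] u)
  have hI := s18ns_proper ϖ hϖ m u r e Λ' hΛ' happ' (Module.Basis.ofVectorSpace K F) b hb
  obtain ⟨𝔪, h𝔪, hle⟩ := Ideal.exists_le_maximal _ hI
  letI := Ideal.Quotient.field 𝔪
  haveI : Module.Finite K (MvPolynomial (Fin r) K ⧸ 𝔪) :=
    finite_of_finite_type_of_isJacobsonRing K _
  let φ : (MvPolynomial (Fin r) K ⧸ 𝔪) →ₐ[K] C := IsAlgClosed.lift
  let ψ : MvPolynomial (Fin r) K →ₐ[K] C := φ.comp (Ideal.Quotient.mkₐ K 𝔪)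
  have hψ : ∀ i, ψ (b i) = 0 := by
    intro i
    have h0 : Ideal.Quotient.mkₐ K 𝔪 (b i) = 0 := by
      rw [Ideal.Quotient.mkₐ_eq_mk, Ideal.Quotient.eq_zero_iff_mem]
      exact hle (Ideal.subset_span ⟨i, rfl⟩)
    simp only [ψ, AlgHom.comp_apply, h0, map_zero]
  refine ⟨Algebra.TensorProduct.map ψ (AlgHom.id K F)
    (∑ i, (MvPolynomial.X i : MvPolynomial (Fin r) K) ⊗ₜ[K] e i), ?_⟩
  have h := congrArg (Algebra.TensorProduct.map ψ (AlgHom.id K F)) hb
  rw [map_finsuppSum, map_sub, map_pow] at h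
  have hz : (b.sum fun i a => Algebra.TensorProduct.map ψ (AlgHom.id K F)
      (a ⊗ₜ[K] (Module.Basis.ofVectorSpace K F) i)) = 0 := by
    refine Finset.sum_eq_zero fun i _ => ?_
    show Algebra.TensorProduct.map ψ (AlgHom.id K F)
      (b i ⊗ₜ[K] (Module.Basis.ofVectorSpace K F) i) = 0
    rw [Algebra.TensorProduct.map_tmul, hψ, TensorProduct.zero_tmul]
  rw [hz] at h
  have h1 : Algebra.TensorProduct.map ψ (AlgHom.id K F)
      ((1 : MvPolynomial (Fin r) K) ⊗ₜ[K] u) = (1 : C) ⊗ₜ[K] u := by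
    rw [Algebra.TensorProduct.map_tmul, map_one, AlgHom.coe_id, id_eq]
  rw [h1] at h
  exact (sub_eq_zero.mp h.symm)

end Fermat.Agent.S18
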