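/-
S18, package (M4) [PURE] (helper24), file 1: linear algebra.

* `s18pu_idem_trace` : in characteristic `0` an idempotent matrix of trace `0` is `0`;
* `s18pu_nil` : a matrix `X` over a field of characteristic `0` such that the algebra `k[X]` has
  no nilpotent multiple of `X` and `tr (X · q(X)) = 0` for all polynomials `q` is `0`
  (the trace form of a reduced commutative algebra is non-degenerate);
* `s18pu_cramer` : Cramer's rule with a unit determinant.
Mathlib only.
-/
import Mathlib

set_option autoImplicit false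

namespace Fermat.Agent.S18

open Polynomial Matrix

/-- In characteristic `0` an idempotent matrix of trace `0` is `0`. -/
theorem s18pu_idem_trace {k : Type*} [Field k] [CharZero k] {n : ℕ}
    (E : Matrix (Fin n) (Fin n) k) (hE : E * E = E) (htr : E.trace = 0) : E = 0 := by
  have h1 : IsIdempotentElem (Matrix.toLin' E) := by
    unfold IsIdempotentElem
    rw [Module.End.mul_eq_comp, ← Matrix.toLin'_mul, hE]
  have h2 : LinearMap.trace k (Fin n → k) (Matrix.toLin' E) = 0 := by
    rw [Matrix.trace_toLin'_eq, htr]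
  have h3 := LinearMap.IsIdempotentElem.eq_zero_of_trace_eq_zero h1 h2
  have h4 : Matrix.toLin' E = Matrix.toLin' (0 : Matrix (Fin n) (Fin n) k) := by
    rw [h3, map_zero]
  exact Matrix.toLin'.injective h4

/-- The trace form of a reduced algebra of matrices in characteristic `0` is non-degenerate,
in the form used for [PURE]. -/
theorem s18pu_nil {k : Type*} [Field k] [CharZero k] {n : ℕ} (X : Matrix (Fin n) (Fin n) k)
    (hred : ∀ q : k[X], IsNilpotent (X * aeval X q) → X * aeval X q = 0)
    (htr : ∀ q : k[X], (X * aeval X q).trace = 0) : X = 0 := by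
  have hint : IsIntegral k X := Matrix.isIntegral X
  have hμ : minpoly k X ≠ 0 := minpoly.ne_zero hint
  obtain ⟨g, hg, hnd⟩ := exists_eq_pow_rootMultiplicity_mul_and_not_dvd (minpoly k X) hμ 0
  set m := rootMultiplicity 0 (minpoly k X) with hm
  rw [C_0, sub_zero] at hg hnd
  have hg0 : g.coeff 0 ≠ 0 := fun h => hnd (Polynomial.X_dvd_iff.2 h)
  have hX : ∀ q : k[X], X * aeval X q = aeval X (Polynomial.X * q) := by
    intro q
    rw [map_mul, aeval_X]
  -- `X · g(X)` is nilpotent
  have h1 : X * aeval X g = 0 := by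
    apply hred g
    refine ⟨m + 1, ?_⟩
    rw [hX, ← map_pow]
    have h2 : (Polynomial.X * g) ^ (m + 1) = (Polynomial.X * g ^ m) * minpoly k X := by
      rw [hg]
      ring
    rw [h2, map_mul, minpoly.aeval, mul_zero]
  -- the quasi-inverse
  obtain ⟨zp, hzp⟩ : ∃ zp : k[X], zp = C (-(g.coeff 0)⁻¹) * g.divX := ⟨_, rfl⟩
  have h3 : Polynomial.X * (Polynomial.X * zp) + C ((g.coeff 0)⁻¹) * (Polynomial.X * g) =
      Polynomial.X := by
    have h4 := Polynomial.X_mul_divX_add g
    calc Polynomial.X * (Polynomial.X * zp) + C ((g.coeff 0)⁻¹) * (Polynomial.X * g)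
        = Polynomial.X * (Polynomial.X * zp) +
            C ((g.coeff 0)⁻¹) * (Polynomial.X * (Polynomial.X * g.divX + C (g.coeff 0))) := by
          rw [h4]
      _ = Polynomial.X * (C ((g.coeff 0)⁻¹) * C (g.coeff 0)) := by
          rw [hzp, C_neg]
          ring
      _ = Polynomial.X := by
          rw [← C_mul, inv_mul_cancel₀ hg0, C_1, mul_one]
  obtain ⟨E, hE⟩ : ∃ E : Matrix (Fin n) (Fin n) k, E = X * aeval X zp := ⟨_, rfl⟩
  have hE' : E = aeval X (Polynomial.X * zp) := by rw [hE, hX]
  have hXE : X * E = X := by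
    have h5 := congrArg (aeval X) h3
    rw [map_add, map_mul (aeval X) (C _) _, ← hX g, h1, mul_zero, add_zero, ← hX, ← hE',
      aeval_X] at h5
    exact h5
  have hEE : E * E = E := by
    have h7 : E * E = aeval X (zp * (Polynomial.X * (Polynomial.X * zp))) := by
      rw [hE', ← map_mul]
      congr 1
      ring
    have h8 : aeval X (zp * (Polynomial.X * (Polynomial.X * zp))) =
        aeval X zp * (X * E) := by
      rw [map_mul, ← hX, ← hE']
    rw [h7, h8, hXE, hE']
    have h9 : aeval X zp * X = aeval X (zp * Polynomial.X) := by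
      rw [map_mul, aeval_X]
    rw [h9]
    congr 1
    ring
  have hE0 : E = 0 := s18pu_idem_trace E hEE (by rw [hE]; exact htr zp)
  rw [← hXE, hE0, mul_zero]

/-- Cramer's rule with a unit determinant: if `T c = t` over a field `K ⊇ R`, the entries of
`T` and `t` lie in `R` and `det T` is a unit of `R`, then `c` has entries in `R`. -/
theorem s18pu_cramer {R K : Type*} [CommRing R] [CommRing K] (f : R →+* K) {n : ℕ}
    (T : Matrix (Fin n) (Fin n) R) (hT : IsUnit T.det) (c : Fin n → K) (t : Fin n → R)
    (h : (T.map f).mulVec c = fun i => f (t i)) : ∃ c' : Fin n → R, ∀ i, c i = f (c' i) := by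
  refine ⟨T⁻¹.mulVec t, fun i => ?_⟩
  have h1 : T⁻¹ * T = 1 := Matrix.nonsing_inv_mul T hT
  have h2 : (T⁻¹.map f) * (T.map f) = 1 := by
    rw [← Matrix.map_mul, h1, Matrix.map_one _ (map_zero f) (map_one f)]
  have h3 : c = (T⁻¹.map f).mulVec (fun i => f (t i)) := by
    rw [← h, Matrix.mulVec_mulVec, h2, Matrix.one_mulVec]
  rw [h3]
  simp only [Matrix.mulVec, dotProduct, Matrix.map_apply, map_sum, map_mul]

end Fermat.Agent.S18
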