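/-
S18, package (M4) [PURE] (helper24), file 2: the setup.

`A` a noetherian integrally closed domain, `π ∈ A` prime with `A / π` a PID, `F ⊇ A` a field of
characteristic `0`, finite over `Frac A`, `B` the integral closure of `A` in `F`, `B / π B` a
domain.  Then
* `s18pu_finite` : `B` is a finite `A`-module;
* `s18pu_quotMap`, `s18pu_algebra` : `B / π B` is an algebra over `A / π` (injective structure
  map), finite and torsion-free, hence free;
* `s18pu_Data` / `s18pu_exists_data` : a basis `bas` of `B / π B` over `A / π`, lifts `e i ∈ B`,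
  a Nakayama element `s ∈ 1 + π A` with `s B ⊆ ⊕ A e i`, the coordinates `κ (y)` of `s • y`;
  the `e i` are linearly independent over `A` (Krull's intersection theorem);
* the matrices `D.N y` of `s · y` (`N_mul`, `N_one`, `N_pow`), the trace matrix `D.T`, and
  `D.trace_mk`, `D.traceMatrix_eq`, `D.discr_eq` : the trace form of the fibre is the reduction
  of `D.T`.
Mathlib only.
-/
import Mathlib

set_option autoImplicit false
set_option linter.unusedSectionVars false
set_option linter.style.haveILetI false

namespace Fermat.Agent.S18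

open Matrix

section setup

variable (A F : Type) [CommRing A] [IsDomain A] [IsNoetherianRing A] [IsIntegrallyClosed A]
  [Field F] [CharZero F] [Algebra A F] [FaithfulSMul A F]

/-- The integral closure of `A` in `F` is a finite `A`-module. -/
theorem s18pu_finite
    (hfin : ∃ s : Finset F, ∀ y : F, ∃ (d : A) (c : F → A), d ≠ 0 ∧ d • y = ∑ e ∈ s, c e • e) :
    Module.Finite A ↥(integralClosure A F) := by
  letI : Algebra (FractionRing A) F := FractionRing.liftAlgebra A F
  haveI : IsScalarTower A (FractionRing A) F := FractionRing.isScalarTower_liftAlgebra A F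
  haveI : CharZero (FractionRing A) := RingHom.charZero (algebraMap (FractionRing A) F)
  haveI : FiniteDimensional (FractionRing A) F := by
    obtain ⟨s, hs⟩ := hfin
    refine Module.finite_def.2 ⟨s, ?_⟩
    rw [eq_top_iff]
    intro y _
    obtain ⟨d, c, hd, hy⟩ := hs y
    have hd' : algebraMap A (FractionRing A) d ≠ 0 := by
      intro h
      exact hd ((IsFractionRing.injective A (FractionRing A)) (by rw [h, map_zero]))
    have h1 : y = (algebraMap A (FractionRing A) d)⁻¹ • (d • y) := by
      rw [← algebraMap_smul (FractionRing A) d y, smul_smul, inv_mul_cancel₀ hd', one_smul]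
    rw [h1, hy]
    refine Submodule.smul_mem _ _ (Submodule.sum_mem _ (fun e he => ?_))
    rw [← algebraMap_smul (FractionRing A) (c e) e]
    exact Submodule.smul_mem _ _ (Submodule.subset_span he)
  exact IsIntegralClosure.finite A (FractionRing A) F ↥(integralClosure A F)

variable {A F}

/-- An element of `F` in the integral closure which is a quotient `a / π` lies in `A`. -/
theorem s18pu_mem_of_mul {π : A} (hπ : π ≠ 0) (a : A) (b : ↥(integralClosure A F))
    (h : b * algebraMap A ↥(integralClosure A F) π = algebraMap A ↥(integralClosure A F) a) :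
    ∃ a' : A, a = a' * π ∧ b = algebraMap A ↥(integralClosure A F) a' := by
  letI : Algebra (FractionRing A) F := FractionRing.liftAlgebra A F
  haveI : IsScalarTower A (FractionRing A) F := FractionRing.isScalarTower_liftAlgebra A F
  have hinj : Function.Injective (algebraMap A F) := FaithfulSMul.algebraMap_injective A F
  have hπK : algebraMap A (FractionRing A) π ≠ 0 := fun h0 =>
    hπ ((IsFractionRing.injective A (FractionRing A)) (by rw [h0, map_zero]))
  have hπF : algebraMap A F π ≠ 0 := fun h0 => hπ (hinj (by rw [h0, map_zero]))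
  have h1 : (b : F) * algebraMap A F π = algebraMap A F a := by
    have := congrArg (fun z : ↥(integralClosure A F) => (z : F)) h
    simpa using this
  have h2 : (b : F) = algebraMap (FractionRing A) F
      (algebraMap A (FractionRing A) a / algebraMap A (FractionRing A) π) := by
    rw [map_div₀, ← IsScalarTower.algebraMap_apply, ← IsScalarTower.algebraMap_apply,
      eq_div_iff hπF, h1]
  have h3 : IsIntegral A (algebraMap A (FractionRing A) a / algebraMap A (FractionRing A) π) := by
    have h4 : IsIntegral A (b : F) := b.2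
    rw [h2] at h4
    exact (isIntegral_algebraMap_iff (algebraMap (FractionRing A) F).injective).1 h4
  obtain ⟨a', ha'⟩ := IsIntegrallyClosed.isIntegral_iff.1 h3
  have h5 : algebraMap A (FractionRing A) (a' * π) = algebraMap A (FractionRing A) a := by
    rw [map_mul, ha', div_mul_cancel₀ _ hπK]
  refine ⟨a', ((IsFractionRing.injective A (FractionRing A)) h5).symm, ?_⟩
  apply Subtype.ext
  rw [h2, ← ha', ← IsScalarTower.algebraMap_apply]
  rfl

variable (A F) (π : A)

/-- The map `A / π → B / π B`. -/
def s18pu_quotMap : (A ⧸ Ideal.span ({π} : Set A)) →+*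
    (↥(integralClosure A F) ⧸ Ideal.span
      ({algebraMap A ↥(integralClosure A F) π} : Set ↥(integralClosure A F))) :=
  Ideal.quotientMap _ (algebraMap A ↥(integralClosure A F)) (by
    rw [Ideal.span_le]
    intro x hx
    rw [Set.mem_singleton_iff] at hx
    subst hx
    exact Ideal.subset_span rfl)

theorem s18pu_quotMap_mk (a : A) :
    s18pu_quotMap A F π (Ideal.Quotient.mk _ a) =
      Ideal.Quotient.mk _ (algebraMap A ↥(integralClosure A F) a) := rfl

theorem s18pu_quotMap_injective (hπ : π ≠ 0) : Function.Injective (s18pu_quotMap A F π) := by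
  apply Ideal.quotientMap_injective'
  intro a ha
  rw [Ideal.mem_comap, Ideal.mem_span_singleton'] at ha
  obtain ⟨b, hb⟩ := ha
  obtain ⟨a', ha', -⟩ := s18pu_mem_of_mul hπ a b hb
  rw [Ideal.mem_span_singleton']
  exact ⟨a', ha'.symm⟩

/-- The algebra structure of `B / π B` over `A / π`.  USE IT AS A LOCAL INSTANCE. -/
@[reducible] def s18pu_algebra : Algebra (A ⧸ Ideal.span ({π} : Set A))
    (↥(integralClosure A F) ⧸ Ideal.span
      ({algebraMap A ↥(integralClosure A F) π} : Set ↥(integralClosure A F))) :=
  (s18pu_quotMap A F π).toAlgebra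

attribute [local instance] s18pu_algebra

theorem s18pu_tower : IsScalarTower A (A ⧸ Ideal.span ({π} : Set A))
    (↥(integralClosure A F) ⧸ Ideal.span
      ({algebraMap A ↥(integralClosure A F) π} : Set ↥(integralClosure A F))) :=
  IsScalarTower.of_algebraMap_eq (fun _ => rfl)

theorem s18pu_smul_mk (a : A) (y : ↥(integralClosure A F)) :
    (Ideal.Quotient.mk (Ideal.span ({π} : Set A)) a) •
      (Ideal.Quotient.mk (Ideal.span
        ({algebraMap A ↥(integralClosure A F) π} : Set ↥(integralClosure A F))) y) =
      Ideal.Quotient.mk _ (a • y) := by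
  rw [Algebra.smul_def, Algebra.smul_def, map_mul]
  rfl

/-- The data extracted from the hypotheses of [PURE]: a basis of `B / π B` over `A / π`, lifts
`e i ∈ B`, a Nakayama element `s ∈ 1 + π A` with `s B ⊆ ⊕ A e i`, and the coordinates `κ` of
`s • y`. -/
structure s18pu_Data where
  /-- the rank -/
  n : ℕ
  /-- the basis of the fibre -/
  bas : Module.Basis (Fin n) (A ⧸ Ideal.span ({π} : Set A))
    (↥(integralClosure A F) ⧸ Ideal.span
      ({algebraMap A ↥(integralClosure A F) π} : Set ↥(integralClosure A F)))
  /-- the lifts -/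
  e : Fin n → ↥(integralClosure A F)
  /-- the Nakayama element -/
  s : A
  /-- the coordinates of `s • y` -/
  κ : ↥(integralClosure A F) →ₗ[A] (Fin n → A)
  he : ∀ i, Ideal.Quotient.mk _ (e i) = bas i
  hs : s - 1 ∈ Ideal.span ({π} : Set A)
  hκ : ∀ y, s • y = ∑ i, κ y i • e i
  hind : ∀ c : Fin n → A, ∑ i, c i • e i = 0 → c = 0

theorem s18pu_exists_data (hπ : Prime π)
    (hpid : IsPrincipalIdealRing (A ⧸ Ideal.span ({π} : Set A)))
    (hfin : ∃ s : Finset F, ∀ y : F, ∃ (d : A) (c : F → A), d ≠ 0 ∧ d • y = ∑ e ∈ s, c e • e)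
    (hdom : IsDomain (↥(integralClosure A F) ⧸ Ideal.span
      ({algebraMap A ↥(integralClosure A F) π} : Set ↥(integralClosure A F)))) :
    Nonempty (s18pu_Data A F π) := by
  classical
  have hfinB : Module.Finite A ↥(integralClosure A F) := s18pu_finite A F hfin
  have hprime : (Ideal.span ({π} : Set A)).IsPrime :=
    (Ideal.span_singleton_prime hπ.ne_zero).2 hπ
  have hdomA : IsDomain (A ⧸ Ideal.span ({π} : Set A)) := Ideal.Quotient.isDomain _
  have htower := s18pu_tower A F π
  have hfinQ : Module.Finite A (↥(integralClosure A F) ⧸ Ideal.span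
      ({algebraMap A ↥(integralClosure A F) π} : Set ↥(integralClosure A F))) :=
    Module.Finite.of_surjective (Ideal.Quotient.mkₐ A _).toLinearMap
      (Ideal.Quotient.mkₐ_surjective A _)
  have hfinQ' : Module.Finite (A ⧸ Ideal.span ({π} : Set A)) (↥(integralClosure A F) ⧸ Ideal.span
      ({algebraMap A ↥(integralClosure A F) π} : Set ↥(integralClosure A F))) :=
    Module.Finite.of_restrictScalars_finite A _ _
  have htf : Module.IsTorsionFree (A ⧸ Ideal.span ({π} : Set A))
      (↥(integralClosure A F) ⧸ Ideal.span
      ({algebraMap A ↥(integralClosure A F) π} : Set ↥(integralClosure A F))) :=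
    Module.isTorsionFree_iff_algebraMap_injective.2 (s18pu_quotMap_injective A F π hπ.ne_zero)
  have hfree : Module.Free (A ⧸ Ideal.span ({π} : Set A)) (↥(integralClosure A F) ⧸ Ideal.span
      ({algebraMap A ↥(integralClosure A F) π} : Set ↥(integralClosure A F))) :=
    Module.free_of_finite_type_torsion_free'
  obtain ⟨n, bas, -⟩ : ∃ (n : ℕ) (bas : Module.Basis (Fin n) (A ⧸ Ideal.span ({π} : Set A))
      (↥(integralClosure A F) ⧸ Ideal.span
      ({algebraMap A ↥(integralClosure A F) π} : Set ↥(integralClosure A F)))), True :=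
    ⟨_, Module.finBasis _ _, trivial⟩
  -- the lifts
  have hsurj := fun i => Ideal.Quotient.mk_surjective (I := Ideal.span
      ({algebraMap A ↥(integralClosure A F) π} : Set ↥(integralClosure A F))) (bas i)
  choose e he using hsurj
  -- every element is a combination of the `e i` modulo `π`
  have hspan : ∀ y : ↥(integralClosure A F), ∃ (c : Fin n → A) (y' : ↥(integralClosure A F)),
      y = ∑ i, c i • e i + π • y' := by
    intro y
    have h1 := bas.sum_equivFun (Ideal.Quotient.mk _ y)
    have h2 := fun i => Ideal.Quotient.mk_surjective (I := Ideal.span ({π} : Set A))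
      (bas.equivFun (Ideal.Quotient.mk _ y) i)
    choose c hc using h2
    have h3 : Ideal.Quotient.mk (Ideal.span
        ({algebraMap A ↥(integralClosure A F) π} : Set ↥(integralClosure A F)))
        (y - ∑ i, c i • e i) = 0 := by
      rw [map_sub, map_sum, sub_eq_zero, ← h1]
      refine Finset.sum_congr rfl (fun i _ => ?_)
      rw [← hc i, ← he i, s18pu_smul_mk]
    rw [Ideal.Quotient.eq_zero_iff_mem, Ideal.mem_span_singleton'] at h3
    obtain ⟨y', hy'⟩ := h3
    refine ⟨c, y', ?_⟩
    rw [Algebra.smul_def, mul_comm, hy']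
    ring
  -- independence modulo `π`
  have hindπ : ∀ c : Fin n → A, (∑ i, c i • e i) ∈ Ideal.span
      ({algebraMap A ↥(integralClosure A F) π} : Set ↥(integralClosure A F)) →
      ∀ i, c i ∈ Ideal.span ({π} : Set A) := by
    intro c hc i
    rw [← Ideal.Quotient.eq_zero_iff_mem, map_sum] at hc
    have h1 : ∑ j, (Ideal.Quotient.mk (Ideal.span ({π} : Set A)) (c j)) • bas j = 0 := by
      rw [← hc]
      refine Finset.sum_congr rfl (fun j _ => ?_)
      rw [← he j, s18pu_smul_mk]
    have h2 := Fintype.linearIndependent_iff.1 bas.linearIndependent _ h1 i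
    exact Ideal.Quotient.eq_zero_iff_mem.1 h2
  -- `B` is torsion-free
  have hinjB : Function.Injective (algebraMap A ↥(integralClosure A F)) :=
    FaithfulSMul.algebraMap_injective A ↥(integralClosure A F)
  have hπB : algebraMap A ↥(integralClosure A F) π ≠ 0 := fun h0 =>
    hπ.ne_zero (hinjB (by rw [h0, map_zero]))
  -- independence
  have hpow : ∀ (k : ℕ) (c : Fin n → A), ∑ i, c i • e i = 0 →
      ∀ i, c i ∈ (Ideal.span ({π} : Set A)) ^ k := by
    intro k
    induction k with
    | zero =>
      intro c _ i
      rw [pow_zero, Ideal.one_eq_top]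
      exact Submodule.mem_top
    | succ k ih =>
      intro c hc i
      have h1 := hindπ c (by rw [hc]; exact Ideal.zero_mem _)
      have h2 := fun j => Ideal.mem_span_singleton'.1 (h1 j)
      choose c' hc' using h2
      have h3 : ∑ j, c' j • e j = 0 := by
        have h4 : algebraMap A ↥(integralClosure A F) π * ∑ j, c' j • e j = 0 := by
          rw [← hc, Finset.mul_sum]
          refine Finset.sum_congr rfl (fun j _ => ?_)
          rw [← hc' j, Algebra.smul_def, Algebra.smul_def, map_mul]
          ring
        exact (mul_eq_zero.1 h4).resolve_left hπB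
      rw [← hc' i, pow_succ]
      exact Ideal.mul_mem_mul (ih c' h3 i) (Ideal.mem_span_singleton_self π)
  have hne : Ideal.span ({π} : Set A) ≠ ⊤ := by
    rw [Ne, Ideal.span_singleton_eq_top]
    exact hπ.not_isUnit
  have hind : ∀ c : Fin n → A, ∑ i, c i • e i = 0 → c = 0 := by
    intro c hc
    funext i
    have h1 : c i ∈ ⨅ k, (Ideal.span ({π} : Set A)) ^ k := by
      rw [Ideal.mem_iInf]
      exact fun k => hpow k c hc i
    rw [Ideal.iInf_pow_eq_bot_of_isDomain _ hne] at h1
    exact h1
  have hli : LinearIndependent A e := Fintype.linearIndependent_iff.2 (fun c hc i => by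
    rw [hind c hc]; rfl)
  -- Nakayama
  have hnak : ∃ s : A, s - 1 ∈ Ideal.span ({π} : Set A) ∧
      ∀ y : ↥(integralClosure A F), s • y ∈ Submodule.span A (Set.range e) := by
    have hfg : (⊤ : Submodule A (↥(integralClosure A F) ⧸ Submodule.span A (Set.range e))).FG :=
      Module.finite_def.1 inferInstance
    have hle : (⊤ : Submodule A (↥(integralClosure A F) ⧸ Submodule.span A (Set.range e))) ≤
        Ideal.span ({π} : Set A) • ⊤ := by
      intro q _
      obtain ⟨y, rfl⟩ := Submodule.Quotient.mk_surjective _ q
      obtain ⟨c, y', hy⟩ := hspan y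
      have h1 : (Submodule.Quotient.mk y :
          ↥(integralClosure A F) ⧸ Submodule.span A (Set.range e)) =
          π • Submodule.Quotient.mk y' := by
        rw [← Submodule.Quotient.mk_smul, eq_comm, ← sub_eq_zero, ← Submodule.Quotient.mk_sub,
          Submodule.Quotient.mk_eq_zero, hy]
        have h2 : π • y' - (∑ i, c i • e i + π • y') = -∑ i, c i • e i := by ring
        rw [h2]
        refine Submodule.neg_mem _ (Submodule.sum_mem _ (fun i _ => ?_))
        exact Submodule.smul_mem _ _ (Submodule.subset_span ⟨i, rfl⟩)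
      rw [h1]
      exact Submodule.smul_mem_smul (Ideal.mem_span_singleton_self π) Submodule.mem_top
    obtain ⟨s, hs, hs'⟩ := Submodule.exists_sub_one_mem_and_smul_eq_zero_of_fg_of_le_smul _ _
      hfg hle
    refine ⟨s, hs, fun y => ?_⟩
    have h1 := hs' (Submodule.Quotient.mk y) Submodule.mem_top
    rw [← Submodule.Quotient.mk_smul, Submodule.Quotient.mk_eq_zero] at h1
    exact h1
  obtain ⟨s, hs, hsM⟩ := hnak
  -- the coordinates
  set bM := Module.Basis.span hli with hbM
  set κ : ↥(integralClosure A F) →ₗ[A] (Fin n → A) :=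
    bM.equivFun.toLinearMap ∘ₗ
      (LinearMap.codRestrict (Submodule.span A (Set.range e))
        (s • (LinearMap.id : ↥(integralClosure A F) →ₗ[A] ↥(integralClosure A F)))
        (fun y => hsM y)) with hκdef
  have hκ : ∀ y, s • y = ∑ i, κ y i • e i := by
    intro y
    have h1 := bM.sum_equivFun ⟨s • y, hsM y⟩
    have h2 := congrArg (fun z : ↥(Submodule.span A (Set.range e)) =>
      (z : ↥(integralClosure A F))) h1
    simp only [Submodule.coe_sum, Submodule.coe_smul] at h2
    rw [← h2]
    refine Finset.sum_congr rfl (fun i _ => ?_)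
    rw [hbM, Module.Basis.span_apply]
    rfl
  exact ⟨{ n := n, bas := bas, e := e, s := s, κ := κ, he := he, hs := hs, hκ := hκ,
           hind := hind }⟩

/-! ### The matrices of the regular representation -/

namespace s18pu_Data

variable {A F π}
variable (D : s18pu_Data A F π)

/-- Uniqueness of the coordinates. -/
theorem kappa_unique (y : ↥(integralClosure A F)) (c : Fin D.n → A)
    (h : D.s • y = ∑ i, c i • D.e i) : D.κ y = c := by
  have h1 : ∑ i, (D.κ y - c) i • D.e i = 0 := by
    simp only [Pi.sub_apply, sub_smul, Finset.sum_sub_distrib]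
    rw [← D.hκ y, ← h, sub_self]
  exact sub_eq_zero.1 (D.hind _ h1)

/-- The matrix of `s · y` in the basis `e`. -/
def N : ↥(integralClosure A F) →ₗ[A] Matrix (Fin D.n) (Fin D.n) A where
  toFun y := Matrix.of (fun i j => D.κ (y * D.e j) i)
  map_add' y y' := by
    ext i j
    simp [add_mul]
  map_smul' a y := by
    ext i j
    simp

theorem N_apply (y : ↥(integralClosure A F)) (i j : Fin D.n) :
    D.N y i j = D.κ (y * D.e j) i := rfl

theorem N_spec (y : ↥(integralClosure A F)) (j : Fin D.n) :
    D.s • (y * D.e j) = ∑ i, D.N y i j • D.e i := D.hκ _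

/-- Multiplicativity up to `s`. -/
theorem N_mul (y y' : ↥(integralClosure A F)) : D.N y * D.N y' = D.s • D.N (y * y') := by
  ext l j
  rw [Matrix.smul_apply, smul_eq_mul]
  have h1 : D.s • (D.s • ((y * y') * D.e j)) = ∑ l, (D.N y * D.N y') l j • D.e l := by
    calc D.s • (D.s • ((y * y') * D.e j))
        = y * (D.s • (D.s • (y' * D.e j))) := by
          simp only [Algebra.smul_def]; ring
      _ = y * (D.s • ∑ i, D.N y' i j • D.e i) := by rw [D.N_spec]
      _ = ∑ i, D.N y' i j • (D.s • (y * D.e i)) := by
          rw [Finset.smul_sum, Finset.mul_sum]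
          refine Finset.sum_congr rfl (fun i _ => ?_)
          simp only [Algebra.smul_def]; ring
      _ = ∑ i, D.N y' i j • ∑ l, D.N y l i • D.e l := by
          refine Finset.sum_congr rfl (fun i _ => ?_)
          rw [D.N_spec]
      _ = ∑ l, (D.N y * D.N y') l j • D.e l := by
          simp only [Finset.smul_sum, Matrix.mul_apply, Finset.sum_smul]
          rw [Finset.sum_comm]
          refine Finset.sum_congr rfl (fun l _ => Finset.sum_congr rfl (fun i _ => ?_))
          rw [smul_smul, mul_comm]
  have h2 : D.s • (D.s • ((y * y') * D.e j)) = ∑ l, (D.s * D.N (y * y') l j) • D.e l := by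
    rw [D.N_spec, Finset.smul_sum]
    refine Finset.sum_congr rfl (fun l _ => ?_)
    rw [smul_smul]
  have h3 : ∑ l, ((D.N y * D.N y') l j - D.s * D.N (y * y') l j) • D.e l = 0 := by
    simp only [sub_smul, Finset.sum_sub_distrib]
    rw [← h1, ← h2, sub_self]
  have h4 := congrFun (D.hind _ h3) l
  exact sub_eq_zero.1 h4

/-- The matrix of `s · 1`. -/
theorem N_one : D.N 1 = D.s • (1 : Matrix (Fin D.n) (Fin D.n) A) := by
  classical
  ext i j
  rw [N_apply, one_mul]
  have h1 : D.κ (D.e j) = fun i => if i = j then D.s else 0 := by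
    apply D.kappa_unique
    rw [Finset.sum_eq_single j]
    · rw [if_pos rfl]
    · intro b _ hb
      rw [if_neg hb, zero_smul]
    · intro h
      exact absurd (Finset.mem_univ j) h
  rw [h1, Matrix.smul_apply, Matrix.one_apply, smul_eq_mul]
  show (if i = j then D.s else 0) = D.s * (if i = j then 1 else 0)
  by_cases hij : i = j
  · rw [if_pos hij, if_pos hij, mul_one]
  · rw [if_neg hij, if_neg hij, mul_zero]

/-- Powers. -/
theorem N_pow (y : ↥(integralClosure A F)) (m : ℕ) :
    D.N y ^ (m + 1) = D.s ^ m • D.N (y ^ (m + 1)) := by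
  induction m with
  | zero => simp
  | succ m ih =>
    rw [pow_succ, ih, smul_mul_assoc, N_mul, smul_smul, ← pow_succ, ← pow_succ]

/-- The trace matrix (multiplied by `s`). -/
def T : Matrix (Fin D.n) (Fin D.n) A :=
  Matrix.of (fun i j => Matrix.trace (D.N (D.e i * D.e j)))

theorem T_apply (i j : Fin D.n) : D.T i j = Matrix.trace (D.N (D.e i * D.e j)) := rfl

/-- `s ≡ 1` modulo `π`. -/
theorem mk_s : Ideal.Quotient.mk (Ideal.span ({π} : Set A)) D.s = 1 := by
  have h := D.hs
  rw [← Ideal.Quotient.eq_zero_iff_mem, map_sub, map_one, sub_eq_zero] at h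
  exact h

/-- The trace of the fibre is the reduction of the trace of `N`. -/
theorem trace_mk (y : ↥(integralClosure A F)) :
    Algebra.trace (A ⧸ Ideal.span ({π} : Set A))
      (↥(integralClosure A F) ⧸ Ideal.span
        ({algebraMap A ↥(integralClosure A F) π} : Set ↥(integralClosure A F)))
      (Ideal.Quotient.mk _ y) =
      Ideal.Quotient.mk _ (Matrix.trace (D.N y)) := by
  classical
  rw [Algebra.trace_eq_matrix_trace D.bas, Matrix.trace, Matrix.trace, map_sum]
  refine Finset.sum_congr rfl (fun i _ => ?_)
  rw [Matrix.diag_apply, Matrix.diag_apply, Algebra.leftMulMatrix_eq_repr_mul]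
  have h1 : Ideal.Quotient.mk (Ideal.span
      ({algebraMap A ↥(integralClosure A F) π} : Set ↥(integralClosure A F))) y * D.bas i =
      ∑ l, (Ideal.Quotient.mk (Ideal.span ({π} : Set A)) (D.N y l i)) • D.bas l := by
    have h2 : Ideal.Quotient.mk (Ideal.span
        ({algebraMap A ↥(integralClosure A F) π} : Set ↥(integralClosure A F))) y * D.bas i =
        Ideal.Quotient.mk _ (D.s • (y * D.e i)) := by
      rw [← s18pu_smul_mk, D.mk_s, one_smul, map_mul, D.he]
    rw [h2, D.N_spec, map_sum]
    refine Finset.sum_congr rfl (fun l _ => ?_)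
    rw [← s18pu_smul_mk, D.he]
  rw [h1, map_sum, Finsupp.coe_finsetSum, Finset.sum_apply, Finset.sum_eq_single i]
  · rw [map_smul, Module.Basis.repr_self, Finsupp.smul_apply, Finsupp.single_eq_same,
      smul_eq_mul, mul_one]
  · intro l _ hl
    rw [map_smul, Module.Basis.repr_self, Finsupp.smul_apply, Finsupp.single_eq_of_ne hl.symm,
      smul_zero]
  · intro h
    exact absurd (Finset.mem_univ i) h

/-- The trace matrix of the fibre. -/
theorem traceMatrix_eq :
    Algebra.traceMatrix (A ⧸ Ideal.span ({π} : Set A)) D.bas =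
      D.T.map (Ideal.Quotient.mk (Ideal.span ({π} : Set A))) := by
  ext i j
  rw [Algebra.traceMatrix_apply, Algebra.traceForm_apply, Matrix.map_apply, T_apply,
    ← D.he, ← D.he, ← map_mul, trace_mk]

/-- The discriminant of the fibre. -/
theorem discr_eq :
    Algebra.discr (A ⧸ Ideal.span ({π} : Set A)) D.bas =
      Ideal.Quotient.mk (Ideal.span ({π} : Set A)) D.T.det := by
  classical
  rw [Algebra.discr_def, traceMatrix_eq, RingHom.map_det]
  rfl

end s18pu_Data

end setup

end Fermat.Agent.S18
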