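/-
S18, package (M4) [PURE] (helper24), file 3: purity of the discriminant.

In the setting of `PureSetup.lean` (data `D : s18pu_Data A F π`), with `d = det D.T` the
discriminant of the lifted basis:
* `s18pu_red` : hypothesis (h3) makes `B_p / p B_p` reduced for every prime `p ∌ π`, `p ≠ 0`
  (elementwise: `u yᵐ ∈ p B`, `u ∉ p` ⟹ `u' y ∈ p B` for some `u' ∉ p`);
* `s18pu_sub`, `s18pu_sub_reduced`, `s18pu_trace_zero` : the regular representation of
  `k(p) ⊗ B` on `k(p)ⁿ` (matrices `s18pu_Nphi`), a reduced algebra of matrices;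
* `s18pu_det_not_mem` : `d ∉ p` if `s ∉ p`, `π ∉ p`, `p ≠ 0` and `k(p)` has characteristic `0`
  (trace form of a reduced algebra, `s18pu_nil`);
* `s18pu_disc_unit` : if the reduction of `d` is non-zero, it is a unit of `A / π`
  (Krull's principal ideal theorem: a minimal prime `p` of `d` inside a maximal ideal
  containing `π` and `d` has height one, so `π ∉ p`).
Mathlib only.
-/
import Mathlib
import Fermat.Agent.S18.PureAlg
import Fermat.Agent.S18.PureSetup

set_option autoImplicit false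
set_option linter.unusedSectionVars false
set_option linter.style.haveILetI false

namespace Fermat.Agent.S18

open Matrix

section disc

variable {A F : Type} [CommRing A] [IsDomain A] [IsNoetherianRing A] [IsIntegrallyClosed A]
  [Field F] [CharZero F] [Algebra A F] [FaithfulSMul A F] {π : A}

attribute [local instance] s18pu_algebra

/-- **Reducedness of the fibre at `p`**, from the unramifiedness hypothesis (h3). -/
theorem s18pu_red (p : Ideal A) [p.IsPrime] (hp0 : p ≠ ⊥) (hπp : π ∉ p)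
    (h3 : ∀ P : Ideal ↥(integralClosure A F), P.IsPrime → P ≠ ⊥ →
      algebraMap A ↥(integralClosure A F) π ∉ P →
      ∃ a : A, algebraMap A ↥(integralClosure A F) a ∈ P ∧
        ∀ x ∈ P, ∃ y z : ↥(integralClosure A F), z ∉ P ∧
          x * z = algebraMap A ↥(integralClosure A F) a * y)
    (y : ↥(integralClosure A F)) (m : ℕ) (u : A) (hu : u ∉ p)
    (h : u • y ^ m ∈ p.map (algebraMap A ↥(integralClosure A F))) :
    ∃ u' : A, u' ∉ p ∧ u' • y ∈ p.map (algebraMap A ↥(integralClosure A F)) := by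
  by_contra hcon
  have hcon' : ∀ u' : A, u' ∉ p → u' • y ∉ p.map (algebraMap A ↥(integralClosure A F)) :=
    fun u' hu' h' => hcon ⟨u', hu', h'⟩
  have hinjB : Function.Injective (algebraMap A ↥(integralClosure A F)) :=
    FaithfulSMul.algebraMap_injective A ↥(integralClosure A F)
  set pB := p.map (algebraMap A ↥(integralClosure A F)) with hpB
  set I : Ideal ↥(integralClosure A F) := pB.colon ({y} : Set ↥(integralClosure A F)) with hI
  have hmemI : ∀ z : ↥(integralClosure A F), z ∈ I ↔ z * y ∈ pB := by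
    intro z
    rw [hI, Submodule.mem_colon_singleton, smul_eq_mul]
  have hdisj : Disjoint (I : Set ↥(integralClosure A F))
      (Algebra.algebraMapSubmonoid ↥(integralClosure A F) p.primeCompl) := by
    rw [Set.disjoint_left]
    rintro z hz ⟨u', hu', rfl⟩
    have h1 := (hmemI _).1 hz
    rw [← Algebra.smul_def] at h1
    exact hcon' u' hu' h1
  obtain ⟨P, hP, hIP, hPS⟩ := Ideal.exists_le_prime_disjoint I _ hdisj
  have hnotin : ∀ a : A, a ∉ p → algebraMap A ↥(integralClosure A F) a ∉ P := by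
    intro a ha haP
    exact Set.disjoint_left.1 hPS haP ⟨a, ha, rfl⟩
  have hpBI : pB ≤ I := by
    intro z hz
    rw [hmemI]
    exact Ideal.mul_mem_right _ _ hz
  have hpBP : pB ≤ P := hpBI.trans hIP
  have hP0 : P ≠ ⊥ := by
    obtain ⟨a, ha, ha0⟩ := Submodule.exists_mem_ne_zero_of_ne_bot hp0
    intro hbot
    have h1 : algebraMap A ↥(integralClosure A F) a ∈ P := hpBP (Ideal.mem_map_of_mem _ ha)
    rw [hbot, Ideal.mem_bot] at h1
    exact ha0 (hinjB (by rw [h1, map_zero]))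
  obtain ⟨a, haP, hgen⟩ := h3 P hP hP0 (hnotin π hπp)
  have hap : a ∈ p := by
    by_contra h'
    exact hnotin a h' haP
  have hyP : y ∈ P := by
    have h1 : algebraMap A ↥(integralClosure A F) u * y ^ m ∈ P := by
      rw [← Algebra.smul_def]
      exact hpBP h
    rcases hP.mem_or_mem h1 with h2 | h2
    · exact absurd h2 (hnotin u hu)
    · exact hP.mem_of_pow_mem m h2
  obtain ⟨y', z, hz, hyz⟩ := hgen y hyP
  apply hz
  apply hIP
  rw [hmemI, mul_comm, hyz]
  exact Ideal.mul_mem_right _ _ (Ideal.mem_map_of_mem _ hap)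

variable (D : s18pu_Data A F π)

/-- The coordinates of an element of `p B` lie in `p`. -/
theorem s18pu_kappa_mem (p : Ideal A) (z : ↥(integralClosure A F))
    (hz : z ∈ p.map (algebraMap A ↥(integralClosure A F))) (i : Fin D.n) : D.κ z i ∈ p := by
  have h1 : z ∈ (p • ⊤ : Submodule A ↥(integralClosure A F)) := by
    rw [Ideal.smul_top_eq_map]
    exact hz
  refine Submodule.smul_induction_on h1 ?_ ?_
  · intro r hr n _
    rw [map_smul, Pi.smul_apply, smul_eq_mul]
    exact Ideal.mul_mem_right _ _ hr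
  · intro x y hx hy
    rw [map_add, Pi.add_apply]
    exact Ideal.add_mem _ hx hy

/-- The matrix of an element of `p B` has entries in `p`. -/
theorem s18pu_N_mem (p : Ideal A) (z : ↥(integralClosure A F))
    (hz : z ∈ p.map (algebraMap A ↥(integralClosure A F))) (i j : Fin D.n) : D.N z i j ∈ p :=
  s18pu_kappa_mem D p _ (Ideal.mul_mem_right _ _ hz) i

/-- If the matrix of `z` has entries in `p`, then `s² z ∈ p B`, with coordinates. -/
theorem s18pu_of_N_mem (p : Ideal A) (z : ↥(integralClosure A F))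
    (hz : ∀ i j, D.N z i j ∈ p) :
    ∃ c : Fin D.n → A, (∀ i, c i ∈ p) ∧ D.s • (D.s • z) = ∑ i, c i • D.e i := by
  refine ⟨fun i => ∑ j, D.κ 1 j * D.N z i j, fun i => ?_, ?_⟩
  · exact Ideal.sum_mem _ (fun j _ => Ideal.mul_mem_left _ _ (hz i j))
  · calc D.s • (D.s • z) = D.s • (z * (D.s • (1 : ↥(integralClosure A F)))) := by
          simp only [Algebra.smul_def]; ring
      _ = D.s • (z * ∑ j, D.κ 1 j • D.e j) := by rw [D.hκ 1]
      _ = ∑ j, D.κ 1 j • (D.s • (z * D.e j)) := by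
          rw [Finset.mul_sum, Finset.smul_sum]
          refine Finset.sum_congr rfl (fun j _ => ?_)
          simp only [Algebra.smul_def]; ring
      _ = ∑ j, D.κ 1 j • ∑ i, D.N z i j • D.e i := by
          refine Finset.sum_congr rfl (fun j _ => ?_)
          rw [D.N_spec]
      _ = ∑ i, (∑ j, D.κ 1 j * D.N z i j) • D.e i := by
          simp only [Finset.smul_sum, Finset.sum_smul]
          rw [Finset.sum_comm]
          refine Finset.sum_congr rfl (fun i _ => Finset.sum_congr rfl (fun j _ => ?_))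
          rw [smul_smul]

theorem s18pu_smul_mem_of_N_mem (p : Ideal A) (z : ↥(integralClosure A F))
    (hz : ∀ i j, D.N z i j ∈ p) :
    (D.s * D.s) • z ∈ p.map (algebraMap A ↥(integralClosure A F)) := by
  obtain ⟨c, hc, h⟩ := s18pu_of_N_mem D p z hz
  rw [mul_smul, h]
  refine Ideal.sum_mem _ (fun i _ => ?_)
  rw [Algebra.smul_def]
  exact Ideal.mul_mem_right _ _ (Ideal.mem_map_of_mem _ (hc i))

/-! ### The regular representation over the residue field of `p` -/

variable (p : Ideal A) [p.IsPrime]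

/-- The map from `A` to the residue field at `p`. -/
def s18pu_phi : A →+* FractionRing (A ⧸ p) :=
  (algebraMap (A ⧸ p) (FractionRing (A ⧸ p))).comp (Ideal.Quotient.mk p)

theorem s18pu_phi_eq_zero_iff (a : A) : s18pu_phi p a = 0 ↔ a ∈ p := by
  unfold s18pu_phi
  rw [RingHom.comp_apply, map_eq_zero_iff _ (IsFractionRing.injective (A ⧸ p) _),
    Ideal.Quotient.eq_zero_iff_mem]

theorem s18pu_phi_frac (r : FractionRing (A ⧸ p)) :
    ∃ a₁ a₂ : A, a₂ ∉ p ∧ s18pu_phi p a₂ * r = s18pu_phi p a₁ := by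
  obtain ⟨x, y, hy, rfl⟩ := IsFractionRing.div_surjective (A := A ⧸ p) r
  obtain ⟨a₁, rfl⟩ := Ideal.Quotient.mk_surjective x
  obtain ⟨a₂, rfl⟩ := Ideal.Quotient.mk_surjective y
  have h2 : a₂ ∉ p := by
    intro h
    have h1 := nonZeroDivisors.ne_zero hy
    exact h1 (Ideal.Quotient.eq_zero_iff_mem.2 h)
  refine ⟨a₁, a₂, h2, ?_⟩
  have h3 : algebraMap (A ⧸ p) (FractionRing (A ⧸ p)) (Ideal.Quotient.mk p a₂) ≠ 0 := by
    rw [Ne, map_eq_zero_iff _ (IsFractionRing.injective (A ⧸ p) _),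
      Ideal.Quotient.eq_zero_iff_mem]
    exact h2
  show algebraMap (A ⧸ p) (FractionRing (A ⧸ p)) (Ideal.Quotient.mk p a₂) * _ =
    algebraMap (A ⧸ p) (FractionRing (A ⧸ p)) (Ideal.Quotient.mk p a₁)
  rw [mul_div_cancel₀ _ h3]

/-- The matrix of `s · y` over the residue field. -/
def s18pu_Nphi (y : ↥(integralClosure A F)) :
    Matrix (Fin D.n) (Fin D.n) (FractionRing (A ⧸ p)) :=
  (D.N y).map (s18pu_phi p)

theorem s18pu_Nphi_apply (y : ↥(integralClosure A F)) (i j : Fin D.n) :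
    s18pu_Nphi D p y i j = s18pu_phi p (D.N y i j) := rfl

theorem s18pu_map_smul (a : A) (M : Matrix (Fin D.n) (Fin D.n) A) :
    (a • M).map (s18pu_phi p) = s18pu_phi p a • M.map (s18pu_phi p) := by
  ext i j
  simp [Matrix.map_apply]

theorem s18pu_Nphi_mul (y y' : ↥(integralClosure A F)) :
    s18pu_Nphi D p y * s18pu_Nphi D p y' = s18pu_phi p D.s • s18pu_Nphi D p (y * y') := by
  unfold s18pu_Nphi
  rw [← Matrix.map_mul, D.N_mul, s18pu_map_smul]

theorem s18pu_Nphi_one :
    s18pu_Nphi D p 1 = s18pu_phi p D.s • (1 : Matrix (Fin D.n) (Fin D.n) _) := by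
  unfold s18pu_Nphi
  rw [D.N_one, s18pu_map_smul, Matrix.map_one _ (map_zero _) (map_one _)]

theorem s18pu_Nphi_smul (a : A) (y : ↥(integralClosure A F)) :
    s18pu_Nphi D p (a • y) = s18pu_phi p a • s18pu_Nphi D p y := by
  unfold s18pu_Nphi
  rw [map_smul, s18pu_map_smul]

theorem s18pu_Nphi_add (y y' : ↥(integralClosure A F)) :
    s18pu_Nphi D p (y + y') = s18pu_Nphi D p y + s18pu_Nphi D p y' := by
  unfold s18pu_Nphi
  rw [map_add, Matrix.map_add _ (fun a b => map_add (s18pu_phi p) a b)]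

theorem s18pu_Nphi_pow (y : ↥(integralClosure A F)) (m : ℕ) :
    s18pu_Nphi D p y ^ (m + 1) = s18pu_phi p D.s ^ m • s18pu_Nphi D p (y ^ (m + 1)) := by
  induction m with
  | zero => simp
  | succ m ih =>
    rw [pow_succ, ih, smul_mul_assoc, s18pu_Nphi_mul, smul_smul, ← pow_succ, ← pow_succ]

theorem s18pu_Nphi_eq_zero_iff (y : ↥(integralClosure A F)) :
    s18pu_Nphi D p y = 0 ↔ ∀ i j, D.N y i j ∈ p := by
  constructor
  · intro h i j
    have h1 := congrFun (congrFun h i) j
    rw [s18pu_Nphi_apply, Matrix.zero_apply, s18pu_phi_eq_zero_iff] at h1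
    exact h1
  · intro h
    ext i j
    rw [s18pu_Nphi_apply, Matrix.zero_apply, s18pu_phi_eq_zero_iff]
    exact h i j

/-- The algebra `k ⊗ B` as an algebra of matrices. -/
def s18pu_sub (hs : D.s ∉ p) : Subalgebra (FractionRing (A ⧸ p))
    (Matrix (Fin D.n) (Fin D.n) (FractionRing (A ⧸ p))) where
  carrier := {Y | ∃ a : A, a ∉ p ∧ ∃ y : ↥(integralClosure A F),
    s18pu_phi p a • Y = s18pu_Nphi D p y}
  mul_mem' := by
    rintro Y Y' ⟨a, ha, y, hy⟩ ⟨a', ha', y', hy'⟩
    refine ⟨a * a', fun h => (Ideal.IsPrime.mem_or_mem ‹p.IsPrime› h).elim ha ha',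
      D.s • (y * y'), ?_⟩
    rw [s18pu_Nphi_smul, ← s18pu_Nphi_mul, ← hy, ← hy', map_mul, smul_mul_smul_comm]
  add_mem' := by
    rintro Y Y' ⟨a, ha, y, hy⟩ ⟨a', ha', y', hy'⟩
    refine ⟨a * a', fun h => (Ideal.IsPrime.mem_or_mem ‹p.IsPrime› h).elim ha ha',
      a' • y + a • y', ?_⟩
    rw [s18pu_Nphi_add, s18pu_Nphi_smul, s18pu_Nphi_smul, ← hy, ← hy', map_mul, smul_add,
      smul_smul, smul_smul, mul_comm (s18pu_phi p a') (s18pu_phi p a)]
  algebraMap_mem' := by
    intro r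
    obtain ⟨a₁, a₂, ha₂, h⟩ := s18pu_phi_frac p r
    refine ⟨a₂ * D.s, fun h => (Ideal.IsPrime.mem_or_mem ‹p.IsPrime› h).elim ha₂ hs,
      a₁ • 1, ?_⟩
    rw [s18pu_Nphi_smul, s18pu_Nphi_one, Algebra.algebraMap_eq_smul_one, smul_smul, smul_smul,
      map_mul, ← h]
    congr 1
    ring

theorem s18pu_mem_sub (hs : D.s ∉ p) (Y : Matrix (Fin D.n) (Fin D.n) (FractionRing (A ⧸ p))) :
    Y ∈ s18pu_sub D p hs ↔ ∃ a : A, a ∉ p ∧ ∃ y : ↥(integralClosure A F),
      s18pu_phi p a • Y = s18pu_Nphi D p y := Iff.rfl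

theorem s18pu_Nphi_mem_sub (hs : D.s ∉ p) (y : ↥(integralClosure A F)) :
    s18pu_Nphi D p y ∈ s18pu_sub D p hs :=
  ⟨1, fun h => Ideal.IsPrime.ne_top ‹p.IsPrime› ((Ideal.eq_top_iff_one _).2 h), y, by
    rw [map_one, one_smul]⟩

/-- The fibre at `p` is reduced. -/
theorem s18pu_sub_reduced (hs : D.s ∉ p) (hp0 : p ≠ ⊥) (hπp : π ∉ p)
    (h3 : ∀ P : Ideal ↥(integralClosure A F), P.IsPrime → P ≠ ⊥ →
      algebraMap A ↥(integralClosure A F) π ∉ P →
      ∃ a : A, algebraMap A ↥(integralClosure A F) a ∈ P ∧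
        ∀ x ∈ P, ∃ y z : ↥(integralClosure A F), z ∉ P ∧
          x * z = algebraMap A ↥(integralClosure A F) a * y)
    (Y : Matrix (Fin D.n) (Fin D.n) (FractionRing (A ⧸ p))) (hY : Y ∈ s18pu_sub D p hs)
    (hnil : IsNilpotent Y) : Y = 0 := by
  obtain ⟨a, ha, y, hy⟩ := hY
  obtain ⟨m, hm⟩ := hnil
  have hφa : s18pu_phi p a ≠ 0 := fun h => ha ((s18pu_phi_eq_zero_iff p a).1 h)
  have hφs : s18pu_phi p D.s ≠ 0 := fun h => hs ((s18pu_phi_eq_zero_iff p D.s).1 h)
  have h1 : s18pu_Nphi D p y ^ (m + 1) = 0 := by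
    rw [← hy, smul_pow, pow_succ Y, hm, zero_mul, smul_zero]
  rw [s18pu_Nphi_pow, smul_eq_zero] at h1
  have h2 : s18pu_Nphi D p (y ^ (m + 1)) = 0 := h1.resolve_left (pow_ne_zero _ hφs)
  have h4 := s18pu_smul_mem_of_N_mem D p _ ((s18pu_Nphi_eq_zero_iff D p _).1 h2)
  have hss : D.s * D.s ∉ p := fun h => (Ideal.IsPrime.mem_or_mem ‹p.IsPrime› h).elim hs hs
  obtain ⟨u', hu', h5⟩ := s18pu_red p hp0 hπp h3 y (m + 1) (D.s * D.s) hss h4
  have h6 : s18pu_Nphi D p (u' • y) = 0 :=
    (s18pu_Nphi_eq_zero_iff D p _).2 (fun i j => s18pu_N_mem D p _ h5 i j)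
  rw [s18pu_Nphi_smul, smul_eq_zero] at h6
  have h7 : s18pu_Nphi D p y = 0 :=
    h6.resolve_left (fun h => hu' ((s18pu_phi_eq_zero_iff p u').1 h))
  rw [h7, smul_eq_zero] at hy
  exact hy.resolve_left hφa

/-- The trace of a product, from the traces against the basis. -/
theorem s18pu_trace_zero (hs : D.s ∉ p) (x : ↥(integralClosure A F))
    (hx : ∀ i, Matrix.trace (D.N (D.e i * x)) ∈ p)
    (Y : Matrix (Fin D.n) (Fin D.n) (FractionRing (A ⧸ p))) (hY : Y ∈ s18pu_sub D p hs) :
    Matrix.trace (s18pu_Nphi D p x * Y) = 0 := by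
  obtain ⟨a, ha, y, hy⟩ := hY
  have hφa : s18pu_phi p a ≠ 0 := fun h => ha ((s18pu_phi_eq_zero_iff p a).1 h)
  have hφs : s18pu_phi p D.s ≠ 0 := fun h => hs ((s18pu_phi_eq_zero_iff p D.s).1 h)
  -- the trace of `N (x y)`
  have h1 : D.s • (x * y) = ∑ i, D.κ y i • (D.e i * x) := by
    calc D.s • (x * y) = x * (D.s • y) := by simp only [Algebra.smul_def]; ring
      _ = x * ∑ i, D.κ y i • D.e i := by rw [D.hκ y]
      _ = ∑ i, D.κ y i • (D.e i * x) := by
          rw [Finset.mul_sum]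
          refine Finset.sum_congr rfl (fun i _ => ?_)
          simp only [Algebra.smul_def]; ring
  have h2 : D.s * Matrix.trace (D.N (x * y)) ∈ p := by
    have h3 := congrArg (fun z => Matrix.trace (D.N z)) h1
    simp only [map_smul, map_sum, Matrix.trace_smul, Matrix.trace_sum, smul_eq_mul] at h3
    rw [h3]
    exact Ideal.sum_mem _ (fun i _ => Ideal.mul_mem_left _ _ (hx i))
  have h4 : Matrix.trace (D.N (x * y)) ∈ p :=
    (Ideal.IsPrime.mem_or_mem ‹p.IsPrime› h2).resolve_left hs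
  have h5 : Matrix.trace (s18pu_Nphi D p (x * y)) = 0 := by
    have h6 : Matrix.trace (s18pu_Nphi D p (x * y)) =
        s18pu_phi p (Matrix.trace (D.N (x * y))) := by
      simp only [Matrix.trace, Matrix.diag_apply, s18pu_Nphi_apply, map_sum]
    rw [h6, s18pu_phi_eq_zero_iff]
    exact h4
  have h7 : s18pu_phi p a • Matrix.trace (s18pu_Nphi D p x * Y) = 0 := by
    rw [← Matrix.trace_smul, ← mul_smul_comm, hy, s18pu_Nphi_mul, Matrix.trace_smul, h5,
      smul_zero]
  exact (smul_eq_zero.1 h7).resolve_left hφa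

theorem s18pu_aeval_mem {k M : Type*} [CommRing k] [Ring M] [Algebra k M] (S : Subalgebra k M)
    (X : M) (hX : X ∈ S) (q : Polynomial k) : Polynomial.aeval X q ∈ S := by
  have h := Polynomial.aeval_subalgebra_coe q S ⟨X, hX⟩
  rw [← h]
  exact (Polynomial.aeval (⟨X, hX⟩ : ↥S) q).2

/-- **The discriminant does not lie in `p`**: the trace form of the fibre at `p` is
non-degenerate. -/
theorem s18pu_det_not_mem [CharZero (FractionRing (A ⧸ p))] (hs : D.s ∉ p) (hp0 : p ≠ ⊥)
    (hπp : π ∉ p)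
    (h3 : ∀ P : Ideal ↥(integralClosure A F), P.IsPrime → P ≠ ⊥ →
      algebraMap A ↥(integralClosure A F) π ∉ P →
      ∃ a : A, algebraMap A ↥(integralClosure A F) a ∈ P ∧
        ∀ x ∈ P, ∃ y z : ↥(integralClosure A F), z ∉ P ∧
          x * z = algebraMap A ↥(integralClosure A F) a * y) :
    D.T.det ∉ p := by
  classical
  intro hdet
  have h1 : (D.T.map (Ideal.Quotient.mk p)).det = 0 := by
    rw [← RingHom.mapMatrix_apply, ← RingHom.map_det, Ideal.Quotient.eq_zero_iff_mem]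
    exact hdet
  obtain ⟨vbar, hv0, hv⟩ := Matrix.exists_mulVec_eq_zero_iff.2 h1
  choose v hvv using fun j => Ideal.Quotient.mk_surjective (vbar j)
  have hTv : ∀ i, ∑ j, D.T i j * v j ∈ p := by
    intro i
    have h2 := congrFun hv i
    rw [← Ideal.Quotient.eq_zero_iff_mem, map_sum]
    rw [Pi.zero_apply] at h2
    rw [← h2]
    simp only [Matrix.mulVec, dotProduct, Matrix.map_apply, map_mul, hvv]
  obtain ⟨j0, hj0⟩ : ∃ j, v j ∉ p := by
    by_contra hall
    apply hv0
    funext j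
    rw [← hvv j, Pi.zero_apply, Ideal.Quotient.eq_zero_iff_mem]
    by_contra hj
    exact hall ⟨j, hj⟩
  obtain ⟨x, hxdef⟩ : ∃ x : ↥(integralClosure A F), x = ∑ j, v j • D.e j := ⟨_, rfl⟩
  have hx : ∀ i, Matrix.trace (D.N (D.e i * x)) ∈ p := by
    intro i
    have h2 : D.e i * x = ∑ j, v j • (D.e i * D.e j) := by
      rw [hxdef, Finset.mul_sum]
      refine Finset.sum_congr rfl (fun j _ => ?_)
      rw [mul_smul_comm]
    rw [h2]
    simp only [map_sum, map_smul, Matrix.trace_sum, Matrix.trace_smul, smul_eq_mul]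
    have h3 : ∑ j, v j * Matrix.trace (D.N (D.e i * D.e j)) = ∑ j, D.T i j * v j := by
      refine Finset.sum_congr rfl (fun j _ => ?_)
      rw [s18pu_Data.T_apply, mul_comm]
    rw [h3]
    exact hTv i
  have hX : s18pu_Nphi D p x = 0 := by
    apply s18pu_nil
    · intro q hnil
      exact s18pu_sub_reduced D p hs hp0 hπp h3 _
        (Subalgebra.mul_mem _ (s18pu_Nphi_mem_sub D p hs x)
          (s18pu_aeval_mem _ _ (s18pu_Nphi_mem_sub D p hs x) q)) hnil
    · intro q
      exact s18pu_trace_zero D p hs x hx _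
        (s18pu_aeval_mem _ _ (s18pu_Nphi_mem_sub D p hs x) q)
  have h5 := (s18pu_Nphi_eq_zero_iff D p x).1 hX
  obtain ⟨c, hc, hcx⟩ := s18pu_of_N_mem D p x h5
  have h6 : ∑ j, (D.s * D.s * v j - c j) • D.e j = 0 := by
    simp only [sub_smul, Finset.sum_sub_distrib]
    rw [← hcx, hxdef, Finset.smul_sum, Finset.smul_sum, sub_eq_zero]
    refine Finset.sum_congr rfl (fun j _ => ?_)
    rw [smul_smul, smul_smul]
  have h7 := congrFun (D.hind _ h6) j0
  have h8 : D.s * D.s * v j0 = c j0 := sub_eq_zero.1 h7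
  have h9 : D.s * D.s * v j0 ∈ p := by rw [h8]; exact hc j0
  rcases Ideal.IsPrime.mem_or_mem ‹p.IsPrime› h9 with h | h
  · rcases Ideal.IsPrime.mem_or_mem ‹p.IsPrime› h with h' | h'
    · exact hs h'
    · exact hs h'
  · exact hj0 h

end disc

section unit

variable {A F : Type} [CommRing A] [IsDomain A] [IsNoetherianRing A] [IsIntegrallyClosed A]
  [Field F] [CharZero F] [Algebra A F] [FaithfulSMul A F] {π : A}

attribute [local instance] s18pu_algebra

/-- **Purity**: the discriminant of the fibre is a unit of `A / π`. -/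
theorem s18pu_disc_unit (D : s18pu_Data A F π) (hπ : Prime π)
    (h0 : ∀ n : ℕ, 0 < n → ∃ (k : ℕ) (c : A), (n : A) * c = π ^ k)
    (h3 : ∀ P : Ideal ↥(integralClosure A F), P.IsPrime → P ≠ ⊥ →
      algebraMap A ↥(integralClosure A F) π ∉ P →
      ∃ a : A, algebraMap A ↥(integralClosure A F) a ∈ P ∧
        ∀ x ∈ P, ∃ y z : ↥(integralClosure A F), z ∉ P ∧
          x * z = algebraMap A ↥(integralClosure A F) a * y)
    (hne : Ideal.Quotient.mk (Ideal.span ({π} : Set A)) D.T.det ≠ 0) :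
    IsUnit (Ideal.Quotient.mk (Ideal.span ({π} : Set A)) D.T.det) := by
  by_contra hnu
  obtain ⟨mbar, hmax, hmem⟩ := exists_max_ideal_of_mem_nonunits hnu
  obtain ⟨m, hmdef⟩ : ∃ m : Ideal A, m = mbar.comap (Ideal.Quotient.mk _) := ⟨_, rfl⟩
  have hmprime : m.IsPrime := by
    rw [hmdef]
    exact Ideal.comap_isPrime _ _
  have hdm : Ideal.span ({D.T.det} : Set A) ≤ m := by
    rw [Ideal.span_le, Set.singleton_subset_iff, hmdef]
    exact hmem
  have hπm : π ∈ m := by
    rw [hmdef, Ideal.mem_comap]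
    have : Ideal.Quotient.mk (Ideal.span ({π} : Set A)) π = 0 :=
      Ideal.Quotient.eq_zero_iff_mem.2 (Ideal.mem_span_singleton_self π)
    rw [this]
    exact Ideal.zero_mem _
  have hsm : D.s ∉ m := by
    rw [hmdef, Ideal.mem_comap, D.mk_s]
    intro h1
    exact hmax.ne_top ((Ideal.eq_top_iff_one _).2 h1)
  obtain ⟨p, hp, hpm⟩ := Ideal.exists_minimalPrimes_le hdm
  have hpprime : p.IsPrime := hp.1.1
  have hdp : D.T.det ∈ p := hp.1.2 (Ideal.mem_span_singleton_self _)
  have hd0 : D.T.det ≠ 0 := by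
    intro h
    rw [h, map_zero] at hne
    exact hne rfl
  have hp0 : p ≠ ⊥ := by
    intro h
    rw [h, Ideal.mem_bot] at hdp
    exact hd0 hdp
  have hht : p.height ≤ 1 :=
    Ideal.height_le_one_of_isPrincipal_of_mem_minimalPrimes _ p hp
  have hπprime : (Ideal.span ({π} : Set A)).IsPrime :=
    (Ideal.span_singleton_prime hπ.ne_zero).2 hπ
  have hπp : π ∉ p := by
    intro hπp
    have h1 : Ideal.span ({π} : Set A) < p := by
      refine lt_of_le_of_ne ?_ ?_
      · rw [Ideal.span_le, Set.singleton_subset_iff]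
        exact hπp
      · intro h
        apply hne
        rw [Ideal.Quotient.eq_zero_iff_mem, h]
        exact hdp
    have h2 : (⊥ : Ideal A) < Ideal.span ({π} : Set A) := by
      rw [bot_lt_iff_ne_bot, Ne, Ideal.span_singleton_eq_bot]
      exact hπ.ne_zero
    have h3 := Ideal.height_strict_mono_of_isPrime_of_isPrime h1
    have h4 := Ideal.height_strict_mono_of_isPrime_of_isPrime h2
    have h5 : (Ideal.span ({π} : Set A)).height < 1 := lt_of_lt_of_le h3 hht
    have h6 : (Ideal.span ({π} : Set A)).height = 0 := Order.lt_one_iff.1 h5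
    rw [h6] at h4
    exact not_lt_bot h4
  have hsp : D.s ∉ p := fun h => hsm (hpm h)
  have hchar : CharZero (FractionRing (A ⧸ p)) := by
    refine charZero_of_inj_zero (fun n hn => ?_)
    by_contra hn0
    obtain ⟨k, c, hkc⟩ := h0 n (Nat.pos_of_ne_zero hn0)
    have h1 : (n : A) ∈ p := by
      rw [← s18pu_phi_eq_zero_iff, map_natCast]
      exact hn
    have h2 : π ^ k ∈ p := by
      rw [← hkc]
      exact Ideal.mul_mem_right _ _ h1
    exact hπp (hpprime.mem_of_pow_mem k h2)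
  exact s18pu_det_not_mem D p hsp hp0 hπp h3 hdp

end unit

end Fermat.Agent.S18
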