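/-
S18, package (M4) [PURE] (helper24), file 4: fraction fields.

For a domain `S`, finite free with basis `b` over a domain `R` (injective structure map):
* `s18pu_sep_transfer` : separability over a subfield `K' ⊆ E` contained in the image of a
  field `k` implies separability over `k`;
* `s18pu_discr_ne_zero` : if `S` embeds into a field `E` such that all elements of the image
  are separable over the subfield generated by the image of `R`, then `discr R b ≠ 0`
  (`Frac S / Frac R` is separable);
* `s18pu_ic_of_discr` : if `R` is integrally closed and `discr R b` is a unit, then `S` is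
  integrally closed (Cramer's rule for the trace form).
Mathlib only.
-/
import Mathlib
import Fermat.Agent.S18.PureAlg

set_option autoImplicit false
set_option linter.unusedSectionVars false
set_option linter.style.haveILetI false

namespace Fermat.Agent.S18

open Matrix

/-- Transfer of separability from the subfield generated by the image of `A` to a field `k`
mapping onto it. -/
theorem s18pu_sep_transfer {k E : Type*} [Field k] [Field E] [Algebra k E] (K' : Subfield E)
    (hK' : ∀ z ∈ K', z ∈ Set.range (algebraMap k E)) (x : E) (hx : IsSeparable ↥K' x) :
    IsSeparable k x := by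
  have hP : (minpoly ↥K' x).Separable := hx
  have h1 : (minpoly ↥K' x).map K'.subtype ∈ Polynomial.lifts (algebraMap k E) := by
    rw [Polynomial.lifts_iff_coeff_lifts]
    intro n
    rw [Polynomial.coeff_map]
    exact hK' _ (Subtype.mem _)
  obtain ⟨Q, hQ⟩ := Polynomial.mem_lifts _ |>.1 h1
  have h2 : Q.Separable := by
    rw [← Polynomial.separable_map (algebraMap k E), hQ, Polynomial.separable_map]
    exact hP
  have h3 : Polynomial.aeval x Q = 0 := by
    rw [Polynomial.aeval_def, ← Polynomial.eval_map, hQ, Polynomial.eval_map]
    exact minpoly.aeval ↥K' x
  exact h2.of_dvd (minpoly.dvd k x h3)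

section frac

variable {R S : Type*} [CommRing R] [IsDomain R] [CommRing S] [IsDomain S] [Algebra R S]
  [FaithfulSMul R S] {n : ℕ} (b : Module.Basis (Fin n) R S)

/-- A finite free domain over an integrally closed domain with unit discriminant is integrally
closed. -/
theorem s18pu_ic_of_discr [IsIntegrallyClosed R] (hd : IsUnit (Algebra.discr R b)) :
    IsIntegrallyClosed S := by
  classical
  have hfinM : Module.Finite R S := Module.Finite.of_basis b
  have hfree : Module.Free R S := Module.Free.of_basis b
  have hint : Algebra.IsIntegral R S := Algebra.IsIntegral.of_finite _ _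
  have hfaithL : FaithfulSMul R (FractionRing S) := by
    rw [faithfulSMul_iff_algebraMap_injective, IsScalarTower.algebraMap_eq R S (FractionRing S)]
    exact (IsFractionRing.injective S (FractionRing S)).comp
      (FaithfulSMul.algebraMap_injective R S)
  letI : Algebra (FractionRing R) (FractionRing S) := FractionRing.liftAlgebra R (FractionRing S)
  have htowerL : IsScalarTower R (FractionRing R) (FractionRing S) :=
    FractionRing.isScalarTower_liftAlgebra R (FractionRing S)
  have hloc : IsLocalization (Algebra.algebraMapSubmonoid S (nonZeroDivisors R))
      (FractionRing S) := inferInstance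
  set b' := b.localizationLocalization (FractionRing R) (nonZeroDivisors R) (FractionRing S)
    with hb'
  have hb'i : ∀ i, b' i = algebraMap S (FractionRing S) (b i) := fun i =>
    Module.Basis.localizationLocalization_apply _ _ _ b i
  have hTM : Algebra.traceMatrix (FractionRing R) b' =
      (Algebra.traceMatrix R b).map (algebraMap R (FractionRing R)) :=
    Algebra.traceMatrix_localizationLocalization R (nonZeroDivisors R) (FractionRing S) b
  refine (isIntegrallyClosed_iff (FractionRing S)).2 (fun {x} hx => ?_)
  have hxR : IsIntegral R x := isIntegral_trans x hx
  have hfinL : FiniteDimensional (FractionRing R) (FractionRing S) := Module.Finite.of_basis b'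
  have htr : ∀ i, ∃ t : R, algebraMap R (FractionRing R) t =
      Algebra.trace (FractionRing R) (FractionRing S) (x * b' i) := by
    intro i
    have h1 : IsIntegral R (x * b' i) := by
      rw [hb'i]
      exact hxR.mul (hint.isIntegral (b i)).algebraMap
    exact IsIntegrallyClosed.isIntegral_iff.1 (Algebra.isIntegral_trace h1)
  choose t ht using htr
  have hmul := Algebra.traceMatrix_of_basis_mulVec b' x
  rw [hTM] at hmul
  have hmul' : ((Algebra.traceMatrix R b).map (algebraMap R (FractionRing R))).mulVec
      (b'.equivFun x) = fun i => algebraMap R (FractionRing R) (t i) := by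
    rw [hmul]
    funext i
    rw [ht i]
  obtain ⟨c', hc'⟩ := s18pu_cramer (algebraMap R (FractionRing R)) (Algebra.traceMatrix R b)
    (by rw [← Algebra.discr_def]; exact hd) (b'.equivFun x) t hmul'
  refine ⟨∑ i, c' i • b i, ?_⟩
  rw [← b'.sum_equivFun x, map_sum]
  refine Finset.sum_congr rfl (fun i _ => ?_)
  rw [hc' i, hb'i, Algebra.smul_def, map_mul, ← IsScalarTower.algebraMap_apply,
    algebraMap_smul, Algebra.smul_def]

/-- The discriminant of a basis is non-zero if the fraction field extension is separable, in
the form: there is an injective ring homomorphism `ρ : S → E` to a field such that all `ρ x`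
are separable over (a subfield of) the subfield generated by the image of `R`. -/
theorem s18pu_discr_ne_zero {E : Type*} [Field E] (ρ : S →+* E)
    (hρ : Function.Injective ρ) (K' : Subfield E)
    (hK' : K' ≤ Subfield.closure (Set.range (ρ.comp (algebraMap R S))))
    (hsep : ∀ x : S, IsSeparable ↥K' (ρ x)) :
    Algebra.discr R b ≠ 0 := by
  classical
  have hfinM : Module.Finite R S := Module.Finite.of_basis b
  have hfree : Module.Free R S := Module.Free.of_basis b
  have hint : Algebra.IsIntegral R S := Algebra.IsIntegral.of_finite _ _
  have hfaithL : FaithfulSMul R (FractionRing S) := by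
    rw [faithfulSMul_iff_algebraMap_injective, IsScalarTower.algebraMap_eq R S (FractionRing S)]
    exact (IsFractionRing.injective S (FractionRing S)).comp
      (FaithfulSMul.algebraMap_injective R S)
  letI : Algebra (FractionRing R) (FractionRing S) := FractionRing.liftAlgebra R (FractionRing S)
  have htowerL : IsScalarTower R (FractionRing R) (FractionRing S) :=
    FractionRing.isScalarTower_liftAlgebra R (FractionRing S)
  have hloc : IsLocalization (Algebra.algebraMapSubmonoid S (nonZeroDivisors R))
      (FractionRing S) := inferInstance
  set b' := b.localizationLocalization (FractionRing R) (nonZeroDivisors R) (FractionRing S)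
    with hb'
  have hfinL : FiniteDimensional (FractionRing R) (FractionRing S) := Module.Finite.of_basis b'
  have hdisc : Algebra.discr (FractionRing R) b' =
      algebraMap R (FractionRing R) (Algebra.discr R b) :=
    Algebra.discr_localizationLocalization R (nonZeroDivisors R) (FractionRing S) b
  -- the field `E` as an algebra
  set ρL : FractionRing S →+* E := IsFractionRing.lift hρ with hρL
  have hρLa : ∀ x : S, ρL (algebraMap S (FractionRing S) x) = ρ x := fun x =>
    IsFractionRing.lift_algebraMap hρ x
  letI : Algebra (FractionRing S) E := ρL.toAlgebra
  letI : Algebra (FractionRing R) E := (ρL.comp (algebraMap (FractionRing R) (FractionRing S))).toAlgebra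
  have htowerE : IsScalarTower (FractionRing R) (FractionRing S) E :=
    IsScalarTower.of_algebraMap_eq (fun _ => rfl)
  -- separability
  have hle : ∀ z ∈ K', z ∈ Set.range (algebraMap (FractionRing R) E) := by
    have h1 : Subfield.closure (Set.range (ρ.comp (algebraMap R S))) ≤
        (algebraMap (FractionRing R) E).fieldRange := by
      rw [Subfield.closure_le]
      rintro _ ⟨r, rfl⟩
      refine ⟨algebraMap R (FractionRing R) r, ?_⟩
      show ρL (algebraMap (FractionRing R) (FractionRing S) (algebraMap R (FractionRing R) r)) = _
      rw [← IsScalarTower.algebraMap_apply, IsScalarTower.algebraMap_apply R S (FractionRing S),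
        hρLa]
      rfl
    intro z hz
    exact h1 (hK' hz)
  have hsepS : ∀ x : S, IsSeparable (FractionRing R) (algebraMap S (FractionRing S) x) := by
    intro x
    have h1 : IsSeparable (FractionRing R) (ρ x) := s18pu_sep_transfer _ hle _ (hsep x)
    have h2 : minpoly (FractionRing R) (algebraMap (FractionRing S) E
        (algebraMap S (FractionRing S) x)) =
        minpoly (FractionRing R) (algebraMap S (FractionRing S) x) :=
      minpoly.algebraMap_eq (algebraMap (FractionRing S) E).injective _
    have h3 : algebraMap (FractionRing S) E (algebraMap S (FractionRing S) x) = ρ x := hρLa x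
    rw [h3] at h2
    unfold IsSeparable
    rw [← h2]
    exact h1
  have hsepL : Algebra.IsSeparable (FractionRing R) (FractionRing S) := by
    refine ⟨fun x => ?_⟩
    obtain ⟨u, v, hv, rfl⟩ := IsFractionRing.div_surjective (A := S) x
    have hu' := (mem_separableClosure_iff (F := FractionRing R) (E := FractionRing S)).2
      (hsepS u)
    have hv' := (mem_separableClosure_iff (F := FractionRing R) (E := FractionRing S)).2
      (hsepS v)
    exact (mem_separableClosure_iff (F := FractionRing R) (E := FractionRing S)).1
      (div_mem hu' hv')
  have hne := Algebra.discr_not_zero_of_basis (FractionRing R) b'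
  rw [hdisc] at hne
  intro h0
  rw [h0, map_zero] at hne
  exact hne rfl

end frac

end Fermat.Agent.S18
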