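/-
S18, package (M4) [PURE] (helper24), file 5: the main theorem.

`s18pu_main : s18_PureStatement` (`S18/ModelAbsDefs.lean`): for a noetherian integrally closed
domain `A`, a prime element `π` with `A / π` a PID, and the integral closure `B` of `A` in a
finite extension `F` of `Frac A` of characteristic `0`: if `B / π B` is a domain, generically
separable over `A / π`, and `B[1/π]` is unramified over `A[1/π]` (residue characteristics `0`),
then `B / π B` is integrally closed.

PROOF.  `B / π B` is free over `A / π` with basis `bas` (`PureSetup.lean`); its discriminant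
`d̄` is `≠ 0` by separability (`s18pu_discr_ne_zero`), hence a unit by purity
(`s18pu_disc_unit`, `PureDisc.lean`), hence `B / π B` is integrally closed
(`s18pu_ic_of_discr`).
-/
import Mathlib
import Fermat.Agent.S18.ModelAbsDefs
import Fermat.Agent.S18.PureDisc
import Fermat.Agent.S18.PureFrac

set_option autoImplicit false
set_option linter.unusedSectionVars false
set_option linter.style.haveILetI false

namespace Fermat.Agent.S18

open Matrix

section final

variable {A F : Type} [CommRing A] [IsDomain A] [IsNoetherianRing A] [IsIntegrallyClosed A]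
  [Field F] [CharZero F] [Algebra A F] [FaithfulSMul A F] {π : A}

attribute [local instance] s18pu_algebra

/-- **[PURE]**, in the variables of the section. -/
theorem s18pu_core (hπ : Prime π)
    (hpid : IsPrincipalIdealRing (A ⧸ Ideal.span ({π} : Set A)))
    (h0 : ∀ n : ℕ, 0 < n → ∃ (k : ℕ) (c : A), (n : A) * c = π ^ k)
    (hfin : ∃ s : Finset F, ∀ y : F, ∃ (d : A) (c : F → A), d ≠ 0 ∧ d • y = ∑ e ∈ s, c e • e)
    (hdom : IsDomain (↥(integralClosure A F) ⧸
      Ideal.span ({algebraMap A ↥(integralClosure A F) π} : Set ↥(integralClosure A F))))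
    (hsep : ∃ (E : Type) (_ : Field E) (ρ : ↥(integralClosure A F) →+* E),
      ρ (algebraMap A ↥(integralClosure A F) π) = 0 ∧
      (∀ b, ρ b = 0 → b ∈
        Ideal.span ({algebraMap A ↥(integralClosure A F) π} : Set ↥(integralClosure A F))) ∧
      ∀ b, IsSeparable
        ↥(Subfield.closure (Set.range (ρ.comp (algebraMap A ↥(integralClosure A F))))) (ρ b))
    (h3 : ∀ P : Ideal ↥(integralClosure A F), P.IsPrime → P ≠ ⊥ →
      algebraMap A ↥(integralClosure A F) π ∉ P →
      ∃ a : A, algebraMap A ↥(integralClosure A F) a ∈ P ∧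
        ∀ x ∈ P, ∃ y z : ↥(integralClosure A F), z ∉ P ∧
          x * z = algebraMap A ↥(integralClosure A F) a * y) :
    IsIntegrallyClosed (↥(integralClosure A F) ⧸
      Ideal.span ({algebraMap A ↥(integralClosure A F) π} : Set ↥(integralClosure A F))) := by
  classical
  obtain ⟨D⟩ := s18pu_exists_data A F π hπ hpid hfin hdom
  have hprime : (Ideal.span ({π} : Set A)).IsPrime :=
    (Ideal.span_singleton_prime hπ.ne_zero).2 hπ
  have hdomA : IsDomain (A ⧸ Ideal.span ({π} : Set A)) := Ideal.Quotient.isDomain _
  have hinj : Function.Injective (algebraMap (A ⧸ Ideal.span ({π} : Set A))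
      (↥(integralClosure A F) ⧸ Ideal.span
        ({algebraMap A ↥(integralClosure A F) π} : Set ↥(integralClosure A F)))) :=
    s18pu_quotMap_injective A F π hπ.ne_zero
  have hfaith : FaithfulSMul (A ⧸ Ideal.span ({π} : Set A))
      (↥(integralClosure A F) ⧸ Ideal.span
        ({algebraMap A ↥(integralClosure A F) π} : Set ↥(integralClosure A F))) :=
    (faithfulSMul_iff_algebraMap_injective _ _).2 hinj
  have hicA : IsIntegrallyClosed (A ⧸ Ideal.span ({π} : Set A)) := inferInstance
  obtain ⟨E, instE, ρ, hρπ, hker, hsepb⟩ := hsep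
  -- the embedding of the fibre
  have hle : Ideal.span ({algebraMap A ↥(integralClosure A F) π} :
      Set ↥(integralClosure A F)) ≤ RingHom.ker ρ := by
    rw [Ideal.span_le, Set.singleton_subset_iff]
    exact hρπ
  set ρb : (↥(integralClosure A F) ⧸ Ideal.span
      ({algebraMap A ↥(integralClosure A F) π} : Set ↥(integralClosure A F))) →+* E :=
    Ideal.Quotient.lift _ ρ (fun z hz => hle hz) with hρb
  have hρb_mk : ∀ z, ρb (Ideal.Quotient.mk _ z) = ρ z := fun z => Ideal.Quotient.lift_mk _ _ _
  have hρb_inj : Function.Injective ρb := by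
    rw [injective_iff_map_eq_zero]
    intro z hz
    obtain ⟨z, rfl⟩ := Ideal.Quotient.mk_surjective z
    rw [hρb_mk] at hz
    exact Ideal.Quotient.eq_zero_iff_mem.2 (hker z hz)
  have hK' : Subfield.closure (Set.range (ρ.comp (algebraMap A ↥(integralClosure A F)))) ≤
      Subfield.closure (Set.range (ρb.comp (algebraMap (A ⧸ Ideal.span ({π} : Set A))
        (↥(integralClosure A F) ⧸ Ideal.span
          ({algebraMap A ↥(integralClosure A F) π} : Set ↥(integralClosure A F)))))) := by
    apply Subfield.closure_mono
    rintro _ ⟨a, rfl⟩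
    refine ⟨Ideal.Quotient.mk _ a, ?_⟩
    rw [RingHom.comp_apply, RingHom.comp_apply]
    show ρb (s18pu_quotMap A F π (Ideal.Quotient.mk _ a)) = _
    rw [s18pu_quotMap_mk, hρb_mk]
  have hsep' : ∀ x, IsSeparable
      ↥(Subfield.closure (Set.range (ρ.comp (algebraMap A ↥(integralClosure A F))))) (ρb x) := by
    intro x
    obtain ⟨z, rfl⟩ := Ideal.Quotient.mk_surjective x
    rw [hρb_mk]
    exact hsepb z
  have hne := s18pu_discr_ne_zero D.bas ρb hρb_inj _ hK' hsep'
  have hunit : IsUnit (Algebra.discr (A ⧸ Ideal.span ({π} : Set A)) D.bas) := by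
    rw [D.discr_eq] at hne ⊢
    exact s18pu_disc_unit D hπ h0 h3 hne
  exact s18pu_ic_of_discr D.bas hunit

end final

/-- **[PURE]** purity and discriminants: the special fibre of the normalisation is integrally
closed. -/
theorem s18pu_main : s18_PureStatement := by
  intro A F _ _ _ _ _ _ _ _ π hπ hpid h0 hfin hdom hsep h3
  exact s18pu_core hπ hpid h0 hfin hdom hsep h3

end Fermat.Agent.S18
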