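/-
S18 package [RAM-J] (= [NOELL] (N1)): `s18rj_main : s18_RamJStatement`.
Owner: helper22.  Prefix `s18rj_`.

The ramification of `F̄_M / Q̄(j)` for `4 ∣ M` or `9 ∣ M`, from the S24 library
(uniformized families + the count): `ord (j - c) = 1, 2, 3` over `c ≠ 0, 1728`, `c = 1728`,
`c = 0` (no elliptic points), and `- ord j` divides `M` at the poles of `j`.
-/
import Mathlib
import Fermat.Agent.S18.ModelDefs
import Fermat.Agent.S24

set_option autoImplicit false

noncomputable section

namespace Fermat.Agent.S18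

open Fermat.Agent.S24 AlgebraicCurve IntermediateField
open scoped MatrixGroups

/-! ### Orbits of a cyclic group -/

theorem s18rj_card_orbit {G X : Type*} [Group G] [MulAction G X] (g : G) (x : X) (n : ℕ)
    (h : g ^ n • x = x) :
    Nat.card (MulAction.orbit (Subgroup.zpowers g) x) = Function.minimalPeriod (g • ·) x ∧
      Function.minimalPeriod (g • ·) x ∣ n := by
  have hper : Function.IsPeriodicPt (g • ·) n x := by
    show (g • ·)^[n] x = x
    rw [smul_iterate]
    exact h
  refine ⟨?_, hper.minimalPeriod_dvd⟩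
  rw [Nat.card_congr (MulAction.orbitZPowersEquiv g x), Nat.card_zmod]

theorem s18rj_card_orbit_dvd {G X : Type*} [Group G] [MulAction G X] (g : G) (x : X) (n : ℕ)
    (h : g ^ n • x = x) :
    Nat.card (MulAction.orbit (Subgroup.zpowers g) x) ∣ n := by
  obtain ⟨h1, h2⟩ := s18rj_card_orbit g x n h
  rw [h1]
  exact h2

theorem s18rj_card_orbit_prime {G X : Type*} [Group G] [MulAction G X] (g : G) (x : X) (n : ℕ)
    (hn : n.Prime) (h : g ^ n • x = x) (hx : g • x ≠ x) :
    Nat.card (MulAction.orbit (Subgroup.zpowers g) x) = n := by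
  obtain ⟨h1, h2⟩ := s18rj_card_orbit g x n h
  rw [h1]
  rcases (Nat.dvd_prime hn).1 h2 with h3 | h3
  · exact absurd (Function.minimalPeriod_eq_one_iff_isFixedPt.1 h3) hx
  · exact h3

/-! ### No elliptic points -/

theorem s18rj_nuTwo (M : ℕ) (hM : 4 ∣ M ∨ 9 ∣ M) : ModularCurve.nuTwo M = 0 := by
  unfold ModularCurve.nuTwo
  rw [Nat.card_eq_zero]
  left
  constructor
  rintro ⟨x, hx⟩
  rcases hM with h | h
  · have h1 := congrArg (ZMod.castHom h (ZMod 4)) hx
    rw [map_add, map_pow, map_one, map_zero] at h1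
    revert h1
    generalize ZMod.castHom h (ZMod 4) x = y
    revert y
    decide
  · have h1 := congrArg (ZMod.castHom h (ZMod 9)) hx
    rw [map_add, map_pow, map_one, map_zero] at h1
    revert h1
    generalize ZMod.castHom h (ZMod 9) x = y
    revert y
    decide

theorem s18rj_nuThree (M : ℕ) (hM : 4 ∣ M ∨ 9 ∣ M) : ModularCurve.nuThree M = 0 := by
  unfold ModularCurve.nuThree
  rw [Nat.card_eq_zero]
  left
  constructor
  rintro ⟨x, hx⟩
  rcases hM with h | h
  · have h1 := congrArg (ZMod.castHom h (ZMod 4)) hx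
    rw [map_add, map_add, map_pow, map_one, map_zero] at h1
    revert h1
    generalize ZMod.castHom h (ZMod 4) x = y
    revert y
    decide
  · have h1 := congrArg (ZMod.castHom h (ZMod 9)) hx
    rw [map_add, map_add, map_pow, map_one, map_zero] at h1
    revert h1
    generalize ZMod.castHom h (ZMod 9) x = y
    revert y
    decide

theorem s18rj_not_fixed_of_card {X : Type*} [Finite X] (s : Set X) (h : Nat.card s = 0)
    (x : X) : x ∉ s := by
  intro hx
  rcases Nat.card_eq_zero.1 h with h1 | h1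
  · exact h1.false ⟨x, hx⟩
  · exact h1.false

theorem s18rj_S_smul_ne (M : ℕ) [NeZero M] (hM : 4 ∣ M ∨ 9 ∣ M) (x : XN M) :
    ModularGroup.S • x ≠ x := by
  have : Finite (XN M) := Comb.comb_cosetFinite M
  have h := Comb.card_fixedBy_S M
  rw [s18rj_nuTwo M hM] at h
  exact s18rj_not_fixed_of_card _ h x

theorem s18rj_ST_smul_ne (M : ℕ) [NeZero M] (hM : 4 ∣ M ∨ 9 ∣ M) (x : XN M) :
    elST • x ≠ x := by
  have : Finite (XN M) := Comb.comb_cosetFinite M
  have h := Comb.card_fixedBy_ST M
  rw [s18rj_nuThree M hM] at h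
  exact s18rj_not_fixed_of_card _ h x

theorem s18rj_T_pow_smul (M : ℕ) (x : XN M) : ModularGroup.T ^ M • x = x := by
  induction x using QuotientGroup.induction_on with
  | H g =>
    show ((ModularGroup.T ^ M * g : SL(2, ℤ)) : XN M) = (g : XN M)
    rw [QuotientGroup.eq, Comb.mem_Gamma0_iff_dvd, Comb.inv_mul_apply_one_zero]
    have h0 := Comb.T_zpow_mul_apply_zero (M : ℤ) g
    have h1 := Comb.T_zpow_mul_apply_one (M : ℤ) g
    rw [zpow_natCast] at h0 h1
    rw [Comb.cross, h0, h1]
    exact ⟨g 1 0 * g 1 0, by ring⟩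

/-! ### The S24 inputs -/

theorem s18rj_symPoint : SymPointStatement := symF_point symFr_frac s24_pointDvd

theorem s18rj_symCusp : SymCuspStatement := symF_cusp symFr_frac s24_cuspDvd

theorem s18rj_j_eq (M : ℕ) [NeZero M] : s18_j (AlgebraicClosure ℚ) M = jF M := by
  apply Subtype.ext
  show ModularCurve.coeffEmb _ ModularCurve.jq = jLaurent 1
  rw [jLaurent, ModularCurve.qExpand_one_apply]

/-- Generic points: `ord (j - c) = 1`. -/
theorem s18rj_generic (M : ℕ) [NeZero M] (P : Place QBar (FunField M)) (c : QBar)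
    (hc0 : c ≠ 0) (hc1 : c ≠ 1728)
    (hmem : jF M - algebraMap QBar (FunField M) c ∈ P.toValuationSubring.nonunits) :
    P.ord (jF M - algebraMap QBar (FunField M) c) = 1 := by
  have : Finite (XN M) := Comb.comb_cosetFinite M
  have hj : IsCoordinate QBar (jF M) := final_jCoordinate M
  have hdeg := final_degreeLowerBound M
  obtain ⟨P', hP'⟩ := glue_uniformizedGeneric bridge jSurjective pointFamily ramGeneric
    s18rj_symPoint M c hc0 hc1
  obtain ⟨hsurj, -, hord, -⟩ := count_main ff_fundamentalIdentity (glue_isCoordinate_sub hj c)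
    hP' (by rw [glue_finrank_sub]; exact hdeg)
  obtain ⟨x, rfl⟩ := hsurj P hmem
  rw [hord x, glue_card_orbit_bot]
  rfl

/-- Over `j = 1728`: `ord (j - 1728) = 2` (no elliptic points of order `2`). -/
theorem s18rj_I (M : ℕ) [NeZero M] (hM : 4 ∣ M ∨ 9 ∣ M) (P : Place QBar (FunField M))
    (hmem : jF M - algebraMap QBar (FunField M) 1728 ∈ P.toValuationSubring.nonunits) :
    P.ord (jF M - algebraMap QBar (FunField M) 1728) = 2 := by
  have : Finite (XN M) := Comb.comb_cosetFinite M
  have hj : IsCoordinate QBar (jF M) := final_jCoordinate M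
  have hdeg := final_degreeLowerBound M
  obtain ⟨P', hP'⟩ := glue_uniformizedI bridge pointFamily ramI s18rj_symPoint M
  obtain ⟨hsurj, -, hord, -⟩ := count_main ff_fundamentalIdentity
    (glue_isCoordinate_sub hj 1728) hP' (by rw [glue_finrank_sub]; exact hdeg)
  obtain ⟨x, rfl⟩ := hsurj P hmem
  rw [hord x, s18rj_card_orbit_prime ModularGroup.S x 2 Nat.prime_two (Comb.S_sq_smul M x)
    (s18rj_S_smul_ne M hM x)]
  rfl

/-- Over `j = 0`: `ord j = 3` (no elliptic points of order `3`). -/
theorem s18rj_rho (M : ℕ) [NeZero M] (hM : 4 ∣ M ∨ 9 ∣ M) (P : Place QBar (FunField M))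
    (hmem : jF M ∈ P.toValuationSubring.nonunits) : P.ord (jF M) = 3 := by
  have : Finite (XN M) := Comb.comb_cosetFinite M
  have hj : IsCoordinate QBar (jF M) := final_jCoordinate M
  have hdeg := final_degreeLowerBound M
  obtain ⟨P', hP'⟩ := glue_uniformizedRho bridge pointFamily ramRho s18rj_symPoint M
  obtain ⟨hsurj, -, hord, -⟩ := count_main ff_fundamentalIdentity hj hP' hdeg
  obtain ⟨x, rfl⟩ := hsurj P hmem
  rw [hord x, s18rj_card_orbit_prime elST x 3 Nat.prime_three (Comb.ST_cube_smul M x)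
    (s18rj_ST_smul_ne M hM x)]
  rfl

/-- At the cusps: `ord (1 / j)` is the width, a divisor of `M` (any level `M`). -/
theorem s18rj_cusp (M : ℕ) [NeZero M] (P : Place QBar (FunField M))
    (hmem : (jF M)⁻¹ ∈ P.toValuationSubring.nonunits) :
    ∃ w : ℕ, w ∣ M ∧ P.ord (jF M)⁻¹ = (w : ℤ) := by
  have : Finite (XN M) := Comb.comb_cosetFinite M
  have hj : IsCoordinate QBar (jF M) := final_jCoordinate M
  have hdeg := final_degreeLowerBound M
  obtain ⟨P', hP'⟩ := glue_uniformizedCusp bridge (anF_cuspFamily anB_growth) s18rj_symCusp M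
  obtain ⟨hsurj, -, hord, -⟩ := count_main ff_fundamentalIdentity (glue_isCoordinate_inv hj)
    hP' (by rw [glue_finrank_inv]; exact hdeg)
  obtain ⟨x, rfl⟩ := hsurj P hmem
  exact ⟨_, s18rj_card_orbit_dvd ModularGroup.T x M (s18rj_T_pow_smul M x), hord x⟩

/-- **[RAM-J]** -/
theorem s18rj_main : s18_RamJStatement := by
  intro M _ hM P
  rw [s18rj_j_eq]
  constructor
  · intro _ c hc
    have hne : jF M - algebraMap QBar (FunField M) c ≠ 0 := by
      intro h
      rw [h, Place.ord_zero] at hc
      exact lt_irrefl _ hc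
    have hmem : jF M - algebraMap QBar (FunField M) c ∈ P.toValuationSubring.nonunits :=
      (place_mem_nonunits_iff P hne).2 hc
    by_cases hc0 : c = 0
    · subst hc0
      rw [if_pos rfl]
      rw [map_zero, sub_zero] at hmem ⊢
      exact_mod_cast s18rj_rho M hM P hmem
    · rw [if_neg hc0]
      by_cases hc1 : c = 1728
      · subst hc1
        rw [if_pos rfl]
        exact_mod_cast s18rj_I M hM P hmem
      · rw [if_neg hc1]
        exact_mod_cast s18rj_generic M P c hc0 hc1 hmem
  · intro hlt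
    have hj0 : jF M ≠ 0 := by
      intro h
      rw [h, Place.ord_zero] at hlt
      exact lt_irrefl _ hlt
    have hinv : (0 : ℤ) < P.ord (jF M)⁻¹ := by
      rw [Place.ord_inv]
      omega
    have hmem : (jF M)⁻¹ ∈ P.toValuationSubring.nonunits :=
      (place_mem_nonunits_iff P (inv_ne_zero hj0)).2 hinv
    obtain ⟨w, hw, hord⟩ := s18rj_cusp M P hmem
    rw [Place.ord_inv] at hord
    have h1 : P.ord (jF M) = -(w : ℤ) := by omega
    rw [h1]
    exact (neg_dvd).2 (Int.natCast_dvd_natCast.2 hw)

end Fermat.Agent.S18
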