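/-
S18, package (I1) [ROOT] (helper16): the `M`-th root `σ = q₁ + ...` of `1 / j(q₁^M)` exists over
every commutative ring in which `M` is invertible.
Prefix `s18rt_`.  Export: `s18rt_main : s18_SigmaStatement`.

* `s18rt_exists_root` : a power series `w` with constant coefficient `1` has an `M`-th root with
  constant coefficient `1` when `M` is a unit (coefficient recursion: `Q 0 = 1`,
  `Q (n+1) = Q n + c X^(n+1)` with `(Q n)^M ≡ w` modulo `X^(n+1)`);
* `σ := q₁ · θ(v)`, `v^M · u = 1`, `j = q⁻¹ u`, `θ = qExpand R M`.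
-/
import Mathlib
import Fermat.Agent.S18.InfDefs

set_option autoImplicit false

open ModularCurve

noncomputable section

namespace Fermat.Agent.S18

/-! ### `M`-th roots of power series -/

section Root

variable {R : Type} [CommRing R]

/-- The approximations of the `M`-th root of `w`. -/
def s18rt_Q (Minv : R) (M : ℕ) (w : PowerSeries R) : ℕ → PowerSeries R
  | 0 => 1
  | n + 1 => s18rt_Q Minv M w n +
      PowerSeries.C (Minv * (PowerSeries.coeff (n + 1) w -
        PowerSeries.coeff (n + 1) ((s18rt_Q Minv M w n) ^ M))) * PowerSeries.X ^ (n + 1)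

theorem s18rt_Q_zero (Minv : R) (M : ℕ) (w : PowerSeries R) : s18rt_Q Minv M w 0 = 1 := rfl

theorem s18rt_Q_succ (Minv : R) (M : ℕ) (w : PowerSeries R) (n : ℕ) :
    s18rt_Q Minv M w (n + 1) = s18rt_Q Minv M w n +
      PowerSeries.C (Minv * (PowerSeries.coeff (n + 1) w -
        PowerSeries.coeff (n + 1) ((s18rt_Q Minv M w n) ^ M))) * PowerSeries.X ^ (n + 1) := rfl

theorem s18rt_Q_coeff_succ (Minv : R) (M : ℕ) (w : PowerSeries R) (n m : ℕ) (hm : m ≤ n) :
    PowerSeries.coeff m (s18rt_Q Minv M w (n + 1)) = PowerSeries.coeff m (s18rt_Q Minv M w n) := by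
  rw [s18rt_Q_succ, map_add, PowerSeries.coeff_C_mul_X_pow, if_neg (by omega), add_zero]

theorem s18rt_Q_coeff (Minv : R) (M : ℕ) (w : PowerSeries R) (m : ℕ) :
    ∀ n : ℕ, m ≤ n →
      PowerSeries.coeff m (s18rt_Q Minv M w n) = PowerSeries.coeff m (s18rt_Q Minv M w m) := by
  intro n hn
  induction n with
  | zero =>
    have : m = 0 := by omega
    subst this
    rfl
  | succ n ih =>
    rcases Nat.eq_or_lt_of_le hn with h | h
    · rw [h]
    · rw [s18rt_Q_coeff_succ Minv M w n m (by omega), ih (by omega)]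

theorem s18rt_Q_const (Minv : R) (M : ℕ) (w : PowerSeries R) (n : ℕ) :
    PowerSeries.constantCoeff (s18rt_Q Minv M w n) = 1 := by
  rw [← PowerSeries.coeff_zero_eq_constantCoeff, s18rt_Q_coeff Minv M w 0 n (Nat.zero_le n),
    s18rt_Q_zero, PowerSeries.coeff_zero_eq_constantCoeff, map_one]

theorem s18rt_Q_spec (Minv : R) (M : ℕ) (hM : (M : R) * Minv = 1) (w : PowerSeries R)
    (hw : PowerSeries.constantCoeff w = 1) (n : ℕ) :
    PowerSeries.X ^ (n + 1) ∣ (s18rt_Q Minv M w n) ^ M - w := by
  induction n with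
  | zero =>
    rw [s18rt_Q_zero, one_pow, zero_add, pow_one, PowerSeries.X_dvd_iff, map_sub, map_one, hw,
      sub_self]
  | succ n ih =>
    rw [PowerSeries.X_pow_dvd_iff] at ih ⊢
    intro m hm
    set a := s18rt_Q Minv M w n with ha
    set c : R := Minv * (PowerSeries.coeff (n + 1) w - PowerSeries.coeff (n + 1) (a ^ M))
      with hc
    obtain ⟨k, hk⟩ := Polynomial.powAddExpansion a
      (PowerSeries.C c * PowerSeries.X ^ (n + 1)) M
    have hQ : s18rt_Q Minv M w (n + 1) = a + PowerSeries.C c * PowerSeries.X ^ (n + 1) := rfl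
    rw [hQ, hk]
    have e1 : a ^ M + (M : PowerSeries R) * a ^ (M - 1) *
          (PowerSeries.C c * PowerSeries.X ^ (n + 1)) +
          k * (PowerSeries.C c * PowerSeries.X ^ (n + 1)) ^ 2 - w =
        (a ^ M - w) + ((M : PowerSeries R) * a ^ (M - 1) * PowerSeries.C c) *
          PowerSeries.X ^ (n + 1) +
          (k * PowerSeries.C c ^ 2) * PowerSeries.X ^ (2 * (n + 1)) := by
      ring
    rw [e1, map_add, map_add, PowerSeries.coeff_mul_X_pow', PowerSeries.coeff_mul_X_pow',
      if_neg (by omega : ¬ 2 * (n + 1) ≤ m), add_zero]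
    rcases Nat.lt_or_ge m (n + 1) with h | h
    · rw [ih m h, if_neg (by omega), add_zero]
    · have hmn : m = n + 1 := by omega
      subst hmn
      rw [if_pos le_rfl, Nat.sub_self, PowerSeries.coeff_zero_eq_constantCoeff, map_mul, map_mul,
        map_pow, s18rt_Q_const, one_pow, mul_one, PowerSeries.constantCoeff_C, map_sub]
      have h1 : PowerSeries.constantCoeff (M : PowerSeries R) = (M : R) := by
        rw [← map_natCast (PowerSeries.C (R := R)), PowerSeries.constantCoeff_C]
      rw [h1, hc, ← mul_assoc, hM, one_mul]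
      ring

/-- A power series with constant coefficient `1` has an `M`-th root with constant coefficient
`1` if `M` is invertible. -/
theorem s18rt_exists_root (M : ℕ) (hM : IsUnit (M : R)) (w : PowerSeries R)
    (hw : PowerSeries.constantCoeff w = 1) :
    ∃ v : PowerSeries R, PowerSeries.constantCoeff v = 1 ∧ v ^ M = w := by
  obtain ⟨Minv, hMinv⟩ := hM.exists_right_inv
  set Q := s18rt_Q Minv M w with hQ
  set v : PowerSeries R := PowerSeries.mk (fun n => PowerSeries.coeff n (Q n)) with hv
  have hvQ : ∀ n : ℕ, PowerSeries.X ^ (n + 1) ∣ v - Q n := by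
    intro n
    rw [PowerSeries.X_pow_dvd_iff]
    intro m hm
    rw [map_sub, hv, PowerSeries.coeff_mk, hQ, s18rt_Q_coeff Minv M w m n (by omega), sub_self]
  refine ⟨v, ?_, ?_⟩
  · rw [← PowerSeries.coeff_zero_eq_constantCoeff, hv, PowerSeries.coeff_mk, hQ, s18rt_Q_zero,
      PowerSeries.coeff_zero_eq_constantCoeff, map_one]
  · rw [← sub_eq_zero]
    ext n
    have h1 : PowerSeries.X ^ (n + 1) ∣ v ^ M - w := by
      have h2 : v ^ M - w = (v ^ M - (Q n) ^ M) + ((Q n) ^ M - w) := by ring
      rw [h2]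
      exact dvd_add ((hvQ n).trans (sub_dvd_pow_sub_pow v (Q n) M))
        (s18rt_Q_spec Minv M hMinv w hw n)
    rw [PowerSeries.X_pow_dvd_iff] at h1
    rw [h1 n (Nat.lt_succ_self n), map_zero]

end Root

/-! ### The series `σ` -/

section Sigma

variable (R : Type) [CommRing R] (M : ℕ) [NeZero M]

/-- **[ROOT]** -/
theorem s18rt_main : s18_SigmaStatement := by
  intro R _ M _ hM
  set u : PowerSeries R := jNum.map (Int.castRingHom R) with hu
  have hu0 : PowerSeries.constantCoeff u = ((1 : Rˣ) : R) := by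
    rw [hu, ← PowerSeries.coeff_zero_eq_constantCoeff, PowerSeries.coeff_map,
      PowerSeries.coeff_zero_eq_constantCoeff, constantCoeff_jNum, map_one, Units.val_one]
  have hw0 : PowerSeries.constantCoeff (u.invOfUnit 1) = 1 := by
    rw [PowerSeries.constantCoeff_invOfUnit, inv_one, Units.val_one]
  obtain ⟨v, hv0, hvM⟩ := s18rt_exists_root M hM (u.invOfUnit 1) hw0
  have hvu : v ^ M * u = 1 := by
    rw [hvM, mul_comm]
    exact PowerSeries.mul_invOfUnit u 1 hu0
  refine ⟨HahnSeries.single (1 : ℤ) (1 : R) *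
    qExpand R M (HahnSeries.ofPowerSeries ℤ R v), ?_, ?_, ?_⟩
  · have h1 : jqModC R = HahnSeries.single (-1 : ℤ) 1 * HahnSeries.ofPowerSeries ℤ R u := rfl
    rw [h1, map_mul, qExpand_single, mul_pow, HahnSeries.single_pow, one_pow, ← map_pow,
      ← map_pow]
    have h2 : HahnSeries.single (M • (1 : ℤ)) (1 : R) *
          qExpand R M (HahnSeries.ofPowerSeries ℤ R (v ^ M)) *
          (HahnSeries.single ((M : ℤ) * (-1)) (1 : R) *
            qExpand R M (HahnSeries.ofPowerSeries ℤ R u)) =
        (HahnSeries.single (M • (1 : ℤ)) (1 : R) * HahnSeries.single ((M : ℤ) * (-1)) (1 : R)) *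
          qExpand R M (HahnSeries.ofPowerSeries ℤ R (v ^ M * u)) := by
      rw [map_mul, map_mul]
      ring
    have e1 : HahnSeries.ofPowerSeries ℤ R (1 : PowerSeries R) = 1 := map_one _
    have e2 : qExpand R M (1 : LaurentSeries R) = 1 := map_one _
    have h3 : M • (1 : ℤ) + (M : ℤ) * (-1) = 0 := by
      rw [nsmul_eq_mul]
      ring
    rw [h2, hvu, e1, e2, mul_one, HahnSeries.single_mul_single, mul_one, h3]
    rfl
  · have h1 := HahnSeries.coeff_single_mul_add (r := (1 : R))
      (x := qExpand R M (HahnSeries.ofPowerSeries ℤ R v)) (a := (0 : ℤ)) (b := (1 : ℤ))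
    rw [zero_add, one_mul] at h1
    rw [h1]
    have h2 := qExpand_coeff_mul M (HahnSeries.ofPowerSeries ℤ R v) 0
    rw [mul_zero] at h2
    rw [h2]
    have h3 := HahnSeries.ofPowerSeries_apply_coeff (Γ := ℤ) v 0
    rw [Nat.cast_zero] at h3
    rw [h3, PowerSeries.coeff_zero_eq_constantCoeff, hv0]
  · intro k hk
    have h1 := HahnSeries.coeff_single_mul_add (r := (1 : R))
      (x := qExpand R M (HahnSeries.ofPowerSeries ℤ R v)) (a := k - 1) (b := (1 : ℤ))
    rw [sub_add_cancel, one_mul] at h1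
    rw [h1]
    by_cases hd : (M : ℤ) ∣ (k - 1)
    · obtain ⟨t, ht⟩ := hd
      rw [ht, qExpand_coeff_mul]
      have hk1 : k < 1 := by
        rcases hk with h | h
        · exact h
        · exact absurd ⟨t, ht⟩ h
      have hM0 : (0 : ℤ) < (M : ℤ) := by exact_mod_cast Nat.pos_of_ne_zero (NeZero.ne M)
      have ht0 : t < 0 := by
        by_contra h
        have h' : 0 ≤ t := not_lt.1 h
        have : 0 ≤ (M : ℤ) * t := mul_nonneg hM0.le h'
        omega
      exact ofPowerSeries_coeff_of_neg v ht0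
    · exact qExpand_coeff_of_not_dvd M _ hd

end Sigma

end Fermat.Agent.S18
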