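/-
S18, THE CLOSED PACKAGES (architect: helper13).

* `s18_modelQ_main : s18_ModelQStatement` - [MODEL-Q], the good model of `X₀(M)` over the discrete
  valuation rings of number fields (all thirteen leaves plugged);
* `s18_astar_main : s18_AStarStatement` - [ASTAR] (all eight leaves plugged).
-/
import Mathlib
import Fermat.Agent.S18.Assembly
import Fermat.Agent.S18.Basic
import Fermat.Agent.S18.Loc
import Fermat.Agent.S18.SurjOf
import Fermat.Agent.S18.PoleOf
import Fermat.Agent.S18.Fin
import Fermat.Agent.S18.Cech
import Fermat.Agent.S18.Glob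
import Fermat.Agent.S18.Nsatz
import Fermat.Agent.S18.GaussAbs
import Fermat.Agent.S18.GaussQOf
import Fermat.Agent.S18.Haupt4
import Fermat.Agent.S18.Haupt9F
import Fermat.Agent.S18.RamJ
import Fermat.Agent.S18.Cfe
import Fermat.Agent.S18.Sep
import Fermat.Agent.S18.Pure
import Fermat.Agent.S18.NormFin
import Fermat.Agent.S18.Root
import Fermat.Agent.S18.GradeMain
import Fermat.Agent.S18.Kummer
import Fermat.Agent.S18.InfAsm

set_option autoImplicit false

open AlgebraicCurve ModularCurve

noncomputable section

namespace Fermat.Agent.S18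

/-- **[MODEL-Q]**, hypothesis-free. -/
theorem s18_modelQ_main : s18_ModelQStatement :=
  s18_asm_modelQ s18ga_main s18gq_main s18h4_main s18h9f_main s18rj_main s18cfe_main
    s18sep_main s18pu_main s18nf_main s18rt_main s18gr_main s18ku_main s18ia_main

/-- **[ASTAR]**, hypothesis-free. -/
theorem s18_astar_main : s18_AStarStatement :=
  s18_asm_astar s18b_main s18loc_main s18s_main s18p_main s18fin_main s18ce_main s18g_main
    s18ns_main

end Fermat.Agent.S18
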