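/-
S18, package [RAT-Q] of `S18/ModelDefs.lean`, VERBATIM (owner: helper14).  Prefix `s18rq_`.

    theorem s18rq_main : s18_RatQStatement
      (= s18_ModelQStatement → s18_AStarStatement → s18_CfeStatement → s18_DiscreteStatement →
           s18_StarMStatement)

ROUTE.  `a, b ∈ A((q)) ∩ F̄_M`.
 (R1) `RatQDescent.lean`: `â, b̂` are the coefficientwise images of `a0, b0 ∈ F_{K0}(M)`, `K0 ⊆ Q̄`
      finite over `ℚ`.
 (R2) `O := A.comap (K0 → Q̄)` is a discrete valuation ring ([DISCRETE] over `O ∩ ℚ = ℤ_(ℓ)`,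
      `s18rq_dvrQ`), `ℓ ∈ 𝔪_O`, `m ∈ Oˣ`, the residue field of `O` is perfect (`RatQRing.lean`).
 (R3) `a0, b0` have coefficients in `O`, with the same non-zero reduction; [MODEL-Q] gives the
      good model and `u0 = a0 / b0 ≡ 1` modulo the special fibre.
 (R4) [CFE]: `m ∣ ord_P u0` at every place `P` of `F_{K0}(M) / K0`.
 (R5) [ASTAR] with `C = Q̄`: `u0` is an `m`-th power in `Q̄ ⊗_{K0} F_{K0}(M)`; push forward along
      `Q̄ ⊗_{K0} F_{K0}(M) → F̄_M` (`s18rq_push`).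
-/
import Mathlib
import Fermat.Agent.S18.ModelDefs
import Fermat.Agent.S18.RatQDescent
import Fermat.Agent.S18.RatQRing

set_option autoImplicit false
set_option synthInstance.maxHeartbeats 400000
set_option maxHeartbeats 1000000

open AlgebraicCurve ModularCurve IntermediateField
open scoped TensorProduct

noncomputable section

namespace Fermat.Agent.S18

section Push

variable (M : ℕ) (K0 : IntermediateField ℚ (AlgebraicClosure ℚ))

/-- The multiplication map `Q̄ ⊗_{K0} F_{K0}(M) → F̄_M`. -/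
theorem s18rq_push :
    ∃ Φ : (AlgebraicClosure ℚ) ⊗[↥K0] ↥(s18_F ↥K0 M) →+* LaurentSeries (AlgebraicClosure ℚ),
      (∀ f : ↥(s18_F ↥K0 M), Φ ((1 : AlgebraicClosure ℚ) ⊗ₜ[↥K0] f) =
        coeffMap (algebraMap ↥K0 (AlgebraicClosure ℚ)) (f : LaurentSeries ↥K0)) ∧
      ∀ t, Φ t ∈ modularFunctionFieldBar M := by
  let algS : Algebra ↥K0 (LaurentSeries (AlgebraicClosure ℚ)) :=
    ((algebraMap (AlgebraicClosure ℚ) (LaurentSeries (AlgebraicClosure ℚ))).comp
      (algebraMap ↥K0 (AlgebraicClosure ℚ))).toAlgebra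
  let f1 : (AlgebraicClosure ℚ) →ₐ[↥K0] LaurentSeries (AlgebraicClosure ℚ) :=
    { algebraMap (AlgebraicClosure ℚ) (LaurentSeries (AlgebraicClosure ℚ)) with
      commutes' := fun c => rfl }
  let g1 : ↥(s18_F ↥K0 M) →ₐ[↥K0] LaurentSeries (AlgebraicClosure ℚ) :=
    { (coeffMap (algebraMap ↥K0 (AlgebraicClosure ℚ))).comp
        (algebraMap ↥(s18_F ↥K0 M) (LaurentSeries ↥K0)) with
      commutes' := fun c => by
        show coeffMap (algebraMap ↥K0 (AlgebraicClosure ℚ))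
          (algebraMap ↥K0 (LaurentSeries ↥K0) c) = _
        rw [s18rq_coeffMap_algebraMap]
        rfl }
  refine ⟨(Algebra.TensorProduct.productMap f1 g1 : _ →+* _), ?_, ?_⟩
  · intro f
    show Algebra.TensorProduct.productMap f1 g1 ((1 : AlgebraicClosure ℚ) ⊗ₜ[↥K0] f) = _
    rw [Algebra.TensorProduct.productMap_apply_tmul, map_one, one_mul]
    rfl
  · intro t
    show Algebra.TensorProduct.productMap f1 g1 t ∈ modularFunctionFieldBar M
    induction t using TensorProduct.induction_on with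
    | zero => rw [map_zero]; exact zero_mem _
    | tmul c f =>
        rw [Algebra.TensorProduct.productMap_apply_tmul]
        refine mul_mem ((modularFunctionFieldBar M).algebraMap_mem c) ?_
        exact s18rq_coeffMap_mem (algebraMap ↥K0 (AlgebraicClosure ℚ))
          (modularFunctionFieldFull M) f.2
    | add x y hx hy => rw [map_add]; exact add_mem hx hy

end Push

/-- **[RAT-Q]** -/
theorem s18rq_main : s18_RatQStatement := by
  intro hModel hAStar hCfe hDisc M _ ℓ _ hℓM h49 A hA m hm a b ha hb hred hne hord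
  classical
  -- (R1) descent
  obtain ⟨K0, hK0, a0, b0, ha0, hb0, haa, hbb⟩ := s18rq_descent₂ M ha hb
  -- (R2) the ring `O`
  have hℓO : (ℓ : ↥K0) ∈ (A.comap (algebraMap ↥K0 (AlgebraicClosure ℚ))).nonunits := by
    apply s18rq_nonunits_comap
    rw [map_natCast]
    exact hA
  have hℓmax := s18rq_natCast_mem_maximalIdeal _ ℓ hℓO
  have hdvr : IsDiscreteValuationRing ↥(A.comap (algebraMap ↥K0 (AlgebraicClosure ℚ))) := by
    apply hDisc ℚ ↥K0
    apply s18rq_dvrQ _ ℓ
    apply s18rq_nonunits_comap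
    rw [map_natCast]
    exact hℓO
  have halg : Algebra.IsAlgebraic ℚ ↥K0 := Algebra.IsAlgebraic.of_finite ℚ ↥K0
  have hperf := s18rq_perfect (A.comap (algebraMap ↥K0 (AlgebraicClosure ℚ))) ℓ hℓmax
  have hmu : IsUnit ((m : ℕ) : ↥(A.comap (algebraMap ↥K0 (AlgebraicClosure ℚ)))) :=
    s18rq_isUnit_natCast hℓmax m hm
  -- (R3) the coefficients lie in `O`
  have hcoeff : ∀ (x0 : LaurentSeries ↥K0) (x : LaurentSeries ↥A),
      coeffMap (algebraMap ↥K0 (AlgebraicClosure ℚ)) x0 = coeffMap A.subtype x →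
      ∃ x1 : LaurentSeries ↥(A.comap (algebraMap ↥K0 (AlgebraicClosure ℚ))),
        coeffMap (algebraMap ↥(A.comap (algebraMap ↥K0 (AlgebraicClosure ℚ))) ↥K0) x1 = x0 ∧
        ∀ k, s18rq_incl (algebraMap ↥K0 (AlgebraicClosure ℚ)) A (x1.coeff k) = x.coeff k := by
    intro x0 x hx
    have hk : ∀ k, algebraMap ↥K0 (AlgebraicClosure ℚ) (x0.coeff k) = (x.coeff k : _) := by
      intro k
      have := congrArg (fun z => z.coeff k) hx
      simpa using this
    obtain ⟨x1, hx1⟩ := s18rq_lift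
      (algebraMap ↥(A.comap (algebraMap ↥K0 (AlgebraicClosure ℚ))) ↥K0) x0
      (fun k => ⟨⟨x0.coeff k, by
        rw [ValuationSubring.mem_comap, hk k]
        exact (x.coeff k).2⟩, rfl⟩)
    refine ⟨x1, hx1, fun k => ?_⟩
    apply Subtype.ext
    rw [s18rq_incl_coe, ← hk k, ← hx1]
    rfl
  obtain ⟨a1, ha1, hinca⟩ := hcoeff a0 a haa
  obtain ⟨b1, hb1, hincb⟩ := hcoeff b0 b hbb
  have hresk : ∀ k, IsLocalRing.residue ↥A (a.coeff k) = IsLocalRing.residue ↥A (b.coeff k) := by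
    intro k
    have := congrArg (fun z => z.coeff k) hred
    simpa using this
  have hred1 : coeffMap (IsLocalRing.residue ↥(A.comap (algebraMap ↥K0 (AlgebraicClosure ℚ)))) a1
      = coeffMap (IsLocalRing.residue ↥(A.comap (algebraMap ↥K0 (AlgebraicClosure ℚ)))) b1 := by
    ext k
    simp only [coeffMap_coeff]
    rw [← sub_eq_zero, ← map_sub, ← s18rq_residue_incl, map_sub, map_sub, hinca, hincb,
      hresk k, sub_self]
  have hne1 : coeffMap (IsLocalRing.residue ↥(A.comap (algebraMap ↥K0 (AlgebraicClosure ℚ)))) b1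
      ≠ 0 := by
    intro h0
    apply hne
    ext k
    have := congrArg (fun z => z.coeff k) h0
    simp only [coeffMap_coeff, HahnSeries.coeff_zero] at this ⊢
    rw [← s18rq_residue_incl, hincb] at this
    exact this
  have hb10 : b1 ≠ 0 := by
    intro h0
    apply hne1
    rw [h0, map_zero]
  have ha10 : a1 ≠ 0 := by
    intro h0
    apply hne1
    rw [← hred1, h0, map_zero]
  have hinjO : Function.Injective
      (algebraMap ↥(A.comap (algebraMap ↥K0 (AlgebraicClosure ℚ))) ↥K0) :=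
    fun x y h => Subtype.ext h
  have ha00 : a0 ≠ 0 := by
    rw [← ha1]
    exact fun h => ha10 (s18rq_coeffMap_injective _ hinjO (by rw [h, map_zero]))
  have hb00 : b0 ≠ 0 := by
    rw [← hb1]
    exact fun h => hb10 (s18rq_coeffMap_injective _ hinjO (by rw [h, map_zero]))
  have hbhat0 : coeffMap A.subtype b ≠ 0 := by
    rw [← hbb]
    exact fun h => hb00 (s18rq_coeffMap_injective _
      (algebraMap ↥K0 (AlgebraicClosure ℚ)).injective (by rw [h, map_zero]))
  -- the model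
  let algOF := s18_algOF ↥(A.comap (algebraMap ↥K0 (AlgebraicClosure ℚ))) ↥K0 M
  have tow := s18_towerOF ↥(A.comap (algebraMap ↥K0 (AlgebraicClosure ℚ))) ↥K0 M
  obtain ⟨hgood, hgauss⟩ := hModel M hℓM h49 K0 hK0
    (A.comap (algebraMap ↥K0 (AlgebraicClosure ℚ))) hℓmax hperf
  have ha1F : coeffMap (algebraMap ↥(A.comap (algebraMap ↥K0 (AlgebraicClosure ℚ))) ↥K0) a1 ∈
      s18_F ↥K0 M := ha1 ▸ ha0
  have hb1F : coeffMap (algebraMap ↥(A.comap (algebraMap ↥K0 (AlgebraicClosure ℚ))) ↥K0) b1 ∈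
      s18_F ↥K0 M := hb1 ▸ hb0
  have hR := hgauss a1 b1 ha1F hb1F hred1 hne1
  -- `u0`
  have hu0 : ((⟨_, ha1F⟩ : ↥(s18_F ↥K0 M)) / (⟨_, hb1F⟩ : ↥(s18_F ↥K0 M))) ≠ 0 := by
    apply div_ne_zero
    · intro h
      apply ha00
      have := congrArg Subtype.val h
      rw [← ha1]
      exact this
    · intro h
      apply hb00
      have := congrArg Subtype.val h
      rw [← hb1]
      exact this
  have hiota : s18_iota K0 (((⟨_, ha1F⟩ : ↥(s18_F ↥K0 M)) / (⟨_, hb1F⟩ : ↥(s18_F ↥K0 M)) :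
        ↥(s18_F ↥K0 M)) : LaurentSeries ↥K0) =
      coeffMap A.subtype a / coeffMap A.subtype b := by
    rw [s18_iota, IntermediateField.coe_div, map_div₀]
    show coeffMap _ (coeffMap _ a1) / coeffMap _ (coeffMap _ b1) = _
    rw [ha1, hb1, haa, hbb]
  -- (R4) the orders
  have hord0 : ∀ P : Place ↥K0 ↥(s18_F ↥K0 M),
      (m : ℤ) ∣ P.ord ((⟨_, ha1F⟩ : ↥(s18_F ↥K0 M)) / (⟨_, hb1F⟩ : ↥(s18_F ↥K0 M))) := by
    intro P
    obtain ⟨P', hP'⟩ := hCfe M K0 hK0 P
    have h1 := hP' ((⟨_, ha1F⟩ : ↥(s18_F ↥K0 M)) / (⟨_, hb1F⟩ : ↥(s18_F ↥K0 M)))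
      ((⟨coeffMap A.subtype a, ha⟩ : modularFunctionFieldBar M) /
        (⟨coeffMap A.subtype b, hb⟩ : modularFunctionFieldBar M))
      (by rw [hiota, IntermediateField.coe_div])
    rw [← h1]
    exact hord P'
  -- (R5) [ASTAR] and the push-forward
  obtain ⟨y, hy⟩ := hAStar ↥(A.comap (algebraMap ↥K0 (AlgebraicClosure ℚ))) ↥K0
    ↥(s18_F ↥K0 M) (s18_j ↥K0 M) hgood m hmu _ hu0 hR hord0 (AlgebraicClosure ℚ)
  obtain ⟨Φ, hΦ1, hΦmem⟩ := s18rq_push M K0
  refine ⟨⟨Φ y, hΦmem y⟩, ?_⟩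
  apply Subtype.ext
  have h2 : (Φ y) ^ m = coeffMap A.subtype a / coeffMap A.subtype b := by
    rw [← map_pow, hy, hΦ1]
    exact hiota
  show (Φ y) ^ m * coeffMap A.subtype b = coeffMap A.subtype a
  rw [h2, div_mul_cancel₀ _ hbhat0]

end Fermat.Agent.S18
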