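/-
S18, package (P2) [WIRE-OF] (helper6), part 1: the residue field and the lifting lemma.
Prefix `s18w_`.

* `s18w_charP`        : the residue field of a valuation ring of `L` over `ℓ` has characteristic `ℓ`;
* `s18w_isAlgClosed`  : the residue field of a valuation ring of an algebraically closed field is
                        algebraically closed;
* `s18w_I A N`        : the subring of `A((q))` of the series whose image in `L((q))` lies in
                        `F_L(N) = laurentBaseChange L (modularFunctionFieldFull N)`;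
* `s18w_lift`         : every element of `F_k(N)` is a quotient of reductions of elements of
                        `s18w_I A N`.
-/
import Mathlib
import Fermat.Agent.S18.Defs

set_option autoImplicit false
set_option maxHeartbeats 1000000
set_option synthInstance.maxHeartbeats 400000
set_option linter.unusedVariables false
set_option linter.unusedSectionVars false

open AlgebraicCurve ModularCurve IntermediateField

noncomputable section

namespace Fermat.Agent.S18

/-! ### The residue field -/

section Residue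

variable {L : Type*} [Field L] (A : ValuationSubring L)

/-- The residue field of a valuation ring over `ℓ` has characteristic `ℓ`. -/
theorem s18w_charP {ℓ : ℕ} [hℓ : Fact ℓ.Prime] (hA : A.LiesOverPrime ℓ) :
    CharP (IsLocalRing.ResidueField A) ℓ := by
  rw [CharP.charP_iff_prime_eq_zero hℓ.out]
  have h1 : ((ℓ : A) : L) = (ℓ : L) := by simp
  have h2 : (ℓ : A) ∈ IsLocalRing.maximalIdeal A := by
    rw [IsLocalRing.mem_maximalIdeal, mem_nonunits_iff]
    intro hu
    have h3 : (ℓ : L) ∈ A.nonunits := hA
    rw [ValuationSubring.mem_nonunits_iff_exists_mem_maximalIdeal] at h3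
    obtain ⟨hmem, h4⟩ := h3
    rw [IsLocalRing.mem_maximalIdeal, mem_nonunits_iff] at h4
    apply h4
    have h5 : (⟨(ℓ : L), hmem⟩ : A) = (ℓ : A) := Subtype.ext h1.symm
    rw [h5]
    exact hu
  have h6 : IsLocalRing.residue A (ℓ : A) = 0 :=
    (IsLocalRing.residue_eq_zero_iff _).2 h2
  rw [← h6, map_natCast]

/-- The residue field of a valuation ring of an algebraically closed field is algebraically
closed. -/
theorem s18w_isAlgClosed [IsAlgClosed L] : IsAlgClosed (IsLocalRing.ResidueField A) := by
  refine IsAlgClosed.of_exists_root _ (fun p hp hirr => ?_)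
  have hsurj : Function.Surjective (IsLocalRing.residue A) := IsLocalRing.residue_surjective
  have hl : p ∈ Polynomial.lifts (IsLocalRing.residue A) :=
    (Polynomial.mem_lifts p).2 (Polynomial.map_surjective _ hsurj p)
  obtain ⟨P, hPmap, hPdeg, hPmon⟩ := Polynomial.lifts_and_natDegree_eq_and_monic hl hp
  have hdeg : (P.map (algebraMap A L)).degree ≠ 0 := by
    rw [Polynomial.degree_map_eq_of_injective (FaithfulSMul.algebraMap_injective A L)]
    rw [Polynomial.degree_eq_natDegree hPmon.ne_zero, hPdeg]
    have h1 := Polynomial.natDegree_pos_iff_degree_pos.2 (Polynomial.degree_pos_of_irreducible hirr)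
    intro h2
    have h3 : p.natDegree = 0 := by exact_mod_cast h2
    omega
  obtain ⟨x, hx⟩ := IsAlgClosed.exists_root (P.map (algebraMap A L)) hdeg
  have hint : IsIntegral A x := ⟨P, hPmon, by
    rw [Polynomial.IsRoot, Polynomial.eval_map] at hx
    exact hx⟩
  obtain ⟨y, hy⟩ := IsIntegrallyClosed.isIntegral_iff.1 hint
  refine ⟨IsLocalRing.residue A y, ?_⟩
  rw [← hPmap, Polynomial.eval_map, Polynomial.eval₂_at_apply]
  have h4 : P.eval y = 0 := by
    have h5 : algebraMap A L (P.eval y) = 0 := by
      rw [← Polynomial.eval₂_at_apply, hy]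
      rw [Polynomial.IsRoot, Polynomial.eval_map] at hx
      exact hx
    exact (FaithfulSMul.algebraMap_injective A L) (h5.trans (map_zero _).symm)
  rw [h4, map_zero]

end Residue

/-! ### The lifting lemma -/

section Lift

variable {L : Type*} [Field L] [Algebra ℚ L] (A : ValuationSubring L) (N : ℕ)

/-- The series with coefficients in `A` whose image in `L((q))` lies in `F_L(N)`. -/
def s18w_I : Subring (LaurentSeries A) :=
  (laurentBaseChange L (modularFunctionFieldFull N)).toSubfield.toSubring.comap
    (coeffMap A.subtype)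

theorem s18w_mem_I {G : LaurentSeries A} :
    G ∈ s18w_I A N ↔ coeffMap A.subtype G ∈ laurentBaseChange L (modularFunctionFieldFull N) :=
  Iff.rfl

/-- The series with coefficients in `A` whose reduction lies in `F_k(N)`. -/
def s18w_Ik : Subring (LaurentSeries A) :=
  (modularFunctionFieldFullC (IsLocalRing.ResidueField A) N).toSubfield.toSubring.comap
    (coeffMap (IsLocalRing.residue A))

theorem s18w_mem_Ik {G : LaurentSeries A} :
    G ∈ s18w_Ik A N ↔
      coeffMap (IsLocalRing.residue A) G ∈ modularFunctionFieldFullC (IsLocalRing.ResidueField A) N :=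
  Iff.rfl

theorem s18w_const_mem_I (c : A) : HahnSeries.single (0 : ℤ) c ∈ s18w_I A N := by
  rw [s18w_mem_I, coeffMap_single]
  have h : HahnSeries.single (0 : ℤ) (A.subtype c) = algebraMap L (LaurentSeries L) (c : L) :=
    (algebraMap_laurentSeries_eq_single L (c : L)).symm
  rw [h]
  exact (laurentBaseChange L (modularFunctionFieldFull N)).algebraMap_mem _

theorem s18w_const_mem_Ik (c : A) : HahnSeries.single (0 : ℤ) c ∈ s18w_Ik A N := by
  rw [s18w_mem_Ik, coeffMap_single]
  have h : HahnSeries.single (0 : ℤ) (IsLocalRing.residue A c) =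
      algebraMap (IsLocalRing.ResidueField A) (LaurentSeries (IsLocalRing.ResidueField A))
        (IsLocalRing.residue A c) :=
    (algebraMap_laurentSeries_eq_single _ _).symm
  rw [h]
  exact (modularFunctionFieldFullC (IsLocalRing.ResidueField A) N).algebraMap_mem _

theorem s18w_gen_mem_I {d : ℕ} [NeZero d] (hd : d ∣ N) :
    qExpand A d (jqModC A) ∈ s18w_I A N := by
  rw [s18w_mem_I, coeffMap_qExpand, coeffMap_jqModC]
  have h1 : coeffEmb L (qExpand ℚ d jq) = qExpand L d (jqModC L) := by
    rw [coeffEmb, coeffMap_qExpand, ← jqModC_rat, coeffMap_jqModC]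
  rw [← h1]
  exact coeffEmb_mem_laurentBaseChange L (jqd_mem_full N hd)

theorem s18w_gen_mem_Ik {d : ℕ} [NeZero d] (hd : d ∣ N) :
    qExpand A d (jqModC A) ∈ s18w_Ik A N := by
  rw [s18w_mem_Ik, coeffMap_qExpand, coeffMap_jqModC]
  exact jqModCd_mem_full _ N hd

/-- **The lifting lemma**: every element of `F_k(N)` is a quotient of reductions of series with
coefficients in `A` lying in `F_L(N)`. -/
theorem s18w_lift (x : LaurentSeries (IsLocalRing.ResidueField A))
    (hx : x ∈ modularFunctionFieldFullC (IsLocalRing.ResidueField A) N) :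
    ∃ G₁ G₂ : LaurentSeries A, G₁ ∈ s18w_I A N ∧ G₂ ∈ s18w_I A N ∧
      G₁ ∈ s18w_Ik A N ∧ G₂ ∈ s18w_Ik A N ∧
      coeffMap (IsLocalRing.residue A) G₂ ≠ 0 ∧
      x * coeffMap (IsLocalRing.residue A) G₂ = coeffMap (IsLocalRing.residue A) G₁ := by
  have hx' : x ∈ Subfield.closure
      (Set.range (algebraMap (IsLocalRing.ResidueField A)
        (LaurentSeries (IsLocalRing.ResidueField A))) ∪
        divisorExpansionsC (IsLocalRing.ResidueField A) N) := hx
  clear hx
  induction hx' using Subfield.closure_induction with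
  | mem y hy =>
    rcases hy with ⟨c, rfl⟩ | ⟨d, hd, hdN, rfl⟩
    · obtain ⟨c', rfl⟩ := IsLocalRing.residue_surjective c
      refine ⟨HahnSeries.single 0 c', 1, s18w_const_mem_I A N c', one_mem _,
        s18w_const_mem_Ik A N c', one_mem _, ?_, ?_⟩
      · rw [map_one]; exact one_ne_zero
      · rw [map_one, mul_one, coeffMap_single, algebraMap_laurentSeries_eq_single]
    · have := hd
      refine ⟨qExpand A d (jqModC A), 1, s18w_gen_mem_I A N hdN, one_mem _,
        s18w_gen_mem_Ik A N hdN, one_mem _, ?_, ?_⟩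
      · rw [map_one]; exact one_ne_zero
      · rw [map_one, mul_one, coeffMap_qExpand, coeffMap_jqModC]
  | one =>
    refine ⟨1, 1, one_mem _, one_mem _, one_mem _, one_mem _, ?_, ?_⟩
    · rw [map_one]; exact one_ne_zero
    · rw [map_one, mul_one]
  | add x y _ _ hx hy =>
    obtain ⟨G₁, G₂, h1, h2, h1k, h2k, h3, h4⟩ := hx
    obtain ⟨G₁', G₂', h1', h2', h1k', h2k', h3', h4'⟩ := hy
    refine ⟨G₁ * G₂' + G₁' * G₂, G₂ * G₂', add_mem (mul_mem h1 h2') (mul_mem h1' h2),
      mul_mem h2 h2', add_mem (mul_mem h1k h2k') (mul_mem h1k' h2k), mul_mem h2k h2k', ?_, ?_⟩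
    · rw [map_mul]; exact mul_ne_zero h3 h3'
    · rw [map_add, map_mul, map_mul, map_mul, ← h4, ← h4']
      ring
  | neg x _ hx =>
    obtain ⟨G₁, G₂, h1, h2, h1k, h2k, h3, h4⟩ := hx
    refine ⟨-G₁, G₂, neg_mem h1, h2, neg_mem h1k, h2k, h3, ?_⟩
    rw [map_neg, ← h4, neg_mul]
  | inv x _ hx =>
    obtain ⟨G₁, G₂, h1, h2, h1k, h2k, h3, h4⟩ := hx
    by_cases hx0 : x = 0
    · refine ⟨0, 1, zero_mem _, one_mem _, zero_mem _, one_mem _, ?_, ?_⟩
      · rw [map_one]; exact one_ne_zero
      · rw [hx0, inv_zero, zero_mul, map_zero]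
    · have h5 : coeffMap (IsLocalRing.residue A) G₁ ≠ 0 := by
        rw [← h4]; exact mul_ne_zero hx0 h3
      refine ⟨G₂, G₁, h2, h1, h2k, h1k, h5, ?_⟩
      rw [← h4, ← mul_assoc, inv_mul_cancel₀ hx0, one_mul]
  | mul x y _ _ hx hy =>
    obtain ⟨G₁, G₂, h1, h2, h1k, h2k, h3, h4⟩ := hx
    obtain ⟨G₁', G₂', h1', h2', h1k', h2k', h3', h4'⟩ := hy
    refine ⟨G₁ * G₁', G₂ * G₂', mul_mem h1 h1', mul_mem h2 h2', mul_mem h1k h1k',
      mul_mem h2k h2k', ?_, ?_⟩
    · rw [map_mul]; exact mul_ne_zero h3 h3'
    · rw [map_mul, map_mul, ← h4, ← h4']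
      ring

end Lift

end Fermat.Agent.S18
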