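/-
S18, package (P2) [WIRE-OF] (helper6), part 2: the formal part of [WIRE].
Prefix `s18w_`.

  s18w_main : s18_WireOfStatement        (= s18_ConstStatement → s18_WireStatement)
  s18w_core : the same for an ARBITRARY reduction map `r` (lead #998)

ROUTE.  `m D = div f`; by `PrincipalGeneratedByIntegral`, `m D = div (a / b)` with `a, b`
products of integral series with non-zero reduction (`s18w_pair`), and
`r_* (m D) = div (ā / b̄)` by clause (ii) of `IsPlaceReductionAlong`.  `r_* D = div g`, so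
`ā / (b̄ g ^ m)` has no zeros and poles: it is a constant `c = c₁ ^ m` by [CONST].
`g₁ = c₁ g = Ḡ₁ / Ḡ₂` by the lifting lemma `s18w_lift`; (STAR) for `a G₂ ^ m`, `b G₁ ^ m` gives
`a / b = w ^ m`, hence `D = div w`.
-/
import Mathlib
import Fermat.Agent.S18.WireOfRes

set_option autoImplicit false
set_option maxHeartbeats 1000000
set_option synthInstance.maxHeartbeats 400000
set_option linter.unusedVariables false
set_option linter.unusedSectionVars false

open AlgebraicCurve ModularCurve IntermediateField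

noncomputable section

namespace Fermat.Agent.S18

/-! ### Orders -/

section Ord

variable {K F : Type*} [Field K] [Field F] [Algebra K F]

theorem s18w_ord_pow (P : Place K F) (f : F) (n : ℕ) : P.ord (f ^ n) = (n : ℤ) * P.ord f := by
  rw [← zpow_natCast, Place.ord_zpow]

theorem s18w_ord_div (P : Place K F) {f g : F} (hf : f ≠ 0) (hg : g ≠ 0) :
    P.ord (f / g) = P.ord f - P.ord g := by
  rw [div_eq_mul_inv, Place.ord_mul P hf (inv_ne_zero hg), Place.ord_inv, sub_eq_add_neg]

end Ord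

/-! ### Elements of the closure of the integral principal divisors -/

section Pair

variable {L : Type*} [Field L] [Algebra ℚ L] (A : ValuationSubring L) (N : ℕ)
  (r : Place L (laurentBaseChange L (modularFunctionFieldFull N)) →
    Place (IsLocalRing.ResidueField A) (modularFunctionFieldFullC (IsLocalRing.ResidueField A) N))

/-- The divisor `E` is the divisor of a quotient of two integral series, compatibly with the
reduction. -/
def s18w_IsPair (E : Divisor L (laurentBaseChange L (modularFunctionFieldFull N))) : Prop :=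
  ∃ (a b : LaurentSeries A) (x y : ↥(laurentBaseChange L (modularFunctionFieldFull N)))
    (xk yk : ↥(modularFunctionFieldFullC (IsLocalRing.ResidueField A) N)),
    (x : LaurentSeries L) = coeffMap A.subtype a ∧ (y : LaurentSeries L) = coeffMap A.subtype b ∧
    (xk : LaurentSeries (IsLocalRing.ResidueField A)) = coeffMap (IsLocalRing.residue A) a ∧
    (yk : LaurentSeries (IsLocalRing.ResidueField A)) = coeffMap (IsLocalRing.residue A) b ∧
    x ≠ 0 ∧ y ≠ 0 ∧ xk ≠ 0 ∧ yk ≠ 0 ∧
    (∀ P, E P = P.ord (x / y)) ∧ ∀ Q, Finsupp.mapDomain r E Q = Q.ord (xk / yk)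

variable {A N r}

theorem s18w_ne_zero_of_red {a : LaurentSeries A}
    {x : ↥(laurentBaseChange L (modularFunctionFieldFull N))}
    (hx : (x : LaurentSeries L) = coeffMap A.subtype a)
    (ha : coeffMap (IsLocalRing.residue A) a ≠ 0) : x ≠ 0 := by
  intro h0
  apply ha
  have h1 : coeffMap A.subtype a = 0 := by rw [← hx, h0]; rfl
  have h2 : a = 0 := by
    ext n
    have h3 := congrArg (fun s => HahnSeries.coeff s n) h1
    simp only [coeffMap_coeff, HahnSeries.coeff_zero] at h3
    rw [HahnSeries.coeff_zero]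
    exact h3
  rw [h2, map_zero]

theorem s18w_pair (hr : IsPlaceReductionAlong A (IsLocalRing.residue A) N r)
    {E : Divisor L (laurentBaseChange L (modularFunctionFieldFull N))}
    (hE : E ∈ AddSubgroup.closure (integralPrincipalDivisors A (IsLocalRing.residue A) N)) :
    s18w_IsPair A N r E := by
  induction hE using AddSubgroup.closure_induction with
  | mem E hE =>
    obtain ⟨y, hy, hyk, hne, hDy⟩ := hE
    refine ⟨y, 1, ⟨_, hy⟩, 1, ⟨_, hyk⟩, 1, rfl, ?_, rfl, ?_, ?_, one_ne_zero, ?_, one_ne_zero,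
      ?_, ?_⟩
    · rw [map_one]; rfl
    · rw [map_one]; rfl
    · exact s18w_ne_zero_of_red rfl hne
    · intro h0
      exact hne (congrArg Subtype.val h0)
    · intro P
      rw [div_one]
      exact hDy P
    · intro Q
      rw [div_one]
      exact hr.2 y hy hyk hne E hDy Q
  | zero =>
    refine ⟨1, 1, 1, 1, 1, 1, ?_, ?_, ?_, ?_, one_ne_zero, one_ne_zero, one_ne_zero, one_ne_zero,
      ?_, ?_⟩
    · rw [map_one]; rfl
    · rw [map_one]; rfl
    · rw [map_one]; rfl
    · rw [map_one]; rfl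
    · intro P
      rw [div_one, Place.ord_one]; rfl
    · intro Q
      rw [div_one, Place.ord_one, Finsupp.mapDomain_zero]; rfl
  | add E E' _ _ hE hE' =>
    obtain ⟨a, b, x, y, xk, yk, hx, hy, hxk, hyk, hx0, hy0, hxk0, hyk0, hP, hQ⟩ := hE
    obtain ⟨a', b', x', y', xk', yk', hx', hy', hxk', hyk', hx0', hy0', hxk0', hyk0', hP', hQ'⟩ :=
      hE'
    refine ⟨a * a', b * b', x * x', y * y', xk * xk', yk * yk', ?_, ?_, ?_, ?_,
      mul_ne_zero hx0 hx0', mul_ne_zero hy0 hy0', mul_ne_zero hxk0 hxk0',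
      mul_ne_zero hyk0 hyk0', ?_, ?_⟩
    · rw [map_mul, ← hx, ← hx']; rfl
    · rw [map_mul, ← hy, ← hy']; rfl
    · rw [map_mul, ← hxk, ← hxk']; rfl
    · rw [map_mul, ← hyk, ← hyk']; rfl
    · intro P
      have h1 : x * x' / (y * y') = x / y * (x' / y') := by
        field_simp
      rw [h1, Place.ord_mul P (div_ne_zero hx0 hy0) (div_ne_zero hx0' hy0'), Finsupp.add_apply,
        hP P, hP' P]
    · intro Q
      have h1 : xk * xk' / (yk * yk') = xk / yk * (xk' / yk') := by
        field_simp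
      rw [h1, Place.ord_mul Q (div_ne_zero hxk0 hyk0) (div_ne_zero hxk0' hyk0'),
        Finsupp.mapDomain_add, Finsupp.add_apply, hQ Q, hQ' Q]
  | neg E _ hE =>
    obtain ⟨a, b, x, y, xk, yk, hx, hy, hxk, hyk, hx0, hy0, hxk0, hyk0, hP, hQ⟩ := hE
    refine ⟨b, a, y, x, yk, xk, hy, hx, hyk, hxk, hy0, hx0, hyk0, hxk0, ?_, ?_⟩
    · intro P
      rw [Finsupp.neg_apply, hP P, ← Place.ord_inv, inv_div]
    · intro Q
      have h1 : Finsupp.mapDomain r (-E) = -Finsupp.mapDomain r E := by
        rw [← Finsupp.mapDomain.addMonoidHom_apply, map_neg, Finsupp.mapDomain.addMonoidHom_apply]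
      rw [h1, Finsupp.neg_apply, hQ Q, ← Place.ord_inv, inv_div]

end Pair

/-! ### The core -/

section Core

local notation "Qbar" => AlgebraicClosure ℚ

/-- **[WIRE-OF], core**: for an ARBITRARY reduction map `r`. -/
theorem s18w_core {ℓ : ℕ} [Fact ℓ.Prime] (N : ℕ) [NeZero N] (hℓN : ¬ ℓ ∣ N)
    (A : ValuationSubring Qbar) (hA : A.LiesOverPrime ℓ)
    (r : Place Qbar (modularFunctionFieldBar N) →
      Place (IsLocalRing.ResidueField A)
        (modularFunctionFieldFullC (IsLocalRing.ResidueField A) N))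
    (hr : IsPlaceReductionAlong A (IsLocalRing.residue A) N r)
    (hgen : PrincipalGeneratedByIntegral A (IsLocalRing.residue A) N)
    (hconst : s18_ConstStatement) (m : ℕ) (hm : m ≠ 0) (hstar : s18_Star A N m)
    (D : Divisor.degZero (K := Qbar) (F := modularFunctionFieldBar N))
    (hmD : m • Pic0.mk D = 0)
    (hred : Pic0.mk (reductionDegZeroAlong r hr.1 D) = 0) : Pic0.mk D = 0 := by
  have : CharP (IsLocalRing.ResidueField A) ℓ := s18w_charP A hA
  have : IsAlgClosed (IsLocalRing.ResidueField A) := s18w_isAlgClosed A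
  have hm' : (m : ℤ) ≠ 0 := by exact_mod_cast hm
  -- `m D` is principal
  have h1 : (m • (D : Divisor Qbar (modularFunctionFieldBar N))) ∈
      Divisor.principal (K := Qbar) (F := modularFunctionFieldBar N) := by
    have h2 : Pic0.mk (m • D) = 0 := hmD
    have h3 := (QuotientAddGroup.eq_zero_iff _).1 h2
    rw [AddSubgroup.mem_addSubgroupOf, AddSubgroupClass.coe_nsmul] at h3
    exact h3
  obtain ⟨a, b, x, y, xk, yk, hx, hy, hxk, hyk, hx0, hy0, hxk0, hyk0, hP, hQ⟩ :=
    s18w_pair hr (hgen h1)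
  -- the reduction of `D` is principal
  obtain ⟨g, hg0, hg⟩ : Divisor.IsPrincipal
      (Finsupp.mapDomain r (D : Divisor Qbar (modularFunctionFieldBar N))) := by
    have h3 := (QuotientAddGroup.eq_zero_iff _).1 hred
    rw [AddSubgroup.mem_addSubgroupOf, coe_reductionDegZeroAlong] at h3
    exact h3
  have hmap : Finsupp.mapDomain r (m • (D : Divisor Qbar (modularFunctionFieldBar N))) =
      m • Finsupp.mapDomain r (D : Divisor Qbar (modularFunctionFieldBar N)) := by
    rw [← Finsupp.mapDomain.addMonoidHom_apply, map_nsmul, Finsupp.mapDomain.addMonoidHom_apply]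
  -- the constant
  have hgm0 : yk * g ^ m ≠ 0 := mul_ne_zero hyk0 (pow_ne_zero m hg0)
  have hh0 : xk / (yk * g ^ m) ≠ 0 := div_ne_zero hxk0 hgm0
  have hhord : ∀ Q : Place (IsLocalRing.ResidueField A)
      (modularFunctionFieldFullC (IsLocalRing.ResidueField A) N),
      Q.ord (xk / (yk * g ^ m)) = 0 := by
    intro Q
    have e1 : xk / (yk * g ^ m) = xk / yk / g ^ m := by
      field_simp
    rw [e1, s18w_ord_div Q (div_ne_zero hxk0 hyk0) (pow_ne_zero m hg0), s18w_ord_pow, ← hQ Q,
      hmap, Finsupp.smul_apply, hg Q, nsmul_eq_mul, sub_self]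
  obtain ⟨c, hc⟩ := hconst N hℓN (IsLocalRing.ResidueField A) _ hh0 hhord
  have hc0 : c ≠ 0 := by
    intro h0
    rw [h0, map_zero] at hc
    exact hh0 hc
  obtain ⟨c₁, hc₁⟩ := IsAlgClosed.exists_pow_nat_eq c (Nat.pos_of_ne_zero hm)
  have hc₁0 : c₁ ≠ 0 := by
    intro h0
    rw [h0, zero_pow hm] at hc₁
    exact hc0 hc₁.symm
  set g₁ : ↥(modularFunctionFieldFullC (IsLocalRing.ResidueField A) N) :=
    algebraMap _ _ c₁ * g with hg₁
  have hg₁0 : g₁ ≠ 0 :=
    mul_ne_zero ((map_ne_zero (algebraMap (IsLocalRing.ResidueField A)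
      ↥(modularFunctionFieldFullC (IsLocalRing.ResidueField A) N))).2 hc₁0) hg0
  have hxy : xk = yk * g₁ ^ m := by
    rw [hg₁, mul_pow, ← map_pow, hc₁, ← hc]
    field_simp
  -- the lift of `g₁`
  obtain ⟨G₁, G₂, hG₁, hG₂, hG₁k, hG₂k, hG₂0, hG⟩ :=
    s18w_lift A N (g₁ : LaurentSeries (IsLocalRing.ResidueField A)) g₁.2
  have hG₁0 : coeffMap (IsLocalRing.residue A) G₁ ≠ 0 := by
    rw [← hG]
    exact mul_ne_zero (fun h => hg₁0 (Subtype.ext h)) hG₂0
  set Y₁ : ↥(modularFunctionFieldBar N) := ⟨coeffMap A.subtype G₁, hG₁⟩ with hY₁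
  set Y₂ : ↥(modularFunctionFieldBar N) := ⟨coeffMap A.subtype G₂, hG₂⟩ with hY₂
  have hY₁0 : Y₁ ≠ 0 := s18w_ne_zero_of_red rfl hG₁0
  have hY₂0 : Y₂ ≠ 0 := s18w_ne_zero_of_red rfl hG₂0
  -- (STAR)
  have ha' : coeffMap A.subtype (a * G₂ ^ m) ∈ modularFunctionFieldBar N := by
    rw [map_mul, map_pow, ← hx]
    exact mul_mem x.2 (pow_mem ((s18w_mem_I A N).1 hG₂) m)
  have hb' : coeffMap A.subtype (b * G₁ ^ m) ∈ modularFunctionFieldBar N := by
    rw [map_mul, map_pow, ← hy]
    exact mul_mem y.2 (pow_mem ((s18w_mem_I A N).1 hG₁) m)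
  have hxa : (⟨coeffMap A.subtype (a * G₂ ^ m), ha'⟩ : ↥(modularFunctionFieldBar N)) =
      x * Y₂ ^ m := by
    apply Subtype.ext
    show coeffMap A.subtype (a * G₂ ^ m) = (x : LaurentSeries Qbar) * (Y₂ : LaurentSeries Qbar) ^ m
    rw [map_mul, map_pow, hx]
  have hyb : (⟨coeffMap A.subtype (b * G₁ ^ m), hb'⟩ : ↥(modularFunctionFieldBar N)) =
      y * Y₁ ^ m := by
    apply Subtype.ext
    show coeffMap A.subtype (b * G₁ ^ m) = (y : LaurentSeries Qbar) * (Y₁ : LaurentSeries Qbar) ^ m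
    rw [map_mul, map_pow, hy]
  have hxyL : (xk : LaurentSeries (IsLocalRing.ResidueField A)) =
      (yk : LaurentSeries (IsLocalRing.ResidueField A)) *
        (g₁ : LaurentSeries (IsLocalRing.ResidueField A)) ^ m := by
    have := congrArg Subtype.val hxy
    exact this
  have hredeq : coeffMap (IsLocalRing.residue A) (a * G₂ ^ m) =
      coeffMap (IsLocalRing.residue A) (b * G₁ ^ m) := by
    rw [map_mul, map_pow, map_mul, map_pow, ← hxk, ← hyk, ← hG, hxyL]
    ring
  have hredne : coeffMap (IsLocalRing.residue A) (b * G₁ ^ m) ≠ 0 := by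
    rw [map_mul, map_pow, ← hyk]
    exact mul_ne_zero (fun h => hyk0 (Subtype.ext h)) (pow_ne_zero m hG₁0)
  have hord : ∀ P : Place Qbar (modularFunctionFieldBar N),
      (m : ℤ) ∣ P.ord ((⟨coeffMap A.subtype (a * G₂ ^ m), ha'⟩ : ↥(modularFunctionFieldBar N)) /
        (⟨coeffMap A.subtype (b * G₁ ^ m), hb'⟩ : ↥(modularFunctionFieldBar N))) := by
    intro P
    have e1 : x * Y₂ ^ m / (y * Y₁ ^ m) = x / y * (Y₂ / Y₁) ^ m := by
      rw [div_pow]
      field_simp
    rw [hxa, hyb, e1, Place.ord_mul P (div_ne_zero hx0 hy0)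
      (pow_ne_zero m (div_ne_zero hY₂0 hY₁0)), s18w_ord_pow, ← hP P, Finsupp.smul_apply,
      nsmul_eq_mul]
    exact ⟨_, (mul_add _ _ _).symm⟩
  obtain ⟨v, hv⟩ := hstar (a * G₂ ^ m) (b * G₁ ^ m) ha' hb' hredeq hredne hord
  rw [hxa, hyb] at hv
  -- `a / b` is an `m`-th power
  set w : ↥(modularFunctionFieldBar N) := v * Y₁ / Y₂ with hw
  have hv0 : v ≠ 0 := by
    intro h0
    rw [h0, zero_pow hm, zero_mul] at hv
    exact mul_ne_zero hx0 (pow_ne_zero m hY₂0) hv.symm
  have hw0 : w ≠ 0 := div_ne_zero (mul_ne_zero hv0 hY₁0) hY₂0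
  have hwm : w ^ m = x / y := by
    rw [hw, div_pow, mul_pow, eq_div_iff hy0, div_mul_eq_mul_div, div_eq_iff (pow_ne_zero m hY₂0)]
    rw [← hv]
    ring
  have hDw : ∀ P : Place Qbar (modularFunctionFieldBar N),
      (D : Divisor Qbar (modularFunctionFieldBar N)) P = P.ord w := by
    intro P
    have e1 := hP P
    rw [← hwm, s18w_ord_pow, Finsupp.smul_apply, nsmul_eq_mul] at e1
    exact mul_left_cancel₀ hm' e1
  have hDprin : (D : Divisor Qbar (modularFunctionFieldBar N)) ∈
      Divisor.principal (K := Qbar) (F := modularFunctionFieldBar N) := ⟨w, hw0, hDw⟩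
  exact (QuotientAddGroup.eq_zero_iff _).2 (AddSubgroup.mem_addSubgroupOf.2 hDprin)

/-- **[WIRE-OF]**. -/
theorem s18w_main : s18_WireOfStatement := by
  intro hconst N _ ℓ _ hℓN A hA h m hm hstar z hmz hz
  obtain ⟨D, rfl⟩ := Pic0.mk_surjective z
  have hm0 : m ≠ 0 := by
    intro h0
    exact hm (h0 ▸ dvd_zero ℓ)
  rw [reductionModL_mk h D] at hz
  exact s18w_core N hℓN A hA (placeReductionModL h) (isPlaceReductionModL_placeReductionModL h)
    h.choose_spec.2 hconst m hm0 hstar D hmz hz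

end Core

end Fermat.Agent.S18
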