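/-
S18, package (A7) [GLOB-OF] (helper18), part 1: the calculus of `π^k W = s18_gauss O j k`
(`W` = the localisation of the chart `B = s18_chart O {j}` at the prime `π B`).
Prefix `s18g_`.

Standing hypotheses of this file (all explicit):
  `hmax : IsLocalRing.maximalIdeal O = Ideal.span {ϖ}`,
  `hπ : algebraMap O F ϖ ≠ 0`,
  `hprime : (s18_fibreIdeal O {j}).IsPrime`.

  `s18g_gauss_iff`   `f ∈ π^k W ↔ ∃ b y ∈ B, y ∉ πB, f y = π^k b`
  `s18g_add / s18g_neg / s18g_sub / s18g_mul / s18g_pow`   `π^k W` is a filtration of a ring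
  `s18g_mono`        `π^(k+l) W ⊆ π^k W`
  `s18g_chart`       `B ⊆ W`
  `s18g_pi_mul / s18g_of_pi_mul`   `f ∈ π^l W ↔ π^k f ∈ π^(k+l) W`
  `s18g_sat`         `B ∩ π^k W = π^k B`  (saturation)
  `s18g_one_not_mem` `1 ∉ π W`
  `s18g_W`           `W` as a subring of `F`
  `s18g_binom`       `(a + b)^m = a^m + m a^(m-1) b + κ b²`, `κ` in a subring containing `a, b`
-/
import Mathlib
import Fermat.Agent.S18.LiftDefs

set_option autoImplicit false
set_option linter.style.haveILetI false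
set_option linter.unusedSectionVars false

noncomputable section

namespace Fermat.Agent.S18

/-- The binomial expansion to first order, with the remainder in a subring. -/
theorem s18g_binom {R : Type*} [CommRing R] (S : Subring R) {a b : R} (ha : a ∈ S) (hb : b ∈ S)
    (m : ℕ) : ∃ κ ∈ S, (a + b) ^ m = a ^ m + (m : R) * a ^ (m - 1) * b + κ * b ^ 2 := by
  induction m with
  | zero => exact ⟨0, zero_mem _, by simp⟩
  | succ m ih =>
    obtain ⟨κ, hκ, h⟩ := ih
    refine ⟨κ * a + (m : R) * a ^ (m - 1) + κ * b,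
      add_mem (add_mem (mul_mem hκ ha) (mul_mem (natCast_mem _ _) (pow_mem ha _)))
        (mul_mem hκ hb), ?_⟩
    rw [pow_succ, h, Nat.add_sub_cancel]
    rcases Nat.eq_zero_or_pos m with h0 | h0
    · subst h0
      simp
      ring
    · obtain ⟨m', rfl⟩ : ∃ m', m = m' + 1 := ⟨m - 1, by omega⟩
      rw [Nat.add_sub_cancel]
      push_cast
      ring

section gauss

variable (O : Type) [CommRing O] [IsLocalRing O] {F : Type} [Field F] [Algebra O F]
  (j : F) (ϖ : O)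

/-- The ideal of the special fibre is generated by `ϖ`. -/
theorem s18g_fibre_eq (hmax : IsLocalRing.maximalIdeal O = Ideal.span {ϖ}) (S : Set F) :
    s18_fibreIdeal O S = Ideal.span {algebraMap O ↥(s18_chart O S) ϖ} := by
  unfold s18_fibreIdeal
  rw [hmax, Ideal.map_span, Set.image_singleton]

theorem s18g_mem_fibre_pow (hmax : IsLocalRing.maximalIdeal O = Ideal.span {ϖ}) (S : Set F)
    (k : ℕ) (x : ↥(s18_chart O S)) :
    x ∈ s18_fibreIdeal O S ^ k ↔
      ∃ b : ↥(s18_chart O S), (x : F) = algebraMap O F ϖ ^ k * (b : F) := by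
  rw [s18g_fibre_eq O ϖ hmax, Ideal.span_singleton_pow, Ideal.mem_span_singleton']
  constructor
  · rintro ⟨a, rfl⟩
    refine ⟨a, ?_⟩
    rw [mul_comm]
    rfl
  · rintro ⟨b, hb⟩
    refine ⟨b, Subtype.ext ?_⟩
    rw [hb, mul_comm]
    rfl

theorem s18g_mem_fibre (hmax : IsLocalRing.maximalIdeal O = Ideal.span {ϖ}) (S : Set F)
    (x : ↥(s18_chart O S)) :
    x ∈ s18_fibreIdeal O S ↔ ∃ b : ↥(s18_chart O S), (x : F) = algebraMap O F ϖ * (b : F) := by
  have h := s18g_mem_fibre_pow O ϖ hmax S 1 x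
  rw [pow_one, pow_one] at h
  exact h

/-- The explicit form of `π^k W`. -/
theorem s18g_gauss_iff (hmax : IsLocalRing.maximalIdeal O = Ideal.span {ϖ}) (k : ℕ) (f : F) :
    f ∈ s18_gauss O j k ↔ ∃ b y : ↥(s18_chart O ({j} : Set F)),
      y ∉ s18_fibreIdeal O ({j} : Set F) ∧ f * (y : F) = algebraMap O F ϖ ^ k * (b : F) := by
  constructor
  · rintro ⟨x, y, hy, hx, hxy⟩
    obtain ⟨b, hb⟩ := (s18g_mem_fibre_pow O ϖ hmax _ k x).1 hx
    exact ⟨b, y, hy, by rw [hxy, hb]⟩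
  · rintro ⟨b, y, hy, h⟩
    refine ⟨algebraMap O _ ϖ ^ k * b, y, hy, ?_, h⟩
    exact (s18g_mem_fibre_pow O ϖ hmax _ k _).2 ⟨b, rfl⟩

variable {O j ϖ}
variable (hmax : IsLocalRing.maximalIdeal O = Ideal.span {ϖ})
  (hπ : algebraMap O F ϖ ≠ 0) (hprime : (s18_fibreIdeal O ({j} : Set F)).IsPrime)

include hmax hprime in
/-- `B ⊆ W`. -/
theorem s18g_chart {f : F} (hf : f ∈ s18_chart O ({j} : Set F)) : f ∈ s18_gauss O j 0 := by
  rw [s18g_gauss_iff O j ϖ hmax]
  refine ⟨⟨f, hf⟩, 1, fun h1 => hprime.ne_top ((Ideal.eq_top_iff_one _).2 h1), ?_⟩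
  rw [pow_zero, one_mul, OneMemClass.coe_one, mul_one]

include hmax hprime in
theorem s18g_zero (k : ℕ) : (0 : F) ∈ s18_gauss O j k := by
  rw [s18g_gauss_iff O j ϖ hmax]
  refine ⟨0, 1, fun h1 => hprime.ne_top ((Ideal.eq_top_iff_one _).2 h1), ?_⟩
  rw [zero_mul, ZeroMemClass.coe_zero, mul_zero]

include hmax hprime in
/-- `π^k W` is closed under addition. -/
theorem s18g_add {k : ℕ} {f g : F} (hf : f ∈ s18_gauss O j k) (hg : g ∈ s18_gauss O j k) :
    f + g ∈ s18_gauss O j k := by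
  rw [s18g_gauss_iff O j ϖ hmax] at hf hg ⊢
  obtain ⟨b, y, hy, h⟩ := hf
  obtain ⟨b', y', hy', h'⟩ := hg
  refine ⟨b * y' + b' * y, y * y', fun hyy => ?_, ?_⟩
  · rcases hprime.mem_or_mem hyy with h1 | h1
    · exact hy h1
    · exact hy' h1
  · push_cast
    have e1 : f * ((y : F) * (y' : F)) = f * (y : F) * (y' : F) := by ring
    have e2 : g * ((y : F) * (y' : F)) = g * (y' : F) * (y : F) := by ring
    rw [add_mul, e1, e2, h, h']
    ring

include hmax in
theorem s18g_neg {k : ℕ} {f : F} (hf : f ∈ s18_gauss O j k) : -f ∈ s18_gauss O j k := by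
  rw [s18g_gauss_iff O j ϖ hmax] at hf ⊢
  obtain ⟨b, y, hy, h⟩ := hf
  refine ⟨-b, y, hy, ?_⟩
  push_cast
  rw [neg_mul, h, mul_neg]

include hmax hprime in
theorem s18g_sub {k : ℕ} {f g : F} (hf : f ∈ s18_gauss O j k) (hg : g ∈ s18_gauss O j k) :
    f - g ∈ s18_gauss O j k := by
  rw [sub_eq_add_neg]
  exact s18g_add hmax hprime hf (s18g_neg hmax hg)

include hmax hprime in
/-- `π^k W · π^l W ⊆ π^(k+l) W`. -/
theorem s18g_mul {k l : ℕ} {f g : F} (hf : f ∈ s18_gauss O j k) (hg : g ∈ s18_gauss O j l) :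
    f * g ∈ s18_gauss O j (k + l) := by
  rw [s18g_gauss_iff O j ϖ hmax] at hf hg ⊢
  obtain ⟨b, y, hy, h⟩ := hf
  obtain ⟨b', y', hy', h'⟩ := hg
  refine ⟨b * b', y * y', fun hyy => ?_, ?_⟩
  · rcases hprime.mem_or_mem hyy with h1 | h1
    · exact hy h1
    · exact hy' h1
  · push_cast
    have e1 : f * g * ((y : F) * (y' : F)) = f * (y : F) * (g * (y' : F)) := by ring
    rw [e1, h, h', pow_add]
    ring

include hmax in
/-- `π^(k+l) W ⊆ π^k W`. -/
theorem s18g_mono {k l : ℕ} (hkl : k ≤ l) {f : F} (hf : f ∈ s18_gauss O j l) :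
    f ∈ s18_gauss O j k := by
  rw [s18g_gauss_iff O j ϖ hmax] at hf ⊢
  obtain ⟨b, y, hy, h⟩ := hf
  refine ⟨algebraMap O _ ϖ ^ (l - k) * b, y, hy, ?_⟩
  rw [h, ← pow_sub_mul_pow (algebraMap O F ϖ) hkl]
  push_cast
  ring

include hmax hprime in
theorem s18g_mul_left {k : ℕ} {f g : F} (hf : f ∈ s18_gauss O j 0) (hg : g ∈ s18_gauss O j k) :
    f * g ∈ s18_gauss O j k := by
  have h := s18g_mul hmax hprime hf hg
  rwa [zero_add] at h

include hmax hprime in
theorem s18g_pow {f : F} (hf : f ∈ s18_gauss O j 1) (m : ℕ) : f ^ m ∈ s18_gauss O j m := by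
  induction m with
  | zero =>
    rw [pow_zero]
    exact s18g_chart hmax hprime (one_mem _)
  | succ m ih =>
    rw [pow_succ]
    exact s18g_mul hmax hprime ih hf

include hmax hprime in
theorem s18g_pow_zero {f : F} (hf : f ∈ s18_gauss O j 0) (m : ℕ) : f ^ m ∈ s18_gauss O j 0 := by
  induction m with
  | zero =>
    rw [pow_zero]
    exact s18g_chart hmax hprime (one_mem _)
  | succ m ih =>
    rw [pow_succ]
    exact s18g_mul_left hmax hprime ih hf

include hmax hprime in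
/-- `π^k ∈ π^k W`. -/
theorem s18g_pi_pow (k : ℕ) : algebraMap O F ϖ ^ k ∈ s18_gauss O j k := by
  rw [s18g_gauss_iff O j ϖ hmax]
  refine ⟨1, 1, fun h1 => hprime.ne_top ((Ideal.eq_top_iff_one _).2 h1), ?_⟩
  rfl

include hmax hprime in
/-- `f ∈ π^l W ⟹ π^k f ∈ π^(k+l) W`. -/
theorem s18g_pi_mul (k : ℕ) {l : ℕ} {f : F} (hf : f ∈ s18_gauss O j l) :
    algebraMap O F ϖ ^ k * f ∈ s18_gauss O j (k + l) :=
  s18g_mul hmax hprime (s18g_pi_pow hmax hprime k) hf

include hmax hπ in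
/-- `π^k f ∈ π^(k+l) W ⟹ f ∈ π^l W`. -/
theorem s18g_of_pi_mul (k : ℕ) {l : ℕ} {f : F}
    (hf : algebraMap O F ϖ ^ k * f ∈ s18_gauss O j (k + l)) : f ∈ s18_gauss O j l := by
  rw [s18g_gauss_iff O j ϖ hmax] at hf ⊢
  obtain ⟨b, y, hy, h⟩ := hf
  refine ⟨b, y, hy, ?_⟩
  have hk : algebraMap O F ϖ ^ k ≠ 0 := pow_ne_zero _ hπ
  apply mul_left_cancel₀ hk
  rw [← mul_assoc, h, pow_add]
  ring

include hmax hπ hprime in
/-- **Saturation**: `B ∩ π^k W = π^k B`. -/
theorem s18g_sat (k : ℕ) {f : F} (hf : f ∈ s18_chart O ({j} : Set F))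
    (hg : f ∈ s18_gauss O j k) :
    ∃ b : ↥(s18_chart O ({j} : Set F)), f = algebraMap O F ϖ ^ k * (b : F) := by
  induction k generalizing f with
  | zero => exact ⟨⟨f, hf⟩, by rw [pow_zero, one_mul]⟩
  | succ k ih =>
    rw [s18g_gauss_iff O j ϖ hmax] at hg
    obtain ⟨b, y, hy, h⟩ := hg
    -- `f y ∈ π B`, `y ∉ π B`
    have h1 : (⟨f, hf⟩ : ↥(s18_chart O ({j} : Set F))) * y ∈ s18_fibreIdeal O ({j} : Set F) := by
      rw [s18g_mem_fibre O ϖ hmax]
      refine ⟨algebraMap O _ ϖ ^ k * b, ?_⟩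
      push_cast
      show f * (y : F) = _
      rw [h, pow_succ]
      ring
    have h2 : (⟨f, hf⟩ : ↥(s18_chart O ({j} : Set F))) ∈ s18_fibreIdeal O ({j} : Set F) :=
      (hprime.mem_or_mem h1).resolve_right hy
    obtain ⟨f₁, hf₁⟩ := (s18g_mem_fibre O ϖ hmax _ _).1 h2
    have hf₁' : f = algebraMap O F ϖ * (f₁ : F) := hf₁
    have h3 : (f₁ : F) ∈ s18_gauss O j k := by
      rw [s18g_gauss_iff O j ϖ hmax]
      refine ⟨b, y, hy, ?_⟩
      apply mul_left_cancel₀ hπ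
      rw [← mul_assoc, ← hf₁', h, pow_succ]
      ring
    obtain ⟨b₁, hb₁⟩ := ih f₁.2 h3
    exact ⟨b₁, by rw [hf₁', hb₁, pow_succ]; ring⟩

include hmax hπ hprime in
/-- `1 ∉ π W`. -/
theorem s18g_one_not_mem : (1 : F) ∉ s18_gauss O j 1 := by
  intro h
  obtain ⟨b, hb⟩ := s18g_sat hmax hπ hprime 1 (one_mem _) h
  apply hprime.ne_top
  rw [Ideal.eq_top_iff_one, s18g_mem_fibre O ϖ hmax]
  refine ⟨b, ?_⟩
  rw [pow_one] at hb
  rw [← hb]
  rfl

include hmax hprime in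
/-- `W` as a subring of `F`. -/
def s18g_W : Subring F where
  carrier := s18_gauss O j 0
  mul_mem' ha hb := s18g_mul_left hmax hprime ha hb
  one_mem' := s18g_chart hmax hprime (one_mem _)
  add_mem' ha hb := s18g_add hmax hprime ha hb
  zero_mem' := s18g_zero hmax hprime 0
  neg_mem' ha := s18g_neg hmax ha

theorem s18g_mem_W {f : F} : f ∈ s18g_W hmax hprime ↔ f ∈ s18_gauss O j 0 := Iff.rfl

end gauss

end Fermat.Agent.S18
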