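/-
S18, package (A7) [GLOB-OF] (helper18), part 2: the context `s18g_Ctx`, the elementary facts
about `I = s18_root O j u m` relative to `W`, and the GLUING lemma.  Prefix `s18g_`.

  `s18g_u_mem / s18g_u_inv_mem / s18g_u_sub_one`   `u ∈ Wˣ`, `u ≡ 1` modulo `π W`
  `s18g_j_mem / s18g_jinv_mem`                      `j ∈ Wˣ`
  `s18g_root_sub`      `I ⊆ W`
  `s18g_root_sat`      `I ∩ π W = π I`
  `s18g_glue`          `x ∈ B`, `x' ∈ B'`, `x ≡ jⁿ x'` modulo `π W` ⟹ `∃ h ∈ Λ_n, h ≡ x`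
-/
import Mathlib
import Fermat.Agent.S18.LiftDefs
import Fermat.Agent.S18.Cech
import Fermat.Agent.S18.GlobGauss

set_option autoImplicit false
set_option linter.style.haveILetI false
set_option linter.unusedSectionVars false

noncomputable section

namespace Fermat.Agent.S18

/-- The standing hypotheses of [GLOB-OF], collected. -/
structure s18g_Ctx (O : Type) [CommRing O] [IsLocalRing O] {F : Type} [Field F] [Algebra O F]
    (j u : F) (ϖ : O) (m : ℕ) : Prop where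
  hmax : IsLocalRing.maximalIdeal O = Ideal.span {ϖ}
  hπ : algebraMap O F ϖ ≠ 0
  hp : (s18_fibreIdeal O ({j} : Set F)).IsPrime
  hp' : (s18_fibreIdeal O ({j⁻¹} : Set F)).IsPrime
  hj : j ≠ 0
  hm : 0 < m
  hu : u ≠ 0
  hval : ∀ f : F, f ∈ s18_gauss O j 0 ∨ f⁻¹ ∈ s18_gauss O j 1
  hgeq : ∀ k : ℕ, s18_gauss O j k = s18_gauss O j⁻¹ k
  hred : s18_RedOne O j u
  hcov : ∀ x ∈ s18_chart O ({j} : Set F), ∃ k : ℕ, j⁻¹ ^ k * x ∈ s18_chart O ({j⁻¹} : Set F)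
  hcov' : ∀ x ∈ s18_chart O ({j⁻¹} : Set F), ∃ k : ℕ, j ^ k * x ∈ s18_chart O ({j} : Set F)

section glob

variable {O : Type} [CommRing O] [IsLocalRing O] {F : Type} [Field F] [Algebra O F]
  {j u : F} {ϖ : O} {m : ℕ} (C : s18g_Ctx O j u ϖ m)

include C

theorem s18g_pi_mem (S : Set F) : algebraMap O F ϖ ∈ s18_chart O S :=
  Subalgebra.algebraMap_mem _ ϖ

/-- `B' ⊆ W`. -/
theorem s18g_chart' {f : F} (hf : f ∈ s18_chart O ({j⁻¹} : Set F)) : f ∈ s18_gauss O j 0 := by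
  rw [C.hgeq 0]
  exact s18g_chart C.hmax C.hp' hf

theorem s18g_j_mem : j ∈ s18_gauss O j 0 :=
  s18g_chart C.hmax C.hp (s18ce_self_mem O j)

theorem s18g_jinv_mem : j⁻¹ ∈ s18_gauss O j 0 :=
  s18g_chart' C (s18ce_self_mem O j⁻¹)

theorem s18g_u_mem : u ∈ s18_gauss O j 0 := by
  obtain ⟨x, y, hy, -, hxy⟩ := C.hred
  rw [s18g_gauss_iff O j ϖ C.hmax]
  exact ⟨x, y, hy, by rw [hxy, pow_zero, one_mul]⟩

theorem s18g_u_inv_mem : u⁻¹ ∈ s18_gauss O j 0 := by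
  obtain ⟨x, y, hy, hxy', hxy⟩ := C.hred
  have hx : x ∉ s18_fibreIdeal O ({j} : Set F) := by
    intro hx
    apply hy
    have h1 := (s18_fibreIdeal O ({j} : Set F)).sub_mem hx hxy'
    rwa [sub_sub_cancel] at h1
  rw [s18g_gauss_iff O j ϖ C.hmax]
  refine ⟨y, x, hx, ?_⟩
  rw [pow_zero, one_mul, ← hxy, ← mul_assoc, inv_mul_cancel₀ C.hu, one_mul]

theorem s18g_u_sub_one : u - 1 ∈ s18_gauss O j 1 := by
  obtain ⟨x, y, hy, hxy', hxy⟩ := C.hred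
  obtain ⟨b, hb⟩ := (s18g_mem_fibre O ϖ C.hmax _ _).1 hxy'
  rw [s18g_gauss_iff O j ϖ C.hmax]
  refine ⟨b, y, hy, ?_⟩
  rw [sub_mul, one_mul, hxy, pow_one, ← hb]
  rfl

/-- `I ⊆ W`. -/
theorem s18g_root_sub {f : F} (hf : f ∈ s18_root O j u m) : f ∈ s18_gauss O j 0 := by
  by_cases hf0 : f = 0
  · rw [hf0]
    exact s18g_zero C.hmax C.hp 0
  rcases C.hval f with h | h
  · exact h
  · exfalso
    obtain ⟨c, hc⟩ := hf
    have h1 : (f⁻¹) ^ m ∈ s18_gauss O j m := s18g_pow C.hmax C.hp h m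
    have h2 : f ^ m ∈ s18_gauss O j 0 := by
      rw [hc]
      exact s18g_mul_left C.hmax C.hp (s18g_u_mem C) (s18g_chart C.hmax C.hp c.2)
    have h3 := s18g_mul_left C.hmax C.hp h2 h1
    rw [← mul_pow, mul_inv_cancel₀ hf0, one_pow] at h3
    exact s18g_one_not_mem C.hmax C.hπ C.hp (s18g_mono C.hmax C.hm h3)

omit C in
theorem s18g_root_neg (j u : F) (m : ℕ) {f : F} (hf : f ∈ s18_root O j u m) :
    -f ∈ s18_root O j u m := by
  have h := s18ce_root_mul O j u m (neg_mem (one_mem (s18_chart O ({j} : Set F)))) hf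
  rwa [neg_one_mul] at h

/-- `I` is closed under subtraction. -/
theorem s18g_root_sub' {f g : F} (hf : f ∈ s18_root O j u m) (hg : g ∈ s18_root O j u m) :
    f - g ∈ s18_root O j u m := by
  rw [sub_eq_add_neg]
  exact s18ce_root_add O j u C.hm C.hu hf (s18g_root_neg j u m hg)

/-- `I ∩ π W = π I`. -/
theorem s18g_root_sat {e : F} (he : e ∈ s18_root O j u m) (he1 : e ∈ s18_gauss O j 1) :
    ∃ e₁ : F, e₁ ∈ s18_root O j u m ∧ e = algebraMap O F ϖ * e₁ := by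
  obtain ⟨c, hc⟩ := he
  have h1 : e ^ m ∈ s18_gauss O j m := s18g_pow C.hmax C.hp he1 m
  have h2 : (c : F) ∈ s18_gauss O j m := by
    have e1 : (c : F) = u⁻¹ * e ^ m := by
      rw [hc, ← mul_assoc, inv_mul_cancel₀ C.hu, one_mul]
    rw [e1]
    exact s18g_mul_left C.hmax C.hp (s18g_u_inv_mem C) h1
  obtain ⟨c₁, hc₁⟩ := s18g_sat C.hmax C.hπ C.hp m c.2 h2
  refine ⟨e / algebraMap O F ϖ, ⟨c₁, ?_⟩, ?_⟩
  · rw [div_pow, hc, hc₁]
    field_simp [C.hπ]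
  · field_simp [C.hπ]

/-- `s ≡ 1` modulo `π W` ⟹ `s ^ i ≡ 1`. -/
theorem s18g_pow_sub_one {s : F} (hs : s - 1 ∈ s18_gauss O j 1) (i : ℕ) :
    s ^ i - 1 ∈ s18_gauss O j 1 := by
  have hs0 : s ∈ s18_gauss O j 0 := by
    have h1 := s18g_add C.hmax C.hp (s18g_mono C.hmax (Nat.zero_le 1) hs)
      (s18g_chart C.hmax C.hp (one_mem _))
    rwa [sub_add_cancel] at h1
  induction i with
  | zero =>
    rw [pow_zero, sub_self]
    exact s18g_zero C.hmax C.hp 1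
  | succ i ih =>
    have e : s ^ (i + 1) - 1 = s ^ i * (s - 1) + (s ^ i - 1) := by ring
    rw [e]
    exact s18g_add C.hmax C.hp (s18g_mul_left C.hmax C.hp (s18g_pow_zero C.hmax C.hp hs0 i) hs) ih

/-- Elements of `I'` lie in `j⁻ᵏ I` for large `k`. -/
theorem s18g_cover' {g : F} (hg : g ∈ s18_root O j⁻¹ u m) :
    ∃ k : ℕ, ∀ n : ℕ, k ≤ n → j ^ n * g ∈ s18_root O j u m := by
  have h := s18ce_cover O j⁻¹ u C.hm (by
    intro x hx
    obtain ⟨k, hk⟩ := C.hcov' x hx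
    exact ⟨k, by rw [inv_inv]; exact hk⟩) hg
  rw [inv_inv] at h
  exact h

/-- **GLUING.** -/
theorem s18g_glue (hS : s18_Surj O j u m) (hS' : s18_Surj O j⁻¹ u m) (n : ℕ)
    (hCech : ∀ f : F, (∃ k : ℕ, j ^ k * f ∈ s18_root O j u m) →
      ∃ f₁ f₂ : F, f₁ ∈ s18_root O j u m ∧ j⁻¹ ^ n * f₂ ∈ s18_root O j⁻¹ u m ∧ f = f₁ + f₂)
    {x x' : F} (hx : x ∈ s18_chart O ({j} : Set F)) (hx' : x' ∈ s18_chart O ({j⁻¹} : Set F))
    (hxx : x - j ^ n * x' ∈ s18_gauss O j 1) :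
    ∃ h : F, h ∈ s18_root O j u m ∧ j⁻¹ ^ n * h ∈ s18_root O j⁻¹ u m ∧
      h - x ∈ s18_gauss O j 1 := by
  obtain ⟨s₁, hs₁, hs₁x⟩ := hS ⟨x, hx⟩
  obtain ⟨s₂', hs₂', hs₂x⟩ := hS' ⟨x', hx'⟩
  have hs₁x' : s₁ - x ∈ s18_gauss O j 1 := hs₁x
  have hs₂x' : s₂' - x' ∈ s18_gauss O j 1 := by
    rw [C.hgeq 1]
    exact hs₂x
  have hjn : j ^ n ∈ s18_gauss O j 0 := s18g_pow_zero C.hmax C.hp (s18g_j_mem C) n
  -- `d = s₁ - jⁿ s₂' ∈ π W`
  have hd : s₁ - j ^ n * s₂' ∈ s18_gauss O j 1 := by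
    have e : s₁ - j ^ n * s₂' = (s₁ - x) + (x - j ^ n * x') - j ^ n * (s₂' - x') := by ring
    rw [e]
    exact s18g_sub C.hmax C.hp (s18g_add C.hmax C.hp hs₁x' hxx)
      (s18g_mul_left C.hmax C.hp hjn hs₂x')
  -- a power of `j` moves `d` into `I`
  obtain ⟨k₁, hk₁⟩ := s18g_cover' C hs₂'
  have hjB : ∀ i : ℕ, j ^ i ∈ s18_chart O ({j} : Set F) := fun i =>
    pow_mem (s18ce_self_mem O j) i
  have hdI : j ^ k₁ * (s₁ - j ^ n * s₂') ∈ s18_root O j u m := by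
    have e : j ^ k₁ * (s₁ - j ^ n * s₂') = j ^ k₁ * s₁ - j ^ n * (j ^ k₁ * s₂') := by ring
    rw [e]
    exact s18g_root_sub' C (s18ce_root_mul O j u m (hjB k₁) hs₁)
      (s18ce_root_mul O j u m (hjB n) (hk₁ k₁ le_rfl))
  have hdW : j ^ k₁ * (s₁ - j ^ n * s₂') ∈ s18_gauss O j 1 :=
    s18g_mul_left C.hmax C.hp (s18g_pow_zero C.hmax C.hp (s18g_j_mem C) k₁) hd
  obtain ⟨e₁, he₁, he₁'⟩ := s18g_root_sat C hdI hdW
  -- Čech
  have hπ := C.hπ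
  obtain ⟨t₁, t₂, ht₁, ht₂, ht⟩ := hCech ((s₁ - j ^ n * s₂') / algebraMap O F ϖ) ⟨k₁, by
    have e : j ^ k₁ * ((s₁ - j ^ n * s₂') / algebraMap O F ϖ) = e₁ := by
      rw [← mul_div_assoc, he₁']
      field_simp
    rw [e]
    exact he₁⟩
  have hπB : algebraMap O F ϖ ∈ s18_chart O ({j} : Set F) := Subalgebra.algebraMap_mem _ ϖ
  have hπB' : algebraMap O F ϖ ∈ s18_chart O ({j⁻¹} : Set F) := Subalgebra.algebraMap_mem _ ϖ
  refine ⟨s₁ - algebraMap O F ϖ * t₁, ?_, ?_, ?_⟩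
  · exact s18g_root_sub' C hs₁ (s18ce_root_mul O j u m hπB ht₁)
  · have e : j⁻¹ ^ n * (s₁ - algebraMap O F ϖ * t₁) =
        s₂' + algebraMap O F ϖ * (j⁻¹ ^ n * t₂) := by
      have h1 : algebraMap O F ϖ * t₁ = (s₁ - j ^ n * s₂') - algebraMap O F ϖ * t₂ := by
        have h2 : (s₁ - j ^ n * s₂') = algebraMap O F ϖ * (t₁ + t₂) := by
          rw [← ht]
          field_simp
        rw [h2]
        ring
      have hjj : j⁻¹ ^ n * j ^ n = 1 := by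
        rw [inv_pow, inv_mul_cancel₀ (pow_ne_zero _ C.hj)]
      rw [h1]
      have e2 : j⁻¹ ^ n * (s₁ - (s₁ - j ^ n * s₂' - algebraMap O F ϖ * t₂)) =
          (j⁻¹ ^ n * j ^ n) * s₂' + algebraMap O F ϖ * (j⁻¹ ^ n * t₂) := by ring
      rw [e2, hjj, one_mul]
    rw [e]
    exact s18ce_root_add O j⁻¹ u C.hm C.hu hs₂' (s18ce_root_mul O j⁻¹ u m hπB' ht₂)
  · have e : s₁ - algebraMap O F ϖ * t₁ - x = (s₁ - x) - algebraMap O F ϖ * t₁ := by ring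
    rw [e]
    refine s18g_sub C.hmax C.hp hs₁x' ?_
    have h1 := s18g_pi_mul C.hmax C.hp 1 (s18g_root_sub C ht₁)
    rwa [pow_one, add_zero] at h1

end glob

end Fermat.Agent.S18
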