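/-
S18, package (A7) [GLOB-OF] (helper18), part 3: the ITERATION, the FINITENESS, and
`s18g_main : s18_GlobOfStatement` (`S18/LiftDefs.lean`, verbatim), hypothesis-free.

`Λ = Λ_n = {f ∈ I : j⁻ⁿ f ∈ I'}` (`n = n₀` of Čech), `Λ' = u · H⁰(m n)`.
* ITERATION (`s18g_iter`): for every `k` there is `s ∈ Λ` with `s ≡ 1` modulo `π W` and
  `s ^ m ≡ u` modulo `π^(k+1) W`:  `s₀` from GLUE `(1, j⁻ⁿ)`;  `s_(k+1) = s_k + π^(k+1) h`,
  `h ≡ - X / m`, `X = (s_k ^ m / u - 1) / π^(k+1) ∈ B` (saturation), `X ≡ jⁿ x''`, `x'' ∈ B'`,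
  by the pole lemma at `j⁻¹`; GLUE for `(- X / m, - x'' / m)`.
* FINITENESS: `y₀ Λ ⊆ H⁰(n + k₀)` (`u = x₀ / y₀`), and `(s ^ m - u) / π^k ∈ u H⁰(m n)` by
  saturation in both charts.
-/
import Mathlib
import Fermat.Agent.S18.LiftDefs
import Fermat.Agent.S18.Cech
import Fermat.Agent.S18.GlobGauss
import Fermat.Agent.S18.GlobGlue

set_option autoImplicit false
set_option linter.style.haveILetI false
set_option linter.unusedSectionVars false

noncomputable section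

namespace Fermat.Agent.S18

section iter

variable {O : Type} [CommRing O] [IsLocalRing O] {F : Type} [Field F] [Algebra O F]
  {j u : F} {ϖ : O} {m : ℕ} (C : s18g_Ctx O j u ϖ m)

include C

/-- **ITERATION.** -/
theorem s18g_iter (hunit : ∃ μ : O, (m : O) * μ = 1) (hS : s18_Surj O j u m)
    (hS' : s18_Surj O j⁻¹ u m) (hP' : s18_Pole O j⁻¹ u m) (n : ℕ)
    (hCech : ∀ f : F, (∃ k : ℕ, j ^ k * f ∈ s18_root O j u m) →
      ∃ f₁ f₂ : F, f₁ ∈ s18_root O j u m ∧ j⁻¹ ^ n * f₂ ∈ s18_root O j⁻¹ u m ∧ f = f₁ + f₂)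
    (k : ℕ) :
    ∃ s : F, s ∈ s18_root O j u m ∧ j⁻¹ ^ n * s ∈ s18_root O j⁻¹ u m ∧
      s - 1 ∈ s18_gauss O j 1 ∧ s ^ m - u ∈ s18_gauss O j (k + 1) := by
  have hjj : j ^ n * j⁻¹ ^ n = 1 := by
    rw [inv_pow, mul_inv_cancel₀ (pow_ne_zero _ C.hj)]
  have hπ := C.hπ
  have hu := C.hu
  induction k with
  | zero =>
    obtain ⟨h, h1, h2, h3⟩ := s18g_glue C hS hS' n hCech (x := 1) (x' := j⁻¹ ^ n)
      (one_mem _) (pow_mem (s18ce_self_mem O j⁻¹) n) (by
        rw [hjj, sub_self]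
        exact s18g_zero C.hmax C.hp 1)
    refine ⟨h, h1, h2, h3, ?_⟩
    have e : h ^ m - u = (h ^ m - 1) - (u - 1) := by ring
    rw [e, zero_add]
    exact s18g_sub C.hmax C.hp (s18g_pow_sub_one C h3 m) (s18g_u_sub_one C)
  | succ k ih =>
    obtain ⟨s, hs, hs', hs1, hsu⟩ := ih
    obtain ⟨c, hc⟩ := hs
    have hsI : s ∈ s18_root O j u m := ⟨c, hc⟩
    have hsW : s ∈ s18_gauss O j 0 := s18g_root_sub C hsI
    -- `c - 1 = π^(k+1) X`
    have hc1 : (c : F) - 1 ∈ s18_gauss O j (k + 1) := by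
      have e : (c : F) - 1 = u⁻¹ * (s ^ m - u) := by
        rw [hc, mul_sub, ← mul_assoc, inv_mul_cancel₀ C.hu, one_mul]
      rw [e]
      exact s18g_mul_left C.hmax C.hp (s18g_u_inv_mem C) hsu
    obtain ⟨X, hX⟩ := s18g_sat C.hmax C.hπ C.hp (k + 1) (sub_mem c.2 (one_mem _)) hc1
    have hsuX : s ^ m - u = u * (algebraMap O F ϖ ^ (k + 1) * (X : F)) := by
      rw [← hX, hc]
      ring
    -- the pole lemma at `j⁻¹`
    obtain ⟨t, ht, htt⟩ := hP' n k s hs' (by rw [← C.hgeq]; exact hsu)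
    rw [← C.hgeq] at htt
    obtain ⟨x'', hx''⟩ := (s18g_mem_fibre_pow O ϖ C.hmax _ (k + 1) t).1 ht
    have hkey : j⁻¹ ^ n * (X : F) - (x'' : F) ∈ s18_gauss O j 1 := by
      apply s18g_of_pi_mul C.hmax C.hπ (k + 1)
      have e : algebraMap O F ϖ ^ (k + 1) * (j⁻¹ ^ n * (X : F) - (x'' : F)) =
          u⁻¹ * (j⁻¹ ^ n * (s ^ m - u) - u * (t : F)) := by
        rw [hsuX, hx'']
        field_simp
      rw [e]
      exact s18g_mul_left C.hmax C.hp (s18g_u_inv_mem C) htt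
    have hjn : j ^ n ∈ s18_gauss O j 0 := s18g_pow_zero C.hmax C.hp (s18g_j_mem C) n
    have hXx : (X : F) - j ^ n * (x'' : F) ∈ s18_gauss O j 1 := by
      have e : (X : F) - j ^ n * (x'' : F) =
          j ^ n * (j⁻¹ ^ n * (X : F) - (x'' : F)) := by
        rw [mul_sub, ← mul_assoc, hjj, one_mul]
      rw [e]
      exact s18g_mul_left C.hmax C.hp hjn hkey
    -- glue `- X / m`
    obtain ⟨μ, hμ⟩ := hunit
    have hμF : (m : F) * algebraMap O F μ = 1 := by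
      have h1 := congrArg (algebraMap O F) hμ
      rwa [map_mul, map_natCast, map_one] at h1
    have hμB : ∀ S : Set F, algebraMap O F μ ∈ s18_chart O S := fun S =>
      Subalgebra.algebraMap_mem _ μ
    obtain ⟨h, h1, h2, h3⟩ := s18g_glue C hS hS' n hCech
      (x := -(algebraMap O F μ * (X : F))) (x' := -(algebraMap O F μ * (x'' : F)))
      (neg_mem (mul_mem (hμB _) X.2)) (neg_mem (mul_mem (hμB _) x''.2)) (by
        have e : -(algebraMap O F μ * (X : F)) - j ^ n * -(algebraMap O F μ * (x'' : F)) =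
            -(algebraMap O F μ * ((X : F) - j ^ n * (x'' : F))) := by ring
        rw [e]
        exact s18g_neg C.hmax (s18g_mul_left C.hmax C.hp
          (s18g_chart C.hmax C.hp (hμB _)) hXx))
    have hhW : h ∈ s18_gauss O j 0 := s18g_root_sub C h1
    have hπk : ∀ S : Set F, algebraMap O F ϖ ^ (k + 1) ∈ s18_chart O S := fun S =>
      pow_mem (Subalgebra.algebraMap_mem _ ϖ) _
    have hbW : algebraMap O F ϖ ^ (k + 1) * h ∈ s18_gauss O j (k + 1) := by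
      have h4 := s18g_pi_mul C.hmax C.hp (k + 1) hhW
      rwa [add_zero] at h4
    refine ⟨s + algebraMap O F ϖ ^ (k + 1) * h, ?_, ?_, ?_, ?_⟩
    · exact s18ce_root_add O j u C.hm C.hu hsI (s18ce_root_mul O j u m (hπk _) h1)
    · have e : j⁻¹ ^ n * (s + algebraMap O F ϖ ^ (k + 1) * h) =
          j⁻¹ ^ n * s + algebraMap O F ϖ ^ (k + 1) * (j⁻¹ ^ n * h) := by ring
      rw [e]
      exact s18ce_root_add O j⁻¹ u C.hm C.hu hs' (s18ce_root_mul O j⁻¹ u m (hπk _) h2)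
    · have e : s + algebraMap O F ϖ ^ (k + 1) * h - 1 =
          (s - 1) + algebraMap O F ϖ ^ (k + 1) * h := by ring
      rw [e]
      exact s18g_add C.hmax C.hp hs1 (s18g_mono C.hmax (Nat.le_add_left 1 k) hbW)
    · -- the binomial expansion
      obtain ⟨κ, hκ, hbin⟩ := s18g_binom (s18g_W C.hmax C.hp) (a := s)
        (b := algebraMap O F ϖ ^ (k + 1) * h) hsW (s18g_mono C.hmax (Nat.zero_le _) hbW) m
      have hκW : κ ∈ s18_gauss O j 0 := hκ
      have hmW : (m : F) ∈ s18_gauss O j 0 := s18g_chart C.hmax C.hp (natCast_mem _ m)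
      have hXW : (X : F) ∈ s18_gauss O j 0 := s18g_chart C.hmax C.hp X.2
      have hA : (u - 1) * (X : F) + (m : F) * ((s ^ (m - 1) - 1) * h) +
          (m : F) * (h - -(algebraMap O F μ * (X : F))) ∈ s18_gauss O j 1 := by
        refine s18g_add C.hmax C.hp (s18g_add C.hmax C.hp ?_ ?_) ?_
        · have h4 := s18g_mul C.hmax C.hp (s18g_u_sub_one C) hXW
          rwa [add_zero] at h4
        · refine s18g_mul_left C.hmax C.hp hmW ?_
          have h4 := s18g_mul C.hmax C.hp (s18g_pow_sub_one C hs1 (m - 1)) hhW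
          rwa [add_zero] at h4
        · exact s18g_mul_left C.hmax C.hp hmW h3
      have hA' : (u - 1) * (X : F) + (m : F) * ((s ^ (m - 1) - 1) * h) +
          (m : F) * (h - -(algebraMap O F μ * (X : F))) =
          u * (X : F) + (m : F) * s ^ (m - 1) * h := by
        have e1 : (m : F) * (h - -(algebraMap O F μ * (X : F))) =
            (m : F) * h + ((m : F) * algebraMap O F μ) * (X : F) := by ring
        rw [e1, hμF]
        ring
      rw [hA'] at hA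
      have e : (s + algebraMap O F ϖ ^ (k + 1) * h) ^ m - u =
          algebraMap O F ϖ ^ (k + 1) * (u * (X : F) + (m : F) * s ^ (m - 1) * h) +
            algebraMap O F ϖ ^ (k + 1 + 1) *
              (algebraMap O F ϖ ^ k * (κ * h ^ 2)) := by
        rw [hbin]
        have e2 : s ^ m = u + u * (algebraMap O F ϖ ^ (k + 1) * (X : F)) := by
          rw [← hsuX]
          ring
        rw [e2]
        ring
      rw [e]
      refine s18g_add C.hmax C.hp (s18g_pi_mul C.hmax C.hp (k + 1) hA) ?_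
      have h5 : algebraMap O F ϖ ^ k * (κ * h ^ 2) ∈ s18_gauss O j 0 :=
        s18g_mul_left C.hmax C.hp
          (s18g_mono C.hmax (Nat.zero_le _) (s18g_pi_pow C.hmax C.hp k))
          (s18g_mul_left C.hmax C.hp hκW (s18g_pow_zero C.hmax C.hp hhW 2))
      have h6 := s18g_pi_mul C.hmax C.hp (k + 1 + 1) h5
      rwa [add_zero] at h6

end iter

/-! ### Finiteness -/

section fin

variable {O : Type} [CommRing O] [IsLocalRing O] {F : Type} [Field F] [Algebra O F]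
  {j u : F} {ϖ : O} {m : ℕ} (C : s18g_Ctx O j u ϖ m)

/-- `Λ_n = {f ∈ I : j⁻ⁿ f ∈ I'}` as an `O`-submodule of `F`. -/
def s18g_Lam (O : Type) [CommRing O] [IsLocalRing O] {F : Type} [Field F] [Algebra O F]
    (j u : F) (m : ℕ) (hm : 0 < m) (hu : u ≠ 0) (n : ℕ) : Submodule O F where
  carrier := {f | f ∈ s18_root O j u m ∧ j⁻¹ ^ n * f ∈ s18_root O j⁻¹ u m}
  add_mem' := by
    rintro f g ⟨hf, hf'⟩ ⟨hg, hg'⟩
    refine ⟨s18ce_root_add O j u hm hu hf hg, ?_⟩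
    rw [mul_add]
    exact s18ce_root_add O j⁻¹ u hm hu hf' hg'
  zero_mem' := by
    refine ⟨s18ce_root_zero O j u hm, ?_⟩
    rw [mul_zero]
    exact s18ce_root_zero O j⁻¹ u hm
  smul_mem' := by
    rintro a f ⟨hf, hf'⟩
    rw [Algebra.smul_def]
    refine ⟨s18ce_root_mul O j u m (Subalgebra.algebraMap_mem _ a) hf, ?_⟩
    have e : j⁻¹ ^ n * (algebraMap O F a * f) = algebraMap O F a * (j⁻¹ ^ n * f) := by ring
    rw [e]
    exact s18ce_root_mul O j⁻¹ u m (Subalgebra.algebraMap_mem _ a) hf'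

theorem s18g_mem_Lam {hm : 0 < m} {hu : u ≠ 0} {n : ℕ} {f : F} :
    f ∈ s18g_Lam O j u m hm hu n ↔
      f ∈ s18_root O j u m ∧ j⁻¹ ^ n * f ∈ s18_root O j⁻¹ u m := Iff.rfl

/-- If `j⁻ᵏ x ∈ B'` then `j⁻ˡ x ∈ B'` for all `l ≥ k`. -/
theorem s18g_cover_mono {x : F} {k l : ℕ} (hkl : k ≤ l)
    (h : j⁻¹ ^ k * x ∈ s18_chart O ({j⁻¹} : Set F)) :
    j⁻¹ ^ l * x ∈ s18_chart O ({j⁻¹} : Set F) := by
  have e : j⁻¹ ^ l * x = j⁻¹ ^ (l - k) * (j⁻¹ ^ k * x) := by
    rw [← mul_assoc, pow_sub_mul_pow j⁻¹ hkl]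
  rw [e]
  exact mul_mem (pow_mem (s18ce_self_mem O j⁻¹) _) h

include C in
/-- `Λ_n` is a finitely generated `O`-module. -/
theorem s18g_Lam_fg [IsNoetherianRing O] (hfin : ∀ n : ℕ, (s18_H0 O j n).FG) (n : ℕ) :
    (s18g_Lam O j u m C.hm C.hu n).FG := by
  obtain ⟨x₀, y₀, hy₀, -, hxy⟩ := C.hred
  have hy0 : (y₀ : F) ≠ 0 := by
    intro h
    apply hy₀
    have h1 : y₀ = 0 := Subtype.ext h
    rw [h1]
    exact zero_mem _
  obtain ⟨k₁, hk₁⟩ := C.hcov x₀ x₀.2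
  obtain ⟨k₂, hk₂⟩ := C.hcov y₀ y₀.2
  have hx₀' : j⁻¹ ^ (k₁ + k₂) * (x₀ : F) ∈ s18_chart O ({j⁻¹} : Set F) :=
    s18g_cover_mono (Nat.le_add_right _ _) hk₁
  have hy₀' : j⁻¹ ^ (k₁ + k₂) * (y₀ : F) ∈ s18_chart O ({j⁻¹} : Set F) :=
    s18g_cover_mono (Nat.le_add_left _ _) hk₂
  refine Submodule.FG.of_le
    ((hfin (n + (k₁ + k₂))).map (LinearMap.mulLeft O (y₀ : F)⁻¹)) ?_
  rintro f ⟨⟨c, hc⟩, ⟨c', hc'⟩⟩
  have hm := C.hm
  obtain ⟨m', rfl⟩ : ∃ m', m = m' + 1 := ⟨m - 1, by omega⟩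
  refine ⟨(y₀ : F) * f, ?_, ?_⟩
  · refine (s18_mem_H0 O).2 ⟨?_, ?_⟩
    · apply s18ce_chart_closed O _ hm
      have e : ((y₀ : F) * f) ^ (m' + 1) = (y₀ : F) ^ m' * (x₀ : F) * (c : F) := by
        rw [mul_pow, hc, ← hxy, pow_succ]
        ring
      rw [e]
      exact mul_mem (mul_mem (pow_mem y₀.2 _) x₀.2) c.2
    · apply s18ce_chart_closed O _ hm
      have e : (j⁻¹ ^ (n + (k₁ + k₂)) * ((y₀ : F) * f)) ^ (m' + 1) =
          (j⁻¹ ^ (k₁ + k₂) * (y₀ : F)) ^ m' * (j⁻¹ ^ (k₁ + k₂) * (x₀ : F)) * (c' : F) := by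
        have e1 : j⁻¹ ^ (n + (k₁ + k₂)) * ((y₀ : F) * f) =
            (j⁻¹ ^ (k₁ + k₂) * (y₀ : F)) * (j⁻¹ ^ n * f) := by
          rw [pow_add]
          ring
        rw [e1, mul_pow, hc', ← hxy, pow_succ]
        ring
      rw [e]
      exact mul_mem (mul_mem (pow_mem hy₀' _) hx₀') c'.2
  · show (y₀ : F)⁻¹ * ((y₀ : F) * f) = f
    rw [← mul_assoc, inv_mul_cancel₀ hy0, one_mul]

include C in
/-- An approximate root in `Λ_n` gives an element of `u H⁰(m n)`. -/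
theorem s18g_approx (n k : ℕ) {s : F} (hs : s ∈ s18_root O j u m)
    (hs' : j⁻¹ ^ n * s ∈ s18_root O j⁻¹ u m) (hsu : s ^ m - u ∈ s18_gauss O j k) :
    ∃ t ∈ (s18_H0 O j (m * n)).map (LinearMap.mulLeft O u), s ^ m - u = (ϖ ^ k) • t := by
  have hu := C.hu
  have hπ := C.hπ
  obtain ⟨c, hc⟩ := hs
  obtain ⟨c', hc'⟩ := hs'
  have hjW : j⁻¹ ^ (m * n) ∈ s18_gauss O j 0 :=
    s18g_pow_zero C.hmax C.hp (s18g_jinv_mem C) _
  have hcc' : (c' : F) = j⁻¹ ^ (m * n) * (c : F) := by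
    apply mul_left_cancel₀ hu
    rw [← hc', mul_pow, hc, ← pow_mul, mul_comm n m]
    ring
  have hc1 : (c : F) - 1 ∈ s18_gauss O j k := by
    have e : (c : F) - 1 = u⁻¹ * (s ^ m - u) := by
      rw [hc, mul_sub, ← mul_assoc, inv_mul_cancel₀ hu, one_mul]
    rw [e]
    exact s18g_mul_left C.hmax C.hp (s18g_u_inv_mem C) hsu
  obtain ⟨τ, hτ⟩ := s18g_sat C.hmax C.hπ C.hp k (sub_mem c.2 (one_mem _)) hc1
  have hc1' : (c' : F) - j⁻¹ ^ (m * n) ∈ s18_gauss O j⁻¹ k := by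
    rw [← C.hgeq]
    have e : (c' : F) - j⁻¹ ^ (m * n) = j⁻¹ ^ (m * n) * ((c : F) - 1) := by
      rw [hcc']
      ring
    rw [e]
    exact s18g_mul_left C.hmax C.hp hjW hc1
  obtain ⟨τ', hτ'⟩ := s18g_sat C.hmax C.hπ C.hp' k
    (sub_mem c'.2 (pow_mem (s18ce_self_mem O j⁻¹) _)) hc1'
  have hττ' : j⁻¹ ^ (m * n) * (τ : F) = (τ' : F) := by
    apply mul_left_cancel₀ (pow_ne_zero k hπ)
    rw [← hτ', hcc']
    have e : algebraMap O F ϖ ^ k * (j⁻¹ ^ (m * n) * (τ : F)) =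
        j⁻¹ ^ (m * n) * (algebraMap O F ϖ ^ k * (τ : F)) := by ring
    rw [e, ← hτ]
    ring
  refine ⟨u * (τ : F), ⟨(τ : F), (s18_mem_H0 O).2 ⟨τ.2, ?_⟩, rfl⟩, ?_⟩
  · rw [hττ']
    exact τ'.2
  · rw [Algebra.smul_def, map_pow, hc]
    have e : u * (c : F) - u = u * ((c : F) - 1) := by ring
    rw [e, hτ]
    ring

end fin

/-! ### The main theorem -/

/-- **[GLOB-OF]** -/
theorem s18g_main : s18_GlobOfStatement := by
  intro O K F _ _ _ _ _ _ _ _ _ _ _ j hgood hb hb' m u hmu hu hred hS hS' hP' hfin hCech ϖ hϖ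
  have hm : 0 < m := by
    rcases Nat.eq_zero_or_pos m with h | h
    · subst h
      rw [Nat.cast_zero] at hmu
      exact absurd hmu not_isUnit_zero
    · exact h
  have hj : j ≠ 0 := by
    intro h0
    apply hgood.transcendental
    rw [h0]
    exact isAlgebraic_zero
  have hinj : Function.Injective (algebraMap O F) := by
    rw [IsScalarTower.algebraMap_eq O K F]
    exact (algebraMap K F).injective.comp (IsFractionRing.injective O K)
  have C : s18g_Ctx O j u ϖ m :=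
    { hmax := (IsDiscreteValuationRing.irreducible_iff_uniformizer ϖ).1 hϖ
      hπ := fun h => hϖ.ne_zero (hinj (by rw [h, map_zero]))
      hp := by
        haveI := hgood.isDomain_fin
        exact (Ideal.Quotient.isDomain_iff_prime _).1 inferInstance
      hp' := by
        haveI := hgood.isDomain_inf
        exact (Ideal.Quotient.isDomain_iff_prime _).1 inferInstance
      hj := hj
      hm := hm
      hu := hu
      hval := hb.val
      hgeq := hb.gauss_eq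
      hred := hred
      hcov := hb.cover
      hcov' := by
        intro x hx
        obtain ⟨k, hk⟩ := hb'.cover x hx
        rw [inv_inv] at hk
        exact ⟨k, hk⟩ }
  obtain ⟨n₀, hn₀⟩ := hCech
  have hCn := hn₀ n₀ le_rfl
  have hunit : ∃ μ : O, (m : O) * μ = 1 := hmu.exists_right_inv
  refine ⟨s18g_Lam O j u m C.hm C.hu n₀, (s18_H0 O j (m * n₀)).map (LinearMap.mulLeft O u),
    s18g_Lam_fg C hfin n₀, (hfin (m * n₀)).map _, fun k => ?_⟩
  obtain ⟨s, hs, hs', -, hsu⟩ := s18g_iter C hunit hS hS' hP' n₀ hCn k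
  obtain ⟨t, ht, hst⟩ := s18g_approx C n₀ k hs hs' (s18g_mono C.hmax (Nat.le_add_right k 1) hsu)
  exact ⟨s, ⟨hs, hs'⟩, t, ht, hst⟩

end Fermat.Agent.S18
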