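/-
S18, package (I2) [GRADE] (helper16), part 1: the `ℤ/M`-grading of Laurent series.
Prefix `s18gr_`.

* `s18gr_IsCl M i z`  : all exponents of `z` are `≡ i` modulo `M`;
* `s18gr_pr M y`      : the part of `y` with exponents in `M ℤ`;
* `s18gr_tau u`       : the substitution `q ↦ u q` (`u` a unit), a ring endomorphism;
* `s18gr_sum_tau`     : `∑_{k < M} τ_{ζ^k} = M · pr` for a primitive `M`-th root of unity `ζ`.
-/
import Mathlib
import Fermat.Agent.S18.InfDefs

set_option autoImplicit false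
set_option maxHeartbeats 1000000

open ModularCurve

noncomputable section

namespace Fermat.Agent.S18

section Class

variable {R : Type*} [CommRing R] (M : ℕ)

/-- All exponents of `z` are `≡ i` modulo `M`. -/
def s18gr_IsCl (i : ℤ) (z : LaurentSeries R) : Prop :=
  ∀ k : ℤ, z.coeff k ≠ 0 → (M : ℤ) ∣ (k - i)

variable {M}

theorem s18gr_isCl_zero (i : ℤ) : s18gr_IsCl M i (0 : LaurentSeries R) := by
  intro k hk
  exact absurd (HahnSeries.coeff_zero) hk

theorem s18gr_isCl_congr {i j : ℤ} (h : (M : ℤ) ∣ (i - j)) {z : LaurentSeries R}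
    (hz : s18gr_IsCl M i z) : s18gr_IsCl M j z := by
  intro k hk
  have := dvd_add (hz k hk) h
  rwa [show k - i + (i - j) = k - j by ring] at this

theorem s18gr_isCl_add {i : ℤ} {z w : LaurentSeries R} (hz : s18gr_IsCl M i z)
    (hw : s18gr_IsCl M i w) : s18gr_IsCl M i (z + w) := by
  intro k hk
  by_cases h1 : z.coeff k = 0
  · by_cases h2 : w.coeff k = 0
    · exact absurd (by rw [HahnSeries.coeff_add, h1, h2, add_zero]) hk
    · exact hw k h2
  · exact hz k h1

theorem s18gr_isCl_neg {i : ℤ} {z : LaurentSeries R} (hz : s18gr_IsCl M i z) :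
    s18gr_IsCl M i (-z) := by
  intro k hk
  apply hz k
  intro h
  exact hk (by rw [HahnSeries.coeff_neg, h, neg_zero])

theorem s18gr_isCl_sum {ι : Type*} (s : Finset ι) {i : ℤ} (z : ι → LaurentSeries R)
    (hz : ∀ a ∈ s, s18gr_IsCl M i (z a)) : s18gr_IsCl M i (∑ a ∈ s, z a) := by
  classical
  induction s using Finset.induction_on with
  | empty => simpa using s18gr_isCl_zero i
  | insert a s ha ih =>
    rw [Finset.sum_insert ha]
    exact s18gr_isCl_add (hz a (Finset.mem_insert_self a s))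
      (ih fun b hb => hz b (Finset.mem_insert_of_mem hb))

theorem s18gr_isCl_mul {i j : ℤ} {z w : LaurentSeries R} (hz : s18gr_IsCl M i z)
    (hw : s18gr_IsCl M j w) : s18gr_IsCl M (i + j) (z * w) := by
  intro k hk
  rw [HahnSeries.coeff_mul] at hk
  obtain ⟨⟨a, b⟩, hab, hne⟩ := Finset.exists_ne_zero_of_sum_ne_zero hk
  rw [Finset.mem_antidiagonal] at hab
  have ha : z.coeff a ≠ 0 := fun h => hne (by simp [h])
  have hb : w.coeff b ≠ 0 := fun h => hne (by simp [h])
  have := dvd_add (hz a ha) (hw b hb)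
  have e : k = a + b := hab.2.2.symm
  rwa [show a - i + (b - j) = k - (i + j) by rw [e]; ring] at this

theorem s18gr_isCl_single (k : ℤ) (r : R) :
    s18gr_IsCl M k (HahnSeries.single k r : LaurentSeries R) := by
  intro m hm
  by_cases h : m = k
  · rw [h, sub_self]; exact dvd_zero _
  · exact absurd (HahnSeries.coeff_single_of_ne h) hm

theorem s18gr_isCl_one : s18gr_IsCl M 0 (1 : LaurentSeries R) :=
  s18gr_isCl_single 0 1

theorem s18gr_isCl_pow {i : ℤ} {z : LaurentSeries R} (hz : s18gr_IsCl M i z) (n : ℕ) :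
    s18gr_IsCl M ((n : ℤ) * i) (z ^ n) := by
  induction n with
  | zero => simpa using (s18gr_isCl_one : s18gr_IsCl M 0 (1 : LaurentSeries R))
  | succ n ih =>
    rw [pow_succ]
    have := s18gr_isCl_mul ih hz
    rwa [show (n : ℤ) * i + i = ((n + 1 : ℕ) : ℤ) * i by push_cast; ring] at this

theorem s18gr_isCl_qExpand [NeZero M] (f : LaurentSeries R) :
    s18gr_IsCl M 0 (qExpand R M f) := by
  intro k hk
  by_contra h
  rw [sub_zero] at h
  exact hk (qExpand_coeff_of_not_dvd M f h)

theorem s18gr_isCl_coeffMap {S : Type*} [CommRing S] (f : R →+* S) {i : ℤ}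
    {z : LaurentSeries R} (hz : s18gr_IsCl M i z) : s18gr_IsCl M i (coeffMap f z) := by
  intro k hk
  apply hz k
  intro h
  exact hk (by rw [coeffMap_coeff, h, map_zero])

/-- A series of class `0` is in the image of `q ↦ q^M`. -/
theorem s18gr_exists_qExpand [NeZero M] {w : LaurentSeries R} (hw : s18gr_IsCl M 0 w) :
    ∃ v : LaurentSeries R, qExpand R M v = w := by
  have hpwo : (Function.support fun k : ℤ => w.coeff ((M : ℤ) * k)).IsPWO := by
    have hM : (0 : ℤ) < M := by exact_mod_cast Nat.pos_of_ne_zero (NeZero.ne M)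
    have h1 : (Function.support fun k : ℤ => w.coeff ((M : ℤ) * k)) =
        (fun k : ℤ => (M : ℤ) * k) ⁻¹' w.support := rfl
    rw [h1]
    rw [Set.isPWO_iff_isWF]
    have hwf : w.support.IsWF := w.isPWO_support.isWF
    rw [Set.isWF_iff_no_descending_seq] at hwf ⊢
    intro f hf hmem
    exact hwf (fun n => (M : ℤ) * f n)
      (fun a b hab => mul_lt_mul_of_pos_left (hf hab) hM) hmem
  refine ⟨⟨fun k => w.coeff ((M : ℤ) * k), hpwo⟩, ?_⟩
  ext k
  by_cases hk : (M : ℤ) ∣ k
  · obtain ⟨m, rfl⟩ := hk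
    rw [qExpand_coeff_mul]
  · rw [qExpand_coeff_of_not_dvd M _ hk]
    by_contra h
    exact hk (by simpa using hw k (Ne.symm h))

end Class

section Proj

variable {R : Type*} [CommRing R] (M : ℕ)

/-- The part of `y` with exponents in `M ℤ`. -/
def s18gr_pr (y : LaurentSeries R) : LaurentSeries R :=
  ⟨fun k => if (M : ℤ) ∣ k then y.coeff k else 0,
    y.isPWO_support.mono (by
      intro k hk
      rw [Function.mem_support] at hk
      rw [HahnSeries.mem_support]
      intro h
      apply hk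
      simp [h])⟩

@[simp]
theorem s18gr_pr_coeff (y : LaurentSeries R) (k : ℤ) :
    (s18gr_pr M y).coeff k = if (M : ℤ) ∣ k then y.coeff k else 0 := rfl

theorem s18gr_pr_zero : s18gr_pr M (0 : LaurentSeries R) = 0 := by
  ext k
  simp

theorem s18gr_pr_add (y z : LaurentSeries R) :
    s18gr_pr M (y + z) = s18gr_pr M y + s18gr_pr M z := by
  ext k
  by_cases h : (M : ℤ) ∣ k <;> simp [h]

theorem s18gr_pr_sum {ι : Type*} (s : Finset ι) (z : ι → LaurentSeries R) :
    s18gr_pr M (∑ a ∈ s, z a) = ∑ a ∈ s, s18gr_pr M (z a) := by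
  classical
  induction s using Finset.induction_on with
  | empty => simpa using s18gr_pr_zero M
  | insert a s ha ih => rw [Finset.sum_insert ha, Finset.sum_insert ha, s18gr_pr_add, ih]

variable {M}

theorem s18gr_pr_of_isCl {w : LaurentSeries R} (hw : s18gr_IsCl M 0 w) : s18gr_pr M w = w := by
  ext k
  by_cases h : (M : ℤ) ∣ k
  · simp [h]
  · rw [s18gr_pr_coeff, if_neg h]
    by_contra h'
    exact h (by simpa using hw k (Ne.symm h'))

theorem s18gr_pr_eq_zero {i : ℤ} {z : LaurentSeries R} (hz : s18gr_IsCl M i z)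
    (hi : ¬ (M : ℤ) ∣ i) : s18gr_pr M z = 0 := by
  ext k
  by_cases h : (M : ℤ) ∣ k
  · rw [s18gr_pr_coeff, if_pos h, HahnSeries.coeff_zero]
    by_contra h'
    have := hz k h'
    exact hi ((dvd_sub_right h).mp this)
  · simp [h]

theorem s18gr_isCl_pr (y : LaurentSeries R) : s18gr_IsCl M 0 (s18gr_pr M y) := by
  intro k hk
  rw [sub_zero]
  by_contra h
  exact hk (by rw [s18gr_pr_coeff, if_neg h])

theorem s18gr_pr_mul {w : LaurentSeries R} (hw : s18gr_IsCl M 0 w) (y : LaurentSeries R) :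
    s18gr_pr M (w * y) = w * s18gr_pr M y := by
  ext k
  rw [s18gr_pr_coeff]
  have hsub : (s18gr_pr M y).support ⊆ y.support := by
    intro m hm
    rw [HahnSeries.mem_support] at hm ⊢
    intro h
    apply hm
    rw [s18gr_pr_coeff, h]
    simp
  rw [HahnSeries.coeff_mul_right' y.isPWO_support hsub]
  by_cases h : (M : ℤ) ∣ k
  · rw [if_pos h, HahnSeries.coeff_mul]
    refine Finset.sum_congr rfl ?_
    rintro ⟨a, b⟩ hab
    rw [Finset.mem_antidiagonal] at hab
    by_cases ha : w.coeff a = 0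
    · simp [ha]
    · have h1 : (M : ℤ) ∣ a := by simpa using hw a ha
      have h2 : (M : ℤ) ∣ b := by
        have e : b = k - a := by rw [← hab.2.2]; simp
        rw [e]
        exact dvd_sub h h1
      simp [h2]
  · rw [if_neg h]
    symm
    refine Finset.sum_eq_zero ?_
    rintro ⟨a, b⟩ hab
    rw [Finset.mem_antidiagonal] at hab
    by_cases ha : w.coeff a = 0
    · simp [ha]
    · have h1 : (M : ℤ) ∣ a := by simpa using hw a ha
      have h2 : ¬ (M : ℤ) ∣ b := by
        intro h2
        apply h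
        rw [← hab.2.2]
        exact dvd_add h1 h2
      simp [h2]

theorem s18gr_pr_coeffMap {S : Type*} [CommRing S] (f : R →+* S) (y : LaurentSeries R) :
    s18gr_pr M (coeffMap f y) = coeffMap f (s18gr_pr M y) := by
  ext k
  by_cases h : (M : ℤ) ∣ k <;> simp [h]

end Proj

section Tau

variable {R : Type*} [CommRing R]

/-- The coefficient function of `q ↦ u q`. -/
def s18gr_tauFun (u : Rˣ) (y : LaurentSeries R) : LaurentSeries R :=
  ⟨fun k => ((u ^ k : Rˣ) : R) * y.coeff k,
    y.isPWO_support.mono (by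
      intro k hk
      rw [Function.mem_support] at hk
      rw [HahnSeries.mem_support]
      intro h
      apply hk
      simp [h])⟩

theorem s18gr_tauFun_coeff (u : Rˣ) (y : LaurentSeries R) (k : ℤ) :
    (s18gr_tauFun u y).coeff k = ((u ^ k : Rˣ) : R) * y.coeff k := rfl

theorem s18gr_tauFun_support (u : Rˣ) (y : LaurentSeries R) :
    (s18gr_tauFun u y).support = y.support := by
  ext k
  rw [HahnSeries.mem_support, HahnSeries.mem_support, s18gr_tauFun_coeff]
  exact not_congr (Units.mul_right_eq_zero _)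

theorem s18gr_tauFun_mul (u : Rˣ) (x y : LaurentSeries R) :
    s18gr_tauFun u (x * y) = s18gr_tauFun u x * s18gr_tauFun u y := by
  ext k
  have hx : (s18gr_tauFun u x).support ⊆ x.support := (s18gr_tauFun_support u x).le
  have hy : (s18gr_tauFun u y).support ⊆ y.support := (s18gr_tauFun_support u y).le
  rw [s18gr_tauFun_coeff, HahnSeries.coeff_mul, Finset.mul_sum,
    HahnSeries.coeff_mul_left' x.isPWO_support hx]
  have e : Finset.antidiagonal x.isPWO_support (s18gr_tauFun u y).isPWO_support k =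
      Finset.antidiagonal x.isPWO_support y.isPWO_support k := by
    ext ab
    rw [Finset.mem_antidiagonal, Finset.mem_antidiagonal, s18gr_tauFun_support]
  rw [e]
  refine Finset.sum_congr rfl ?_
  rintro ⟨a, b⟩ hab
  rw [Finset.mem_antidiagonal] at hab
  rw [s18gr_tauFun_coeff, s18gr_tauFun_coeff]
  have e2 : (u ^ k : Rˣ) = u ^ a * u ^ b := by rw [← zpow_add, hab.2.2]
  rw [e2, Units.val_mul]
  ring

/-- The substitution `q ↦ u q`. -/
def s18gr_tau (u : Rˣ) : LaurentSeries R →+* LaurentSeries R where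
  toFun := s18gr_tauFun u
  map_one' := by
    ext k
    rw [s18gr_tauFun_coeff, HahnSeries.coeff_one]
    by_cases h : k = 0
    · subst h; simp
    · simp [h]
  map_mul' := s18gr_tauFun_mul u
  map_zero' := by
    ext k
    rw [s18gr_tauFun_coeff]
    simp
  map_add' x y := by
    ext k
    rw [HahnSeries.coeff_add, s18gr_tauFun_coeff, s18gr_tauFun_coeff, s18gr_tauFun_coeff,
      HahnSeries.coeff_add, mul_add]

@[simp]
theorem s18gr_tau_coeff (u : Rˣ) (y : LaurentSeries R) (k : ℤ) :
    (s18gr_tau u y).coeff k = ((u ^ k : Rˣ) : R) * y.coeff k := rfl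

theorem s18gr_tau_of_isCl {M : ℕ} {u : Rˣ} (hu : u ^ M = 1) {w : LaurentSeries R}
    (hw : s18gr_IsCl M 0 w) : s18gr_tau u w = w := by
  ext k
  rw [s18gr_tau_coeff]
  by_cases h : w.coeff k = 0
  · rw [h, mul_zero]
  · obtain ⟨m, hm⟩ : (M : ℤ) ∣ k := by simpa using hw k h
    have : (u ^ k : Rˣ) = 1 := by
      rw [hm, zpow_mul, zpow_natCast, hu, one_zpow]
    rw [this, Units.val_one, one_mul]

end Tau

section Average

variable {K : Type*} [Field K]

/-- `∑_{k < M} τ_{ζ^k} = M · pr` for a primitive `M`-th root of unity `ζ`. -/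
theorem s18gr_sum_tau {M : ℕ} [NeZero M] {ζ : Kˣ} (hζ : IsPrimitiveRoot ζ M)
    (y : LaurentSeries K) :
    ∑ k ∈ Finset.range M, s18gr_tau (ζ ^ k) y =
      HahnSeries.C (M : K) * s18gr_pr M y := by
  ext n
  rw [HahnSeries.coeff_sum, HahnSeries.C_mul_eq_smul, HahnSeries.coeff_smul, s18gr_pr_coeff]
  simp only [s18gr_tau_coeff]
  rw [← Finset.sum_mul]
  have e : ∀ k : ℕ, (((ζ ^ k) ^ n : Kˣ) : K) = (((ζ ^ n : Kˣ) : K)) ^ k := by
    intro k
    rw [← Units.val_pow_eq_pow_val]
    congr 1
    rw [← zpow_natCast ζ k, ← zpow_natCast (ζ ^ n) k, ← zpow_mul, ← zpow_mul, mul_comm]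
  simp only [e]
  by_cases h : (M : ℤ) ∣ n
  · have h1 : (ζ ^ n : Kˣ) = 1 := (hζ.zpow_eq_one_iff_dvd n).mpr h
    rw [if_pos h, h1]
    simp
  · have h1 : (ζ ^ n : Kˣ) ≠ 1 := fun h1 => h ((hζ.zpow_eq_one_iff_dvd n).mp h1)
    have h2 : (((ζ ^ n : Kˣ) : K)) ≠ 1 := fun h2 => h1 (Units.ext h2)
    have h3 : (((ζ ^ n : Kˣ) : K)) ^ M = 1 := by
      rw [← Units.val_pow_eq_pow_val, ← zpow_natCast, ← zpow_mul, mul_comm, zpow_mul,
        zpow_natCast, hζ.pow_eq_one, one_zpow, Units.val_one]
    have h4 : ∑ k ∈ Finset.range M, (((ζ ^ n : Kˣ) : K)) ^ k = 0 := by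
      have := mul_geom_sum (((ζ ^ n : Kˣ) : K)) M
      rw [h3, sub_self] at this
      rcases mul_eq_zero.mp this with h5 | h5
      · exact absurd (sub_eq_zero.mp h5) h2
      · exact h5
    rw [h4, if_neg h]
    simp

end Average

end Fermat.Agent.S18
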