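/-
S18, package (I2) [GRADE] (helper16), part 1b: the decomposition of a Laurent series into its
classes modulo `M`.
Prefix `s18gr_`.

* `s18gr_prc M r y`   : the part of `y` with exponents `≡ r` modulo `M`;
* `s18gr_sum_prc`     : `y = ∑_{r < M} prc r y`;
* `s18gr_sum_pr_mul`  : `∑_{i < M} pr(y s^i) s^(M - i) = y s^M` for a series `s` of class `1`.
-/
import Mathlib
import Fermat.Agent.S18.GradeSeries

set_option autoImplicit false
set_option maxHeartbeats 1000000
set_option linter.unusedSectionVars false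

open ModularCurve

noncomputable section

namespace Fermat.Agent.S18

section Prc

variable {R : Type*} [CommRing R] (M : ℕ)

/-- The part of `y` with exponents `≡ r` modulo `M`. -/
def s18gr_prc (r : ℤ) (y : LaurentSeries R) : LaurentSeries R :=
  ⟨fun k => if (M : ℤ) ∣ (k - r) then y.coeff k else 0,
    y.isPWO_support.mono (by
      intro k hk
      rw [Function.mem_support] at hk
      rw [HahnSeries.mem_support]
      intro h
      apply hk
      simp [h])⟩

@[simp]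
theorem s18gr_prc_coeff (r : ℤ) (y : LaurentSeries R) (k : ℤ) :
    (s18gr_prc M r y).coeff k = if (M : ℤ) ∣ (k - r) then y.coeff k else 0 := rfl

variable {M}

theorem s18gr_isCl_prc (r : ℤ) (y : LaurentSeries R) : s18gr_IsCl M r (s18gr_prc M r y) := by
  intro k hk
  by_contra h
  exact hk (by rw [s18gr_prc_coeff, if_neg h])

theorem s18gr_exists_unique_class [NeZero M] (k : ℤ) :
    ∃ r₀ ∈ Finset.range M, (M : ℤ) ∣ (k - (r₀ : ℤ)) ∧
      ∀ r ∈ Finset.range M, (M : ℤ) ∣ (k - (r : ℤ)) → r = r₀ := by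
  have hM : (0 : ℤ) < M := by exact_mod_cast Nat.pos_of_ne_zero (NeZero.ne M)
  have h1 : 0 ≤ k % (M : ℤ) := Int.emod_nonneg k hM.ne'
  have h2 : k % (M : ℤ) < M := Int.emod_lt_of_pos k hM
  refine ⟨(k % (M : ℤ)).toNat, ?_, ?_, ?_⟩
  · rw [Finset.mem_range]
    omega
  · rw [Int.toNat_of_nonneg h1]
    exact Int.dvd_self_sub_emod
  · intro r hr hdvd
    rw [Finset.mem_range] at hr
    have h3 : (M : ℤ) ∣ ((r : ℤ) - k % (M : ℤ)) := by
      have h4 : (M : ℤ) ∣ (k - k % (M : ℤ)) := Int.dvd_self_sub_emod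
      have := dvd_sub h4 hdvd
      rwa [show k - k % (M : ℤ) - (k - (r : ℤ)) = (r : ℤ) - k % (M : ℤ) by ring] at this
    obtain ⟨c, hc⟩ := h3
    have hc0 : c = 0 := by
      by_contra hne
      rcases lt_or_gt_of_ne hne with h | h
      · have : (M : ℤ) * c ≤ (M : ℤ) * (-1) := mul_le_mul_of_nonneg_left (by omega) hM.le
        omega
      · have : (M : ℤ) * 1 ≤ (M : ℤ) * c := mul_le_mul_of_nonneg_left (by omega) hM.le
        omega
    rw [hc0, mul_zero] at hc
    omega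

theorem s18gr_sum_prc [NeZero M] (y : LaurentSeries R) :
    ∑ r ∈ Finset.range M, s18gr_prc M (r : ℤ) y = y := by
  ext k
  rw [HahnSeries.coeff_sum]
  simp only [s18gr_prc_coeff]
  obtain ⟨r₀, hr₀, hdvd, huniq⟩ := s18gr_exists_unique_class (M := M) k
  rw [Finset.sum_eq_single r₀]
  · rw [if_pos hdvd]
  · intro r hr hne
    rw [if_neg]
    intro h
    exact hne (huniq r hr h)
  · intro h
    exact absurd hr₀ h

theorem s18gr_count [NeZero M] {A : Type*} [AddCommMonoid A] (r : ℕ) (hr : r < M) (c : A) :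
    ∑ i ∈ Finset.range M, (if (M : ℤ) ∣ ((r : ℤ) + (i : ℤ)) then c else 0) = c := by
  obtain ⟨i₀, hi₀, hdvd, huniq⟩ := s18gr_exists_unique_class (M := M) (-(r : ℤ))
  have hd : ∀ i : ℕ, (M : ℤ) ∣ ((r : ℤ) + (i : ℤ)) ↔ (M : ℤ) ∣ (-(r : ℤ) - (i : ℤ)) := by
    intro i
    rw [show -(r : ℤ) - (i : ℤ) = -((r : ℤ) + (i : ℤ)) by ring, dvd_neg]
  rw [Finset.sum_eq_single i₀]
  · rw [if_pos ((hd i₀).mpr hdvd)]
  · intro i hi hne
    rw [if_neg]
    intro h
    exact hne (huniq i hi ((hd i).mp h))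
  · intro h
    exact absurd hi₀ h

/-- `pr (y w)` for a series `w` of class `i`. -/
theorem s18gr_pr_mul_class [NeZero M] {i : ℕ} {w : LaurentSeries R}
    (hw : s18gr_IsCl M (i : ℤ) w) (y : LaurentSeries R) :
    s18gr_pr M (y * w) = ∑ r ∈ Finset.range M,
      (if (M : ℤ) ∣ ((r : ℤ) + (i : ℤ)) then s18gr_prc M (r : ℤ) y * w else 0) := by
  conv_lhs => rw [← s18gr_sum_prc (M := M) y, Finset.sum_mul, s18gr_pr_sum]
  refine Finset.sum_congr rfl (fun r _ => ?_)
  have hcl := s18gr_isCl_mul (s18gr_isCl_prc (M := M) (r : ℤ) y) hw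
  by_cases h : (M : ℤ) ∣ ((r : ℤ) + (i : ℤ))
  · rw [if_pos h]
    exact s18gr_pr_of_isCl (s18gr_isCl_congr (by simpa using h) hcl)
  · rw [if_neg h]
    exact s18gr_pr_eq_zero hcl h

/-- **The class decomposition**: `∑_{i < M} pr(y s^i) s^(M - i) = y s^M`. -/
theorem s18gr_sum_pr_mul [NeZero M] {s : LaurentSeries R} (hs : s18gr_IsCl M 1 s)
    (y : LaurentSeries R) :
    ∑ i ∈ Finset.range M, s18gr_pr M (y * s ^ i) * s ^ (M - i) = y * s ^ M := by
  have h1 : ∀ i ∈ Finset.range M, s18gr_pr M (y * s ^ i) * s ^ (M - i) =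
      ∑ r ∈ Finset.range M,
        (if (M : ℤ) ∣ ((r : ℤ) + (i : ℤ)) then s18gr_prc M (r : ℤ) y * s ^ M else 0) := by
    intro i hi
    rw [Finset.mem_range] at hi
    have hcl := s18gr_isCl_pow hs i
    rw [mul_one] at hcl
    rw [s18gr_pr_mul_class hcl, Finset.sum_mul]
    refine Finset.sum_congr rfl (fun r _ => ?_)
    by_cases h : (M : ℤ) ∣ ((r : ℤ) + (i : ℤ))
    · rw [if_pos h, if_pos h, mul_assoc, ← pow_add]
      congr 2
      omega
    · rw [if_neg h, if_neg h, zero_mul]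
  rw [Finset.sum_congr rfl h1, Finset.sum_comm]
  have h2 : ∀ r ∈ Finset.range M, (∑ i ∈ Finset.range M,
      (if (M : ℤ) ∣ ((r : ℤ) + (i : ℤ)) then s18gr_prc M (r : ℤ) y * s ^ M else 0)) =
      s18gr_prc M (r : ℤ) y * s ^ M := by
    intro r hr
    rw [Finset.mem_range] at hr
    exact s18gr_count r hr _
  rw [Finset.sum_congr rfl h2, ← Finset.sum_mul, s18gr_sum_prc]

end Prc

end Fermat.Agent.S18
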