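/-
S18, package (I2) [GRADE] (helper16), part 6: the descent clause.
Prefix `s18gr_`.

* `s18gr_theta_mem`  : `θ` maps the chart at infinity of `F` into the chart of `(F'', σ)`;
* `s18gr_descend`    : the part with exponents in `M ℤ` of an element of the chart of `(F'', σ)`
                       is `θ(b)`, `b` in the chart at infinity of `F`;
* `s18gr_red_theta`  : a reduction datum of the chart of `(F'', σ)` maps `θ(chart at infinity)`
                       into `κ((q^M))`;
* `s18gr_grade`      : the descent clause of `s18_GradeAt`.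
-/
import Mathlib
import Fermat.Agent.S18.GradeChart
import Fermat.Agent.S18.GradeSum

set_option autoImplicit false
set_option maxHeartbeats 1000000
set_option linter.unusedSectionVars false
set_option linter.style.haveILetI false

open AlgebraicCurve ModularCurve IntermediateField

noncomputable section

namespace Fermat.Agent.S18

section Theta

variable (O K : Type) [CommRing O] [IsDomain O] [IsDiscreteValuationRing O] [Field K]
  [CharZero K] [Algebra O K] [IsFractionRing O K] (M : ℕ) [NeZero M] (σ : LaurentSeries O)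

/-- `θ : F → F''` as a ring homomorphism. -/
def s18gr_thetaHom : ↥(s18_F K M) →+* ↥(s18_Fpp O K M σ) :=
  ((qExpand K M).comp (algebraMap ↥(s18_F K M) (LaurentSeries K))).codRestrict
    (s18_Fpp O K M σ) (fun f => (s18_theta O K M σ f).2)

theorem s18gr_thetaHom_apply (f : ↥(s18_F K M)) :
    s18gr_thetaHom O K M σ f = s18_theta O K M σ f := rfl

theorem s18gr_thetaHom_coe (f : ↥(s18_F K M)) :
    ((s18gr_thetaHom O K M σ f : ↥(s18_Fpp O K M σ)) : LaurentSeries K) =
      qExpand K M (f : LaurentSeries K) := rfl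

theorem s18gr_sig_coe :
    ((s18_sig O K M σ : ↥(s18_Fpp O K M σ)) : LaurentSeries K) =
      coeffMap (algebraMap O K) σ := rfl

theorem s18gr_qExpand_const (o : O) :
    qExpand K M (coeffMap (algebraMap O K) (HahnSeries.C o)) =
      coeffMap (algebraMap O K) (HahnSeries.C o) := by
  rw [s18gr_coeffMap_C]
  exact qExpand_C M _

variable {O K M σ}

theorem s18gr_thetaHom_jinv (hσ : s18_IsSigma O M σ) :
    s18gr_thetaHom O K M σ (s18_j K M)⁻¹ = s18_sig O K M σ ^ M := by
  apply Subtype.ext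
  rw [s18gr_thetaHom_coe, s18gr_jinv_coe]
  show _ = (coeffMap (algebraMap O K) σ) ^ M
  rw [s18gr_sig_pow _ hσ]

theorem s18gr_thetaHom_algebraMap (o : O) :
    letI := s18_algOFF O K (s18_F K M)
    letI := s18_algOFF O K (s18_Fpp O K M σ)
    s18gr_thetaHom O K M σ (algebraMap O ↥(s18_F K M) o) =
      algebraMap O ↥(s18_Fpp O K M σ) o := by
  letI := s18_algOFF O K (s18_F K M)
  letI := s18_algOFF O K (s18_Fpp O K M σ)
  apply Subtype.ext
  rw [s18gr_thetaHom_coe, s18gr_algebraMap_coe, s18gr_algebraMap_coe, s18gr_qExpand_const]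

/-- `θ` maps `O[1/j]` into `O[σ]`. -/
theorem s18gr_theta_adjoin (hσ : s18_IsSigma O M σ) :
    letI := s18_algOFF O K (s18_F K M)
    letI := s18_algOFF O K (s18_Fpp O K M σ)
    ∀ r : ↥(s18_F K M), r ∈ Algebra.adjoin O ({(s18_j K M)⁻¹} : Set ↥(s18_F K M)) →
      s18gr_thetaHom O K M σ r ∈
        Algebra.adjoin O ({s18_sig O K M σ} : Set ↥(s18_Fpp O K M σ)) := by
  letI := s18_algOFF O K (s18_F K M)
  letI := s18_algOFF O K (s18_Fpp O K M σ)
  intro r hr
  induction hr using Algebra.adjoin_induction with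
  | mem x hx =>
    rw [Set.mem_singleton_iff] at hx
    subst hx
    rw [s18gr_thetaHom_jinv hσ]
    exact pow_mem (Algebra.subset_adjoin (Set.mem_singleton _)) M
  | algebraMap o =>
    rw [s18gr_thetaHom_algebraMap]
    exact Subalgebra.algebraMap_mem _ o
  | add x y _ _ hx hy =>
    rw [map_add]
    exact add_mem hx hy
  | mul x y _ _ hx hy =>
    rw [map_mul]
    exact mul_mem hx hy

/-- `θ` maps the chart at infinity of `F` into the chart of `(F'', σ)`. -/
theorem s18gr_theta_mem (hσ : s18_IsSigma O M σ) :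
    letI := s18_algOFF O K (s18_F K M)
    letI := s18_algOFF O K (s18_Fpp O K M σ)
    ∀ x : ↥(s18_F K M), x ∈ s18_chart O ({(s18_j K M)⁻¹} : Set ↥(s18_F K M)) →
      s18_theta O K M σ x ∈
        s18_chart O ({s18_sig O K M σ} : Set ↥(s18_Fpp O K M σ)) := by
  letI := s18_algOFF O K (s18_F K M)
  letI := s18_algOFF O K (s18_Fpp O K M σ)
  intro x hx
  have hx0 : (algebraMap ↥(Algebra.adjoin O ({(s18_j K M)⁻¹} : Set ↥(s18_F K M)))
      ↥(s18_F K M)).IsIntegralElem x := hx
  have hx1 := s18gr_int_map _ (s18gr_thetaHom O K M σ) hx0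
  refine s18gr_int_trans
    (algebraMap ↥(Algebra.adjoin O ({s18_sig O K M σ} : Set ↥(s18_Fpp O K M σ)))
      ↥(s18_Fpp O K M σ)) _ ?_ hx1
  intro r
  have h := s18gr_theta_adjoin hσ (r : ↥(s18_F K M)) r.2
  exact (algebraMap ↥(Algebra.adjoin O ({s18_sig O K M σ} : Set ↥(s18_Fpp O K M σ)))
    ↥(s18_Fpp O K M σ)).isIntegralElem_map (x := ⟨_, h⟩)

/-- **The descent**: the part with exponents in `M ℤ` of an element of the chart of `(F'', σ)`
is `θ(b)`, `b` in the chart at infinity of `F`. -/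
theorem s18gr_descend (hM : IsUnit (M : O)) (hσ : s18_IsSigma O M σ) :
    letI := s18_algOFF O K (s18_F K M)
    letI := s18_algOFF O K (s18_Fpp O K M σ)
    ∀ y : ↥(s18_Fpp O K M σ),
      y ∈ s18_chart O ({s18_sig O K M σ} : Set ↥(s18_Fpp O K M σ)) →
      ∃ b : ↥(s18_F K M), b ∈ s18_chart O ({(s18_j K M)⁻¹} : Set ↥(s18_F K M)) ∧
        qExpand K M (b : LaurentSeries K) = s18gr_pr M (y : LaurentSeries K) := by
  letI := s18_algOFF O K (s18_F K M)
  letI := s18_algOFF O K (s18_Fpp O K M σ)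
  intro y hy
  set A₀ := Algebra.adjoin O ({(s18_j K M)⁻¹} : Set ↥(s18_F K M)) with hA₀
  set A₁ := Algebra.adjoin O ({s18_sig O K M σ} : Set ↥(s18_Fpp O K M σ)) with hA₁
  let ψ : ↥(s18_F K M) →+* LaurentSeries K :=
    (qExpand K M).comp (algebraMap ↥(s18_F K M) (LaurentSeries K))
  let f₀ : ↥A₀ →+* LaurentSeries K := ψ.comp (algebraMap ↥A₀ ↥(s18_F K M))
  let f₁ : ↥A₁ →+* LaurentSeries K :=
    (algebraMap ↥(s18_Fpp O K M σ) (LaurentSeries K)).comp (algebraMap ↥A₁ ↥(s18_Fpp O K M σ))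
  have hψ : Function.Injective ψ :=
    (qExpand_injective M).comp (algebraMap ↥(s18_F K M) (LaurentSeries K)).injective
  have hy0 : (algebraMap ↥A₁ ↥(s18_Fpp O K M σ)).IsIntegralElem y := hy
  have hy1 : f₁.IsIntegralElem (y : LaurentSeries K) :=
    s18gr_int_map _ (algebraMap ↥(s18_Fpp O K M σ) (LaurentSeries K)) hy0
  have h0 : ∀ r, s18gr_IsCl M 0 (f₀ r) := fun r => s18gr_isCl_qExpand _
  have hconst : ∀ o : O, f₀ (algebraMap O ↥A₀ o) =
      coeffMap (algebraMap O K) (HahnSeries.C o) := by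
    intro o
    show qExpand K M ((algebraMap O ↥(s18_F K M) o : ↥(s18_F K M)) : LaurentSeries K) = _
    rw [s18gr_algebraMap_coe, s18gr_qExpand_const]
  have hMM : ∃ m : ↥A₀, f₀ m * HahnSeries.C (M : K) = 1 := by
    obtain ⟨u, hu⟩ := hM
    refine ⟨algebraMap O ↥A₀ ((u⁻¹ : Oˣ) : O), ?_⟩
    rw [hconst, s18gr_coeffMap_C, ← map_mul]
    have : algebraMap O K ((u⁻¹ : Oˣ) : O) * (M : K) = 1 := by
      rw [← map_natCast (algebraMap O K) M, ← hu, ← map_mul, Units.inv_mul, map_one]
    rw [this, map_one]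
  have h1' : ∀ r : ↥(s18_Fpp O K M σ), r ∈ A₁ →
      f₀.IsIntegralElem ((r : LaurentSeries K)) := by
    intro r hr
    induction hr using Algebra.adjoin_induction with
    | mem x hx =>
      rw [Set.mem_singleton_iff] at hx
      subst hx
      refine ⟨Polynomial.X ^ M -
        Polynomial.C (⟨(s18_j K M)⁻¹, Algebra.subset_adjoin (Set.mem_singleton _)⟩ : ↥A₀),
        Polynomial.monic_X_pow_sub_C _ (NeZero.ne M), ?_⟩
      rw [Polynomial.eval₂_sub, Polynomial.eval₂_pow, Polynomial.eval₂_X, Polynomial.eval₂_C]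
      show (coeffMap (algebraMap O K) σ) ^ M -
        qExpand K M (((s18_j K M)⁻¹ : ↥(s18_F K M)) : LaurentSeries K) = 0
      rw [s18gr_jinv_coe, s18gr_sig_pow _ hσ, sub_self]
    | algebraMap o =>
      have e : (((algebraMap O ↥(s18_Fpp O K M σ) o : ↥(s18_Fpp O K M σ))) : LaurentSeries K) =
          f₀ (algebraMap O ↥A₀ o) := by
        rw [hconst, s18gr_algebraMap_coe]
      rw [e]
      exact f₀.isIntegralElem_map
    | add x y _ _ hx hy =>
      exact RingHom.IsIntegralElem.add f₀ hx hy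
    | mul x y _ _ hx hy =>
      exact RingHom.IsIntegralElem.mul f₀ hx hy
  have h1 : ∀ r : ↥A₁, f₀.IsIntegralElem (f₁ r) := fun r => h1' r r.2
  have key := s18gr_key M f₀ f₁ h0 hMM h1 hy1
  obtain ⟨b, hb, hbY⟩ := (s18gr_mem_L K M).mp (s18gr_pr_mem hσ y.2)
  refine ⟨⟨b, hb⟩, ?_, hbY⟩
  rw [← hbY] at key
  exact s18gr_int_descend (algebraMap ↥A₀ ↥(s18_F K M)) ψ hψ (y := ⟨b, hb⟩) key

end Theta

section RedTheta

variable {O K : Type} [CommRing O] [IsDomain O] [IsDiscreteValuationRing O] [Field K]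
  [CharZero K] [Algebra O K] [IsFractionRing O K] {M : ℕ} [NeZero M] {σ : LaurentSeries O}

theorem s18gr_coeffMap_qExpand_ne_zero {β : LaurentSeries O}
    (hβ : coeffMap (IsLocalRing.residue O) β ≠ 0) :
    qExpand (IsLocalRing.ResidueField O) M (coeffMap (IsLocalRing.residue O) β) ≠ 0 :=
  (map_ne_zero_iff _ (qExpand_injective M)).mpr hβ

/-- A reduction datum of the chart of `(F'', σ)` maps `θ(chart at infinity)` into
`κ((q^M))`. -/
theorem s18gr_red_theta
    (hfd : FiniteDimensional ↥(K⟮s18_j K M⟯) ↥(s18_F K M)) (hσ : s18_IsSigma O M σ)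
    {ρ' : letI := s18_algOFF O K (s18_F K M)
      ↥(s18_chart O ({(s18_j K M)⁻¹} : Set ↥(s18_F K M))) →+*
        LaurentSeries (IsLocalRing.ResidueField O)}
    (hρ' : s18gr_IsRed ({(s18_j K M)⁻¹} : Set ↥(s18_F K M)) ρ')
    {ρ : letI := s18_algOFF O K (s18_Fpp O K M σ)
      ↥(s18_chart O ({s18_sig O K M σ} : Set ↥(s18_Fpp O K M σ))) →+*
        LaurentSeries (IsLocalRing.ResidueField O)}
    (hρ : s18gr_IsRed ({s18_sig O K M σ} : Set ↥(s18_Fpp O K M σ)) ρ) :
    letI := s18_algOFF O K (s18_F K M)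
    letI := s18_algOFF O K (s18_Fpp O K M σ)
    ∀ (g : ↥(s18_F K M)), g ∈ s18_chart O ({(s18_j K M)⁻¹} : Set ↥(s18_F K M)) →
      ∀ hb : s18_theta O K M σ g ∈
          s18_chart O ({s18_sig O K M σ} : Set ↥(s18_Fpp O K M σ)),
        s18gr_IsCl M 0 (ρ ⟨s18_theta O K M σ g, hb⟩) := by
  letI := s18_algOFF O K (s18_F K M)
  letI := s18_algOFF O K (s18_Fpp O K M σ)
  intro g hg hb
  obtain ⟨α, β, x, hβ0, hxB, hxβ, hgβ⟩ := s18gr_exists_den hfd hρ' g hg
  have hθx := s18gr_theta_mem hσ x hxB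
  set b : ↥(s18_chart O ({s18_sig O K M σ} : Set ↥(s18_Fpp O K M σ))) :=
    ⟨s18_theta O K M σ g, hb⟩ with hbdef
  set bx : ↥(s18_chart O ({s18_sig O K M σ} : Set ↥(s18_Fpp O K M σ))) :=
    ⟨s18_theta O K M σ x, hθx⟩ with hbxdef
  have hcoe_bx : (((bx : ↥(s18_Fpp O K M σ))) : LaurentSeries K) =
      coeffMap (algebraMap O K) (qExpand O M β) := by
    show qExpand K M (x : LaurentSeries K) = _
    rw [hxβ, coeffMap_qExpand]
  have hcoe_b : (((b : ↥(s18_Fpp O K M σ))) : LaurentSeries K) =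
      qExpand K M (g : LaurentSeries K) := rfl
  have hcoe_mul : ((((b * bx : ↥(s18_chart O ({s18_sig O K M σ} :
      Set ↥(s18_Fpp O K M σ)))) : ↥(s18_Fpp O K M σ))) : LaurentSeries K) =
      coeffMap (algebraMap O K) (qExpand O M α) := by
    show qExpand K M (g : LaurentSeries K) * qExpand K M (x : LaurentSeries K) = _
    rw [hxβ, ← map_mul, hgβ, coeffMap_qExpand]
  have e1 : ρ (b * bx) =
      qExpand (IsLocalRing.ResidueField O) M (coeffMap (IsLocalRing.residue O) α) := by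
    rw [s18gr_red_int hρ (b * bx) _ hcoe_mul, coeffMap_qExpand]
  have e2 : ρ (b * bx) =
      qExpand (IsLocalRing.ResidueField O) M (coeffMap (IsLocalRing.residue O) β) * ρ b := by
    rw [← coeffMap_qExpand]
    refine hρ.compat b (b * bx) (qExpand O M β) ?_
    rw [← hcoe_bx]
    show (((b : ↥(s18_Fpp O K M σ))) : LaurentSeries K) *
      (((bx : ↥(s18_Fpp O K M σ))) : LaurentSeries K) = _
    ring
  have hne := s18gr_coeffMap_qExpand_ne_zero (M := M) hβ0
  have e3 : ρ b = qExpand (IsLocalRing.ResidueField O) M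
      (coeffMap (IsLocalRing.residue O) α / coeffMap (IsLocalRing.residue O) β) := by
    rw [map_div₀, eq_div_iff hne, mul_comm, ← e2, e1]
  rw [e3]
  exact s18gr_isCl_qExpand _

end RedTheta

end Fermat.Agent.S18
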