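import Mathlib
import Fermat.Prelude.Thm_ModularForm_sturm_bound_Gamma0
import Fermat.Agent.S22.Basic
import Fermat.Agent.S22.Forms
import Fermat.Agent.S22.Nice
import Fermat.Agent.S22.LevelOne
import Fermat.Agent.S22.DN
import Fermat.Agent.S24.CombIndex
import Fermat.Agent.S16.Eis

/-!
# S18, [HAUPT-4], the analytic side: Sturm identities at level `Γ₀(4)`

With `φ_N = N E₂(N z) - E₂(z)` (`s16e_fun N`) put

  `a := (2 φ₄ - 3 φ₂) / 3 = 1 - 8 q + 24 q² - 32 q³ + …`,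
  `b := (3 φ₂ - φ₄) / 48 = q + 4 q³ + …`,

two modular forms of weight `2` on `Γ₀(4)`.  By the Sturm bound at level `Γ₀(4)` (index `6`;
three coefficients in weight `4`, four in weight `6`):

* `E₄(z)  = a² + 256 a b + 4096 b²`,  `E₆(z)  = a³ - 480 a² b - 24576 a b² - 262144 b³`,
* `E₄(2z) = a² + 16 a b + 256 b²`,    `E₆(2z) = a³ + 24 a² b - 384 a b² - 4096 b³`,
* `E₄(4z) = a² + 16 a b + 16 b²`,     `E₆(4z) = a³ + 24 a² b + 120 a b² - 64 b³`.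
-/

set_option autoImplicit false

noncomputable section

namespace Fermat.Agent.S18

open UpperHalfPlane ModularFormClass CongruenceSubgroup Matrix.SpecialLinearGroup
open Fermat.Agent.S22 Fermat.Agent.S16 ModularForm EisensteinSeries
open scoped MatrixGroups ModularForm Manifold

/-! ### jets of length four -/

/-- The `3`-jet of the `q`-expansion of `f`. -/
def s18h4s_J (f : ℍ → ℂ) (c0 c1 c2 c3 : ℂ) : Prop :=
  (qExpansion 1 f).coeff 0 = c0 ∧ (qExpansion 1 f).coeff 1 = c1 ∧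
    (qExpansion 1 f).coeff 2 = c2 ∧ (qExpansion 1 f).coeff 3 = c3

namespace s18h4s_J

variable {f g : ℍ → ℂ} {c0 c1 c2 c3 d0 d1 d2 d3 : ℂ}

theorem mul (hf : IsNice f) (hg : IsNice g) (h : s18h4s_J f c0 c1 c2 c3)
    (h' : s18h4s_J g d0 d1 d2 d3) :
    s18h4s_J (f * g) (c0 * d0) (c0 * d1 + c1 * d0) (c0 * d2 + c1 * d1 + c2 * d0)
      (c0 * d3 + c1 * d2 + c2 * d1 + c3 * d0) := by
  obtain ⟨h0, h1, h2, h3⟩ := h
  obtain ⟨h0', h1', h2', h3'⟩ := h'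
  refine ⟨?_, ?_, ?_, ?_⟩
  · rw [hf.qExpansion_mul hg, PowerSeries.coeff_mul]
    simp [h0, h0']
  · rw [hf.qExpansion_mul hg, PowerSeries.coeff_mul]
    simp [Finset.Nat.antidiagonal_succ, h0, h0', h1, h1']
  · rw [hf.qExpansion_mul hg, PowerSeries.coeff_mul]
    simp [Finset.Nat.antidiagonal_succ, h0, h0', h1, h1', h2, h2']
    ring
  · rw [hf.qExpansion_mul hg, PowerSeries.coeff_mul]
    simp [Finset.Nat.antidiagonal_succ, h0, h0', h1, h1', h2, h2', h3, h3']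
    ring

theorem add (hf : IsNice f) (hg : IsNice g) (h : s18h4s_J f c0 c1 c2 c3)
    (h' : s18h4s_J g d0 d1 d2 d3) :
    s18h4s_J (f + g) (c0 + d0) (c1 + d1) (c2 + d2) (c3 + d3) := by
  obtain ⟨h0, h1, h2, h3⟩ := h
  obtain ⟨h0', h1', h2', h3'⟩ := h'
  refine ⟨?_, ?_, ?_, ?_⟩ <;> rw [hf.qExpansion_add hg, map_add] <;> simp [*]

theorem sub (hf : IsNice f) (hg : IsNice g) (h : s18h4s_J f c0 c1 c2 c3)
    (h' : s18h4s_J g d0 d1 d2 d3) :
    s18h4s_J (f - g) (c0 - d0) (c1 - d1) (c2 - d2) (c3 - d3) := by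
  obtain ⟨h0, h1, h2, h3⟩ := h
  obtain ⟨h0', h1', h2', h3'⟩ := h'
  refine ⟨?_, ?_, ?_, ?_⟩ <;> rw [hf.qExpansion_sub hg, map_sub] <;> simp [*]

theorem smul (r : ℂ) (hf : IsNice f) (h : s18h4s_J f c0 c1 c2 c3) :
    s18h4s_J (r • f) (r * c0) (r * c1) (r * c2) (r * c3) := by
  obtain ⟨h0, h1, h2, h3⟩ := h
  refine ⟨?_, ?_, ?_, ?_⟩ <;> rw [hf.qExpansion_smul r] <;> simp [*]

theorem congr {c0' c1' c2' c3' : ℂ} (h : s18h4s_J f c0 c1 c2 c3)
    (e0 : c0 = c0') (e1 : c1 = c1') (e2 : c2 = c2') (e3 : c3 = c3') :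
    s18h4s_J f c0' c1' c2' c3' := by
  subst e0 e1 e2 e3; exact h

end s18h4s_J

/-! ### the level -/

theorem s18h4s_G0_le {M N : ℕ} (h : M ∣ N) : G0 N ≤ G0 M := by
  apply Subgroup.map_mono
  intro γ hγ
  rw [Gamma0_mem] at hγ ⊢
  obtain ⟨c, rfl⟩ := h
  have h1 : ((γ 1 0 : ℤ) : ZMod (M * c)) = 0 := by exact_mod_cast hγ
  rw [ZMod.intCast_zmod_eq_zero_iff_dvd] at h1 ⊢
  exact dvd_trans (by push_cast; exact dvd_mul_right _ _) h1

theorem s18h4s_index_four : (CongruenceSubgroup.Gamma0 4).index = 6 := by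
  have h := Fermat.Agent.S24.Comb.card_X 4 (by norm_num)
  have h3 : ModularCurve.dedekindPsi 4 = 6 := by
    have := Fermat.Agent.S24.Comb.dedekindPsi_prime_pow Nat.prime_two 1
    simpa using this
  rw [h3] at h
  exact h

theorem s18h4s_sturm_w4 :
    ((4 : ℤ) * ((CongruenceSubgroup.Gamma0 4).index : ℤ)).toNat / 12 = 2 := by
  rw [s18h4s_index_four]
  rfl

theorem s18h4s_sturm_w6 :
    ((6 : ℤ) * ((CongruenceSubgroup.Gamma0 4).index : ℤ)).toNat / 12 = 3 := by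
  rw [s18h4s_index_four]
  rfl

/-- **Sturm at level `Γ₀(4)`, weight `4`.** -/
theorem s18h4s_eq_w4 {f g : ℍ → ℂ} (hf : IsMF (G0 4) 4 f) (hg : IsMF (G0 4) 4 g)
    {c0 c1 c2 c3 d3 : ℂ} (jf : s18h4s_J f c0 c1 c2 c3) (jg : s18h4s_J g c0 c1 c2 d3) :
    f = g := by
  obtain ⟨F, hF⟩ := hf.sub hg
  have hzero : F = 0 := by
    apply ModularForm.sturm_bound_Gamma0 4 F
    intro n hn
    rw [s18h4s_sturm_w4] at hn
    rw [hF, hf.isNice_G0.qExpansion_sub hg.isNice_G0, map_sub]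
    obtain ⟨h0, h1, h2, -⟩ := jf
    obtain ⟨h0', h1', h2', -⟩ := jg
    interval_cases n
    · rw [h0, h0', sub_self]
    · rw [h1, h1', sub_self]
    · rw [h2, h2', sub_self]
  have hfun : f - g = 0 := by
    rw [← hF, hzero]
    rfl
  exact sub_eq_zero.mp hfun

/-- **Sturm at level `Γ₀(4)`, weight `6`.** -/
theorem s18h4s_eq_w6 {f g : ℍ → ℂ} (hf : IsMF (G0 4) 6 f) (hg : IsMF (G0 4) 6 g)
    {c0 c1 c2 c3 : ℂ} (jf : s18h4s_J f c0 c1 c2 c3) (jg : s18h4s_J g c0 c1 c2 c3) :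
    f = g := by
  obtain ⟨F, hF⟩ := hf.sub hg
  have hzero : F = 0 := by
    apply ModularForm.sturm_bound_Gamma0 4 F
    intro n hn
    rw [s18h4s_sturm_w6] at hn
    rw [hF, hf.isNice_G0.qExpansion_sub hg.isNice_G0, map_sub]
    obtain ⟨h0, h1, h2, h3⟩ := jf
    obtain ⟨h0', h1', h2', h3'⟩ := jg
    interval_cases n
    · rw [h0, h0', sub_self]
    · rw [h1, h1', sub_self]
    · rw [h2, h2', sub_self]
    · rw [h3, h3', sub_self]
  have hfun : f - g = 0 := by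
    rw [← hF, hzero]
    rfl
  exact sub_eq_zero.mp hfun

/-! ### the level-one jets and their dilates -/

theorem s18h4s_E4_coeff (n : ℕ) : (qExpansion 1 (E₄ : ℍ → ℂ)).coeff n =
    if n = 0 then 1 else 240 * (ArithmeticFunction.sigma 3 n : ℂ) := by
  rw [E_qExpansion_coeff _ ⟨2, rfl⟩, show bernoulli 4 = -1 / 30 by decide +kernel]
  by_cases h : n = 0
  · simp [h]
  · simp only [h, if_false]
    push_cast
    norm_num

theorem s18h4s_E6_coeff (n : ℕ) : (qExpansion 1 (E₆ : ℍ → ℂ)).coeff n =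
    if n = 0 then 1 else -504 * (ArithmeticFunction.sigma 5 n : ℂ) := by
  rw [E_qExpansion_coeff _ ⟨3, rfl⟩, show bernoulli 6 = 1 / 42 by decide +kernel]
  by_cases h : n = 0
  · simp [h]
  · simp only [h, if_false]
    push_cast
    norm_num

theorem s18h4s_J_E4 : s18h4s_J (E₄ : ℍ → ℂ) 1 240 2160 6720 := by
  refine ⟨?_, ?_, ?_, ?_⟩
  · rw [s18h4s_E4_coeff]; simp
  · rw [s18h4s_E4_coeff]; simp
  · rw [s18h4s_E4_coeff]
    have : ArithmeticFunction.sigma 3 2 = 9 := by decide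
    simp [this]
    norm_num
  · rw [s18h4s_E4_coeff]
    have : ArithmeticFunction.sigma 3 3 = 28 := by decide
    simp [this]
    norm_num

theorem s18h4s_J_E6 : s18h4s_J (E₆ : ℍ → ℂ) 1 (-504) (-16632) (-122976) := by
  refine ⟨?_, ?_, ?_, ?_⟩
  · rw [s18h4s_E6_coeff]; simp
  · rw [s18h4s_E6_coeff]; simp
  · rw [s18h4s_E6_coeff]
    have : ArithmeticFunction.sigma 5 2 = 33 := by decide
    simp [this]
    norm_num
  · rw [s18h4s_E6_coeff]
    have : ArithmeticFunction.sigma 5 3 = 244 := by decide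
    simp [this]
    norm_num

/-- The dilate `z ↦ f (d z)`. -/
def s18h4s_V (d : ℕ) (f : ℍ → ℂ) : ℍ → ℂ := fun z => f (ModularForm.heckeDiagMatrix d • z)

theorem s18h4s_V_apply (d : ℕ) (f : ℍ → ℂ) (z : ℍ) :
    s18h4s_V d f z = f (ModularForm.heckeDiagMatrix d • z) := rfl

theorem s18h4s_V_coeff {f : ℍ → ℂ} (hf : IsNice f) {d : ℕ} (hd : d ≠ 0) (n : ℕ) :
    (qExpansion 1 (s18h4s_V d f)).coeff n =
      if d ∣ n then (qExpansion 1 f).coeff (n / d) else 0 :=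
  DN.qExpansion_comp_diag_coeff hf hd n

theorem s18h4s_V_isMF {k : ℤ} {d : ℕ} [NeZero d] {N : ℕ} (hdN : d ∣ N) {f : ℍ → ℂ}
    (hf : IsMF G1 k f) : IsMF (G0 N) k (s18h4s_V d f) :=
  (DN.isMF_comp_diag d hf).restrict (s18h4s_G0_le hdN)

theorem s18h4s_J_V2 {f : ℍ → ℂ} (hf : IsNice f) {c0 c1 c2 c3 : ℂ} (h : s18h4s_J f c0 c1 c2 c3) :
    s18h4s_J (s18h4s_V 2 f) c0 0 c1 0 := by
  obtain ⟨h0, h1, -, -⟩ := h
  refine ⟨?_, ?_, ?_, ?_⟩
  · rw [s18h4s_V_coeff hf (by norm_num)]; simpa using h0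
  · rw [s18h4s_V_coeff hf (by norm_num), if_neg (by decide)]
  · rw [s18h4s_V_coeff hf (by norm_num), if_pos (by decide)]; simpa using h1
  · rw [s18h4s_V_coeff hf (by norm_num), if_neg (by decide)]

theorem s18h4s_J_V4 {f : ℍ → ℂ} (hf : IsNice f) {c0 c1 c2 c3 : ℂ} (h : s18h4s_J f c0 c1 c2 c3) :
    s18h4s_J (s18h4s_V 4 f) c0 0 0 0 := by
  obtain ⟨h0, -, -, -⟩ := h
  refine ⟨?_, ?_, ?_, ?_⟩
  · rw [s18h4s_V_coeff hf (by norm_num)]; simpa using h0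
  · rw [s18h4s_V_coeff hf (by norm_num), if_neg (by decide)]
  · rw [s18h4s_V_coeff hf (by norm_num), if_neg (by decide)]
  · rw [s18h4s_V_coeff hf (by norm_num), if_neg (by decide)]

/-! ### the forms `a` and `b` -/

/-- `a = (2 φ₄ - 3 φ₂) / 3 = 1 - 8 q + 24 q² - 32 q³ + …`. -/
def s18h4s_a : ℍ → ℂ := (1 / 3 : ℂ) • ((2 : ℂ) • s16e_fun 4 - (3 : ℂ) • s16e_fun 2)

/-- `b = (3 φ₂ - φ₄) / 48 = q + 4 q³ + …`. -/
def s18h4s_b : ℍ → ℂ := (1 / 48 : ℂ) • ((3 : ℂ) • s16e_fun 2 - s16e_fun 4)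

theorem s18h4s_phi2_isMF : IsMF (G0 4) 2 (s16e_fun 2) :=
  (s16e_isMF 2).restrict (s18h4s_G0_le (by norm_num))

theorem s18h4s_phi4_isMF : IsMF (G0 4) 2 (s16e_fun 4) := s16e_isMF 4

theorem s18h4s_a_isMF : IsMF (G0 4) 2 s18h4s_a :=
  ((s18h4s_phi4_isMF.smul 2).sub (s18h4s_phi2_isMF.smul 3)).smul _

theorem s18h4s_b_isMF : IsMF (G0 4) 2 s18h4s_b :=
  ((s18h4s_phi2_isMF.smul 3).sub s18h4s_phi4_isMF).smul _

theorem s18h4s_a_isNice : IsNice s18h4s_a := s18h4s_a_isMF.isNice_G0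

theorem s18h4s_b_isNice : IsNice s18h4s_b := s18h4s_b_isMF.isNice_G0

theorem s18h4s_J_phi2 : s18h4s_J (s16e_fun 2) 1 24 24 96 := by
  have s1 : ArithmeticFunction.sigma 1 1 = 1 := by decide
  have s2 : ArithmeticFunction.sigma 1 2 = 3 := by decide
  have s3 : ArithmeticFunction.sigma 1 3 = 4 := by decide
  refine ⟨?_, ?_, ?_, ?_⟩
  · rw [s16e_coeff (by norm_num)]; norm_num
  · rw [s16e_coeff (by norm_num)]; simp [s1]
  · rw [s16e_coeff (by norm_num)]; simp [s1, s2]; norm_num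
  · rw [s16e_coeff (by norm_num)]; simp [s3]; norm_num

theorem s18h4s_J_phi4 : s18h4s_J (s16e_fun 4) 3 24 72 96 := by
  have s1 : ArithmeticFunction.sigma 1 1 = 1 := by decide
  have s2 : ArithmeticFunction.sigma 1 2 = 3 := by decide
  have s3 : ArithmeticFunction.sigma 1 3 = 4 := by decide
  refine ⟨?_, ?_, ?_, ?_⟩
  · rw [s16e_coeff (by norm_num)]; norm_num
  · rw [s16e_coeff (by norm_num)]; simp [s1]
  · rw [s16e_coeff (by norm_num)]; simp [s2]; norm_num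
  · rw [s16e_coeff (by norm_num)]; simp [s3]; norm_num

theorem s18h4s_J_a : s18h4s_J s18h4s_a 1 (-8) 24 (-32) := by
  have n2 := s18h4s_phi2_isMF.isNice_G0
  have n4 := s18h4s_phi4_isMF.isNice_G0
  exact ((((s18h4s_J_phi4.smul 2 n4).sub (n4.smul 2) (n2.smul 3) (s18h4s_J_phi2.smul 3 n2)).smul
    (1 / 3) ((n4.smul 2).sub (n2.smul 3)))).congr (by norm_num) (by norm_num) (by norm_num)
      (by norm_num)

theorem s18h4s_J_b : s18h4s_J s18h4s_b 0 1 0 4 := by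
  have n2 := s18h4s_phi2_isMF.isNice_G0
  have n4 := s18h4s_phi4_isMF.isNice_G0
  exact ((((s18h4s_J_phi2.smul 3 n2).sub (n2.smul 3) n4 s18h4s_J_phi4).smul
    (1 / 48) ((n2.smul 3).sub n4))).congr (by norm_num) (by norm_num) (by norm_num)
      (by norm_num)

/-! ### quadratic and cubic forms in `a`, `b` -/

/-- `α a² + β a b + γ b²`. -/
def s18h4s_quad (α β γ : ℂ) : ℍ → ℂ :=
  α • s18h4s_a ^ 2 + β • (s18h4s_a * s18h4s_b) + γ • s18h4s_b ^ 2

/-- `α a³ + β a² b + γ a b² + δ b³`. -/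
def s18h4s_cub (α β γ δ : ℂ) : ℍ → ℂ :=
  α • s18h4s_a ^ 3 + β • (s18h4s_a ^ 2 * s18h4s_b) + γ • (s18h4s_a * s18h4s_b ^ 2)
    + δ • s18h4s_b ^ 3

theorem s18h4s_quad_apply (α β γ : ℂ) (z : ℍ) :
    s18h4s_quad α β γ z =
      α * s18h4s_a z ^ 2 + β * (s18h4s_a z * s18h4s_b z) + γ * s18h4s_b z ^ 2 := rfl

theorem s18h4s_cub_apply (α β γ δ : ℂ) (z : ℍ) :
    s18h4s_cub α β γ δ z =
      α * s18h4s_a z ^ 3 + β * (s18h4s_a z ^ 2 * s18h4s_b z)
        + γ * (s18h4s_a z * s18h4s_b z ^ 2) + δ * s18h4s_b z ^ 3 := rfl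

theorem s18h4s_quad_isMF (α β γ : ℂ) : IsMF (G0 4) 4 (s18h4s_quad α β γ) := by
  have ha := s18h4s_a_isMF
  have hb := s18h4s_b_isMF
  have t1 : IsMF (G0 4) 4 (s18h4s_a ^ 2) := (ha.pow 2).cast (by norm_num)
  have t2 : IsMF (G0 4) 4 (s18h4s_a * s18h4s_b) := (ha.mul hb).cast (by norm_num)
  have t3 : IsMF (G0 4) 4 (s18h4s_b ^ 2) := (hb.pow 2).cast (by norm_num)
  exact ((t1.smul α).add (t2.smul β)).add (t3.smul γ)

theorem s18h4s_cub_isMF (α β γ δ : ℂ) : IsMF (G0 4) 6 (s18h4s_cub α β γ δ) := by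
  have ha := s18h4s_a_isMF
  have hb := s18h4s_b_isMF
  have t1 : IsMF (G0 4) 6 (s18h4s_a ^ 3) := (ha.pow 3).cast (by norm_num)
  have t2 : IsMF (G0 4) 6 (s18h4s_a ^ 2 * s18h4s_b) := ((ha.pow 2).mul hb).cast (by norm_num)
  have t3 : IsMF (G0 4) 6 (s18h4s_a * s18h4s_b ^ 2) := (ha.mul (hb.pow 2)).cast (by norm_num)
  have t4 : IsMF (G0 4) 6 (s18h4s_b ^ 3) := (hb.pow 3).cast (by norm_num)
  exact (((t1.smul α).add (t2.smul β)).add (t3.smul γ)).add (t4.smul δ)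

theorem s18h4s_J_a2 : s18h4s_J (s18h4s_a ^ 2) 1 (-16) 112 (-448) := by
  have := s18h4s_J_a.mul s18h4s_a_isNice s18h4s_a_isNice s18h4s_J_a
  rw [← pow_two] at this
  exact this.congr (by norm_num) (by norm_num) (by norm_num) (by norm_num)

theorem s18h4s_J_ab : s18h4s_J (s18h4s_a * s18h4s_b) 0 1 (-8) 28 :=
  (s18h4s_J_a.mul s18h4s_a_isNice s18h4s_b_isNice s18h4s_J_b).congr
    (by norm_num) (by norm_num) (by norm_num) (by norm_num)

theorem s18h4s_J_b2 : s18h4s_J (s18h4s_b ^ 2) 0 0 1 0 := by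
  have := s18h4s_J_b.mul s18h4s_b_isNice s18h4s_b_isNice s18h4s_J_b
  rw [← pow_two] at this
  exact this.congr (by norm_num) (by norm_num) (by norm_num) (by norm_num)

theorem s18h4s_J_a3 : s18h4s_J (s18h4s_a ^ 3) 1 (-24) 264 (-1760) := by
  have := s18h4s_J_a2.mul (s18h4s_a_isNice.pow 2) s18h4s_a_isNice s18h4s_J_a
  rw [← pow_succ] at this
  exact this.congr (by norm_num) (by norm_num) (by norm_num) (by norm_num)

theorem s18h4s_J_a2b : s18h4s_J (s18h4s_a ^ 2 * s18h4s_b) 0 1 (-16) 116 :=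
  (s18h4s_J_a2.mul (s18h4s_a_isNice.pow 2) s18h4s_b_isNice s18h4s_J_b).congr
    (by norm_num) (by norm_num) (by norm_num) (by norm_num)

theorem s18h4s_J_ab2 : s18h4s_J (s18h4s_a * s18h4s_b ^ 2) 0 0 1 (-8) :=
  (s18h4s_J_a.mul s18h4s_a_isNice (s18h4s_b_isNice.pow 2) s18h4s_J_b2).congr
    (by norm_num) (by norm_num) (by norm_num) (by norm_num)

theorem s18h4s_J_b3 : s18h4s_J (s18h4s_b ^ 3) 0 0 0 1 := by
  have := s18h4s_J_b2.mul (s18h4s_b_isNice.pow 2) s18h4s_b_isNice s18h4s_J_b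
  rw [← pow_succ] at this
  exact this.congr (by norm_num) (by norm_num) (by norm_num) (by norm_num)

theorem s18h4s_J_quad (α β γ : ℂ) :
    s18h4s_J (s18h4s_quad α β γ) α (-16 * α + β) (112 * α - 8 * β + γ) (-448 * α + 28 * β) := by
  have na := s18h4s_a_isNice
  have nb := s18h4s_b_isNice
  have n1 : IsNice (α • s18h4s_a ^ 2) := (na.pow 2).smul α
  have n2 : IsNice (β • (s18h4s_a * s18h4s_b)) := (na.mul nb).smul β
  have n3 : IsNice (γ • s18h4s_b ^ 2) := (nb.pow 2).smul γ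
  exact (((s18h4s_J_a2.smul α (na.pow 2)).add n1 n2 (s18h4s_J_ab.smul β (na.mul nb))).add
    (n1.add n2) n3 (s18h4s_J_b2.smul γ (nb.pow 2))).congr
      (by ring) (by ring) (by ring) (by ring)

theorem s18h4s_J_cub (α β γ δ : ℂ) :
    s18h4s_J (s18h4s_cub α β γ δ) α (-24 * α + β) (264 * α - 16 * β + γ)
      (-1760 * α + 116 * β - 8 * γ + δ) := by
  have na := s18h4s_a_isNice
  have nb := s18h4s_b_isNice
  have n1 : IsNice (α • s18h4s_a ^ 3) := (na.pow 3).smul α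
  have n2 : IsNice (β • (s18h4s_a ^ 2 * s18h4s_b)) := ((na.pow 2).mul nb).smul β
  have n3 : IsNice (γ • (s18h4s_a * s18h4s_b ^ 2)) := (na.mul (nb.pow 2)).smul γ
  have n4 : IsNice (δ • s18h4s_b ^ 3) := (nb.pow 3).smul δ
  exact ((((s18h4s_J_a3.smul α (na.pow 3)).add n1 n2
    (s18h4s_J_a2b.smul β ((na.pow 2).mul nb))).add (n1.add n2) n3
      (s18h4s_J_ab2.smul γ (na.mul (nb.pow 2)))).add ((n1.add n2).add n3) n4
        (s18h4s_J_b3.smul δ (nb.pow 3))).congr (by ring) (by ring) (by ring) (by ring)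

/-! ### the six identities -/

/-- `E₄ = a² + 256 a b + 4096 b²`. -/
theorem s18h4s_E4 : (E₄ : ℍ → ℂ) = s18h4s_quad 1 256 4096 :=
  s18h4s_eq_w4 (isMF_E4.restrict_G0 4) (s18h4s_quad_isMF _ _ _) s18h4s_J_E4
    ((s18h4s_J_quad 1 256 4096).congr (by norm_num) (by norm_num) (by norm_num) rfl)

/-- `E₆ = a³ - 480 a² b - 24576 a b² - 262144 b³`. -/
theorem s18h4s_E6 : (E₆ : ℍ → ℂ) = s18h4s_cub 1 (-480) (-24576) (-262144) :=
  s18h4s_eq_w6 (isMF_E6.restrict_G0 4) (s18h4s_cub_isMF _ _ _ _) s18h4s_J_E6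
    ((s18h4s_J_cub 1 (-480) (-24576) (-262144)).congr (by norm_num) (by norm_num)
      (by norm_num) (by norm_num))

/-- `E₄(2z) = a² + 16 a b + 256 b²`. -/
theorem s18h4s_E4_two : s18h4s_V 2 (E₄ : ℍ → ℂ) = s18h4s_quad 1 16 256 :=
  s18h4s_eq_w4 (s18h4s_V_isMF (by norm_num) isMF_E4) (s18h4s_quad_isMF _ _ _)
    (s18h4s_J_V2 isNice_E4 s18h4s_J_E4)
    ((s18h4s_J_quad 1 16 256).congr (by norm_num) (by norm_num) (by norm_num) rfl)

/-- `E₆(2z) = a³ + 24 a² b - 384 a b² - 4096 b³`. -/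
theorem s18h4s_E6_two : s18h4s_V 2 (E₆ : ℍ → ℂ) = s18h4s_cub 1 24 (-384) (-4096) :=
  s18h4s_eq_w6 (s18h4s_V_isMF (by norm_num) isMF_E6) (s18h4s_cub_isMF _ _ _ _)
    (s18h4s_J_V2 isNice_E6 s18h4s_J_E6)
    ((s18h4s_J_cub 1 24 (-384) (-4096)).congr (by norm_num) (by norm_num)
      (by norm_num) (by norm_num))

/-- `E₄(4z) = a² + 16 a b + 16 b²`. -/
theorem s18h4s_E4_four : s18h4s_V 4 (E₄ : ℍ → ℂ) = s18h4s_quad 1 16 16 :=
  s18h4s_eq_w4 (s18h4s_V_isMF (by norm_num) isMF_E4) (s18h4s_quad_isMF _ _ _)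
    (s18h4s_J_V4 isNice_E4 s18h4s_J_E4)
    ((s18h4s_J_quad 1 16 16).congr (by norm_num) (by norm_num) (by norm_num) rfl)

/-- `E₆(4z) = a³ + 24 a² b + 120 a b² - 64 b³`. -/
theorem s18h4s_E6_four : s18h4s_V 4 (E₆ : ℍ → ℂ) = s18h4s_cub 1 24 120 (-64) :=
  s18h4s_eq_w6 (s18h4s_V_isMF (by norm_num) isMF_E6) (s18h4s_cub_isMF _ _ _ _)
    (s18h4s_J_V4 isNice_E6 s18h4s_J_E6)
    ((s18h4s_J_cub 1 24 120 (-64)).congr (by norm_num) (by norm_num)
      (by norm_num) (by norm_num))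

/-! ### pointwise forms -/

theorem s18h4s_E4_apply (z : ℍ) :
    E₄ z = s18h4s_a z ^ 2 + 256 * (s18h4s_a z * s18h4s_b z) + 4096 * s18h4s_b z ^ 2 := by
  have := congrFun s18h4s_E4 z
  rw [s18h4s_quad_apply, one_mul] at this
  exact this

theorem s18h4s_E6_apply (z : ℍ) :
    E₆ z = s18h4s_a z ^ 3 - 480 * (s18h4s_a z ^ 2 * s18h4s_b z)
      - 24576 * (s18h4s_a z * s18h4s_b z ^ 2) - 262144 * s18h4s_b z ^ 3 := by
  have := congrFun s18h4s_E6 z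
  rw [s18h4s_cub_apply, one_mul] at this
  rw [this]
  ring

theorem s18h4s_E4_two_apply (z : ℍ) :
    E₄ (ModularForm.heckeDiagMatrix 2 • z) =
      s18h4s_a z ^ 2 + 16 * (s18h4s_a z * s18h4s_b z) + 256 * s18h4s_b z ^ 2 := by
  have := congrFun s18h4s_E4_two z
  rw [s18h4s_quad_apply, one_mul, s18h4s_V_apply] at this
  exact this

theorem s18h4s_E6_two_apply (z : ℍ) :
    E₆ (ModularForm.heckeDiagMatrix 2 • z) =
      s18h4s_a z ^ 3 + 24 * (s18h4s_a z ^ 2 * s18h4s_b z)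
        - 384 * (s18h4s_a z * s18h4s_b z ^ 2) - 4096 * s18h4s_b z ^ 3 := by
  have := congrFun s18h4s_E6_two z
  rw [s18h4s_cub_apply, one_mul, s18h4s_V_apply] at this
  rw [this]
  ring

theorem s18h4s_E4_four_apply (z : ℍ) :
    E₄ (ModularForm.heckeDiagMatrix 4 • z) =
      s18h4s_a z ^ 2 + 16 * (s18h4s_a z * s18h4s_b z) + 16 * s18h4s_b z ^ 2 := by
  have := congrFun s18h4s_E4_four z
  rw [s18h4s_quad_apply, one_mul, s18h4s_V_apply] at this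
  exact this

theorem s18h4s_E6_four_apply (z : ℍ) :
    E₆ (ModularForm.heckeDiagMatrix 4 • z) =
      s18h4s_a z ^ 3 + 24 * (s18h4s_a z ^ 2 * s18h4s_b z)
        + 120 * (s18h4s_a z * s18h4s_b z ^ 2) - 64 * s18h4s_b z ^ 3 := by
  have := congrFun s18h4s_E6_four z
  rw [s18h4s_cub_apply, one_mul, s18h4s_V_apply] at this
  rw [this]
  ring

/-- `1728 Δ = E₄³ - E₆² = 1728 a⁴ b (a + 16 b)`. -/
theorem s18h4s_Delta_apply (z : ℍ) :
    ModularForm.discriminant z = s18h4s_a z ^ 4 * s18h4s_b z * (s18h4s_a z + 16 * s18h4s_b z) := by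
  have h := Dfun_eq_discriminant z
  simp only [Dfun] at h
  rw [s18h4s_E4_apply, s18h4s_E6_apply] at h
  have h1728 : (1728 : ℂ) ≠ 0 := by norm_num
  apply mul_left_cancel₀ h1728
  rw [← h]
  ring

theorem s18h4s_a_ne_zero (z : ℍ) : s18h4s_a z ≠ 0 := by
  intro h
  have := s18h4s_Delta_apply z
  rw [h] at this
  exact ModularForm.discriminant_ne_zero z (by rw [this]; ring)

theorem s18h4s_b_ne_zero (z : ℍ) : s18h4s_b z ≠ 0 := by
  intro h
  have := s18h4s_Delta_apply z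
  rw [h] at this
  exact ModularForm.discriminant_ne_zero z (by rw [this]; ring)

theorem s18h4s_ab_ne_zero (z : ℍ) : s18h4s_a z + 16 * s18h4s_b z ≠ 0 := by
  intro h
  have := s18h4s_Delta_apply z
  rw [h] at this
  exact ModularForm.discriminant_ne_zero z (by rw [this]; ring)

end Fermat.Agent.S18
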