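/-
S18, package (M6) [HAUPT-9] (helper4): THE FIELD ALGEBRA.  Mathlib only.  Prefix `s18h9_`.

In a field let `g, y, e4, δ, j` satisfy

* `(10 g² + 27 g y - e4)² = 81 g y (3 y + g)²`        (weight 8, level 9),
* `27 δ (8 g²)⁴ = g⁶ (e4 - g²) (9 g² - e4)³`          (level 3),
* `j δ = e4³`,  `g ≠ 0`, `e4 ≠ g²`.

Then `T := 9 (7 g² + 18 g y - e4) / (e4 - g²)` satisfies
`j T⁹ (T² + 9 T + 27) = ((T + 9)(T³ + 243 T² + 2187 T + 6561))³`.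
-/
import Mathlib

set_option autoImplicit false

namespace Fermat.Agent.S18

section

variable {K : Type*} [Field K]

/-- The polynomial form of the relation, in terms of `T D = 9 a`. -/
theorem s18h9_alg_core (j T D a m s c : K) (hD : D ≠ 0)
    (hT : T * D = 9 * a) (h9 : 9 * a + 9 * D = 54 * m)
    (h2 : 81 * a ^ 2 + 81 * a * D + 27 * D ^ 2 = 27 * s)
    (h3 : 729 * a ^ 3 + 19683 * a ^ 2 * D + 19683 * a * D ^ 2 + 6561 * D ^ 3 = 5832 * c)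
    (hkey : j * D * a ^ 9 * s = 27 * 4096 * (27 * m ^ 3) * c ^ 3) :
    j * (T ^ 9 * (T ^ 2 + 9 * T + 27)) =
      ((T + 9) * (T ^ 3 + 243 * T ^ 2 + 2187 * T + 6561)) ^ 3 := by
  have e1 : (T + 9) * D = 54 * m := by linear_combination hT + h9
  have e2 : (T ^ 2 + 9 * T + 27) * D ^ 2 = 27 * s := by
    linear_combination (T * D + 9 * a + 9 * D) * hT + h2
  have e3 : (T ^ 3 + 243 * T ^ 2 + 2187 * T + 6561) * D ^ 3 = 5832 * c := by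
    linear_combination ((T * D) ^ 2 + (T * D) * (9 * a) + (9 * a) ^ 2
      + 243 * D * (T * D + 9 * a) + 2187 * D ^ 2) * hT + h3
  have e9 : T ^ 9 * D ^ 9 = 9 ^ 9 * a ^ 9 := by
    rw [← mul_pow, hT, mul_pow]
  apply mul_right_cancel₀ (pow_ne_zero 12 hD)
  have l : j * (T ^ 9 * (T ^ 2 + 9 * T + 27)) * D ^ 12 =
      j * (T ^ 9 * D ^ 9) * ((T ^ 2 + 9 * T + 27) * D ^ 2) * D := by ring
  have r : ((T + 9) * (T ^ 3 + 243 * T ^ 2 + 2187 * T + 6561)) ^ 3 * D ^ 12 =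
      ((T + 9) * D) ^ 3 * ((T ^ 3 + 243 * T ^ 2 + 2187 * T + 6561) * D ^ 3) ^ 3 := by ring
  rw [l, r, e1, e2, e3, e9]
  linear_combination (27 * 9 ^ 9 : K) * hkey

/-- **The relation `j Q(T) = P(T)`** from the identities of level `3` and `9`. -/
theorem s18h9_alg (g y e4 δ j T : K) (hg : g ≠ 0) (hD : e4 - g ^ 2 ≠ 0)
    (hF : (10 * g ^ 2 + 27 * g * y - e4) ^ 2 = 81 * (g * y) * (3 * y + g) ^ 2)
    (hδ : 27 * δ * (8 * g ^ 2) ^ 4 = g ^ 6 * (e4 - g ^ 2) * (9 * g ^ 2 - e4) ^ 3)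
    (hj : j * δ = e4 ^ 3)
    (hT : T * (e4 - g ^ 2) = 9 * (7 * g ^ 2 + 18 * g * y - e4)) :
    j * (T ^ 9 * (T ^ 2 + 9 * T + 27)) =
      ((T + 9) * (T ^ 3 + 243 * T ^ 2 + 2187 * T + 6561)) ^ 3 := by
  -- abbreviations
  obtain ⟨m, hm⟩ : ∃ m : K, m = g * (g + 3 * y) := ⟨_, rfl⟩
  obtain ⟨w, hw⟩ : ∃ w : K, w = 10 * g ^ 2 + 27 * g * y - e4 := ⟨_, rfl⟩
  obtain ⟨D, hDd⟩ : ∃ D : K, D = e4 - g ^ 2 := ⟨_, rfl⟩
  obtain ⟨a, ha⟩ : ∃ a : K, a = 7 * g ^ 2 + 18 * g * y - e4 := ⟨_, rfl⟩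
  obtain ⟨s, hs⟩ : ∃ s : K, s = w ^ 2 + 27 * m ^ 2 := ⟨_, rfl⟩
  obtain ⟨c, hc⟩ : ∃ c : K, c = 270 * m ^ 3 - 27 * m ^ 2 * w + 9 * m * w ^ 2 - w ^ 3 := ⟨_, rfl⟩
  have hDw : D = 9 * m - w := by rw [hDd, hm, hw]; ring
  have haw : a = w - 3 * m := by rw [ha, hm, hw]; ring
  have he4 : e4 = g ^ 2 + D := by rw [hDd]; ring
  have hF' : w ^ 2 = 81 * (g * y) * (3 * y + g) ^ 2 := by rw [hw]; exact hF
  -- `g² (w² + 27 m²) = 27 m³`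
  have hgs : g ^ 2 * s = 27 * m ^ 3 := by
    rw [hs, hm]
    linear_combination g ^ 2 * hF'
  -- `(8 g² - D) s = a³`
  have k1 : (8 * g ^ 2 - D) * s = a ^ 3 := by
    have e : D * s + a ^ 3 = 216 * m ^ 3 := by rw [hDw, haw, hs]; ring
    linear_combination 8 * hgs - e
  -- `e4 s = c`
  have k2 : e4 * s = c := by
    have e : D * s + 27 * m ^ 3 = c := by rw [hDw, hs, hc]; ring
    rw [he4]
    linear_combination hgs + e
  -- `27 · 4096 · δ g² = D (8 g² - D)³`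
  have hg6 : g ^ 6 ≠ 0 := pow_ne_zero 6 hg
  have hδ' : 27 * 4096 * δ * g ^ 2 = D * (8 * g ^ 2 - D) ^ 3 := by
    apply mul_left_cancel₀ hg6
    rw [hDd]
    linear_combination hδ
  have hD0 : D ≠ 0 := by rw [hDd]; exact hD
  have hkey : j * D * a ^ 9 * s = 27 * 4096 * (27 * m ^ 3) * c ^ 3 := by
    have a9 : a ^ 9 = ((8 * g ^ 2 - D) * s) ^ 3 := by rw [k1]; ring
    have e1 : j * D * a ^ 9 * s = j * (D * (8 * g ^ 2 - D) ^ 3) * s ^ 4 := by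
      rw [a9]; ring
    have e2 : 27 * 4096 * (27 * m ^ 3) * c ^ 3 = 27 * 4096 * (j * δ) * g ^ 2 * s ^ 4 := by
      rw [hj, ← k2, ← hgs]; ring
    rw [e1, e2, ← hδ']
    ring
  refine s18h9_alg_core j T D a m s c hD0 ?_ ?_ ?_ ?_ hkey
  · rw [hDd, ha]; exact hT
  · rw [hDw, haw]; ring
  · rw [hDw, haw, hs]; ring
  · rw [hDw, haw, hc]; ring

end

end Fermat.Agent.S18
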