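/-
S18, package (M6) [HAUPT-9] (helper4): JETS.  Mathlib only.  Prefix `s18h9_`.

The first `N` coefficients of an integral power series as a list (`s18h9_jet`), with computable
operations on lists (`s18h9_jmul`, `s18h9_jadd`, `s18h9_jsub`, `s18h9_jsmul`) which compute the
jets of products, sums, differences and integer multiples.  Identities between the first `N`
coefficients of polynomial expressions in power series with known jets are then decided by
kernel computation.
-/
import Mathlib

set_option autoImplicit false

namespace Fermat.Agent.S18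

open PowerSeries

/-- The list of the first `N` coefficients. -/
noncomputable def s18h9_jet (N : ℕ) (f : PowerSeries ℤ) : List ℤ :=
  (List.range N).map fun i => coeff i f

/-- The `n`-th coefficient of the product of two lists. -/
def s18h9_conv (a b : List ℤ) (n : ℕ) : ℤ :=
  ((List.range (n + 1)).map fun k => a.getD k 0 * b.getD (n - k) 0).sum

/-- Truncated product of lists. -/
def s18h9_jmul (N : ℕ) (a b : List ℤ) : List ℤ :=
  (List.range N).map fun n => s18h9_conv a b n

/-- Sum of lists of length `N`. -/
def s18h9_jadd (N : ℕ) (a b : List ℤ) : List ℤ :=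
  (List.range N).map fun n => a.getD n 0 + b.getD n 0

/-- Difference of lists of length `N`. -/
def s18h9_jsub (N : ℕ) (a b : List ℤ) : List ℤ :=
  (List.range N).map fun n => a.getD n 0 - b.getD n 0

/-- Integer multiple of a list of length `N`. -/
def s18h9_jsmul (N : ℕ) (c : ℤ) (a : List ℤ) : List ℤ :=
  (List.range N).map fun n => c * a.getD n 0

theorem s18h9_jet_length (N : ℕ) (f : PowerSeries ℤ) : (s18h9_jet N f).length = N := by
  simp [s18h9_jet]

theorem s18h9_jet_getD (N : ℕ) (f : PowerSeries ℤ) (i : ℕ) (hi : i < N) :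
    (s18h9_jet N f).getD i 0 = coeff i f := by
  simp [s18h9_jet, List.getD_eq_getElem?_getD, hi]

theorem s18h9_jet_mul (N : ℕ) (f g : PowerSeries ℤ) :
    s18h9_jet N (f * g) = s18h9_jmul N (s18h9_jet N f) (s18h9_jet N g) := by
  unfold s18h9_jmul
  conv_lhs => unfold s18h9_jet
  apply List.map_congr_left
  intro n hn
  rw [List.mem_range] at hn
  rw [coeff_mul, Finset.Nat.sum_antidiagonal_eq_sum_range_succ_mk, s18h9_conv,
    ← List.sum_toFinset _ (List.nodup_range), List.toFinset_range]
  · apply Finset.sum_congr rfl
    intro k hk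
    rw [Finset.mem_range] at hk
    rw [s18h9_jet_getD N f k (by omega), s18h9_jet_getD N g (n - k) (by omega)]

theorem s18h9_jet_add (N : ℕ) (f g : PowerSeries ℤ) :
    s18h9_jet N (f + g) = s18h9_jadd N (s18h9_jet N f) (s18h9_jet N g) := by
  unfold s18h9_jadd
  conv_lhs => unfold s18h9_jet
  apply List.map_congr_left
  intro n hn
  rw [List.mem_range] at hn
  rw [map_add, s18h9_jet_getD N f n hn, s18h9_jet_getD N g n hn]

theorem s18h9_jet_sub (N : ℕ) (f g : PowerSeries ℤ) :
    s18h9_jet N (f - g) = s18h9_jsub N (s18h9_jet N f) (s18h9_jet N g) := by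
  unfold s18h9_jsub
  conv_lhs => unfold s18h9_jet
  apply List.map_congr_left
  intro n hn
  rw [List.mem_range] at hn
  rw [map_sub, s18h9_jet_getD N f n hn, s18h9_jet_getD N g n hn]

theorem s18h9_jet_smul (N : ℕ) (c : ℤ) (f : PowerSeries ℤ) :
    s18h9_jet N (C c * f) = s18h9_jsmul N c (s18h9_jet N f) := by
  unfold s18h9_jsmul
  conv_lhs => unfold s18h9_jet
  apply List.map_congr_left
  intro n hn
  rw [List.mem_range] at hn
  rw [coeff_C_mul, s18h9_jet_getD N f n hn]

/-- The jet of a constant. -/
theorem s18h9_jet_C (N : ℕ) (c : ℤ) :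
    s18h9_jet N (C c) = (List.range N).map fun n => if n = 0 then c else 0 := by
  unfold s18h9_jet
  apply List.map_congr_left
  intro n _
  rw [coeff_C]

/-- The jet of `1`. -/
theorem s18h9_jet_one (N : ℕ) :
    s18h9_jet N (1 : PowerSeries ℤ) = (List.range N).map fun n => if n = 0 then 1 else 0 := by
  rw [← map_one (C (R := ℤ)), s18h9_jet_C]

/-- The jet of a series given by its coefficients. -/
theorem s18h9_jet_mk (N : ℕ) (f : ℕ → ℤ) :
    s18h9_jet N (PowerSeries.mk f) = (List.range N).map f := by
  unfold s18h9_jet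
  simp only [PowerSeries.coeff_mk]

/-- The coefficients below `N` vanish if the jet is the zero list. -/
theorem s18h9_coeff_eq_zero_of_jet (N : ℕ) (f : PowerSeries ℤ)
    (h : s18h9_jet N f = List.replicate N 0) (n : ℕ) (hn : n < N) : coeff n f = 0 := by
  rw [← s18h9_jet_getD N f n hn, h]
  simp [List.getD_eq_getElem?_getD, hn]

/-- A test of the kernel computation. -/
example : s18h9_jmul 9 [1, 12, 36, 12, 84, 72, 36, 96, 180] [1, 0, 0, 12, 0, 0, 36, 0, 0]
    = [1, 12, 36, 24, 228, 504, 216, 1536, 2340] := by decide +kernel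

end Fermat.Agent.S18
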