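/-
S18, package (M6) [HAUPT-9] (helper4): THE STURM IDENTITY AT LEVEL 9.  Prefix `s18h9_`.

`X = (3 E₂(3z) - E₂(z)) / 2` (level 3), `Y = X(3z)` (level 9).  By the Sturm bound on `Γ₀(9)`
(index 12, weight 8: the coefficients `0..8`)

    `(10 X² + 27 X Y - E₄)² = 81 X Y (3 Y + X)²`      (`s18h9_F_eq_zero`).
-/
import Mathlib
import Fermat.Prelude.Thm_ModularForm_sturm_bound_Gamma0
import Fermat.Agent.S22.Basic
import Fermat.Agent.S22.Forms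
import Fermat.Agent.S22.Nice
import Fermat.Agent.S22.LevelOne
import Fermat.Agent.S24.CombIndex
import Fermat.Agent.S16.Eis
import Fermat.Agent.S16.C22Eis
import Fermat.Agent.S16.FormChart
import Fermat.Agent.S18.Haupt9Jet

set_option autoImplicit false

noncomputable section

namespace Fermat.Agent.S18

open UpperHalfPlane ModularFormClass CongruenceSubgroup Matrix.SpecialLinearGroup
open Fermat.Agent.S22 Fermat.Agent.S16 ModularForm EisensteinSeries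
open scoped MatrixGroups ModularForm Manifold

/-- `X = (3 E₂(3z) - E₂(z)) / 2 = 1 + 12 q + …`, of level `Γ₀(3)`. -/
def s18h9_X : ℍ → ℂ := s16c22_G

/-- `Y = X(3z) = (3 E₂(9z) - E₂(3z)) / 2 = 1 + 12 q³ + …`, of level `Γ₀(9)`. -/
def s18h9_Y : ℍ → ℂ := (1 / 6 : ℂ) • (s16e_fun 9 - s16e_fun 3)

theorem s18h9_X_isMF : IsMF (G0 9) 2 s18h9_X :=
  s16f_isMF_of_dvd (by norm_num : 3 ∣ 9) s16c22_G_isMF

theorem s18h9_Y_isMF : IsMF (G0 9) 2 s18h9_Y :=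
  ((s16e_isMF 9).sub (s16f_isMF_of_dvd (by norm_num : 3 ∣ 9) (s16e_isMF 3))).smul _

/-- The coefficients of `X`. -/
def s18h9_fx (n : ℕ) : ℤ :=
  if n = 0 then 1
  else 12 * (((ArithmeticFunction.sigma 1 n : ℕ) : ℤ) -
    if 3 ∣ n then 3 * ((ArithmeticFunction.sigma 1 (n / 3) : ℕ) : ℤ) else 0)

/-- The coefficients of `Y`. -/
def s18h9_fy (n : ℕ) : ℤ :=
  if n = 0 then 1
  else 12 * ((if 3 ∣ n then ((ArithmeticFunction.sigma 1 (n / 3) : ℕ) : ℤ) else 0) -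
    if 9 ∣ n then 3 * ((ArithmeticFunction.sigma 1 (n / 9) : ℕ) : ℤ) else 0)

/-- The coefficients of `E₄`. -/
def s18h9_f4 (n : ℕ) : ℤ :=
  if n = 0 then 1 else 240 * ((ArithmeticFunction.sigma 3 n : ℕ) : ℤ)

def s18h9_xZ : PowerSeries ℤ := PowerSeries.mk s18h9_fx
def s18h9_yZ : PowerSeries ℤ := PowerSeries.mk s18h9_fy
def s18h9_e4Z : PowerSeries ℤ := PowerSeries.mk s18h9_f4

theorem s18h9_qExp_X : qExpansion 1 s18h9_X = s18h9_xZ.map (Int.castRingHom ℂ) := by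
  have h3 : (3 : ℕ) ≠ 0 := by norm_num
  ext n
  rw [s18h9_X, s16c22_G_coeff, s16e_coeff h3, PowerSeries.coeff_map, s18h9_xZ,
    PowerSeries.coeff_mk, s18h9_fx]
  by_cases h0 : n = 0
  · subst h0
    simp
    norm_num
  · rw [if_neg h0, if_neg h0]
    by_cases hd : 3 ∣ n
    · rw [if_pos hd, if_pos hd]
      simp
      ring
    · rw [if_neg hd, if_neg hd]
      simp
      ring

theorem s18h9_qExp_Y : qExpansion 1 s18h9_Y = s18h9_yZ.map (Int.castRingHom ℂ) := by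
  have h3 : (3 : ℕ) ≠ 0 := by norm_num
  have h9 : (9 : ℕ) ≠ 0 := by norm_num
  ext n
  rw [s18h9_Y, ((s16e_isNice h9).sub (s16e_isNice h3)).qExpansion_smul,
    (s16e_isNice h9).qExpansion_sub (s16e_isNice h3), PowerSeries.coeff_smul, map_sub,
    s16e_coeff h9, s16e_coeff h3, PowerSeries.coeff_map, s18h9_yZ,
    PowerSeries.coeff_mk, s18h9_fy]
  by_cases h0 : n = 0
  · subst h0
    simp
    norm_num
  · rw [if_neg h0, if_neg h0, if_neg h0]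
    by_cases hd : 3 ∣ n
    · rw [if_pos hd, if_pos hd]
      by_cases hd9 : 9 ∣ n
      · rw [if_pos hd9, if_pos hd9]
        simp
        ring
      · rw [if_neg hd9, if_neg hd9]
        simp
        ring
    · have hd9 : ¬ 9 ∣ n := fun h => hd (dvd_trans (by norm_num) h)
      rw [if_neg hd, if_neg hd, if_neg hd9, if_neg hd9]
      simp

theorem s18h9_qExp_E4 : qExpansion 1 (E₄ : ℍ → ℂ) = s18h9_e4Z.map (Int.castRingHom ℂ) := by
  rw [s16as_qExp_E4]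
  congr 1
  ext n
  rw [s18h9_e4Z, PowerSeries.coeff_mk, s18h9_f4, map_add, PowerSeries.coeff_C_mul,
    PowerSeries.coeff_one, s16as_coeff_S]
  by_cases h0 : n = 0
  · subst h0
    simp
  · rw [if_neg h0, if_neg h0, zero_add]

theorem s18h9_jet_xZ : s18h9_jet 9 s18h9_xZ = [1, 12, 36, 12, 84, 72, 36, 96, 180] := by
  rw [s18h9_xZ, s18h9_jet_mk]
  decide +kernel

theorem s18h9_jet_yZ : s18h9_jet 9 s18h9_yZ = [1, 0, 0, 12, 0, 0, 36, 0, 0] := by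
  rw [s18h9_yZ, s18h9_jet_mk]
  decide +kernel

theorem s18h9_jet_e4Z :
    s18h9_jet 9 s18h9_e4Z = [1, 240, 2160, 6720, 17520, 30240, 60480, 82560, 140400] := by
  rw [s18h9_e4Z, s18h9_jet_mk]
  decide +kernel


/-! ### Integral `q`-expansions -/

/-- `f` is nice with the integral `q`-expansion `a`. -/
def s18h9_QZ (f : ℍ → ℂ) (a : PowerSeries ℤ) : Prop :=
  IsNice f ∧ qExpansion 1 f = a.map (Int.castRingHom ℂ)

namespace s18h9_QZ

variable {f g : ℍ → ℂ} {a b : PowerSeries ℤ}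

theorem mul (hf : s18h9_QZ f a) (hg : s18h9_QZ g b) : s18h9_QZ (f * g) (a * b) :=
  ⟨hf.1.mul hg.1, by rw [hf.1.qExpansion_mul hg.1, hf.2, hg.2, map_mul]⟩

theorem add (hf : s18h9_QZ f a) (hg : s18h9_QZ g b) : s18h9_QZ (f + g) (a + b) :=
  ⟨hf.1.add hg.1, by rw [hf.1.qExpansion_add hg.1, hf.2, hg.2, map_add]⟩

theorem sub (hf : s18h9_QZ f a) (hg : s18h9_QZ g b) : s18h9_QZ (f - g) (a - b) :=
  ⟨hf.1.sub hg.1, by rw [hf.1.qExpansion_sub hg.1, hf.2, hg.2, map_sub]⟩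

theorem smul (c : ℤ) (hf : s18h9_QZ f a) : s18h9_QZ ((c : ℂ) • f) (PowerSeries.C c * a) := by
  refine ⟨hf.1.smul _, ?_⟩
  rw [hf.1.qExpansion_smul, hf.2, map_mul]
  ext n
  rw [PowerSeries.coeff_smul, PowerSeries.map_C, PowerSeries.coeff_C_mul]
  simp

end s18h9_QZ

theorem s18h9_QZ_X : s18h9_QZ s18h9_X s18h9_xZ := ⟨s18h9_X_isMF.isNice_G0, s18h9_qExp_X⟩
theorem s18h9_QZ_Y : s18h9_QZ s18h9_Y s18h9_yZ := ⟨s18h9_Y_isMF.isNice_G0, s18h9_qExp_Y⟩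
theorem s18h9_QZ_E4 : s18h9_QZ (E₄ : ℍ → ℂ) s18h9_e4Z := ⟨isNice_E4, s18h9_qExp_E4⟩

/-! ### The identity -/

/-- `W = 10 X² + 27 X Y - E₄`. -/
def s18h9_W : ℍ → ℂ :=
  ((10 : ℤ) : ℂ) • (s18h9_X * s18h9_X) + ((27 : ℤ) : ℂ) • (s18h9_X * s18h9_Y) - (E₄ : ℍ → ℂ)

/-- `V = 3 Y + X`. -/
def s18h9_V : ℍ → ℂ := ((3 : ℤ) : ℂ) • s18h9_Y + s18h9_X

/-- `W² - 81 X Y V²`. -/
def s18h9_F : ℍ → ℂ :=
  s18h9_W * s18h9_W - ((81 : ℤ) : ℂ) • ((s18h9_X * s18h9_Y) * (s18h9_V * s18h9_V))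

def s18h9_wZ : PowerSeries ℤ :=
  PowerSeries.C 10 * (s18h9_xZ * s18h9_xZ) + PowerSeries.C 27 * (s18h9_xZ * s18h9_yZ) - s18h9_e4Z

def s18h9_vZ : PowerSeries ℤ := PowerSeries.C 3 * s18h9_yZ + s18h9_xZ

def s18h9_fZ : PowerSeries ℤ :=
  s18h9_wZ * s18h9_wZ - PowerSeries.C 81 * ((s18h9_xZ * s18h9_yZ) * (s18h9_vZ * s18h9_vZ))

theorem s18h9_QZ_W : s18h9_QZ s18h9_W s18h9_wZ :=
  (((s18h9_QZ_X.mul s18h9_QZ_X).smul 10).add ((s18h9_QZ_X.mul s18h9_QZ_Y).smul 27)).sub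
    s18h9_QZ_E4

theorem s18h9_QZ_V : s18h9_QZ s18h9_V s18h9_vZ := (s18h9_QZ_Y.smul 3).add s18h9_QZ_X

theorem s18h9_QZ_F : s18h9_QZ s18h9_F s18h9_fZ :=
  (s18h9_QZ_W.mul s18h9_QZ_W).sub
    (((s18h9_QZ_X.mul s18h9_QZ_Y).mul (s18h9_QZ_V.mul s18h9_QZ_V)).smul 81)

theorem s18h9_W_isMF : IsMF (G0 9) 4 s18h9_W := by
  have hE4 : IsMF (G0 9) 4 (E₄ : ℍ → ℂ) := isMF_E4.restrict_G0 9
  have h1 : IsMF (G0 9) 4 (s18h9_X * s18h9_X) := (s18h9_X_isMF.mul s18h9_X_isMF).cast (by norm_num)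
  have h2 : IsMF (G0 9) 4 (s18h9_X * s18h9_Y) := (s18h9_X_isMF.mul s18h9_Y_isMF).cast (by norm_num)
  exact ((h1.smul _).add (h2.smul _)).sub hE4

theorem s18h9_V_isMF : IsMF (G0 9) 2 s18h9_V := (s18h9_Y_isMF.smul _).add s18h9_X_isMF

theorem s18h9_F_isMF : IsMF (G0 9) 8 s18h9_F := by
  have h1 : IsMF (G0 9) 8 (s18h9_W * s18h9_W) := (s18h9_W_isMF.mul s18h9_W_isMF).cast (by norm_num)
  have h2 : IsMF (G0 9) 4 (s18h9_X * s18h9_Y) := (s18h9_X_isMF.mul s18h9_Y_isMF).cast (by norm_num)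
  have h3 : IsMF (G0 9) 4 (s18h9_V * s18h9_V) := (s18h9_V_isMF.mul s18h9_V_isMF).cast (by norm_num)
  have h4 : IsMF (G0 9) 8 ((s18h9_X * s18h9_Y) * (s18h9_V * s18h9_V)) :=
    (h2.mul h3).cast (by norm_num)
  exact h1.sub (h4.smul _)

theorem s18h9_jet_fZ : s18h9_jet 9 s18h9_fZ = List.replicate 9 0 := by
  simp only [s18h9_fZ, s18h9_wZ, s18h9_vZ, s18h9_jet_mul, s18h9_jet_add, s18h9_jet_sub,
    s18h9_jet_C, s18h9_jet_xZ, s18h9_jet_yZ, s18h9_jet_e4Z]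
  decide +kernel

theorem s18h9_index_nine : (CongruenceSubgroup.Gamma0 9).index = 12 := by
  have h := Fermat.Agent.S24.Comb.card_X 9 (by norm_num)
  have h3 : ModularCurve.dedekindPsi 9 = 12 := by
    have := Fermat.Agent.S24.Comb.dedekindPsi_prime_pow Nat.prime_three 1
    simpa using this
  rw [h3] at h
  exact h

theorem s18h9_sturm_nine :
    ((8 : ℤ) * ((CongruenceSubgroup.Gamma0 9).index : ℤ)).toNat / 12 = 8 := by
  rw [s18h9_index_nine]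
  rfl

/-- **The weight-8 identity at level `Γ₀(9)`**: `(10 X² + 27 X Y - E₄)² = 81 X Y (3 Y + X)²`. -/
theorem s18h9_F_eq_zero : s18h9_F = 0 := by
  obtain ⟨F, hF⟩ := s18h9_F_isMF
  have hzero : F = 0 := by
    apply ModularForm.sturm_bound_Gamma0 9 F
    intro n hn
    rw [s18h9_sturm_nine] at hn
    rw [hF, s18h9_QZ_F.2, PowerSeries.coeff_map,
      s18h9_coeff_eq_zero_of_jet 9 _ s18h9_jet_fZ n (by omega)]
    simp
  rw [← hF, hzero]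
  rfl

end Fermat.Agent.S18
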