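/-
S18, package (M6) [HAUPT-9] (helper4): THE HAUPTMODUL OF LEVEL `9` IN `ℚ((q))`.  Prefix `s18h9_`.

With `g, y, e4, e6` the `q`-expansions of `X, Y, E₄, E₆`:
`T := 9 (7 g² + 18 g y - e4) / (e4 - g²) = q⁻¹ - 3 + 5 q² - 7 q⁵ + …` (`= η(z)³/η(9z)³`)
* lies in `ℚ(j(q), j(q³), j(q⁹))` (the `q`-expansion principle `s16i_mem_full`),
* satisfies `j T⁹ (T² + 9 T + 27) = ((T + 9)(T³ + 243 T² + 2187 T + 6561))³`.
-/
import Mathlib
import Fermat.Agent.S18.ModelDefs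
import Fermat.Agent.S18.Haupt4
import Fermat.Agent.S18.Haupt9Id
import Fermat.Agent.S18.Haupt9Alg
import Fermat.Agent.S16.FormChart
import Fermat.Agent.S16.C22Data
import Fermat.Agent.S16.TauModThree

set_option autoImplicit false

noncomputable section

namespace Fermat.Agent.S18

open UpperHalfPlane ModularFormClass CongruenceSubgroup Matrix.SpecialLinearGroup
open Fermat.Agent.S22 Fermat.Agent.S16 Fermat.Agent.S24 Fermat.Agent.S28
open ModularForm EisensteinSeries ModularCurve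
open scoped MatrixGroups ModularForm Manifold

local notation "Δ" => ModularForm.discriminant

/-! ### From integral `q`-expansions to rational Laurent expansions -/

theorem s18h9_QZ.HL {f : ℍ → ℂ} {a : PowerSeries ℤ} (h : s18h9_QZ f a) :
    s16q_HL (s18h4_ser a) f :=
  s18h4_HL_of_coeff h.1 a (fun n => by rw [h.2, PowerSeries.coeff_map]; simp)

theorem s18h9_ser_injective : Function.Injective s18h4_ser := by
  intro a b h
  rw [s18h4_ser_apply, s18h4_ser_apply] at h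
  exact HahnSeries.ofPowerSeries_injective (s18h4_coeffMap_injective h)

theorem s18h9_charZero : CharZero (LaurentSeries ℚ) :=
  charZero_of_injective_algebraMap (algebraMap ℚ (LaurentSeries ℚ)).injective

/-- The integral `q`-expansion of `E₆`. -/
def s18h9_e6Z : PowerSeries ℤ := 1 + PowerSeries.C (-504) * s16as_S 5

theorem s18h9_QZ_E6 : s18h9_QZ (E₆ : ℍ → ℂ) s18h9_e6Z := ⟨isNice_E6, s16as_qExp_E6⟩

/-- `X` in `ℚ((q))`. -/
def s18h9_g : LaurentSeries ℚ := s18h4_ser s18h9_xZ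

/-- `Y` in `ℚ((q))`. -/
def s18h9_y : LaurentSeries ℚ := s18h4_ser s18h9_yZ

/-- `E₄` in `ℚ((q))`. -/
def s18h9_e4 : LaurentSeries ℚ := s18h4_ser s18h9_e4Z

/-- `E₆` in `ℚ((q))`. -/
def s18h9_e6 : LaurentSeries ℚ := s18h4_ser s18h9_e6Z

theorem s18h9_xZ_coeff_zero : PowerSeries.coeff 0 s18h9_xZ = 1 := by
  rw [s18h9_xZ, PowerSeries.coeff_mk, s18h9_fx, if_pos rfl]

theorem s18h9_e4Z_coeff_zero : PowerSeries.coeff 0 s18h9_e4Z = 1 := by
  rw [s18h9_e4Z, PowerSeries.coeff_mk, s18h9_f4, if_pos rfl]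

theorem s18h9_g_ne_zero : s18h9_g ≠ 0 := by
  intro h
  have h1 : s18h9_xZ = 0 := s18h9_ser_injective (by rw [← s18h9_g, h, map_zero])
  have h2 := s18h9_xZ_coeff_zero
  rw [h1] at h2
  simp at h2

theorem s18h9_e4_ne_zero : s18h9_e4 ≠ 0 := by
  intro h
  have h1 : s18h9_e4Z = 0 := s18h9_ser_injective (by rw [← s18h9_e4, h, map_zero])
  have h2 := s18h9_e4Z_coeff_zero
  rw [h1] at h2
  simp at h2

/-- The level-3 data in `ℚ((q))`. -/
theorem s18h9_data : s16l_Data s18h9_g s18h9_e4 s18h9_e6 umem_deltaQ jq where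
  id8 := s16c22d_id8 s16c22_G s16c22_G_isMF s16c22_G_J3 s18h9_QZ_X.HL s18h9_QZ_E4.HL
    s18h9_QZ_E6.HL
  del := s16c22d_del s18h9_QZ_E4.HL s18h9_QZ_E6.HL
  jd := s16c22d_jd s18h9_QZ_E4.HL
  g0 := s18h9_g_ne_zero
  δ0 := umem_deltaQ_ne_zero

/-- The identity of weight `8` and level `9` in `ℤ⟦q⟧`. -/
theorem s18h9_fZ_eq_zero : s18h9_fZ = 0 := by
  apply s16as_map_injective
  rw [← s18h9_QZ_F.2, s18h9_F_eq_zero, map_zero]
  exact UpperHalfPlane.qExpansion_zero 1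

/-- The identity of weight `8` and level `9` in `ℚ((q))`. -/
theorem s18h9_id9 :
    (10 * s18h9_g ^ 2 + 27 * s18h9_g * s18h9_y - s18h9_e4) ^ 2 =
      81 * (s18h9_g * s18h9_y) * (3 * s18h9_y + s18h9_g) ^ 2 := by
  have h := congrArg s18h4_ser s18h9_fZ_eq_zero
  rw [s18h9_fZ, s18h9_wZ, s18h9_vZ] at h
  simp only [map_sub, map_add, map_mul, map_zero, map_ofNat] at h
  rw [s18h9_g, s18h9_y, s18h9_e4]
  linear_combination h

/-! ### The numerator and the denominator of the Hauptmodul -/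

/-- The form `E₄ - X²` of weight `4`. -/
def s18h9_dF : ℍ → ℂ := (E₄ : ℍ → ℂ) - s18h9_X * s18h9_X

/-- The form `9 (7 X² + 18 X Y - E₄)` of weight `4`. -/
def s18h9_nF : ℍ → ℂ :=
  ((9 : ℤ) : ℂ) • (((7 : ℤ) : ℂ) • (s18h9_X * s18h9_X) + ((18 : ℤ) : ℂ) • (s18h9_X * s18h9_Y)
    - (E₄ : ℍ → ℂ))

def s18h9_dZ : PowerSeries ℤ := s18h9_e4Z - s18h9_xZ * s18h9_xZ

def s18h9_nZ : PowerSeries ℤ :=
  PowerSeries.C 9 * (PowerSeries.C 7 * (s18h9_xZ * s18h9_xZ)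
    + PowerSeries.C 18 * (s18h9_xZ * s18h9_yZ) - s18h9_e4Z)

theorem s18h9_QZ_dF : s18h9_QZ s18h9_dF s18h9_dZ := s18h9_QZ_E4.sub (s18h9_QZ_X.mul s18h9_QZ_X)

theorem s18h9_QZ_nF : s18h9_QZ s18h9_nF s18h9_nZ :=
  ((((s18h9_QZ_X.mul s18h9_QZ_X).smul 7).add ((s18h9_QZ_X.mul s18h9_QZ_Y).smul 18)).sub
    s18h9_QZ_E4).smul 9

theorem s18h9_E4_isMF : IsMF (G0 9) 4 (E₄ : ℍ → ℂ) := isMF_E4.restrict_G0 9

theorem s18h9_dF_isMF : IsMF (G0 9) 4 s18h9_dF :=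
  s18h9_E4_isMF.sub ((s18h9_X_isMF.mul s18h9_X_isMF).cast (by norm_num))

theorem s18h9_nF_isMF : IsMF (G0 9) 4 s18h9_nF :=
  (((((s18h9_X_isMF.mul s18h9_X_isMF).cast (by norm_num)).smul _).add
    (((s18h9_X_isMF.mul s18h9_Y_isMF).cast (by norm_num)).smul _)).sub s18h9_E4_isMF).smul _

/-- A form of weight `4` with integral `q`-expansion `a` gives the element
`a e4² / Δ` of the function field of level `9`. -/
theorem s18h9_mem_of_wt4 {f : ℍ → ℂ} {a : PowerSeries ℤ} (hf : IsMF (G0 9) 4 f)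
    (ha : s18h9_QZ f a) :
    s18h4_ser a * (s18h9_e4 * s18h9_e4) * umem_deltaQ⁻¹ ∈ modularFunctionFieldFull 9 := by
  have h12 : IsMF (G0 9) 12 (f * ((E₄ : ℍ → ℂ) * (E₄ : ℍ → ℂ))) :=
    (hf.mul ((s18h9_E4_isMF.mul s18h9_E4_isMF).cast (by norm_num : (4 : ℤ) + 4 = 8))).cast
      (by norm_num)
  have hL : s16q_HL (s18h4_ser a * (s18h9_e4 * s18h9_e4) * umem_deltaQ⁻¹)
      (fun z => (f * ((E₄ : ℍ → ℂ) * (E₄ : ℍ → ℂ))) z / Δ z) := by
    have h := (ha.HL.mul (s18h9_QZ_E4.HL.mul s18h9_QZ_E4.HL)).mul s16q_HL.disc_inv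
    refine h.congr ?_
    funext z
    simp [div_eq_mul_inv]
  exact s16i_mem_full 9 (s16f_isModFun 9 h12) _ hL

/-- **The Hauptmodul of level `9` in `ℚ((q))`.** -/
def s18h9_TQ : LaurentSeries ℚ := s18h4_ser s18h9_nZ / s18h4_ser s18h9_dZ

theorem s18h9_ser_dZ : s18h4_ser s18h9_dZ = s18h9_e4 - s18h9_g ^ 2 := by
  rw [s18h9_dZ, map_sub, map_mul, s18h9_e4, s18h9_g]
  ring

theorem s18h9_ser_nZ :
    s18h4_ser s18h9_nZ = 9 * (7 * s18h9_g ^ 2 + 18 * s18h9_g * s18h9_y - s18h9_e4) := by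
  rw [s18h9_nZ]
  simp only [map_sub, map_add, map_mul, map_ofNat]
  rw [s18h9_e4, s18h9_g, s18h9_y]
  ring

theorem s18h9_ser_dZ_ne_zero : s18h4_ser s18h9_dZ ≠ 0 := by
  have := s18h9_charZero
  rw [s18h9_ser_dZ]
  intro h
  apply s18h9_data.x_ne_zero
  rw [s16l_x, h, zero_div]

theorem s18h9_dZ_ne_zero : s18h9_dZ ≠ 0 := by
  intro h
  apply s18h9_ser_dZ_ne_zero
  rw [h, map_zero]

theorem s18h9_TQ_mul : s18h9_TQ * s18h4_ser s18h9_dZ = s18h4_ser s18h9_nZ :=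
  div_mul_cancel₀ _ s18h9_ser_dZ_ne_zero

/-- **The Hauptmodul lies in the function field of level `9`.** -/
theorem s18h9_TQ_mem : s18h9_TQ ∈ modularFunctionFieldFull 9 := by
  have hn := s18h9_mem_of_wt4 s18h9_nF_isMF s18h9_QZ_nF
  have hd := s18h9_mem_of_wt4 s18h9_dF_isMF s18h9_QZ_dF
  have e : s18h9_TQ = (s18h4_ser s18h9_nZ * (s18h9_e4 * s18h9_e4) * umem_deltaQ⁻¹) /
      (s18h4_ser s18h9_dZ * (s18h9_e4 * s18h9_e4) * umem_deltaQ⁻¹) := by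
    have h1 := s18h9_ser_dZ_ne_zero
    have h2 := s18h9_e4_ne_zero
    have h3 := umem_deltaQ_ne_zero
    rw [s18h9_TQ]
    field_simp
  rw [e]
  exact div_mem hn hd

/-- **`j T⁹ (T² + 9 T + 27) = ((T + 9)(T³ + 243 T² + 2187 T + 6561))³` in `ℚ((q))`.** -/
theorem s18h9_relQ :
    jq * (s18h9_TQ ^ 9 * (s18h9_TQ ^ 2 + 9 * s18h9_TQ + 27)) =
      ((s18h9_TQ + 9) * (s18h9_TQ ^ 3 + 243 * s18h9_TQ ^ 2 + 2187 * s18h9_TQ + 6561)) ^ 3 := by
  have := s18h9_charZero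
  have D := s18h9_data
  have hD : s18h9_e4 - s18h9_g ^ 2 ≠ 0 := by
    rw [← s18h9_ser_dZ]; exact s18h9_ser_dZ_ne_zero
  have hg := s18h9_g_ne_zero
  have hx : s16l_x s18h9_g s18h9_e4 * (8 * s18h9_g ^ 2) = s18h9_e4 - s18h9_g ^ 2 := by
    unfold s16l_x
    field_simp
  have hδ : 27 * umem_deltaQ * (8 * s18h9_g ^ 2) ^ 4 =
      s18h9_g ^ 6 * (s18h9_e4 - s18h9_g ^ 2) * (9 * s18h9_g ^ 2 - s18h9_e4) ^ 3 := by
    have h1 := D.delta_eq
    have h2 : 9 * s18h9_g ^ 2 - s18h9_e4 =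
        (1 - s16l_x s18h9_g s18h9_e4) * (8 * s18h9_g ^ 2) := by
      linear_combination hx
    rw [h2, ← hx]
    generalize s16l_x s18h9_g s18h9_e4 = x at h1
    linear_combination (8 * s18h9_g ^ 2) ^ 4 * h1
  refine s18h9_alg s18h9_g s18h9_y s18h9_e4 umem_deltaQ jq s18h9_TQ hg hD s18h9_id9 hδ D.jd ?_
  rw [← s18h9_ser_dZ, ← s18h9_ser_nZ]
  exact s18h9_TQ_mul

end Fermat.Agent.S18
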