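/-
S18, package (M6) [HAUPT-9] (helper4): INTEGRALITY OF THE HAUPTMODUL.  Prefix `s18h9_`.

`T = 9 (7 g² + 18 g y - e4) / (e4 - g²) ∈ ℚ((q))` is a root of the monic polynomial
`P - j Q ∈ ℤ((q))[X]` and a quotient of two elements of `ℤ((q))`; as `ℤ((q))` is integrally
closed (a localisation of `ℤ⟦q⟧`), `T ∈ ℤ((q))`.  Its order and leading coefficient are read off
from `T (e4 - g²) = 9 (7 g² + 18 g y - e4)`.
-/
import Mathlib
import Fermat.Agent.S18.ModelDefs
import Fermat.Agent.S18.Haupt9Poly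
import Fermat.Agent.S18.Haupt9Ser
import Fermat.Agent.S22.BD

set_option autoImplicit false

noncomputable section

namespace Fermat.Agent.S18

open Fermat.Agent.S22 Fermat.Agent.S16 Fermat.Agent.S24 Fermat.Agent.S28 ModularCurve

/-- `ℤ((q))` is integrally closed. -/
theorem s18h9_icLaurent : IsIntegrallyClosed (LaurentSeries ℤ) :=
  isIntegrallyClosed_of_isLocalization (R := PowerSeries ℤ) (S := LaurentSeries ℤ)
    (Submonoid.powers (PowerSeries.X : PowerSeries ℤ))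
    (by
      intro x hx
      obtain ⟨n, rfl⟩ := hx
      exact mem_nonZeroDivisors_of_ne_zero (pow_ne_zero n PowerSeries.X_ne_zero))

theorem s18h9_coeffMap_jq : coeffMap (Int.castRingHom ℚ) (jqModC ℤ) = jq := by
  rw [← jqModC_rat]
  exact (jqModC_eq_map_intCast ℚ).symm

/-- **The Hauptmodul has integral coefficients.** -/
theorem s18h9_exists_int :
    ∃ t : LaurentSeries ℤ, coeffMap (Int.castRingHom ℚ) t = s18h9_TQ := by
  let _ : Algebra (LaurentSeries ℤ) (LaurentSeries ℚ) := (coeffMap (Int.castRingHom ℚ)).toAlgebra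
  have := s18h9_icLaurent
  have hinj : Function.Injective (algebraMap (LaurentSeries ℤ) (LaurentSeries ℚ)) :=
    s18h4_coeffMap_injective
  have hint : IsIntegral (LaurentSeries ℤ) s18h9_TQ := by
    refine ⟨s18h9p_P.map (algebraMap ℤ (LaurentSeries ℤ)) -
      Polynomial.C (jqModC ℤ) * s18h9p_Q.map (algebraMap ℤ (LaurentSeries ℤ)), ?_, ?_⟩
    · apply Polynomial.Monic.sub_of_left (s18h9p_P_monic.map _)
      apply Polynomial.degree_lt_degree
      calc (Polynomial.C (jqModC ℤ) * s18h9p_Q.map (algebraMap ℤ (LaurentSeries ℤ))).natDegree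
          ≤ (s18h9p_Q.map (algebraMap ℤ (LaurentSeries ℤ))).natDegree :=
            Polynomial.natDegree_C_mul_le _ _
        _ ≤ s18h9p_Q.natDegree := Polynomial.natDegree_map_le
        _ = 11 := s18h9p_Q_natDegree
        _ < 12 := by norm_num
        _ = (s18h9p_P.map (algebraMap ℤ (LaurentSeries ℤ))).natDegree := by
            rw [s18h9p_P_monic.natDegree_map, s18h9p_P_natDegree]
    · have hc : (algebraMap (LaurentSeries ℤ) (LaurentSeries ℚ)).comp
          (algebraMap ℤ (LaurentSeries ℤ)) = algebraMap ℤ (LaurentSeries ℚ) :=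
        RingHom.ext_int _ _
      have hj : algebraMap (LaurentSeries ℤ) (LaurentSeries ℚ) (jqModC ℤ) = jq :=
        s18h9_coeffMap_jq
      rw [Polynomial.eval₂_sub, Polynomial.eval₂_mul, Polynomial.eval₂_C, Polynomial.eval₂_map,
        Polynomial.eval₂_map, hc, ← Polynomial.aeval_def, ← Polynomial.aeval_def,
        s18h9p_aeval_P, s18h9p_aeval_Q, hj, sub_eq_zero]
      exact s18h9_relQ.symm
  have hab : s18h9_TQ * algebraMap (LaurentSeries ℤ) (LaurentSeries ℚ)
      (HahnSeries.ofPowerSeries ℤ ℤ s18h9_dZ) =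
      algebraMap (LaurentSeries ℤ) (LaurentSeries ℚ) (HahnSeries.ofPowerSeries ℤ ℤ s18h9_nZ) :=
    s18h9_TQ_mul
  have ha : HahnSeries.ofPowerSeries ℤ ℤ s18h9_dZ ≠ 0 := by
    intro h
    exact s18h9_dZ_ne_zero (HahnSeries.ofPowerSeries_injective (by rw [h, map_zero]))
  exact BD.exists_algebraMap_eq_of_isIntegral_of_mul_eq hinj hint ha hab

/-! ### Order and leading coefficient -/

theorem s18h9_order_eq {x : LaurentSeries ℤ} {k : ℤ} (hk : x.coeff k ≠ 0)
    (hlt : ∀ i : ℤ, i < k → x.coeff i = 0) : x.order = k := by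
  have hne : x ≠ 0 := by
    intro h
    rw [h] at hk
    simp at hk
  apply le_antisymm
  · exact HahnSeries.order_le_of_coeff_ne_zero hk
  · by_contra hlt'
    rw [not_le] at hlt'
    exact hne (HahnSeries.coeff_order_eq_zero.mp (hlt _ hlt'))

theorem s18h9_ofPS_coeff_zero (p : PowerSeries ℤ) :
    (HahnSeries.ofPowerSeries ℤ ℤ p).coeff 0 = PowerSeries.coeff 0 p := by
  rw [show (0 : ℤ) = ((0 : ℕ) : ℤ) from rfl, HahnSeries.ofPowerSeries_apply_coeff]

theorem s18h9_ofPS_coeff_one (p : PowerSeries ℤ) :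
    (HahnSeries.ofPowerSeries ℤ ℤ p).coeff 1 = PowerSeries.coeff 1 p := by
  rw [show (1 : ℤ) = ((1 : ℕ) : ℤ) from rfl, HahnSeries.ofPowerSeries_apply_coeff]

theorem s18h9_jet2_xZ : s18h9_jet 2 s18h9_xZ = [1, 12] := by
  rw [s18h9_xZ, s18h9_jet_mk]
  decide +kernel

theorem s18h9_jet2_yZ : s18h9_jet 2 s18h9_yZ = [1, 0] := by
  rw [s18h9_yZ, s18h9_jet_mk]
  decide +kernel

theorem s18h9_jet2_e4Z : s18h9_jet 2 s18h9_e4Z = [1, 240] := by
  rw [s18h9_e4Z, s18h9_jet_mk]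
  decide +kernel

theorem s18h9_jet2_dZ : s18h9_jet 2 s18h9_dZ = [0, 216] := by
  simp only [s18h9_dZ, s18h9_jet_mul, s18h9_jet_sub, s18h9_jet2_xZ, s18h9_jet2_e4Z]
  decide +kernel

theorem s18h9_jet2_nZ : s18h9_jet 2 s18h9_nZ = [216, 1296] := by
  simp only [s18h9_nZ, s18h9_jet_mul, s18h9_jet_sub, s18h9_jet_add, s18h9_jet_C,
    s18h9_jet2_xZ, s18h9_jet2_yZ, s18h9_jet2_e4Z]
  decide +kernel

theorem s18h9_dZ_coeff_zero : PowerSeries.coeff 0 s18h9_dZ = 0 := by
  rw [← s18h9_jet_getD 2 _ 0 (by norm_num), s18h9_jet2_dZ]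
  rfl

theorem s18h9_dZ_coeff_one : PowerSeries.coeff 1 s18h9_dZ = 216 := by
  rw [← s18h9_jet_getD 2 _ 1 (by norm_num), s18h9_jet2_dZ]
  rfl

theorem s18h9_nZ_coeff_zero : PowerSeries.coeff 0 s18h9_nZ = 216 := by
  rw [← s18h9_jet_getD 2 _ 0 (by norm_num), s18h9_jet2_nZ]
  rfl

theorem s18h9_order_dZ : (HahnSeries.ofPowerSeries ℤ ℤ s18h9_dZ).order = 1 := by
  apply s18h9_order_eq
  · rw [s18h9_ofPS_coeff_one, s18h9_dZ_coeff_one]
    norm_num
  · intro i hi
    rcases lt_or_eq_of_le (show i ≤ 0 by omega) with h | h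
    · exact ofPowerSeries_coeff_of_neg _ h
    · rw [h, s18h9_ofPS_coeff_zero, s18h9_dZ_coeff_zero]

theorem s18h9_order_nZ : (HahnSeries.ofPowerSeries ℤ ℤ s18h9_nZ).order = 0 := by
  apply s18h9_order_eq
  · rw [s18h9_ofPS_coeff_zero, s18h9_nZ_coeff_zero]
    norm_num
  · intro i hi
    exact ofPowerSeries_coeff_of_neg _ hi

/-- **The order and the leading coefficient** of an integral series `t` with
`t (e4 - g²) = 9 (7 g² + 18 g y - e4)`. -/
theorem s18h9_order_lead (t : LaurentSeries ℤ)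
    (h : t * HahnSeries.ofPowerSeries ℤ ℤ s18h9_dZ = HahnSeries.ofPowerSeries ℤ ℤ s18h9_nZ) :
    t.order = -1 ∧ t.coeff (-1) = 1 := by
  have hn0 : HahnSeries.ofPowerSeries ℤ ℤ s18h9_nZ ≠ 0 := by
    intro h0
    have h1 := s18h9_ofPS_coeff_zero s18h9_nZ
    rw [h0, s18h9_nZ_coeff_zero] at h1
    simp at h1
  have hd0 : HahnSeries.ofPowerSeries ℤ ℤ s18h9_dZ ≠ 0 := by
    intro h0
    have h1 := s18h9_ofPS_coeff_one s18h9_dZ
    rw [h0, s18h9_dZ_coeff_one] at h1
    simp at h1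
  have ht0 : t ≠ 0 := by
    intro h0
    rw [h0, zero_mul] at h
    exact hn0 h.symm
  have ho := HahnSeries.order_mul ht0 hd0
  rw [h, s18h9_order_nZ, s18h9_order_dZ] at ho
  have hord : t.order = -1 := by omega
  refine ⟨hord, ?_⟩
  have hl := HahnSeries.leadingCoeff_mul t (HahnSeries.ofPowerSeries ℤ ℤ s18h9_dZ)
  rw [h, HahnSeries.leadingCoeff_eq, HahnSeries.leadingCoeff_eq, HahnSeries.leadingCoeff_eq,
    s18h9_order_nZ, s18h9_order_dZ, hord, s18h9_ofPS_coeff_zero, s18h9_ofPS_coeff_one,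
    s18h9_nZ_coeff_zero, s18h9_dZ_coeff_one] at hl
  have h216 : (216 : ℤ) ≠ 0 := by norm_num
  apply mul_right_cancel₀ h216
  rw [one_mul]
  exact hl.symm

end Fermat.Agent.S18
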