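/-
S18, package (M6) [HAUPT-9] (helper4): THE HAUPTMODUL OF LEVEL `9`.  Prefix `s18h9_`.

`t = η(z)³/η(9z)³ = q⁻¹ - 3 + 5 q² - 7 q⁵ + … ∈ ℤ((q))` with
`j t⁹ (t² + 9 t + 27) = ((t + 9)(t³ + 243 t² + 2187 t + 6561))³`; the polynomial side is
`s18h9p_of'` (helper3, `S18/Haupt9Poly.lean`).
-/
import Mathlib
import Fermat.Agent.S18.ModelDefs
import Fermat.Agent.S18.Haupt9Poly
import Fermat.Agent.S18.Haupt9Int

set_option autoImplicit false

noncomputable section

namespace Fermat.Agent.S18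

open Fermat.Agent.S22 Fermat.Agent.S16 Fermat.Agent.S24 Fermat.Agent.S28 ModularCurve

/-- **The Hauptmodul of level `9` in `ℤ((q))`**, with all its properties. -/
theorem s18h9_exists :
    ∃ t : LaurentSeries ℤ, coeffMap (Int.castRingHom ℚ) t ∈ modularFunctionFieldFull 9 ∧
      t.order = -1 ∧ t.coeff (-1) = 1 ∧
      jqModC ℤ * (t ^ 9 * (t ^ 2 + 9 * t + 27)) =
        ((t + 9) * (t ^ 3 + 243 * t ^ 2 + 2187 * t + 6561)) ^ 3 := by
  obtain ⟨t, ht⟩ := s18h9_exists_int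
  have hmul : t * HahnSeries.ofPowerSeries ℤ ℤ s18h9_dZ =
      HahnSeries.ofPowerSeries ℤ ℤ s18h9_nZ := by
    apply s18h4_coeffMap_injective
    rw [map_mul, ht]
    exact s18h9_TQ_mul
  obtain ⟨hord, hlead⟩ := s18h9_order_lead t hmul
  refine ⟨t, ?_, hord, hlead, ?_⟩
  · rw [ht]
    exact s18h9_TQ_mem
  · apply s18h4_coeffMap_injective
    simp only [map_mul, map_pow, map_add, map_ofNat, ht, s18h9_coeffMap_jq]
    exact s18h9_relQ

/-- **[HAUPT-9]** -/
theorem s18h9_main : s18_Haupt9Statement := by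
  intro ℓ hℓ h3
  obtain ⟨t, hmem, hord, hlead, hj⟩ := s18h9_exists
  exact s18h9p_of' t hmem hord hlead hj ℓ h3

end Fermat.Agent.S18
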