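/-
S18, TOOLS FOR [KUMMER] (helper22).  Prefix `s18kt_`.  Generic valuation theory of places of
function fields over an algebraically closed constant field of characteristic `0`; no modular
vocabulary.

  * `s18kt_ball P n` : the additive subgroup `{x | x = 0 ∨ n ≤ ord_P x}`.
  * `s18kt_exists_residue` : an element of `O_P` whose `g`-th power is congruent to a constant is
    itself congruent to a constant (`k` algebraically closed).
  * `s18kt_approx` : if `τ ^ g = ψ u` with `u` a unit at `Q` (residue field `k`), then `τ` is a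
    `P`-adic limit of elements of `ψ(F)` (Newton iteration).
  * `s18kt_unr` ([D-UNR]) : hence `ord_P` takes on `ψ(F)[τ]` only values in `e₁ ℤ`.
-/
import Mathlib
import Fermat.Prelude.Def_AlgebraicCurve_DivisorClassGroup
import Fermat.Agent.S24.PlaceBasic

set_option autoImplicit false

open AlgebraicCurve Fermat.Agent.S24

noncomputable section

namespace Fermat.Agent.S18

variable {k F E : Type*} [Field k] [Field F] [Field E] [Algebra k F] [Algebra k E]

/-! ### Balls -/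

/-- `{x | x = 0 ∨ n ≤ ord_P x}`. -/
def s18kt_ball (P : Place k E) (n : ℤ) : AddSubgroup E where
  carrier := {x | x = 0 ∨ n ≤ P.ord x}
  zero_mem' := Or.inl rfl
  add_mem' := by
    rintro x y hx hy
    by_cases hx0 : x = 0
    · simpa [hx0] using hy
    by_cases hy0 : y = 0
    · simpa [hy0] using hx
    by_cases hxy : x + y = 0
    · exact Or.inl hxy
    right
    have h1 := place_ord_add_ge P hx0 hy0 hxy
    rcases hx with h | h
    · exact absurd h hx0
    rcases hy with h' | h'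
    · exact absurd h' hy0
    exact le_trans (le_min h h') h1
  neg_mem' := by
    rintro x hx
    rcases hx with h | h
    · left
      simp [h]
    · right
      rwa [place_ord_neg]

theorem s18kt_mem_ball (P : Place k E) (n : ℤ) (x : E) :
    x ∈ s18kt_ball P n ↔ x = 0 ∨ n ≤ P.ord x := Iff.rfl

theorem s18kt_mem_ball_iff (P : Place k E) (n : ℤ) {x : E} (hx : x ≠ 0) :
    x ∈ s18kt_ball P n ↔ n ≤ P.ord x := by
  rw [s18kt_mem_ball]
  exact ⟨fun h => h.resolve_left hx, Or.inr⟩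

theorem s18kt_ball_mono (P : Place k E) {n m : ℤ} (h : n ≤ m) {x : E}
    (hx : x ∈ s18kt_ball P m) : x ∈ s18kt_ball P n := by
  rcases hx with h0 | h1
  · exact Or.inl h0
  · exact Or.inr (h.trans h1)

theorem s18kt_ball_mul (P : Place k E) {n m : ℤ} {x y : E} (hx : x ∈ s18kt_ball P n)
    (hy : y ∈ s18kt_ball P m) : x * y ∈ s18kt_ball P (n + m) := by
  by_cases hx0 : x = 0
  · left
    rw [hx0, zero_mul]
  by_cases hy0 : y = 0
  · left
    rw [hy0, mul_zero]
  right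
  rw [P.ord_mul hx0 hy0]
  exact add_le_add (hx.resolve_left hx0) (hy.resolve_left hy0)

theorem s18kt_ball_one (P : Place k E) : (1 : E) ∈ s18kt_ball P 0 :=
  Or.inr (by rw [P.ord_one])

theorem s18kt_ball_pow (P : Place k E) {x : E} (hx : x ∈ s18kt_ball P 0) (i : ℕ) :
    x ^ i ∈ s18kt_ball P 0 := by
  induction i with
  | zero =>
    rw [pow_zero]
    exact s18kt_ball_one P
  | succ i ih =>
    rw [pow_succ]
    have := s18kt_ball_mul P ih hx
    rwa [add_zero] at this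

theorem s18kt_ball_mul_left (P : Place k E) {n : ℤ} {x y : E} (hx : x ∈ s18kt_ball P 0)
    (hy : y ∈ s18kt_ball P n) : x * y ∈ s18kt_ball P n := by
  have := s18kt_ball_mul P hx hy
  rwa [zero_add] at this

theorem s18kt_ball_mul_right (P : Place k E) {n : ℤ} {x y : E} (hx : x ∈ s18kt_ball P n)
    (hy : y ∈ s18kt_ball P 0) : x * y ∈ s18kt_ball P n := by
  have := s18kt_ball_mul P hx hy
  rwa [add_zero] at this

theorem s18kt_ball_zero_iff (P : Place k E) (x : E) :
    x ∈ s18kt_ball P 0 ↔ x ∈ P.toValuationSubring := by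
  rw [place_mem_iff, s18kt_mem_ball]
  constructor
  · rintro (h | h)
    · rw [h, P.ord_zero]
    · exact h
  · exact Or.inr

theorem s18kt_ball_one_iff (P : Place k E) (x : E) :
    x ∈ s18kt_ball P 1 ↔ x ∈ P.toValuationSubring.nonunits := by
  rw [place_mem_nonunits_iff', s18kt_mem_ball]
  constructor
  · rintro (h | h)
    · exact Or.inl h
    · exact Or.inr (by omega)
  · rintro (h | h)
    · exact Or.inl h
    · exact Or.inr (by omega)

theorem s18kt_algebraMap_mem_ball (P : Place k E) (c : k) :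
    algebraMap k E c ∈ s18kt_ball P 0 :=
  Or.inr (by rw [place_ord_algebraMap])

/-- An element of order `0` differs from anything in a ball of positive radius by an element of
order `0`. -/
theorem s18kt_ord_eq_zero_of_sub (P : Place k E) {τ Y : E} (hτ0 : τ ≠ 0) (hτ : P.ord τ = 0)
    {m : ℤ} (hm : 0 < m) (hd : τ - Y ∈ s18kt_ball P m) : Y ≠ 0 ∧ P.ord Y = 0 := by
  by_cases hd0 : τ - Y = 0
  · have : Y = τ := (sub_eq_zero.1 hd0).symm
    rw [this]
    exact ⟨hτ0, hτ⟩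
  have hd1 : m ≤ P.ord (τ - Y) := hd.resolve_left hd0
  have hY : Y = τ + -(τ - Y) := by ring
  have h1 : P.ord (τ + -(τ - Y)) = P.ord τ :=
    place_ord_add_eq_of_lt P hτ0 (neg_ne_zero.2 hd0) (by rw [place_ord_neg]; omega)
  have hY0 : Y ≠ 0 := by
    intro h
    rw [h, sub_zero] at hd1
    omega
  refine ⟨hY0, ?_⟩
  rw [hY, h1, hτ]

/-! ### Geometric sums -/

theorem s18kt_pow_sub_pow (P : Place k E) {x y : E} (hx : x ∈ s18kt_ball P 0)
    (hy : y ∈ s18kt_ball P 0) {n : ℤ} (hxy : x - y ∈ s18kt_ball P n) (i : ℕ) :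
    x ^ i - y ^ i ∈ s18kt_ball P n := by
  rw [← geom_sum₂_mul x y i]
  refine s18kt_ball_mul_left P ?_ hxy
  refine sum_mem fun j _ => ?_
  have := s18kt_ball_mul P (s18kt_ball_pow P hx j) (s18kt_ball_pow P hy (i - 1 - j))
  rwa [add_zero] at this

theorem s18kt_geom_sub (P : Place k E) {x y : E} (hx : x ∈ s18kt_ball P 0)
    (hy : y ∈ s18kt_ball P 0) {n : ℤ} (hxy : x - y ∈ s18kt_ball P n) (g : ℕ) (hg : 0 < g) :
    (∑ i ∈ Finset.range g, x ^ i * y ^ (g - 1 - i)) - (g : E) * y ^ (g - 1) ∈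
      s18kt_ball P n := by
  have h1 : (g : E) * y ^ (g - 1) = ∑ i ∈ Finset.range g, y ^ i * y ^ (g - 1 - i) := by
    rw [Finset.sum_congr rfl (fun i hi => by
      rw [← pow_add]
      have := Finset.mem_range.1 hi
      rw [show i + (g - 1 - i) = g - 1 by omega] :
        ∀ i ∈ Finset.range g, y ^ i * y ^ (g - 1 - i) = y ^ (g - 1))]
    rw [Finset.sum_const, Finset.card_range, nsmul_eq_mul]
  rw [h1, ← Finset.sum_sub_distrib]
  refine sum_mem fun i _ => ?_
  rw [← sub_mul]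
  exact s18kt_ball_mul_right P (s18kt_pow_sub_pow P hx hy hxy i) (s18kt_ball_pow P hy _)

omit [Algebra k F] in
/-- Evaluation of a polynomial is Lipschitz. -/
theorem s18kt_eval_sub (P : Place k E) (ψ : F →+* E) (G : Polynomial F) (B : ℤ)
    (hB : ∀ i, ψ (G.coeff i) ∈ s18kt_ball P (-B)) {x y : E} (hx : x ∈ s18kt_ball P 0)
    (hy : y ∈ s18kt_ball P 0) {n : ℤ} (hxy : x - y ∈ s18kt_ball P n) :
    G.eval₂ ψ x - G.eval₂ ψ y ∈ s18kt_ball P (-B + n) := by
  rw [Polynomial.eval₂_eq_sum_range, Polynomial.eval₂_eq_sum_range, ← Finset.sum_sub_distrib]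
  refine sum_mem fun i _ => ?_
  rw [← mul_sub]
  exact s18kt_ball_mul P (hB i) (s18kt_pow_sub_pow P hx hy hxy i)

omit [Algebra k F] in
/-- The coefficients of a polynomial are bounded. -/
theorem s18kt_exists_bound (P : Place k E) (ψ : F →+* E) (G : Polynomial F) :
    ∃ B : ℤ, ∀ i, ψ (G.coeff i) ∈ s18kt_ball P (-B) := by
  classical
  obtain ⟨B, hB⟩ := (Finset.image (fun i => -P.ord (ψ (G.coeff i))) G.support).exists_le
  refine ⟨B, fun i => ?_⟩
  by_cases hi : G.coeff i = 0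
  · left
    rw [hi, map_zero]
  right
  have := hB _ (Finset.mem_image.2 ⟨i, Polynomial.mem_support_iff.2 hi, rfl⟩)
  omega

/-! ### Residues -/

/-- Over an algebraically closed constant field: an element of `O_P` whose `g`-th power is
congruent to a constant modulo `𝔪_P` is itself congruent to a constant. -/
theorem s18kt_exists_residue [IsAlgClosed k] (P : Place k E) (τ : E) (g : ℕ) (hg : 0 < g)
    (c₀ : k) (hτ : τ ∈ P.toValuationSubring)
    (h : τ ^ g - algebraMap k E c₀ ∈ P.toValuationSubring.nonunits) :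
    ∃ c : k, τ - algebraMap k E c ∈ P.toValuationSubring.nonunits := by
  have hx : (IsLocalRing.residue P.toValuationSubring ⟨τ, hτ⟩) ^ g =
      algebraMap k (IsLocalRing.ResidueField P.toValuationSubring) c₀ := by
    rw [ValuationSubring.mem_nonunits_iff_exists_mem_maximalIdeal] at h
    obtain ⟨h1, h2⟩ := h
    have h3 : IsLocalRing.residue P.toValuationSubring ⟨τ ^ g - algebraMap k E c₀, h1⟩ = 0 :=
      (IsLocalRing.residue_eq_zero_iff _).2 h2
    have h4 : (⟨τ ^ g - algebraMap k E c₀, h1⟩ : P.toValuationSubring) =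
        ⟨τ, hτ⟩ ^ g - algebraMap k P.toValuationSubring c₀ := Subtype.ext rfl
    rw [h4, map_sub, map_pow, sub_eq_zero] at h3
    rw [h3]
    rfl
  have hint : IsIntegral k (IsLocalRing.residue P.toValuationSubring ⟨τ, hτ⟩) := by
    refine IsIntegral.of_pow hg ?_
    rw [hx]
    exact isIntegral_algebraMap
  have hdeg := IsAlgClosed.degree_eq_one_of_irreducible k (minpoly.irreducible hint)
  obtain ⟨c, hc⟩ := minpoly.degree_eq_one_iff.1 hdeg
  refine ⟨c, ?_⟩
  rw [ValuationSubring.mem_nonunits_iff_exists_mem_maximalIdeal]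
  refine ⟨sub_mem hτ (P.algebraMap_mem' c), ?_⟩
  rw [← IsLocalRing.residue_eq_zero_iff]
  have h5 : (⟨τ - algebraMap k E c, sub_mem hτ (P.algebraMap_mem' c)⟩ : P.toValuationSubring) =
      ⟨τ, hτ⟩ - algebraMap k P.toValuationSubring c := Subtype.ext rfl
  rw [h5, map_sub, sub_eq_zero, ← hc]
  rfl

/-! ### Newton iteration -/

/-- One Newton step for `X ^ g - τ ^ g` at an approximation `Y` of `τ`. -/
theorem s18kt_newton [CharZero k] (P : Place k E) (τ Y : E) (g : ℕ) (hg : 0 < g)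
    (hτ0 : τ ≠ 0) (hτ : P.ord τ = 0) (m : ℤ) (hm : 0 < m) (hd : τ - Y ∈ s18kt_ball P m) :
    τ - (Y + (τ ^ g - Y ^ g) / ((g : E) * Y ^ (g - 1))) ∈ s18kt_ball P (m + m) := by
  obtain ⟨hY0, hY⟩ := s18kt_ord_eq_zero_of_sub P hτ0 hτ hm hd
  have hτb : τ ∈ s18kt_ball P 0 := Or.inr hτ.ge
  have hYb : Y ∈ s18kt_ball P 0 := Or.inr hY.ge
  have hgE : (g : E) = algebraMap k E (g : k) := by rw [map_natCast]
  have hg0 : (g : E) ≠ 0 := by
    rw [hgE]
    exact (map_ne_zero _).2 (Nat.cast_ne_zero.2 hg.ne')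
  have hD0 : (g : E) * Y ^ (g - 1) ≠ 0 := mul_ne_zero hg0 (pow_ne_zero _ hY0)
  have hDord : P.ord ((g : E) * Y ^ (g - 1)) = 0 := by
    rw [P.ord_mul hg0 (pow_ne_zero _ hY0), hgE, place_ord_algebraMap, place_ord_pow, hY]
    ring
  have hDinv : ((g : E) * Y ^ (g - 1))⁻¹ ∈ s18kt_ball P 0 :=
    Or.inr (by rw [P.ord_inv, hDord, neg_zero])
  have hr := s18kt_geom_sub P hτb hYb hd g hg
  have hkey : τ - (Y + (τ ^ g - Y ^ g) / ((g : E) * Y ^ (g - 1))) =
      -(((∑ i ∈ Finset.range g, τ ^ i * Y ^ (g - 1 - i)) - (g : E) * Y ^ (g - 1)) * (τ - Y) *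
        ((g : E) * Y ^ (g - 1))⁻¹) := by
    rw [← geom_sum₂_mul τ Y g]
    field_simp
    ring
  rw [hkey]
  exact neg_mem (s18kt_ball_mul_right P (s18kt_ball_mul P hr hd) hDinv)

/-- A root of a unit has order `0`. -/
theorem s18kt_ord_root (ψ : F →ₐ[k] E) (Q : Place k F) (P : Place k E) (e₁ : ℕ)
    (hPQ : ∀ f : F, P.ord (ψ f) = (e₁ : ℤ) * Q.ord f) (τ : E) (g : ℕ) (hg : 0 < g) (u : F)
    (hu0 : u ≠ 0) (hu : Q.ord u = 0) (hτ : τ ^ g = ψ u) : τ ≠ 0 ∧ P.ord τ = 0 := by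
  have hτ0 : τ ≠ 0 := by
    intro h
    rw [h, zero_pow hg.ne'] at hτ
    exact hu0 ((map_eq_zero ψ).1 hτ.symm)
  refine ⟨hτ0, ?_⟩
  have h1 : P.ord (τ ^ g) = 0 := by rw [hτ, hPQ, hu, mul_zero]
  rw [place_ord_pow] at h1
  rcases mul_eq_zero.1 h1 with h | h
  · exact absurd (by exact_mod_cast h) hg.ne'
  · exact h

/-- **Newton approximation**: if `τ ^ g = ψ u` with `u` a unit at `Q` and the residue field of
`Q` is `k` (algebraically closed of characteristic `0`), then `τ` is a `P`-adic limit of elements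
of `ψ(F)`. -/
theorem s18kt_approx [IsAlgClosed k] [CharZero k] (ψ : F →ₐ[k] E) (Q : Place k F)
    (P : Place k E) (e₁ : ℕ) (he₁ : 0 < e₁)
    (hPQ : ∀ f : F, P.ord (ψ f) = (e₁ : ℤ) * Q.ord f)
    (hres : ∀ x ∈ Q.toValuationSubring,
      ∃ c : k, x - algebraMap k F c ∈ Q.toValuationSubring.nonunits)
    (τ : E) (g : ℕ) (hg : 0 < g) (u : F) (hu0 : u ≠ 0) (hu : Q.ord u = 0) (hτ : τ ^ g = ψ u)
    (n : ℕ) : ∃ y : F, τ - ψ y ∈ s18kt_ball P ((n : ℤ) + 1) := by
  obtain ⟨hτ0, hτord⟩ := s18kt_ord_root ψ Q P e₁ hPQ τ g hg u hu0 hu hτ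
  induction n with
  | zero =>
    obtain ⟨c₀, hc₀⟩ := hres u (place_mem_of_ord_nonneg Q hu.ge)
    have h1 : τ ^ g - algebraMap k E c₀ ∈ P.toValuationSubring.nonunits := by
      rw [hτ, ← ψ.commutes c₀, ← map_sub, place_mem_nonunits_iff']
      rw [place_mem_nonunits_iff'] at hc₀
      rcases hc₀ with h | h
      · left
        rw [h, map_zero]
      · right
        rw [hPQ]
        exact mul_pos (by exact_mod_cast he₁) h
    obtain ⟨c, hc⟩ :=
      s18kt_exists_residue P τ g hg c₀ (place_mem_of_ord_nonneg P hτord.ge) h1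
    refine ⟨algebraMap k F c, ?_⟩
    rw [ψ.commutes, Nat.cast_zero, zero_add, s18kt_ball_one_iff]
    exact hc
  | succ n ih =>
    obtain ⟨y, hy⟩ := ih
    refine ⟨y + (u - y ^ g) / ((g : F) * y ^ (g - 1)), ?_⟩
    have h1 := s18kt_newton P τ (ψ y) g hg hτ0 hτord ((n : ℤ) + 1) (by positivity) hy
    have h2 : ψ (y + (u - y ^ g) / ((g : F) * y ^ (g - 1))) =
        ψ y + (τ ^ g - ψ y ^ g) / ((g : E) * ψ y ^ (g - 1)) := by
      rw [map_add, map_div₀, map_sub, map_mul, map_pow, map_pow, map_natCast, hτ]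
    rw [h2]
    refine s18kt_ball_mono P ?_ h1
    push_cast
    omega

/-- **[D-UNR]** the value group of `ψ(F)[τ]` at `P` is that of `ψ(F)`, if `τ ^ g = ψ u` with `u`
a unit at `Q`. -/
theorem s18kt_unr [IsAlgClosed k] [CharZero k] (ψ : F →ₐ[k] E) (Q : Place k F)
    (P : Place k E) (e₁ : ℕ) (he₁ : 0 < e₁)
    (hPQ : ∀ f : F, P.ord (ψ f) = (e₁ : ℤ) * Q.ord f)
    (hres : ∀ x ∈ Q.toValuationSubring,
      ∃ c : k, x - algebraMap k F c ∈ Q.toValuationSubring.nonunits)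
    (τ : E) (g : ℕ) (hg : 0 < g) (u : F) (hu0 : u ≠ 0) (hu : Q.ord u = 0) (hτ : τ ^ g = ψ u)
    (G : Polynomial F) (hG : G.eval₂ (ψ : F →+* E) τ ≠ 0) :
    (e₁ : ℤ) ∣ P.ord (G.eval₂ (ψ : F →+* E) τ) := by
  obtain ⟨hτ0, hτord⟩ := s18kt_ord_root ψ Q P e₁ hPQ τ g hg u hu0 hu hτ
  obtain ⟨B, hB⟩ := s18kt_exists_bound P (ψ : F →+* E) G
  obtain ⟨y, hy⟩ := s18kt_approx ψ Q P e₁ he₁ hPQ hres τ g hg u hu0 hu hτ
    (P.ord (G.eval₂ (ψ : F →+* E) τ) + B).toNat
  have hτb : τ ∈ s18kt_ball P 0 := Or.inr hτord.ge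
  have hYb : ψ y ∈ s18kt_ball P 0 :=
    Or.inr (s18kt_ord_eq_zero_of_sub P hτ0 hτord (by positivity) hy).2.ge
  have h1 := s18kt_eval_sub P (ψ : F →+* E) G B hB hτb hYb hy
  have h2 : G.eval₂ (ψ : F →+* E) τ - G.eval₂ (ψ : F →+* E) (ψ y) ∈
      s18kt_ball P (P.ord (G.eval₂ (ψ : F →+* E) τ) + 1) :=
    s18kt_ball_mono P (by omega) h1
  have h3 : G.eval₂ (ψ : F →+* E) (ψ y) = ψ (G.eval y) :=
    Polynomial.eval₂_at_apply (ψ : F →+* E) y
  have h4 : P.ord (ψ (G.eval y)) = P.ord (G.eval₂ (ψ : F →+* E) τ) := by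
    by_cases hz : G.eval₂ (ψ : F →+* E) τ - G.eval₂ (ψ : F →+* E) (ψ y) = 0
    · rw [← h3, ← sub_eq_zero.1 hz]
    · have h5 : ψ (G.eval y) = G.eval₂ (ψ : F →+* E) τ +
          -(G.eval₂ (ψ : F →+* E) τ - G.eval₂ (ψ : F →+* E) (ψ y)) := by
        rw [← h3]
        ring
      rw [h5]
      refine place_ord_add_eq_of_lt P hG (neg_ne_zero.2 hz) ?_
      rw [place_ord_neg]
      have := h2.resolve_left hz
      omega
  rw [← h4, hPQ]
  exact dvd_mul_right _ _

end Fermat.Agent.S18
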