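/-
S18, TOOLS FOR [KUMMER] (helper22), part 2.  Prefix `s18kt_`.

  * `s18kt_sum_eq_zero`, `s18kt_linearIndependent`, `s18kt_ind` ([D-IND]) : a subfield `S ⊆ E`
    with `ord_P (Sˣ) ⊆ e ℤ` has `e ≤ [E : S]`.
  * `s18kt_main` : **the ramification index of a Kummer extension** `E = ψ(F)(σ)`, `σ ^ M = ψ s`,
    at a place `P` over `Q` (residue field `k` algebraically closed of characteristic `0`):
    `e(P | Q) · gcd (M, ord_Q s) = M`.
  * `s18kt_unramified`, `s18kt_cusp`, `s18kt_generic` : the corollaries used for [KUMMER].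
-/
import Mathlib
import Fermat.Prelude.Def_AlgebraicCurve_DivisorClassGroup
import Fermat.Agent.S24.PlaceBasic
import Fermat.Agent.S18.KumTools

set_option autoImplicit false

open AlgebraicCurve Fermat.Agent.S24 IntermediateField

noncomputable section

namespace Fermat.Agent.S18

variable {k F E : Type*} [Field k] [Field F] [Field E] [Algebra k F] [Algebra k E]

/-! ### Sums with pairwise distinct orders -/

theorem s18kt_sum_ne_zero (P : Place k E) {ι : Type*} (s : Finset ι) (x : ι → E)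
    (hx : ∀ i ∈ s, x i ≠ 0)
    (hinj : ∀ i ∈ s, ∀ j ∈ s, P.ord (x i) = P.ord (x j) → i = j) (hs : s.Nonempty) :
    ∑ i ∈ s, x i ≠ 0 ∧ ∃ i ∈ s, P.ord (∑ i ∈ s, x i) = P.ord (x i) := by
  classical
  induction s using Finset.induction_on with
  | empty => exact absurd hs Finset.not_nonempty_empty
  | insert a s ha ih =>
    rw [Finset.sum_insert ha]
    by_cases hs' : s.Nonempty
    · obtain ⟨h1, i₀, hi₀, h2⟩ := ih (fun i hi => hx i (Finset.mem_insert_of_mem hi))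
        (fun i hi j hj => hinj i (Finset.mem_insert_of_mem hi) j (Finset.mem_insert_of_mem hj))
        hs'
      have hxa := hx a (Finset.mem_insert_self a s)
      have hne : P.ord (x a) ≠ P.ord (∑ i ∈ s, x i) := by
        rw [h2]
        intro h
        have := hinj a (Finset.mem_insert_self a s) i₀ (Finset.mem_insert_of_mem hi₀) h
        exact ha (this ▸ hi₀)
      have hsum : x a + ∑ i ∈ s, x i ≠ 0 := by
        intro h0
        have : x a = -(∑ i ∈ s, x i) := eq_neg_of_add_eq_zero_left h0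
        rw [this, place_ord_neg] at hne
        exact hne rfl
      refine ⟨hsum, ?_⟩
      rcases lt_or_gt_of_ne hne with h | h
      · exact ⟨a, Finset.mem_insert_self a s, place_ord_add_eq_of_lt P hxa h1 h⟩
      · have h3 := place_ord_add_eq_of_lt P h1 hxa h
        rw [add_comm] at h3
        exact ⟨i₀, Finset.mem_insert_of_mem hi₀, h3.trans h2⟩
    · rw [Finset.not_nonempty_iff_eq_empty] at hs'
      subst hs'
      simp only [Finset.sum_empty, add_zero]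
      exact ⟨hx a (Finset.mem_insert_self _ _), a, Finset.mem_insert_self _ _, rfl⟩

/-- A sum whose non-zero terms have pairwise distinct orders vanishes only if all terms do. -/
theorem s18kt_sum_eq_zero (P : Place k E) {ι : Type*} (s : Finset ι) (x : ι → E)
    (hinj : ∀ i ∈ s, ∀ j ∈ s, x i ≠ 0 → x j ≠ 0 → P.ord (x i) = P.ord (x j) → i = j)
    (h : ∑ i ∈ s, x i = 0) : ∀ i ∈ s, x i = 0 := by
  classical
  by_contra hcon
  obtain ⟨i₁, hcon'⟩ := not_forall.1 hcon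
  obtain ⟨hi₁, hx₁⟩ := Classical.not_imp.1 hcon'
  have hne : (s.filter fun i => x i ≠ 0).Nonempty := ⟨i₁, Finset.mem_filter.2 ⟨hi₁, hx₁⟩⟩
  have h1 := (s18kt_sum_ne_zero P (s.filter fun i => x i ≠ 0) x
    (fun i hi => (Finset.mem_filter.1 hi).2)
    (fun i hi j hj => hinj i (Finset.mem_filter.1 hi).1 j (Finset.mem_filter.1 hj).1
      (Finset.mem_filter.1 hi).2 (Finset.mem_filter.1 hj).2) hne).1
  rw [Finset.sum_filter_ne_zero] at h1
  exact h1 h

/-! ### [D-IND] -/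

theorem s18kt_linearIndependent {S : Type*} [Field S] [Algebra S E] (P : Place k E) (e : ℕ)
    (hS : ∀ y : S, y ≠ 0 → (e : ℤ) ∣ P.ord (algebraMap S E y)) (t : E) (ht : P.ord t = 1) :
    LinearIndependent S (fun i : Fin e => t ^ (i : ℕ)) := by
  classical
  have ht0 : t ≠ 0 := by
    rintro rfl
    rw [P.ord_zero] at ht
    exact zero_ne_one ht
  rw [Fintype.linearIndependent_iff]
  intro c hc i
  have hord : ∀ i : Fin e, c i ≠ 0 →
      P.ord (c i • t ^ (i : ℕ)) = P.ord (algebraMap S E (c i)) + (i : ℕ) := by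
    intro i hi
    rw [Algebra.smul_def, P.ord_mul ((map_ne_zero _).2 hi) (pow_ne_zero _ ht0), place_ord_pow,
      ht, mul_one]
  have h0 := s18kt_sum_eq_zero P Finset.univ (fun i : Fin e => c i • t ^ (i : ℕ)) ?_ hc i
    (Finset.mem_univ i)
  · rcases smul_eq_zero.1 h0 with h | h
    · exact h
    · exact absurd h (pow_ne_zero _ ht0)
  · intro i _ j _ hi hj hij
    have hci : c i ≠ 0 := fun h => hi (by rw [h, zero_smul])
    have hcj : c j ≠ 0 := fun h => hj (by rw [h, zero_smul])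
    rw [hord i hci, hord j hcj] at hij
    obtain ⟨a, ha⟩ := hS (c i) hci
    obtain ⟨b, hb⟩ := hS (c j) hcj
    rw [ha, hb] at hij
    have hi' : ((i : ℕ) : ℤ) < e := by exact_mod_cast i.2
    have hj' : ((j : ℕ) : ℤ) < e := by exact_mod_cast j.2
    have h1 : ((e : ℤ) * a + ((i : ℕ) : ℤ)) % e = ((i : ℕ) : ℤ) := by
      rw [add_comm, Int.add_mul_emod_self_left]
      exact Int.emod_eq_of_lt (Int.natCast_nonneg _) hi'
    have h2 : ((e : ℤ) * b + ((j : ℕ) : ℤ)) % e = ((j : ℕ) : ℤ) := by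
      rw [add_comm, Int.add_mul_emod_self_left]
      exact Int.emod_eq_of_lt (Int.natCast_nonneg _) hj'
    rw [hij, h2] at h1
    exact Fin.ext (by exact_mod_cast h1.symm)

/-- **[D-IND]** a subfield on which `ord_P` takes only values in `e ℤ` has index `≥ e`. -/
theorem s18kt_ind {S : Type*} [Field S] [Algebra S E] [FiniteDimensional S E] (P : Place k E)
    (e : ℕ) (hS : ∀ y : S, y ≠ 0 → (e : ℤ) ∣ P.ord (algebraMap S E y)) :
    e ≤ Module.finrank S E := by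
  obtain ⟨π, hπ⟩ := place_exists_irreducible P
  have ht := P.ord_coe_irreducible hπ
  have h1 := (s18kt_linearIndependent P e hS (π : E) ht).fintype_card_le_finrank
  simpa using h1

/-! ### The upper bound -/

/-- If `E = ψ(F)(τ₀)(σ)` with `τ₀ ^ g = ψ (unit at Q)` and `σ ^ M' ∈ ψ(F)(τ₀)`, then
`e(P | Q) ≤ M'`. -/
theorem s18kt_le [IsAlgClosed k] [CharZero k] (ψ : F →ₐ[k] E) (Q : Place k F)
    (P : Place k E) (e₁ : ℕ) (he₁ : 0 < e₁)
    (hPQ : ∀ f : F, P.ord (ψ f) = (e₁ : ℤ) * Q.ord f)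
    (hres : ∀ x ∈ Q.toValuationSubring,
      ∃ c : k, x - algebraMap k F c ∈ Q.toValuationSubring.nonunits)
    (σ : E) (M' : ℕ) (hM' : 0 < M') (τ₀ : E) (g : ℕ) (hg : 0 < g) (u : F) (hu0 : u ≠ 0)
    (hu : Q.ord u = 0) (hτ : τ₀ ^ g = ψ u) (w : F) (hσ : σ ^ M' = τ₀ * ψ w)
    (hgen : ∀ S : Subfield E, (∀ f, ψ f ∈ S) → σ ∈ S → ∀ x, x ∈ S) : e₁ ≤ M' := by
  let _i : Algebra F E := (ψ : F →+* E).toAlgebra
  have hτint : IsIntegral F τ₀ := by
    refine IsIntegral.of_pow hg ?_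
    rw [hτ]
    exact (isIntegral_algebraMap : IsIntegral F (algebraMap F E u))
  have hSord : ∀ y : F⟮τ₀⟯, y ≠ 0 → (e₁ : ℤ) ∣ P.ord (algebraMap F⟮τ₀⟯ E y) := by
    intro y hy
    have hy1 : (y : E) ∈ F⟮τ₀⟯.toSubalgebra := y.2
    rw [IntermediateField.adjoin_simple_toSubalgebra_of_isAlgebraic hτint.isAlgebraic,
      Algebra.adjoin_singleton_eq_range_aeval] at hy1
    obtain ⟨G, hG⟩ := hy1
    have hG' : algebraMap F⟮τ₀⟯ E y = G.eval₂ (ψ : F →+* E) τ₀ := hG.symm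
    rw [hG']
    refine s18kt_unr ψ Q P e₁ he₁ hPQ hres τ₀ g hg u hu0 hu hτ G ?_
    rw [← hG']
    exact (map_ne_zero _).2 hy
  have hτS : τ₀ ∈ F⟮τ₀⟯ := IntermediateField.mem_adjoin_simple_self F τ₀
  have hwS : ψ w ∈ F⟮τ₀⟯ := F⟮τ₀⟯.algebraMap_mem w
  have hσint : IsIntegral F⟮τ₀⟯ σ := by
    refine IsIntegral.of_pow hM' ?_
    rw [hσ]
    exact (isIntegral_algebraMap :
      IsIntegral F⟮τ₀⟯ (algebraMap F⟮τ₀⟯ E ⟨τ₀ * ψ w, mul_mem hτS hwS⟩))
  have hroot : Polynomial.aeval σ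
      (Polynomial.X ^ M' - Polynomial.C (⟨τ₀ * ψ w, mul_mem hτS hwS⟩ : F⟮τ₀⟯)) = 0 := by
    rw [map_sub, map_pow, Polynomial.aeval_X, Polynomial.aeval_C, hσ]
    exact sub_self _
  have hdeg : (minpoly F⟮τ₀⟯ σ).natDegree ≤ M' := by
    have h1 := minpoly.dvd F⟮τ₀⟯ σ hroot
    have h2 := Polynomial.natDegree_le_of_dvd h1 (Polynomial.X_pow_sub_C_ne_zero hM' _)
    rwa [Polynomial.natDegree_X_pow_sub_C] at h2
  have htop : (F⟮τ₀⟯⟮σ⟯ : IntermediateField F⟮τ₀⟯ E) = ⊤ := by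
    rw [eq_top_iff]
    intro x _
    exact hgen (F⟮τ₀⟯⟮σ⟯).toSubfield
      (fun f => (F⟮τ₀⟯⟮σ⟯).algebraMap_mem ⟨ψ f, F⟮τ₀⟯.algebraMap_mem f⟩)
      (IntermediateField.mem_adjoin_simple_self F⟮τ₀⟯ σ) x
  have hfr : Module.finrank F⟮τ₀⟯ E = (minpoly F⟮τ₀⟯ σ).natDegree := by
    rw [← IntermediateField.finrank_top', ← htop, IntermediateField.adjoin.finrank hσint]
  have hfin : FiniteDimensional F⟮τ₀⟯ E := by
    apply Module.finite_of_finrank_pos
    rw [hfr]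
    exact minpoly.natDegree_pos hσint
  have h3 := s18kt_ind P e₁ hSord
  omega

/-! ### The ramification index of a Kummer extension -/

/-- **Ramification in a Kummer extension.**  `E = ψ(F)(σ)` with `σ ^ M = ψ s`; `P` a place of `E`
over the place `Q` of `F` with ramification index `e₁`; the residue field of `Q` is the
algebraically closed constant field `k` of characteristic `0`.  Then
`e₁ · gcd (M, ord_Q s) = M`. -/
theorem s18kt_main [IsAlgClosed k] [CharZero k] (ψ : F →ₐ[k] E) (Q : Place k F)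
    (P : Place k E) (e₁ : ℕ) (he₁ : 0 < e₁)
    (hPQ : ∀ f : F, P.ord (ψ f) = (e₁ : ℤ) * Q.ord f)
    (hres : ∀ x ∈ Q.toValuationSubring,
      ∃ c : k, x - algebraMap k F c ∈ Q.toValuationSubring.nonunits)
    (σ : E) (M : ℕ) (hM : 0 < M) (s : F) (hs : s ≠ 0) (hσ : σ ^ M = ψ s)
    (hgen : ∀ S : Subfield E, (∀ f, ψ f ∈ S) → σ ∈ S → ∀ x, x ∈ S) :
    e₁ * Nat.gcd M (Q.ord s).natAbs = M := by
  have hg0 : 0 < Nat.gcd M (Q.ord s).natAbs := Nat.gcd_pos_of_pos_left _ hM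
  obtain ⟨M', hM'⟩ : Nat.gcd M (Q.ord s).natAbs ∣ M := Nat.gcd_dvd_left _ _
  obtain ⟨a', ha'⟩ : ((Nat.gcd M (Q.ord s).natAbs : ℕ) : ℤ) ∣ Q.ord s :=
    Int.natCast_dvd.2 (Nat.gcd_dvd_right _ _)
  have hgcd : Int.gcd (M : ℤ) (Q.ord s) = Nat.gcd M (Q.ord s).natAbs := by
    rw [Int.gcd, Int.natAbs_natCast]
  generalize Nat.gcd M (Q.ord s).natAbs = g at hg0 hM' ha' hgcd ⊢
  have hM'0 : 0 < M' := by
    rcases Nat.eq_zero_or_pos M' with h | h
    · rw [h, mul_zero] at hM'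
      omega
    · exact h
  have hgz : (g : ℤ) ≠ 0 := by exact_mod_cast hg0.ne'
  have hcop : IsCoprime (M' : ℤ) a' := by
    rw [Int.isCoprime_iff_gcd_eq_one]
    have h1 := hgcd
    rw [ha', hM'] at h1
    push_cast at h1
    rw [Int.gcd_mul_left, Int.natAbs_natCast] at h1
    exact Nat.eq_of_mul_eq_mul_left hg0 (by rw [h1, mul_one])
  have hσ0 : σ ≠ 0 := by
    intro h
    rw [h, zero_pow hM.ne'] at hσ
    exact hs ((map_eq_zero ψ).1 hσ.symm)
  have hordσ : (M' : ℤ) * P.ord σ = (e₁ : ℤ) * a' := by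
    have h1 : P.ord (σ ^ M) = (e₁ : ℤ) * Q.ord s := by rw [hσ, hPQ]
    rw [place_ord_pow, ha', hM'] at h1
    push_cast at h1
    apply mul_left_cancel₀ hgz
    linarith
  have hdvd : M' ∣ e₁ := by
    have h1 : (M' : ℤ) ∣ (e₁ : ℤ) * a' := Dvd.intro _ hordσ
    exact Int.natCast_dvd_natCast.1 (hcop.dvd_of_dvd_mul_right h1)
  obtain ⟨ϖ, hϖ⟩ := place_exists_irreducible Q
  have hϖord := Q.ord_coe_irreducible hϖ
  have hϖ0 : (ϖ : F) ≠ 0 := by
    intro h
    rw [h, Q.ord_zero] at hϖord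
    exact zero_ne_one hϖord
  have hw0 : (ϖ : F) ^ a' ≠ 0 := zpow_ne_zero _ hϖ0
  have hword : Q.ord ((ϖ : F) ^ a') = a' := by rw [Q.ord_zpow, hϖord, mul_one]
  have hu0 : s / ((ϖ : F) ^ a') ^ g ≠ 0 := div_ne_zero hs (pow_ne_zero _ hw0)
  have huord : Q.ord (s / ((ϖ : F) ^ a') ^ g) = 0 := by
    rw [div_eq_mul_inv, Q.ord_mul hs (inv_ne_zero (pow_ne_zero _ hw0)), Q.ord_inv,
      place_ord_pow, hword, ha']
    ring
  have hψw0 : ψ ((ϖ : F) ^ a') ≠ 0 := (map_ne_zero ψ).2 hw0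
  have hτ : (σ ^ M' * (ψ ((ϖ : F) ^ a'))⁻¹) ^ g = ψ (s / ((ϖ : F) ^ a') ^ g) := by
    rw [mul_pow, ← pow_mul, mul_comm M' g, ← hM', hσ, map_div₀, map_pow, inv_pow,
      div_eq_mul_inv]
  have hσM' : σ ^ M' = σ ^ M' * (ψ ((ϖ : F) ^ a'))⁻¹ * ψ ((ϖ : F) ^ a') := by
    rw [mul_assoc, inv_mul_cancel₀ hψw0, mul_one]
  have hle := s18kt_le ψ Q P e₁ he₁ hPQ hres σ M' hM'0 _ g hg0 _ hu0 huord hτ _ hσM' hgen
  have he : e₁ = M' := le_antisymm hle (Nat.le_of_dvd he₁ hdvd)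
  rw [he, hM', mul_comm]

/-- At a place where `s` is a unit, a Kummer extension is unramified. -/
theorem s18kt_unramified [IsAlgClosed k] [CharZero k] (ψ : F →ₐ[k] E) (Q : Place k F)
    (P : Place k E) (e₁ : ℕ) (he₁ : 0 < e₁)
    (hPQ : ∀ f : F, P.ord (ψ f) = (e₁ : ℤ) * Q.ord f)
    (hres : ∀ x ∈ Q.toValuationSubring,
      ∃ c : k, x - algebraMap k F c ∈ Q.toValuationSubring.nonunits)
    (σ : E) (M : ℕ) (hM : 0 < M) (s : F) (hs : s ≠ 0) (hσ : σ ^ M = ψ s)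
    (hgen : ∀ S : Subfield E, (∀ f, ψ f ∈ S) → σ ∈ S → ∀ x, x ∈ S)
    (hs0 : Q.ord s = 0) : e₁ = 1 := by
  have h := s18kt_main ψ Q P e₁ he₁ hPQ hres σ M hM s hs hσ hgen
  rw [hs0, Int.natAbs_zero, Nat.gcd_zero_right] at h
  exact Nat.eq_of_mul_eq_mul_right hM (by rw [h, one_mul])

/-- **Abhyankar at the cusps**: at a place where `s` vanishes to an order dividing `M`, the
`M`-th root `σ` of `s` is a uniformizer. -/
theorem s18kt_cusp [IsAlgClosed k] [CharZero k] (ψ : F →ₐ[k] E) (Q : Place k F)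
    (P : Place k E) (e₁ : ℕ) (he₁ : 0 < e₁)
    (hPQ : ∀ f : F, P.ord (ψ f) = (e₁ : ℤ) * Q.ord f)
    (hres : ∀ x ∈ Q.toValuationSubring,
      ∃ c : k, x - algebraMap k F c ∈ Q.toValuationSubring.nonunits)
    (σ : E) (M : ℕ) (hM : 0 < M) (s : F) (hs : s ≠ 0) (hσ : σ ^ M = ψ s)
    (hgen : ∀ S : Subfield E, (∀ f, ψ f ∈ S) → σ ∈ S → ∀ x, x ∈ S)
    (hpos : 0 < Q.ord s) (hdvd : (Q.ord s).natAbs ∣ M) : P.ord σ = 1 := by
  have h := s18kt_main ψ Q P e₁ he₁ hPQ hres σ M hM s hs hσ hgen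
  rw [Nat.gcd_eq_right hdvd] at h
  have h1 : P.ord (σ ^ M) = (e₁ : ℤ) * Q.ord s := by rw [hσ, hPQ]
  rw [place_ord_pow] at h1
  have h2 : ((Q.ord s).natAbs : ℤ) = Q.ord s := Int.natAbs_of_nonneg hpos.le
  have h3 : (M : ℤ) = (e₁ : ℤ) * Q.ord s := by
    rw [← h2]
    exact_mod_cast h.symm
  rw [← h3] at h1
  have hMz : (M : ℤ) ≠ 0 := by exact_mod_cast hM.ne'
  exact mul_left_cancel₀ hMz (by rw [h1, mul_one])

/-- At a place where `s - c₀` is a uniformizer (`c₀ ≠ 0` a constant), `σ - c` is a uniformizer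
for the `M`-th root `c` of `c₀` to which `σ` is congruent. -/
theorem s18kt_generic [IsAlgClosed k] [CharZero k] (ψ : F →ₐ[k] E) (Q : Place k F)
    (P : Place k E) (e₁ : ℕ) (he₁ : 0 < e₁)
    (hPQ : ∀ f : F, P.ord (ψ f) = (e₁ : ℤ) * Q.ord f)
    (hres : ∀ x ∈ Q.toValuationSubring,
      ∃ c : k, x - algebraMap k F c ∈ Q.toValuationSubring.nonunits)
    (σ : E) (M : ℕ) (hM : 0 < M) (s : F) (hs : s ≠ 0) (hσ : σ ^ M = ψ s)
    (hgen : ∀ S : Subfield E, (∀ f, ψ f ∈ S) → σ ∈ S → ∀ x, x ∈ S)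
    (hs0 : Q.ord s = 0) (c₀ : k) (hc₀ : Q.ord (s - algebraMap k F c₀) = 1) :
    ∃ c : k, c ^ M = c₀ ∧ P.ord (σ - algebraMap k E c) = 1 := by
  have he := s18kt_unramified ψ Q P e₁ he₁ hPQ hres σ M hM s hs hσ hgen hs0
  obtain ⟨hσ0, hσord⟩ := s18kt_ord_root ψ Q P e₁ hPQ σ M hM s hs hs0 hσ
  have h1 : P.ord (σ ^ M - algebraMap k E c₀) = 1 := by
    rw [hσ, ← ψ.commutes c₀, ← map_sub, hPQ, hc₀, he]
    norm_num
  have h10 : σ ^ M - algebraMap k E c₀ ≠ 0 := by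
    intro h
    rw [h, P.ord_zero] at h1
    exact zero_ne_one h1
  have h2 : σ ^ M - algebraMap k E c₀ ∈ P.toValuationSubring.nonunits := by
    rw [place_mem_nonunits_iff P h10, h1]
    exact one_pos
  obtain ⟨c, hc⟩ :=
    s18kt_exists_residue P σ M hM c₀ (place_mem_of_ord_nonneg P hσord.ge) h2
  have hσb : σ ∈ s18kt_ball P 0 := Or.inr hσord.ge
  have hcb : algebraMap k E c ∈ s18kt_ball P 0 := s18kt_algebraMap_mem_ball P c
  have hd : σ - algebraMap k E c ∈ s18kt_ball P 1 := (s18kt_ball_one_iff P _).2 hc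
  have h3 := s18kt_pow_sub_pow P hσb hcb hd M
  have h4 : algebraMap k E (c ^ M - c₀) ∈ s18kt_ball P 1 := by
    have h5 : algebraMap k E (c ^ M - c₀) =
        (σ ^ M - algebraMap k E c₀) - (σ ^ M - algebraMap k E c ^ M) := by
      rw [map_sub, map_pow]
      ring
    rw [h5]
    exact sub_mem ((s18kt_ball_one_iff P _).2 h2) h3
  have hcM : c ^ M = c₀ := by
    by_contra hne
    have h6 : c ^ M - c₀ ≠ 0 := sub_ne_zero.2 hne
    have h7 := h4.resolve_left ((map_ne_zero _).2 h6)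
    rw [place_ord_algebraMap] at h7
    omega
  refine ⟨c, hcM, ?_⟩
  have h8 : σ ^ M - algebraMap k E c₀ =
      (∑ i ∈ Finset.range M, σ ^ i * algebraMap k E c ^ (M - 1 - i)) *
        (σ - algebraMap k E c) := by
    rw [geom_sum₂_mul, ← hcM, map_pow]
  have hS : (∑ i ∈ Finset.range M, σ ^ i * algebraMap k E c ^ (M - 1 - i)) ∈
      s18kt_ball P 0 := by
    refine sum_mem fun i _ => ?_
    have := s18kt_ball_mul P (s18kt_ball_pow P hσb i) (s18kt_ball_pow P hcb (M - 1 - i))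
    rwa [add_zero] at this
  have hS0 : (∑ i ∈ Finset.range M, σ ^ i * algebraMap k E c ^ (M - 1 - i)) ≠ 0 := by
    intro h
    rw [h, zero_mul] at h8
    exact h10 h8
  have hd0 : σ - algebraMap k E c ≠ 0 := by
    intro h
    rw [h, mul_zero] at h8
    exact h10 h8
  have h9 := P.ord_mul hS0 hd0
  rw [← h8, h1] at h9
  have h11 := hS.resolve_left hS0
  have h12 := hd.resolve_left hd0
  omega

end Fermat.Agent.S18
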