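/-
# S18 / split-off for [BASIC]: the fields `val` and `sep`.  Owner: helper29, prefix `s18lb_`.

`B = s18_chart O {j}` a noetherian domain with field of fractions `F`, `π` a uniformizer of `O`,
`B / π B` a domain.  Then `π` is a prime element of `B` and `W = B_(π)` is a discrete valuation
ring of `F` with uniformizer `π`; `s18_gauss O j k = π ^ k W`.

    s18lb_val : ∀ f, f ∈ s18_gauss O j 0 ∨ f⁻¹ ∈ s18_gauss O j 1
    s18lb_sep : ∀ f ≠ 0, ∃ k, f ∉ s18_gauss O j k
-/
import Mathlib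
import Fermat.Agent.S18.LiftDefs

set_option autoImplicit false

namespace Fermat.Agent.S18

noncomputable section

section lb

variable {O : Type} [CommRing O] [IsDomain O] [IsDiscreteValuationRing O]
  {F : Type} [Field F] [Algebra O F] (j : F)

/-- The ideal of the special fibre is generated by a uniformizer. -/
theorem s18lb_fibre_eq {ϖ : O} (hϖ : Irreducible ϖ) (S : Set F) :
    s18_fibreIdeal O S = Ideal.span {algebraMap O ↥(s18_chart O S) ϖ} := by
  rw [s18_fibreIdeal, hϖ.maximalIdeal_eq, Ideal.map_span, Set.image_singleton]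

theorem s18lb_mem_fibre_iff {ϖ : O} (hϖ : Irreducible ϖ) (S : Set F) (x : ↥(s18_chart O S)) :
    x ∈ s18_fibreIdeal O S ↔ algebraMap O ↥(s18_chart O S) ϖ ∣ x := by
  rw [s18lb_fibre_eq hϖ, Ideal.mem_span_singleton]

theorem s18lb_mem_fibre_pow_iff {ϖ : O} (hϖ : Irreducible ϖ) (S : Set F) (k : ℕ)
    (x : ↥(s18_chart O S)) :
    x ∈ s18_fibreIdeal O S ^ k ↔ algebraMap O ↥(s18_chart O S) ϖ ^ k ∣ x := by
  rw [s18lb_fibre_eq hϖ, Ideal.span_singleton_pow, Ideal.mem_span_singleton]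

/-- `s18_gauss O j k = π ^ k W`. -/
theorem s18lb_gauss_iff {ϖ : O} (hϖ : Irreducible ϖ) (k : ℕ) (f : F) :
    f ∈ s18_gauss O j k ↔ ∃ x y : ↥(s18_chart O ({j} : Set F)),
      ¬ algebraMap O ↥(s18_chart O ({j} : Set F)) ϖ ∣ y ∧
      algebraMap O ↥(s18_chart O ({j} : Set F)) ϖ ^ k ∣ x ∧ f * (y : F) = (x : F) := by
  constructor
  · rintro ⟨x, y, hy, hx, h⟩
    exact ⟨x, y, fun h' => hy ((s18lb_mem_fibre_iff hϖ _ _).2 h'),
      (s18lb_mem_fibre_pow_iff hϖ _ _ _).1 hx, h⟩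
  · rintro ⟨x, y, hy, hx, h⟩
    exact ⟨x, y, fun h' => hy ((s18lb_mem_fibre_iff hϖ _ _).1 h'),
      (s18lb_mem_fibre_pow_iff hϖ _ _ _).2 hx, h⟩

/-- `π` is a prime element of the chart if the special fibre is a domain. -/
theorem s18lb_prime (hinj : Function.Injective (algebraMap O F)) {ϖ : O} (hϖ : Irreducible ϖ)
    (hdom : IsDomain (s18_fibre O ({j} : Set F))) :
    Prime (algebraMap O ↥(s18_chart O ({j} : Set F)) ϖ) := by
  have h : IsDomain (↥(s18_chart O ({j} : Set F)) ⧸ s18_fibreIdeal O ({j} : Set F)) := hdom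
  have hprime := (Ideal.Quotient.isDomain_iff_prime _).1 h
  rw [s18lb_fibre_eq hϖ] at hprime
  refine (Ideal.span_singleton_prime ?_).1 hprime
  intro h0
  have h1 : algebraMap O F ϖ = 0 := congrArg Subtype.val h0
  exact hϖ.ne_zero (hinj (h1.trans (map_zero _).symm))

/-- Every non-zero element of `F` is `π ^ (i - l) · x / y` with `x, y ∈ B` prime to `π`. -/
theorem s18lb_factor (hinj : Function.Injective (algebraMap O F)) {ϖ : O} (hϖ : Irreducible ϖ)
    (hdom : IsDomain (s18_fibre O ({j} : Set F)))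
    (hnoeth : IsNoetherianRing ↥(s18_chart O ({j} : Set F)))
    (hfrac : ∀ f : F, ∃ x y : ↥(s18_chart O ({j} : Set F)), y ≠ 0 ∧ f * (y : F) = (x : F))
    (f : F) (hf : f ≠ 0) :
    ∃ (i l : ℕ) (x y : ↥(s18_chart O ({j} : Set F))),
      ¬ algebraMap O ↥(s18_chart O ({j} : Set F)) ϖ ∣ x ∧
      ¬ algebraMap O ↥(s18_chart O ({j} : Set F)) ϖ ∣ y ∧
      f * (algebraMap O F ϖ ^ l * (y : F)) = algebraMap O F ϖ ^ i * (x : F) := by
  have hp := s18lb_prime j hinj hϖ hdom
  obtain ⟨x, y, hy, hxy⟩ := hfrac f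
  have hyF : (y : F) ≠ 0 := fun h => hy (Subtype.ext h)
  have hx : x ≠ 0 := by
    rintro rfl
    rw [ZeroMemClass.coe_zero] at hxy
    exact (mul_ne_zero hf hyF) hxy
  obtain ⟨i, x', hx', rfl⟩ := WfDvdMonoid.max_power_factor hx hp.irreducible
  obtain ⟨l, y', hy', rfl⟩ := WfDvdMonoid.max_power_factor hy hp.irreducible
  exact ⟨i, l, x', y', hx', hy', hxy⟩

end lb

/-- **The field `val` of `s18_IsBasic`.** -/
theorem s18lb_val (O K F : Type) [CommRing O] [IsDomain O] [IsDiscreteValuationRing O]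
    [Field K] [Algebra O K] [IsFractionRing O K] [Field F] [Algebra K F] [Algebra O F]
    [IsScalarTower O K F] (j : F) (hdom : IsDomain (s18_fibre O ({j} : Set F)))
    (hnoeth : IsNoetherianRing ↥(s18_chart O ({j} : Set F)))
    (hfrac : ∀ f : F, ∃ x y : ↥(s18_chart O ({j} : Set F)), y ≠ 0 ∧ f * (y : F) = (x : F)) :
    ∀ f : F, f ∈ s18_gauss O j 0 ∨ f⁻¹ ∈ s18_gauss O j 1 := by
  intro f
  have hinj : Function.Injective (algebraMap O F) := by
    rw [IsScalarTower.algebraMap_eq O K F]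
    exact (algebraMap K F).injective.comp (IsFractionRing.injective O K)
  obtain ⟨ϖ, hϖ⟩ := IsDiscreteValuationRing.exists_irreducible O
  have hp := s18lb_prime j hinj hϖ hdom
  have hπF : algebraMap O F ϖ ≠ 0 := fun h => hϖ.ne_zero (hinj (h.trans (map_zero _).symm))
  rcases eq_or_ne f 0 with rfl | hf
  · left
    refine (s18lb_gauss_iff j hϖ 0 0).2 ⟨0, 1, fun h => hp.not_isUnit (isUnit_of_dvd_one h),
      dvd_zero _, ?_⟩
    rw [zero_mul, ZeroMemClass.coe_zero]
  obtain ⟨i, l, x, y, hx, hy, h⟩ := s18lb_factor j hinj hϖ hdom hnoeth hfrac f hf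
  have hxF : (x : F) ≠ 0 := fun h0 => hx (by
    have : x = 0 := Subtype.ext h0
    rw [this]; exact dvd_zero _)
  rcases le_or_gt l i with hli | hli
  · left
    refine (s18lb_gauss_iff j hϖ 0 f).2
      ⟨algebraMap O _ ϖ ^ (i - l) * x, y, hy, by rw [pow_zero]; exact one_dvd _, ?_⟩
    have e : algebraMap O F ϖ ^ i = algebraMap O F ϖ ^ l * algebraMap O F ϖ ^ (i - l) := by
      rw [← pow_add, Nat.add_sub_cancel' hli]
    rw [e] at h
    have h2 : algebraMap O F ϖ ^ l * (f * (y : F)) =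
        algebraMap O F ϖ ^ l * (algebraMap O F ϖ ^ (i - l) * (x : F)) := by
      linear_combination h
    have h3 := mul_left_cancel₀ (pow_ne_zero l hπF) h2
    rw [h3]
    rfl
  · right
    refine (s18lb_gauss_iff j hϖ 1 f⁻¹).2
      ⟨algebraMap O _ ϖ ^ (l - i) * y, x, hx, ?_, ?_⟩
    · exact Dvd.dvd.mul_right (pow_dvd_pow _ (by omega)) _
    · have e : algebraMap O F ϖ ^ l = algebraMap O F ϖ ^ i * algebraMap O F ϖ ^ (l - i) := by
        rw [← pow_add, Nat.add_sub_cancel' hli.le]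
      rw [e] at h
      have h2 : algebraMap O F ϖ ^ i * (f * (algebraMap O F ϖ ^ (l - i) * (y : F))) =
          algebraMap O F ϖ ^ i * (x : F) := by
        linear_combination h
      have h3 := mul_left_cancel₀ (pow_ne_zero i hπF) h2
      show f⁻¹ * (x : F) = algebraMap O F ϖ ^ (l - i) * (y : F)
      rw [← h3]
      field_simp

/-- **The field `sep` of `s18_IsBasic`.** -/
theorem s18lb_sep (O K F : Type) [CommRing O] [IsDomain O] [IsDiscreteValuationRing O]
    [Field K] [Algebra O K] [IsFractionRing O K] [Field F] [Algebra K F] [Algebra O F]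
    [IsScalarTower O K F] (j : F) (hdom : IsDomain (s18_fibre O ({j} : Set F)))
    (hnoeth : IsNoetherianRing ↥(s18_chart O ({j} : Set F)))
    (hfrac : ∀ f : F, ∃ x y : ↥(s18_chart O ({j} : Set F)), y ≠ 0 ∧ f * (y : F) = (x : F)) :
    ∀ f : F, f ≠ 0 → ∃ k : ℕ, f ∉ s18_gauss O j k := by
  intro f hf
  have hinj : Function.Injective (algebraMap O F) := by
    rw [IsScalarTower.algebraMap_eq O K F]
    exact (algebraMap K F).injective.comp (IsFractionRing.injective O K)
  obtain ⟨ϖ, hϖ⟩ := IsDiscreteValuationRing.exists_irreducible O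
  have hp := s18lb_prime j hinj hϖ hdom
  obtain ⟨i, l, x, y, hx, hy, h⟩ := s18lb_factor j hinj hϖ hdom hnoeth hfrac f hf
  refine ⟨i + 1, fun hmem => ?_⟩
  obtain ⟨a, b, hb, ha, hab⟩ := (s18lb_gauss_iff j hϖ (i + 1) f).1 hmem
  -- `π ^ i x b = a π ^ l y` in `B`
  have key : algebraMap O ↥(s18_chart O ({j} : Set F)) ϖ ^ i * x * b =
      a * (algebraMap O ↥(s18_chart O ({j} : Set F)) ϖ ^ l * y) := by
    apply Subtype.ext
    show algebraMap O F ϖ ^ i * (x : F) * (b : F) = (a : F) * (algebraMap O F ϖ ^ l * (y : F))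
    rw [← h, ← hab]
    ring
  have h1 : algebraMap O ↥(s18_chart O ({j} : Set F)) ϖ ^ (i + 1) ∣
      algebraMap O ↥(s18_chart O ({j} : Set F)) ϖ ^ i * (x * b) := by
    rw [← mul_assoc, key]
    exact Dvd.dvd.mul_right ha _
  rw [pow_succ] at h1
  have h2 := (mul_dvd_mul_iff_left (pow_ne_zero i hp.ne_zero)).1 h1
  rcases hp.dvd_or_dvd h2 with h3 | h3
  · exact hx h3
  · exact hb h3

end

end Fermat.Agent.S18
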