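/-
S18, SHARED TOOL [PP] (helper13).  Prefix `s18pp_`.

`B` a ring with an injective map to a field `F` of transcendence degree one over a field `K` of
characteristic `0`, `B` integrally closed in `F`, `P` a non-zero prime of `B` such that the
local ring `B_P ⊆ F` contains `K` and a coordinate `t ∈ B` of `F/K`.  Then `B_P` is the
valuation ring of a place `Q` of `F/K`.
-/
import Mathlib
import Fermat.Prelude.Def_AlgebraicCurve_DivisorClassGroup
import Fermat.Agent.S24.ValPlace

set_option autoImplicit false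
set_option linter.style.haveILetI false
set_option linter.unusedVariables false

open AlgebraicCurve IntermediateField Polynomial WithZero

noncomputable section

namespace Fermat.Agent.S18

section LocalRing

variable (F : Type) {B : Type} [Field F] [CommRing B] [Algebra B F]

/-- `B_P` as a subring of `F`. -/
def s18pp_R (P : Ideal B) [P.IsPrime] : Subring F where
  carrier := {x | ∃ y z : B, z ∉ P ∧ x * algebraMap B F z = algebraMap B F y}
  mul_mem' := by
    rintro a b ⟨y, z, hz, h⟩ ⟨y', z', hz', h'⟩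
    refine ⟨y * y', z * z', fun hzz => ?_, ?_⟩
    · rcases Ideal.IsPrime.mem_or_mem ‹P.IsPrime› hzz with h1 | h1
      · exact hz h1
      · exact hz' h1
    · rw [map_mul, map_mul, ← h, ← h']; ring
  one_mem' := ⟨1, 1, fun h => (Ideal.IsPrime.ne_top ‹P.IsPrime›) ((Ideal.eq_top_iff_one P).2 h),
    by simp⟩
  add_mem' := by
    rintro a b ⟨y, z, hz, h⟩ ⟨y', z', hz', h'⟩
    refine ⟨y * z' + y' * z, z * z', fun hzz => ?_, ?_⟩
    · rcases Ideal.IsPrime.mem_or_mem ‹P.IsPrime› hzz with h1 | h1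
      · exact hz h1
      · exact hz' h1
    · rw [map_add, map_mul, map_mul, map_mul, ← h, ← h']; ring
  zero_mem' := ⟨0, 1, fun h => (Ideal.IsPrime.ne_top ‹P.IsPrime›) ((Ideal.eq_top_iff_one P).2 h),
    by simp⟩
  neg_mem' := by
    rintro a ⟨y, z, hz, h⟩
    exact ⟨-y, z, hz, by rw [map_neg, ← h]; ring⟩

variable {F}

theorem s18pp_mem_R (P : Ideal B) [P.IsPrime] {x : F} :
    x ∈ s18pp_R F P ↔ ∃ y z : B, z ∉ P ∧ x * algebraMap B F z = algebraMap B F y := Iff.rfl

theorem s18pp_algebraMap_mem (P : Ideal B) [P.IsPrime] (b : B) :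
    algebraMap B F b ∈ s18pp_R F P :=
  ⟨b, 1, fun h => (Ideal.IsPrime.ne_top ‹P.IsPrime›) ((Ideal.eq_top_iff_one P).2 h), by simp⟩

theorem s18pp_ne_zero (hinj : Function.Injective (algebraMap B F)) (P : Ideal B)
    {z : B} (hz : z ∉ P) : algebraMap B F z ≠ 0 := by
  intro h
  apply hz
  have : z = 0 := hinj (by rw [h, map_zero])
  rw [this]; exact P.zero_mem

theorem s18pp_inv_mem (hinj : Function.Injective (algebraMap B F)) (P : Ideal B) [P.IsPrime]
    {z : B} (hz : z ∉ P) : (algebraMap B F z)⁻¹ ∈ s18pp_R F P :=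
  ⟨1, z, hz, by rw [inv_mul_cancel₀ (s18pp_ne_zero hinj P hz), map_one]⟩

variable (F)

/-- The inclusion `B → B_P`. -/
def s18pp_toR (P : Ideal B) [P.IsPrime] : B →+* ↥(s18pp_R F P) :=
  (algebraMap B F).codRestrict (s18pp_R F P) (s18pp_algebraMap_mem P)

/-- The `B`-algebra structure of `B_P`.  Use with `letI`. -/
@[instance_reducible]
def s18pp_algBR (P : Ideal B) [P.IsPrime] : Algebra B ↥(s18pp_R F P) :=
  (s18pp_toR F P).toAlgebra

theorem s18pp_tower (P : Ideal B) [P.IsPrime] :
    letI := s18pp_algBR F P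
    IsScalarTower B ↥(s18pp_R F P) F :=
  letI := s18pp_algBR F P
  IsScalarTower.of_algebraMap_eq' rfl

variable {F}

theorem s18pp_isLocalization (hinj : Function.Injective (algebraMap B F)) (P : Ideal B)
    [P.IsPrime] :
    letI := s18pp_algBR F P
    IsLocalization.AtPrime ↥(s18pp_R F P) P := by
  letI := s18pp_algBR F P
  refine ⟨?_, ?_, ?_⟩
  · rintro ⟨z, hz⟩
    have hz' : z ∉ P := hz
    refine isUnit_iff_exists_inv.2 ⟨⟨(algebraMap B F z)⁻¹, s18pp_inv_mem hinj P hz'⟩, ?_⟩
    apply Subtype.ext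
    show algebraMap B F z * (algebraMap B F z)⁻¹ = 1
    exact mul_inv_cancel₀ (s18pp_ne_zero hinj P hz')
  · rintro ⟨x, y, z, hz, h⟩
    refine ⟨(y, ⟨z, hz⟩), ?_⟩
    apply Subtype.ext
    exact h
  · intro a b hab
    have : algebraMap B F a = algebraMap B F b := congrArg Subtype.val hab
    exact ⟨1, by rw [hinj this]⟩

/-- `B_P` is integrally closed in `F`. -/
theorem s18pp_mem_of_isIntegral (hinj : Function.Injective (algebraMap B F))
    (hic : ∀ x : F, IsIntegral B x → ∃ b, algebraMap B F b = x) (P : Ideal B) [P.IsPrime]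
    {x : F} (hx : IsIntegral ↥(s18pp_R F P) x) : x ∈ s18pp_R F P := by
  letI := s18pp_algBR F P
  haveI := s18pp_tower F P
  haveI := s18pp_isLocalization hinj P
  obtain ⟨⟨m, hm⟩, hmx⟩ :=
    IsIntegral.exists_multiple_integral_of_isLocalization (R := B) (M := P.primeCompl)
      (Rₘ := ↥(s18pp_R F P)) x hx
  obtain ⟨b, hb⟩ := hic _ hmx
  refine ⟨b, m, hm, ?_⟩
  rw [hb, Submonoid.smul_def, Algebra.smul_def, mul_comm]

end LocalRing

section Dedekind

variable (K : Type) {F : Type} [Field K] [Field F] [Algebra K F]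

/-- The `K[X]`-algebra structure of `F` given by `X ↦ τ`.  Use with `letI`. -/
@[instance_reducible]
def s18pp_algXF (τ : F) : Algebra K[X] F := (aeval τ : K[X] →ₐ[K] F).toRingHom.toAlgebra

theorem s18pp_algXF_apply (τ : F) (p : K[X]) :
    letI := s18pp_algXF K τ
    algebraMap K[X] F p = aeval τ p := rfl

/-- The `K[X]`-algebra structure of `K(τ)`. -/
@[instance_reducible]
def s18pp_algXL (τ : F) : Algebra K[X] ↥(K⟮τ⟯) :=
  (aeval (AdjoinSimple.gen K τ) : K[X] →ₐ[K] ↥(K⟮τ⟯)).toRingHom.toAlgebra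

theorem s18pp_coe_aeval (τ : F) (p : K[X]) :
    ((aeval (AdjoinSimple.gen K τ) p : ↥(K⟮τ⟯)) : F) = aeval τ p := by
  have := aeval_algebraMap_apply F (AdjoinSimple.gen K τ) p
  rw [AdjoinSimple.algebraMap_gen] at this
  exact this.symm

theorem s18pp_towerXLF (τ : F) :
    letI := s18pp_algXF K τ
    letI := s18pp_algXL K τ
    IsScalarTower K[X] ↥(K⟮τ⟯) F := by
  letI := s18pp_algXF K τ
  letI := s18pp_algXL K τ
  refine IsScalarTower.of_algebraMap_eq (fun p => ?_)
  show aeval τ p = algebraMap ↥(K⟮τ⟯) F (aeval (AdjoinSimple.gen K τ) p)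
  rw [← aeval_algebraMap_apply, AdjoinSimple.algebraMap_gen]

theorem s18pp_fracXL (τ : F) (ht : Transcendental K τ) :
    letI := s18pp_algXL K τ
    IsFractionRing K[X] ↥(K⟮τ⟯) := by
  letI := s18pp_algXL K τ
  have hinj : Function.Injective (algebraMap K[X] ↥(K⟮τ⟯)) := by
    intro p q hpq
    have h1 : aeval τ p = aeval τ q := by
      have := congrArg (algebraMap ↥(K⟮τ⟯) F) hpq
      change algebraMap ↥(K⟮τ⟯) F (aeval (AdjoinSimple.gen K τ) p) =
        algebraMap ↥(K⟮τ⟯) F (aeval (AdjoinSimple.gen K τ) q) at this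
      rwa [← aeval_algebraMap_apply, ← aeval_algebraMap_apply, AdjoinSimple.algebraMap_gen]
        at this
    exact (transcendental_iff_injective.1 ht) h1
  haveI : FaithfulSMul K[X] ↥(K⟮τ⟯) := (faithfulSMul_iff_algebraMap_injective _ _).2 hinj
  refine IsFractionRing.of_field K[X] ↥(K⟮τ⟯) (fun z => ?_)
  obtain ⟨r, s, hrs⟩ := (mem_adjoin_simple_iff K (z : F)).1 z.2
  refine ⟨r, s, Subtype.ext ?_⟩
  rw [hrs]
  show _ = ((aeval (AdjoinSimple.gen K τ) r / aeval (AdjoinSimple.gen K τ) s : ↥(K⟮τ⟯)) : F)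
  push_cast
  rw [s18pp_coe_aeval, s18pp_coe_aeval]

theorem s18pp_dedekind [CharZero K] (τ : F) (ht : Transcendental K τ)
    (hfin : FiniteDimensional ↥(K⟮τ⟯) F) :
    letI := s18pp_algXF K τ
    IsDedekindDomain ↥(integralClosure K[X] F) ∧ IsFractionRing ↥(integralClosure K[X] F) F := by
  letI := s18pp_algXF K τ
  letI := s18pp_algXL K τ
  haveI := s18pp_towerXLF K τ
  haveI := s18pp_fracXL K τ ht
  haveI : CharZero ↥(K⟮τ⟯) := charZero_of_injective_algebraMap (algebraMap K ↥(K⟮τ⟯)).injective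
  haveI : Algebra.IsSeparable ↥(K⟮τ⟯) F := inferInstance
  exact ⟨integralClosure.isDedekindDomain K[X] ↥(K⟮τ⟯) F,
    integralClosure.isFractionRing_of_finite_extension ↥(K⟮τ⟯) F⟩

end Dedekind

theorem s18pp_log_le_zero {x : ℤᵐ⁰} (hx : x ≠ 0) : 0 ≤ -WithZero.log x ↔ x ≤ 1 := by
  rw [neg_nonneg, ← WithZero.log_one, WithZero.log_le_log hx one_ne_zero]

theorem s18pp_log_lt_zero {x : ℤᵐ⁰} (hx : x ≠ 0) : 0 < -WithZero.log x ↔ x < 1 := by
  rw [neg_pos, ← WithZero.log_one, WithZero.log_lt_log hx one_ne_zero]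

/-- **[PP]** `B_P` is the valuation ring of a place of `F/K`. -/
theorem s18pp_main (K F B : Type) [Field K] [CharZero K] [Field F] [Algebra K F] [CommRing B]
    [Algebra B F] (hinj : Function.Injective (algebraMap B F))
    (hic : ∀ x : F, IsIntegral B x → ∃ b, algebraMap B F b = x) (t : B)
    (ht : Transcendental K (algebraMap B F t))
    (hfin : FiniteDimensional ↥(K⟮algebraMap B F t⟯) F) (P : Ideal B) [P.IsPrime] (hP : P ≠ ⊥)
    (hK : ∀ c : K, ∃ y z : B, z ∉ P ∧ algebraMap K F c * algebraMap B F z = algebraMap B F y) :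
    ∃ Q : Place K F, (∀ b : B, 0 ≤ Q.ord (algebraMap B F b)) ∧
      (∀ b : B, b ∈ P ↔ b = 0 ∨ 0 < Q.ord (algebraMap B F b)) ∧
      ∀ x : F, 0 ≤ Q.ord x → ∃ y z : B, z ∉ P ∧ x * algebraMap B F z = algebraMap B F y := by
  classical
  letI aXF := s18pp_algXF K (algebraMap B F t)
  obtain ⟨hDed, hFrac⟩ := s18pp_dedekind K (algebraMap B F t) ht hfin
  -- `K ⊆ R`, `τ ∈ R`
  have hKR : ∀ c : K, algebraMap K F c ∈ s18pp_R F P := hK
  have hτR : algebraMap B F t ∈ s18pp_R F P := s18pp_algebraMap_mem P t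
  have haevalR : ∀ p : K[X], algebraMap K[X] F p ∈ s18pp_R F P := by
    intro p
    show aeval (algebraMap B F t) p ∈ s18pp_R F P
    rw [aeval_eq_sum_range]
    refine Subring.sum_mem _ (fun i _ => ?_)
    rw [Algebra.smul_def]
    exact Subring.mul_mem _ (hKR _) (Subring.pow_mem _ hτR i)
  letI aXR : Algebra K[X] ↥(s18pp_R F P) :=
    ((algebraMap K[X] F).codRestrict (s18pp_R F P) haevalR).toAlgebra
  haveI : IsScalarTower K[X] ↥(s18pp_R F P) F := IsScalarTower.of_algebraMap_eq' rfl
  have hCR : ∀ c : F, IsIntegral K[X] c → c ∈ s18pp_R F P := fun c hc =>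
    s18pp_mem_of_isIntegral hinj hic P (hc.tower_top)
  -- the local ring
  letI := s18pp_algBR F P
  haveI hloc := s18pp_isLocalization hinj P
  haveI : IsLocalRing ↥(s18pp_R F P) := IsLocalization.AtPrime.isLocalRing ↥(s18pp_R F P) P
  have hu1 : ∀ r : ↥(s18pp_R F P), r ∉ IsLocalRing.maximalIdeal ↥(s18pp_R F P) →
      (r : F) ≠ 0 ∧ (r : F)⁻¹ ∈ s18pp_R F P := by
    intro r hr
    have hunit : IsUnit r := by
      by_contra h
      exact hr ((IsLocalRing.mem_maximalIdeal r).2 h)
    obtain ⟨s, hs⟩ := isUnit_iff_exists_inv.1 hunit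
    have hs' : (r : F) * (s : F) = 1 := congrArg Subtype.val hs
    have hr0 : (r : F) ≠ 0 := left_ne_zero_of_mul_eq_one hs'
    refine ⟨hr0, ?_⟩
    have : (r : F)⁻¹ = (s : F) := by
      field_simp
      exact hs'.symm
    rw [this]; exact s.2
  have hu2 : ∀ b : B, (⟨algebraMap B F b, s18pp_algebraMap_mem P b⟩ : ↥(s18pp_R F P)) ∈
      IsLocalRing.maximalIdeal ↥(s18pp_R F P) ↔ b ∈ P := fun b =>
    IsLocalization.AtPrime.to_map_mem_maximal_iff ↥(s18pp_R F P) P b
  -- the prime of `C`
  let ι : ↥(integralClosure K[X] F) →+* ↥(s18pp_R F P) :=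
    ((integralClosure K[X] F).val.toRingHom).codRestrict (s18pp_R F P) (fun c => hCR c c.2)
  have hι : ∀ c, ((ι c : ↥(s18pp_R F P)) : F) = (c : F) := fun c => rfl
  have h𝔪 : (IsLocalRing.maximalIdeal ↥(s18pp_R F P)).comap ι ≠ ⊥ := by
    obtain ⟨p, hpP, hp0⟩ := Submodule.exists_mem_ne_zero_of_ne_bot hP
    have hp0' : algebraMap B F p ≠ 0 := fun h => hp0 (hinj (by rw [h, map_zero]))
    obtain ⟨c₁, c₂, hc₂, hc⟩ := IsFractionRing.div_surjective (A := ↥(integralClosure K[X] F))
      (algebraMap B F p)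
    have hc₂0 : (c₂ : F) ≠ 0 := by
      have := nonZeroDivisors.ne_zero hc₂
      intro h
      exact this (Subtype.ext h)
    have hc' : (c₁ : F) = algebraMap B F p * (c₂ : F) := by
      have : (c₁ : F) / (c₂ : F) = algebraMap B F p := hc
      field_simp at this
      rw [this, mul_comm]
    have hc₁0 : c₁ ≠ 0 := by
      intro h
      have : (c₁ : F) = 0 := by rw [h]; rfl
      rw [hc'] at this
      rcases mul_eq_zero.1 this with h1 | h1
      · exact hp0' h1
      · exact hc₂0 h1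
    intro hbot
    apply hc₁0
    have hmem : c₁ ∈ (IsLocalRing.maximalIdeal ↥(s18pp_R F P)).comap ι := by
      rw [Ideal.mem_comap]
      have : ι c₁ = (⟨algebraMap B F p, s18pp_algebraMap_mem P p⟩ : ↥(s18pp_R F P)) * ι c₂ :=
        Subtype.ext hc'
      rw [this]
      exact Ideal.mul_mem_right _ _ ((hu2 p).2 hpP)
    rw [hbot] at hmem
    exact (Submodule.mem_bot _).1 hmem
  let v : IsDedekindDomain.HeightOneSpectrum ↥(integralClosure K[X] F) :=
    ⟨(IsLocalRing.maximalIdeal ↥(s18pp_R F P)).comap ι, inferInstance, h𝔪⟩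
  have hvmem : ∀ c : ↥(integralClosure K[X] F), c ∈ v.asIdeal ↔
      ι c ∈ IsLocalRing.maximalIdeal ↥(s18pp_R F P) := fun c => Iff.rfl
  -- (i)
  have hi : ∀ x : F, v.valuation F x ≤ 1 → x ∈ s18pp_R F P := by
    intro x hx
    obtain ⟨n, ⟨d, hd⟩, h⟩ := v.exists_primeCompl_mul_eq_of_integer x hx
    have hd' : ι d ∉ IsLocalRing.maximalIdeal ↥(s18pp_R F P) := hd
    obtain ⟨hd0, hdinv⟩ := hu1 (ι d) hd'
    have hx' : x = (n : F) * (d : F)⁻¹ := by
      have h' : x * (d : F) = (n : F) := h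
      rw [← h']
      rw [hι] at hd0
      field_simp
    rw [hx']
    exact Subring.mul_mem _ (hCR n n.2) hdinv
  -- (ii)
  have hii : ∀ x : F, x ∈ s18pp_R F P → v.valuation F x ≤ 1 := by
    intro x hxR
    by_contra hlt
    rw [not_le] at hlt
    have hx0 : x ≠ 0 := by
      intro h
      rw [h, map_zero] at hlt
      exact not_lt.2 zero_le_one hlt
    have hinv : v.valuation F x⁻¹ < 1 := by
      rw [map_inv₀]
      exact inv_lt_one_of_one_lt₀ hlt
    obtain ⟨n, ⟨d, hd⟩, h⟩ := v.exists_primeCompl_mul_eq_of_integer x⁻¹ hinv.le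
    have hd' : ι d ∉ IsLocalRing.maximalIdeal ↥(s18pp_R F P) := hd
    have hvd : v.valuation F (algebraMap ↥(integralClosure K[X] F) F d) = 1 := by
      have h1 := v.valuation_le_one (K := F) d
      have h2 : ¬ v.valuation F (algebraMap ↥(integralClosure K[X] F) F d) < 1 := by
        rw [v.valuation_lt_one_iff_mem]
        exact hd
      exact le_antisymm h1 (not_lt.1 h2)
    have hvn : v.valuation F (algebraMap ↥(integralClosure K[X] F) F n) < 1 := by
      rw [← h, map_mul, hvd, mul_one]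
      exact hinv
    have hn : n ∈ v.asIdeal := (v.valuation_lt_one_iff_mem (K := F) n).1 hvn
    apply hd'
    have : ι d = ι n * (⟨x, hxR⟩ : ↥(s18pp_R F P)) := by
      apply Subtype.ext
      show (d : F) = (n : F) * x
      have h' : x⁻¹ * (d : F) = (n : F) := h
      rw [← h']
      field_simp
    rw [this]
    exact Ideal.mul_mem_right _ _ ((hvmem n).1 hn)
  -- (iii)
  have hiii : ∀ (x : F) (hxR : x ∈ s18pp_R F P),
      (⟨x, hxR⟩ : ↥(s18pp_R F P)) ∈ IsLocalRing.maximalIdeal ↥(s18pp_R F P) ↔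
        v.valuation F x < 1 := by
    intro x hxR
    constructor
    · intro hm
      refine lt_of_le_of_ne (hii x hxR) (fun h1 => ?_)
      have hx0 : x ≠ 0 := by
        intro h
        rw [h, map_zero] at h1
        exact zero_ne_one h1
      have hinvR : x⁻¹ ∈ s18pp_R F P := hi _ (by rw [map_inv₀, h1, inv_one])
      have hunit : IsUnit (⟨x, hxR⟩ : ↥(s18pp_R F P)) :=
        isUnit_iff_exists_inv.2 ⟨⟨x⁻¹, hinvR⟩, Subtype.ext (mul_inv_cancel₀ hx0)⟩
      exact (IsLocalRing.mem_maximalIdeal _).1 hm hunit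
    · intro hlt
      by_contra hm
      obtain ⟨hx0, hinvR⟩ := hu1 ⟨x, hxR⟩ hm
      have := hii _ hinvR
      rw [map_inv₀] at this
      have hx0' : v.valuation F x ≠ 0 := (Valuation.ne_zero_iff _).2 hx0
      have h1 : 1 ≤ v.valuation F x := by
        rwa [inv_le_one₀ (zero_lt_iff.2 hx0')] at this
      exact not_lt.2 h1 hlt
  -- the order function
  have hval0 : ∀ f : F, f ≠ 0 → v.valuation F f ≠ 0 := fun f hf =>
    (Valuation.ne_zero_iff _).2 hf
  obtain ⟨Q, m, hm, hw, hmem, hnonunits, hpos, hnonneg, hzero⟩ :=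
    Fermat.Agent.S24.val_exists_place_full (K := K) (F := F)
      (fun f => -WithZero.log (v.valuation F f))
      (by
        intro f g hf hg
        show -WithZero.log (v.valuation F (f * g)) = _
        rw [map_mul, WithZero.log_mul (hval0 f hf) (hval0 g hg)]
        ring)
      (by
        intro f g hf hg hfg
        show min (-WithZero.log (v.valuation F f)) (-WithZero.log (v.valuation F g)) ≤
          -WithZero.log (v.valuation F (f + g))
        rcases le_max_iff.1 (Valuation.map_add_le_max' (v.valuation F) f g) with h | h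
        · exact (min_le_left _ _).trans
            (neg_le_neg ((WithZero.log_le_log (hval0 _ hfg) (hval0 f hf)).2 h))
        · exact (min_le_right _ _).trans
            (neg_le_neg ((WithZero.log_le_log (hval0 _ hfg) (hval0 g hg)).2 h)))
      (by
        intro c hc
        show -WithZero.log (v.valuation F (algebraMap K F c)) = 0
        have h1 : v.valuation F (algebraMap K F c) ≤ 1 := hii _ (hKR c)
        have h2 : v.valuation F (algebraMap K F c⁻¹) ≤ 1 := hii _ (hKR c⁻¹)
        rw [map_inv₀, map_inv₀] at h2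
        have hc0 : v.valuation F (algebraMap K F c) ≠ 0 :=
          hval0 _ (by simpa using hc)
        have h3 : 1 ≤ v.valuation F (algebraMap K F c) := by
          rwa [inv_le_one₀ (zero_lt_iff.2 hc0)] at h2
        rw [le_antisymm h1 h3, WithZero.log_one, neg_zero])
      (by
        obtain ⟨π, hπ⟩ := v.valuation_exists_uniformizer F
        refine ⟨π, ?_, ?_⟩
        · intro h
          rw [h, map_zero] at hπ
          exact WithZero.exp_ne_zero.symm hπ
        · show -WithZero.log (v.valuation F π) ≠ 0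
          rw [hπ, WithZero.log_exp]
          norm_num)
  refine ⟨Q, ?_, ?_, ?_⟩
  · intro b
    by_cases hb : algebraMap B F b = 0
    · rw [hb, Place.ord_zero]
    · exact (hnonneg _ hb).1 ((s18pp_log_le_zero (hval0 _ hb)).2
        (hii _ (s18pp_algebraMap_mem P b)))
  · intro b
    by_cases hb : algebraMap B F b = 0
    · have hb0 : b = 0 := hinj (by rw [hb, map_zero])
      rw [hb0]
      simp
    · have hb0 : b ≠ 0 := fun h => hb (by rw [h, map_zero])
      rw [← hu2 b, hiii _ (s18pp_algebraMap_mem P b), ← s18pp_log_lt_zero (hval0 _ hb)]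
      constructor
      · intro h
        exact Or.inr ((hpos _ hb).1 h)
      · rintro (h | h)
        · exact absurd h hb0
        · exact (hpos _ hb).2 h
  · intro x hx
    by_cases hx0 : x = 0
    · exact ⟨0, 1, fun h => (Ideal.IsPrime.ne_top ‹P.IsPrime›) ((Ideal.eq_top_iff_one P).2 h),
        by rw [hx0]; simp⟩
    · exact hi x ((s18pp_log_le_zero (hval0 _ hx0)).1 ((hnonneg _ hx0).2 hx))

end Fermat.Agent.S18
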